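import Mathlib

/-!
# S18, package P8a: abstract Kummer lemmas (pure algebra, Mathlib only)

`K` a field, `Y/K` a field extension of degree `s` generated by `u` with `u ^ s = w`,
`X ^ s - w` irreducible.

* `powBasis`, `powBasis_apply` : the `K`-basis `1, u, …, u^(s-1)` of `Y`;
* `trace_eq` : `Tr_{Y/K} y = s * (coefficient of u^0 in y)`;
* `trace_mul_pow` : `Tr (y * u^(s-i)) = s * w * (coefficient of u^i in y)` for `0 < i < s`;
* `eps`, `eps_sq_sub` : the sheet idempotent `eps = (1/s) ∑ u^i` and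
  `eps^2 - eps = (u^s - 1) * (s⁻¹^2 * tee)`;
* `trace_nondegenerate` (K1) : nondegeneracy of the trace form of the integral closure at a prime
  where `w` is a unit times an `s`-th power;
* `eps_mem`, `eps_idem` (K2) : `eps` lies in the integral closure of the local ring at `(π)` and is
  an idempotent modulo `π` there;
* `no_constant` (K3) : `eps` is not congruent to an element of `K` modulo `π`.
-/

set_option autoImplicit false

open Polynomial

namespace Fermat.Agent.S18.Kummer

noncomputable section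

section Identity

variable {Y : Type*} [CommRing Y]

/-- `tee s u = ∑_{i<s} ∑_{j<i} u^j`. -/
def tee (s : ℕ) (u : Y) : Y := ∑ i ∈ Finset.range s, ∑ j ∈ Finset.range i, u ^ j

theorem geom_sub_card (s : ℕ) (u : Y) :
    (∑ i ∈ Finset.range s, u ^ i) - s = (u - 1) * tee s u := by
  unfold tee
  rw [Finset.mul_sum]
  have h : ∀ i ∈ Finset.range s, (u - 1) * ∑ j ∈ Finset.range i, u ^ j = u ^ i - 1 :=
    fun i _ => mul_geom_sum u i
  rw [Finset.sum_congr rfl h, Finset.sum_sub_distrib]
  simp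

theorem geom_identity (s : ℕ) (u : Y) :
    (∑ i ∈ Finset.range s, u ^ i) * ((∑ i ∈ Finset.range s, u ^ i) - s) =
      (u ^ s - 1) * tee s u := by
  rw [geom_sub_card, ← mul_assoc, geom_sum_mul]

end Identity

section Field

variable {K Y : Type*} [Field K] [Field Y] [Algebra K Y]

/-- The sheet idempotent `(1/s) ∑_{i<s} u^i`. -/
def eps (s : ℕ) (u : Y) : Y := (s : Y)⁻¹ * ∑ i ∈ Finset.range s, u ^ i

theorem eps_sq_sub (s : ℕ) (hs : (s : Y) ≠ 0) (u : Y) :
    eps s u ^ 2 - eps s u = (u ^ s - 1) * ((s : Y)⁻¹ ^ 2 * tee s u) := by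
  have h := geom_identity s u
  unfold eps
  have : ((s : Y)⁻¹ * ∑ i ∈ Finset.range s, u ^ i) ^ 2 - (s : Y)⁻¹ * ∑ i ∈ Finset.range s, u ^ i
      = (s : Y)⁻¹ ^ 2 * ((∑ i ∈ Finset.range s, u ^ i) * ((∑ i ∈ Finset.range s, u ^ i) - s)) := by
    field_simp
  rw [this, h]
  ring

theorem sub_one_mul_eps (s : ℕ) (u : Y) :
    (u - 1) * eps s u = (s : Y)⁻¹ * (u ^ s - 1) := by
  unfold eps
  rw [mul_left_comm, mul_geom_sum]

variable (s : ℕ) (u : Y) (w : K)

theorem minpoly_eq (hs : s ≠ 0) (huw : u ^ s = algebraMap K Y w)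
    (hirr : Irreducible (X ^ s - C w : K[X])) : minpoly K u = X ^ s - C w := by
  symm
  apply minpoly.eq_of_irreducible_of_monic hirr
  · simp [huw]
  · exact monic_X_pow_sub_C w hs

theorem linearIndependent_pow_fin (hs : s ≠ 0) (huw : u ^ s = algebraMap K Y w)
    (hirr : Irreducible (X ^ s - C w : K[X])) :
    LinearIndependent K (fun i : Fin s => u ^ (i : ℕ)) := by
  have h := linearIndependent_pow (K := K) u
  have hn : (minpoly K u).natDegree = s := by
    rw [minpoly_eq s u w hs huw hirr, natDegree_X_pow_sub_C]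
  exact h.comp (Fin.cast hn.symm) (Fin.cast_injective _)

/-- The power basis `1, u, …, u^(s-1)`. -/
def powBasis (hs : s ≠ 0) (huw : u ^ s = algebraMap K Y w)
    (hirr : Irreducible (X ^ s - C w : K[X])) (hdeg : Module.finrank K Y = s) :
    Module.Basis (Fin s) K Y :=
  haveI : Nonempty (Fin s) := ⟨⟨0, Nat.pos_of_ne_zero hs⟩⟩
  basisOfLinearIndependentOfCardEqFinrank (linearIndependent_pow_fin s u w hs huw hirr)
    (by simp [hdeg])

theorem powBasis_apply (hs : s ≠ 0) (huw : u ^ s = algebraMap K Y w)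
    (hirr : Irreducible (X ^ s - C w : K[X])) (hdeg : Module.finrank K Y = s) (i : Fin s) :
    powBasis s u w hs huw hirr hdeg i = u ^ (i : ℕ) := by
  have : Nonempty (Fin s) := ⟨⟨0, Nat.pos_of_ne_zero hs⟩⟩
  unfold powBasis
  rw [coe_basisOfLinearIndependentOfCardEqFinrank]

section Repr

variable {s : ℕ} {u : Y} {w : K} (b : Module.Basis (Fin s) K Y)

theorem repr_pow (hb : ∀ i : Fin s, b i = u ^ (i : ℕ)) (e : ℕ) (he : e < s) (i : Fin s) :
    b.repr (u ^ e) i = if (i : ℕ) = e then 1 else 0 := by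
  have h1 : u ^ e = b ⟨e, he⟩ := (hb ⟨e, he⟩).symm
  rw [h1, Module.Basis.repr_self, Finsupp.single_apply]
  by_cases h : (i : ℕ) = e
  · rw [if_pos h, if_pos (Fin.ext h.symm)]
  · rw [if_neg h, if_neg (fun h' => h (by rw [← h']))]

theorem repr_pow_add (hb : ∀ i : Fin s, b i = u ^ (i : ℕ)) (huw : u ^ s = algebraMap K Y w)
    (e : ℕ) (he : e < s) (i : Fin s) :
    b.repr (u ^ (s + e)) i = if (i : ℕ) = e then w else 0 := by
  have h1 : u ^ (s + e) = w • u ^ e := by
    rw [pow_add, huw, Algebra.smul_def]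
  rw [h1, map_smul, Finsupp.smul_apply, repr_pow b hb e he i, smul_eq_mul]
  split_ifs <;> simp

/-- `Tr(u^k) = s` if `k = 0` and `0` if `0 < k < s`. -/
theorem trace_pow (hb : ∀ i : Fin s, b i = u ^ (i : ℕ)) (huw : u ^ s = algebraMap K Y w)
    (k : ℕ) (hk : k < s) :
    Algebra.trace K Y (u ^ k) = if k = 0 then (s : K) else 0 := by
  classical
  rw [Algebra.trace_eq_matrix_trace b, Matrix.trace]
  simp only [Matrix.diag_apply, Algebra.leftMulMatrix_eq_repr_mul]
  have key : ∀ j : Fin s, b.repr (u ^ k * b j) j = if k = 0 then 1 else 0 := by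
    intro j
    rw [hb j, ← pow_add]
    by_cases hkj : k + (j : ℕ) < s
    · rw [repr_pow b hb _ hkj j]
      by_cases hk0 : k = 0
      · rw [if_pos hk0, if_pos (by omega)]
      · rw [if_neg hk0, if_neg (by omega)]
    · have hj := j.2
      obtain ⟨e, he⟩ : ∃ e, k + (j : ℕ) = s + e := ⟨k + j - s, by omega⟩
      rw [he, repr_pow_add b hb huw e (by omega) j, if_neg (by omega), if_neg (by omega)]
  rw [Finset.sum_congr rfl (fun j _ => key j)]
  by_cases hk0 : k = 0
  · simp [hk0]
  · simp [hk0]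

/-- `Tr y = s * (coefficient of u^0 in y)`. -/
theorem trace_eq (hb : ∀ i : Fin s, b i = u ^ (i : ℕ)) (huw : u ^ s = algebraMap K Y w)
    (hs : 0 < s) (y : Y) :
    Algebra.trace K Y y = (s : K) * b.repr y ⟨0, hs⟩ := by
  have hlin : Algebra.trace K Y = (s : K) • (b.coord ⟨0, hs⟩) := by
    apply b.ext
    intro i
    rw [hb i, trace_pow b hb huw i i.2, LinearMap.smul_apply, Module.Basis.coord_apply,
      repr_pow b hb i i.2, smul_eq_mul]
    by_cases hi : (i : ℕ) = 0
    · rw [if_pos hi, if_pos (by simp [hi])]; simp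
    · rw [if_neg hi, if_neg (by simpa using fun h : (0 : ℕ) = i => hi h.symm)]; simp
  rw [hlin, LinearMap.smul_apply, Module.Basis.coord_apply, smul_eq_mul]

/-- coefficient extraction: the `u^0`-coefficient of `y * u^(s-i)` is `w` times the
`u^i`-coefficient of `y`, for `0 < i < s`. -/
theorem repr_mul_pow (hb : ∀ i : Fin s, b i = u ^ (i : ℕ)) (huw : u ^ s = algebraMap K Y w)
    (hs : 0 < s) (i : Fin s) (hi : 0 < (i : ℕ)) (y : Y) :
    b.repr (y * u ^ (s - (i : ℕ))) ⟨0, hs⟩ = w * b.repr y i := by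
  have hlin : (b.coord ⟨0, hs⟩) ∘ₗ (LinearMap.mulRight K (u ^ (s - (i : ℕ)))) =
      w • (b.coord i) := by
    apply b.ext
    intro k
    rw [LinearMap.comp_apply, LinearMap.mulRight_apply, LinearMap.smul_apply,
      Module.Basis.coord_apply, Module.Basis.coord_apply, hb k, ← pow_add,
      repr_pow b hb k k.2 i, smul_eq_mul]
    have hi2 := i.2
    have hk2 := k.2
    by_cases hki : (k : ℕ) < (i : ℕ)
    · rw [repr_pow b hb _ (by omega) ⟨0, hs⟩, if_neg (by simp; omega), if_neg (by omega)]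
      simp
    · obtain ⟨e, he⟩ : ∃ e, (k : ℕ) + (s - (i : ℕ)) = s + e := ⟨k - i, by omega⟩
      rw [he, repr_pow_add b hb huw e (by omega) ⟨0, hs⟩]
      by_cases hik : (i : ℕ) = k
      · rw [if_pos (by simp; omega), if_pos hik]; simp
      · rw [if_neg (by simp; omega), if_neg hik]; simp
  have := congrArg (fun f => f y) hlin
  simpa using this

/-- `Tr (y * u^(s-i)) = s * w * (coefficient of u^i in y)` for `0 < i < s`. -/
theorem trace_mul_pow (hb : ∀ i : Fin s, b i = u ^ (i : ℕ)) (huw : u ^ s = algebraMap K Y w)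
    (hs : 0 < s) (i : Fin s) (hi : 0 < (i : ℕ)) (y : Y) :
    Algebra.trace K Y (y * u ^ (s - (i : ℕ))) = (s : K) * (w * b.repr y i) := by
  rw [trace_eq b hb huw hs, repr_mul_pow b hb huw hs i hi]

theorem trace_eps (hb : ∀ i : Fin s, b i = u ^ (i : ℕ)) (huw : u ^ s = algebraMap K Y w)
    (hs : 0 < s) (hsK : (s : K) ≠ 0) :
    Algebra.trace K Y (eps s u) = 1 := by
  have hsY : (s : Y) = algebraMap K Y (s : K) := by simp
  unfold eps
  rw [hsY, ← map_inv₀, ← Algebra.smul_def, map_smul, map_sum]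
  have h : ∀ i ∈ Finset.range s, Algebra.trace K Y (u ^ i) = if i = 0 then (s : K) else 0 :=
    fun i hi => trace_pow b hb huw i (Finset.mem_range.mp hi)
  rw [Finset.sum_congr rfl h, Finset.sum_ite_eq' (Finset.range s) 0 (fun _ => (s : K)),
    if_pos (Finset.mem_range.mpr hs), smul_eq_mul, inv_mul_cancel₀ hsK]

end Repr

end Field

section NoConstant

variable {K Y O : Type*} [Field K] [Field Y] [Algebra K Y] [CommRing O] [Algebra O K]
  [Algebra O Y] [IsScalarTower O K Y]

/-- **(K3) No constant.**  `O` a subring of `K` integrally closed in `K` (e.g. a valuation ring),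
`π ∈ O` a non-unit, `s` a unit of `O`, `w ≡ 1 mod π`.  Then the sheet idempotent
`eps = (1/s) ∑ u^i` of the Kummer extension `Y = K(u)`, `u^s = w`, is **not** congruent modulo
`π · (integral closure of O in Y)` to any element of `K`. -/
theorem no_constant
    (hO : ∀ x : K, IsIntegral O x → ∃ a : O, algebraMap O K a = x)
    (s : ℕ) (hs : 2 ≤ s) (u : Y) (w : K) (huw : u ^ s = algebraMap K Y w)
    (hirr : Irreducible (X ^ s - C w : K[X])) (hdeg : Module.finrank K Y = s)
    (π ω sinv : O) (hsinv : algebraMap O K sinv * (s : K) = 1)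
    (hπ : ∀ a : O, algebraMap O K (π * a) ≠ 1)
    (hw : w - 1 = algebraMap O K (π * ω))
    (c : K) (γ : Y) (hγ : IsIntegral O γ)
    (h : eps s u - algebraMap K Y c = algebraMap O Y π * γ) : False := by
  have hs0 : s ≠ 0 := by omega
  have hspos : 0 < s := by omega
  have hsK : (s : K) ≠ 0 := by
    intro h0
    rw [h0, mul_zero] at hsinv
    exact zero_ne_one hsinv
  have hb := powBasis_apply s u w hs0 huw hirr hdeg
  set b := powBasis s u w hs0 huw hirr hdeg
  have : FiniteDimensional K Y := Module.finite_of_finrank_pos (by rw [hdeg]; exact hspos)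
  have hOY : ∀ a : O, algebraMap O Y a = algebraMap K Y (algebraMap O K a) :=
    fun a => IsScalarTower.algebraMap_apply O K Y a
  have hu_int : IsIntegral O u := by
    apply IsIntegral.of_pow hspos
    have hw' : w = algebraMap O K (1 + π * ω) := by
      rw [map_add, map_one, ← hw]; ring
    rw [huw, hw', ← hOY]
    exact isIntegral_algebraMap
  have trace_int : ∀ z : Y, IsIntegral O z → ∃ a : O, algebraMap O K a = Algebra.trace K Y z :=
    fun z hz => hO _ (Algebra.isIntegral_trace hz)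
  have trace_smul : ∀ (a : K) (z : Y), Algebra.trace K Y (algebraMap K Y a * z) =
      a * Algebra.trace K Y z := by
    intro a z
    rw [← Algebra.smul_def, map_smul, smul_eq_mul]
  have hsinvY : (s : Y)⁻¹ = algebraMap O Y sinv := by
    have h1 : algebraMap O K sinv = (s : K)⁻¹ := eq_inv_of_mul_eq_one_left hsinv
    rw [hOY, h1, map_inv₀, map_natCast]
  -- step 1 : (u - 1) * c ∈ π * (integral)
  set δ : Y := algebraMap O Y (sinv * ω) - (u - 1) * γ with hδdef
  have hδ : IsIntegral O δ :=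
    isIntegral_algebraMap.sub ((hu_int.sub isIntegral_one).mul hγ)
  have e3 : u ^ s - 1 = algebraMap O Y (π * ω) := by
    rw [huw, ← map_one (algebraMap K Y), ← map_sub, hw, ← hOY]
  have h1 : (u - 1) * algebraMap K Y c = algebraMap O Y π * δ := by
    have e1 : (u - 1) * eps s u = (s : Y)⁻¹ * (u ^ s - 1) := sub_one_mul_eps s u
    have e0 : algebraMap K Y c = eps s u - algebraMap O Y π * γ := by rw [← h]; ring
    rw [e0, mul_sub, e1, e3, hsinvY, hδdef, map_mul, map_mul]
    ring
  have t1 : Algebra.trace K Y ((u - 1) * algebraMap K Y c) = -(s : K) * c := by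
    rw [mul_comm, trace_smul, map_sub]
    have hu1 : Algebra.trace K Y u = 0 := by
      have := trace_pow b hb huw 1 (by omega)
      rw [pow_one] at this
      rw [this, if_neg one_ne_zero]
    have h11 : Algebra.trace K Y (1 : Y) = (s : K) := by
      have := trace_pow b hb huw 0 hspos
      rw [pow_zero] at this
      rw [this, if_pos rfl]
    rw [hu1, h11]
    ring
  obtain ⟨d₁, hd₁⟩ := trace_int δ hδ
  have hc : c = algebraMap O K (π * (-(sinv * d₁))) := by
    have h2 : -(s : K) * c = algebraMap O K π * algebraMap O K d₁ := by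
      rw [← t1, h1, hOY, trace_smul, hd₁]
    have h3 : c = algebraMap O K sinv * (s : K) * c := by rw [hsinv, one_mul]
    rw [h3, map_mul, map_neg, map_mul]
    linear_combination (-(algebraMap O K sinv)) * h2
  -- step 2 : eps ∈ π * (integral)
  set γ₂ : Y := algebraMap O Y (-(sinv * d₁)) + γ with hγ₂def
  have hγ₂ : IsIntegral O γ₂ := isIntegral_algebraMap.add hγ
  have h2 : eps s u = algebraMap O Y π * γ₂ := by
    have e0 : eps s u = algebraMap K Y c + algebraMap O Y π * γ := by rw [← h]; ring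
    rw [e0, hc, ← hOY, map_mul, hγ₂def]
    ring
  obtain ⟨d₂, hd₂⟩ := trace_int γ₂ hγ₂
  have h3 : (1 : K) = algebraMap O K (π * d₂) := by
    rw [← trace_eps b hb huw hspos hsK, h2, hOY, trace_smul, ← hd₂, map_mul]
  exact hπ d₂ h3.symm

end NoConstant

section Integral

variable {R K Y B : Type*} [CommRing R] [Field K] [Algebra R K] [IsFractionRing R K]
  [Field Y] [Algebra K Y] [Algebra R Y] [IsScalarTower R K Y]
  [CommRing B] [Algebra R B] [Algebra B Y] [IsScalarTower R B Y] [IsIntegralClosure B R Y]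

omit [Algebra R Y] [IsScalarTower R K Y] in
/-- The key identity behind (K1): if `w * n₂ = n₁ * g^s` and `v = (n₂/g) u` (so that
`v^s = m := n₁ n₂^(s-1)`), then for every `y ∈ Y`:
`s * m * y = ∑_{i<s} Tr(y * v^(s-i)) * v^i`. -/
theorem smul_eq_sum_trace
    (s : ℕ) (hs : 2 ≤ s) (u : Y) (w : K) (huw : u ^ s = algebraMap K Y w)
    (hirr : Irreducible (X ^ s - C w : K[X])) (hdeg : Module.finrank K Y = s)
    (n₁ n₂ : R) (hn₂ : n₂ ≠ 0) (g : K) (hg : g ≠ 0)
    (hw : w * algebraMap R K n₂ = algebraMap R K n₁ * g ^ s) (y : Y) :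
    algebraMap K Y ((s : K) * algebraMap R K (n₁ * n₂ ^ (s - 1))) * y =
      ∑ i : Fin s, algebraMap K Y (Algebra.trace K Y
        (y * (algebraMap K Y (algebraMap R K n₂ / g) * u) ^ (s - (i : ℕ)))) *
        (algebraMap K Y (algebraMap R K n₂ / g) * u) ^ (i : ℕ) := by
  have hs0 : s ≠ 0 := by omega
  have hspos : 0 < s := by omega
  have hb := powBasis_apply s u w hs0 huw hirr hdeg
  set b := powBasis s u w hs0 huw hirr hdeg
  have hc₂ : algebraMap R K n₂ ≠ 0 := by
    rw [Ne, IsFractionRing.to_map_eq_zero_iff]; exact hn₂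
  set ρ : K := algebraMap R K n₂ / g with hρdef
  set mK : K := algebraMap R K (n₁ * n₂ ^ (s - 1)) with hmK
  have hρ : ρ ^ s * w = mK := by
    have hs1 : s = (s - 1) + 1 := by omega
    have : ρ ^ s * w = (algebraMap R K n₂) ^ (s - 1) * (w * algebraMap R K n₂) / g ^ s := by
      rw [hρdef, div_pow]
      conv_lhs => rw [hs1, pow_succ]
      rw [← hs1]
      field_simp
    rw [this, hw, hmK, map_mul, map_pow]
    field_simp
  set v : Y := algebraMap K Y ρ * u with hvdef
  have hvpow : ∀ e : ℕ, v ^ e = algebraMap K Y (ρ ^ e) * u ^ e := by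
    intro e; rw [hvdef, mul_pow, map_pow]
  have trace_smul : ∀ (a : K) (z : Y), Algebra.trace K Y (algebraMap K Y a * z) =
      a * Algebra.trace K Y z := by
    intro a z
    rw [← Algebra.smul_def, map_smul, smul_eq_mul]
  -- per-term identity
  have key : ∀ i : Fin s, algebraMap K Y (Algebra.trace K Y (y * v ^ (s - (i : ℕ)))) * v ^ (i : ℕ)
      = algebraMap K Y ((s : K) * mK * b.repr y i) * u ^ (i : ℕ) := by
    intro i
    by_cases hi : (i : ℕ) = 0
    · have hi' : i = ⟨0, hspos⟩ := Fin.ext hi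
      rw [hi, Nat.sub_zero, pow_zero, pow_zero, hvpow s, huw, ← map_mul, hρ, mul_comm y,
        trace_smul, trace_eq b hb huw hspos y, hi']
      congr 2
      ring
    · have hipos : 0 < (i : ℕ) := Nat.pos_of_ne_zero hi
      have hi2 := i.2
      rw [hvpow (s - (i : ℕ)), hvpow (i : ℕ), mul_left_comm y, trace_smul,
        trace_mul_pow b hb huw hspos i hipos y, ← mul_assoc, ← map_mul]
      congr 2
      have hsplit : ρ ^ (s - (i : ℕ)) * ρ ^ (i : ℕ) = ρ ^ s := by
        rw [← pow_add]; congr 1; omega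
      calc ρ ^ (s - (i : ℕ)) * ((s : K) * (w * b.repr y i)) * ρ ^ (i : ℕ)
          = (ρ ^ (s - (i : ℕ)) * ρ ^ (i : ℕ)) * w * ((s : K) * b.repr y i) := by ring
        _ = (s : K) * mK * b.repr y i := by rw [hsplit, hρ]; ring
  rw [Finset.sum_congr rfl (fun i _ => key i)]
  conv_lhs => rw [← b.sum_repr y, Finset.mul_sum]
  refine Finset.sum_congr rfl (fun i _ => ?_)
  rw [hb i, Algebra.smul_def, ← mul_assoc, ← map_mul]

/-- **(K1) Unramified at `𝔭`** (trace-form currency).  `R` a domain with fraction field `K`,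
`B` the integral closure of `R` in the Kummer extension `Y = K(u)`, `u^s = w`.  If `𝔭` is a prime
of `R` with `s ∉ 𝔭` and `w = (n₁/n₂) g^s` with `n₁, n₂ ∈ R \ 𝔭`, then the trace form of `B` is
nondegenerate at `𝔭`: every `x ∈ B` with `Tr(x B) ⊆ 𝔭` satisfies `t • x ∈ 𝔭 B` for some
`t ∉ 𝔭` (namely `t = s n₁ n₂^(s-1)`). -/
theorem trace_nondegenerate
    (s : ℕ) (hs : 2 ≤ s) (u : Y) (w : K) (huw : u ^ s = algebraMap K Y w)
    (hirr : Irreducible (X ^ s - C w : K[X])) (hdeg : Module.finrank K Y = s)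
    (𝔭 : Ideal R) (h𝔭 : 𝔭.IsPrime) (hs𝔭 : (s : R) ∉ 𝔭)
    (n₁ n₂ : R) (hn₁ : n₁ ∉ 𝔭) (hn₂ : n₂ ∉ 𝔭) (g : K) (hg : g ≠ 0)
    (hw : w * algebraMap R K n₂ = algebraMap R K n₁ * g ^ s)
    (x : B)
    (hx : ∀ y : B, ∃ a ∈ 𝔭, Algebra.trace K Y (algebraMap B Y (x * y)) = algebraMap R K a) :
    ∃ t : R, t ∉ 𝔭 ∧ t • x ∈ 𝔭 • (⊤ : Submodule R B) := by
  have hspos : 0 < s := by omega
  have hn₂0 : n₂ ≠ 0 := fun h0 => hn₂ (h0 ▸ 𝔭.zero_mem)
  have hc₂ : algebraMap R K n₂ ≠ 0 := by
    rw [Ne, IsFractionRing.to_map_eq_zero_iff]; exact hn₂0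
  set ρ : K := algebraMap R K n₂ / g with hρdef
  set v : Y := algebraMap K Y ρ * u with hvdef
  set m : R := n₁ * n₂ ^ (s - 1) with hm
  have hRY : ∀ a : R, algebraMap R Y a = algebraMap K Y (algebraMap R K a) :=
    fun a => IsScalarTower.algebraMap_apply R K Y a
  have hvs : v ^ s = algebraMap R Y m := by
    have hs1 : s = (s - 1) + 1 := by omega
    rw [hvdef, mul_pow, huw, ← map_pow, ← map_mul, hRY]
    congr 1
    have : ρ ^ s * w = (algebraMap R K n₂) ^ (s - 1) * (w * algebraMap R K n₂) / g ^ s := by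
      rw [hρdef, div_pow]
      conv_lhs => rw [hs1, pow_succ]
      rw [← hs1]
      field_simp
    rw [this, hw, hm, map_mul, map_pow]
    field_simp
  have hvint : IsIntegral R v := by
    apply IsIntegral.of_pow hspos
    rw [hvs]; exact isIntegral_algebraMap
  set vB : B := IsIntegralClosure.mk' B v hvint with hvB
  have hvBv : algebraMap B Y vB = v := IsIntegralClosure.algebraMap_mk' B v hvint
  choose p hp𝔭 hp using fun i : Fin s => hx (vB ^ (s - (i : ℕ)))
  refine ⟨(s : R) * m, ?_, ?_⟩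
  · intro hmem
    rcases h𝔭.mem_or_mem hmem with h | h
    · exact hs𝔭 h
    · rcases h𝔭.mem_or_mem h with h | h
      · exact hn₁ h
      · exact hn₂ (h𝔭.mem_of_pow_mem _ h)
  · have hsum : ((s : R) * m) • x = ∑ i : Fin s, p i • vB ^ (i : ℕ) := by
      apply IsIntegralClosure.algebraMap_injective B R Y
      have h1 := smul_eq_sum_trace (R := R) s hs u w huw hirr hdeg n₁ n₂ hn₂0 g hg hw
        (algebraMap B Y x)
      rw [Algebra.smul_def, map_mul, ← IsScalarTower.algebraMap_apply, hRY, map_mul,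
        map_natCast, h1, map_sum]
      refine Finset.sum_congr rfl (fun i _ => ?_)
      have h2 := hp i
      rw [map_mul, map_pow, hvBv] at h2
      rw [h2, Algebra.smul_def, map_mul, map_pow, hvBv,
        ← IsScalarTower.algebraMap_apply R B Y (p i), hRY]
    rw [hsum]
    exact Submodule.sum_mem _ (fun i _ => Submodule.smul_mem_smul (hp𝔭 i) Submodule.mem_top)

omit [IsFractionRing R K] [Algebra R B] [IsScalarTower R B Y] in
/-- `n₂ u` is integral over `R` when `w = n₁/n₂`: the element of `B` with image `n₂ u`. -/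
theorem exists_scaled_gen
    (s : ℕ) (hs : 0 < s) (u : Y) (w : K) (huw : u ^ s = algebraMap K Y w)
    (n₁ n₂ : R) (hw : w * algebraMap R K n₂ = algebraMap R K n₁) :
    ∃ vB : B, algebraMap B Y vB = algebraMap R Y n₂ * u := by
  have hRY : ∀ a : R, algebraMap R Y a = algebraMap K Y (algebraMap R K a) :=
    fun a => IsScalarTower.algebraMap_apply R K Y a
  have hvs : (algebraMap R Y n₂ * u) ^ s = algebraMap R Y (n₂ ^ (s - 1) * n₁) := by
    have hs1 : s = (s - 1) + 1 := by omega
    rw [mul_pow, huw, hRY, hRY, ← map_pow, ← map_mul]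
    congr 1
    rw [map_mul, map_pow, ← hw]
    conv_lhs => rw [hs1, pow_succ]
    ring
  have hvint : IsIntegral R (algebraMap R Y n₂ * u) := by
    apply IsIntegral.of_pow hs
    rw [hvs]; exact isIntegral_algebraMap
  exact ⟨IsIntegralClosure.mk' B _ hvint, IsIntegralClosure.algebraMap_mk' B _ hvint⟩

omit [IsFractionRing R K] in
/-- **(K2a)** `eps` lies in the integral closure of the localisation of `R` at any prime not
containing `s n₂`: explicitly `(s n₂^(s-1)) • eps ∈ B`. -/
theorem eps_mem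
    (s : ℕ) (hs : 0 < s) (hsK : (s : K) ≠ 0) (u : Y) (w : K) (huw : u ^ s = algebraMap K Y w)
    (n₁ n₂ : R) (hw : w * algebraMap R K n₂ = algebraMap R K n₁) :
    ∃ b : B, ((s : R) * n₂ ^ (s - 1)) • eps s u = algebraMap B Y b := by
  obtain ⟨vB, hvB⟩ := exists_scaled_gen (B := B) s hs u w huw n₁ n₂ hw
  have hsY : (s : Y) ≠ 0 := by
    have : (s : Y) = algebraMap K Y (s : K) := by simp
    rw [this]; exact (map_ne_zero (algebraMap K Y)).mpr hsK
  refine ⟨∑ i ∈ Finset.range s, algebraMap R B (n₂ ^ (s - 1 - i)) * vB ^ i, ?_⟩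
  rw [map_sum, Algebra.smul_def, map_mul, map_natCast]
  unfold eps
  rw [mul_assoc, mul_left_comm, ← mul_assoc (s : Y), mul_inv_cancel₀ hsY, one_mul, Finset.mul_sum]
  refine Finset.sum_congr rfl (fun i hi => ?_)
  have hi' : i < s := Finset.mem_range.mp hi
  rw [map_mul, map_pow (algebraMap B Y) vB i, hvB, ← IsScalarTower.algebraMap_apply R B Y,
    mul_pow, ← map_pow, ← mul_assoc, ← map_mul, ← pow_add]
  congr 3
  omega

omit [IsFractionRing R K] in
/-- **(K2b)** `eps` is an idempotent modulo `π` (in the integral closure of the Gauss ring):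
if `w = n₁/n₂` and `w - 1 = π o₁/o₂` then
`(s² o₂ n₂^(s-2)) • (eps² - eps) = π • b` for some `b ∈ B`. -/
theorem eps_idem
    (s : ℕ) (hs : 2 ≤ s) (hsK : (s : K) ≠ 0) (u : Y) (w : K) (huw : u ^ s = algebraMap K Y w)
    (n₁ n₂ : R) (hw : w * algebraMap R K n₂ = algebraMap R K n₁)
    (π o₁ o₂ : R) (hω : (w - 1) * algebraMap R K o₂ = algebraMap R K (π * o₁)) :
    ∃ b : B, ((s : R) ^ 2 * o₂ * n₂ ^ (s - 2)) • (eps s u ^ 2 - eps s u) =
      π • algebraMap B Y b := by
  obtain ⟨vB, hvB⟩ := exists_scaled_gen (B := B) s (by omega) u w huw n₁ n₂ hw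
  have hRY : ∀ a : R, algebraMap R Y a = algebraMap K Y (algebraMap R K a) :=
    fun a => IsScalarTower.algebraMap_apply R K Y a
  have hsY : (s : Y) ≠ 0 := by
    have : (s : Y) = algebraMap K Y (s : K) := by simp
    rw [this]; exact (map_ne_zero (algebraMap K Y)).mpr hsK
  refine ⟨algebraMap R B o₁ * ∑ i ∈ Finset.range s, ∑ j ∈ Finset.range i,
    algebraMap R B (n₂ ^ (s - 2 - j)) * vB ^ j, ?_⟩
  have h1 : u ^ s - 1 = algebraMap K Y (w - 1) := by rw [map_sub, map_one, huw]
  have h2 : algebraMap R Y o₂ * (u ^ s - 1) = algebraMap R Y (π * o₁) := by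
    rw [h1, hRY, hRY, ← map_mul, mul_comm, hω]
  have h3 : algebraMap R Y (n₂ ^ (s - 2)) * tee s u =
      ∑ i ∈ Finset.range s, ∑ j ∈ Finset.range i,
        algebraMap R Y (n₂ ^ (s - 2 - j)) * (algebraMap R Y n₂ * u) ^ j := by
    unfold tee
    rw [Finset.mul_sum]
    refine Finset.sum_congr rfl (fun i hi => ?_)
    rw [Finset.mul_sum]
    refine Finset.sum_congr rfl (fun j hj => ?_)
    have hi' : i < s := Finset.mem_range.mp hi
    have hj' : j < i := Finset.mem_range.mp hj
    rw [mul_pow, ← map_pow, ← mul_assoc, ← map_mul, ← pow_add]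
    congr 3
    omega
  rw [eps_sq_sub s hsY u, Algebra.smul_def, Algebra.smul_def, map_mul, map_mul, map_pow,
    map_natCast, map_mul, map_sum, ← IsScalarTower.algebraMap_apply]
  have h4 : ∀ i ∈ Finset.range s, algebraMap B Y (∑ j ∈ Finset.range i,
      algebraMap R B (n₂ ^ (s - 2 - j)) * vB ^ j) =
      ∑ j ∈ Finset.range i, algebraMap R Y (n₂ ^ (s - 2 - j)) * (algebraMap R Y n₂ * u) ^ j := by
    intro i _
    rw [map_sum]
    refine Finset.sum_congr rfl (fun j _ => ?_)
    rw [map_mul, map_pow (algebraMap B Y) vB j, hvB, ← IsScalarTower.algebraMap_apply R B Y]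
  rw [Finset.sum_congr rfl h4, ← h3]
  calc (s : Y) ^ 2 * algebraMap R Y o₂ * algebraMap R Y (n₂ ^ (s - 2)) *
        ((u ^ s - 1) * ((s : Y)⁻¹ ^ 2 * tee s u))
      = ((s : Y) ^ 2 * (s : Y)⁻¹ ^ 2) * (algebraMap R Y o₂ * (u ^ s - 1)) *
          (algebraMap R Y (n₂ ^ (s - 2)) * tee s u) := by ring
    _ = algebraMap R Y π * (algebraMap R Y o₁ * (algebraMap R Y (n₂ ^ (s - 2)) * tee s u)) := by
        rw [h2, ← mul_pow, mul_inv_cancel₀ hsY, one_pow, one_mul, map_mul]; ring

end Integral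

end

end Fermat.Agent.S18.Kummer
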