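/-
S18, package K0: the contracts between the final assembly and the chart packages.

Everything is stated for a GENERIC coefficient field `L` with an embedding `ι : L → ℚ̄`, a
valuation subring `W` of `L`, and a GENERIC field `F2` over `F = S24.FF L N` containing an
`s`-th root `u` of the Kummer datum `w`.  Integrality is expressed along explicit ring
homomorphisms (no algebra instances on `F2` over `W` or over `W[X]` are needed).

* `KData ℓ ι W N s Z1 Z2` : the data at the level of the discrete valuation ring `W`;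
* `toF2`, `jF2`, `evAt`, `IsGaussJ` : the shared vocabulary;
* `FiniteChartLift N ℓ` : the sheet idempotent `eps s u` lifts to the chart `W[j]`;
* `CuspChartLift N ℓ` : the sheet idempotent lifts to the chart `W[1/j, 1/(j - 1728)]`.
-/
import Mathlib
import Fermat.Prelude.Def_ModularCurve_ReductionModL
import Fermat.Agent.S24.Defs
import Fermat.Agent.S18.Kummer

set_option autoImplicit false

namespace Fermat.Agent.S18

open ModularCurve AlgebraicCurve Polynomial

namespace Contracts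

local notation "Qb" => AlgebraicClosure ℚ

/-- **The DVR-level data.**  `W` is a discrete valuation ring of the coefficient field `L`
(embedded in `ℚ̄` by `ι`) with algebraically closed residue field of characteristic `ℓ ∤ N`,
`L` contains all roots of unity of order prime to `ℓ`; `Z1, Z2` are series with coefficients
in `W` lying in `F_L`, with equal nonzero reductions, whose quotient has all its orders
divisible by the prime `s ≠ ℓ` and is not an `s`-th power in `F_L`. -/
structure KData (ℓ : ℕ) {L : Type} [Field L] [Algebra ℚ L] (ι : L →+* Qb)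
    (W : ValuationSubring L) (N : ℕ) [NeZero N] (s : ℕ) (Z1 Z2 : LaurentSeries ↥W) : Prop where
  prime_l : ℓ.Prime
  not_dvd : ¬ ℓ ∣ N
  dvr : IsDiscreteValuationRing ↥W
  closed : IsAlgClosed (IsLocalRing.ResidueField ↥W)
  char : CharP (IsLocalRing.ResidueField ↥W) ℓ
  roots : ∀ x : Qb, (∃ n : ℕ, ¬ ℓ ∣ n ∧ x ^ n = 1) → ∃ b : L, ι b = x
  prime_s : s.Prime
  ne : s ≠ ℓ
  g1 : coeffMap W.subtype Z1 ∈ laurentBaseChange L (modularFunctionFieldFull N)
  g2 : coeffMap W.subtype Z2 ∈ laurentBaseChange L (modularFunctionFieldFull N)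
  red : coeffMap (IsLocalRing.residue ↥W) Z1 = coeffMap (IsLocalRing.residue ↥W) Z2
  red_ne : coeffMap (IsLocalRing.residue ↥W) Z1 ≠ 0
  ne1 : (⟨_, g1⟩ : S24.FF L N) ≠ 0
  ne2 : (⟨_, g2⟩ : S24.FF L N) ≠ 0
  H1 : ∀ v : Place L (S24.FF L N), (s : ℤ) ∣ v.ord ((⟨_, g1⟩ : S24.FF L N) / ⟨_, g2⟩)
  H1' : ∀ O : ValuationSubring (S24.FF L N),
    (∀ a : L, algebraMap L (S24.FF L N) a ∈ O) → IsPrincipalIdealRing O →
    ∃ g : S24.FF L N, g ≠ 0 ∧
      (⟨_, g1⟩ : S24.FF L N) / ⟨_, g2⟩ * g ^ s ∈ O ∧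
      ((⟨_, g1⟩ : S24.FF L N) / ⟨_, g2⟩ * g ^ s)⁻¹ ∈ O
  H2 : ¬ ∃ a : S24.FF L N, a ^ s = (⟨_, g1⟩ : S24.FF L N) / ⟨_, g2⟩

section Vocabulary

variable {L : Type} [Field L] [Algebra ℚ L] (W : ValuationSubring L) (N : ℕ) [NeZero N]

/-- The Kummer datum `w = Z1 / Z2 ∈ F_L`. -/
noncomputable def KData.w {ℓ : ℕ} {ι : L →+* Qb} {W : ValuationSubring L} {N : ℕ} [NeZero N]
    {s : ℕ} {Z1 Z2 : LaurentSeries ↥W} (h : KData ℓ ι W N s Z1 Z2) : S24.FF L N :=
  (⟨_, h.g1⟩ : S24.FF L N) / ⟨_, h.g2⟩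

variable (F2 : Type) [Field F2] [Algebra (S24.FF L N) F2]

/-- The structure map `W → L → F_L → F2`. -/
noncomputable def toF2 : ↥W →+* F2 :=
  (algebraMap (S24.FF L N) F2).comp ((algebraMap L (S24.FF L N)).comp W.subtype)

variable (L) in
/-- The modular invariant `j` in `F2`. -/
noncomputable def jF2 : F2 := algebraMap (S24.FF L N) F2 (S24.jBC L N)

variable {F2}

/-- Evaluation `p ↦ p(x)` of polynomials over `W` at a point of `F2`. -/
noncomputable def evAt (x : F2) : (↥W)[X] →+* F2 := Polynomial.eval₂RingHom (toF2 W N F2) x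

/-- Gauss integrality with respect to the chart `W[j]`: some `p(j)`, `p ∉ π W[X]`, carries `z`
into the integral closure of `W[j]` in `F2`.  (This is `IsGaussInt W[X] (C π) z` for the
algebra structure `(evAt W N (jF2 L N F2)).toAlgebra`.) -/
def IsGaussJ (π : ↥W) (z : F2) : Prop :=
  ∃ p : (↥W)[X], ¬ C π ∣ p ∧
    (evAt W N (jF2 L N F2)).IsIntegralElem (evAt W N (jF2 L N F2) p * z)

end Vocabulary

/-- **Contract for the finite chart** (Legendre cover for `ℓ` odd, Hesse cover for `ℓ = 2`):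
the sheet idempotent `eps s u` of `F2 = F(u)`, `u ^ s = w`, is congruent modulo `π` times a
Gauss-integral element to an element `e` integral over `W[j]`. -/
def FiniteChartLift (N : ℕ) [NeZero N] (ℓ : ℕ) : Prop :=
  ∀ (L : Type) [Field L] [Algebra ℚ L] (ι : L →+* Qb) (W : ValuationSubring L) (s : ℕ)
    (Z1 Z2 : LaurentSeries ↥W) (h : KData ℓ ι W N s Z1 Z2) (π : ↥W) (_ : Irreducible π)
    (F2 : Type) [Field F2] [Algebra (S24.FF L N) F2] (u : F2)
    (_ : u ^ s = algebraMap (S24.FF L N) F2 h.w)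
    (_ : Module.finrank (S24.FF L N) F2 = s),
    ∃ e : F2, (evAt W N (jF2 L N F2)).IsIntegralElem e ∧
      ∃ d : F2, IsGaussJ W N π d ∧ e - Kummer.eps s u = toF2 W N F2 π * d

/-- **Contract for the cusp chart** `W[1/j, 1/(j - 1728)]` (Kummer cover `τ ^ M = 1/j`):
the sheet idempotent is congruent modulo `π` times a Gauss-integral element to an element
`e` integral over `W[1/j, 1/(j - 1728)]`, i.e. such that `(1 - 1728/j) ^ m * e` is integral
over `W[1/j]` for some `m`. -/
def CuspChartLift (N : ℕ) [NeZero N] (ℓ : ℕ) : Prop :=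
  ∀ (L : Type) [Field L] [Algebra ℚ L] (ι : L →+* Qb) (W : ValuationSubring L) (s : ℕ)
    (Z1 Z2 : LaurentSeries ↥W) (h : KData ℓ ι W N s Z1 Z2) (π : ↥W) (_ : Irreducible π)
    (F2 : Type) [Field F2] [Algebra (S24.FF L N) F2] (u : F2)
    (_ : u ^ s = algebraMap (S24.FF L N) F2 h.w)
    (_ : Module.finrank (S24.FF L N) F2 = s),
    ∃ e : F2,
      (∃ m : ℕ, (evAt W N (jF2 L N F2)⁻¹).IsIntegralElem
        ((1 - 1728 * (jF2 L N F2)⁻¹) ^ m * e)) ∧
      ∃ d : F2, IsGaussJ W N π d ∧ e - Kummer.eps s u = toF2 W N F2 π * d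

end Contracts

end Fermat.Agent.S18
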