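import Mathlib
import Fermat.Prelude.Def_ModularCurve_X0ModL
import Fermat.Agent.S28.Content

/-!
# S18, package PG (1): the content (Gauss) valuation ring over a discrete valuation ring

`W` is a valuation subring of a field `L` which is a discrete valuation ring, with residue
field `κ = IsLocalRing.ResidueField W`.  We work with the three Laurent series rings
`W((q))`, `L((q))`, `κ((q))` and the coefficientwise maps

* `toL W : W((q)) →+* L((q))` (injective),
* `toK W : W((q)) →+* κ((q))` (surjective, kernel generated by any uniformiser).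

The *content ring* `contentRing W ⊆ L((q))` consists of the quotients `x / y` with
`x, y ∈ W((q))`, `y ≢ 0` modulo the maximal ideal.  It carries the reduction map
`red W : contentRing W →+* κ((q))`, `x / y ↦ x̄ / ȳ`, whose kernel is generated by any
uniformiser, and it is a valuation ring of the field `fracInt W` of all quotients `x / y`,
`y ≠ 0`.  This generalises `Fermat.Agent.S28.contentRing` from `(ℚ, ℤ_(ℓ), 𝔽_ℓ)` to `(L, W, κ)`.
-/

set_option autoImplicit false

noncomputable section

namespace Fermat.Agent.S18.Gauss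

open ModularCurve Polynomial

variable {L : Type*} [Field L] (W : ValuationSubring L)

/-! ### Coefficientwise maps -/

/-- The inclusion `W((q)) → L((q))`. -/
def toL : LaurentSeries W →+* LaurentSeries L :=
  coeffMap W.subtype

/-- The reduction `W((q)) → κ((q))`. -/
def toK : LaurentSeries W →+* LaurentSeries (IsLocalRing.ResidueField W) :=
  coeffMap (IsLocalRing.residue W)

@[simp] theorem toL_coeff (x : LaurentSeries W) (k : ℤ) :
    (toL W x).coeff k = (x.coeff k : L) := rfl

@[simp] theorem toK_coeff (x : LaurentSeries W) (k : ℤ) :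
    (toK W x).coeff k = IsLocalRing.residue W (x.coeff k) := rfl

theorem toL_injective : Function.Injective (toL W) := by
  intro x y h
  ext k
  have := congrArg (fun z => z.coeff k) h
  simpa using this

theorem toL_eq_zero_iff (x : LaurentSeries W) : toL W x = 0 ↔ x = 0 :=
  map_eq_zero_iff _ (toL_injective W)

theorem toK_surjective : Function.Surjective (toK W) := by
  classical
  intro g
  let s : IsLocalRing.ResidueField W → W := fun a =>
    if a = 0 then 0 else Function.surjInv (IsLocalRing.residue_surjective (R := W)) a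
  have hs : ∀ a, IsLocalRing.residue W (s a) = a := by
    intro a
    by_cases ha : a = 0
    · subst ha
      simp [s]
    · simp only [s, if_neg ha]
      exact Function.surjInv_eq (IsLocalRing.residue_surjective (R := W)) a
  let lift : ZeroHom (IsLocalRing.ResidueField W) W := ⟨s, by simp [s]⟩
  refine ⟨g.map lift, ?_⟩
  ext k
  rw [toK_coeff, HahnSeries.map_coeff]
  exact hs _

theorem C_mul_coeff {R : Type*} [CommRing R] (c : R) (x : LaurentSeries R) (k : ℤ) :
    (HahnSeries.C c * x).coeff k = c * x.coeff k := by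
  rw [HahnSeries.C_mul_eq_smul, HahnSeries.coeff_smul, smul_eq_mul]

theorem toL_C (c : W) : toL W (HahnSeries.C c) = HahnSeries.C (c : L) :=
  Fermat.Agent.S28.Content.coeffMap_C _ c

theorem toK_C (c : W) : toK W (HahnSeries.C c) = HahnSeries.C (IsLocalRing.residue W c) :=
  Fermat.Agent.S28.Content.coeffMap_C _ c

/-! ### Uniformisers -/

section Unif

variable [IsDiscreteValuationRing W]

theorem residue_eq_zero_iff_unif {ϖ : W} (hϖ : Irreducible ϖ) (x : W) :
    IsLocalRing.residue W x = 0 ↔ ∃ y : W, x = ϖ * y := by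
  rw [IsLocalRing.residue_eq_zero_iff, hϖ.maximalIdeal_eq, Ideal.mem_span_singleton']
  constructor
  · rintro ⟨a, rfl⟩; exact ⟨a, mul_comm _ _⟩
  · rintro ⟨y, rfl⟩; exact ⟨y, mul_comm _ _⟩

theorem residue_unif {ϖ : W} (hϖ : Irreducible ϖ) : IsLocalRing.residue W ϖ = 0 :=
  (residue_eq_zero_iff_unif W hϖ ϖ).mpr ⟨1, (mul_one _).symm⟩

theorem toK_C_unif {ϖ : W} (hϖ : Irreducible ϖ) : toK W (HahnSeries.C ϖ) = 0 := by
  rw [toK_C, residue_unif W hϖ, map_zero]

theorem toK_eq_zero_iff {ϖ : W} (hϖ : Irreducible ϖ) (x : LaurentSeries W) :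
    toK W x = 0 ↔ ∃ y : LaurentSeries W, x = HahnSeries.C ϖ * y := by
  classical
  constructor
  · intro h
    have hc : ∀ k, IsLocalRing.residue W (x.coeff k) = 0 := fun k => by
      rw [← toK_coeff, h, HahnSeries.coeff_zero]
    let dv : W → W := fun c =>
      if hc : IsLocalRing.residue W c = 0 then
        Classical.choose ((residue_eq_zero_iff_unif W hϖ c).mp hc) else 0
    have hdv : ∀ c, IsLocalRing.residue W c = 0 → c = ϖ * dv c := by
      intro c hc
      simp only [dv, dif_pos hc]
      exact Classical.choose_spec ((residue_eq_zero_iff_unif W hϖ c).mp hc)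
    have hdv0 : dv 0 = 0 := by
      have h0 := hdv 0 (map_zero _)
      rcases mul_eq_zero.mp h0.symm with h1 | h1
      · exact absurd h1 hϖ.ne_zero
      · exact h1
    refine ⟨x.map (⟨dv, hdv0⟩ : ZeroHom _ _), HahnSeries.ext (funext fun k => ?_)⟩
    rw [C_mul_coeff, HahnSeries.map_coeff]
    exact hdv _ (hc k)
  · rintro ⟨y, rfl⟩
    rw [map_mul, toK_C_unif W hϖ, zero_mul]

theorem exists_pow_mul_aux {ϖ : W} (hϖ : Irreducible ϖ) :
    ∀ (n : ℕ) (x : LaurentSeries W) (k : ℤ) (u : Wˣ), x.coeff k = (u : W) * ϖ ^ n →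
    ∃ (a : ℕ) (x' : LaurentSeries W), toK W x' ≠ 0 ∧ x = HahnSeries.C ϖ ^ a * x'
  | 0, x, k, u, hk => by
    refine ⟨0, x, fun h0 => ?_, by simp⟩
    have h1 : IsLocalRing.residue W (x.coeff k) = 0 := by
      rw [← toK_coeff, h0, HahnSeries.coeff_zero]
    rw [hk, pow_zero, mul_one] at h1
    exact (IsLocalRing.residue_ne_zero_iff_isUnit (u : W)).mpr u.isUnit h1
  | n + 1, x, k, u, hk => by
    by_cases hx : toK W x = 0
    · obtain ⟨y, rfl⟩ := (toK_eq_zero_iff W hϖ x).mp hx
      rw [C_mul_coeff] at hk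
      have hyk : y.coeff k = (u : W) * ϖ ^ n := by
        apply mul_left_cancel₀ hϖ.ne_zero
        rw [hk, pow_succ]; ring
      obtain ⟨a, x', hx', rfl⟩ := exists_pow_mul_aux hϖ n y k u hyk
      exact ⟨a + 1, x', hx', by rw [pow_succ]; ring⟩
    · exact ⟨0, x, hx, by simp⟩

/-- Content normalisation: a nonzero `W`-integral series is a power of the uniformiser times
one that is nonzero modulo the maximal ideal. -/
theorem exists_pow_mul_toK_ne_zero {ϖ : W} (hϖ : Irreducible ϖ) (x : LaurentSeries W)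
    (hx : x ≠ 0) :
    ∃ (a : ℕ) (x' : LaurentSeries W), toK W x' ≠ 0 ∧ x = HahnSeries.C ϖ ^ a * x' := by
  obtain ⟨k, hk⟩ : ∃ k, x.coeff k ≠ 0 := by
    by_contra h
    push Not at h
    exact hx (HahnSeries.ext (funext h))
  obtain ⟨n, u, hu⟩ := IsDiscreteValuationRing.eq_unit_mul_pow_irreducible hk hϖ
  exact exists_pow_mul_aux W hϖ n x k u hu

end Unif

/-! ### The content ring and its reduction map -/

/-- The content ring: quotients `x / y` of `W`-integral Laurent series with `y ≢ 0` modulo the
maximal ideal. -/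
def contentRing : Subring (LaurentSeries L) where
  carrier := {f | ∃ x y : LaurentSeries W, toK W y ≠ 0 ∧ f * toL W y = toL W x}
  mul_mem' := by
    rintro f g ⟨x, y, hy, h⟩ ⟨x', y', hy', h'⟩
    refine ⟨x * x', y * y', ?_, ?_⟩
    · rw [map_mul]; exact mul_ne_zero hy hy'
    · rw [map_mul, map_mul, ← h, ← h']; ring
  one_mem' := ⟨1, 1, by simp, by simp⟩
  add_mem' := by
    rintro f g ⟨x, y, hy, h⟩ ⟨x', y', hy', h'⟩
    refine ⟨x * y' + x' * y, y * y', ?_, ?_⟩
    · rw [map_mul]; exact mul_ne_zero hy hy'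
    · rw [map_add, map_mul, map_mul, map_mul, ← h, ← h']; ring
  zero_mem' := ⟨0, 1, by simp, by simp⟩
  neg_mem' := by
    rintro f ⟨x, y, hy, h⟩
    exact ⟨-x, y, hy, by rw [map_neg, ← h]; ring⟩

theorem mem_contentRing_iff {f : LaurentSeries L} :
    f ∈ contentRing W ↔ ∃ x y : LaurentSeries W, toK W y ≠ 0 ∧ f * toL W y = toL W x := Iff.rfl

theorem toL_mem_contentRing (x : LaurentSeries W) : toL W x ∈ contentRing W :=
  ⟨x, 1, by simp, by simp⟩

theorem exists_rep (f : contentRing W) :
    ∃ p : LaurentSeries W × LaurentSeries W,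
      toK W p.2 ≠ 0 ∧ (f : LaurentSeries L) * toL W p.2 = toL W p.1 := by
  obtain ⟨x, y, hy, h⟩ := f.2
  exact ⟨(x, y), hy, h⟩

/-- A chosen numerator/denominator pair of an element of the content ring. -/
def rep (f : contentRing W) : LaurentSeries W × LaurentSeries W :=
  Classical.choose (exists_rep W f)

theorem rep_spec (f : contentRing W) :
    toK W (rep W f).2 ≠ 0 ∧ (f : LaurentSeries L) * toL W (rep W f).2 = toL W (rep W f).1 :=
  Classical.choose_spec (exists_rep W f)

/-- The underlying function of `red`. -/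
def redFun (f : contentRing W) : LaurentSeries (IsLocalRing.ResidueField W) :=
  toK W (rep W f).1 / toK W (rep W f).2

theorem redFun_eq (f : contentRing W) {x y : LaurentSeries W}
    (hy : toK W y ≠ 0) (h : (f : LaurentSeries L) * toL W y = toL W x) :
    redFun W f = toK W x / toK W y := by
  obtain ⟨hy0, h0⟩ := rep_spec W f
  rw [redFun, div_eq_div_iff hy0 hy, ← map_mul, ← map_mul]
  congr 1
  apply toL_injective W
  rw [map_mul, map_mul, ← h0, ← h]
  ring

theorem redFun_one : redFun W 1 = 1 := by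
  have key : ((1 : contentRing W) : LaurentSeries L) * toL W 1 = toL W 1 := by
    rw [Subring.coe_one, one_mul]
  rw [redFun_eq W 1 (by rw [map_one]; exact one_ne_zero) key, map_one, div_one]

theorem redFun_zero : redFun W 0 = 0 := by
  have key : ((0 : contentRing W) : LaurentSeries L) * toL W 1 = toL W 0 := by
    rw [Subring.coe_zero, zero_mul, map_zero]
  rw [redFun_eq W 0 (by rw [map_one]; exact one_ne_zero) key, map_zero, zero_div]

theorem redFun_mul (f g : contentRing W) : redFun W (f * g) = redFun W f * redFun W g := by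
  obtain ⟨hy, h⟩ := rep_spec W f
  obtain ⟨hy', h'⟩ := rep_spec W g
  have hyy : toK W ((rep W f).2 * (rep W g).2) ≠ 0 := by
    rw [map_mul]; exact mul_ne_zero hy hy'
  have key : ((f * g : contentRing W) : LaurentSeries L) * toL W ((rep W f).2 * (rep W g).2) =
      toL W ((rep W f).1 * (rep W g).1) := by
    rw [Subring.coe_mul, map_mul, map_mul, ← h, ← h']; ring
  rw [redFun_eq W (f * g) hyy key, map_mul, map_mul, ← div_mul_div_comm]
  rfl

theorem redFun_add (f g : contentRing W) : redFun W (f + g) = redFun W f + redFun W g := by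
  obtain ⟨hy, h⟩ := rep_spec W f
  obtain ⟨hy', h'⟩ := rep_spec W g
  have hyy : toK W ((rep W f).2 * (rep W g).2) ≠ 0 := by
    rw [map_mul]; exact mul_ne_zero hy hy'
  have key : ((f + g : contentRing W) : LaurentSeries L) * toL W ((rep W f).2 * (rep W g).2) =
      toL W ((rep W f).1 * (rep W g).2 + (rep W f).2 * (rep W g).1) := by
    rw [Subring.coe_add, map_add, map_mul, map_mul, map_mul, ← h, ← h']; ring
  rw [redFun_eq W (f + g) hyy key, map_add, map_mul, map_mul, map_mul, ← div_add_div _ _ hy hy']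
  rfl

/-- The reduction map `contentRing W → κ((q))`, `x / y ↦ x̄ / ȳ`. -/
def red : contentRing W →+* LaurentSeries (IsLocalRing.ResidueField W) where
  toFun := redFun W
  map_one' := redFun_one W
  map_zero' := redFun_zero W
  map_mul' := redFun_mul W
  map_add' := redFun_add W

theorem red_eq (f : contentRing W) {x y : LaurentSeries W}
    (hy : toK W y ≠ 0) (h : (f : LaurentSeries L) * toL W y = toL W x) :
    red W f = toK W x / toK W y :=
  redFun_eq W f hy h

theorem red_mk_eq {f : LaurentSeries L} (hf : f ∈ contentRing W)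
    {x y : LaurentSeries W}
    (hy : toK W y ≠ 0) (h : f * toL W y = toL W x) :
    red W ⟨f, hf⟩ = toK W x / toK W y :=
  redFun_eq W ⟨f, hf⟩ hy h

theorem red_toL (x : LaurentSeries W) :
    red W ⟨toL W x, toL_mem_contentRing W x⟩ = toK W x := by
  have key : toL W x * toL W 1 = toL W x := by rw [map_one, mul_one]
  rw [red_mk_eq W _ (by rw [map_one]; exact one_ne_zero) key, map_one, div_one]

theorem red_surjective : Function.Surjective (red W) := fun g => by
  obtain ⟨x, rfl⟩ := toK_surjective W g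
  exact ⟨_, red_toL W x⟩

/-- Elements with nonzero reduction are units of the content ring. -/
theorem inv_mem_contentRing {f : LaurentSeries L} (hf : f ∈ contentRing W)
    (hred : red W ⟨f, hf⟩ ≠ 0) : f⁻¹ ∈ contentRing W := by
  obtain ⟨x, y, hy, h⟩ := id hf
  rw [red_mk_eq W hf hy h] at hred
  have hx : toK W x ≠ 0 := fun h0 => hred (by rw [h0, zero_div])
  have hx0 : toL W x ≠ 0 := fun h0 => hx (by rw [(toL_eq_zero_iff W x).mp h0, map_zero])
  have hf0 : f ≠ 0 := fun h0 => hx0 (by rw [← h, h0, zero_mul])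
  refine ⟨y, x, hx, ?_⟩
  rw [← h, ← mul_assoc, inv_mul_cancel₀ hf0, one_mul]

theorem red_inv {f : LaurentSeries L} (hf : f ∈ contentRing W) (hf' : f⁻¹ ∈ contentRing W) :
    red W ⟨f⁻¹, hf'⟩ = (red W ⟨f, hf⟩)⁻¹ := by
  rcases eq_or_ne f 0 with rfl | hf0
  · have h0 : (⟨(0 : LaurentSeries L)⁻¹, hf'⟩ : contentRing W) = 0 := Subtype.ext inv_zero
    have h1 : (⟨(0 : LaurentSeries L), hf⟩ : contentRing W) = 0 := rfl
    rw [h0, h1, map_zero, inv_zero]
  · have hmul : (⟨f⁻¹, hf'⟩ : contentRing W) * ⟨f, hf⟩ = 1 := Subtype.ext (inv_mul_cancel₀ hf0)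
    have := congrArg (red W) hmul
    rw [map_mul, map_one] at this
    exact eq_inv_of_mul_eq_one_left this

/-! ### Constants -/

theorem C_mem_contentRing (c : W) : HahnSeries.C (c : L) ∈ contentRing W := by
  rw [← toL_C]; exact toL_mem_contentRing W _

theorem red_C (c : W) :
    red W ⟨HahnSeries.C (c : L), C_mem_contentRing W c⟩ =
      HahnSeries.C (IsLocalRing.residue W c) := by
  have h := red_toL W (HahnSeries.C c)
  rw [toK_C] at h
  rw [← h]
  congr 1
  exact Subtype.ext (toL_C W c).symm

/-- A constant lies in the content ring iff it lies in `W`. -/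
theorem C_mem_contentRing_iff (c : L) : HahnSeries.C c ∈ contentRing W ↔ c ∈ W := by
  constructor
  · intro hc
    by_contra hcW
    have hc0 : c ≠ 0 := fun h0 => hcW (by rw [h0]; exact zero_mem _)
    have hinv : c⁻¹ ∈ W := (W.mem_or_inv_mem c).resolve_left hcW
    have hnu : ¬ IsUnit (⟨c⁻¹, hinv⟩ : W) := by
      intro hu
      obtain ⟨v, hv⟩ := hu.exists_right_inv
      apply hcW
      have h1 : (c⁻¹ : L) * (v : L) = 1 := by
        have := congrArg (Subtype.val) hv
        simpa using this
      have h2 : (v : L) = c := by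
        rw [inv_mul_eq_one₀ hc0] at h1
        exact h1.symm
      rw [← h2]; exact v.2
    have hres : IsLocalRing.residue W (⟨c⁻¹, hinv⟩ : W) = 0 := by
      by_contra hne
      exact hnu ((IsLocalRing.residue_ne_zero_iff_isUnit _).mp hne)
    have hmul : (⟨HahnSeries.C c, hc⟩ : contentRing W) *
        ⟨HahnSeries.C ((⟨c⁻¹, hinv⟩ : W) : L), C_mem_contentRing W ⟨c⁻¹, hinv⟩⟩ = 1 := by
      apply Subtype.ext
      rw [Subring.coe_mul, Subring.coe_one]
      show HahnSeries.C c * HahnSeries.C c⁻¹ = 1
      rw [← map_mul, mul_inv_cancel₀ hc0, map_one]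
    have h3 := congrArg (red W) hmul
    rw [map_mul, red_C, hres, map_zero, mul_zero, map_one] at h3
    exact zero_ne_one h3
  · intro hc
    exact C_mem_contentRing W ⟨c, hc⟩

/-- The constant embedding `W → L((q))`. -/
def constL : W →+* LaurentSeries L :=
  (HahnSeries.C (Γ := ℤ) (R := L)).comp W.subtype

theorem constL_apply (c : W) : constL W c = HahnSeries.C (c : L) := rfl

/-- The constant embedding `W → contentRing W`. -/
def contentConst : W →+* contentRing W :=
  (constL W).codRestrict (contentRing W) (C_mem_contentRing W)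

theorem coe_contentConst (c : W) :
    ((contentConst W c : contentRing W) : LaurentSeries L) = HahnSeries.C (c : L) :=
  rfl

theorem red_contentConst (c : W) :
    red W (contentConst W c) = HahnSeries.C (IsLocalRing.residue W c) :=
  red_C W c

theorem red_comp_contentConst :
    (red W).comp (contentConst W) =
      (HahnSeries.C (Γ := ℤ) (R := IsLocalRing.ResidueField W)).comp (IsLocalRing.residue W) :=
  RingHom.ext fun c => red_contentConst W c

/-- Polynomials with `W`-integral coefficients preserve the content ring. -/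
theorem eval₂_constL_mem (P : (↥W)[X]) {u : LaurentSeries L}
    (hu : u ∈ contentRing W) : P.eval₂ (constL W) u ∈ contentRing W := by
  have h : P.eval₂ (constL W) u =
      ((P.eval₂ (contentConst W) ⟨u, hu⟩ : contentRing W) : LaurentSeries L) := by
    have := Polynomial.hom_eval₂ P (contentConst W) (contentRing W).subtype ⟨u, hu⟩
    exact this.symm
  rw [h]
  exact Subtype.property _

/-- Reduction commutes with evaluation of `W`-integral polynomials. -/
theorem red_eval₂_constL (P : (↥W)[X]) {u : LaurentSeries L}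
    (hu : u ∈ contentRing W) :
    red W ⟨P.eval₂ (constL W) u, eval₂_constL_mem W P hu⟩ =
      (P.map (IsLocalRing.residue W)).eval₂
        (HahnSeries.C (Γ := ℤ) (R := IsLocalRing.ResidueField W)) (red W ⟨u, hu⟩) := by
  have h : (⟨P.eval₂ (constL W) u, eval₂_constL_mem W P hu⟩ : contentRing W) =
      P.eval₂ (contentConst W) ⟨u, hu⟩ := by
    apply Subtype.ext
    have := Polynomial.hom_eval₂ P (contentConst W) (contentRing W).subtype ⟨u, hu⟩
    exact this.symm
  rw [h, Polynomial.hom_eval₂, red_comp_contentConst, Polynomial.eval₂_map]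

/-! ### The field of quotients of `W`-integral series; the valuation ring property -/

/-- The field of quotients `x / y` of `W`-integral Laurent series (`y ≠ 0`). -/
def fracInt : Subfield (LaurentSeries L) where
  carrier := {f | ∃ x y : LaurentSeries W, y ≠ 0 ∧ f * toL W y = toL W x}
  mul_mem' := by
    rintro f g ⟨x, y, hy, h⟩ ⟨x', y', hy', h'⟩
    refine ⟨x * x', y * y', mul_ne_zero hy hy', ?_⟩
    rw [map_mul, map_mul, ← h, ← h']; ring
  one_mem' := ⟨1, 1, one_ne_zero, by simp⟩
  add_mem' := by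
    rintro f g ⟨x, y, hy, h⟩ ⟨x', y', hy', h'⟩
    refine ⟨x * y' + x' * y, y * y', mul_ne_zero hy hy', ?_⟩
    rw [map_add, map_mul, map_mul, map_mul, ← h, ← h']; ring
  zero_mem' := ⟨0, 1, one_ne_zero, by simp⟩
  neg_mem' := by
    rintro f ⟨x, y, hy, h⟩
    exact ⟨-x, y, hy, by rw [map_neg, ← h]; ring⟩
  inv_mem' := by
    rintro f ⟨x, y, hy, h⟩
    rcases eq_or_ne f 0 with rfl | hf
    · rw [inv_zero]; exact ⟨0, 1, one_ne_zero, by simp⟩
    · have hx : x ≠ 0 := by
        rintro rfl
        rw [map_zero] at h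
        rcases mul_eq_zero.mp h with h1 | h1
        · exact hf h1
        · exact hy ((toL_eq_zero_iff W y).mp h1)
      exact ⟨y, x, hx, by rw [← h, ← mul_assoc, inv_mul_cancel₀ hf, one_mul]⟩

theorem mem_fracInt_iff {f : LaurentSeries L} :
    f ∈ fracInt W ↔ ∃ x y : LaurentSeries W, y ≠ 0 ∧ f * toL W y = toL W x := Iff.rfl

theorem contentRing_le_fracInt {f : LaurentSeries L} (hf : f ∈ contentRing W) :
    f ∈ fracInt W := by
  obtain ⟨x, y, hy, h⟩ := hf
  exact ⟨x, y, fun h0 => hy (by rw [h0, map_zero]), h⟩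

theorem toL_mem_fracInt (x : LaurentSeries W) : toL W x ∈ fracInt W :=
  contentRing_le_fracInt W (toL_mem_contentRing W x)

/-- Every constant lies in `fracInt W`. -/
theorem C_mem_fracInt (c : L) : HahnSeries.C c ∈ fracInt W := by
  rcases W.mem_or_inv_mem c with h | h
  · exact contentRing_le_fracInt W (C_mem_contentRing W ⟨c, h⟩)
  · have h1 : HahnSeries.C (c⁻¹ : L) ∈ fracInt W :=
      contentRing_le_fracInt W (C_mem_contentRing W ⟨c⁻¹, h⟩)
    have h2 := (fracInt W).inv_mem h1
    rwa [← map_inv₀, inv_inv] at h2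

section Unif2

variable [IsDiscreteValuationRing W]

omit [IsDiscreteValuationRing ↥W] in
theorem C_unif_ne_zero {ϖ : W} (hϖ : Irreducible ϖ) :
    (HahnSeries.C ((ϖ : W) : L) : LaurentSeries L) ≠ 0 := by
  apply HahnSeries.C_ne_zero
  intro h
  exact hϖ.ne_zero (Subtype.ext h)

/-- A uniformiser reduces to zero. -/
theorem red_C_unif {ϖ : W} (hϖ : Irreducible ϖ) :
    red W ⟨HahnSeries.C ((ϖ : W) : L), C_mem_contentRing W ϖ⟩ = 0 := by
  rw [red_C, residue_unif W hϖ, map_zero]

/-- The kernel of `red` is generated by any uniformiser. -/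
theorem red_eq_zero_iff {ϖ : W} (hϖ : Irreducible ϖ) (f : contentRing W) :
    red W f = 0 ↔ ∃ g : contentRing W,
      (f : LaurentSeries L) = HahnSeries.C ((ϖ : W) : L) * (g : LaurentSeries L) := by
  constructor
  · intro hf
    obtain ⟨x, y, hy, h⟩ := f.2
    rw [red_eq W f hy h, div_eq_zero_iff] at hf
    obtain ⟨x', rfl⟩ := (toK_eq_zero_iff W hϖ x).mp (hf.resolve_right hy)
    have hy0 : toL W y ≠ 0 := fun h0 => hy (by rw [(toL_eq_zero_iff W y).mp h0, map_zero])
    have hmem : toL W x' / toL W y ∈ contentRing W := ⟨x', y, hy, div_mul_cancel₀ _ hy0⟩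
    refine ⟨⟨_, hmem⟩, ?_⟩
    rw [map_mul, toL_C] at h
    show (f : LaurentSeries L) = HahnSeries.C ((ϖ : W) : L) * (toL W x' / toL W y)
    rw [← mul_div_assoc, eq_div_iff hy0]
    exact h
  · rintro ⟨g, hg⟩
    have hfg : f = ⟨HahnSeries.C ((ϖ : W) : L), C_mem_contentRing W ϖ⟩ * g := Subtype.ext hg
    rw [hfg, map_mul, red_C_unif W hϖ, zero_mul]

/-- Every nonzero element of `fracInt W` is a power of the uniformiser times a unit of the
content ring. -/
theorem fracInt_exists_zpow_mul_unit {ϖ : W} (hϖ : Irreducible ϖ) {f : LaurentSeries L}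
    (hf : f ∈ fracInt W) (hf0 : f ≠ 0) :
    ∃ (n : ℤ) (u : LaurentSeries L) (hu : u ∈ contentRing W),
      red W ⟨u, hu⟩ ≠ 0 ∧ f = HahnSeries.C ((ϖ : W) : L) ^ n * u := by
  obtain ⟨x, y, hy, h⟩ := hf
  have hy0 : toL W y ≠ 0 := fun h0 => hy ((toL_eq_zero_iff W y).mp h0)
  have hx : x ≠ 0 := by
    rintro rfl
    rw [map_zero] at h
    rcases mul_eq_zero.mp h with h1 | h1
    · exact hf0 h1
    · exact hy0 h1
  obtain ⟨a, x', hx', rfl⟩ := exists_pow_mul_toK_ne_zero W hϖ x hx
  obtain ⟨b, y', hy', rfl⟩ := exists_pow_mul_toK_ne_zero W hϖ y hy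
  have hy'0 : toL W y' ≠ 0 := fun h0 =>
    hy' (by rw [(toL_eq_zero_iff W y').mp h0, map_zero])
  have hu : toL W x' / toL W y' ∈ contentRing W := ⟨x', y', hy', div_mul_cancel₀ _ hy'0⟩
  refine ⟨(a : ℤ) - b, _, hu, ?_, ?_⟩
  · rw [red_mk_eq W hu hy' (div_mul_cancel₀ _ hy'0)]
    exact div_ne_zero hx' hy'
  · have hℓ := C_unif_ne_zero W hϖ
    rw [map_mul, map_mul, map_pow, map_pow, toL_C] at h
    rw [zpow_sub₀ hℓ, zpow_natCast, zpow_natCast]
    have hb : HahnSeries.C ((ϖ : W) : L) ^ b ≠ 0 := pow_ne_zero _ hℓ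
    field_simp
    rw [← h]
    ring

/-- `contentRing W` is a valuation ring of `fracInt W`. -/
theorem mem_contentRing_or_inv_mem {f : LaurentSeries L} (hf : f ∈ fracInt W) :
    f ∈ contentRing W ∨ f⁻¹ ∈ contentRing W := by
  obtain ⟨ϖ, hϖ⟩ := IsDiscreteValuationRing.exists_irreducible W
  rcases eq_or_ne f 0 with rfl | hf0
  · exact Or.inl (zero_mem _)
  obtain ⟨n, u, hu, hured, rfl⟩ := fracInt_exists_zpow_mul_unit W hϖ hf hf0
  rcases le_or_gt 0 n with hn | hn
  · left
    lift n to ℕ using hn
    rw [zpow_natCast]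
    exact mul_mem (pow_mem (C_mem_contentRing W ϖ) n) hu
  · right
    obtain ⟨m, rfl⟩ : ∃ m : ℕ, n = -(m : ℤ) := ⟨(-n).toNat, by omega⟩
    rw [mul_inv, zpow_neg, inv_inv, zpow_natCast]
    exact mul_mem (pow_mem (C_mem_contentRing W ϖ) m) (inv_mem_contentRing W hu hured)

/-- An element of `fracInt W` outside the content ring has its inverse in the maximal ideal. -/
theorem inv_mem_contentRing_of_not_mem {f : LaurentSeries L} (hf : f ∈ fracInt W)
    (hnot : f ∉ contentRing W) :
    ∃ h : f⁻¹ ∈ contentRing W, red W ⟨f⁻¹, h⟩ = 0 := by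
  obtain ⟨ϖ, hϖ⟩ := IsDiscreteValuationRing.exists_irreducible W
  have hf0 : f ≠ 0 := fun h0 => hnot (by rw [h0]; exact zero_mem _)
  obtain ⟨n, u, hu, hured, rfl⟩ := fracInt_exists_zpow_mul_unit W hϖ hf hf0
  rcases le_or_gt 0 n with hn | hn
  · exfalso
    apply hnot
    lift n to ℕ using hn
    rw [zpow_natCast]
    exact mul_mem (pow_mem (C_mem_contentRing W ϖ) n) hu
  · obtain ⟨m, rfl⟩ : ∃ m : ℕ, n = -((m : ℤ) + 1) := ⟨(-n).toNat - 1, by omega⟩
    have hg : HahnSeries.C ((ϖ : W) : L) ^ m * u⁻¹ ∈ contentRing W :=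
      mul_mem (pow_mem (C_mem_contentRing W ϖ) m) (inv_mem_contentRing W hu hured)
    have heq : (HahnSeries.C ((ϖ : W) : L) ^ (-((m : ℤ) + 1)) * u)⁻¹ =
        HahnSeries.C ((ϖ : W) : L) * (HahnSeries.C ((ϖ : W) : L) ^ m * u⁻¹) := by
      rw [mul_inv, zpow_neg, inv_inv, zpow_add₀ (C_unif_ne_zero W hϖ), zpow_natCast,
        zpow_one]
      ring
    have hmem : (HahnSeries.C ((ϖ : W) : L) ^ (-((m : ℤ) + 1)) * u)⁻¹ ∈ contentRing W := by
      rw [heq]; exact mul_mem (C_mem_contentRing W ϖ) hg
    exact ⟨hmem, (red_eq_zero_iff W hϖ _).mpr ⟨⟨_, hg⟩, heq⟩⟩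

/-- A root in `fracInt W` of a monic polynomial over the content ring lies in the content
ring. -/
theorem mem_contentRing_of_monic_root {f : LaurentSeries L} (hf : f ∈ fracInt W)
    (P : (contentRing W)[X]) (hP : P.Monic) (h : P.eval₂ (contentRing W).subtype f = 0) :
    f ∈ contentRing W := by
  by_contra hnot
  obtain ⟨hg, hred⟩ := inv_mem_contentRing_of_not_mem W hf hnot
  have hf0 : f ≠ 0 := fun h0 => hnot (by rw [h0]; exact zero_mem _)
  let _ : Invertible f := invertibleOfNonzero hf0
  have h1 := Polynomial.eval₂_reverse_mul_pow (contentRing W).subtype f P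
  rw [h, invOf_eq_inv] at h1
  have h2 : P.reverse.eval₂ (contentRing W).subtype f⁻¹ = 0 := by
    rcases mul_eq_zero.mp h1 with h3 | h3
    · exact h3
    · exact absurd (pow_eq_zero_iff (n := P.natDegree) (M₀ := LaurentSeries L)
        (by intro hn; exact absurd h3 (by rw [hn, pow_zero]; exact one_ne_zero)) |>.mp h3) hf0
  have h4 : P.reverse.eval (⟨f⁻¹, hg⟩ : contentRing W) = 0 := by
    apply Subtype.ext
    have := Polynomial.hom_eval₂ P.reverse (RingHom.id _) (contentRing W).subtype
      (⟨f⁻¹, hg⟩ : contentRing W)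
    rw [Polynomial.eval₂_id, RingHom.comp_id] at this
    exact this.trans h2
  have h5 := congrArg (red W) h4
  rw [map_zero, ← Polynomial.eval₂_id, Polynomial.hom_eval₂, RingHom.comp_id, hred,
    Polynomial.eval₂_at_zero, Polynomial.coeff_zero_reverse, hP.leadingCoeff, map_one] at h5
  exact one_ne_zero h5

end Unif2

/-! ### Compatibility with `q ↦ q^d` -/

theorem toL_qExpand (d : ℕ) [NeZero d] (x : LaurentSeries W) :
    toL W (qExpand _ d x) = qExpand L d (toL W x) :=
  coeffMap_qExpand _ d x

theorem toK_qExpand (d : ℕ) [NeZero d] (x : LaurentSeries W) :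
    toK W (qExpand _ d x) = qExpand (IsLocalRing.ResidueField W) d (toK W x) :=
  coeffMap_qExpand _ d x

theorem qExpand_mem_contentRing (d : ℕ) [NeZero d] {f : LaurentSeries L}
    (hf : f ∈ contentRing W) : qExpand L d f ∈ contentRing W := by
  obtain ⟨x, y, hy, h⟩ := hf
  refine ⟨qExpand _ d x, qExpand _ d y, ?_, ?_⟩
  · rw [toK_qExpand]
    exact fun h0 => hy (qExpand_injective d (by rw [h0, map_zero]))
  · rw [toL_qExpand, toL_qExpand, ← map_mul, h]

theorem red_qExpand (d : ℕ) [NeZero d] {f : LaurentSeries L} (hf : f ∈ contentRing W) :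
    red W ⟨qExpand L d f, qExpand_mem_contentRing W d hf⟩ =
      qExpand (IsLocalRing.ResidueField W) d (red W ⟨f, hf⟩) := by
  obtain ⟨x, y, hy, h⟩ := id hf
  have hy' : toK W (qExpand _ d y) ≠ 0 := by
    rw [toK_qExpand]
    exact fun h0 => hy (qExpand_injective d (by rw [h0, map_zero]))
  have h' : qExpand L d f * toL W (qExpand _ d y) = toL W (qExpand _ d x) := by
    rw [toL_qExpand, toL_qExpand, ← map_mul, h]
  rw [red_mk_eq W _ hy' h', red_mk_eq W hf hy h, toK_qExpand, toK_qExpand, map_div₀]

/-! ### Integer-coefficient series and the `j`-invariant -/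

theorem toL_coeffMap_intCast (x : LaurentSeries ℤ) :
    toL W (coeffMap (Int.castRingHom _) x) = coeffMap (Int.castRingHom L) x := by
  rw [toL, coeffMap_coeffMap]
  exact coeffMap_congr (RingHom.ext_int _ _) x

theorem toK_coeffMap_intCast (x : LaurentSeries ℤ) :
    toK W (coeffMap (Int.castRingHom _) x) =
      coeffMap (Int.castRingHom (IsLocalRing.ResidueField W)) x := by
  rw [toK, coeffMap_coeffMap]
  exact coeffMap_congr (RingHom.ext_int _ _) x

/-- Series with integer coefficients lie in the content ring. -/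
theorem coeffMap_intCast_mem_contentRing (x : LaurentSeries ℤ) :
    coeffMap (Int.castRingHom L) x ∈ contentRing W := by
  rw [← toL_coeffMap_intCast W]; exact toL_mem_contentRing W _

/-- The reduction of an integer-coefficient series is its coefficientwise reduction. -/
theorem red_coeffMap_intCast (x : LaurentSeries ℤ) :
    red W ⟨coeffMap (Int.castRingHom L) x, coeffMap_intCast_mem_contentRing W x⟩ =
      coeffMap (Int.castRingHom (IsLocalRing.ResidueField W)) x := by
  have h := red_toL W (coeffMap (Int.castRingHom _) x)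
  rw [toK_coeffMap_intCast] at h
  rw [← h]
  exact congrArg (red W) (Subtype.ext (toL_coeffMap_intCast W x).symm)

theorem toL_jqModC : toL W (jqModC _) = jqModC L :=
  coeffMap_jqModC _

theorem toK_jqModC : toK W (jqModC _) = jqModC (IsLocalRing.ResidueField W) :=
  coeffMap_jqModC _

theorem jq_mem_contentRing : jqModC L ∈ contentRing W := by
  rw [← toL_jqModC W]; exact toL_mem_contentRing W _

theorem red_jq : red W ⟨jqModC L, jq_mem_contentRing W⟩ =
    jqModC (IsLocalRing.ResidueField W) := by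
  have h := red_toL W (jqModC _)
  rw [toK_jqModC] at h
  rw [← h]
  congr 1
  exact Subtype.ext (toL_jqModC W).symm

theorem jqd_mem_contentRing (d : ℕ) [NeZero d] : qExpand L d (jqModC L) ∈ contentRing W :=
  qExpand_mem_contentRing W d (jq_mem_contentRing W)

theorem red_jqd (d : ℕ) [NeZero d] :
    red W ⟨qExpand L d (jqModC L), jqd_mem_contentRing W d⟩ =
      qExpand (IsLocalRing.ResidueField W) d (jqModC (IsLocalRing.ResidueField W)) := by
  rw [← red_jq W]
  exact red_qExpand W d (jq_mem_contentRing W)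

/-- A `W`-integral polynomial in `j` reduces to zero iff it vanishes modulo the maximal
ideal. -/
theorem red_eval₂_jq_eq_zero_iff (P : (↥W)[X]) :
    red W ⟨P.eval₂ (constL W) (jqModC L), eval₂_constL_mem W P (jq_mem_contentRing W)⟩ = 0 ↔
      P.map (IsLocalRing.residue W) = 0 := by
  rw [red_eval₂_constL W P (jq_mem_contentRing W), red_jq]
  constructor
  · exact Fermat.Agent.S28.Content.eval₂_jqModC_eq_zero
  · intro h; rw [h, Polynomial.eval₂_zero]

end Fermat.Agent.S18.Gauss
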