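import Mathlib
import Fermat.Agent.S18.GaussContent

/-!
# S18, package PG (2): the Gauss valuation on `L(j)` and orthonormal families

`W` is an arbitrary valuation subring of a field `L` (no discreteness is needed here), with
residue field `κ`.

* Every nonzero element of `L(j) ⊆ L((q))` is a constant times a unit of the content ring
  whose reduction lies in `κ(j̄)` (`exists_const_mul_unit`).
* If `b i` are elements of the content ring whose reductions are linearly independent over
  `κ(j̄)`, then the `b i` are linearly independent over `L(j)` (`orthonormal_indep`), an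
  `L(j)`-combination of them lies in the content ring iff all coefficients do
  (`orthonormal_mem`), and every nonzero `L(j)`-combination is a constant times a unit of the
  content ring (`orthonormal_unit`).
-/

set_option autoImplicit false

noncomputable section

namespace Fermat.Agent.S18.Gauss

open ModularCurve Polynomial

variable {L : Type*} [Field L] (W : ValuationSubring L)

/-- `κ(j̄)` inside `κ((q))`. -/
abbrev kJ : IntermediateField (IsLocalRing.ResidueField W)
    (LaurentSeries (IsLocalRing.ResidueField W)) :=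
  IntermediateField.adjoin (IsLocalRing.ResidueField W) {jqModC (IsLocalRing.ResidueField W)}

/-- Scaling a nonzero polynomial over `L` to a polynomial over `W` which is nonzero modulo
the maximal ideal. -/
theorem exists_scale_poly (P : L[X]) (hP : P ≠ 0) :
    ∃ (a : L) (P₁ : (↥W)[X]), a ≠ 0 ∧ P₁.map (IsLocalRing.residue W) ≠ 0 ∧
      P = Polynomial.C a * P₁.map W.subtype := by
  classical
  have hne : P.support.Nonempty := Polynomial.support_nonempty.mpr hP
  obtain ⟨i₀, hi₀, hmax⟩ :=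
    Finset.exists_max_image P.support (fun i => W.valuation (P.coeff i)) hne
  have hc₀ne : P.coeff i₀ ≠ 0 := Polynomial.mem_support_iff.mp hi₀
  have hmem : ∀ i, P.coeff i / P.coeff i₀ ∈ W := by
    intro i
    by_cases hi : i ∈ P.support
    · rw [← ValuationSubring.valuation_le_one_iff, map_div₀]
      exact (div_le_one₀ (zero_lt_iff.mpr ((_root_.map_ne_zero _).mpr hc₀ne))).mpr (hmax i hi)
    · rw [Polynomial.notMem_support_iff.mp hi, zero_div]; exact zero_mem _
  let P₁ : (↥W)[X] :=
    ∑ i ∈ P.support, Polynomial.monomial i (⟨P.coeff i / P.coeff i₀, hmem i⟩ : W)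
  have hcoeff : ∀ i, P₁.coeff i = ⟨P.coeff i / P.coeff i₀, hmem i⟩ := by
    intro i
    simp only [P₁, Polynomial.finsetSum_coeff, Polynomial.coeff_monomial]
    rw [Finset.sum_ite_eq' P.support i]
    split_ifs with hi
    · rfl
    · apply Subtype.ext
      simp [Polynomial.notMem_support_iff.mp hi]
  refine ⟨P.coeff i₀, P₁, hc₀ne, ?_, ?_⟩
  · intro h0
    have h1 := congrArg (fun p => p.coeff i₀) h0
    simp only [Polynomial.coeff_map, hcoeff, Polynomial.coeff_zero] at h1
    have h2 : (⟨P.coeff i₀ / P.coeff i₀, hmem i₀⟩ : W) = 1 := Subtype.ext (div_self hc₀ne)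
    rw [h2, map_one] at h1
    exact one_ne_zero h1
  · ext i
    rw [Polynomial.coeff_C_mul, Polynomial.coeff_map, hcoeff]
    show P.coeff i = P.coeff i₀ * (P.coeff i / P.coeff i₀)
    field_simp

theorem aeval_jq_scaled (a : L) (P₁ : (↥W)[X]) :
    Polynomial.aeval (jqModC L) (Polynomial.C a * P₁.map W.subtype) =
      HahnSeries.C a * P₁.eval₂ (constL W) (jqModC L) := by
  rw [map_mul, Polynomial.aeval_C, Polynomial.aeval_def, Polynomial.eval₂_map,
    Fermat.Agent.S28.Content.algebraMap_eq_C_of_field]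
  rfl

theorem red_eval₂_jq_mem (P : (↥W)[X]) :
    red W ⟨P.eval₂ (constL W) (jqModC L), eval₂_constL_mem W P (jq_mem_contentRing W)⟩ ∈
      kJ W := by
  rw [red_eval₂_constL W P (jq_mem_contentRing W), red_jq,
    ← Fermat.Agent.S28.Content.algebraMap_eq_C_of_field, ← Polynomial.aeval_def]
  exact IntermediateField.algebra_adjoin_le_adjoin _ _
    (Polynomial.aeval_mem_adjoin_singleton _ _)

/-- Structure of the elements of `L(j)`: a nonzero constant times a unit of the content ring
whose reduction lies in `κ(j̄)`. -/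
theorem exists_const_mul_unit {c : LaurentSeries L}
    (hc : c ∈ IntermediateField.adjoin L {jqModC L}) (hc0 : c ≠ 0) :
    ∃ (a : L) (u : LaurentSeries L) (hu : u ∈ contentRing W), a ≠ 0 ∧
      red W ⟨u, hu⟩ ≠ 0 ∧ red W ⟨u, hu⟩ ∈ kJ W ∧ c = HahnSeries.C a * u := by
  obtain ⟨r, s, rfl⟩ := (IntermediateField.mem_adjoin_simple_iff L c).mp hc
  have hr0 : r ≠ 0 := by rintro rfl; simp at hc0
  have hs0 : s ≠ 0 := by rintro rfl; simp at hc0
  obtain ⟨a, r₁, ha, hr₁, rfl⟩ := exists_scale_poly W r hr0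
  obtain ⟨a', s₁, ha', hs₁, rfl⟩ := exists_scale_poly W s hs0
  rw [aeval_jq_scaled, aeval_jq_scaled]
  have hprm : r₁.eval₂ (constL W) (jqModC L) ∈ contentRing W :=
    eval₂_constL_mem W r₁ (jq_mem_contentRing W)
  have hpsm : s₁.eval₂ (constL W) (jqModC L) ∈ contentRing W :=
    eval₂_constL_mem W s₁ (jq_mem_contentRing W)
  have hpr : red W ⟨_, hprm⟩ ≠ 0 := fun h => hr₁ ((red_eval₂_jq_eq_zero_iff W r₁).mp h)
  have hps : red W ⟨_, hpsm⟩ ≠ 0 := fun h => hs₁ ((red_eval₂_jq_eq_zero_iff W s₁).mp h)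
  have hpsinv : (s₁.eval₂ (constL W) (jqModC L))⁻¹ ∈ contentRing W :=
    inv_mem_contentRing W hpsm hps
  have hu : r₁.eval₂ (constL W) (jqModC L) * (s₁.eval₂ (constL W) (jqModC L))⁻¹ ∈
      contentRing W := mul_mem hprm hpsinv
  have hredu : red W ⟨_, hu⟩ = red W ⟨_, hprm⟩ * (red W ⟨_, hpsm⟩)⁻¹ := by
    have h1 : (⟨_, hu⟩ : contentRing W) = ⟨_, hprm⟩ * ⟨_, hpsinv⟩ := rfl
    rw [h1, map_mul, red_inv W hpsm hpsinv]
  have hC : (HahnSeries.C a' : LaurentSeries L) ≠ 0 := HahnSeries.C_ne_zero ha'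
  have hps0 : s₁.eval₂ (constL W) (jqModC L) ≠ 0 := by
    intro h0
    apply hps
    have h1 : (⟨_, hpsm⟩ : contentRing W) = 0 := Subtype.ext h0
    rw [h1, map_zero]
  refine ⟨a / a', _, hu, div_ne_zero ha ha', ?_, ?_, ?_⟩
  · rw [hredu]; exact mul_ne_zero hpr (inv_ne_zero hps)
  · rw [hredu]
    exact mul_mem (red_eval₂_jq_mem W r₁) (inv_mem (red_eval₂_jq_mem W s₁))
  · rw [map_div₀]
    field_simp

/-- `W[j] ⊆ W((q))`: the value of a polynomial over `W` at the integral `j`-series. -/
def evJ (P : (↥W)[X]) : LaurentSeries W := P.eval₂ HahnSeries.C (jqModC W)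

theorem toL_evJ (P : (↥W)[X]) : toL W (evJ W P) = P.eval₂ (constL W) (jqModC L) := by
  rw [evJ, Polynomial.hom_eval₂, toL_jqModC]
  congr 1
  exact RingHom.ext fun c => toL_C W c

theorem toK_evJ (P : (↥W)[X]) :
    toK W (evJ W P) = (P.map (IsLocalRing.residue W)).eval₂
      (HahnSeries.C (Γ := ℤ) (R := IsLocalRing.ResidueField W))
      (jqModC (IsLocalRing.ResidueField W)) := by
  rw [evJ, Polynomial.hom_eval₂, toK_jqModC, Polynomial.eval₂_map]
  congr 1
  exact RingHom.ext fun c => toK_C W c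

theorem red_toL_evJ (P : (↥W)[X]) :
    red W ⟨toL W (evJ W P), toL_mem_contentRing W _⟩ = toK W (evJ W P) := red_toL W _

theorem toK_evJ_eq_zero_iff (P : (↥W)[X]) :
    toK W (evJ W P) = 0 ↔ P.map (IsLocalRing.residue W) = 0 := by
  rw [toK_evJ]
  constructor
  · exact Fermat.Agent.S28.Content.eval₂_jqModC_eq_zero
  · intro h; rw [h, Polynomial.eval₂_zero]

theorem toK_evJ_mem_kJ (P : (↥W)[X]) : toK W (evJ W P) ∈ kJ W := by
  rw [toK_evJ, ← Fermat.Agent.S28.Content.algebraMap_eq_C_of_field, ← Polynomial.aeval_def]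
  exact IntermediateField.algebra_adjoin_le_adjoin _ _
    (Polynomial.aeval_mem_adjoin_singleton _ _)

/-- Structure of the elements of `L(j)`, explicit form: a nonzero constant times a quotient
of two elements of `W[j]` which are nonzero modulo the maximal ideal. -/
theorem exists_const_mul_quot {c : LaurentSeries L}
    (hc : c ∈ IntermediateField.adjoin L {jqModC L}) (hc0 : c ≠ 0) :
    ∃ (a : L) (P Q : (↥W)[X]), a ≠ 0 ∧ toK W (evJ W P) ≠ 0 ∧ toK W (evJ W Q) ≠ 0 ∧
      c * toL W (evJ W Q) = HahnSeries.C a * toL W (evJ W P) := by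
  obtain ⟨r, s, rfl⟩ := (IntermediateField.mem_adjoin_simple_iff L c).mp hc
  have hr0 : r ≠ 0 := by rintro rfl; simp at hc0
  have hs0 : s ≠ 0 := by rintro rfl; simp at hc0
  obtain ⟨a, r₁, ha, hr₁, rfl⟩ := exists_scale_poly W r hr0
  obtain ⟨a', s₁, ha', hs₁, rfl⟩ := exists_scale_poly W s hs0
  rw [aeval_jq_scaled, aeval_jq_scaled, ← toL_evJ, ← toL_evJ]
  have hps : toK W (evJ W s₁) ≠ 0 := fun h => hs₁ ((toK_evJ_eq_zero_iff W s₁).mp h)
  have hpr : toK W (evJ W r₁) ≠ 0 := fun h => hr₁ ((toK_evJ_eq_zero_iff W r₁).mp h)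
  have hps0 : toL W (evJ W s₁) ≠ 0 := fun h0 =>
    hps (by rw [(toL_eq_zero_iff W _).mp h0, map_zero])
  have hC : (HahnSeries.C a' : LaurentSeries L) ≠ 0 := HahnSeries.C_ne_zero ha'
  refine ⟨a / a', r₁, s₁, div_ne_zero ha ha', hpr, hps, ?_⟩
  rw [map_div₀]
  field_simp

/-- The reduction of an element of `L(j)` in the content ring lies in `κ(j̄)`. -/
theorem red_mem_kJ {c : LaurentSeries L} (hc : c ∈ IntermediateField.adjoin L {jqModC L})
    (hcW : c ∈ contentRing W) : red W ⟨c, hcW⟩ ∈ kJ W := by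
  rcases eq_or_ne c 0 with rfl | hc0
  · have h1 : (⟨0, hcW⟩ : contentRing W) = 0 := rfl
    rw [h1, map_zero]; exact zero_mem _
  obtain ⟨a, u, hu, ha, hured, huJ, rfl⟩ := exists_const_mul_unit W hc hc0
  have huinv : u⁻¹ ∈ contentRing W := inv_mem_contentRing W hu hured
  have hu0 : u ≠ 0 := by
    rintro rfl
    apply hured
    have h1 : (⟨0, hu⟩ : contentRing W) = 0 := rfl
    rw [h1, map_zero]
  have haW : a ∈ W := by
    rw [← C_mem_contentRing_iff W]
    have h1 : HahnSeries.C a = (HahnSeries.C a * u) * u⁻¹ := by field_simp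
    rw [h1]; exact mul_mem hcW huinv
  have h2 : (⟨HahnSeries.C a * u, hcW⟩ : contentRing W) =
      ⟨HahnSeries.C ((⟨a, haW⟩ : W) : L), C_mem_contentRing W ⟨a, haW⟩⟩ * ⟨u, hu⟩ := rfl
  rw [h2, map_mul, red_C]
  refine mul_mem ?_ huJ
  rw [← Fermat.Agent.S28.Content.algebraMap_eq_C_of_field]
  exact IntermediateField.algebraMap_mem _ _

/-- An element of `L(j)` outside the content ring has its inverse in the maximal ideal. -/
theorem inv_mem_of_notMem_of_mem_adjoin_j {c : LaurentSeries L}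
    (hc : c ∈ IntermediateField.adjoin L {jqModC L}) (hcW : c ∉ contentRing W) :
    ∃ h : c⁻¹ ∈ contentRing W, red W ⟨c⁻¹, h⟩ = 0 := by
  have hc0 : c ≠ 0 := fun h0 => hcW (by rw [h0]; exact zero_mem _)
  obtain ⟨a, u, hu, ha, hured, -, rfl⟩ := exists_const_mul_unit W hc hc0
  have huinv : u⁻¹ ∈ contentRing W := inv_mem_contentRing W hu hured
  have haW : a ∉ W := fun h => hcW (mul_mem (C_mem_contentRing W ⟨a, h⟩) hu)
  have hinv : a⁻¹ ∈ W := (W.mem_or_inv_mem a).resolve_left haW
  have hnu : ¬ IsUnit (⟨a⁻¹, hinv⟩ : W) := by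
    intro hunit
    obtain ⟨v, hv⟩ := hunit.exists_right_inv
    apply haW
    have h1 : (a⁻¹ : L) * (v : L) = 1 := by
      have := congrArg (Subtype.val) hv
      simpa using this
    have h2 : (v : L) = a := by
      rw [inv_mul_eq_one₀ ha] at h1
      exact h1.symm
    rw [← h2]; exact v.2
  have hres : IsLocalRing.residue W (⟨a⁻¹, hinv⟩ : W) = 0 := by
    by_contra hne
    exact hnu ((IsLocalRing.residue_ne_zero_iff_isUnit _).mp hne)
  have heq : (HahnSeries.C a * u)⁻¹ = HahnSeries.C ((⟨a⁻¹, hinv⟩ : W) : L) * u⁻¹ := by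
    rw [mul_inv, ← map_inv₀]
  have hmem : (HahnSeries.C a * u)⁻¹ ∈ contentRing W := by
    rw [heq]; exact mul_mem (C_mem_contentRing W ⟨a⁻¹, hinv⟩) huinv
  refine ⟨hmem, ?_⟩
  have h3 : (⟨(HahnSeries.C a * u)⁻¹, hmem⟩ : contentRing W) =
      ⟨HahnSeries.C ((⟨a⁻¹, hinv⟩ : W) : L), C_mem_contentRing W ⟨a⁻¹, hinv⟩⟩ *
        ⟨u⁻¹, huinv⟩ := Subtype.ext heq
  rw [h3, map_mul, red_C, hres, map_zero, zero_mul]

theorem mem_or_inv_mem_of_mem_adjoin_j {c : LaurentSeries L}
    (hc : c ∈ IntermediateField.adjoin L {jqModC L}) :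
    c ∈ contentRing W ∨ c⁻¹ ∈ contentRing W := by
  by_cases h : c ∈ contentRing W
  · exact Or.inl h
  · exact Or.inr (inv_mem_of_notMem_of_mem_adjoin_j W hc h).1

/-- Among finitely many nonzero elements of `L(j)` there is one of minimal valuation. -/
theorem exists_min_of_finset {ι : Type*} (c : ι → LaurentSeries L)
    (hc : ∀ i, c i ∈ IntermediateField.adjoin L {jqModC L}) (s : Finset ι) :
    s.Nonempty → (∀ i ∈ s, c i ≠ 0) → ∃ i₀ ∈ s, ∀ i ∈ s, c i / c i₀ ∈ contentRing W := by
  classical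
  induction s using Finset.induction_on with
  | empty => intro h; exact absurd h Finset.not_nonempty_empty
  | insert a s ha ih =>
    intro _ hne
    rcases s.eq_empty_or_nonempty with rfl | hs
    · refine ⟨a, Finset.mem_insert_self _ _, fun i hi => ?_⟩
      have hia : i = a := by simpa using hi
      rw [hia, div_self (hne a (Finset.mem_insert_self _ _))]
      exact one_mem _
    · obtain ⟨i₁, hi₁, h₁⟩ := ih hs (fun i hi => hne i (Finset.mem_insert_of_mem hi))
      have hi₁0 : c i₁ ≠ 0 := hne i₁ (Finset.mem_insert_of_mem hi₁)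
      have ha0 : c a ≠ 0 := hne a (Finset.mem_insert_self _ _)
      rcases mem_or_inv_mem_of_mem_adjoin_j W (div_mem (hc a) (hc i₁)) with h | h
      · refine ⟨i₁, Finset.mem_insert_of_mem hi₁, fun i hi => ?_⟩
        rcases Finset.mem_insert.mp hi with rfl | hi
        · exact h
        · exact h₁ i hi
      · refine ⟨a, Finset.mem_insert_self _ _, fun i hi => ?_⟩
        rcases Finset.mem_insert.mp hi with rfl | hi
        · rw [div_self ha0]; exact one_mem _
        · have h2 : c i / c a = (c i / c i₁) * (c a / c i₁)⁻¹ := by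
            field_simp
          rw [h2]
          exact mul_mem (h₁ i hi) h

/-- Among finitely many elements of `L(j)`, not all zero, there is a nonzero one of minimal
valuation. -/
theorem exists_min_index {n : ℕ} (c : Fin n → LaurentSeries L)
    (hc : ∀ i, c i ∈ IntermediateField.adjoin L {jqModC L}) (hne : ∃ i, c i ≠ 0) :
    ∃ i₀, c i₀ ≠ 0 ∧ ∀ i, c i / c i₀ ∈ contentRing W := by
  classical
  obtain ⟨j, hj⟩ := hne
  have hs : (Finset.univ.filter fun i => c i ≠ 0).Nonempty := ⟨j, by simp [hj]⟩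
  obtain ⟨i₀, hi₀, h⟩ := exists_min_of_finset W c hc _ hs (fun i hi => (Finset.mem_filter.mp hi).2)
  refine ⟨i₀, (Finset.mem_filter.mp hi₀).2, fun i => ?_⟩
  by_cases hi : c i = 0
  · rw [hi, zero_div]; exact zero_mem _
  · exact h i (by simp [hi])

/-! ### Orthonormal families -/

section Orthonormal

variable {n : ℕ} (b : Fin n → LaurentSeries L) (hb : ∀ i, b i ∈ contentRing W)

theorem sum_mul_mem (c : Fin n → LaurentSeries L) (hcW : ∀ i, c i ∈ contentRing W)
    (hb : ∀ i, b i ∈ contentRing W) : ∑ i, c i * b i ∈ contentRing W :=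
  sum_mem fun i _ => mul_mem (hcW i) (hb i)

theorem red_sum_mul (c : Fin n → LaurentSeries L) (hcW : ∀ i, c i ∈ contentRing W) :
    red W ⟨∑ i, c i * b i, sum_mul_mem W b c hcW hb⟩ =
      ∑ i, red W ⟨c i, hcW i⟩ * red W ⟨b i, hb i⟩ := by
  have h1 : (⟨∑ i, c i * b i, sum_mul_mem W b c hcW hb⟩ : contentRing W) =
      ∑ i, (⟨c i, hcW i⟩ : contentRing W) * ⟨b i, hb i⟩ := by
    apply Subtype.ext
    rw [AddSubmonoidClass.coe_finsetSum]
    rfl
  rw [h1, map_sum]
  exact Finset.sum_congr rfl fun i _ => map_mul _ _ _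

variable (hli : LinearIndependent (kJ W) (fun i => red W ⟨b i, hb i⟩))

include hli in
/-- If an integral `L(j)`-combination of an orthonormal family reduces to zero, so do all its
coefficients. -/
theorem orthonormal_core (c : Fin n → LaurentSeries L)
    (hc : ∀ i, c i ∈ IntermediateField.adjoin L {jqModC L}) (hcW : ∀ i, c i ∈ contentRing W)
    (h0 : red W ⟨∑ i, c i * b i, sum_mul_mem W b c hcW hb⟩ = 0) (i : Fin n) :
    red W ⟨c i, hcW i⟩ = 0 := by
  rw [red_sum_mul W b hb c hcW] at h0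
  have h1 := Fintype.linearIndependent_iff.mp hli
    (fun i => (⟨red W ⟨c i, hcW i⟩, red_mem_kJ W (hc i) (hcW i)⟩ : kJ W)) (by
      rw [← h0]
      exact Finset.sum_congr rfl fun i _ => rfl) i
  exact congrArg Subtype.val h1

include hli in
/-- An orthonormal family is linearly independent over `L(j)`. -/
theorem orthonormal_indep (c : Fin n → LaurentSeries L)
    (hc : ∀ i, c i ∈ IntermediateField.adjoin L {jqModC L})
    (h0 : ∑ i, c i * b i = 0) (i : Fin n) : c i = 0 := by
  by_contra hi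
  obtain ⟨i₀, hi₀, hmin⟩ := exists_min_index W c hc ⟨i, hi⟩
  have hd : ∀ i, c i / c i₀ ∈ IntermediateField.adjoin L {jqModC L} :=
    fun i => div_mem (hc i) (hc i₀)
  have hsum : ∑ i, c i / c i₀ * b i = 0 := by
    have h1 : ∑ i, c i / c i₀ * b i = (∑ i, c i * b i) * (c i₀)⁻¹ := by
      rw [Finset.sum_mul]
      exact Finset.sum_congr rfl fun i _ => by ring
    rw [h1, h0, zero_mul]
  have h2 := orthonormal_core W b hb hli (fun i => c i / c i₀) hd hmin (by
    have h3 : (⟨∑ i, c i / c i₀ * b i, sum_mul_mem W b _ hmin hb⟩ : contentRing W) = 0 :=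
      Subtype.ext hsum
    rw [h3, map_zero]) i₀
  have h4 : (⟨c i₀ / c i₀, hmin i₀⟩ : contentRing W) = 1 := Subtype.ext (div_self hi₀)
  rw [h4, map_one] at h2
  exact one_ne_zero h2

include hli in
/-- An `L(j)`-combination of an orthonormal family lies in the content ring only if all its
coefficients do. -/
theorem orthonormal_mem (c : Fin n → LaurentSeries L)
    (hc : ∀ i, c i ∈ IntermediateField.adjoin L {jqModC L})
    (hx : ∑ i, c i * b i ∈ contentRing W) (i : Fin n) : c i ∈ contentRing W := by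
  by_cases hall : ∀ i, c i = 0
  · rw [hall i]; exact zero_mem _
  push Not at hall
  obtain ⟨i₀, hi₀, hmin⟩ := exists_min_index W c hc hall
  by_cases hi₀W : c i₀ ∈ contentRing W
  · have h1 : c i = c i / c i₀ * c i₀ := by field_simp
    rw [h1]; exact mul_mem (hmin i) hi₀W
  exfalso
  obtain ⟨hinv, hred⟩ := inv_mem_of_notMem_of_mem_adjoin_j W (hc i₀) hi₀W
  have hd : ∀ i, c i / c i₀ ∈ IntermediateField.adjoin L {jqModC L} :=
    fun i => div_mem (hc i) (hc i₀)
  have hsum : ∑ i, c i / c i₀ * b i = (∑ i, c i * b i) * (c i₀)⁻¹ := by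
    rw [Finset.sum_mul]
    exact Finset.sum_congr rfl fun i _ => by ring
  have h2 := orthonormal_core W b hb hli (fun i => c i / c i₀) hd hmin (by
    have h3 : (⟨∑ i, c i / c i₀ * b i, sum_mul_mem W b _ hmin hb⟩ : contentRing W) =
        ⟨∑ i, c i * b i, hx⟩ * ⟨(c i₀)⁻¹, hinv⟩ := Subtype.ext hsum
    rw [h3, map_mul, hred, mul_zero]) i₀
  have h4 : (⟨c i₀ / c i₀, hmin i₀⟩ : contentRing W) = 1 := Subtype.ext (div_self hi₀)
  rw [h4, map_one] at h2
  exact one_ne_zero h2

include hli in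
/-- A nonzero `L(j)`-combination of an orthonormal family is a nonzero constant times a unit
of the content ring, which is itself an integral combination of the family. -/
theorem orthonormal_unit (c : Fin n → LaurentSeries L)
    (hc : ∀ i, c i ∈ IntermediateField.adjoin L {jqModC L})
    (hx : ∑ i, c i * b i ≠ 0) :
    ∃ (a : L) (d : Fin n → LaurentSeries L) (hdW : ∀ i, d i ∈ contentRing W), a ≠ 0 ∧
      (∀ i, d i ∈ IntermediateField.adjoin L {jqModC L}) ∧
      red W ⟨∑ i, d i * b i, sum_mul_mem W b d hdW hb⟩ ≠ 0 ∧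
      ∑ i, c i * b i = HahnSeries.C a * ∑ i, d i * b i := by
  have hall : ∃ i, c i ≠ 0 := by
    by_contra h
    push Not at h
    exact hx (Finset.sum_eq_zero fun i _ => by rw [h i, zero_mul])
  obtain ⟨i₀, hi₀, hmin⟩ := exists_min_index W c hc hall
  obtain ⟨a, u, hu, ha, hured, huJ, hcu⟩ := exists_const_mul_unit W (hc i₀) hi₀
  have huJ' : u ∈ IntermediateField.adjoin L {jqModC L} := by
    have hC : (HahnSeries.C a : LaurentSeries L) ≠ 0 := HahnSeries.C_ne_zero ha
    have h1 : u = (HahnSeries.C a)⁻¹ * c i₀ := by rw [hcu]; field_simp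
    rw [h1]
    refine mul_mem (inv_mem ?_) (hc i₀)
    rw [← Fermat.Agent.S28.Content.algebraMap_eq_C_of_field]
    exact IntermediateField.algebraMap_mem _ _
  have hdW : ∀ i, u * (c i / c i₀) ∈ contentRing W := fun i => mul_mem hu (hmin i)
  have hdJ : ∀ i, u * (c i / c i₀) ∈ IntermediateField.adjoin L {jqModC L} :=
    fun i => mul_mem huJ' (div_mem (hc i) (hc i₀))
  refine ⟨a, fun i => u * (c i / c i₀), hdW, ha, hdJ, ?_, ?_⟩
  · intro h0
    have h2 := orthonormal_core W b hb hli _ hdJ hdW h0 i₀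
    have h4 : (⟨u * (c i₀ / c i₀), hdW i₀⟩ : contentRing W) = ⟨u, hu⟩ :=
      Subtype.ext (show u * (c i₀ / c i₀) = u by rw [div_self hi₀, mul_one])
    rw [h4] at h2
    exact hured h2
  · rw [Finset.mul_sum]
    refine Finset.sum_congr rfl fun i _ => ?_
    have h5 : HahnSeries.C a * (u * (c i / c i₀) * b i) = (HahnSeries.C a * u) * (c i / c i₀) * b i := by
      ring
    rw [h5, ← hcu]
    field_simp

end Orthonormal

end Fermat.Agent.S18.Gauss
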