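import Mathlib
import Fermat.Agent.S18.GaussBasis
import Fermat.Agent.S24.Defs
import Fermat.Agent.S24.BaseChange
import Fermat.Agent.S24.CoeffBC
import Fermat.Agent.S28.Tower
import Fermat.Agent.S28.DegZero

/-!
# S18, package PG (3): the two degree inputs over arbitrary fields

* `exists_indep_mod_field`: over any field `κ` of characteristic `ℓ ∤ N` there are `ψ(N)`
  elements of `ℤ[j(q^d) : d ∣ N]` whose reductions are linearly independent over `κ(j̄)`
  (S28's tower theorem over `AlgebraicClosure κ`, descended to `κ`).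
* `exists_span_full`: over any field `L` of characteristic zero, `FF L N` is spanned over
  `L(j)` by at most `ψ(N)` elements; hence any `ψ(N)` elements which are `L(j)`-independent
  span it (`span_of_indep`).
-/

set_option autoImplicit false

noncomputable section

namespace Fermat.Agent.S18.Gauss

open ModularCurve Polynomial Fermat.Agent.S28 Fermat.Agent.S28.Tower

/-- Residue-degree input over an arbitrary field of characteristic `ℓ ∤ N`. -/
theorem exists_indep_mod_field (N : ℕ) [NeZero N] (ℓ : ℕ) [Fact ℓ.Prime] (hℓN : ¬ ℓ ∣ N)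
    (κ : Type*) [Field κ] [CharP κ ℓ] :
    ∃ θ : Fin (dedekindPsi N) → LaurentSeries ℤ,
      (∀ i, θ i ∈ Subring.closure
        {x : LaurentSeries ℤ | ∃ (d : ℕ) (_ : NeZero d), d ∣ N ∧ x = qExpand ℤ d jInt}) ∧
      LinearIndependent ↥(IntermediateField.adjoin κ {jqModC κ})
        (fun i => coeffMap (Int.castRingHom κ) (θ i)) := by
  have hℓ : ℓ.Prime := Fact.out
  let k := AlgebraicClosure κ
  have hjb : (jS k).order = -1 := NotRational.order_jS
  have hD : ∀ (r : ℕ) [NeZero r], r.Prime → r ∣ N →
      ∃ (ζ : kˣ) (_ : IsPrimitiveRoot ζ r), Nonempty (ModPolyData k r ζ) := by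
    intro r _ hr hrN
    have hrk : (r : k) ≠ 0 := by
      intro h0
      have h1 : ℓ ∣ r := (CharP.cast_eq_zero_iff k ℓ r).mp h0
      have h2 : ℓ = r := (Nat.prime_dvd_prime_iff_eq hℓ hr).mp h1
      exact hℓN (h2 ▸ hrN)
    have : NeZero (r : k) := ⟨hrk⟩
    obtain ⟨ζ0, hζ0⟩ := HasEnoughRootsOfUnity.exists_primitiveRoot k r
    obtain ⟨ζ, rfl⟩ := hζ0.isUnit (NeZero.ne r)
    have hζ : IsPrimitiveRoot ζ r := IsPrimitiveRoot.coe_units_iff.mp hζ0
    exact ⟨ζ, hζ, exists_modPolyData k r hr ζ hζ⟩
  have H1 : ∀ (r : ℕ) [NeZero r], r.Prime → r ∣ N →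
      ∃ (Φ : Polynomial (Polynomial k)) (ζ : kˣ),
        Φ.map (evalAt (qExpand k r (jS k))) =
          (X - C (qExpand k (r * r) (jS k))) *
            ∏ c ∈ Finset.range r, (X - C (tw (ζ ^ c) (jS k))) := by
    intro r _ hr hrN
    obtain ⟨ζ, hζ, ⟨D⟩⟩ := hD r hr hrN
    exact ⟨D.Φ, ζ, D.hΦ⟩
  have H2 : ∀ (r : ℕ) [NeZero r], r.Prime → r ∣ N →
      qExpand k r (jS k) ∉ IntermediateField.adjoin k {jS k} := by
    intro r _ hr hrN
    obtain ⟨ζ, hζ, ⟨D⟩⟩ := hD r hr hrN
    exact qExpand_jS_notMem k r hr ζ hζ D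
  obtain ⟨v, hv, hli⟩ := tower_indep (jS k) hjb N H1 H2
  have hcl : Subring.closure
      {x : LaurentSeries k | ∃ (d : ℕ) (_ : NeZero d), d ∣ N ∧ x = qExpand k d (jS k)} =
      (Subring.closure
        {x : LaurentSeries ℤ | ∃ (d : ℕ) (_ : NeZero d), d ∣ N ∧ x = qExpand ℤ d jInt}).map
        (coeffMap (Int.castRingHom k)) := by
    rw [RingHom.map_closure]
    congr 1
    ext x
    constructor
    · rintro ⟨d, hd, hdN, rfl⟩
      exact ⟨qExpand ℤ d jInt, ⟨d, hd, hdN, rfl⟩, by rw [ModularCurve.coeffMap_qExpand]; rfl⟩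
    · rintro ⟨_, ⟨d, hd, hdN, rfl⟩, rfl⟩
      exact ⟨d, hd, hdN, by rw [ModularCurve.coeffMap_qExpand]; rfl⟩
  have hv' : ∀ i, ∃ θ ∈ Subring.closure
      {x : LaurentSeries ℤ | ∃ (d : ℕ) (_ : NeZero d), d ∣ N ∧ x = qExpand ℤ d jInt},
      coeffMap (Int.castRingHom k) θ = v i := by
    intro i
    have := hv i
    rw [hcl] at this
    exact Subring.mem_map.mp this
  choose θ hθ hθv using hv'
  refine ⟨θ, hθ, ?_⟩
  rw [← jS_eq_jqModC' κ]
  refine linearIndependent_descend (algebraMap κ k) (jS κ) _ ?_
  have e1 : coeffMap (algebraMap κ k) (jS κ) = jS k := coeffMap_jS _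
  have e2 : (fun i => coeffMap (algebraMap κ k)
      (coeffMap (Int.castRingHom κ) (θ i))) = v := by
    funext i
    rw [coeffMap_coeffMap, ← hθv i]
    exact coeffMap_congr (RingHom.ext_int _ _) _
  rw [e1, e2]
  exact hli

/-! ### The characteristic-zero degree bound over an arbitrary field -/

section CharZero

variable (L : Type*) [Field L] [Algebra ℚ L] (N : ℕ) [NeZero N]

theorem coeffEmb_jq : coeffEmb L jq = jqModC L := coeffMap_jqModC _

theorem coeffEmb_coeffMap_intCast (x : LaurentSeries ℤ) :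
    coeffEmb L (coeffMap (Int.castRingHom ℚ) x) = coeffMap (Int.castRingHom L) x := by
  rw [coeffEmb, coeffMap_coeffMap]
  exact coeffMap_congr (RingHom.ext_int _ _) x

/-- the coefficient embedding `F_N → FF L N`. -/
def embFull : ↥(modularFunctionFieldFull N) →+* S24.FF L N where
  toFun x := ⟨coeffEmb L x, coeffEmb_mem_laurentBaseChange L x.2⟩
  map_one' := Subtype.ext (map_one _)
  map_mul' _ _ := Subtype.ext (map_mul _ _ _)
  map_zero' := Subtype.ext (map_zero _)
  map_add' _ _ := Subtype.ext (map_add _ _ _)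

omit [NeZero N] in
theorem coe_embFull (x : ↥(modularFunctionFieldFull N)) :
    ((embFull L N x : S24.FF L N) : LaurentSeries L) = coeffEmb L x := rfl

omit [NeZero N] in
theorem embFull_algebraMap (a : ℚ) :
    embFull L N (algebraMap ℚ ↥(modularFunctionFieldFull N) a) =
      algebraMap L (S24.FF L N) (algebraMap ℚ L a) := by
  apply Subtype.ext
  rw [coe_embFull]
  exact DFunLike.congr_fun (RingHom.ext_rat
    ((coeffEmb L).comp ((algebraMap ↥(modularFunctionFieldFull N) (LaurentSeries ℚ)).comp
      (algebraMap ℚ ↥(modularFunctionFieldFull N))))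
    ((algebraMap (S24.FF L N) (LaurentSeries L)).comp
      ((algebraMap L (S24.FF L N)).comp (algebraMap ℚ L)))) a

omit [NeZero N] in
theorem adjoin_range_embFull :
    IntermediateField.adjoin L (Set.range (embFull L N)) = ⊤ := by
  rw [eq_top_iff]
  intro y _
  set E := IntermediateField.adjoin L (Set.range (embFull L N)) with hE
  have hle : laurentBaseChange L (modularFunctionFieldFull N) ≤ IntermediateField.lift E := by
    change IntermediateField.adjoin L
      (⇑(coeffEmb L) '' ((modularFunctionFieldFull N) : Set (LaurentSeries ℚ))) ≤ _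
    rw [IntermediateField.adjoin_le_iff]
    rintro _ ⟨x, hx, rfl⟩
    have h1 : embFull L N ⟨x, hx⟩ ∈ E := IntermediateField.subset_adjoin L _ ⟨_, rfl⟩
    exact (IntermediateField.mem_lift (embFull L N ⟨x, hx⟩)).mpr h1
  exact (IntermediateField.mem_lift y).mp (hle y.2)

theorem embFull_jFull : embFull L N (IgusaScheme.jFull N) = S24.jBC L N := rfl

/-- `FF L N` is finite over `L(j)` of degree at most `ψ(N)`. -/
theorem finrank_FF_le :
    FiniteDimensional (IntermediateField.adjoin L {S24.jBC L N}) (S24.FF L N) ∧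
      Module.finrank (IntermediateField.adjoin L {S24.jBC L N}) (S24.FF L N) ≤ dedekindPsi N := by
  have := S28.finiteDimensional_full N
  let b := Module.finBasis ↥(IntermediateField.adjoin ℚ {IgusaScheme.jFull N})
    ↥(modularFunctionFieldFull N)
  have hspan : Submodule.span (IntermediateField.adjoin L {S24.jBC L N})
      (Set.range (embFull L N ∘ b)) = ⊤ :=
    S24.BaseChange.span_range_map (algebraMap ℚ L) (embFull L N) (embFull_algebraMap L N)
      (adjoin_range_embFull L N) (IgusaScheme.jFull N) b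
  have hfin : FiniteDimensional (IntermediateField.adjoin L {S24.jBC L N}) (S24.FF L N) := by
    refine ⟨?_⟩
    rw [← hspan]
    exact Submodule.fg_span (Set.finite_range _)
  refine ⟨hfin, ?_⟩
  have h := finrank_range_le_card (R := ↥(IntermediateField.adjoin L {S24.jBC L N}))
    (embFull L N ∘ b)
  rw [Set.finrank, hspan, finrank_top] at h
  have h2 : Fintype.card (Fin (Module.finrank ↥(IntermediateField.adjoin ℚ {IgusaScheme.jFull N})
      ↥(modularFunctionFieldFull N))) ≤ dedekindPsi N := by
    rw [Fintype.card_fin]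
    exact S28.finrank_adjoin_jFull_le N
  exact h.trans h2

theorem coe_jBC_eq : ((S24.jBC L N : S24.FF L N) : LaurentSeries L) = jqModC L :=
  coeffEmb_jq L

/-- `L(j) ⊆ L((q))` is the image of `L(j) ⊆ FF L N`. -/
theorem adjoin_jq_eq_map :
    IntermediateField.adjoin L {jqModC L} =
      (IntermediateField.adjoin L {S24.jBC L N}).map
        (IntermediateField.val (laurentBaseChange L (modularFunctionFieldFull N))) := by
  rw [IntermediateField.adjoin_map, Set.image_singleton]
  congr 2
  exact (coe_jBC_eq L N).symm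

theorem coe_mem_adjoin_jq (c : ↥(IntermediateField.adjoin L {S24.jBC L N})) :
    ((c : S24.FF L N) : LaurentSeries L) ∈ IntermediateField.adjoin L {jqModC L} := by
  rw [adjoin_jq_eq_map L N]
  exact ⟨c, c.2, rfl⟩

theorem exists_of_mem_adjoin_jq {c : LaurentSeries L}
    (hc : c ∈ IntermediateField.adjoin L {jqModC L}) :
    ∃ c' : ↥(IntermediateField.adjoin L {S24.jBC L N}),
      ((c' : S24.FF L N) : LaurentSeries L) = c := by
  rw [adjoin_jq_eq_map L N] at hc
  obtain ⟨c', hc', rfl⟩ := hc
  exact ⟨⟨c', hc'⟩, rfl⟩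

/-- `L(j) ⊆ FF L N`. -/
theorem mem_FF_of_mem_adjoin_jq {c : LaurentSeries L}
    (hc : c ∈ IntermediateField.adjoin L {jqModC L}) :
    c ∈ laurentBaseChange L (modularFunctionFieldFull N) := by
  obtain ⟨c', rfl⟩ := exists_of_mem_adjoin_jq L N hc
  exact (c' : S24.FF L N).2

/-- Any `ψ(N)` elements of `FF L N` which are linearly independent over `L(j)` span it. -/
theorem span_of_indep (b : Fin (dedekindPsi N) → LaurentSeries L)
    (hb : ∀ i, b i ∈ laurentBaseChange L (modularFunctionFieldFull N))
    (hind : ∀ c : Fin (dedekindPsi N) → LaurentSeries L,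
      (∀ i, c i ∈ IntermediateField.adjoin L {jqModC L}) → ∑ i, c i * b i = 0 → ∀ i, c i = 0)
    {x : LaurentSeries L} (hx : x ∈ laurentBaseChange L (modularFunctionFieldFull N)) :
    ∃ c : Fin (dedekindPsi N) → LaurentSeries L,
      (∀ i, c i ∈ IntermediateField.adjoin L {jqModC L}) ∧ x = ∑ i, c i * b i := by
  obtain ⟨hfin, hle⟩ := finrank_FF_le L N
  let b' : Fin (dedekindPsi N) → S24.FF L N := fun i => ⟨b i, hb i⟩
  have hli : LinearIndependent (IntermediateField.adjoin L {S24.jBC L N}) b' := by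
    rw [Fintype.linearIndependent_iff]
    intro g hg i
    have h1 : ∑ i, ((g i : S24.FF L N) : LaurentSeries L) * b i = 0 := by
      have h2 := congrArg (fun y : S24.FF L N => (y : LaurentSeries L)) hg
      simp only [ZeroMemClass.coe_zero] at h2
      rw [← h2, IntermediateField.coe_sum]
      refine Finset.sum_congr rfl fun i _ => ?_
      rw [IntermediateField.smul_def, smul_eq_mul, MulMemClass.coe_mul]
    have h3 := hind (fun i => ((g i : S24.FF L N) : LaurentSeries L))
      (fun i => coe_mem_adjoin_jq L N (g i)) h1 i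
    exact Subtype.ext (Subtype.ext h3)
  have hcard : Fintype.card (Fin (dedekindPsi N)) =
      Module.finrank (IntermediateField.adjoin L {S24.jBC L N}) (S24.FF L N) := by
    have h1 := hli.fintype_card_le_finrank
    rw [Fintype.card_fin] at h1 ⊢
    omega
  have hspan := hli.span_eq_top_of_card_eq_finrank' hcard
  have hmem : (⟨x, hx⟩ : S24.FF L N) ∈
      Submodule.span (IntermediateField.adjoin L {S24.jBC L N}) (Set.range b') := by
    rw [hspan]; trivial
  obtain ⟨c, hc⟩ := (Submodule.mem_span_range_iff_exists_fun _).mp hmem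
  refine ⟨fun i => ((c i : S24.FF L N) : LaurentSeries L),
    fun i => coe_mem_adjoin_jq L N (c i), ?_⟩
  have h2 := congrArg (fun y : S24.FF L N => (y : LaurentSeries L)) hc
  simp only at h2
  rw [← h2, IntermediateField.coe_sum]
  refine Finset.sum_congr rfl fun i _ => ?_
  rw [IntermediateField.smul_def, smul_eq_mul, MulMemClass.coe_mul]

end CharZero

end Fermat.Agent.S18.Gauss
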