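import Mathlib
import Fermat.Agent.S18.GaussBasis
import Fermat.Agent.S18.GaussDegree

/-!
# S18, package PG (4): the Gauss valuation of the function field `F_L` of `X₀(N)`

`W` is an arbitrary valuation subring of a field `L` of characteristic zero whose residue
field `κ` has characteristic `ℓ ∤ N`; `F_L = laurentBaseChange L (modularFunctionFieldFull N)`
is the function field of `X₀(N)` over `L` inside `L((q))` and
`F_κ = modularFunctionFieldFullC κ N ⊆ κ((q))`.

* `intFull W N ⊆ W((q))`: the integral series lying in `F_L` with reduction in `F_κ`.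
* `goodRing W N ⊆ L((q))`: the quotients `Y₁ / Y₂` of such series with `Ȳ₂ ≠ 0`.
* `exists_orthonormal_basis`: `ψ(N)` elements of `ℤ[j(q^d) : d ∣ N]` which form an
  `L(j)`-basis of `F_L`, whose reductions are `κ(j̄)`-independent, and such that an
  `L(j)`-combination is in the content ring iff its coefficients are.
* `mem_goodRing_of_mem`: `F_L ∩ contentRing W = goodRing W N`; in particular the reduction
  of an element of `F_L ∩ contentRing W` lies in `F_κ` (`red_mem_fullC`).
* `exists_const_mul_unit_full`, `exists_integral_rep`: every nonzero element of `F_L` is a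
  nonzero constant times a quotient `Y₁ / Y₂` of integral series of `F_L` whose reductions
  are nonzero elements of `F_κ`.
* `mem_liftField_of_mem_fullC`: every element of `F_κ` is a quotient of reductions of integral
  series of `F_L`.
-/

set_option autoImplicit false

noncomputable section

namespace Fermat.Agent.S18.Gauss

open ModularCurve Polynomial Fermat.Agent.S28 Fermat.Agent.S28.Tower

variable {L : Type*} [Field L] [Algebra ℚ L] (W : ValuationSubring L) (N : ℕ)

/-- The integral series of the function field: elements of `W((q))` lying in `F_L` whose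
reduction lies in `F_κ`. -/
def intFull : Subring (LaurentSeries W) where
  carrier := {Y | toL W Y ∈ laurentBaseChange L (modularFunctionFieldFull N) ∧
    toK W Y ∈ modularFunctionFieldFullC (IsLocalRing.ResidueField W) N}
  mul_mem' := by
    rintro x y ⟨hx, hx'⟩ ⟨hy, hy'⟩
    exact ⟨by rw [map_mul]; exact mul_mem hx hy, by rw [map_mul]; exact mul_mem hx' hy'⟩
  one_mem' := ⟨by rw [map_one]; exact one_mem _, by rw [map_one]; exact one_mem _⟩
  add_mem' := by
    rintro x y ⟨hx, hx'⟩ ⟨hy, hy'⟩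
    exact ⟨by rw [map_add]; exact add_mem hx hy, by rw [map_add]; exact add_mem hx' hy'⟩
  zero_mem' := ⟨by rw [map_zero]; exact zero_mem _, by rw [map_zero]; exact zero_mem _⟩
  neg_mem' := by
    rintro x ⟨hx, hx'⟩
    exact ⟨by rw [map_neg]; exact neg_mem hx, by rw [map_neg]; exact neg_mem hx'⟩

theorem mem_intFull_iff {Y : LaurentSeries W} :
    Y ∈ intFull W N ↔ toL W Y ∈ laurentBaseChange L (modularFunctionFieldFull N) ∧
      toK W Y ∈ modularFunctionFieldFullC (IsLocalRing.ResidueField W) N := Iff.rfl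

theorem C_mem_intFull (c : W) : HahnSeries.C c ∈ intFull W N := by
  refine ⟨?_, ?_⟩
  · rw [toL_C, ← Fermat.Agent.S28.Content.algebraMap_eq_C_of_field]
    exact IntermediateField.algebraMap_mem _ _
  · rw [toK_C, ← Fermat.Agent.S28.Content.algebraMap_eq_C_of_field]
    exact IntermediateField.algebraMap_mem _ _

theorem coeffMap_intCast_qExpand_jInt (d : ℕ) [NeZero d] :
    coeffMap (Int.castRingHom L) (qExpand ℤ d jInt) = coeffEmb L (qExpand ℚ d jq) := by
  have h1 : coeffMap (Int.castRingHom L) jInt = jqModC L := jS_eq_jqModC' L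
  rw [ModularCurve.coeffMap_qExpand, h1, coeffEmb, ModularCurve.coeffMap_qExpand]
  congr 1
  exact (coeffEmb_jq L).symm

theorem coeffMap_intCast_mem_intFull {θ : LaurentSeries ℤ}
    (hθ : θ ∈ Subring.closure
      {x : LaurentSeries ℤ | ∃ (d : ℕ) (_ : NeZero d), d ∣ N ∧ x = qExpand ℤ d jInt}) :
    coeffMap (Int.castRingHom W) θ ∈ intFull W N := by
  have hle : Subring.closure
      {x : LaurentSeries ℤ | ∃ (d : ℕ) (_ : NeZero d), d ∣ N ∧ x = qExpand ℤ d jInt} ≤
      (intFull W N).comap (coeffMap (Int.castRingHom W)) := by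
    rw [Subring.closure_le]
    rintro _ ⟨d, hd, hdN, rfl⟩
    show coeffMap (Int.castRingHom W) (qExpand ℤ d jInt) ∈ intFull W N
    refine ⟨?_, ?_⟩
    · rw [toL_coeffMap_intCast, coeffMap_intCast_qExpand_jInt]
      exact coeffEmb_mem_laurentBaseChange L (jqd_mem_full N hdN)
    · rw [toK_coeffMap_intCast, ModularCurve.coeffMap_qExpand]
      have h1 : coeffMap (Int.castRingHom (IsLocalRing.ResidueField W)) jInt =
          jqModC (IsLocalRing.ResidueField W) := jS_eq_jqModC' _
      rw [h1]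
      exact jqModCd_mem_full _ N hdN
  exact hle hθ

theorem jq_mem_intFull [NeZero N] : jqModC W ∈ intFull W N := by
  refine ⟨?_, ?_⟩
  · rw [toL_jqModC]
    exact mem_FF_of_mem_adjoin_jq L N (IntermediateField.subset_adjoin L _ rfl)
  · rw [toK_jqModC]
    exact jqModC_mem_full _ N

theorem evJ_mem_intFull [NeZero N] (P : (↥W)[X]) : evJ W P ∈ intFull W N := by
  rw [evJ, Polynomial.eval₂_eq_sum_range]
  exact sum_mem fun i _ => mul_mem (C_mem_intFull W N _) (pow_mem (jq_mem_intFull W N) i)

/-- The ring of quotients `Y₁ / Y₂` of integral series of the function field with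
`Ȳ₂ ≠ 0`. -/
def goodRing : Subring (LaurentSeries L) where
  carrier := {f | ∃ x y : LaurentSeries W, x ∈ intFull W N ∧ y ∈ intFull W N ∧
    toK W y ≠ 0 ∧ f * toL W y = toL W x}
  mul_mem' := by
    rintro f g ⟨x, y, hx, hyI, hy, h⟩ ⟨x', y', hx', hyI', hy', h'⟩
    refine ⟨x * x', y * y', mul_mem hx hx', mul_mem hyI hyI', ?_, ?_⟩
    · rw [map_mul]; exact mul_ne_zero hy hy'
    · rw [map_mul, map_mul, ← h, ← h']; ring
  one_mem' := ⟨1, 1, one_mem _, one_mem _, by simp, by simp⟩
  add_mem' := by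
    rintro f g ⟨x, y, hx, hyI, hy, h⟩ ⟨x', y', hx', hyI', hy', h'⟩
    refine ⟨x * y' + x' * y, y * y', add_mem (mul_mem hx hyI') (mul_mem hx' hyI),
      mul_mem hyI hyI', ?_, ?_⟩
    · rw [map_mul]; exact mul_ne_zero hy hy'
    · rw [map_add, map_mul, map_mul, map_mul, ← h, ← h']; ring
  zero_mem' := ⟨0, 1, zero_mem _, one_mem _, by simp, by simp⟩
  neg_mem' := by
    rintro f ⟨x, y, hx, hyI, hy, h⟩
    exact ⟨-x, y, neg_mem hx, hyI, hy, by rw [map_neg, ← h]; ring⟩

theorem mem_goodRing_iff {f : LaurentSeries L} :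
    f ∈ goodRing W N ↔ ∃ x y : LaurentSeries W, x ∈ intFull W N ∧ y ∈ intFull W N ∧
      toK W y ≠ 0 ∧ f * toL W y = toL W x := Iff.rfl

theorem goodRing_le_contentRing {f : LaurentSeries L} (hf : f ∈ goodRing W N) :
    f ∈ contentRing W := by
  obtain ⟨x, y, -, -, hy, h⟩ := hf
  exact ⟨x, y, hy, h⟩

theorem goodRing_le_full {f : LaurentSeries L} (hf : f ∈ goodRing W N) :
    f ∈ laurentBaseChange L (modularFunctionFieldFull N) := by
  obtain ⟨x, y, hx, hyI, hy, h⟩ := hf
  have hy0 : toL W y ≠ 0 := fun h0 => hy (by rw [(toL_eq_zero_iff W y).mp h0, map_zero])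
  have h1 : f = toL W x * (toL W y)⁻¹ := by rw [← h]; field_simp
  rw [h1]
  exact mul_mem hx.1 (inv_mem hyI.1)

theorem red_mem_of_mem_goodRing {f : LaurentSeries L} (hf : f ∈ goodRing W N) :
    red W ⟨f, goodRing_le_contentRing W N hf⟩ ∈
      modularFunctionFieldFullC (IsLocalRing.ResidueField W) N := by
  obtain ⟨x, y, hx, hyI, hy, h⟩ := id hf
  rw [red_mk_eq W _ hy h]
  exact div_mem hx.2 hyI.2

theorem toL_mem_goodRing {Y : LaurentSeries W} (hY : Y ∈ intFull W N) :
    toL W Y ∈ goodRing W N :=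
  ⟨Y, 1, hY, one_mem _, by simp, by simp⟩

theorem inv_mem_goodRing {f : LaurentSeries L} (hf : f ∈ goodRing W N)
    (hred : red W ⟨f, goodRing_le_contentRing W N hf⟩ ≠ 0) : f⁻¹ ∈ goodRing W N := by
  obtain ⟨x, y, hx, hyI, hy, h⟩ := id hf
  rw [red_mk_eq W _ hy h] at hred
  have hx' : toK W x ≠ 0 := fun h0 => hred (by rw [h0, zero_div])
  have hx0 : toL W x ≠ 0 := fun h0 => hx' (by rw [(toL_eq_zero_iff W x).mp h0, map_zero])
  have hf0 : f ≠ 0 := fun h0 => hx0 (by rw [← h, h0, zero_mul])
  refine ⟨y, x, hyI, hx, hx', ?_⟩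
  rw [← h, ← mul_assoc, inv_mul_cancel₀ hf0, one_mul]

/-- `L(j) ∩ contentRing W ⊆ goodRing W N`. -/
theorem mem_goodRing_of_mem_adjoin_j [NeZero N] {d : LaurentSeries L}
    (hd : d ∈ IntermediateField.adjoin L {jqModC L}) (hdW : d ∈ contentRing W) :
    d ∈ goodRing W N := by
  rcases eq_or_ne d 0 with rfl | hd0
  · exact zero_mem _
  obtain ⟨a, P, Q, ha, hP, hQ, h⟩ := exists_const_mul_quot W hd hd0
  have hPinv : (toL W (evJ W P))⁻¹ ∈ contentRing W :=
    inv_mem_contentRing W (toL_mem_contentRing W _) (by rw [red_toL]; exact hP)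
  have hP0 : toL W (evJ W P) ≠ 0 := fun h0 =>
    hP (by rw [(toL_eq_zero_iff W _).mp h0, map_zero])
  have haW : a ∈ W := by
    rw [← C_mem_contentRing_iff W]
    have h1 : HahnSeries.C a = d * toL W (evJ W Q) * (toL W (evJ W P))⁻¹ := by
      rw [h]; field_simp
    rw [h1]
    exact mul_mem (mul_mem hdW (toL_mem_contentRing W _)) hPinv
  refine ⟨HahnSeries.C (⟨a, haW⟩ : W) * evJ W P, evJ W Q,
    mul_mem (C_mem_intFull W N _) (evJ_mem_intFull W N P), evJ_mem_intFull W N Q, hQ, ?_⟩
  rw [map_mul, toL_C]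
  exact h

/-! ### The orthonormal basis -/

section Main

variable [NeZero N] (ℓ : ℕ) [Fact ℓ.Prime] [CharP (IsLocalRing.ResidueField W) ℓ]

/-- **Orthonormal basis.** There are `ψ(N)` elements `θ i` of `ℤ[j(q^d) : d ∣ N]` such that
their reductions are linearly independent over `κ(j̄)`, they are linearly independent over
`L(j)`, they span `F_L` over `L(j)`, and an `L(j)`-combination lies in the content ring only
if all its coefficients do. -/
theorem exists_orthonormal_basis (hℓN : ¬ ℓ ∣ N) :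
    ∃ θ : Fin (dedekindPsi N) → LaurentSeries ℤ,
      (∀ i, θ i ∈ Subring.closure
        {x : LaurentSeries ℤ | ∃ (d : ℕ) (_ : NeZero d), d ∣ N ∧ x = qExpand ℤ d jInt}) ∧
      LinearIndependent (kJ W)
        (fun i => coeffMap (Int.castRingHom (IsLocalRing.ResidueField W)) (θ i)) ∧
      (∀ c : Fin (dedekindPsi N) → LaurentSeries L,
        (∀ i, c i ∈ IntermediateField.adjoin L {jqModC L}) →
        ∑ i, c i * coeffMap (Int.castRingHom L) (θ i) = 0 → ∀ i, c i = 0) ∧
      (∀ c : Fin (dedekindPsi N) → LaurentSeries L,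
        (∀ i, c i ∈ IntermediateField.adjoin L {jqModC L}) →
        ∑ i, c i * coeffMap (Int.castRingHom L) (θ i) ∈ contentRing W →
          ∀ i, c i ∈ contentRing W) ∧
      (∀ x ∈ laurentBaseChange L (modularFunctionFieldFull N),
        ∃ c : Fin (dedekindPsi N) → LaurentSeries L,
          (∀ i, c i ∈ IntermediateField.adjoin L {jqModC L}) ∧
          x = ∑ i, c i * coeffMap (Int.castRingHom L) (θ i)) := by
  obtain ⟨θ, hθ, hli⟩ := exists_indep_mod_field N ℓ hℓN (IsLocalRing.ResidueField W)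
  have hli' : LinearIndependent (kJ W) (fun i =>
      red W ⟨coeffMap (Int.castRingHom L) (θ i), coeffMap_intCast_mem_contentRing W (θ i)⟩) := by
    have hfun : (fun i => red W ⟨coeffMap (Int.castRingHom L) (θ i),
        coeffMap_intCast_mem_contentRing W (θ i)⟩) =
        fun i => coeffMap (Int.castRingHom (IsLocalRing.ResidueField W)) (θ i) :=
      funext fun i => red_coeffMap_intCast W (θ i)
    rw [hfun]
    exact hli
  have hind := orthonormal_indep W (fun i => coeffMap (Int.castRingHom L) (θ i))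
    (fun i => coeffMap_intCast_mem_contentRing W (θ i)) hli'
  refine ⟨θ, hθ, hli, hind, ?_, ?_⟩
  · exact orthonormal_mem W (fun i => coeffMap (Int.castRingHom L) (θ i))
      (fun i => coeffMap_intCast_mem_contentRing W (θ i)) hli'
  · intro x hx
    refine span_of_indep L N (fun i => coeffMap (Int.castRingHom L) (θ i)) (fun i => ?_) hind hx
    rw [← toL_coeffMap_intCast W]
    exact (coeffMap_intCast_mem_intFull W N (hθ i)).1

/-- `F_L ∩ contentRing W ⊆ goodRing W N`: an element of the function field in the content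
ring is a quotient of integral series of the function field. -/
theorem mem_goodRing_of_mem (hℓN : ¬ ℓ ∣ N) {x : LaurentSeries L}
    (hx : x ∈ laurentBaseChange L (modularFunctionFieldFull N)) (hxW : x ∈ contentRing W) :
    x ∈ goodRing W N := by
  obtain ⟨θ, hθ, -, -, hmem, hspan⟩ := exists_orthonormal_basis W N ℓ hℓN
  obtain ⟨c, hc, rfl⟩ := hspan x hx
  have hcW := hmem c hc hxW
  refine sum_mem fun i _ => mul_mem (mem_goodRing_of_mem_adjoin_j W N (hc i) (hcW i)) ?_
  rw [← toL_coeffMap_intCast W]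
  exact toL_mem_goodRing W N (coeffMap_intCast_mem_intFull W N (hθ i))

/-- **RES**: the reduction of an element of `F_L ∩ contentRing W` lies in `F_κ`. -/
theorem red_mem_fullC (hℓN : ¬ ℓ ∣ N) {x : LaurentSeries L}
    (hx : x ∈ laurentBaseChange L (modularFunctionFieldFull N)) (hxW : x ∈ contentRing W) :
    red W ⟨x, hxW⟩ ∈ modularFunctionFieldFullC (IsLocalRing.ResidueField W) N :=
  red_mem_of_mem_goodRing W N (mem_goodRing_of_mem W N ℓ hℓN hx hxW)

/-- **Structure theorem**: every nonzero element of `F_L` is a nonzero constant times a unit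
of `goodRing W N`. -/
theorem exists_const_mul_unit_full (hℓN : ¬ ℓ ∣ N) {x : LaurentSeries L}
    (hx : x ∈ laurentBaseChange L (modularFunctionFieldFull N)) (hx0 : x ≠ 0) :
    ∃ (a : L) (y : LaurentSeries L) (hy : y ∈ goodRing W N), a ≠ 0 ∧
      red W ⟨y, goodRing_le_contentRing W N hy⟩ ≠ 0 ∧ x = HahnSeries.C a * y := by
  obtain ⟨θ, hθ, hli, -, -, hspan⟩ := exists_orthonormal_basis W N ℓ hℓN
  have hli' : LinearIndependent (kJ W) (fun i =>
      red W ⟨coeffMap (Int.castRingHom L) (θ i), coeffMap_intCast_mem_contentRing W (θ i)⟩) := by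
    have hfun : (fun i => red W ⟨coeffMap (Int.castRingHom L) (θ i),
        coeffMap_intCast_mem_contentRing W (θ i)⟩) =
        fun i => coeffMap (Int.castRingHom (IsLocalRing.ResidueField W)) (θ i) :=
      funext fun i => red_coeffMap_intCast W (θ i)
    rw [hfun]
    exact hli
  obtain ⟨c, hc, rfl⟩ := hspan x hx
  obtain ⟨a, d, hdW, ha, hdJ, hred, heq⟩ :=
    orthonormal_unit W (fun i => coeffMap (Int.castRingHom L) (θ i))
      (fun i => coeffMap_intCast_mem_contentRing W (θ i)) hli' c hc hx0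
  have hy : ∑ i, d i * coeffMap (Int.castRingHom L) (θ i) ∈ goodRing W N := by
    refine sum_mem fun i _ => mul_mem (mem_goodRing_of_mem_adjoin_j W N (hdJ i) (hdW i)) ?_
    rw [← toL_coeffMap_intCast W]
    exact toL_mem_goodRing W N (coeffMap_intCast_mem_intFull W N (hθ i))
  exact ⟨a, _, hy, ha, hred, heq⟩

/-- **Integral representatives**: every nonzero element of `F_L` is a nonzero constant times
a quotient `Y₁ / Y₂` of integral series of `F_L` whose reductions are nonzero (elements of
`F_κ`). -/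
theorem exists_integral_rep (hℓN : ¬ ℓ ∣ N) {x : LaurentSeries L}
    (hx : x ∈ laurentBaseChange L (modularFunctionFieldFull N)) (hx0 : x ≠ 0) :
    ∃ (a : L) (Y₁ Y₂ : LaurentSeries W), a ≠ 0 ∧ Y₁ ∈ intFull W N ∧ Y₂ ∈ intFull W N ∧
      toK W Y₁ ≠ 0 ∧ toK W Y₂ ≠ 0 ∧ x * toL W Y₂ = HahnSeries.C a * toL W Y₁ := by
  obtain ⟨a, y, hy, ha, hred, rfl⟩ := exists_const_mul_unit_full W N ℓ hℓN hx hx0
  obtain ⟨Y₁, Y₂, h1, h2, h3, h4⟩ := id hy
  rw [red_mk_eq W _ h3 h4] at hred
  have h5 : toK W Y₁ ≠ 0 := fun h0 => hred (by rw [h0, zero_div])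
  exact ⟨a, Y₁, Y₂, ha, h1, h2, h5, h3, by rw [mul_assoc, h4]⟩

/-- An element of `F_L` outside the content ring has its inverse in the maximal ideal. -/
theorem inv_mem_of_notMem_full (hℓN : ¬ ℓ ∣ N) {x : LaurentSeries L}
    (hx : x ∈ laurentBaseChange L (modularFunctionFieldFull N)) (hnot : x ∉ contentRing W) :
    ∃ h : x⁻¹ ∈ contentRing W, red W ⟨x⁻¹, h⟩ = 0 := by
  have hx0 : x ≠ 0 := fun h0 => hnot (by rw [h0]; exact zero_mem _)
  obtain ⟨a, y, hy, ha, hred, rfl⟩ := exists_const_mul_unit_full W N ℓ hℓN hx hx0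
  have hyW := goodRing_le_contentRing W N hy
  have hyinv : y⁻¹ ∈ contentRing W := inv_mem_contentRing W hyW hred
  have haW : a ∉ W := fun h => hnot (mul_mem (C_mem_contentRing W ⟨a, h⟩) hyW)
  have hinv : a⁻¹ ∈ W := (W.mem_or_inv_mem a).resolve_left haW
  have hnu : ¬ IsUnit (⟨a⁻¹, hinv⟩ : W) := by
    intro hunit
    obtain ⟨v, hv⟩ := hunit.exists_right_inv
    apply haW
    have h1 : (a⁻¹ : L) * (v : L) = 1 := by
      have := congrArg (Subtype.val) hv
      simpa using this
    have h2 : (v : L) = a := by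
      rw [inv_mul_eq_one₀ ha] at h1
      exact h1.symm
    rw [← h2]; exact v.2
  have hres : IsLocalRing.residue W (⟨a⁻¹, hinv⟩ : W) = 0 := by
    by_contra hne
    exact hnu ((IsLocalRing.residue_ne_zero_iff_isUnit _).mp hne)
  have heq : (HahnSeries.C a * y)⁻¹ = HahnSeries.C ((⟨a⁻¹, hinv⟩ : W) : L) * y⁻¹ := by
    rw [mul_inv, ← map_inv₀]
  have hmem : (HahnSeries.C a * y)⁻¹ ∈ contentRing W := by
    rw [heq]; exact mul_mem (C_mem_contentRing W ⟨a⁻¹, hinv⟩) hyinv
  refine ⟨hmem, ?_⟩
  have h3 : (⟨(HahnSeries.C a * y)⁻¹, hmem⟩ : contentRing W) =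
      ⟨HahnSeries.C ((⟨a⁻¹, hinv⟩ : W) : L), C_mem_contentRing W ⟨a⁻¹, hinv⟩⟩ *
        ⟨y⁻¹, hyinv⟩ := Subtype.ext heq
  rw [h3, map_mul, red_C, hres, map_zero, zero_mul]

/-- The content ring restricts to a valuation ring of `F_L`. -/
theorem mem_contentRing_or_inv_mem_full (hℓN : ¬ ℓ ∣ N) {x : LaurentSeries L}
    (hx : x ∈ laurentBaseChange L (modularFunctionFieldFull N)) :
    x ∈ contentRing W ∨ x⁻¹ ∈ contentRing W := by
  by_cases h : x ∈ contentRing W
  · exact Or.inl h
  · exact Or.inr (inv_mem_of_notMem_full W N ℓ hℓN hx h).1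

end Main

/-! ### Lifting elements of `F_κ` -/

/-- The field of quotients of reductions of integral series of the function field. -/
def liftField : Subfield (LaurentSeries (IsLocalRing.ResidueField W)) where
  carrier := {g | ∃ x y : LaurentSeries W, x ∈ intFull W N ∧ y ∈ intFull W N ∧
    toK W y ≠ 0 ∧ g * toK W y = toK W x}
  mul_mem' := by
    rintro f g ⟨x, y, hx, hyI, hy, h⟩ ⟨x', y', hx', hyI', hy', h'⟩
    refine ⟨x * x', y * y', mul_mem hx hx', mul_mem hyI hyI', ?_, ?_⟩
    · rw [map_mul]; exact mul_ne_zero hy hy'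
    · rw [map_mul, map_mul, ← h, ← h']; ring
  one_mem' := ⟨1, 1, one_mem _, one_mem _, by simp, by simp⟩
  add_mem' := by
    rintro f g ⟨x, y, hx, hyI, hy, h⟩ ⟨x', y', hx', hyI', hy', h'⟩
    refine ⟨x * y' + x' * y, y * y', add_mem (mul_mem hx hyI') (mul_mem hx' hyI),
      mul_mem hyI hyI', ?_, ?_⟩
    · rw [map_mul]; exact mul_ne_zero hy hy'
    · rw [map_add, map_mul, map_mul, map_mul, ← h, ← h']; ring
  zero_mem' := ⟨0, 1, zero_mem _, one_mem _, by simp, by simp⟩
  neg_mem' := by
    rintro f ⟨x, y, hx, hyI, hy, h⟩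
    exact ⟨-x, y, neg_mem hx, hyI, hy, by rw [map_neg, ← h]; ring⟩
  inv_mem' := by
    rintro f ⟨x, y, hx, hyI, hy, h⟩
    rcases eq_or_ne f 0 with rfl | hf
    · rw [inv_zero]; exact ⟨0, 1, zero_mem _, one_mem _, by simp, by simp⟩
    · have hx' : toK W x ≠ 0 := by
        intro h0
        rw [h0] at h
        rcases mul_eq_zero.mp h with h1 | h1
        · exact hf h1
        · exact hy h1
      exact ⟨y, x, hyI, hx, hx', by rw [← h, ← mul_assoc, inv_mul_cancel₀ hf, one_mul]⟩

theorem mem_liftField_iff {g : LaurentSeries (IsLocalRing.ResidueField W)} :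
    g ∈ liftField W N ↔ ∃ x y : LaurentSeries W, x ∈ intFull W N ∧ y ∈ intFull W N ∧
      toK W y ≠ 0 ∧ g * toK W y = toK W x := Iff.rfl

theorem toK_mem_liftField {Y : LaurentSeries W} (hY : Y ∈ intFull W N) :
    toK W Y ∈ liftField W N :=
  ⟨Y, 1, hY, one_mem _, by simp, by simp⟩

/-- Every element of `F_κ` is a quotient of reductions of integral series of `F_L`. -/
theorem mem_liftField_of_mem_fullC {g : LaurentSeries (IsLocalRing.ResidueField W)}
    (hg : g ∈ modularFunctionFieldFullC (IsLocalRing.ResidueField W) N) :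
    g ∈ liftField W N := by
  have hle : modularFunctionFieldFullC (IsLocalRing.ResidueField W) N ≤
      (liftField W N).toIntermediateField (fun c => by
        obtain ⟨c', rfl⟩ := IsLocalRing.residue_surjective c
        rw [Fermat.Agent.S28.Content.algebraMap_eq_C_of_field, ← toK_C]
        exact toK_mem_liftField W N (C_mem_intFull W N c')) := by
    rw [modularFunctionFieldFullC, IntermediateField.adjoin_le_iff]
    rintro x ⟨d, hd, hdN, rfl⟩
    have h1 : qExpand (IsLocalRing.ResidueField W) d (jqModC (IsLocalRing.ResidueField W)) =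
        toK W (coeffMap (Int.castRingHom W) (qExpand ℤ d jInt)) := by
      rw [toK_coeffMap_intCast, ModularCurve.coeffMap_qExpand]
      congr 1
      exact (jS_eq_jqModC' _).symm
    show qExpand (IsLocalRing.ResidueField W) d (jqModC (IsLocalRing.ResidueField W)) ∈
      liftField W N
    rw [h1]
    exact toK_mem_liftField W N (coeffMap_intCast_mem_intFull W N
      (Subring.subset_closure ⟨d, hd, hdN, rfl⟩))
  exact hle hg

end Fermat.Agent.S18.Gauss
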