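import Mathlib
import Fermat.Agent.S18.GaussFull

/-!
# S18, package PG (5): separability of `F_κ / κ(j̄)` and a primitive element

* `isSeparable_qExpand_jS`: for `κ` algebraically closed and `d` prime to the characteristic,
  `j̄(q^d)` is separable over `κ(j̄)` (the modular polynomial `Φ_r(j̄(q^r), X)` has the `r + 1`
  distinct roots `j̄(q^(r²))`, `j̄(ζ^c q)` in `κ((q))`; transport by `q ↦ q^r`, then towers).
-/

set_option autoImplicit false

noncomputable section

namespace Fermat.Agent.S18.Gauss

open ModularCurve Polynomial Fermat.Agent.S28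

section Sep

variable (κ : Type*) [Field κ]

theorem qExpand_congr' {R : Type*} [CommRing R] {d e : ℕ} [NeZero d] [NeZero e] (h : d = e)
    (x : LaurentSeries R) : qExpand R d x = qExpand R e x := by
  subst h; rfl

/-- `q ↦ q^d` commutes with evaluation of constant-coefficient polynomials. -/
theorem qExpand_comp_evalAt (d : ℕ) [NeZero d] (x : LaurentSeries κ) :
    (qExpand κ d).comp (evalAt x) = evalAt (qExpand κ d x) := by
  apply Polynomial.ringHom_ext
  · intro a
    simp only [RingHom.comp_apply, evalAt, coe_eval₂RingHom, eval₂_C]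
    rw [HahnSeries.C_apply, qExpand_single, mul_zero]
  · simp only [RingHom.comp_apply, evalAt, coe_eval₂RingHom, eval₂_X]

/-- The roots of the modular polynomial at `j̄(q^r)` are distinct. -/
theorem separable_modPoly (r : ℕ) [NeZero r] (hr : r.Prime) (ζ : κˣ) (hζ : IsPrimitiveRoot ζ r)
    (D : ModPolyData κ r ζ) : (D.Φ.map (evalAt (qExpand κ r (jS κ)))).Separable := by
  rw [D.hΦ]
  have hcoeff : ∀ c : ℕ, (tw (ζ ^ c) (jS κ)).coeff (-1) = (((ζ ^ c) ^ (-1 : ℤ) : κˣ) : κ) := by
    intro c
    rw [tw_coeff, jS_coeff_neg_one, mul_one]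
  have hq : (qExpand κ (r * r) (jS κ)).coeff (-1) = 0 := by
    apply qExpand_coeff_of_not_dvd
    intro hdvd
    have h1 : ((r * r : ℕ) : ℤ) ∣ 1 := by
      rcases hdvd with ⟨m, hm⟩
      exact ⟨-m, by linarith⟩
    have h2 : (r * r : ℕ) ∣ 1 := by exact_mod_cast h1
    have h3 : r * r = 1 := Nat.dvd_one.mp h2
    have h4 := hr.two_le
    nlinarith
  refine Separable.mul separable_X_sub_C ?_ ?_
  · rw [separable_prod_X_sub_C_iff']
    intro c hc c' hc' heq
    have h1 := congrArg (fun f : LaurentSeries κ => f.coeff (-1)) heq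
    simp only [hcoeff] at h1
    have h2 : (ζ ^ c) ^ (-1 : ℤ) = (ζ ^ c') ^ (-1 : ℤ) := Units.ext h1
    have h3 : ζ ^ c = ζ ^ c' := by
      have := congrArg (fun u : κˣ => u⁻¹) h2
      simpa using this
    exact hζ.pow_inj (Finset.mem_range.mp hc) (Finset.mem_range.mp hc') h3
  · refine IsCoprime.prod_right fun c _ => ?_
    apply isCoprime_X_sub_C_of_isUnit_sub
    rw [isUnit_iff_ne_zero]
    intro h0
    have h1 := congrArg (fun f : LaurentSeries κ => f.coeff (-1)) (sub_eq_zero.mp h0)
    simp only [hcoeff, hq] at h1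
    exact (Units.ne_zero _) h1.symm

/-- For a prime `r` with modular polynomial data: a polynomial `Φ ∈ κ[Y][X]` such that
`Φ(j̄, X)` is separable and `Φ(j̄, j̄(q^r)) = 0`. -/
theorem exists_separable_prime (r : ℕ) [NeZero r] (hr : r.Prime) (ζ : κˣ)
    (hζ : IsPrimitiveRoot ζ r) (D : ModPolyData κ r ζ) :
    (D.Φ.map (evalAt (jS κ))).Separable ∧
      (D.Φ.map (evalAt (jS κ))).eval (qExpand κ r (jS κ)) = 0 := by
  have hmap : (D.Φ.map (evalAt (jS κ))).map (qExpand κ r) =
      D.Φ.map (evalAt (qExpand κ r (jS κ))) := by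
    rw [Polynomial.map_map, qExpand_comp_evalAt]
  refine ⟨?_, ?_⟩
  · rw [← separable_map (qExpand κ r), hmap]
    exact separable_modPoly κ r hr ζ hζ D
  · apply qExpand_injective (R := κ) r
    rw [map_zero, ← Polynomial.eval₂_at_apply, ← Polynomial.eval_map, hmap, D.hΦ,
      qExpand_qExpand, Polynomial.eval_mul, Polynomial.eval_sub, Polynomial.eval_X,
      Polynomial.eval_C, sub_self, zero_mul]

/-- For `κ` algebraically closed and `d` prime to the characteristic, `j̄(q^d)` is separable
over `κ(j̄)`. -/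
theorem isSeparable_qExpand_jS [IsAlgClosed κ] :
    ∀ (d : ℕ) [NeZero d], (∀ r : ℕ, r.Prime → r ∣ d → (r : κ) ≠ 0) →
      IsSeparable ↥(IntermediateField.adjoin κ {jS κ}) (qExpand κ d (jS κ)) := by
  intro d
  induction d using Nat.strong_induction_on with
  | _ d ih =>
    intro hd hprime
    rcases Nat.lt_or_ge d 2 with hlt | hge
    · have hd1 : d = 1 := by have := NeZero.pos d; omega
      subst hd1
      have h1 : qExpand κ 1 (jS κ) =
          algebraMap ↥(IntermediateField.adjoin κ {jS κ}) (LaurentSeries κ)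
            ⟨jS κ, IntermediateField.subset_adjoin κ _ rfl⟩ := by
        rw [qExpand_one_apply]; rfl
      rw [h1]
      exact isSeparable_algebraMap _
    · have hr : d.minFac.Prime := Nat.minFac_prime (by omega)
      obtain ⟨d', hd'⟩ : d.minFac ∣ d := Nat.minFac_dvd d
      have hd'0 : d' ≠ 0 := by rintro rfl; rw [mul_zero] at hd'; exact (NeZero.ne d) hd'
      have : NeZero d' := ⟨hd'0⟩
      have : NeZero d.minFac := ⟨hr.ne_zero⟩
      have hd'lt : d' < d := by
        have h2 := hr.two_le
        have h3 := Nat.pos_of_ne_zero hd'0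
        calc d' < d.minFac * d' := by nlinarith
          _ = d := hd'.symm
      have hy := ih d' hd'lt
        (fun p hp hpd => hprime p hp (hpd.trans ⟨d.minFac, by rw [mul_comm]; exact hd'⟩))
      have hrκ : ((d.minFac : ℕ) : κ) ≠ 0 := hprime d.minFac hr (Nat.minFac_dvd d)
      have : NeZero ((d.minFac : ℕ) : κ) := ⟨hrκ⟩
      obtain ⟨ζ0, hζ0⟩ := HasEnoughRootsOfUnity.exists_primitiveRoot κ d.minFac
      obtain ⟨ζ, rfl⟩ := hζ0.isUnit (NeZero.ne d.minFac)
      have hζ : IsPrimitiveRoot ζ d.minFac := IsPrimitiveRoot.coe_units_iff.mp hζ0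
      obtain ⟨D⟩ := exists_modPolyData κ d.minFac hr ζ hζ
      obtain ⟨hsep, hroot⟩ := exists_separable_prime κ d.minFac hr ζ hζ D
      have hx : qExpand κ d (jS κ) = qExpand κ d' (qExpand κ d.minFac (jS κ)) := by
        rw [qExpand_qExpand]
        exact qExpand_congr' (by rw [mul_comm]; exact hd') _
      have hmap : (D.Φ.map (evalAt (jS κ))).map (qExpand κ d') =
          D.Φ.map (evalAt (qExpand κ d' (jS κ))) := by
        rw [Polynomial.map_map, qExpand_comp_evalAt]
      have hsep' : (D.Φ.map (evalAt (qExpand κ d' (jS κ)))).Separable := by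
        rw [← hmap]; exact (separable_map (qExpand κ d')).mpr hsep
      have hroot' : (D.Φ.map (evalAt (qExpand κ d' (jS κ)))).eval (qExpand κ d (jS κ)) = 0 := by
        rw [hx, ← hmap, Polynomial.eval_map, Polynomial.eval₂_at_apply, hroot, map_zero]
      have : Algebra.IsSeparable ↥(IntermediateField.adjoin κ {jS κ})
          ↥(IntermediateField.adjoin ↥(IntermediateField.adjoin κ {jS κ})
            {qExpand κ d' (jS κ)}) :=
        (IntermediateField.isSeparable_adjoin_simple_iff_isSeparable
          ↥(IntermediateField.adjoin κ {jS κ}) (LaurentSeries κ)).mpr hy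
      let τ : Polynomial κ →+* ↥(IntermediateField.adjoin ↥(IntermediateField.adjoin κ {jS κ})
          {qExpand κ d' (jS κ)}) :=
        Polynomial.eval₂RingHom
          ((algebraMap ↥(IntermediateField.adjoin κ {jS κ}) _).comp
            (algebraMap κ ↥(IntermediateField.adjoin κ {jS κ})))
          ⟨qExpand κ d' (jS κ), IntermediateField.mem_adjoin_simple_self _ _⟩
      have hτ : (algebraMap ↥(IntermediateField.adjoin ↥(IntermediateField.adjoin κ {jS κ})
          {qExpand κ d' (jS κ)}) (LaurentSeries κ)).comp τ =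
          evalAt (qExpand κ d' (jS κ)) := by
        apply Polynomial.ringHom_ext
        · intro a
          simp only [RingHom.comp_apply, τ, evalAt, coe_eval₂RingHom, eval₂_C]
          rw [← Fermat.Agent.S28.Content.algebraMap_eq_C_of_field]
          rfl
        · simp only [RingHom.comp_apply, τ, evalAt, coe_eval₂RingHom, eval₂_X]
          rfl
      have hqsep : (D.Φ.map τ).Separable := by
        rw [← separable_map (algebraMap ↥(IntermediateField.adjoin
          ↥(IntermediateField.adjoin κ {jS κ}) {qExpand κ d' (jS κ)}) (LaurentSeries κ)),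
          Polynomial.map_map, hτ]
        exact hsep'
      have hqroot : Polynomial.aeval (qExpand κ d (jS κ)) (D.Φ.map τ) = 0 := by
        rw [Polynomial.aeval_def, ← Polynomial.eval_map, Polynomial.map_map, hτ]
        exact hroot'
      have hsepM : IsSeparable ↥(IntermediateField.adjoin ↥(IntermediateField.adjoin κ {jS κ})
          {qExpand κ d' (jS κ)}) (qExpand κ d (jS κ)) :=
        hqsep.of_dvd (minpoly.dvd _ _ hqroot)
      exact IsSeparable.of_algebra_isSeparable_of_isSeparable
        ↥(IntermediateField.adjoin κ {jS κ}) hsepM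

/-- The set of generators of `F_κ` is finite. -/
theorem finite_divisorExpansionsC (N : ℕ) [NeZero N] : (divisorExpansionsC κ N).Finite := by
  classical
  let f : ℕ → LaurentSeries κ := fun d =>
    if h : d = 0 then 0 else @qExpand κ _ d ⟨h⟩ (jqModC κ)
  refine Set.Finite.subset ((N.divisors : Set ℕ).toFinite.image f) ?_
  rintro x ⟨d, hd, hdN, rfl⟩
  refine ⟨d, ?_, ?_⟩
  · exact Finset.mem_coe.mpr (Nat.mem_divisors.mpr ⟨hdN, NeZero.ne N⟩)
  · simp only [f, dif_neg (NeZero.ne d)]

/-- Generic primitive element statement for a finite separable intermediate field. -/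
theorem exists_primitive_generic {K₀ E : Type*} [Field K₀] [Field E] [Algebra K₀ E]
    (F' : IntermediateField K₀ E) [FiniteDimensional K₀ F'] [Algebra.IsSeparable K₀ F']
    {n : ℕ} (β : Fin n → E) (hβ : ∀ i, β i ∈ F') (hli : LinearIndependent K₀ β) :
    ∃ α : E, α ∈ F' ∧ IsSeparable K₀ α ∧ n ≤ (minpoly K₀ α).natDegree := by
  obtain ⟨α, hα⟩ := Field.exists_primitive_element K₀ F'
  have hmin : minpoly K₀ ((α : F') : E) = minpoly K₀ α :=
    minpoly.algebraMap_eq (algebraMap F' E).injective α
  have hsep : IsSeparable K₀ α := Algebra.IsSeparable.isSeparable K₀ α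
  refine ⟨(α : E), α.2, ?_, ?_⟩
  · show (minpoly K₀ ((α : F') : E)).Separable
    rw [hmin]
    exact hsep
  · rw [hmin]
    let β' : Fin n → F' := fun i => ⟨β i, hβ i⟩
    have hli' : LinearIndependent K₀ β' := by
      refine LinearIndependent.of_comp F'.val.toLinearMap ?_
      exact hli
    have h1 := hli'.fintype_card_le_finrank
    rw [Fintype.card_fin] at h1
    have h2 : Module.finrank K₀ F' = (minpoly K₀ α).natDegree := by
      rw [← IntermediateField.finrank_top', ← hα]
      exact IntermediateField.adjoin.finrank hsep.isIntegral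
    omega

/-- `F_κ` as an intermediate field over `κ(j̄)`. -/
def fullOverJ (N : ℕ) [NeZero N] :
    IntermediateField ↥(IntermediateField.adjoin κ {jqModC κ}) (LaurentSeries κ) :=
  IntermediateField.adjoin ↥(IntermediateField.adjoin κ {jqModC κ}) (divisorExpansionsC κ N)

theorem fullOverJ_le (N : ℕ) [NeZero N] (x : LaurentSeries κ) (hx : x ∈ fullOverJ κ N) :
    x ∈ modularFunctionFieldFullC κ N := by
  have hrs := IntermediateField.adjoin_adjoin_left κ {jqModC κ} (divisorExpansionsC κ N)
  have hx' : x ∈ IntermediateField.restrictScalars κ (fullOverJ κ N) := hx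
  rw [fullOverJ, hrs] at hx'
  have hle : IntermediateField.adjoin κ ({jqModC κ} ∪ divisorExpansionsC κ N) ≤
      modularFunctionFieldFullC κ N := by
    rw [IntermediateField.adjoin_le_iff]
    rintro y (hy | hy)
    · rw [Set.mem_singleton_iff.mp hy]; exact jqModC_mem_full κ N
    · exact IntermediateField.subset_adjoin κ _ hy
  exact hle hx'

theorem subset_fullOverJ (N : ℕ) [NeZero N] (y : LaurentSeries κ)
    (hy : y ∈ divisorExpansionsC κ N) : y ∈ fullOverJ κ N :=
  IntermediateField.subset_adjoin ↥(IntermediateField.adjoin κ {jqModC κ})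
    (divisorExpansionsC κ N) hy

theorem le_fullOverJ (N : ℕ) [NeZero N] (x : LaurentSeries κ)
    (hx : x ∈ modularFunctionFieldFullC κ N) : x ∈ fullOverJ κ N := by
  have hle : modularFunctionFieldFullC κ N ≤
      IntermediateField.restrictScalars κ (fullOverJ κ N) := by
    rw [modularFunctionFieldFullC, IntermediateField.adjoin_le_iff]
    intro y hy
    exact subset_fullOverJ κ N y hy
  exact hle hx

theorem mem_fullOverJ_iff (N : ℕ) [NeZero N] (x : LaurentSeries κ) :
    x ∈ fullOverJ κ N ↔ x ∈ modularFunctionFieldFullC κ N :=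
  ⟨fullOverJ_le κ N x, le_fullOverJ κ N x⟩

theorem isSeparable_of_mem_divisorExpansionsC [IsAlgClosed κ] (N : ℕ) [NeZero N]
    (hN : ∀ r : ℕ, r.Prime → r ∣ N → (r : κ) ≠ 0) (x : LaurentSeries κ)
    (hx : x ∈ divisorExpansionsC κ N) :
    IsSeparable ↥(IntermediateField.adjoin κ {jqModC κ}) x := by
  obtain ⟨d, hd, hdN, rfl⟩ := hx
  have h := isSeparable_qExpand_jS κ d (fun r hr hrd => hN r hr (hrd.trans hdN))
  rw [Fermat.Agent.S28.Tower.jS_eq_jqModC' κ] at h
  exact h

theorem isSeparable_fullOverJ [IsAlgClosed κ] (N : ℕ) [NeZero N]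
    (hN : ∀ r : ℕ, r.Prime → r ∣ N → (r : κ) ≠ 0) :
    Algebra.IsSeparable ↥(IntermediateField.adjoin κ {jqModC κ}) ↥(fullOverJ κ N) :=
  (IntermediateField.isSeparable_adjoin_iff_isSeparable _ _).mpr
    (isSeparable_of_mem_divisorExpansionsC κ N hN)

theorem finiteDimensional_fullOverJ [IsAlgClosed κ] (N : ℕ) [NeZero N]
    (hN : ∀ r : ℕ, r.Prime → r ∣ N → (r : κ) ≠ 0) :
    FiniteDimensional ↥(IntermediateField.adjoin κ {jqModC κ}) ↥(fullOverJ κ N) := by
  have hfinT : Finite ↑(divisorExpansionsC κ N) := (finite_divisorExpansionsC κ N).to_subtype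
  exact IntermediateField.finiteDimensional_adjoin
    (fun x hx => (isSeparable_of_mem_divisorExpansionsC κ N hN x hx).isIntegral)

/-- A separable primitive element of `F_κ / κ(j̄)` (raw form): an element of `F_κ`, separable
over `κ(j̄)`, whose minimal polynomial has degree at least the size of any `κ(j̄)`-independent
family in `F_κ`. -/
theorem exists_primitive_residue [IsAlgClosed κ] (N : ℕ) [NeZero N]
    (hN : ∀ r : ℕ, r.Prime → r ∣ N → (r : κ) ≠ 0)
    {n : ℕ} (β : Fin n → LaurentSeries κ) (hβ : ∀ i, β i ∈ modularFunctionFieldFullC κ N)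
    (hli : LinearIndependent ↥(IntermediateField.adjoin κ {jqModC κ}) β) :
    ∃ α : LaurentSeries κ, α ∈ modularFunctionFieldFullC κ N ∧
      IsSeparable ↥(IntermediateField.adjoin κ {jqModC κ}) α ∧
      n ≤ (minpoly ↥(IntermediateField.adjoin κ {jqModC κ}) α).natDegree := by
  have h1 := isSeparable_fullOverJ κ N hN
  have h2 := finiteDimensional_fullOverJ κ N hN
  obtain ⟨α, hα, hsep, hdeg⟩ := exists_primitive_generic (fullOverJ κ N) β
    (fun i => (mem_fullOverJ_iff κ N _).mpr (hβ i)) hli
  exact ⟨α, (mem_fullOverJ_iff κ N _).mp hα, hsep, hdeg⟩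

end Sep

end Fermat.Agent.S18.Gauss
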