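import Mathlib
import Fermat.Agent.S18.GaussSep

/-!
# S18, package PG (6): a monogenic generator of the Gauss valuation ring of `F_L`

`W` is a valuation subring of a field `L` of characteristic zero whose residue field `κ` is
algebraically closed of characteristic `ℓ ∤ N`.  We lift a separable primitive element of
`F_κ / κ(j̄)` to an element `θ` of `F_L ∩ contentRing W` which is integral over `W[j]`, and
show that `F_L ∩ contentRing W` is `W[j]_(𝔪)[θ]` (`exists_primitive_separable`).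
-/

set_option autoImplicit false

noncomputable section

namespace Fermat.Agent.S18.Gauss

open ModularCurve Polynomial Fermat.Agent.S28

section Prim

variable {L : Type*} [Field L] (W : ValuationSubring L)

/-- `f ↦ f(j)`, from `W[X]` to `L((q))`. -/
def evL : (↥W)[X] →+* LaurentSeries L := Polynomial.eval₂RingHom (constL W) (jqModC L)

theorem evL_apply (P : (↥W)[X]) : evL W P = toL W (evJ W P) := (toL_evJ W P).symm

theorem evL_C (a : W) : evL W (C a) = HahnSeries.C (a : L) := by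
  rw [evL, coe_eval₂RingHom, eval₂_C]; rfl

theorem evL_X : evL W X = jqModC L := by
  rw [evL, coe_eval₂RingHom, eval₂_X]

theorem evL_mem_contentRing (P : (↥W)[X]) : evL W P ∈ contentRing W := by
  rw [evL_apply]; exact toL_mem_contentRing W _

theorem evL_mem_adjoin (P : (↥W)[X]) : evL W P ∈ IntermediateField.adjoin L {jqModC L} := by
  rw [evL, coe_eval₂RingHom, Polynomial.eval₂_eq_sum_range]
  refine sum_mem fun i _ => mul_mem ?_
    (pow_mem (IntermediateField.subset_adjoin L _ (Set.mem_singleton _)) i)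
  show HahnSeries.C ((P.coeff i : W) : L) ∈ _
  rw [← Fermat.Agent.S28.Content.algebraMap_eq_C_of_field]
  exact IntermediateField.algebraMap_mem _ _

/-- `f ↦ f(j)`, from `W[X]` to the content ring. -/
def evC : (↥W)[X] →+* ↥(contentRing W) :=
  (evL W).codRestrict (contentRing W) (evL_mem_contentRing W)

theorem coe_evC (P : (↥W)[X]) : ((evC W P : contentRing W) : LaurentSeries L) = evL W P := rfl

theorem subtype_comp_evC : (contentRing W).subtype.comp (evC W) = evL W := rfl

/-- `f ↦ f̄(j̄)`, from `W[X]` to `κ((q))`. -/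
def redJ : (↥W)[X] →+* LaurentSeries (IsLocalRing.ResidueField W) := (red W).comp (evC W)

theorem redJ_apply (P : (↥W)[X]) : redJ W P = toK W (evJ W P) := by
  have h := red_toL W (evJ W P)
  rw [← h]
  exact congrArg (red W) (Subtype.ext (evL_apply W P))

theorem redJ_eq_zero_iff (P : (↥W)[X]) :
    redJ W P = 0 ↔ P.map (IsLocalRing.residue W) = 0 := by
  rw [redJ_apply]; exact toK_evJ_eq_zero_iff W P

theorem redJ_mem_kJ (P : (↥W)[X]) : redJ W P ∈ kJ W := by
  rw [redJ_apply]; exact toK_evJ_mem_kJ W P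

theorem red_evL (P : (↥W)[X]) : red W ⟨evL W P, evL_mem_contentRing W P⟩ = redJ W P := rfl

/-- `f ↦ f̄(j̄)`, from `W[X]` to `κ(j̄)`. -/
def redK : (↥W)[X] →+* ↥(kJ W) :=
  (redJ W).codRestrict (kJ W).toSubfield.toSubring (redJ_mem_kJ W)

theorem coe_redK (P : (↥W)[X]) : ((redK W P : kJ W) : LaurentSeries _) = redJ W P := rfl

theorem redK_eq_zero_iff (P : (↥W)[X]) :
    redK W P = 0 ↔ P.map (IsLocalRing.residue W) = 0 := by
  rw [← redJ_eq_zero_iff, ← coe_redK]
  exact ⟨fun h => by rw [h]; rfl, fun h => Subtype.ext h⟩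

/-- Elements of `L(j) ∩ contentRing W` are quotients `P(j)/Q(j)` with `P, Q ∈ W[X]`,
`Q̄ ≠ 0`. -/
theorem exists_poly_quot {d : LaurentSeries L}
    (hd : d ∈ IntermediateField.adjoin L {jqModC L}) (hdW : d ∈ contentRing W) :
    ∃ P Q : (↥W)[X], Q.map (IsLocalRing.residue W) ≠ 0 ∧ d * evL W Q = evL W P := by
  rcases eq_or_ne d 0 with rfl | hd0
  · exact ⟨0, 1, by rw [Polynomial.map_one]; exact one_ne_zero, by rw [map_zero, zero_mul]⟩
  obtain ⟨a, P, Q, ha, hP, hQ, h⟩ := exists_const_mul_quot W hd hd0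
  have hPinv : (toL W (evJ W P))⁻¹ ∈ contentRing W :=
    inv_mem_contentRing W (toL_mem_contentRing W _) (by rw [red_toL]; exact hP)
  have hP0 : toL W (evJ W P) ≠ 0 := fun h0 =>
    hP (by rw [(toL_eq_zero_iff W _).mp h0, map_zero])
  have haW : a ∈ W := by
    rw [← C_mem_contentRing_iff W]
    have h1 : HahnSeries.C a = d * toL W (evJ W Q) * (toL W (evJ W P))⁻¹ := by
      rw [h]; field_simp
    rw [h1]
    exact mul_mem (mul_mem hdW (toL_mem_contentRing W _)) hPinv
  refine ⟨C (⟨a, haW⟩ : W) * P, Q, ?_, ?_⟩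
  · rw [Ne, ← toK_evJ_eq_zero_iff]; exact hQ
  · rw [map_mul, evL_C, evL_apply, evL_apply]
    exact h

/-- Common denominators for a finite family in `L(j) ∩ contentRing W`. -/
theorem exists_common_denominator {n : ℕ} (c : Fin n → LaurentSeries L)
    (hc : ∀ i, c i ∈ IntermediateField.adjoin L {jqModC L}) (hcW : ∀ i, c i ∈ contentRing W) :
    ∃ (Q : (↥W)[X]) (p : Fin n → (↥W)[X]), Q.map (IsLocalRing.residue W) ≠ 0 ∧
      ∀ i, c i * evL W Q = evL W (p i) := by
  classical
  choose P Q hQ h using fun i => exists_poly_quot W (hc i) (hcW i)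
  refine ⟨∏ k, Q k, fun i => P i * ∏ k ∈ Finset.univ.erase i, Q k, ?_, fun i => ?_⟩
  · rw [Polynomial.map_prod]
    exact Finset.prod_ne_zero_iff.mpr fun k _ => hQ k
  · rw [← Finset.mul_prod_erase Finset.univ Q (Finset.mem_univ i), map_mul, map_mul, ← h i]
    ring

end Prim

/-- If the first `n` powers of an integral element are linearly independent, its minimal
polynomial has degree at least `n`. -/
theorem le_natDegree_minpoly_of_linearIndependent_pow {K E : Type*} [Field K] [Ring E]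
    [Algebra K E] (x : E) (hx : IsIntegral K x) (n : ℕ)
    (hli : LinearIndependent K (fun i : Fin n => x ^ (i : ℕ))) :
    n ≤ (minpoly K x).natDegree := by
  by_contra hlt
  push Not at hlt
  have h0 : Polynomial.aeval x (minpoly K x) = 0 := minpoly.aeval K x
  rw [Polynomial.aeval_eq_sum_range' hlt, ← Fin.sum_univ_eq_sum_range
    (fun i => (minpoly K x).coeff i • x ^ i) n] at h0
  have h1 := Fintype.linearIndependent_iff.mp hli (fun i => (minpoly K x).coeff i) h0
    ⟨(minpoly K x).natDegree, hlt⟩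
  have h2 : (minpoly K x).coeff (minpoly K x).natDegree = 1 := (minpoly.monic hx).coeff_natDegree
  rw [h2] at h1
  exact one_ne_zero h1

/-- Scaling a monic relation. -/
theorem scale_relation {R : Type*} [CommRing R] (n : ℕ) (α δ : R) (c e : Fin n → R)
    (h : α ^ n = ∑ i, c i * α ^ (i : ℕ))
    (he : ∀ i : Fin n, e i = δ ^ (n - 1 - (i : ℕ)) * (c i * δ)) :
    (δ * α) ^ n = ∑ i, e i * (δ * α) ^ (i : ℕ) := by
  rw [mul_pow, h, Finset.mul_sum]
  refine Finset.sum_congr rfl fun i _ => ?_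
  have hpow : δ ^ n = δ ^ (n - 1 - (i : ℕ)) * δ * δ ^ (i : ℕ) := by
    rw [← pow_succ, ← pow_add]
    congr 1
    have := i.2
    omega
  rw [he i, mul_pow, hpow]
  ring

/-- Scaling a spanning relation. -/
theorem scale_span {R : Type*} [Field R] (n : ℕ) (α δ x : R) (hδ : δ ≠ 0) (c : Fin n → R)
    (h : x = ∑ i, c i * α ^ (i : ℕ)) :
    x = ∑ i, (c i * (δ ^ (i : ℕ))⁻¹) * (δ * α) ^ (i : ℕ) := by
  rw [h]
  refine Finset.sum_congr rfl fun i _ => ?_
  have : δ ^ (i : ℕ) ≠ 0 := pow_ne_zero _ hδ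
  rw [mul_pow]
  field_simp

/-- Scaling an integral relation. -/
theorem scale_int {R : Type*} [CommRing R] (n : ℕ) (α δ q x : R) (c p e : Fin n → R)
    (h : x = ∑ i, c i * α ^ (i : ℕ)) (hp : ∀ i, c i * q = p i)
    (he : ∀ i : Fin n, e i = δ ^ (n - 1 - (i : ℕ)) * p i) :
    (δ ^ (n - 1) * q) * x = ∑ i, e i * (δ * α) ^ (i : ℕ) := by
  rw [h, Finset.mul_sum]
  refine Finset.sum_congr rfl fun i _ => ?_
  have hpow : δ ^ (n - 1) = δ ^ (n - 1 - (i : ℕ)) * δ ^ (i : ℕ) := by
    rw [← pow_add]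
    congr 1
    have := i.2
    omega
  rw [he i, ← hp i, mul_pow, hpow]
  ring


section Main

variable {L : Type*} [Field L] [Algebra ℚ L] (W : ValuationSubring L) (N : ℕ) [NeZero N]

omit [NeZero N] in
/-- Every element of `F_κ` lifts to the ring of good quotients. -/
theorem exists_lift_goodRing {g : LaurentSeries (IsLocalRing.ResidueField W)}
    (hg : g ∈ modularFunctionFieldFullC (IsLocalRing.ResidueField W) N) :
    ∃ (α : LaurentSeries L) (hα : α ∈ goodRing W N),
      red W ⟨α, goodRing_le_contentRing W N hα⟩ = g := by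
  obtain ⟨x, y, hx, hy, hy0, h⟩ := mem_liftField_of_mem_fullC W N hg
  have hyL : toL W y ≠ 0 := fun h0 => hy0 (by rw [(toL_eq_zero_iff W _).mp h0, map_zero])
  have heq : toL W x * (toL W y)⁻¹ * toL W y = toL W x := by
    rw [mul_assoc, inv_mul_cancel₀ hyL, mul_one]
  have hα : toL W x * (toL W y)⁻¹ ∈ goodRing W N := ⟨x, y, hx, hy, hy0, heq⟩
  refine ⟨_, hα, ?_⟩
  rw [red_mk_eq W _ hy0 heq, ← h, mul_div_assoc, div_self hy0, mul_one]

omit [NeZero N] in
theorem natCast_ne_zero_of_charP (κ : Type*) [Field κ] (ℓ : ℕ) [CharP κ ℓ] (hℓN : ¬ ℓ ∣ N)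
    (r : ℕ) (hrN : r ∣ N) : (r : κ) ≠ 0 := by
  intro h0
  exact hℓN (((CharP.cast_eq_zero_iff κ ℓ r).mp h0).trans hrN)

variable (ℓ : ℕ) [Fact ℓ.Prime] [CharP (IsLocalRing.ResidueField W) ℓ]
  [IsAlgClosed (IsLocalRing.ResidueField W)]

/-- A lift `α ∈ F_L ∩ contentRing W` of a separable primitive element of `F_κ / κ(j̄)`: the
reductions of its first `ψ(N)` powers are `κ(j̄)`-independent. -/
theorem exists_primitive_lift (hℓN : ¬ ℓ ∣ N) :
    ∃ (α : LaurentSeries L) (hα : α ∈ goodRing W N),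
      IsSeparable (kJ W) (red W ⟨α, goodRing_le_contentRing W N hα⟩) ∧
      LinearIndependent (kJ W) (fun i : Fin (dedekindPsi N) =>
        (red W ⟨α, goodRing_le_contentRing W N hα⟩) ^ (i : ℕ)) := by
  obtain ⟨θ, hθ, hli, -, -, -⟩ := exists_orthonormal_basis W N ℓ hℓN
  have hβ : ∀ i, coeffMap (Int.castRingHom (IsLocalRing.ResidueField W)) (θ i) ∈
      modularFunctionFieldFullC (IsLocalRing.ResidueField W) N := fun i => by
    rw [← toK_coeffMap_intCast W]
    exact (coeffMap_intCast_mem_intFull W N (hθ i)).2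
  obtain ⟨g, hg, hsep, hdeg⟩ := exists_primitive_residue (IsLocalRing.ResidueField W) N
    (fun r _ hrN => natCast_ne_zero_of_charP N _ ℓ hℓN r hrN) _ hβ hli
  obtain ⟨α, hα, rfl⟩ := exists_lift_goodRing W N hg
  refine ⟨α, hα, hsep, ?_⟩
  exact (linearIndependent_pow (K := kJ W) (red W ⟨α, goodRing_le_contentRing W N hα⟩)).comp
    (Fin.castLE hdeg) (Fin.castLE_injective hdeg)

/-- **Monogenic generator of the Gauss valuation ring.**  There are `θ ∈ F_L ∩ contentRing W`
and a monic `P ∈ W[X][T]` of degree `ψ(N)` with `P(j, θ) = 0` such that `F_L = L(j)[θ]`,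
`F_L ∩ contentRing W = W[j]_(𝔪)[θ]`, and the reduction `P̄(j̄, T)` is separable over `κ(j̄)`
with root `θ̄`. -/
theorem exists_primitive_separable (hℓN : ¬ ℓ ∣ N) :
    ∃ (θ : LaurentSeries L) (hθ : θ ∈ contentRing W) (P : Polynomial (Polynomial W)),
      θ ∈ laurentBaseChange L (modularFunctionFieldFull N) ∧
      P.Monic ∧ P.natDegree = dedekindPsi N ∧ P.eval₂ (evL W) θ = 0 ∧
      (∀ x ∈ laurentBaseChange L (modularFunctionFieldFull N),
        ∃ c : Fin (dedekindPsi N) → LaurentSeries L,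
          (∀ i, c i ∈ IntermediateField.adjoin L {jqModC L}) ∧ x = ∑ i, c i * θ ^ (i : ℕ)) ∧
      (∀ x ∈ laurentBaseChange L (modularFunctionFieldFull N), x ∈ contentRing W →
        ∃ (S : (↥W)[X]) (n : Fin (dedekindPsi N) → (↥W)[X]),
          S.map (IsLocalRing.residue W) ≠ 0 ∧
          evL W S * x = ∑ i, evL W (n i) * θ ^ (i : ℕ)) ∧
      P.eval₂ (redJ W) (red W ⟨θ, hθ⟩) = 0 ∧
      (P.map (redK W)).Separable := by
  obtain ⟨α, hα, hsep, hli⟩ := exists_primitive_lift W N ℓ hℓN
  have hαW := goodRing_le_contentRing W N hα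
  have hαF := goodRing_le_full W N hα
  -- the orthonormal family of powers
  have hb : ∀ i : Fin (dedekindPsi N), α ^ (i : ℕ) ∈ contentRing W := fun i => pow_mem hαW _
  have hli' : LinearIndependent (kJ W)
      (fun i : Fin (dedekindPsi N) => red W ⟨α ^ (i : ℕ), hb i⟩) := by
    have hfun : (fun i : Fin (dedekindPsi N) => red W ⟨α ^ (i : ℕ), hb i⟩) =
        fun i : Fin (dedekindPsi N) => (red W ⟨α, hαW⟩) ^ (i : ℕ) := funext fun i => by
      rw [← map_pow]; rfl
    rw [hfun]; exact hli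
  have hind := orthonormal_indep W (fun i : Fin (dedekindPsi N) => α ^ (i : ℕ)) hb hli'
  have hmem := orthonormal_mem W (fun i : Fin (dedekindPsi N) => α ^ (i : ℕ)) hb hli'
  have hspan : ∀ {x : LaurentSeries L},
      x ∈ laurentBaseChange L (modularFunctionFieldFull N) →
      ∃ c : Fin (dedekindPsi N) → LaurentSeries L,
        (∀ i, c i ∈ IntermediateField.adjoin L {jqModC L}) ∧ x = ∑ i, c i * α ^ (i : ℕ) :=
    fun {x} hx => span_of_indep L N (fun i : Fin (dedekindPsi N) => α ^ (i : ℕ))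
      (fun i => pow_mem hαF _) hind hx
  -- the relation
  obtain ⟨c, hc, hrel⟩ := hspan (pow_mem hαF (dedekindPsi N))
  have hcW : ∀ i, c i ∈ contentRing W :=
    hmem c hc (by rw [← hrel]; exact pow_mem hαW (dedekindPsi N))
  obtain ⟨D, p, hD, hp⟩ := exists_common_denominator W c hc hcW
  have hδ0 : evL W D ≠ 0 := by
    intro h0
    apply hD
    rw [← redJ_eq_zero_iff]
    have h1 : evC W D = 0 := Subtype.ext h0
    rw [redJ, RingHom.comp_apply, h1, map_zero]
  have hψpos : 0 < dedekindPsi N := by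
    by_contra h0
    obtain ⟨c1, -, h1⟩ := hspan (one_mem _)
    rw [Finset.sum_eq_zero (fun i _ => absurd i.2 (by omega))] at h1
    exact one_ne_zero h1
  let n : Fin (dedekindPsi N) → (↥W)[X] := fun i => D ^ (dedekindPsi N - 1 - (i : ℕ)) * p i
  have hn : ∀ i, evL W (n i) =
      (evL W D) ^ (dedekindPsi N - 1 - (i : ℕ)) * (c i * evL W D) := fun i => by
    simp only [n]; rw [map_mul, map_pow, hp i]
  have hθrel : (evL W D * α) ^ (dedekindPsi N) =
      ∑ i, evL W (n i) * (evL W D * α) ^ (i : ℕ) :=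
    scale_relation (dedekindPsi N) α (evL W D) c (fun i => evL W (n i)) hrel hn
  have hdeg : (∑ i : Fin (dedekindPsi N), C (n i) * X ^ (i : ℕ) : ((↥W)[X])[X]).degree <
      dedekindPsi N := degree_sum_fin_lt n
  have hmonic : (X ^ (dedekindPsi N) - ∑ i : Fin (dedekindPsi N), C (n i) * X ^ (i : ℕ) :
      ((↥W)[X])[X]).Monic := monic_X_pow_sub hdeg
  have hnat : (X ^ (dedekindPsi N) - ∑ i : Fin (dedekindPsi N), C (n i) * X ^ (i : ℕ) :
      ((↥W)[X])[X]).natDegree = dedekindPsi N := by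
    apply natDegree_eq_of_degree_eq_some
    rw [degree_sub_eq_left_of_degree_lt (by rw [degree_X_pow]; exact hdeg), degree_X_pow]
  have hroot : (X ^ (dedekindPsi N) - ∑ i : Fin (dedekindPsi N), C (n i) * X ^ (i : ℕ) :
      ((↥W)[X])[X]).eval₂ (evL W) (evL W D * α) = 0 := by
    simp only [eval₂_sub, eval₂_X_pow, eval₂_finsetSum, eval₂_mul, eval₂_C]
    rw [hθrel, sub_self]
  have hθW : evL W D * α ∈ contentRing W := mul_mem (evL_mem_contentRing W D) hαW
  have hθF : evL W D * α ∈ laurentBaseChange L (modularFunctionFieldFull N) :=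
    mul_mem (mem_FF_of_mem_adjoin_jq L N (evL_mem_adjoin W D)) hαF
  have hrootC : (X ^ (dedekindPsi N) - ∑ i : Fin (dedekindPsi N), C (n i) * X ^ (i : ℕ) :
      ((↥W)[X])[X]).eval₂ (evC W) ⟨evL W D * α, hθW⟩ = 0 := by
    apply Subtype.ext
    have h1 := Polynomial.hom_eval₂ (X ^ (dedekindPsi N) -
      ∑ i : Fin (dedekindPsi N), C (n i) * X ^ (i : ℕ) : ((↥W)[X])[X]) (evC W)
      (contentRing W).subtype ⟨evL W D * α, hθW⟩
    rw [subtype_comp_evC] at h1
    exact h1.trans hroot
  have hrootK : (X ^ (dedekindPsi N) - ∑ i : Fin (dedekindPsi N), C (n i) * X ^ (i : ℕ) :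
      ((↥W)[X])[X]).eval₂ (redJ W) (red W ⟨evL W D * α, hθW⟩) = 0 := by
    have h1 := Polynomial.hom_eval₂ (X ^ (dedekindPsi N) -
      ∑ i : Fin (dedekindPsi N), C (n i) * X ^ (i : ℕ) : ((↥W)[X])[X]) (evC W)
      (red W) ⟨evL W D * α, hθW⟩
    rw [hrootC, map_zero] at h1
    exact h1.symm
  -- separability of the reduction
  have hredθ : red W ⟨evL W D * α, hθW⟩ = redJ W D * red W ⟨α, hαW⟩ := by
    have h1 : (⟨evL W D * α, hθW⟩ : contentRing W) = evC W D * ⟨α, hαW⟩ := Subtype.ext rfl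
    rw [h1, map_mul]; rfl
  have hδK : redK W D ≠ 0 := by rw [Ne, redK_eq_zero_iff]; exact hD
  have hliθ : LinearIndependent (kJ W)
      (fun i : Fin (dedekindPsi N) => (red W ⟨evL W D * α, hθW⟩) ^ (i : ℕ)) := by
    have h1 := hli.units_smul
      (fun i : Fin (dedekindPsi N) => Units.mk0 ((redK W D) ^ (i : ℕ)) (pow_ne_zero _ hδK))
    convert h1 using 1
    funext i
    rw [hredθ, mul_pow]
    rfl
  have hcomp : (algebraMap (kJ W) (LaurentSeries (IsLocalRing.ResidueField W))).comp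
      (redK W) = redJ W := RingHom.ext fun _ => rfl
  have haeval : Polynomial.aeval (red W ⟨evL W D * α, hθW⟩)
      ((X ^ (dedekindPsi N) - ∑ i : Fin (dedekindPsi N), C (n i) * X ^ (i : ℕ) :
        ((↥W)[X])[X]).map (redK W)) = 0 := by
    rw [Polynomial.aeval_def, Polynomial.eval₂_map, hcomp]; exact hrootK
  have hmonicK := hmonic.map (redK W)
  have hint : IsIntegral (kJ W) (red W ⟨evL W D * α, hθW⟩) :=
    ⟨_, hmonicK, by rw [← Polynomial.aeval_def]; exact haeval⟩
  have hle := le_natDegree_minpoly_of_linearIndependent_pow _ hint (dedekindPsi N) hliθ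
  have hdvd := minpoly.dvd (kJ W) _ haeval
  have heq := Polynomial.eq_of_monic_of_dvd_of_natDegree_le (minpoly.monic hint) hmonicK hdvd
    (by rw [hmonic.natDegree_map, hnat]; exact hle)
  have hsepθ : IsSeparable (kJ W) (red W ⟨evL W D * α, hθW⟩) := by
    rw [hredθ]
    exact Field.isSeparable_mul (isSeparable_algebraMap (redK W D)) hsep
  refine ⟨evL W D * α, hθW, _, hθF, hmonic, hnat, hroot, ?_, ?_, hrootK, ?_⟩
  · intro x hx
    obtain ⟨c', hc', hx'⟩ := hspan hx
    refine ⟨fun i => c' i * ((evL W D) ^ (i : ℕ))⁻¹,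
      fun i => mul_mem (hc' i) (inv_mem (pow_mem (evL_mem_adjoin W D) _)), ?_⟩
    exact scale_span (dedekindPsi N) α (evL W D) x hδ0 c' hx'
  · intro x hx hxW
    obtain ⟨c', hc', hx'⟩ := hspan hx
    have hc'W : ∀ i, c' i ∈ contentRing W := hmem c' hc' (by rw [← hx']; exact hxW)
    obtain ⟨Q', p', hQ', hp'⟩ := exists_common_denominator W c' hc' hc'W
    refine ⟨D ^ (dedekindPsi N - 1) * Q',
      fun i => D ^ (dedekindPsi N - 1 - (i : ℕ)) * p' i, ?_, ?_⟩
    · rw [Polynomial.map_mul, Polynomial.map_pow]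
      exact mul_ne_zero (pow_ne_zero _ hD) hQ'
    · rw [map_mul, map_pow]
      exact scale_int (dedekindPsi N) α (evL W D) (evL W Q') x c' (fun i => evL W (p' i))
        (fun i => evL W (D ^ (dedekindPsi N - 1 - (i : ℕ)) * p' i)) hx' hp'
        (fun i => by rw [map_mul, map_pow])
  · rw [heq]
    exact hsepθ

omit [IsAlgClosed (IsLocalRing.ResidueField ↥W)] in
/-- The derivative of the defining polynomial at the generator is a unit of the Gauss
valuation ring. -/
theorem exists_inv_derivative {θ : LaurentSeries L} (hθ : θ ∈ contentRing W)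
    (hθF : θ ∈ laurentBaseChange L (modularFunctionFieldFull N))
    (P : Polynomial (Polynomial W)) (hroot : P.eval₂ (redJ W) (red W ⟨θ, hθ⟩) = 0)
    (hsep : (P.map (redK W)).Separable) :
    ∃ y ∈ laurentBaseChange L (modularFunctionFieldFull N), y ∈ contentRing W ∧
      (derivative P).eval₂ (evL W) θ * y = 1 := by
  have hcomp : (algebraMap (kJ W) (LaurentSeries (IsLocalRing.ResidueField W))).comp
      (redK W) = redJ W := RingHom.ext fun _ => rfl
  have hdF : (derivative P).eval₂ (evL W) θ ∈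
      laurentBaseChange L (modularFunctionFieldFull N) := by
    rw [Polynomial.eval₂_eq_sum_range]
    exact sum_mem fun i _ =>
      mul_mem (mem_FF_of_mem_adjoin_jq L N (evL_mem_adjoin W _)) (pow_mem hθF i)
  have hdC : (((derivative P).eval₂ (evC W) (⟨θ, hθ⟩ : contentRing W) : contentRing W) :
      LaurentSeries L) = (derivative P).eval₂ (evL W) θ := by
    have h1 := Polynomial.hom_eval₂ (derivative P) (evC W) (contentRing W).subtype ⟨θ, hθ⟩
    rw [subtype_comp_evC] at h1
    exact h1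
  have hdW : (derivative P).eval₂ (evL W) θ ∈ contentRing W := by
    rw [← hdC]; exact Subtype.property _
  have hred : red W ⟨(derivative P).eval₂ (evL W) θ, hdW⟩ ≠ 0 := by
    have h1 : (⟨(derivative P).eval₂ (evL W) θ, hdW⟩ : contentRing W) =
        (derivative P).eval₂ (evC W) ⟨θ, hθ⟩ := Subtype.ext hdC.symm
    rw [h1, Polynomial.hom_eval₂]
    have h2 := hsep.eval₂_derivative_ne_zero
      (algebraMap (kJ W) (LaurentSeries (IsLocalRing.ResidueField W)))
      (x := red W ⟨θ, hθ⟩) (by rw [Polynomial.eval₂_map, hcomp]; exact hroot)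
    rw [Polynomial.derivative_map, Polynomial.eval₂_map, hcomp] at h2
    exact h2
  have hd0 : (derivative P).eval₂ (evL W) θ ≠ 0 := by
    intro h0
    apply hred
    have h1 : (⟨(derivative P).eval₂ (evL W) θ, hdW⟩ : contentRing W) = 0 := Subtype.ext h0
    rw [h1, map_zero]
  exact ⟨_, inv_mem hdF, inv_mem_contentRing W hdW hred, mul_inv_cancel₀ hd0⟩

end Main

end Fermat.Agent.S18.Gauss
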