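import Mathlib
import Fermat.Agent.S18.GaussPrim

/-!
# S18, package PG (7): the Gauss valuation ring of `FF L N`, function-field form

Everything is stated for elements of `S24.FF L N` and is instance-free: `evF W N` is the ring
homomorphism `W[X] → FF L N`, `f ↦ f(j)`, and "Gauss-integral" means
`∃ S : W[X], S̄ ≠ 0 ∧ (evF W N).IsIntegralElem (evF W N S * x)`.

* `isGaussInt_iff`: `x` is Gauss-integral iff its `q`-expansion lies in `contentRing W`.
* `exists_monogenic`: the monogenic generator `θ` with `P(j, θ) = 0`, `P'(j, θ)` a unit.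
* `exists_sub_one_eq`: `Z₁/Z₂ - 1 ∈ ϖ · O` when `Z̄₁ = Z̄₂ ≠ 0`.
-/

set_option autoImplicit false

noncomputable section

namespace Fermat.Agent.S18.Gauss

open ModularCurve Polynomial Fermat.Agent.S28

/-- Sums `∑ f(c i) θ^i` with `θ` integral are integral. -/
theorem isIntegralElem_sum_mul_pow {R S : Type*} [CommRing R] [CommRing S] (f : R →+* S) (θ : S)
    (hθ : f.IsIntegralElem θ) {n : ℕ} (c : Fin n → R) :
    f.IsIntegralElem (∑ i, f (c i) * θ ^ (i : ℕ)) := by
  let _ : Algebra R S := f.toAlgebra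
  have hθ' : IsIntegral R θ := hθ
  show IsIntegral R _
  exact IsIntegral.sum _ fun i _ => (isIntegral_algebraMap (R := R) (x := c i)).mul (hθ'.pow _)

section Val

variable {L : Type*} [Field L] [Algebra ℚ L] (W : ValuationSubring L) (N : ℕ) [NeZero N]

/-- `f ↦ f(j)`, from `W[X]` to the function field `FF L N`. -/
def evF : (↥W)[X] →+* Fermat.Agent.S24.FF L N :=
  (evL W).codRestrict (laurentBaseChange L (modularFunctionFieldFull N))
    (fun P => mem_FF_of_mem_adjoin_jq L N (evL_mem_adjoin W P))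

theorem coe_evF (P : (↥W)[X]) :
    ((evF W N P : Fermat.Agent.S24.FF L N) : LaurentSeries L) = evL W P := rfl

theorem algebraMap_comp_evF :
    (algebraMap (Fermat.Agent.S24.FF L N) (LaurentSeries L)).comp (evF W N) = evL W := rfl

theorem evF_X : evF W N X = Fermat.Agent.S24.jBC L N :=
  Subtype.ext (by rw [coe_evF, evL_X, coe_jBC_eq])

theorem evF_C (a : W) :
    evF W N (C a) = algebraMap L (Fermat.Agent.S24.FF L N) (a : L) :=
  Subtype.ext (by
    rw [coe_evF, evL_C, ← Fermat.Agent.S28.Content.algebraMap_eq_C_of_field]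
    rfl)

/-- Evaluation in `FF L N` and in `L((q))` agree. -/
theorem coe_eval₂_evF (P : Polynomial (Polynomial W)) (x : Fermat.Agent.S24.FF L N) :
    ((P.eval₂ (evF W N) x : Fermat.Agent.S24.FF L N) : LaurentSeries L) =
      P.eval₂ (evL W) (x : LaurentSeries L) := by
  have h := Polynomial.hom_eval₂ P (evF W N)
    (algebraMap (Fermat.Agent.S24.FF L N) (LaurentSeries L)) x
  rw [algebraMap_comp_evF] at h
  exact h

omit [Algebra ℚ L] in
/-- A root in `L((q))` of a monic polynomial over the content ring lies in the content ring,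
provided it or its inverse is in the content ring, with the inverse in the maximal ideal in the
second case. -/
theorem mem_contentRing_of_monic_root' {f : LaurentSeries L}
    (hinv : f ∉ contentRing W → ∃ h : f⁻¹ ∈ contentRing W, red W ⟨f⁻¹, h⟩ = 0)
    (P : (contentRing W)[X]) (hP : P.Monic) (h : P.eval₂ (contentRing W).subtype f = 0) :
    f ∈ contentRing W := by
  by_contra hnot
  obtain ⟨hg, hred⟩ := hinv hnot
  have hf0 : f ≠ 0 := fun h0 => hnot (by rw [h0]; exact zero_mem _)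
  let _ : Invertible f := invertibleOfNonzero hf0
  have h1 := Polynomial.eval₂_reverse_mul_pow (contentRing W).subtype f P
  rw [h, invOf_eq_inv] at h1
  have h2 : P.reverse.eval₂ (contentRing W).subtype f⁻¹ = 0 := by
    rcases mul_eq_zero.mp h1 with h3 | h3
    · exact h3
    · exact absurd (pow_eq_zero_iff (n := P.natDegree) (M₀ := LaurentSeries L)
        (by intro hn; exact absurd h3 (by rw [hn, pow_zero]; exact one_ne_zero)) |>.mp h3) hf0
  have h4 : P.reverse.eval (⟨f⁻¹, hg⟩ : contentRing W) = 0 := by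
    apply Subtype.ext
    have := Polynomial.hom_eval₂ P.reverse (RingHom.id _) (contentRing W).subtype
      (⟨f⁻¹, hg⟩ : contentRing W)
    rw [Polynomial.eval₂_id, RingHom.comp_id] at this
    exact this.trans h2
  have h5 := congrArg (red W) h4
  rw [map_zero, ← Polynomial.eval₂_id, Polynomial.hom_eval₂, RingHom.comp_id, hred,
    Polynomial.eval₂_at_zero, Polynomial.coeff_zero_reverse, hP.leadingCoeff, map_one] at h5
  exact one_ne_zero h5

section Char

variable (ℓ : ℕ) [Fact ℓ.Prime] [CharP (IsLocalRing.ResidueField W) ℓ]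

/-- **Gauss-integral ⇒ integral `q`-expansion.** -/
theorem mem_of_isGaussInt (hℓN : ¬ ℓ ∣ N) (x : Fermat.Agent.S24.FF L N) (S : (↥W)[X])
    (hS : S.map (IsLocalRing.residue W) ≠ 0)
    (h : (evF W N).IsIntegralElem (evF W N S * x)) :
    (x : LaurentSeries L) ∈ contentRing W := by
  obtain ⟨Q, hQ, hroot⟩ := h
  have hy : ((evF W N S * x : Fermat.Agent.S24.FF L N) : LaurentSeries L) ∈ contentRing W := by
    refine mem_contentRing_of_monic_root' W
      (fun hnot => inv_mem_of_notMem_full W N ℓ hℓN (Subtype.property _) hnot)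
      (Q.map (evC W)) (hQ.map _) ?_
    rw [Polynomial.eval₂_map, subtype_comp_evC, ← coe_eval₂_evF, hroot]
    rfl
  have hSred : red W ⟨evL W S, evL_mem_contentRing W S⟩ ≠ 0 := by
    rw [red_evL, Ne, redJ_eq_zero_iff]; exact hS
  have hS0 : evL W S ≠ 0 := by
    intro h0
    apply hSred
    have h1 : (⟨evL W S, evL_mem_contentRing W S⟩ : contentRing W) = 0 := Subtype.ext h0
    rw [h1, map_zero]
  have hinv := inv_mem_contentRing W (evL_mem_contentRing W S) hSred
  have heq : (x : LaurentSeries L) =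
      ((evF W N S * x : Fermat.Agent.S24.FF L N) : LaurentSeries L) * (evL W S)⁻¹ := by
    show (x : LaurentSeries L) = evL W S * (x : LaurentSeries L) * (evL W S)⁻¹
    field_simp
  rw [heq]
  exact mul_mem hy hinv

end Char

section Closed

variable (ℓ : ℕ) [Fact ℓ.Prime] [CharP (IsLocalRing.ResidueField W) ℓ]
  [IsAlgClosed (IsLocalRing.ResidueField W)]

/-- **Monogenic generator, function-field form.**  `θ ∈ FF L N` is integral over `W[j]` via the
monic `P ∈ W[X][T]` of degree `ψ(N)`; `P'(j, θ)` is invertible with inverse `y` in the Gauss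
valuation ring; `FF L N = L(j)[θ]`; every element with integral `q`-expansion is in
`W[j]_(𝔪)[θ]`; the reduction of `P` is separable over `κ(j̄)`. -/
theorem exists_monogenic (hℓN : ¬ ℓ ∣ N) :
    ∃ (θ : Fermat.Agent.S24.FF L N) (P : Polynomial (Polynomial W))
      (y : Fermat.Agent.S24.FF L N),
      (θ : LaurentSeries L) ∈ contentRing W ∧ (y : LaurentSeries L) ∈ contentRing W ∧
      P.Monic ∧ P.natDegree = dedekindPsi N ∧ P.eval₂ (evF W N) θ = 0 ∧
      (derivative P).eval₂ (evF W N) θ * y = 1 ∧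
      (∀ x : Fermat.Agent.S24.FF L N, ∃ c : Fin (dedekindPsi N) → Fermat.Agent.S24.FF L N,
        (∀ i, (c i : LaurentSeries L) ∈ IntermediateField.adjoin L {jqModC L}) ∧
        x = ∑ i, c i * θ ^ (i : ℕ)) ∧
      (∀ x : Fermat.Agent.S24.FF L N, (x : LaurentSeries L) ∈ contentRing W →
        ∃ (S : (↥W)[X]) (n : Fin (dedekindPsi N) → (↥W)[X]),
          S.map (IsLocalRing.residue W) ≠ 0 ∧
          evF W N S * x = ∑ i, evF W N (n i) * θ ^ (i : ℕ)) ∧
      (P.map (redK W)).Separable := by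
  obtain ⟨θ, hθ, P, hθF, hmonic, hnat, hroot, hspan, hint, hrootK, hsep⟩ :=
    exists_primitive_separable W N ℓ hℓN
  obtain ⟨y, hyF, hyW, hy⟩ := exists_inv_derivative W N hθ hθF P hrootK hsep
  refine ⟨⟨θ, hθF⟩, P, ⟨y, hyF⟩, hθ, hyW, hmonic, hnat, ?_, ?_, ?_, ?_, hsep⟩
  · exact Subtype.ext (by rw [coe_eval₂_evF]; exact hroot)
  · apply Subtype.ext
    show (((derivative P).eval₂ (evF W N) (⟨θ, hθF⟩ : Fermat.Agent.S24.FF L N) :
      Fermat.Agent.S24.FF L N) : LaurentSeries L) * y = 1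
    rw [coe_eval₂_evF]
    exact hy
  · intro x
    obtain ⟨c, hc, hx⟩ := hspan x x.2
    refine ⟨fun i => ⟨c i, mem_FF_of_mem_adjoin_jq L N (hc i)⟩, hc, ?_⟩
    apply (algebraMap (Fermat.Agent.S24.FF L N) (LaurentSeries L)).injective
    rw [map_sum]
    simp only [map_mul, map_pow]
    exact hx
  · intro x hxW
    obtain ⟨S, n, hS, h⟩ := hint x x.2 hxW
    refine ⟨S, n, hS, ?_⟩
    apply (algebraMap (Fermat.Agent.S24.FF L N) (LaurentSeries L)).injective
    rw [map_mul, map_sum]
    simp only [map_mul, map_pow]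
    exact h

/-- **Integral `q`-expansion ⇒ Gauss-integral**: if the `q`-expansion of `x ∈ FF L N` lies in
the content ring then `S(j) · x` is integral over `W[j]` for some `S ∈ W[X]` with `S̄ ≠ 0`. -/
theorem isGaussInt_of_mem (hℓN : ¬ ℓ ∣ N) (x : Fermat.Agent.S24.FF L N)
    (hx : (x : LaurentSeries L) ∈ contentRing W) :
    ∃ S : (↥W)[X], S.map (IsLocalRing.residue W) ≠ 0 ∧
      (evF W N).IsIntegralElem (evF W N S * x) := by
  obtain ⟨θ, P, -, -, -, hmonic, -, hroot, -, -, hint, -⟩ := exists_monogenic W N ℓ hℓN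
  obtain ⟨S, n, hS, h⟩ := hint x hx
  refine ⟨S, hS, ?_⟩
  rw [h]
  exact isIntegralElem_sum_mul_pow _ _ ⟨P, hmonic, hroot⟩ n

/-- If moreover the reduction is nonzero, the inverse is Gauss-integral as well. -/
theorem isGaussInt_inv (hℓN : ¬ ℓ ∣ N) (x : Fermat.Agent.S24.FF L N)
    (hx : (x : LaurentSeries L) ∈ contentRing W) (hred : red W ⟨x, hx⟩ ≠ 0) :
    ∃ S : (↥W)[X], S.map (IsLocalRing.residue W) ≠ 0 ∧
      (evF W N).IsIntegralElem (evF W N S * x⁻¹) :=
  isGaussInt_of_mem W N ℓ hℓN x⁻¹ (inv_mem_contentRing W hx hred)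

/-- **Gauss-integral ⇔ integral `q`-expansion.** -/
theorem isGaussInt_iff (hℓN : ¬ ℓ ∣ N) (x : Fermat.Agent.S24.FF L N) :
    (∃ S : (↥W)[X], S.map (IsLocalRing.residue W) ≠ 0 ∧
      (evF W N).IsIntegralElem (evF W N S * x)) ↔ (x : LaurentSeries L) ∈ contentRing W :=
  ⟨fun ⟨S, hS, h⟩ => mem_of_isGaussInt W N ℓ hℓN x S hS h, isGaussInt_of_mem W N ℓ hℓN x⟩

end Closed

/-! ### Quotients of integral series, uniformisers -/

omit [Algebra ℚ L] in
theorem quot_mem_contentRing (Z1 Z2 : LaurentSeries W) (hZ2 : toK W Z2 ≠ 0) :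
    toL W Z1 / toL W Z2 ∈ contentRing W := by
  have h0 : toL W Z2 ≠ 0 := fun h0 => hZ2 (by rw [(toL_eq_zero_iff W _).mp h0, map_zero])
  exact ⟨Z1, Z2, hZ2, div_mul_cancel₀ _ h0⟩

omit [Algebra ℚ L] in
theorem red_quot (Z1 Z2 : LaurentSeries W) (hZ2 : toK W Z2 ≠ 0) :
    red W ⟨toL W Z1 / toL W Z2, quot_mem_contentRing W Z1 Z2 hZ2⟩ = toK W Z1 / toK W Z2 := by
  have h0 : toL W Z2 ≠ 0 := fun h0 => hZ2 (by rw [(toL_eq_zero_iff W _).mp h0, map_zero])
  exact red_mk_eq W _ hZ2 (div_mul_cancel₀ _ h0)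

section DVR

variable [IsDiscreteValuationRing W]

omit [Algebra ℚ L] in
/-- For a uniformiser `ϖ`: `S̄ = 0` iff `ϖ ∣ S` in `W[X]`. -/
theorem map_residue_eq_zero_iff_C_dvd {ϖ : W} (hϖ : Irreducible ϖ) (S : (↥W)[X]) :
    S.map (IsLocalRing.residue W) = 0 ↔ C ϖ ∣ S := by
  rw [Polynomial.C_dvd_iff_dvd_coeff, Polynomial.ext_iff]
  refine forall_congr' fun i => ?_
  rw [coeff_map, coeff_zero, residue_eq_zero_iff_unif W hϖ]
  rfl

omit [NeZero N] in
/-- **(G)**: if `Z̄₁ = Z̄₂ ≠ 0` then `Z₁/Z₂ - 1 = ϖ · ω` with `ω` in the Gauss valuation ring of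
`FF L N`. -/
theorem exists_sub_one_eq {ϖ : W} (hϖ : Irreducible ϖ) (Z1 Z2 : LaurentSeries W)
    (g1 : toL W Z1 ∈ laurentBaseChange L (modularFunctionFieldFull N))
    (g2 : toL W Z2 ∈ laurentBaseChange L (modularFunctionFieldFull N))
    (hred : toK W Z1 = toK W Z2) (hne : toK W Z1 ≠ 0) :
    ∃ ω : Fermat.Agent.S24.FF L N, (ω : LaurentSeries L) ∈ contentRing W ∧
      (⟨_, g1⟩ / ⟨_, g2⟩ : Fermat.Agent.S24.FF L N) - 1 =
        algebraMap L (Fermat.Agent.S24.FF L N) ((ϖ : W) : L) * ω := by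
  have hZ2 : toK W Z2 ≠ 0 := hred ▸ hne
  have h0 : toL W Z2 ≠ 0 := fun h0 => hZ2 (by rw [(toL_eq_zero_iff W _).mp h0, map_zero])
  obtain ⟨Y, hY⟩ := (toK_eq_zero_iff W hϖ (Z1 - Z2)).mp (by rw [map_sub, hred, sub_self])
  have hYL : toL W Z1 - toL W Z2 = HahnSeries.C ((ϖ : W) : L) * toL W Y := by
    rw [← map_sub, hY, map_mul, toL_C]
  have hϖ0 : HahnSeries.C ((ϖ : W) : L) ≠ 0 := C_unif_ne_zero W hϖ
  have hCF : HahnSeries.C ((ϖ : W) : L) ∈ laurentBaseChange L (modularFunctionFieldFull N) := by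
    rw [← Fermat.Agent.S28.Content.algebraMap_eq_C_of_field]
    exact IntermediateField.algebraMap_mem _ _
  have hωeq : toL W Y / toL W Z2 =
      (toL W Z1 / toL W Z2 - 1) * (HahnSeries.C ((ϖ : W) : L))⁻¹ := by
    have h1 : toL W Z1 = toL W Z2 + HahnSeries.C ((ϖ : W) : L) * toL W Y := by
      rw [← hYL]; ring
    rw [h1]
    field_simp
    ring
  have hωF : toL W Y / toL W Z2 ∈ laurentBaseChange L (modularFunctionFieldFull N) := by
    rw [hωeq]
    exact mul_mem (sub_mem (div_mem g1 g2) (one_mem _)) (inv_mem hCF)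
  refine ⟨⟨_, hωF⟩, quot_mem_contentRing W Y Z2 hZ2, ?_⟩
  apply Subtype.ext
  show toL W Z1 / toL W Z2 - 1 =
    algebraMap L (LaurentSeries L) ((ϖ : W) : L) * (toL W Y / toL W Z2)
  rw [Fermat.Agent.S28.Content.algebraMap_eq_C_of_field, hωeq]
  field_simp

end DVR

/-! ### Injectivity, clearing `L(j)`-denominators, fraction-field form of separability -/

omit [Algebra ℚ L] in
theorem evL_injective : Function.Injective (evL W) := by
  rw [injective_iff_map_eq_zero]
  intro P hP
  have h1 : (P.map W.subtype).eval₂ (HahnSeries.C (Γ := ℤ) (R := L)) (jqModC L) = 0 := by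
    rw [Polynomial.eval₂_map]; exact hP
  have h2 := Fermat.Agent.S28.Content.eval₂_jqModC_eq_zero h1
  exact Polynomial.map_injective W.subtype Subtype.val_injective (by rw [h2, Polynomial.map_zero])

theorem evF_injective : Function.Injective (evF W N) := fun _ _ h =>
  evL_injective W (congrArg (Subtype.val) h)

omit [Algebra ℚ L] in
/-- Elements of `L(j)` are quotients `P(j)/Q(j)` with `P, Q ∈ W[X]`, `Q ≠ 0`. -/
theorem exists_poly_quot' {d : LaurentSeries L}
    (hd : d ∈ IntermediateField.adjoin L {jqModC L}) :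
    ∃ P Q : (↥W)[X], Q ≠ 0 ∧ d * evL W Q = evL W P := by
  rcases eq_or_ne d 0 with rfl | hd0
  · exact ⟨0, 1, one_ne_zero, by rw [map_zero, zero_mul]⟩
  obtain ⟨a, P, Q, ha, hP, hQ, h⟩ := exists_const_mul_quot W hd hd0
  rw [← evL_apply, ← evL_apply] at h
  have hQ0 : Q ≠ 0 := by
    rintro rfl
    exact hQ (by rw [evJ, Polynomial.eval₂_zero, map_zero])
  rcases W.mem_or_inv_mem a with haW | haW
  · exact ⟨C (⟨a, haW⟩ : W) * P, Q, hQ0, by rw [map_mul, evL_C]; exact h⟩
  · refine ⟨P, C (⟨a⁻¹, haW⟩ : W) * Q, ?_, ?_⟩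
    · refine mul_ne_zero ?_ hQ0
      rw [Ne, Polynomial.C_eq_zero]
      intro h0
      exact inv_ne_zero ha (congrArg Subtype.val h0)
    · rw [map_mul, evL_C]
      have hCa : HahnSeries.C (Γ := ℤ) a ≠ 0 := by
        rw [Ne, map_eq_zero]; exact ha
      have h1 : HahnSeries.C (Γ := ℤ) (((⟨a⁻¹, haW⟩ : W) : L)) = (HahnSeries.C (Γ := ℤ) a)⁻¹ :=
        map_inv₀ _ _
      rw [h1, mul_comm _ (evL W Q), ← mul_assoc, h]
      field_simp

omit [Algebra ℚ L] in
/-- Common denominators for a finite family in `L(j)`. -/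
theorem exists_common_denominator' {n : ℕ} (c : Fin n → LaurentSeries L)
    (hc : ∀ i, c i ∈ IntermediateField.adjoin L {jqModC L}) :
    ∃ (Q : (↥W)[X]) (p : Fin n → (↥W)[X]), Q ≠ 0 ∧ ∀ i, c i * evL W Q = evL W (p i) := by
  classical
  choose P Q hQ h using fun i => exists_poly_quot' W (hc i)
  refine ⟨∏ k, Q k, fun i => P i * ∏ k ∈ Finset.univ.erase i, Q k, ?_, fun i => ?_⟩
  · exact Finset.prod_ne_zero_iff.mpr fun k _ => hQ k
  · rw [← Finset.mul_prod_erase Finset.univ Q (Finset.mem_univ i), map_mul, map_mul, ← h i]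
    ring

/-- An `L(j)`-combination of powers of `θ` becomes a `W[j]`-combination after multiplying by a
nonzero element of `W[j]`. -/
theorem exists_poly_span {n : ℕ} (θ x : Fermat.Agent.S24.FF L N)
    (c : Fin n → Fermat.Agent.S24.FF L N)
    (hc : ∀ i, (c i : LaurentSeries L) ∈ IntermediateField.adjoin L {jqModC L})
    (hx : x = ∑ i, c i * θ ^ (i : ℕ)) :
    ∃ (S : (↥W)[X]) (p : Fin n → (↥W)[X]), S ≠ 0 ∧
      evF W N S * x = ∑ i, evF W N (p i) * θ ^ (i : ℕ) := by
  obtain ⟨Q, p, hQ, h⟩ := exists_common_denominator' W (fun i => (c i : LaurentSeries L)) hc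
  refine ⟨Q, p, hQ, ?_⟩
  rw [hx, Finset.mul_sum]
  refine Finset.sum_congr rfl fun i _ => ?_
  have h1 : evF W N (p i) = c i * evF W N Q := Subtype.ext (h i).symm
  rw [h1]
  ring

omit [Algebra ℚ L] in
/-- Separability of the reduction, in the form "over any fraction field of `κ[X]`". -/
theorem separable_fractionRing_of_redK (P : Polynomial (Polynomial W))
    (hsep : (P.map (redK W)).Separable)
    (κ₀ : Type*) [Field κ₀] [Algebra (IsLocalRing.ResidueField W)[X] κ₀]
    [IsFractionRing (IsLocalRing.ResidueField W)[X] κ₀] :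
    ((P.map (Polynomial.mapRingHom (IsLocalRing.residue W))).map
      (algebraMap (IsLocalRing.ResidueField W)[X] κ₀)).Separable := by
  let ev : (IsLocalRing.ResidueField W)[X] →+* ↥(kJ W) :=
    (Polynomial.eval₂RingHom (HahnSeries.C (Γ := ℤ) (R := IsLocalRing.ResidueField W))
      (jqModC (IsLocalRing.ResidueField W))).codRestrict (kJ W) (fun p => by
        rw [coe_eval₂RingHom, ← Fermat.Agent.S28.Content.algebraMap_eq_C_of_field,
          ← Polynomial.aeval_def]
        exact IntermediateField.algebra_adjoin_le_adjoin _ _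
          (Polynomial.aeval_mem_adjoin_singleton _ _))
  have hev : Function.Injective ev := by
    rw [injective_iff_map_eq_zero]
    intro p hp
    exact Fermat.Agent.S28.Content.eval₂_jqModC_eq_zero (congrArg Subtype.val hp)
  let φ : κ₀ →+* ↥(kJ W) := IsFractionRing.lift hev
  have hφ : ∀ p, φ (algebraMap (IsLocalRing.ResidueField W)[X] κ₀ p) = ev p :=
    fun p => IsFractionRing.lift_algebraMap hev p
  have hcomp : (φ.comp (algebraMap (IsLocalRing.ResidueField W)[X] κ₀)).comp
      (Polynomial.mapRingHom (IsLocalRing.residue W)) = redK W := by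
    refine RingHom.ext fun p => Subtype.ext ?_
    rw [RingHom.comp_apply, RingHom.comp_apply, hφ, coe_redK, redJ_apply, toK_evJ]
    rfl
  have h1 : ((P.map (Polynomial.mapRingHom (IsLocalRing.residue W))).map
      (algebraMap (IsLocalRing.ResidueField W)[X] κ₀)).map φ = P.map (redK W) := by
    rw [Polynomial.map_map, Polynomial.map_map, hcomp]
  rw [← h1] at hsep
  exact (separable_map φ).mp hsep

end Val

end Fermat.Agent.S18.Gauss
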