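import Mathlib

/-!
# S18: the two shared predicates (trace-self-duality after inverting a set; Gauss integrality)

Everything here is elementwise: no localisation types, no integral-closure types.
-/

namespace Fermat.Agent.S18

/-- `IsTSDAt R K Y S`: the integral closure of `R` in `Y` is trace-self-dual over `R`
after inverting the elements of `S` (for `S = {1}`: trace-self-dual; for `S` the powers of `π`:
trace-self-dual over `R[1/π]`; for `S` the complement of `(π)`: trace-self-dual over the
localisation at `(π)`). -/
def IsTSDAt (R K Y : Type*) [CommRing R] [Field K] [Field Y] [Algebra R K] [Algebra K Y]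
    [Algebra R Y] (S : Set R) : Prop :=
  ∀ z : Y, (∀ b : Y, IsIntegral R b →
      ∃ s ∈ S, ∃ r : R, s • Algebra.trace K Y (z * b) = algebraMap R K r) →
    ∃ s ∈ S, IsIntegral R (s • z)

/-- `IsGaussInt R π z`: `z` is integral over the localisation of `R` at the prime `(π)`. -/
def IsGaussInt (R : Type*) {Y : Type*} [CommRing R] [CommRing Y] [Algebra R Y] (π : R) (z : Y) :
    Prop :=
  ∃ s : R, ¬ π ∣ s ∧ IsIntegral R (s • z)

end Fermat.Agent.S18
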