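import Mathlib
import Fermat.Agent.S18.TSD
import Fermat.Agent.S18.Kummer

/-!
# S18 (plan v2, row I): the Kummer sheet idempotent in the Gauss-integrality currency

`D` is the chart ring of the `j`-line, `π : D` a prime element, `F ⊆ F2` fields over `D`,
`F2 = F(u)` with `u ^ s = w`, `w ≡ 1` modulo `π ·` (Gauss-integral elements of `F`), and `s`
invertible in `D`.  With `ε = eps s u = (1/s) ∑_{i<s} u^i`:

* `eps_isGaussInt` (K2) : `ε` is Gauss-integral;
* `eps_idem_gauss` (K2') : `ε ^ 2 - ε = π • d` with `d` Gauss-integral;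
* `no_constant_gauss` (K3) : there is no `c : F` with `ε - c = π • γ`, `γ` Gauss-integral;
* `not_isGaussInt_inv` : `π` is not a unit of the Gauss-integral elements (the only extra input
  of K3), for `D` an integrally closed domain embedded in `F`.

Also a few closure properties of `IsGaussInt` (private copies, names local to this namespace).
-/

set_option autoImplicit false

open Polynomial

namespace Fermat.Agent.S18.KummerGauss

open Fermat.Agent.S18 Fermat.Agent.S18.Kummer

section Closure

variable {R Y : Type*} [CommRing R] [CommRing Y] [Algebra R Y] {π : R}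

theorem gaussInt_of_isIntegral (hπ : Prime π) {z : Y} (hz : IsIntegral R z) :
    IsGaussInt R π z :=
  ⟨1, fun h => hπ.not_isUnit (isUnit_of_dvd_one h), by rwa [one_smul]⟩

theorem gaussInt_algebraMap (hπ : Prime π) (r : R) : IsGaussInt R π (algebraMap R Y r) :=
  gaussInt_of_isIntegral hπ isIntegral_algebraMap

theorem gaussInt_zero (hπ : Prime π) : IsGaussInt R π (0 : Y) :=
  gaussInt_of_isIntegral hπ isIntegral_zero

theorem gaussInt_one (hπ : Prime π) : IsGaussInt R π (1 : Y) :=
  gaussInt_of_isIntegral hπ isIntegral_one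

theorem gaussInt_add (hπ : Prime π) {z₁ z₂ : Y} (h₁ : IsGaussInt R π z₁)
    (h₂ : IsGaussInt R π z₂) : IsGaussInt R π (z₁ + z₂) := by
  obtain ⟨s₁, hs₁, i₁⟩ := h₁
  obtain ⟨s₂, hs₂, i₂⟩ := h₂
  refine ⟨s₁ * s₂, fun h => (hπ.dvd_or_dvd h).elim hs₁ hs₂, ?_⟩
  have e : (s₁ * s₂) • (z₁ + z₂) = s₂ • (s₁ • z₁) + s₁ • (s₂ • z₂) := by
    rw [smul_add, mul_smul, mul_smul, smul_comm s₁ s₂ z₁]
  rw [e]
  exact (i₁.smul s₂).add (i₂.smul s₁)

theorem gaussInt_mul (hπ : Prime π) {z₁ z₂ : Y} (h₁ : IsGaussInt R π z₁)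
    (h₂ : IsGaussInt R π z₂) : IsGaussInt R π (z₁ * z₂) := by
  obtain ⟨s₁, hs₁, i₁⟩ := h₁
  obtain ⟨s₂, hs₂, i₂⟩ := h₂
  refine ⟨s₁ * s₂, fun h => (hπ.dvd_or_dvd h).elim hs₁ hs₂, ?_⟩
  rw [← smul_mul_smul_comm]
  exact i₁.mul i₂

theorem gaussInt_smul (r : R) {z : Y} (h : IsGaussInt R π z) : IsGaussInt R π (r • z) := by
  obtain ⟨s, hs, i⟩ := h
  refine ⟨s, hs, ?_⟩
  rw [smul_comm]
  exact i.smul r

theorem gaussInt_neg {z : Y} (h : IsGaussInt R π z) : IsGaussInt R π (-z) := by
  obtain ⟨s, hs, i⟩ := h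
  refine ⟨s, hs, ?_⟩
  rw [smul_neg]
  exact i.neg

theorem gaussInt_sub (hπ : Prime π) {z₁ z₂ : Y} (h₁ : IsGaussInt R π z₁)
    (h₂ : IsGaussInt R π z₂) : IsGaussInt R π (z₁ - z₂) := by
  rw [sub_eq_add_neg]
  exact gaussInt_add hπ h₁ (gaussInt_neg h₂)

theorem gaussInt_pow (hπ : Prime π) {z : Y} (h : IsGaussInt R π z) (n : ℕ) :
    IsGaussInt R π (z ^ n) := by
  induction n with
  | zero => rw [pow_zero]; exact gaussInt_one hπ
  | succ n ih => rw [pow_succ]; exact gaussInt_mul hπ ih h

theorem gaussInt_sum (hπ : Prime π) {ι : Type*} (t : Finset ι) (f : ι → Y)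
    (h : ∀ i ∈ t, IsGaussInt R π (f i)) : IsGaussInt R π (∑ i ∈ t, f i) := by
  classical
  induction t using Finset.induction_on with
  | empty => rw [Finset.sum_empty]; exact gaussInt_zero hπ
  | insert a t ha ih =>
    rw [Finset.sum_insert ha]
    exact gaussInt_add hπ (h a (Finset.mem_insert_self a t))
      (ih fun i hi => h i (Finset.mem_insert_of_mem hi))

theorem gaussInt_map {Y' : Type*} [CommRing Y'] [Algebra R Y'] (f : Y →ₐ[R] Y') {z : Y}
    (h : IsGaussInt R π z) : IsGaussInt R π (f z) := by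
  obtain ⟨s, hs, i⟩ := h
  refine ⟨s, hs, ?_⟩
  rw [← map_smul]
  exact i.map f

end Closure

section Tower

variable {D F F2 : Type*} [CommRing D] [Field F] [Field F2] [Algebra D F] [Algebra F F2]
  [Algebra D F2] [IsScalarTower D F F2] {π : D}

theorem gaussInt_algebraMap_tower {z : F} (h : IsGaussInt D π z) :
    IsGaussInt D π (algebraMap F F2 z) := by
  have := gaussInt_map (IsScalarTower.toAlgHom D F F2) h
  rwa [IsScalarTower.coe_toAlgHom'] at this

theorem algebraMap_smul_tower (r : D) (z : F) :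
    algebraMap F F2 (r • z) = r • algebraMap F F2 z := by
  have := map_smul (IsScalarTower.toAlgHom D F F2) r z
  rwa [IsScalarTower.coe_toAlgHom'] at this

/-- The trace of a Gauss-integral element is Gauss-integral. -/
theorem gaussInt_trace [FiniteDimensional F F2] {z : F2} (h : IsGaussInt D π z) :
    IsGaussInt D π (Algebra.trace F F2 z) := by
  obtain ⟨s, hs, i⟩ := h
  refine ⟨s, hs, ?_⟩
  have e : s • Algebra.trace F F2 z = Algebra.trace F F2 (s • z) := by
    rw [Algebra.smul_def, Algebra.smul_def, IsScalarTower.algebraMap_apply D F F2,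
      ← Algebra.smul_def (algebraMap D F s) z, map_smul, smul_eq_mul]
  rw [e]
  exact Algebra.isIntegral_trace i

variable (s : ℕ) (sinv : D) (u : F2) (w : F)

theorem natCast_inv_eq (hsinv : (s : D) * sinv = 1) : (s : F2)⁻¹ = algebraMap D F2 sinv := by
  have h : (s : F2) * algebraMap D F2 sinv = 1 := by
    rw [← map_natCast (algebraMap D F2), ← map_mul, hsinv, map_one]
  exact (eq_inv_of_mul_eq_one_right h).symm

theorem natCast_ne_zero_of_inv (hsinv : (s : D) * sinv = 1) : (s : F2) ≠ 0 := by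
  intro h0
  have h : (s : F2) * algebraMap D F2 sinv = 1 := by
    rw [← map_natCast (algebraMap D F2), ← map_mul, hsinv, map_one]
  rw [h0, zero_mul] at h
  exact zero_ne_one h

/-- The Kummer generator is Gauss-integral. -/
theorem u_isGaussInt (hπ : Prime π) (hs : 0 < s) (huw : u ^ s = algebraMap F F2 w)
    (hw : ∃ d : F, IsGaussInt D π d ∧ w - 1 = π • d) : IsGaussInt D π u := by
  obtain ⟨d, hd, hwd⟩ := hw
  have hwG : IsGaussInt D π w := by
    have : w = 1 + π • d := by rw [← hwd]; ring
    rw [this]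
    exact gaussInt_add hπ (gaussInt_one hπ) (gaussInt_smul π hd)
  obtain ⟨t, ht, it⟩ := hwG
  refine ⟨t, ht, IsIntegral.of_pow hs ?_⟩
  have e : (t • u) ^ s = t ^ (s - 1) • algebraMap F F2 (t • w) := by
    rw [_root_.smul_pow, huw, algebraMap_smul_tower, ← mul_smul, ← pow_succ,
      Nat.sub_add_cancel hs]
  rw [e]
  exact (it.map (IsScalarTower.toAlgHom D F F2)).smul _

/-- **(K2)** The sheet idempotent `ε = (1/s) ∑ u^i` is Gauss-integral. -/
theorem eps_isGaussInt (hπ : Prime π) (hs : 0 < s) (hsinv : (s : D) * sinv = 1)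
    (huw : u ^ s = algebraMap F F2 w) (hw : ∃ d : F, IsGaussInt D π d ∧ w - 1 = π • d) :
    IsGaussInt D π (eps s u) := by
  have hu := u_isGaussInt s u w hπ hs huw hw
  unfold eps
  rw [natCast_inv_eq s sinv hsinv]
  exact gaussInt_mul hπ (gaussInt_algebraMap hπ sinv)
    (gaussInt_sum hπ _ _ fun i _ => gaussInt_pow hπ hu i)

/-- **(K2')** The sheet idempotent is idempotent modulo `π ·` (Gauss-integral). -/
theorem eps_idem_gauss (hπ : Prime π) (hs : 0 < s) (hsinv : (s : D) * sinv = 1)
    (huw : u ^ s = algebraMap F F2 w) (hw : ∃ d : F, IsGaussInt D π d ∧ w - 1 = π • d) :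
    ∃ d : F2, IsGaussInt D π d ∧ eps s u ^ 2 - eps s u = π • d := by
  have hu := u_isGaussInt s u w hπ hs huw hw
  obtain ⟨d, hd, hwd⟩ := hw
  have hsF2 := natCast_ne_zero_of_inv (F2 := F2) s sinv hsinv
  refine ⟨algebraMap F F2 d * ((s : F2)⁻¹ ^ 2 * tee s u), ?_, ?_⟩
  · refine gaussInt_mul hπ (gaussInt_algebraMap_tower hd) (gaussInt_mul hπ ?_ ?_)
    · rw [natCast_inv_eq s sinv hsinv]
      exact gaussInt_pow hπ (gaussInt_algebraMap hπ sinv) 2
    · unfold tee
      exact gaussInt_sum hπ _ _ fun i _ => gaussInt_sum hπ _ _ fun j _ => gaussInt_pow hπ hu j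
  · rw [eps_sq_sub s hsF2 u, huw, ← map_one (algebraMap F F2), ← map_sub, hwd,
      algebraMap_smul_tower, smul_mul_assoc]

/-- **(K3) No constant**, Gauss-integrality currency: the sheet idempotent of `F2 = F(u)`,
`u ^ s = w`, is not congruent to an element of `F` modulo `π ·` (Gauss-integral elements),
provided `π` is not a unit of the Gauss-integral elements of `F`. -/
theorem no_constant_gauss (hπ : Prime π) (hπF : ∀ g : F, IsGaussInt D π g → π • g ≠ 1)
    (hs : 2 ≤ s) (hsinv : (s : D) * sinv = 1)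
    (huw : u ^ s = algebraMap F F2 w)
    (hirr : Irreducible (X ^ s - C w : F[X])) (hdeg : Module.finrank F F2 = s)
    (hw : ∃ d : F, IsGaussInt D π d ∧ w - 1 = π • d)
    (c : F) (γ : F2) (hγ : IsGaussInt D π γ)
    (h : eps s u - algebraMap F F2 c = π • γ) : False := by
  have hs0 : s ≠ 0 := by omega
  have hspos : 0 < s := by omega
  have hu := u_isGaussInt s u w hπ hspos huw hw
  obtain ⟨ω, hω, hwω⟩ := hw
  have hsF2 := natCast_ne_zero_of_inv (F2 := F2) s sinv hsinv
  have hsF : (s : F) ≠ 0 := by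
    intro h0
    apply hsF2
    rw [← map_natCast (algebraMap F F2), h0, map_zero]
  have hsinvF : algebraMap D F sinv * (s : F) = 1 := by
    rw [← map_natCast (algebraMap D F), ← map_mul, mul_comm, hsinv, map_one]
  have hb := powBasis_apply s u w hs0 huw hirr hdeg
  set b := powBasis s u w hs0 huw hirr hdeg
  have : FiniteDimensional F F2 := Module.finite_of_finrank_pos (by rw [hdeg]; exact hspos)
  have trace_smul : ∀ (a : F) (z : F2), Algebra.trace F F2 (algebraMap F F2 a * z) =
      a * Algebra.trace F F2 z := by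
    intro a z
    rw [← Algebra.smul_def, map_smul, smul_eq_mul]
  have trace_smulD : ∀ (a : D) (z : F2), Algebra.trace F F2 (a • z) =
      a • Algebra.trace F F2 z := by
    intro a z
    rw [Algebra.smul_def, Algebra.smul_def, IsScalarTower.algebraMap_apply D F F2, trace_smul]
  -- step 1 : `(u - 1) * c ∈ π • (Gauss-integral)`
  set δ : F2 := algebraMap D F2 sinv * algebraMap F F2 ω - (u - 1) * γ with hδdef
  have hδ : IsGaussInt D π δ :=
    gaussInt_sub hπ (gaussInt_mul hπ (gaussInt_algebraMap hπ sinv) (gaussInt_algebraMap_tower hω))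
      (gaussInt_mul hπ (gaussInt_sub hπ hu (gaussInt_one hπ)) hγ)
  have e3 : u ^ s - 1 = π • algebraMap F F2 ω := by
    rw [huw, ← map_one (algebraMap F F2), ← map_sub, hwω, algebraMap_smul_tower]
  have h1 : (u - 1) * algebraMap F F2 c = π • δ := by
    have e1 : (u - 1) * eps s u = (s : F2)⁻¹ * (u ^ s - 1) := sub_one_mul_eps s u
    have e0 : algebraMap F F2 c = eps s u - π • γ := by rw [← h]; ring
    rw [e0, mul_sub, e1, e3, natCast_inv_eq s sinv hsinv, hδdef, smul_sub, mul_smul_comm,
      mul_smul_comm]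
  have t1 : Algebra.trace F F2 ((u - 1) * algebraMap F F2 c) = -(s : F) * c := by
    rw [mul_comm, trace_smul, map_sub]
    have hu1 : Algebra.trace F F2 u = 0 := by
      have := trace_pow b hb huw 1 (by omega)
      rw [pow_one] at this
      rw [this, if_neg one_ne_zero]
    have h11 : Algebra.trace F F2 (1 : F2) = (s : F) := by
      have := trace_pow b hb huw 0 hspos
      rw [pow_zero] at this
      rw [this, if_pos rfl]
    rw [hu1, h11]
    ring
  have hd₁ := gaussInt_trace (F := F) hδ
  set d₁ : F := Algebra.trace F F2 δ with hd₁def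
  have hc : c = π • (-(algebraMap D F sinv * d₁)) := by
    have h2 : -(s : F) * c = π • d₁ := by
      rw [← t1, h1, trace_smulD]
    calc c = algebraMap D F sinv * (s : F) * c := by rw [hsinvF, one_mul]
      _ = -(algebraMap D F sinv * (-(s : F) * c)) := by ring
      _ = -(algebraMap D F sinv * (π • d₁)) := by rw [h2]
      _ = π • (-(algebraMap D F sinv * d₁)) := by rw [mul_smul_comm, smul_neg]
  -- step 2 : `eps ∈ π • (Gauss-integral)`
  set γ₂ : F2 := algebraMap F F2 (-(algebraMap D F sinv * d₁)) + γ with hγ₂def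
  have hγ₂ : IsGaussInt D π γ₂ :=
    gaussInt_add hπ (gaussInt_algebraMap_tower
      (gaussInt_neg (gaussInt_mul hπ (gaussInt_algebraMap hπ sinv) hd₁))) hγ
  have h2 : eps s u = π • γ₂ := by
    have e0 : eps s u = algebraMap F F2 c + π • γ := by rw [← h]; ring
    rw [e0, hc, algebraMap_smul_tower, hγ₂def, smul_add]
  have h3 : (1 : F) = π • Algebra.trace F F2 γ₂ := by
    rw [← trace_eps b hb huw hspos hsF, h2, trace_smulD]
  exact hπF _ (gaussInt_trace (F := F) hγ₂) h3.symm

end Tower

section NotUnit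

variable {D F : Type*} [CommRing D] [IsDomain D] [IsIntegrallyClosed D] [Field F] [Algebra D F]

/-- For an integrally closed domain `D` embedded in a field `F`, a prime element `π` is not a
unit of the ring of Gauss-integral elements of `F`. -/
theorem not_isGaussInt_inv (hinj : Function.Injective (algebraMap D F)) {π : D} (hπ : Prime π)
    (g : F) (hg : IsGaussInt D π g) : π • g ≠ 1 := by
  intro h1
  obtain ⟨t, ht, it⟩ := hg
  apply ht
  have : FaithfulSMul D F := (faithfulSMul_iff_algebraMap_injective D F).mpr hinj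
  let φ : FractionRing D →ₐ[D] F := IsFractionRing.liftAlgHom (g := Algebra.ofId D F) hinj
  have hπ0 : algebraMap D (FractionRing D) π ≠ 0 := by
    rw [Ne, IsFractionRing.to_map_eq_zero_iff]; exact hπ.ne_zero
  set q : FractionRing D := algebraMap D (FractionRing D) t / algebraMap D (FractionRing D) π
    with hq
  have hπF0 : algebraMap D F π ≠ 0 := by
    rw [Ne, map_eq_zero_iff _ hinj]; exact hπ.ne_zero
  have hφq : φ q = t • g := by
    have hg' : g = (algebraMap D F π)⁻¹ := by
      rw [Algebra.smul_def] at h1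
      exact eq_inv_of_mul_eq_one_right h1
    rw [hq, map_div₀, AlgHom.commutes, AlgHom.commutes, hg', Algebra.smul_def, div_eq_mul_inv]
  have hqint : IsIntegral D q := by
    rw [← hφq] at it
    exact (isIntegral_algHom_iff φ φ.injective).mp it
  obtain ⟨a, ha⟩ := IsIntegrallyClosed.isIntegral_iff.mp hqint
  refine ⟨a, ?_⟩
  apply IsFractionRing.injective D (FractionRing D)
  rw [map_mul, ha, hq, mul_div_cancel₀ _ hπ0]

end NotUnit

end Fermat.Agent.S18.KummerGauss
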