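/-
S18: the Kummer datum and the sheet idempotent in the currency of `Contracts`.

For the data `h : Contracts.KData ℓ ι W N s Z1 Z2`, a uniformiser `π` of `W` and ANY field
`F2` over `F = S24.FF L N`:

* `isGaussJ_of_mem` : an element of `F` with integral `q`-expansion is Gauss-integral in `F2`;
* `isGaussJ_w`, `isGaussJ_w_inv`, `exists_w_sub_one` : the Kummer datum `w` is a Gauss unit
  congruent to `1` modulo `π`;
* `isGaussJ_eps`, `exists_eps_idem` : the sheet idempotent `eps s u` (`u ^ s = w`) is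
  Gauss-integral and idempotent modulo `π`;
* the dictionary between `Contracts.IsGaussJ` and `IsGaussInt W[X] (C π)`.
-/
import Mathlib
import Fermat.Agent.S18.Contracts
import Fermat.Agent.S18.GaussVal
import Fermat.Agent.S18.KummerGauss

set_option autoImplicit false
set_option linter.style.haveILetI false
set_option linter.unusedSectionVars false

namespace Fermat.Agent.S18.ContractsEps

open ModularCurve AlgebraicCurve Polynomial
open Fermat.Agent.S18.Contracts

local notation "Qb" => AlgebraicClosure ℚ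

/-! ### Generic transfer of Gauss integrality to a chart ring -/

/-- Gauss integrality over `D` with respect to `π` implies Gauss integrality over an extension
`R0` of `D` with respect to the image of `π`, provided `π R0 ∩ D = π D`. -/
theorem gaussInt_chart {D R0 Z : Type*} [CommRing D] [CommRing R0] [CommRing Z] [Algebra D R0]
    [Algebra D Z] [Algebra R0 Z] [IsScalarTower D R0 Z] (π : D)
    (hcompat : ∀ a : D, algebraMap D R0 π ∣ algebraMap D R0 a → π ∣ a) {z : Z}
    (hz : IsGaussInt D π z) : IsGaussInt R0 (algebraMap D R0 π) z := by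
  obtain ⟨t, ht, hi⟩ := hz
  refine ⟨algebraMap D R0 t, fun h => ht (hcompat t h), ?_⟩
  rw [algebraMap_smul]
  exact hi.tower_top

section Vocab

variable {L : Type} [Field L] [Algebra ℚ L] (W : ValuationSubring L) (N : ℕ) [NeZero N]
  (F2 : Type) [Field F2] [Algebra (S24.FF L N) F2]

/-- The evaluation at `j` in `F2` factors through the evaluation at `j` in `F`. -/
theorem evAt_jF2_eq_comp :
    evAt W N (jF2 L N F2) = (algebraMap (S24.FF L N) F2).comp (Gauss.evF W N) := by
  apply Polynomial.ringHom_ext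
  · intro a
    simp only [evAt, toF2, coe_eval₂RingHom, eval₂_C, RingHom.comp_apply, Gauss.evF_C]
    rfl
  · simp only [evAt, jF2, coe_eval₂RingHom, eval₂_X, RingHom.comp_apply, Gauss.evF_X]

theorem evAt_jF2 (p : (↥W)[X]) :
    evAt W N (jF2 L N F2) p = algebraMap (S24.FF L N) F2 (Gauss.evF W N p) := by
  rw [evAt_jF2_eq_comp]; rfl

theorem evAt_C (x : F2) (a : W) : evAt W N x (C a) = toF2 W N F2 a := by
  simp only [evAt, coe_eval₂RingHom, eval₂_C]

theorem evAt_X (x : F2) : evAt W N x X = x := by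
  simp only [evAt, coe_eval₂RingHom, eval₂_X]

/-- Integrality over `W[j]` is preserved from `F` to `F2`. -/
theorem isIntegralElem_evAt_of_evF {x : S24.FF L N} (hx : (Gauss.evF W N).IsIntegralElem x) :
    (evAt W N (jF2 L N F2)).IsIntegralElem (algebraMap (S24.FF L N) F2 x) := by
  obtain ⟨p, hp, h⟩ := hx
  refine ⟨p, hp, ?_⟩
  rw [evAt_jF2_eq_comp, ← Polynomial.hom_eval₂, h, map_zero]

/-- `Contracts.IsGaussJ` is `IsGaussInt W[X] (C π)` for the algebra structure `X ↦ j`. -/
theorem isGaussJ_iff (π : W) (z : F2) :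
    IsGaussJ W N π z ↔
      @IsGaussInt (↥W)[X] F2 _ _ (evAt W N (jF2 L N F2)).toAlgebra (C π) z := Iff.rfl

/-- Integrality over `W[j]` in the two spellings. -/
theorem isIntegralElem_iff (z : F2) :
    (evAt W N (jF2 L N F2)).IsIntegralElem z ↔
      @IsIntegral (↥W)[X] F2 _ _ (evAt W N (jF2 L N F2)).toAlgebra z := Iff.rfl

end Vocab

section Data

variable {ℓ : ℕ} {L : Type} [Field L] [Algebra ℚ L] {ι : L →+* Qb} {W : ValuationSubring L}
  {N : ℕ} [NeZero N] {s : ℕ} {Z1 Z2 : LaurentSeries ↥W}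

/-- The uniformiser is a prime element of `W[X]`. -/
theorem prime_C (h : KData ℓ ι W N s Z1 Z2) {π : W} (hπ : Irreducible π) :
    Prime (C π : (↥W)[X]) := by
  haveI := h.dvr
  exact Polynomial.prime_C_iff.mpr hπ.prime

/-- `s` is a unit of `W`. -/
theorem isUnit_natCast (h : KData ℓ ι W N s Z1 Z2) : IsUnit ((s : ℕ) : W) := by
  haveI := h.dvr
  haveI := h.char
  rw [← IsLocalRing.residue_ne_zero_iff_isUnit, map_natCast]
  intro h0
  have h1 := (CharP.cast_eq_zero_iff (IsLocalRing.ResidueField W) ℓ s).mp h0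
  exact h.ne ((Nat.prime_dvd_prime_iff_eq h.prime_l h.prime_s).mp h1).symm

/-- `s` is invertible in `W[X]`. -/
theorem exists_natCast_inv (h : KData ℓ ι W N s Z1 Z2) :
    ∃ sinv : (↥W)[X], ((s : ℕ) : (↥W)[X]) * sinv = 1 := by
  obtain ⟨v, hv⟩ := isUnit_natCast h
  refine ⟨C ((v⁻¹ : Wˣ) : W), ?_⟩
  rw [← Polynomial.C_eq_natCast, ← C_mul, ← hv, Units.mul_inv, C_1]

variable (F2 : Type) [Field F2] [Algebra (S24.FF L N) F2]

/-- **(S)** An element of `F` with integral `q`-expansion is Gauss-integral in `F2`. -/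
theorem isGaussJ_of_mem (h : KData ℓ ι W N s Z1 Z2) {π : W} (hπ : Irreducible π)
    (x : S24.FF L N) (hx : (x : LaurentSeries L) ∈ Gauss.contentRing W) :
    IsGaussJ W N π (algebraMap (S24.FF L N) F2 x) := by
  haveI := h.dvr
  haveI := h.closed
  haveI := h.char
  haveI : Fact ℓ.Prime := ⟨h.prime_l⟩
  obtain ⟨S, hS, hi⟩ := Gauss.isGaussInt_of_mem W N ℓ h.not_dvd x hx
  refine ⟨S, fun hdvd => hS ((Gauss.map_residue_eq_zero_iff_C_dvd W hπ S).mpr hdvd), ?_⟩
  rw [evAt_jF2, ← map_mul]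
  exact isIntegralElem_evAt_of_evF W N F2 hi

theorem toK_Z2_ne_zero (h : KData ℓ ι W N s Z1 Z2) : Gauss.toK W Z2 ≠ 0 := by
  have h1 : Gauss.toK W Z1 = Gauss.toK W Z2 := h.red
  have h2 : Gauss.toK W Z1 ≠ 0 := h.red_ne
  rwa [h1] at h2

theorem coe_w (h : KData ℓ ι W N s Z1 Z2) :
    ((h.w : S24.FF L N) : LaurentSeries L) = Gauss.toL W Z1 / Gauss.toL W Z2 := rfl

/-- The Kummer datum has integral `q`-expansion. -/
theorem w_mem (h : KData ℓ ι W N s Z1 Z2) :
    ((h.w : S24.FF L N) : LaurentSeries L) ∈ Gauss.contentRing W := by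
  rw [coe_w]
  exact Gauss.quot_mem_contentRing W Z1 Z2 (toK_Z2_ne_zero h)

/-- **(G)** The Kummer datum is Gauss-integral. -/
theorem isGaussJ_w (h : KData ℓ ι W N s Z1 Z2) {π : W} (hπ : Irreducible π) :
    IsGaussJ W N π (algebraMap (S24.FF L N) F2 h.w) :=
  isGaussJ_of_mem F2 h hπ h.w (w_mem h)

/-- The inverse of the Kummer datum has integral `q`-expansion. -/
theorem w_inv_mem (h : KData ℓ ι W N s Z1 Z2) :
    (((h.w)⁻¹ : S24.FF L N) : LaurentSeries L) ∈ Gauss.contentRing W := by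
  have hZ2 := toK_Z2_ne_zero h
  have hred : Gauss.red W ⟨((h.w : S24.FF L N) : LaurentSeries L), w_mem h⟩ ≠ 0 := by
    have e := Gauss.red_quot W Z1 Z2 hZ2
    have h1 : Gauss.toK W Z1 = Gauss.toK W Z2 := h.red
    rw [h1, div_self hZ2] at e
    have e' : Gauss.red W ⟨((h.w : S24.FF L N) : LaurentSeries L), w_mem h⟩ = 1 := e
    rw [e']
    exact one_ne_zero
  exact Gauss.inv_mem_contentRing W (w_mem h) hred

/-- **(G)** The inverse of the Kummer datum is Gauss-integral. -/
theorem isGaussJ_w_inv (h : KData ℓ ι W N s Z1 Z2) {π : W} (hπ : Irreducible π) :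
    IsGaussJ W N π (algebraMap (S24.FF L N) F2 h.w)⁻¹ := by
  rw [← map_inv₀]
  exact isGaussJ_of_mem F2 h hπ _ (w_inv_mem h)

/-- **(G)** `w - 1 = π · ω` in `F` with `ω` of integral `q`-expansion. -/
theorem exists_w_sub_one_mem (h : KData ℓ ι W N s Z1 Z2) {π : W} (hπ : Irreducible π) :
    ∃ ω : S24.FF L N, (ω : LaurentSeries L) ∈ Gauss.contentRing W ∧
      h.w - 1 = algebraMap L (S24.FF L N) ((π : W) : L) * ω := by
  haveI := h.dvr
  exact Gauss.exists_sub_one_eq W N hπ Z1 Z2 h.g1 h.g2 h.red h.red_ne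

/-- **(G)** `w ≡ 1` modulo `π` times a Gauss-integral element, in `F2`. -/
theorem exists_w_sub_one (h : KData ℓ ι W N s Z1 Z2) {π : W} (hπ : Irreducible π) :
    ∃ d : F2, IsGaussJ W N π d ∧
      algebraMap (S24.FF L N) F2 h.w - 1 = toF2 W N F2 π * d := by
  obtain ⟨ω, hω, e⟩ := exists_w_sub_one_mem h hπ
  refine ⟨algebraMap (S24.FF L N) F2 ω, isGaussJ_of_mem F2 h hπ ω hω, ?_⟩
  rw [← map_one (algebraMap (S24.FF L N) F2), ← map_sub, e, map_mul]
  rfl

/-! ### The `W[X]`-algebra structures `X ↦ j` on `F` and `F2` -/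

/-- With `W[X]` acting on `F` and on `F2` through `X ↦ j`, the tower `W[X] → F → F2` is a
scalar tower. -/
theorem isScalarTower_evF_evAt (W : ValuationSubring L) (N : ℕ) [NeZero N] (F2 : Type)
    [Field F2] [Algebra (S24.FF L N) F2] :
    letI : Algebra (↥W)[X] (S24.FF L N) := (Gauss.evF W N).toAlgebra
    letI : Algebra (↥W)[X] F2 := (evAt W N (jF2 L N F2)).toAlgebra
    IsScalarTower (↥W)[X] (S24.FF L N) F2 := by
  letI : Algebra (↥W)[X] (S24.FF L N) := (Gauss.evF W N).toAlgebra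
  letI : Algebra (↥W)[X] F2 := (evAt W N (jF2 L N F2)).toAlgebra
  exact IsScalarTower.of_algebraMap_eq (fun p => evAt_jF2 W N F2 p)

/-- **(S)**, `F`-level, instance currency: an element of `F` with integral `q`-expansion is
Gauss-integral over `W[X]` acting by `X ↦ j`. -/
theorem isGaussInt_of_mem (h : KData ℓ ι W N s Z1 Z2) {π : W} (hπ : Irreducible π)
    (x : S24.FF L N) (hx : (x : LaurentSeries L) ∈ Gauss.contentRing W) :
    letI : Algebra (↥W)[X] (S24.FF L N) := (Gauss.evF W N).toAlgebra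
    IsGaussInt (↥W)[X] (C π) x := by
  letI : Algebra (↥W)[X] (S24.FF L N) := (Gauss.evF W N).toAlgebra
  haveI := h.dvr
  haveI := h.closed
  haveI := h.char
  haveI : Fact ℓ.Prime := ⟨h.prime_l⟩
  obtain ⟨S, hS, hi⟩ := Gauss.isGaussInt_of_mem W N ℓ h.not_dvd x hx
  exact ⟨S, fun hdvd => hS ((Gauss.map_residue_eq_zero_iff_C_dvd W hπ S).mpr hdvd), hi⟩

/-- **(G)**, `F`-level, instance currency: `w - 1 = C π • d` with `d` Gauss-integral
(the hypothesis `hw` of `KummerGauss` and of `KummerDescentGauss`). -/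
theorem exists_w_sub_one_smul (h : KData ℓ ι W N s Z1 Z2) {π : W} (hπ : Irreducible π) :
    letI : Algebra (↥W)[X] (S24.FF L N) := (Gauss.evF W N).toAlgebra
    ∃ d : S24.FF L N, IsGaussInt (↥W)[X] (C π) d ∧ h.w - 1 = (C π : (↥W)[X]) • d := by
  letI : Algebra (↥W)[X] (S24.FF L N) := (Gauss.evF W N).toAlgebra
  obtain ⟨ω, hω, e⟩ := exists_w_sub_one_mem h hπ
  refine ⟨ω, isGaussInt_of_mem h hπ ω hω, ?_⟩
  rw [e]
  show _ = Gauss.evF W N (C π) * ω
  rw [Gauss.evF_C]

/-- **(ε)**, instance currency: the sheet idempotent is Gauss-integral over `W[X]` acting on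
`F2` by `X ↦ j`, and idempotent modulo `C π`. -/
theorem eps_gaussInt (h : KData ℓ ι W N s Z1 Z2) {π : W} (hπ : Irreducible π) (u : F2)
    (hu : u ^ s = algebraMap (S24.FF L N) F2 h.w) :
    letI : Algebra (↥W)[X] F2 := (evAt W N (jF2 L N F2)).toAlgebra
    IsGaussInt (↥W)[X] (C π) (Kummer.eps s u) ∧
      ∃ d : F2, IsGaussInt (↥W)[X] (C π) d ∧
        Kummer.eps s u ^ 2 - Kummer.eps s u = (C π : (↥W)[X]) • d := by
  letI : Algebra (↥W)[X] (S24.FF L N) := (Gauss.evF W N).toAlgebra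
  letI : Algebra (↥W)[X] F2 := (evAt W N (jF2 L N F2)).toAlgebra
  haveI : IsScalarTower (↥W)[X] (S24.FF L N) F2 := isScalarTower_evF_evAt W N F2
  obtain ⟨sinv, hsinv⟩ := exists_natCast_inv h
  have hw := exists_w_sub_one_smul h hπ
  exact ⟨KummerGauss.eps_isGaussInt s sinv u h.w (prime_C h hπ) h.prime_s.pos hsinv hu hw,
    KummerGauss.eps_idem_gauss s sinv u h.w (prime_C h hπ) h.prime_s.pos hsinv hu hw⟩

/-- **(ε)** The sheet idempotent is Gauss-integral. -/
theorem isGaussJ_eps (h : KData ℓ ι W N s Z1 Z2) {π : W} (hπ : Irreducible π) (u : F2)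
    (hu : u ^ s = algebraMap (S24.FF L N) F2 h.w) : IsGaussJ W N π (Kummer.eps s u) :=
  (eps_gaussInt F2 h hπ u hu).1

/-- **(ε)** The sheet idempotent is idempotent modulo `π` times a Gauss-integral element. -/
theorem exists_eps_idem (h : KData ℓ ι W N s Z1 Z2) {π : W} (hπ : Irreducible π) (u : F2)
    (hu : u ^ s = algebraMap (S24.FF L N) F2 h.w) :
    ∃ d : F2, IsGaussJ W N π d ∧
      Kummer.eps s u ^ 2 - Kummer.eps s u = toF2 W N F2 π * d := by
  obtain ⟨d, hd, e⟩ := (eps_gaussInt F2 h hπ u hu).2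
  refine ⟨d, hd, ?_⟩
  rw [e]
  show evAt W N (jF2 L N F2) (C π) * d = _
  rw [evAt_C]

/-- **(u)** The Kummer generator is Gauss-integral. -/
theorem isGaussJ_u (h : KData ℓ ι W N s Z1 Z2) {π : W} (hπ : Irreducible π) (u : F2)
    (hu : u ^ s = algebraMap (S24.FF L N) F2 h.w) : IsGaussJ W N π u := by
  letI : Algebra (↥W)[X] (S24.FF L N) := (Gauss.evF W N).toAlgebra
  letI : Algebra (↥W)[X] F2 := (evAt W N (jF2 L N F2)).toAlgebra
  haveI : IsScalarTower (↥W)[X] (S24.FF L N) F2 := isScalarTower_evF_evAt W N F2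
  exact KummerGauss.u_isGaussInt s u h.w (prime_C h hπ) h.prime_s.pos hu
    (exists_w_sub_one_smul h hπ)

end Data

end Fermat.Agent.S18.ContractsEps
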