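import Mathlib

set_option autoImplicit false

namespace Fermat.Agent.S18.AwayPoly

open Polynomial

set_option linter.unusedSectionVars false
set_option linter.style.haveILetI false

variable {W : Type*} [CommRing W] [IsDomain W]

theorem powers_le (f : W[X]) (hf : f ≠ 0) : Submonoid.powers f ≤ nonZeroDivisors W[X] :=
  Submonoid.powers_le.mpr (mem_nonZeroDivisors_of_ne_zero hf)

theorem away_isDomain (f : W[X]) (hf : f ≠ 0) : IsDomain (Localization.Away f) :=
  IsLocalization.isDomain_of_le_nonZeroDivisors _ (powers_le f hf)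

theorem away_isNoetherianRing [IsNoetherianRing W] (f : W[X]) :
    IsNoetherianRing (Localization.Away f) :=
  IsLocalization.isNoetherianRing (Submonoid.powers f) _ inferInstance

theorem away_isIntegrallyClosed [IsIntegrallyClosed W] (f : W[X]) (hf : f ≠ 0) :
    IsIntegrallyClosed (Localization.Away f) :=
  isIntegrallyClosed_of_isLocalization _ (Submonoid.powers f) (powers_le f hf)

theorem away_algebraMap_injective (f : W[X]) (hf : f ≠ 0) :
    Function.Injective (algebraMap W[X] (Localization.Away f)) :=
  IsLocalization.injective _ (powers_le f hf)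

theorem away_algebraMap_base (f : W[X]) (a : W) :
    algebraMap W (Localization.Away f) a = algebraMap W[X] (Localization.Away f) (C a) := by
  rw [IsScalarTower.algebraMap_apply W W[X] (Localization.Away f)]
  rfl

/-- `(p) R₀ ∩ W[X] = p W[X]` for a prime `p` of `W` not dividing `f`. -/
theorem dvd_of_algebraMap_dvd (f : W[X]) {p : W} (hp : Prime p) (hf : ¬ C p ∣ f) (P : W[X])
    (h : algebraMap W[X] (Localization.Away f) (C p) ∣ algebraMap W[X] (Localization.Away f) P) :
    C p ∣ P := by
  obtain ⟨t, ht⟩ := h
  obtain ⟨n, a, ha⟩ := IsLocalization.Away.surj f t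
  have h1 : algebraMap W[X] (Localization.Away f) (P * f ^ n) =
      algebraMap W[X] (Localization.Away f) (C p * a) := by
    rw [map_mul, map_mul, map_pow, ht, ← ha]; ring
  have hf0 : f ≠ 0 := fun h0 => hf (h0 ▸ dvd_zero _)
  have h2 := away_algebraMap_injective f hf0 h1
  have hpr : Prime (C p) := Polynomial.prime_C_iff.mpr hp
  have : C p ∣ P * f ^ n := ⟨a, h2⟩
  rcases hpr.dvd_or_dvd this with h3 | h3
  · exact h3
  · exact absurd (hpr.dvd_of_dvd_pow h3) hf

theorem away_span_isPrime (f : W[X]) {p : W} (hp : Prime p) (hf : ¬ C p ∣ f) :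
    (Ideal.span {algebraMap W[X] (Localization.Away f) (C p)}).IsPrime := by
  have hpr : Prime (C p) := Polynomial.prime_C_iff.mpr hp
  have hI : (Ideal.span {C p} : Ideal W[X]).IsPrime :=
    (Ideal.span_singleton_prime hpr.ne_zero).mpr hpr
  have hd : Disjoint (Submonoid.powers f : Set W[X]) (Ideal.span {C p} : Ideal W[X]) := by
    rw [Set.disjoint_left]
    rintro _ ⟨n, rfl⟩ hmem
    exact hf (hpr.dvd_of_dvd_pow (Ideal.mem_span_singleton.mp hmem))
  have := IsLocalization.isPrime_of_isPrime_disjoint (Submonoid.powers f) (Localization.Away f) _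
    hI hd
  rwa [Ideal.map_span, Set.image_singleton] at this

theorem away_quotient_isPrincipalIdealRing (f : W[X]) {p : W}
    (hmax : (Ideal.span {p}).IsMaximal) :
    IsPrincipalIdealRing
      (Localization.Away f ⧸ Ideal.span {algebraMap W[X] (Localization.Away f) (C p)}) := by
  classical
  letI : Field (W ⧸ Ideal.span {p}) := Ideal.Quotient.field _
  set I0 : Ideal (Localization.Away f) :=
    Ideal.span {algebraMap W[X] (Localization.Away f) (C p)} with hI0
  let φ : W[X] →+* (W ⧸ Ideal.span {p})[X] := Polynomial.mapRingHom (Ideal.Quotient.mk _)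
  have hφ : Function.Surjective φ :=
    Polynomial.map_surjective _ Ideal.Quotient.mk_surjective
  refine ⟨fun J => ?_⟩
  let J1 : Ideal W[X] :=
    (J.comap (Ideal.Quotient.mk I0)).comap (algebraMap W[X] (Localization.Away f))
  obtain ⟨gbar, hg⟩ := (IsPrincipalIdealRing.principal (J1.map φ)).principal
  have hgmem : gbar ∈ J1.map φ := by rw [hg]; exact Submodule.mem_span_singleton_self _
  obtain ⟨g, hgJ1, hgφ⟩ := (Ideal.mem_map_iff_of_surjective φ hφ).mp hgmem
  refine ⟨⟨Ideal.Quotient.mk I0 (algebraMap W[X] (Localization.Away f) g), ?_⟩⟩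
  apply le_antisymm
  · intro t ht
    obtain ⟨t0, rfl⟩ := Ideal.Quotient.mk_surjective t
    obtain ⟨n, a, ha⟩ := IsLocalization.Away.surj f t0
    have haJ1 : a ∈ J1 := by
      show Ideal.Quotient.mk I0 (algebraMap W[X] (Localization.Away f) a) ∈ J
      rw [← ha, map_mul]; exact J.mul_mem_right _ ht
    have h1 : φ a ∈ J1.map φ := Ideal.mem_map_of_mem φ haJ1
    rw [hg] at h1
    obtain ⟨cbar, hc⟩ := Submodule.mem_span_singleton.mp h1
    obtain ⟨c, rfl⟩ := hφ cbar
    have hker : a - c * g ∈ RingHom.ker φ := by
      rw [RingHom.mem_ker, map_sub, map_mul, hgφ, ← hc, smul_eq_mul, sub_self]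
    have hdvd : C p ∣ a - c * g := by
      have h2 : RingHom.ker φ = (Ideal.span {C p} : Ideal W[X]) := by
        show RingHom.ker (Polynomial.mapRingHom (Ideal.Quotient.mk (Ideal.span {p}))) = _
        rw [Polynomial.ker_mapRingHom, Ideal.mk_ker, Ideal.map_span, Set.image_singleton]
      rw [h2] at hker
      exact Ideal.mem_span_singleton.mp hker
    obtain ⟨d, hd⟩ := hdvd
    have hunit : IsUnit (algebraMap W[X] (Localization.Away f) f ^ n) :=
      (IsLocalization.Away.algebraMap_isUnit f).pow n
    obtain ⟨u, hu⟩ := hunit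
    have ht0 : t0 = algebraMap W[X] (Localization.Away f) a * (↑u⁻¹ : Localization.Away f) := by
      rw [← ha, ← hu, mul_assoc, Units.mul_inv, mul_one]
    have ha' : a = c * g + C p * d := by linear_combination hd
    have hz : Ideal.Quotient.mk I0 (algebraMap W[X] (Localization.Away f) (C p)) = 0 := by
      rw [Ideal.Quotient.eq_zero_iff_mem]
      exact Ideal.subset_span rfl
    refine Submodule.mem_span_singleton.mpr
      ⟨Ideal.Quotient.mk I0 (algebraMap W[X] (Localization.Away f) c * (↑u⁻¹ : Localization.Away f)),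
        ?_⟩
    rw [ht0, ha', smul_eq_mul]
    simp only [map_mul, map_add, hz, zero_mul, add_zero]
    ring
  · rw [Submodule.span_le, Set.singleton_subset_iff]
    exact hgJ1

theorem away_quotient_isDedekindDomain (f : W[X]) {p : W} (hp : Prime p)
    (hmax : (Ideal.span {p}).IsMaximal) (hf : ¬ C p ∣ f) :
    IsDedekindDomain
      (Localization.Away f ⧸ Ideal.span {algebraMap W[X] (Localization.Away f) (C p)}) := by
  haveI := away_span_isPrime f hp hf
  haveI := away_quotient_isPrincipalIdealRing f hmax
  infer_instance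

/-- The `W`-algebra map `W[X][1/f] → Y` sending `X` to `x0`. -/
noncomputable def awayLift (f : W[X]) {Y : Type*} [Field Y] [Algebra W Y] (x0 : Y)
    (h : aeval x0 f ≠ 0) : Localization.Away f →ₐ[W] Y :=
  IsLocalization.Away.liftAlgHom (A := W) (R := W[X]) f (f := aeval x0) h.isUnit

theorem awayLift_algebraMap (f : W[X]) {Y : Type*} [Field Y] [Algebra W Y] (x0 : Y)
    (h : aeval x0 f ≠ 0) (P : W[X]) :
    awayLift f x0 h (algebraMap W[X] (Localization.Away f) P) = aeval x0 P := by
  simp [awayLift]

theorem awayLift_injective (f : W[X]) {Y : Type*} [Field Y] [Algebra W Y] (x0 : Y)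
    (h : aeval x0 f ≠ 0) (htr : Transcendental W x0) :
    Function.Injective (awayLift f x0 h) := by
  have hf0 : f ≠ 0 := fun h0 => h (by rw [h0, map_zero])
  have hinj : Function.Injective (aeval x0 : W[X] → Y) := transcendental_iff_injective.mp htr
  rw [awayLift, IsLocalization.Away.coe_liftAlgHom]
  unfold IsLocalization.Away.lift
  rw [IsLocalization.lift_injective_iff]
  intro a b
  constructor
  · intro hab; rw [away_algebraMap_injective f hf0 hab]
  · intro hab
    have : a = b := hinj hab
    rw [this]

end Fermat.Agent.S18.AwayPoly
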