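import Mathlib
import Fermat.Agent.S18.AwayPoly

/-!
# S18: chart basics (the generic fibre of a chart `W[X][1/f]`)

`W` is the base ring (a discrete valuation ring with uniformiser `π` in the application), `L` its
fraction field, `R0 = W[X][1/f]` a chart ring and `BM = L[X][1/g]`, `g = f.map`, its generic fibre.

* `awayBC`, `algAwayBC`: the base change map `R0 → BM` and the induced algebra structure
  (a reducible def, to be installed with `letI`).
* `isLocalization_away_of_irreducible`: `L = W[1/π]` for a discrete valuation ring.
* `isLocalization_awayBC`: `BM = R0[1/π]`.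
* `away_field_isDedekindDomain`: `BM` is a Dedekind domain.
* `awayToFrac`, `algAwayFrac`, `isScalarTower_awayFrac`, `isFractionRing_awayFrac`: for any domain
  `R`, `A = R[1/π]` and `K = Frac R`: the map `A → K`, and `K = Frac A`.
* `awayLift_awayBC`: compatibility of the lifts of `R0` and `BM` to a field.
-/

set_option autoImplicit false
set_option linter.style.haveILetI false
set_option linter.unusedSectionVars false

namespace Fermat.Agent.S18.ChartBasics

open Polynomial

section BaseChange

variable {W L : Type*} [CommRing W] [Field L] [Algebra W L]

/-- The polynomial-level base change `W[X] → L[X][1/g]`. -/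
noncomputable def polyBC (g : L[X]) : W[X] →ₐ[W] Localization.Away g :=
  (IsScalarTower.toAlgHom W L[X] (Localization.Away g)).comp
    (Polynomial.mapAlgHom (Algebra.ofId W L))

theorem polyBC_apply (g : L[X]) (P : W[X]) :
    polyBC g P = algebraMap L[X] (Localization.Away g) (P.map (algebraMap W L)) := by
  simp [polyBC]

/-- The base change `W[X][1/f] → L[X][1/g]` (`g = f.map`), `X ↦ X`. -/
noncomputable def awayBC (f : W[X]) (g : L[X]) (hg : g = f.map (algebraMap W L)) :
    Localization.Away f →ₐ[W] Localization.Away g :=
  IsLocalization.Away.liftAlgHom (A := W) (R := W[X]) f (f := polyBC g)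
    (by rw [polyBC_apply, ← hg]; exact IsLocalization.Away.algebraMap_isUnit g)

theorem awayBC_algebraMap (f : W[X]) (g : L[X]) (hg : g = f.map (algebraMap W L)) (P : W[X]) :
    awayBC f g hg (algebraMap W[X] (Localization.Away f) P) =
      algebraMap L[X] (Localization.Away g) (P.map (algebraMap W L)) := by
  rw [awayBC, IsLocalization.Away.coe_liftAlgHom, IsLocalization.Away.lift_eq]
  exact polyBC_apply g P

/-- The `R0`-algebra structure on `BM = L[X][1/g]` (use with `letI`). -/
@[reducible] noncomputable def algAwayBC (f : W[X]) (g : L[X]) (hg : g = f.map (algebraMap W L)) :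
    Algebra (Localization.Away f) (Localization.Away g) :=
  (awayBC f g hg).toRingHom.toAlgebra

theorem algAwayBC_algebraMap (f : W[X]) (g : L[X]) (hg : g = f.map (algebraMap W L))
    (r : Localization.Away f) :
    letI := algAwayBC f g hg
    algebraMap (Localization.Away f) (Localization.Away g) r = awayBC f g hg r := rfl

/-- `W → R0 → BM` is the structure map of `BM` as a `W`-algebra. -/
theorem isScalarTower_awayBC (f : W[X]) (g : L[X]) (hg : g = f.map (algebraMap W L)) :
    letI := algAwayBC f g hg
    IsScalarTower W (Localization.Away f) (Localization.Away g) := by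
  letI := algAwayBC f g hg
  exact IsScalarTower.of_algebraMap_eq fun a => ((awayBC f g hg).commutes a).symm

attribute [local instance] Polynomial.algebra in
/-- `L[X]` is the localization of `W[X]` away from `C π` when `L = W[1/π]`. -/
theorem isLocalization_away_polynomial (π : W) [IsLocalization.Away π L] :
    IsLocalization.Away (C π : W[X]) L[X] := by
  have h := Polynomial.isLocalization (Submonoid.powers π) L
  rwa [Submonoid.map_powers] at h

attribute [local instance] Polynomial.algebra in
/-- **`BM = R0[1/π]`**: if `L = W[1/π]` then `L[X][1/g]` is the localization of `W[X][1/f]`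
away from `π`. -/
theorem isLocalization_awayBC (π : W) [IsLocalization.Away π L] (f : W[X]) (g : L[X])
    (hg : g = f.map (algebraMap W L)) :
    letI := algAwayBC f g hg
    IsLocalization.Away (algebraMap W (Localization.Away f) π) (Localization.Away g) := by
  letI := algAwayBC f g hg
  haveI : IsScalarTower W[X] L[X] (Localization.Away g) := inferInstance
  haveI : IsScalarTower W[X] (Localization.Away f) (Localization.Away g) :=
    IsScalarTower.of_algebraMap_eq fun P => by
      rw [IsScalarTower.algebraMap_apply W[X] L[X] (Localization.Away g)]
      exact (awayBC_algebraMap f g hg P).symm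
  haveI : IsLocalization.Away (C π : W[X]) L[X] := isLocalization_away_polynomial π
  haveI : IsLocalization.Away (algebraMap W[X] L[X] f) (Localization.Away g) := by
    rw [Polynomial.algebraMap_def, coe_mapRingHom, ← hg]
    infer_instance
  have h := IsLocalization.Away.commutes (R := W[X]) (Localization.Away f) L[X]
    (Localization.Away g) f (C π)
  have hC : algebraMap W[X] (Localization.Away f) (C π) = algebraMap W (Localization.Away f) π := by
    rw [IsScalarTower.algebraMap_apply W W[X] (Localization.Away f)]
    rfl
  rwa [hC] at h

/-- The base change map is injective (when `W → L` is, e.g. `L = Frac W`). -/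
theorem awayBC_injective [IsDomain W] (hWL : Function.Injective (algebraMap W L)) (f : W[X]) (g : L[X])
    (hg : g = f.map (algebraMap W L)) (hg0 : g ≠ 0) :
    Function.Injective (awayBC f g hg) := by
  have hinjg : Function.Injective (algebraMap L[X] (Localization.Away g)) :=
    AwayPoly.away_algebraMap_injective g hg0
  have hf0 : f ≠ 0 := by
    rintro rfl
    exact hg0 (by rw [hg, Polynomial.map_zero])
  have hinjf : Function.Injective (algebraMap W[X] (Localization.Away f)) :=
    AwayPoly.away_algebraMap_injective f hf0
  rw [awayBC, IsLocalization.Away.coe_liftAlgHom]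
  unfold IsLocalization.Away.lift
  rw [IsLocalization.lift_injective_iff]
  intro a b
  constructor
  · intro hab; rw [hinjf hab]
  · intro hab
    have h1 : polyBC g a = polyBC g b := hab
    rw [polyBC_apply, polyBC_apply] at h1
    rw [Polynomial.map_injective _ hWL (hinjg h1)]

/-- Compatibility of the lifts to a field: `BM → Y` restricted to `R0` is `R0 → Y`. -/
theorem awayLift_awayBC [IsDomain W] {Y : Type*} [Field Y] [Algebra W Y] [Algebra L Y]
    [IsScalarTower W L Y] (f : W[X]) (g : L[X]) (hg : g = f.map (algebraMap W L)) (x0 : Y)
    (hf : aeval x0 f ≠ 0) (hg' : aeval x0 g ≠ 0) (r : Localization.Away f) :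
    AwayPoly.awayLift g x0 hg' (awayBC f g hg r) = AwayPoly.awayLift f x0 hf r := by
  have key : ((AwayPoly.awayLift g x0 hg' : Localization.Away g →+* Y).comp
      (awayBC f g hg : Localization.Away f →+* Localization.Away g)) =
      (AwayPoly.awayLift f x0 hf : Localization.Away f →+* Y) := by
    apply IsLocalization.ringHom_ext (Submonoid.powers f)
    refine RingHom.ext fun P => ?_
    simp only [RingHom.coe_comp, RingHom.coe_coe, Function.comp_apply]
    rw [awayBC_algebraMap, AwayPoly.awayLift_algebraMap, AwayPoly.awayLift_algebraMap,
      Polynomial.aeval_map_algebraMap]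
  exact congrArg (fun φ : Localization.Away f →+* Y => φ r) key

end BaseChange

section DVR

/-- The fraction field of a discrete valuation ring is its localization away from a
uniformiser. -/
theorem isLocalization_away_of_irreducible {W L : Type*} [CommRing W] [IsDomain W]
    [IsDiscreteValuationRing W] [Field L] [Algebra W L] [IsFractionRing W L]
    (π : W) (hπ : Irreducible π) : IsLocalization.Away π L := by
  have h1 : Submonoid.powers π ≤ nonZeroDivisors W :=
    Submonoid.powers_le.mpr (mem_nonZeroDivisors_of_ne_zero hπ.ne_zero)
  refine (IsLocalization.iff_of_le_of_exists_dvd (Submonoid.powers π) (nonZeroDivisors W) h1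
    ?_).mpr (inferInstance : IsFractionRing W L)
  intro n hn
  obtain ⟨k, hk⟩ := IsDiscreteValuationRing.associated_pow_irreducible
    (nonZeroDivisors.ne_zero hn) hπ
  exact ⟨π ^ k, ⟨k, rfl⟩, hk.dvd⟩

end DVR

section Field

variable {L : Type*} [Field L]

/-- The generic fibre `L[X][1/g]` of a chart is a Dedekind domain. -/
theorem away_field_isDedekindDomain (g : L[X]) (hg : g ≠ 0) :
    IsDedekindDomain (Localization.Away g) := by
  haveI : IsDomain (Localization.Away g) := AwayPoly.away_isDomain g hg
  exact IsLocalization.isDedekindDomain L[X] (AwayPoly.powers_le g hg) (Localization.Away g)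

end Field

section Frac

variable {R A K : Type*} [CommRing R] [IsDomain R] [CommRing A] [Algebra R A]
  [Field K] [Algebra R K] [IsFractionRing R K]

/-- `R[1/π] → Frac R`. -/
noncomputable def awayToFrac (π : R) (hπ : π ≠ 0) [IsLocalization.Away π A] : A →ₐ[R] K :=
  IsLocalization.Away.liftAlgHom (A := R) (R := R) π (f := Algebra.ofId R K)
    (by
      have : algebraMap R K π ≠ 0 := by
        rw [Ne, map_eq_zero_iff _ (IsFractionRing.injective R K)]; exact hπ
      exact this.isUnit)

/-- The `R[1/π]`-algebra structure on `Frac R` (use with `letI`). -/
@[reducible] noncomputable def algAwayFrac (π : R) (hπ : π ≠ 0) [IsLocalization.Away π A] :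
    Algebra A K :=
  (awayToFrac (A := A) (K := K) π hπ).toRingHom.toAlgebra

theorem isScalarTower_awayFrac (π : R) (hπ : π ≠ 0) [IsLocalization.Away π A] :
    letI := algAwayFrac (A := A) (K := K) π hπ
    IsScalarTower R A K := by
  letI := algAwayFrac (A := A) (K := K) π hπ
  exact IsScalarTower.of_algebraMap_eq fun r =>
    ((awayToFrac (A := A) (K := K) π hπ).commutes r).symm

/-- `Frac R` is the fraction field of `R[1/π]`. -/
theorem isFractionRing_awayFrac (π : R) (hπ : π ≠ 0) [IsLocalization.Away π A] :
    letI := algAwayFrac (A := A) (K := K) π hπ
    IsFractionRing A K := by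
  letI := algAwayFrac (A := A) (K := K) π hπ
  haveI := isScalarTower_awayFrac (A := A) (K := K) π hπ
  exact IsFractionRing.isFractionRing_of_isDomain_of_isLocalization (Submonoid.powers π) A K

/-- For ANY algebra structure `A → K` compatible with `R → A` and `R → K`: `K = Frac A`. -/
theorem isFractionRing_of_away (π : R) [IsLocalization.Away π A] [Algebra A K]
    [IsScalarTower R A K] : IsFractionRing A K :=
  IsFractionRing.isFractionRing_of_isDomain_of_isLocalization (Submonoid.powers π) A K

end Frac

end Fermat.Agent.S18.ChartBasics
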