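import Mathlib
import Fermat.Agent.S18.TSD

/-!
# S18, package C: uniqueness of the Gauss valuation and the generic chart theorem

* `gauss_unique`: for an integral extension `A → A'` in which `π` stays prime and
  `π A' ∩ A = π A`, every `s ∉ π A'` divides (in `A'`) some `g ∈ A`, `g ∉ π A`.
* `chart_lift_of_purity`: the generic chart theorem, with the purity statement over the regular
  auxiliary ring passed as a hypothesis: the sheet idempotent lifts to an element integral over
  the chart ring `D` (norm of the lift over the auxiliary ring).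
-/

set_option autoImplicit false

open Polynomial

namespace Fermat.Agent.S18.Chart

section GaussUnique

variable {A A' : Type*} [CommRing A] [CommRing A'] [Algebra A A']

/-- a prime-like element does not divide a power of an element it does not divide
(provided it does not divide `s`, which excludes the unit case). -/
theorem not_dvd_pow_of_primeLike (p : A')
    (hprime : ∀ a b : A', p ∣ a * b → p ∣ a ∨ p ∣ b) (s : A') (hs : ¬ p ∣ s)
    (x : A') (hx : ¬ p ∣ x) (m : ℕ) : ¬ p ∣ x ^ m := by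
  induction m with
  | zero =>
    intro h
    rw [pow_zero] at h
    exact hs (h.trans (one_dvd s))
  | succ m ih =>
    intro h
    rw [pow_succ] at h
    rcases hprime _ _ h with h | h
    · exact ih h
    · exact hx h

/-- Step 1: a monic polynomial whose value at `s` is divisible by `π` yields a multiple of `s`
congruent modulo `π` to an element of `A` outside `π`. -/
theorem exists_mul_eq_add_of_monic (π : A)
    (hprime : ∀ a b : A', algebraMap A A' π ∣ a * b → algebraMap A A' π ∣ a ∨ algebraMap A A' π ∣ b)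
    (s : A') (hs : ¬ algebraMap A A' π ∣ s) :
    ∀ (n : ℕ) (Q : A[X]), Q.Monic → Q.natDegree = n → algebraMap A A' π ∣ aeval s Q →
      ∃ (s₁ : A') (g₀ : A) (r : A'), ¬ algebraMap A A' π ∣ algebraMap A A' g₀ ∧
        s * s₁ = algebraMap A A' g₀ + algebraMap A A' π * r := by
  intro n
  induction n with
  | zero =>
    intro Q hQ hdeg hdvd
    have h1 : Q = 1 := eq_one_of_monic_natDegree_zero hQ hdeg
    rw [h1, map_one] at hdvd
    exact absurd (hdvd.trans (one_dvd s)) hs
  | succ n ih =>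
    intro Q hQ hdeg hdvd
    have hdecomp : aeval s Q = s * aeval s Q.divX + algebraMap A A' (Q.coeff 0) := by
      have h := congrArg (aeval s) (X_mul_divX_add Q)
      rw [map_add, map_mul, aeval_X, aeval_C] at h
      exact h.symm
    by_cases h0 : algebraMap A A' π ∣ algebraMap A A' (Q.coeff 0)
    · -- descend to `Q.divX`
      have h2 : algebraMap A A' π ∣ s * aeval s Q.divX := by
        have := dvd_sub hdvd h0
        rwa [hdecomp, add_sub_cancel_right] at this
      have h3 : algebraMap A A' π ∣ aeval s Q.divX := (hprime _ _ h2).resolve_left hs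
      have hdeg' : Q.divX.natDegree = n := by
        rw [natDegree_divX_eq_natDegree_tsub_one, hdeg]; rfl
      have hmon : Q.divX.Monic := by
        unfold Monic leadingCoeff
        rw [hdeg', coeff_divX, ← hdeg]
        exact hQ.coeff_natDegree
      exact ih Q.divX hmon hdeg' h3
    · obtain ⟨r, hr⟩ := hdvd
      refine ⟨aeval s Q.divX, -Q.coeff 0, r, ?_, ?_⟩
      · rw [map_neg, dvd_neg]; exact h0
      · rw [map_neg, ← hr, hdecomp]; ring

/-- Step 2: an element `g₀ + π r` with `r` integral divides an element of `A` congruent to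
`± g₀ ^ m` modulo `π`. -/
theorem exists_mul_eq_of_isIntegral (π : A) (g₀ : A) (r : A') (hr : IsIntegral A r) :
    ∃ (s₂ : A') (m : ℕ) (a : A),
      (algebraMap A A' g₀ + algebraMap A A' π * r) * s₂ = algebraMap A A' ((-g₀) ^ m + π * a) := by
  obtain ⟨T, hT, hTr⟩ := hr
  rw [← aeval_def, aeval_eq_sum_range] at hTr
  set m := T.natDegree with hm
  set u : A' := algebraMap A A' g₀ + algebraMap A A' π * r with hu
  -- `(u - g₀) ^ i - (-g₀) ^ i` is a multiple of `u`
  have hq : ∀ i : ℕ, ∃ q : A', (u - algebraMap A A' g₀) ^ i - (-algebraMap A A' g₀) ^ i = u * q := by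
    intro i
    have h := sub_dvd_pow_sub_pow (u - algebraMap A A' g₀) (-algebraMap A A' g₀) i
    rw [sub_neg_eq_add, sub_add_cancel] at h
    exact h
  choose q hq using hq
  have hπr : algebraMap A A' π * r = u - algebraMap A A' g₀ := by rw [hu]; ring
  -- multiply the integrality relation by `π ^ m`
  have h1 : ∑ i ∈ Finset.range (m + 1),
      algebraMap A A' (T.coeff i * π ^ (m - i)) * (u - algebraMap A A' g₀) ^ i = 0 := by
    have h2 : ∑ i ∈ Finset.range (m + 1),
        algebraMap A A' (T.coeff i * π ^ (m - i)) * (u - algebraMap A A' g₀) ^ i =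
        algebraMap A A' π ^ m * ∑ i ∈ Finset.range (m + 1), T.coeff i • r ^ i := by
      rw [Finset.mul_sum]
      refine Finset.sum_congr rfl fun i hi => ?_
      have hi' : i ≤ m := Nat.lt_succ_iff.mp (Finset.mem_range.mp hi)
      rw [← hπr, mul_pow, map_mul, map_pow, Algebra.smul_def]
      have : algebraMap A A' π ^ m = algebraMap A A' π ^ (m - i) * algebraMap A A' π ^ i := by
        rw [← pow_add, Nat.sub_add_cancel hi']
      rw [this]; ring
    rw [h2, hTr, mul_zero]
  refine ⟨-∑ i ∈ Finset.range (m + 1), algebraMap A A' (T.coeff i * π ^ (m - i)) * q i, m,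
    ∑ i ∈ Finset.range m, T.coeff i * π ^ (m - i - 1) * (-g₀) ^ i, ?_⟩
  have h3 : ∑ i ∈ Finset.range (m + 1),
      algebraMap A A' (T.coeff i * π ^ (m - i)) * (u - algebraMap A A' g₀) ^ i =
      u * ∑ i ∈ Finset.range (m + 1), algebraMap A A' (T.coeff i * π ^ (m - i)) * q i +
      algebraMap A A' (∑ i ∈ Finset.range (m + 1), T.coeff i * π ^ (m - i) * (-g₀) ^ i) := by
    rw [Finset.mul_sum, map_sum, ← Finset.sum_add_distrib]
    refine Finset.sum_congr rfl fun i _ => ?_
    have := hq i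
    rw [sub_eq_iff_eq_add] at this
    rw [this]
    simp only [map_mul, map_pow, map_neg]
    ring
  have h4 : ∑ i ∈ Finset.range (m + 1), T.coeff i * π ^ (m - i) * (-g₀) ^ i =
      (-g₀) ^ m + π * ∑ i ∈ Finset.range m, T.coeff i * π ^ (m - i - 1) * (-g₀) ^ i := by
    rw [Finset.sum_range_succ, hT.coeff_natDegree, Nat.sub_self, pow_zero, one_mul, one_mul,
      add_comm, Finset.mul_sum]
    congr 1
    refine Finset.sum_congr rfl fun i hi => ?_
    have hi' : i < m := Finset.mem_range.mp hi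
    have : π ^ (m - i) = π * π ^ (m - i - 1) := by
      rw [← pow_succ', Nat.sub_add_cancel (by omega)]
    rw [this]; ring
  rw [h3, h4] at h1
  linear_combination (-1 : A') * h1

/-- **Uniqueness of the Gauss valuation** (package C): for an integral extension `A → A'` in
which `π` stays prime, every `s ∉ π A'` divides in `A'` some `g ∈ A` with `π ∤ g`. -/
theorem gauss_unique {A A' : Type*} [CommRing A] [CommRing A'] [Algebra A A']
    [Algebra.IsIntegral A A'] (π : A)
    (hprime : ∀ a b : A', algebraMap A A' π ∣ a * b → algebraMap A A' π ∣ a ∨ algebraMap A A' π ∣ b)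
    (hcompat : ∀ a : A, algebraMap A A' π ∣ algebraMap A A' a → π ∣ a)
    (s : A') (hs : ¬ algebraMap A A' π ∣ s) :
    ∃ s' : A', ∃ g : A, ¬ π ∣ g ∧ s * s' = algebraMap A A' g := by
  have _ := hcompat
  obtain ⟨Q, hQ, hQs⟩ := Algebra.IsIntegral.isIntegral (R := A) s
  rw [← aeval_def] at hQs
  obtain ⟨s₁, g₀, r, hg₀, h1⟩ := exists_mul_eq_add_of_monic π hprime s hs Q.natDegree Q hQ rfl
    (by rw [hQs]; exact dvd_zero _)
  obtain ⟨s₂, m, a, h2⟩ := exists_mul_eq_of_isIntegral π g₀ r (Algebra.IsIntegral.isIntegral r)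
  refine ⟨s₁ * s₂, (-g₀) ^ m + π * a, ?_, ?_⟩
  · intro hdvd
    have h3 : π ∣ (-g₀) ^ m := (dvd_add_left (dvd_mul_right π a)).mp hdvd
    have h4 : algebraMap A A' π ∣ (algebraMap A A' (-g₀)) ^ m := by
      rw [← map_pow]; exact map_dvd (algebraMap A A') h3
    exact not_dvd_pow_of_primeLike _ hprime s hs _ (by rw [map_neg, dvd_neg]; exact hg₀) m h4
  · rw [← mul_assoc, h1, h2]

end GaussUnique

section GaussInt

variable {D Y : Type*} [CommRing D] [CommRing Y] [Algebra D Y]

theorem gaussInt_of_isIntegral (π : D) (hπ : ¬ IsUnit π) {z : Y} (hz : IsIntegral D z) :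
    IsGaussInt D π z :=
  ⟨1, fun h => hπ (isUnit_of_dvd_one h), by rwa [one_smul]⟩

theorem gaussInt_zero (π : D) (hπ : ¬ IsUnit π) : IsGaussInt D π (0 : Y) :=
  gaussInt_of_isIntegral π hπ isIntegral_zero

theorem gaussInt_add (π : D) (hπ : Prime π) {z₁ z₂ : Y} (h₁ : IsGaussInt D π z₁)
    (h₂ : IsGaussInt D π z₂) : IsGaussInt D π (z₁ + z₂) := by
  obtain ⟨s₁, hs₁, hi₁⟩ := h₁
  obtain ⟨s₂, hs₂, hi₂⟩ := h₂
  refine ⟨s₁ * s₂, fun h => (hπ.dvd_or_dvd h).elim hs₁ hs₂, ?_⟩
  have : (s₁ * s₂) • (z₁ + z₂) = s₂ • (s₁ • z₁) + s₁ • (s₂ • z₂) := by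
    simp only [smul_add, smul_smul]
    rw [mul_comm s₂ s₁]
  rw [this]
  exact (hi₁.smul s₂).add (hi₂.smul s₁)

theorem gaussInt_mul (π : D) (hπ : Prime π) {z₁ z₂ : Y} (h₁ : IsGaussInt D π z₁)
    (h₂ : IsGaussInt D π z₂) : IsGaussInt D π (z₁ * z₂) := by
  obtain ⟨s₁, hs₁, hi₁⟩ := h₁
  obtain ⟨s₂, hs₂, hi₂⟩ := h₂
  refine ⟨s₁ * s₂, fun h => (hπ.dvd_or_dvd h).elim hs₁ hs₂, ?_⟩
  rw [← smul_mul_smul_comm]
  exact hi₁.mul hi₂

theorem gaussInt_neg (π : D) {z : Y} (h : IsGaussInt D π z) : IsGaussInt D π (-z) := by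
  obtain ⟨s, hs, hi⟩ := h
  exact ⟨s, hs, by rw [smul_neg]; exact hi.neg⟩

theorem gaussInt_sub (π : D) (hπ : Prime π) {z₁ z₂ : Y} (h₁ : IsGaussInt D π z₁)
    (h₂ : IsGaussInt D π z₂) : IsGaussInt D π (z₁ - z₂) := by
  rw [sub_eq_add_neg]
  exact gaussInt_add π hπ h₁ (gaussInt_neg π h₂)

theorem gaussInt_smul (π : D) (a : D) {z : Y} (h : IsGaussInt D π z) : IsGaussInt D π (a • z) := by
  obtain ⟨s, hs, hi⟩ := h
  exact ⟨s, hs, by rw [smul_comm]; exact hi.smul a⟩

theorem gaussInt_pow (π : D) (hπ : Prime π) {z : Y} (h : IsGaussInt D π z) (n : ℕ) :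
    IsGaussInt D π (z ^ n) := by
  induction n with
  | zero => rw [pow_zero]; exact gaussInt_of_isIntegral π hπ.not_isUnit isIntegral_one
  | succ n ih => rw [pow_succ]; exact gaussInt_mul π hπ ih h

theorem gaussInt_map {Y₂ : Type*} [CommRing Y₂] [Algebra D Y₂] (π : D) (f : Y →ₐ[D] Y₂) {z : Y}
    (h : IsGaussInt D π z) : IsGaussInt D π (f z) := by
  obtain ⟨s, hs, hi⟩ := h
  exact ⟨s, hs, by rw [← map_smul]; exact hi.map f⟩

/-- expansion of a product `∏ (c - π x_i)` modulo `π`. -/
theorem exists_prod_eq {ι : Type*} (π : D) (hπ : Prime π) (c : Y) (x : ι → Y)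
    (hc : IsGaussInt D π c) (hx : ∀ i, IsGaussInt D π (x i)) (S : Finset ι) :
    ∃ y : Y, IsGaussInt D π y ∧ ∏ i ∈ S, (c - π • x i) = c ^ S.card - π • y := by
  classical
  induction S using Finset.induction_on with
  | empty => exact ⟨0, gaussInt_zero π hπ.not_isUnit, by simp⟩
  | insert a S ha ih =>
    obtain ⟨y, hy, hprod⟩ := ih
    refine ⟨c * y + x a * c ^ S.card - π • (x a * y), ?_, ?_⟩
    · exact gaussInt_sub π hπ (gaussInt_add π hπ (gaussInt_mul π hπ hc hy)
        (gaussInt_mul π hπ (hx a) (gaussInt_pow π hπ hc _)))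
        (gaussInt_smul π π (gaussInt_mul π hπ (hx a) hy))
    · rw [Finset.prod_insert ha, hprod, Finset.card_insert_of_notMem ha, pow_succ]
      simp only [Algebra.smul_def]
      ring

/-- an idempotent modulo `π`: `c ^ n ≡ c` for `n ≥ 1`. -/
theorem exists_pow_sub_eq (π : D) (hπ : Prime π) (c d : Y) (hc : IsGaussInt D π c)
    (hd : IsGaussInt D π d) (hcd : c ^ 2 - c = π • d) (n : ℕ) (hn : 0 < n) :
    ∃ y : Y, IsGaussInt D π y ∧ c ^ n - c = π • y := by
  induction n with
  | zero => exact absurd hn (lt_irrefl 0)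
  | succ n ih =>
    rcases Nat.eq_zero_or_pos n with rfl | hn'
    · exact ⟨0, gaussInt_zero π hπ.not_isUnit, by simp⟩
    · obtain ⟨y, hy, hpow⟩ := ih hn'
      refine ⟨c * y + d, gaussInt_add π hπ (gaussInt_mul π hπ hc hy) hd, ?_⟩
      have : c ^ (n + 1) - c = c * (c ^ n - c) + (c ^ 2 - c) := by ring
      rw [this, hpow, hcd]
      simp only [Algebra.smul_def]
      ring

end GaussInt

section ChartLift

/-- **Generic chart theorem, modulo purity** (package C).  `D` is the chart ring of the `j`-line,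
`R0` the regular ring of the auxiliary line (integral over `D`), `Y'` a Galois extension of `F2`
containing `R0`.  If the purity statement holds for the image of `ε` in `Y'` (hypothesis `hpur`),
then the idempotent `ε` modulo `π` lifts to an element of `F2` integral over `D`. -/
theorem chart_lift_of_purity {D R0 F2 Y' : Type*} [CommRing D] [CommRing R0] [Field F2] [Field Y']
    [Algebra D R0] [Algebra D F2] [Algebra R0 Y'] [Algebra F2 Y'] [Algebra D Y']
    [IsScalarTower D R0 Y'] [IsScalarTower D F2 Y'] [FiniteDimensional F2 Y'] [IsGalois F2 Y']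
    [Algebra.IsIntegral D R0]
    (π : D) (hπ : Prime (algebraMap D R0 π))
    (hcompat : ∀ a : D, algebraMap D R0 π ∣ algebraMap D R0 a → π ∣ a)
    (hinj : Function.Injective (algebraMap R0 Y'))
    (ε : F2) (hε : IsGaussInt D π ε) (hεε : ∃ d : F2, IsGaussInt D π d ∧ ε ^ 2 - ε = π • d)
    (hpur : IsGaussInt R0 (algebraMap D R0 π) (algebraMap F2 Y' ε) →
      (∃ d : Y', IsGaussInt R0 (algebraMap D R0 π) d ∧
        (algebraMap F2 Y' ε) ^ 2 - algebraMap F2 Y' ε = algebraMap D R0 π • d) →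
      ∃ b : Y', IsIntegral R0 b ∧ ∃ d : Y', IsGaussInt R0 (algebraMap D R0 π) d ∧
        algebraMap F2 Y' ε - b = algebraMap D R0 π • d) :
    ∃ e : F2, IsIntegral D e ∧ ∃ d : F2, IsGaussInt D π d ∧ e - ε = π • d := by
  classical
  -- `π` is prime in `D`
  have hπD : Prime π := by
    refine ⟨?_, ?_, ?_⟩
    · rintro rfl
      exact hπ.ne_zero (map_zero _)
    · intro hu
      exact hπ.not_isUnit (hu.map (algebraMap D R0))
    · intro a b hab
      have h : algebraMap D R0 π ∣ algebraMap D R0 a * algebraMap D R0 b := by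
        rw [← map_mul]; exact map_dvd (algebraMap D R0) hab
      exact (hπ.dvd_or_dvd h).imp (hcompat a) (hcompat b)
  -- scalar compatibilities
  have hsm : ∀ (a : D) (y : Y'), algebraMap D R0 a • y = a • y := fun a y => algebraMap_smul R0 a y
  have hmap : ∀ (a : D) (x : F2), algebraMap F2 Y' (a • x) = a • algebraMap F2 Y' x := by
    intro a x
    rw [Algebra.smul_def, Algebra.smul_def, map_mul, ← IsScalarTower.algebraMap_apply]
  -- transfers of Gauss integrality
  have T1 : ∀ x : F2, IsGaussInt D π x → IsGaussInt D π (algebraMap F2 Y' x) := by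
    rintro x ⟨s, hs, hi⟩
    exact ⟨s, hs, by rw [← hmap]; exact hi.algebraMap⟩
  have T2 : ∀ y : Y', IsGaussInt D π y → IsGaussInt R0 (algebraMap D R0 π) y := by
    rintro y ⟨s, hs, hi⟩
    exact ⟨algebraMap D R0 s, fun h => hs (hcompat s h), by rw [hsm]; exact hi.tower_top⟩
  have T3 : ∀ y : Y', IsGaussInt R0 (algebraMap D R0 π) y → IsGaussInt D π y := by
    rintro y ⟨s, hs, hi⟩
    obtain ⟨s', g, hg, hsg⟩ := gauss_unique π (fun a b => hπ.dvd_or_dvd) hcompat s hs
    refine ⟨g, hg, ?_⟩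
    have h1 : g • y = s' • (s • y) := by
      rw [← hsm, ← hsg, smul_smul, mul_comm]
    rw [h1]
    exact isIntegral_trans (R := D) _ (hi.smul s')
  set c : Y' := algebraMap F2 Y' ε with hc
  have hcG : IsGaussInt D π c := T1 ε hε
  obtain ⟨dε, hdε, hdd⟩ := hεε
  have hcc : c ^ 2 - c = π • algebraMap F2 Y' dε := by
    rw [← hmap, ← hdd, map_sub, map_pow]
  obtain ⟨b, hb, d, hd, hcb⟩ := hpur (T2 c hcG)
    ⟨algebraMap F2 Y' dε, T2 _ (T1 dε hdε), by rw [hsm]; exact hcc⟩
  have hbD : IsIntegral D b := isIntegral_trans (R := D) b hb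
  have hdD : IsGaussInt D π d := T3 d hd
  have hb_eq : b = c - π • d := by
    rw [← hsm, ← hcb]; ring
  -- the conjugates of `b`
  have hσ : ∀ σ : Y' ≃ₐ[F2] Y', σ b = c - π • σ d := by
    intro σ
    rw [hb_eq, map_sub, hc, AlgEquiv.commutes]
    congr 1
    rw [Algebra.smul_def, map_mul, IsScalarTower.algebraMap_apply D F2 Y', AlgEquiv.commutes,
      ← IsScalarTower.algebraMap_apply, ← Algebra.smul_def]
  have hσd : ∀ σ : Y' ≃ₐ[F2] Y', IsGaussInt D π (σ d) := fun σ =>
    gaussInt_map π ((σ : Y' →ₐ[F2] Y').restrictScalars D) hdD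
  obtain ⟨y, hy, hprod⟩ := exists_prod_eq π hπD c (fun σ : Y' ≃ₐ[F2] Y' => σ d) hcG hσd
    Finset.univ
  obtain ⟨y₂, hy₂, hpow⟩ := exists_pow_sub_eq π hπD c (algebraMap F2 Y' dε) hcG (T1 dε hdε) hcc
    (Finset.univ : Finset (Y' ≃ₐ[F2] Y')).card (Finset.card_pos.mpr ⟨1, Finset.mem_univ _⟩)
  have hnorm : algebraMap F2 Y' (Algebra.norm F2 b) = c ^ (Finset.univ : Finset (Y' ≃ₐ[F2] Y')).card
      - π • y := by
    rw [Algebra.norm_eq_prod_automorphisms F2 b, ← hprod]
    exact Finset.prod_congr rfl fun σ _ => hσ σ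
  have hdiff : algebraMap F2 Y' (Algebra.norm F2 b - ε) = π • (y₂ - y) := by
    rw [map_sub, hnorm, smul_sub, ← hpow, ← hc]; ring
  -- `π` is nonzero in `Y'` and in `F2`
  have hπY : algebraMap D Y' π ≠ 0 := by
    rw [IsScalarTower.algebraMap_apply D R0 Y']
    exact fun h => hπ.ne_zero (hinj (h.trans (map_zero _).symm))
  have hπF : algebraMap D F2 π ≠ 0 := by
    intro h
    apply hπY
    rw [IsScalarTower.algebraMap_apply D F2 Y', h, map_zero]
  refine ⟨Algebra.norm F2 b, Algebra.isIntegral_norm F2 hbD,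
    (algebraMap D F2 π)⁻¹ * (Algebra.norm F2 b - ε), ?_, ?_⟩
  · -- Gauss integrality descends along `F2 → Y'`
    have himg : algebraMap F2 Y' ((algebraMap D F2 π)⁻¹ * (Algebra.norm F2 b - ε)) = y₂ - y := by
      have h1 : algebraMap D Y' π * algebraMap F2 Y' ((algebraMap D F2 π)⁻¹ *
          (Algebra.norm F2 b - ε)) = algebraMap D Y' π * (y₂ - y) := by
        rw [← Algebra.smul_def (A := Y') π (y₂ - y), ← hdiff, IsScalarTower.algebraMap_apply D F2 Y',
          ← map_mul, ← mul_assoc, mul_inv_cancel₀ hπF, one_mul]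
      exact mul_left_cancel₀ hπY h1
    obtain ⟨s, hs, hi⟩ := gaussInt_sub π hπD hy₂ hy
    refine ⟨s, hs, ?_⟩
    rw [← himg, ← hmap] at hi
    exact (isIntegral_algebraMap_iff (algebraMap F2 Y').injective).mp hi
  · rw [Algebra.smul_def, ← mul_assoc, mul_inv_cancel₀ hπF, one_mul]

end ChartLift

end Fermat.Agent.S18.Chart
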