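import Mathlib

set_option autoImplicit false

/-!
# S18, package P1: étale at Gauss (pure commutative algebra)

* `mem_of_isIntegral_of_isReduced_quot` : a ring `C` whose special fibre `C/πC` is reduced is
  integrally closed in `C[1/π]`.
* `isIntegral_of_smul_isIntegral` : for an integrally closed domain `R`, a prime element `π` and
  `s ∉ (π)`: if `π • c` and `s • c` are integral over `R` then so is `c`.
* `exists_eq_smul_of_smul_eq_smul`, `torsionFree_quot` : the special fibre `B/πB` of an integral
  closure is torsion-free over `R/π` (hypothesis `hT` of purity).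
* `bezout_mul_mem_of_trace_mem`, `vertical_unramified`, `hU_vertical_of_separable` : if `Y = K(θ)`
  with the minimal polynomial of `θ` separable modulo `π`, the trace form of the integral closure
  is nondegenerate modulo `π` (hypothesis `hU` of purity at the vertical prime).
* `exists_bezout_of_separable_map` : Bézout identity `a P + b P' = s + π H`, `s ∉ (π)`, from
  separability of `P` over a field `κ ⊇ R/π`.
-/

namespace Fermat.Agent.S18.EtaleGauss

open Polynomial

section Reduced

variable {C D : Type*} [CommRing C] [CommRing D] [Algebra C D]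

/-- If `q` is monic, `eval c q = 0` and all lower coefficients of `q` are divisible by `π`,
then `π ∣ c ^ natDegree q`. -/
theorem dvd_pow_natDegree_of_eval_eq_zero (π c : C) (q : C[X]) (hq : q.Monic)
    (hlow : ∀ i, i < q.natDegree → π ∣ q.coeff i) (h0 : q.eval c = 0) :
    π ∣ c ^ q.natDegree := by
  rw [eval_eq_sum_range, Finset.sum_range_succ, hq.coeff_natDegree, one_mul] at h0
  have h1 : c ^ q.natDegree = -∑ i ∈ Finset.range q.natDegree, q.coeff i * c ^ i :=
    eq_neg_of_add_eq_zero_right h0
  rw [h1]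
  refine (dvd_neg).mpr (Finset.dvd_sum fun i hi => ?_)
  exact Dvd.dvd.mul_right (hlow i (Finset.mem_range.mp hi)) _

/-- **Reduced special fibre ⇒ integrally closed in `C[1/π]`.**
Let `C → D` be injective, `π` a non-zero-divisor on `D` such that `C/πC` is reduced.  Any `z : D`
integral over `C` with `π ^ n • z ∈ C` lies in `C`. -/
theorem mem_of_isIntegral_of_isReduced_quot (hinj : Function.Injective (algebraMap C D)) (π : C)
    (hred : ∀ (c : C) (n : ℕ), π ∣ c ^ n → π ∣ c)
    (hπD : ∀ d : D, π • d = 0 → d = 0)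
    (z : D) (hz : IsIntegral C z) (n : ℕ) (c : C) (hzπ : π ^ n • z = algebraMap C D c) :
    ∃ c' : C, algebraMap C D c' = z := by
  induction n generalizing c with
  | zero => exact ⟨c, by rw [← hzπ, pow_zero, one_smul]⟩
  | succ n ih =>
    obtain ⟨p, hp, hpz⟩ := hz
    -- `q := scaleRoots p (π^(n+1))` is monic with root `π^(n+1) • z = c`
    have hq0 : (scaleRoots p (π ^ (n + 1))).eval c = 0 := by
      apply hinj
      rw [map_zero, ← aeval_algebraMap_apply_eq_algebraMap_eval, ← hzπ, Algebra.smul_def]
      exact scaleRoots_eval₂_eq_zero (algebraMap C D) hpz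
    have hdvd : π ∣ c ^ (scaleRoots p (π ^ (n + 1))).natDegree := by
      refine dvd_pow_natDegree_of_eval_eq_zero π c _ ((monic_scaleRoots_iff _).mpr hp) ?_ hq0
      intro i hi
      rw [natDegree_scaleRoots] at hi
      rw [coeff_scaleRoots]
      refine Dvd.dvd.mul_left (dvd_pow (dvd_pow_self π (Nat.succ_ne_zero n)) ?_) _
      omega
    obtain ⟨c', rfl⟩ := hred c _ hdvd
    refine ih c' (sub_eq_zero.mp (hπD _ ?_))
    rw [smul_sub, sub_eq_zero, ← mul_smul, ← pow_succ', hzπ, Algebra.smul_def, map_mul]

end Reduced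

section IntegralClosure

/-- The minimal polynomial of `a • c` is obtained from that of `c` by scaling the roots. -/
theorem minpoly_smul_eq_scaleRoots {K Y : Type*} [Field K] [CommRing Y] [Algebra K Y]
    (a : K) (ha : a ≠ 0) (c : Y) (hc : IsIntegral K c) :
    minpoly K (a • c) = scaleRoots (minpoly K c) a := by
  have hint : IsIntegral K (a • c) := hc.smul a
  have h1 : aeval (a • c) (scaleRoots (minpoly K c) a) = 0 := by
    rw [Algebra.smul_def]
    exact scaleRoots_aeval_eq_zero (minpoly.aeval K c)
  have h2 : aeval c (scaleRoots (minpoly K (a • c)) a⁻¹) = 0 := by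
    have h := scaleRoots_aeval_eq_zero (r := a⁻¹) (minpoly.aeval K (a • c))
    rwa [← Algebra.smul_def, smul_smul, inv_mul_cancel₀ ha, one_smul] at h
  have hdeg : natDegree (minpoly K c) ≤ natDegree (minpoly K (a • c)) := by
    have h := natDegree_le_of_dvd (minpoly.dvd K c h2)
      (scaleRoots_ne_zero (minpoly.ne_zero hint) _)
    rwa [natDegree_scaleRoots] at h
  exact (eq_of_monic_of_dvd_of_natDegree_le (minpoly.monic hint)
    ((monic_scaleRoots_iff a).mpr (minpoly.monic hc)) (minpoly.dvd K (a • c) h1)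
    (by rw [natDegree_scaleRoots]; exact hdeg)).symm

variable {R Y : Type*} [CommRing R] [IsDomain R] [CommRing Y] [IsDomain Y] [Algebra R Y]
  [IsIntegrallyClosed R]

/-- If `a • c` is integral over the integrally closed domain `R` (`a ≠ 0`), then the coefficients
of the minimal polynomial of `c` over `K = Frac R`, scaled by the appropriate power of `a`, lie
in `R`. -/
theorem coeff_minpoly_mul_pow_mem {K : Type*} [Field K] [Algebra R K] [IsFractionRing R K]
    [Algebra K Y] [IsScalarTower R K Y] (a : R) (ha : a ≠ 0) (c : Y) (hc : IsIntegral R (a • c))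
    (i : ℕ) :
    ∃ u : R, algebraMap R K u =
      (minpoly K c).coeff i * algebraMap R K a ^ ((minpoly K c).natDegree - i) := by
  have haK : algebraMap R K a ≠ 0 := by
    rwa [Ne, map_eq_zero_iff _ (IsFractionRing.injective R K)]
  have hcK : IsIntegral K c := by
    have h1 : IsIntegral K (a • c) := hc.tower_top
    have h2 : c = (algebraMap R K a)⁻¹ • (a • c) := by
      rw [← algebraMap_smul K a c, smul_smul, inv_mul_cancel₀ haK, one_smul]
    rw [h2]
    exact h1.smul _
  have h3 : minpoly K (a • c) = (minpoly R (a • c)).map (algebraMap R K) :=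
    minpoly.isIntegrallyClosed_eq_field_fractions' K hc
  have h4 : minpoly K (a • c) = scaleRoots (minpoly K c) (algebraMap R K a) := by
    rw [← algebraMap_smul K a c]
    exact minpoly_smul_eq_scaleRoots _ haK c hcK
  refine ⟨(minpoly R (a • c)).coeff i, ?_⟩
  rw [← coeff_scaleRoots, ← h4, h3, coeff_map]

/-- **Integral-closure lemma.**  Let `R` be an integrally closed domain with fraction field `K`,
`π` a prime element, `s ∉ (π)`, and `c` an element of a domain `Y ⊇ K`.  If `π • c` and `s • c`
are integral over `R`, then `c` is integral over `R`. -/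
theorem isIntegral_of_smul_isIntegral (K : Type*) [Field K] [Algebra R K] [IsFractionRing R K]
    [Algebra K Y] [IsScalarTower R K Y] (π s : R) (hπ : Prime π) (hs : ¬ π ∣ s) (c : Y)
    (h1 : IsIntegral R (π • c)) (h2 : IsIntegral R (s • c)) : IsIntegral R c := by
  have hs0 : s ≠ 0 := fun h => hs (h ▸ dvd_zero π)
  have hinj := IsFractionRing.injective R K
  have hcoeff : ∀ i, (minpoly K c).coeff i ∈ Set.range (algebraMap R K) := by
    intro i
    obtain ⟨u, hu⟩ := coeff_minpoly_mul_pow_mem (K := K) π hπ.ne_zero c h1 i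
    obtain ⟨w, hw⟩ := coeff_minpoly_mul_pow_mem (K := K) s hs0 c h2 i
    set k := (minpoly K c).natDegree - i
    have h3 : s ^ k * u = π ^ k * w := by
      apply hinj
      rw [map_mul, map_mul, map_pow, map_pow, hu, hw]
      ring
    have h4 : π ^ k ∣ u :=
      hπ.pow_dvd_of_dvd_mul_left k (fun h => hs (hπ.dvd_of_dvd_pow h)) ⟨w, h3⟩
    obtain ⟨u', rfl⟩ := h4
    refine ⟨u', ?_⟩
    have h5 : algebraMap R K π ^ k ≠ 0 :=
      pow_ne_zero _ (by rw [Ne, map_eq_zero_iff _ hinj]; exact hπ.ne_zero)
    apply mul_right_cancel₀ h5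
    rw [← hu, map_mul, map_pow]
    ring
  have hπK : algebraMap R K π ≠ 0 := by
    rw [Ne, map_eq_zero_iff _ hinj]; exact hπ.ne_zero
  have hcK : IsIntegral K c := by
    have h1' : IsIntegral K (π • c) := h1.tower_top
    have h2' : c = (algebraMap R K π)⁻¹ • (π • c) := by
      rw [← algebraMap_smul K π c, smul_smul, inv_mul_cancel₀ hπK, one_smul]
    rw [h2']
    exact h1'.smul _
  obtain ⟨q, hq, -, hqm⟩ := lifts_and_natDegree_eq_and_monic
    ((lifts_iff_coeff_lifts _).mpr hcoeff) (minpoly.monic hcK)
  refine ⟨q, hqm, ?_⟩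
  rw [← aeval_def, ← aeval_map_algebraMap K, hq, minpoly.aeval]

/-- **The special fibre of an integral closure is torsion-free.**  Let `R` be an integrally closed
domain, `π` a prime element, `Y` a domain containing `K = Frac R`.  If `b : Y` is integral over
`R`, `r ∉ (π)` and `r • b = π • b'` with `b'` integral over `R`, then `b = π • b''` with `b''`
integral over `R`. -/
theorem exists_eq_smul_of_smul_eq_smul (K : Type*) [Field K] [Algebra R K] [IsFractionRing R K]
    [Algebra K Y] [IsScalarTower R K Y] (π r : R) (hπ : Prime π) (hr : ¬ π ∣ r) (b b' : Y)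
    (hb : IsIntegral R b) (hb' : IsIntegral R b') (h : r • b = π • b') :
    ∃ b'' : Y, IsIntegral R b'' ∧ b = π • b'' := by
  have hinj := IsFractionRing.injective R K
  have hπK : algebraMap R K π ≠ 0 := by
    rw [Ne, map_eq_zero_iff _ hinj]; exact hπ.ne_zero
  refine ⟨(algebraMap R K π)⁻¹ • b, ?_, ?_⟩
  · have e1 : π • ((algebraMap R K π)⁻¹ • b) = b := by
      rw [← algebraMap_smul K π, smul_smul, mul_inv_cancel₀ hπK, one_smul]
    have e2 : r • ((algebraMap R K π)⁻¹ • b) = b' := by
      rw [smul_comm, h, ← algebraMap_smul K π, smul_smul, inv_mul_cancel₀ hπK, one_smul]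
    exact isIntegral_of_smul_isIntegral K π r hπ hr _ (e1.symm ▸ hb) (e2.symm ▸ hb')
  · rw [← algebraMap_smul K π, smul_smul, mul_inv_cancel₀ hπK, one_smul]

end IntegralClosure
section Closure

variable {R Y B : Type*} [CommRing R] [Field Y] [Algebra R Y]
  [CommRing B] [Algebra R B] [Algebra B Y] [IsScalarTower R B Y]

theorem algebraMap_smul_closure (r : R) (x : B) :
    algebraMap B Y (r • x) = r • algebraMap B Y x := by
  rw [Algebra.smul_def, map_mul, ← IsScalarTower.algebraMap_apply, ← Algebra.smul_def]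

/-- **`hT` of purity**: the special fibre `B/πB` of the integral closure `B` of `R` in `Y` is
torsion-free over `R/π`. -/
theorem torsionFree_quot [IsDomain R] [IsIntegrallyClosed R] [IsIntegralClosure B R Y]
    (K : Type*) [Field K] [Algebra R K] [IsFractionRing R K] [Algebra K Y]
    [IsScalarTower R K Y] (π : R) (hπ : Prime π) (x : B) (r : R)
    (hr : r ∉ Ideal.span {π}) (h : ∃ z : B, r • x = π • z) : ∃ z : B, x = π • z := by
  obtain ⟨z, hz⟩ := h
  have hr' : ¬ π ∣ r := fun hd => hr (Ideal.mem_span_singleton.mpr hd)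
  have h1 : r • algebraMap B Y x = π • algebraMap B Y z := by
    rw [← algebraMap_smul_closure, ← algebraMap_smul_closure, hz]
  obtain ⟨b'', hb'', hb⟩ := exists_eq_smul_of_smul_eq_smul (Y := Y) K π r hπ hr'
    (algebraMap B Y x) (algebraMap B Y z)
    ((IsIntegralClosure.isIntegral R Y x).algebraMap)
    ((IsIntegralClosure.isIntegral R Y z).algebraMap) h1
  obtain ⟨z', rfl⟩ := IsIntegralClosure.isIntegral_iff (A := B) |>.mp hb''
  refine ⟨z', IsIntegralClosure.algebraMap_injective B R Y ?_⟩
  rw [hb, algebraMap_smul_closure]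

end Closure

section Vertical

variable {R K Y : Type*} [CommRing R] [IsDomain R] [IsIntegrallyClosed R] [Field K] [Algebra R K]
  [IsFractionRing R K] [Field Y] [Algebra K Y] [Algebra R Y] [IsScalarTower R K Y]
  [FiniteDimensional K Y] [Algebra.IsSeparable K Y]

/-- Expansion of an element in a power basis through the trace-dual basis. -/
theorem powerBasis_repr_eq_trace (pb : PowerBasis K Y) (z : Y) (i : Fin pb.dim) :
    pb.basis.repr z i = Algebra.trace K Y
      (z * ((minpolyDiv K pb.gen).coeff i / aeval pb.gen (derivative (minpoly K pb.gen)))) := by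
  have h := Module.Basis.traceDual_repr_apply (b := pb.basis.traceDual) z i
  rw [Module.Basis.traceDual_traceDual, Algebra.traceForm_apply,
    Module.Basis.traceDual_powerBasis_eq] at h
  exact h

/-- **Étale at Gauss, trace form.**  Let `θ = pb.gen` be integral over the integrally closed
domain `R`, and suppose `u * m'(θ) = s + π γ` with `u, γ ∈ R[θ]` (a Bézout identity expressing
that the minimal polynomial `m` of `θ` is separable modulo `π`).  If all traces `Tr(x y)`,
`y ∈ R[θ]`, are divisible by `π`, then `(s + π γ) x ∈ π R[θ]`. -/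
theorem bezout_mul_mem_of_trace_mem (π : R) (pb : PowerBasis K Y) (hint : IsIntegral R pb.gen)
    (s : R) (u γ : Y) (hu : u ∈ Algebra.adjoin R {pb.gen})
    (hbez : u * aeval pb.gen (derivative (minpoly R pb.gen)) = algebraMap R Y s + π • γ)
    (x : Y) (hx : ∀ y ∈ Algebra.adjoin R {pb.gen},
      ∃ a : R, Algebra.trace K Y (x * y) = algebraMap R K (π * a)) :
    ∃ z ∈ Algebra.adjoin R {pb.gen}, (algebraMap R Y s + π • γ) * x = π • z := by
  classical
  have hmin : minpoly K pb.gen = (minpoly R pb.gen).map (algebraMap R K) :=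
    minpoly.isIntegrallyClosed_eq_field_fractions' K hint
  have hder : aeval pb.gen (derivative (minpoly K pb.gen)) =
      aeval pb.gen (derivative (minpoly R pb.gen)) := by
    rw [hmin, derivative_map, aeval_map_algebraMap]
  have hder0 : aeval pb.gen (derivative (minpoly K pb.gen)) ≠ 0 :=
    (Algebra.IsSeparable.isSeparable K pb.gen).aeval_derivative_ne_zero (minpoly.aeval K pb.gen)
  have hdiv : ∀ i, (minpolyDiv K pb.gen).coeff i ∈ Algebra.adjoin R {pb.gen} := by
    intro i
    rw [← minpolyDiv_eq_of_isIntegrallyClosed K hint]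
    exact coeff_minpolyDiv_mem_adjoin pb.gen i
  -- the coordinates of `(s + π γ) x`
  have hcoord : ∀ i : Fin pb.dim, ∃ a : R,
      pb.basis.repr ((algebraMap R Y s + π • γ) * x) i = algebraMap R K (π * a) := by
    intro i
    obtain ⟨a, ha⟩ := hx (u * (minpolyDiv K pb.gen).coeff i)
      (Subalgebra.mul_mem _ hu (hdiv i))
    refine ⟨a, ?_⟩
    rw [powerBasis_repr_eq_trace, ← ha]
    congr 1
    rw [← hbez, ← hder]
    field_simp
  choose a ha using hcoord
  refine ⟨∑ i : Fin pb.dim, a i • pb.gen ^ (i : ℕ), ?_, ?_⟩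
  · refine Subalgebra.sum_mem _ fun i _ => Subalgebra.smul_mem _ ?_ _
    exact Subalgebra.pow_mem _ (Algebra.subset_adjoin (Set.mem_singleton _)) _
  · conv_lhs => rw [← pb.basis.sum_repr ((algebraMap R Y s + π • γ) * x)]
    rw [Finset.smul_sum]
    refine Finset.sum_congr rfl fun i _ => ?_
    rw [ha i, pb.basis_eq_pow, map_mul, mul_smul, algebraMap_smul, algebraMap_smul]

end Vertical
section Sep

variable {R κ : Type*} [CommRing R] [Field κ] [Algebra R κ]

/-- Lift a polynomial over `κ` to `R` up to a denominator prime to `π`. -/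
theorem exists_lift_mul (π : R) (hπ : Prime π)
    (hfrac : ∀ x : κ, ∃ s : R, ¬ π ∣ s ∧ ∃ r : R, algebraMap R κ s * x = algebraMap R κ r)
    (f : κ[X]) :
    ∃ s : R, ¬ π ∣ s ∧ ∃ f₀ : R[X], f₀.map (algebraMap R κ) = C (algebraMap R κ s) * f := by
  induction f using Polynomial.induction_on' with
  | add p q hp hq =>
    obtain ⟨s₁, hs₁, p₀, hp₀⟩ := hp
    obtain ⟨s₂, hs₂, q₀, hq₀⟩ := hq
    refine ⟨s₁ * s₂, fun h => (hπ.dvd_or_dvd h).elim hs₁ hs₂, C s₂ * p₀ + C s₁ * q₀, ?_⟩
    simp only [Polynomial.map_add, Polynomial.map_mul, map_C, hp₀, hq₀, map_mul]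
    ring
  | monomial n a =>
    obtain ⟨s, hs, r, hr⟩ := hfrac a
    refine ⟨s, hs, monomial n r, ?_⟩
    rw [map_monomial, ← hr, C_mul_monomial]

/-- **Bézout identity from separability modulo `π`.**  If `κ` is a field receiving `R` with
kernel `(π)` and generated by fractions with denominators prime to `π` (e.g. `κ = Frac (R/π)`)
and `P` is separable over `κ`, then `a P + b P' = s + π H` for some `s ∉ (π)`. -/
theorem exists_bezout_of_separable_map (π : R) (hπ : Prime π)
    (hker : ∀ r : R, algebraMap R κ r = 0 → π ∣ r)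
    (hfrac : ∀ x : κ, ∃ s : R, ¬ π ∣ s ∧ ∃ r : R, algebraMap R κ s * x = algebraMap R κ r)
    (P : R[X]) (hsep : (P.map (algebraMap R κ)).Separable) :
    ∃ (a b H : R[X]) (s : R), s ∉ Ideal.span {π} ∧
      a * P + b * derivative P = C s + C π * H := by
  obtain ⟨a', b', hab⟩ := hsep
  obtain ⟨s₁, hs₁, a₀, ha₀⟩ := exists_lift_mul π hπ hfrac a'
  obtain ⟨s₂, hs₂, b₀, hb₀⟩ := exists_lift_mul π hπ hfrac b'
  have hmap : (C s₂ * a₀ * P + C s₁ * b₀ * derivative P - C (s₁ * s₂)).map (algebraMap R κ)
      = 0 := by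
    simp only [Polynomial.map_sub, Polynomial.map_add, Polynomial.map_mul, map_C, ha₀, hb₀,
      map_mul]
    rw [derivative_map] at hab
    linear_combination (C (algebraMap R κ s₁) * C (algebraMap R κ s₂)) * hab
  have hdvd : C π ∣ C s₂ * a₀ * P + C s₁ * b₀ * derivative P - C (s₁ * s₂) := by
    rw [C_dvd_iff_dvd_coeff]
    intro i
    apply hker
    rw [← coeff_map, hmap, coeff_zero]
  obtain ⟨H, hH⟩ := hdvd
  refine ⟨C s₂ * a₀, C s₁ * b₀, H, s₁ * s₂, ?_, ?_⟩
  · rw [Ideal.mem_span_singleton]
    exact fun h => (hπ.dvd_or_dvd h).elim hs₁ hs₂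
  · rw [← hH]; ring

end Sep

section VerticalClosure

variable {R K Y B : Type*} [CommRing R] [IsDomain R] [IsIntegrallyClosed R] [Field K] [Algebra R K]
  [IsFractionRing R K] [Field Y] [Algebra K Y] [Algebra R Y] [IsScalarTower R K Y]
  [FiniteDimensional K Y] [Algebra.IsSeparable K Y]
  [CommRing B] [Algebra R B] [Algebra B Y] [IsScalarTower R B Y] [IsIntegralClosure B R Y]

omit [FiniteDimensional K Y] [Algebra.IsSeparable K Y] in
/-- Bézout for the minimal polynomial from Bézout for any multiple. -/
theorem bezout_minpoly_of_bezout (K : Type*) [Field K] [Algebra R K] [IsFractionRing R K]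
    [Algebra K Y] [IsScalarTower R K Y] (π : R) (θ : Y) (hint : IsIntegral R θ) (P : R[X])
    (hPθ : aeval θ P = 0) (a b H : R[X]) (s : R)
    (hbez : a * P + b * derivative P = C s + C π * H) :
    ∃ a' b' : R[X], a' * minpoly R θ + b' * derivative (minpoly R θ) = C s + C π * H := by
  have hinj : Function.Injective (algebraMap R Y) := by
    rw [IsScalarTower.algebraMap_eq R K Y]
    exact (algebraMap K Y).injective.comp (IsFractionRing.injective R K)
  have : Module.IsTorsionFree R Y := by
    rw [Module.isTorsionFree_iff_algebraMap_injective]; exact hinj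
  obtain ⟨Q, hQ⟩ := minpoly.isIntegrallyClosed_dvd hint hPθ
  refine ⟨a * Q + b * derivative Q, b * Q, ?_⟩
  rw [← hbez, hQ, derivative_mul]; ring

/-- **`hU` of purity at the vertical prime `(π)` (étale at Gauss).**  `B` is the integral closure
of `R` in `Y = K(θ)`, `θ` integral over `R` with minimal polynomial `m`, and
`a m + b m' = s + π H` with `s ∉ (π)` (i.e. `m` is separable modulo `π`, generically on `R/π`).
If `Tr(x y) ∈ (π)` for all `y ∈ B`, then `s • x ∈ π B`. -/
theorem vertical_unramified (π : R) (θ : Y) (hθ : Algebra.adjoin K {θ} = ⊤)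
    (hint : IsIntegral R θ) (b H : R[X]) (s : R)
    (hbez : ∃ a : R[X], a * minpoly R θ + b * derivative (minpoly R θ) = C s + C π * H)
    (x : B)
    (hx : ∀ y : B, ∃ a ∈ Ideal.span {π},
      Algebra.trace K Y (algebraMap B Y (x * y)) = algebraMap R K a) :
    ∃ z : B, s • x = π • z := by
  obtain ⟨a, hbez⟩ := hbez
  have hθK : IsIntegral K θ := hint.tower_top
  set pb : PowerBasis K Y := PowerBasis.ofAdjoinEqTop hθK hθ with hpb
  have hgen : pb.gen = θ := rfl
  have hmem : ∀ f : R[X], aeval θ f ∈ Algebra.adjoin R {pb.gen} := by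
    intro f
    rw [hgen]
    exact aeval_mem_adjoin_singleton R θ
  have hbez' : aeval θ b * aeval pb.gen (derivative (minpoly R pb.gen)) =
      algebraMap R Y s + π • aeval θ H := by
    have h := congrArg (aeval θ) hbez
    rw [hgen]
    simpa [minpoly.aeval, Algebra.smul_def] using h
  have hx' : ∀ y ∈ Algebra.adjoin R {pb.gen},
      ∃ a : R, Algebra.trace K Y (algebraMap B Y x * y) = algebraMap R K (π * a) := by
    intro y hy
    have hyint : IsIntegral R y := adjoin_le_integralClosure (hgen ▸ hint) hy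
    obtain ⟨y', rfl⟩ := IsIntegralClosure.isIntegral_iff (A := B) |>.mp hyint
    obtain ⟨a, ha, hay⟩ := hx y'
    obtain ⟨a', rfl⟩ := Ideal.mem_span_singleton.mp ha
    exact ⟨a', by rw [← hay, _root_.map_mul (algebraMap B Y)]⟩
  obtain ⟨z, hz, hzx⟩ := bezout_mul_mem_of_trace_mem π pb (hgen ▸ hint) s (aeval θ b)
    (aeval θ H) (hmem b) hbez' (algebraMap B Y x) hx'
  have hzint : IsIntegral R (z - aeval θ H * algebraMap B Y x) := by
    refine IsIntegral.sub ?_ (IsIntegral.mul ?_ (IsIntegralClosure.isIntegral R Y x).algebraMap)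
    · exact adjoin_le_integralClosure (hgen ▸ hint) hz
    · exact adjoin_le_integralClosure (hgen ▸ hint) (hmem H)
  obtain ⟨z', hz'⟩ := IsIntegralClosure.isIntegral_iff (A := B) |>.mp hzint
  refine ⟨z', IsIntegralClosure.algebraMap_injective B R Y ?_⟩
  rw [algebraMap_smul_closure, algebraMap_smul_closure, hz', smul_sub, ← hzx, Algebra.smul_def,
    Algebra.smul_def π (aeval θ H * _), Algebra.smul_def π (aeval θ H)]
  ring

end VerticalClosure

section Final

variable {R K Y B : Type*} [CommRing R] [IsDomain R] [IsIntegrallyClosed R] [Field K] [Algebra R K]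
  [IsFractionRing R K] [Field Y] [Algebra K Y] [Algebra R Y] [IsScalarTower R K Y]
  [FiniteDimensional K Y] [Algebra.IsSeparable K Y]
  [CommRing B] [Algebra R B] [Algebra B Y] [IsScalarTower R B Y] [IsIntegralClosure B R Y]

/-- **`hU` of purity at the vertical prime, consumer form.**  `B` = integral closure of `R` in
`Y = K(θ)`; `P ∈ R[X]` monic with `P(θ) = 0` and `P` separable over a field `κ` receiving `R`
with kernel `(π)` and generated by fractions with denominators outside `(π)`.  Then the trace
form of `B` is nondegenerate modulo `π` (generically on `R/π`). -/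
theorem hU_vertical_of_separable (π : R) (hπ : Prime π) {κ : Type*} [Field κ] [Algebra R κ]
    (hker : ∀ r : R, algebraMap R κ r = 0 → π ∣ r)
    (hfrac : ∀ x : κ, ∃ s : R, ¬ π ∣ s ∧ ∃ r : R, algebraMap R κ s * x = algebraMap R κ r)
    (θ : Y) (hθ : Algebra.adjoin K {θ} = ⊤) (P : R[X]) (hP : P.Monic) (hPθ : aeval θ P = 0)
    (hsep : (P.map (algebraMap R κ)).Separable) (x : B)
    (hx : ∀ y : B, ∃ a ∈ Ideal.span {π},
      Algebra.trace K Y (algebraMap B Y (x * y)) = algebraMap R K a) :
    ∃ s : R, s ∉ Ideal.span {π} ∧ s • x ∈ Ideal.span {π} • (⊤ : Submodule R B) := by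
  have hint : IsIntegral R θ := ⟨P, hP, by rw [← aeval_def]; exact hPθ⟩
  obtain ⟨a, b, H, s, hs, hbez⟩ := exists_bezout_of_separable_map π hπ hker hfrac P hsep
  obtain ⟨a', b', hbez'⟩ := bezout_minpoly_of_bezout K π θ hint P hPθ a b H s hbez
  obtain ⟨z, hz⟩ := vertical_unramified (K := K) π θ hθ hint b' H s ⟨a', hbez'⟩ x hx
  refine ⟨s, hs, ?_⟩
  rw [hz]
  exact Submodule.smul_mem_smul (Ideal.mem_span_singleton_self π) Submodule.mem_top

end Final

end Fermat.Agent.S18.EtaleGauss
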