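import Mathlib

/-!
# S18, package P2: purity (normality of the special fibre from unramifiedness in codimension one)

`R` is a noetherian integrally closed domain, `π ∈ R` with `R/π` a Dedekind domain, `Y` a finite
separable extension of `K = Frac R`, `B` the integral closure of `R` in `Y`.  If `B/πB` is
torsion-free over `R/π` and the trace form of `B` is nondegenerate at the prime `(π)` and at
every prime not containing `π`, then every element of `C = B_(π)` whose class modulo `πC` is
integral over `R/π` lies in `B + πC`.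
-/

set_option autoImplicit false
set_option linter.unusedSectionVars false
set_option linter.style.haveILetI false

namespace Fermat.Agent.S18.Purity

open Polynomial

section TraceIntegral

variable {D κ : Type*} [CommRing D] [IsIntegrallyClosed D] [Field κ] [Algebra D κ]
  [IsFractionRing D κ] {n : Type*} [Fintype n] [DecidableEq n]

/-- The trace of a matrix over the fraction field which is integral over `D` lies in `D`. -/
theorem trace_mem_of_isIntegral (N : Matrix n n κ) (hN : IsIntegral D N) :
    ∃ a : D, algebraMap D κ a = N.trace := by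
  classical
  obtain ⟨q, hqm, hq⟩ := hN
  let Ω := AlgebraicClosure κ
  let N' : Matrix n n Ω := N.map (algebraMap κ Ω)
  have hq' : aeval N' (q.map (algebraMap D Ω)) = 0 := by
    have h1 : aeval N' (q.map (algebraMap D Ω)) =
        (algebraMap κ Ω).mapMatrix (eval₂ (algebraMap D (Matrix n n κ)) N q) := by
      rw [aeval_def, eval₂_map, Polynomial.hom_eval₂]
      congr 1
      ext d i j
      simp only [RingHom.comp_apply, Matrix.algebraMap_matrix_apply, RingHom.mapMatrix_apply,
        Matrix.map_apply, IsScalarTower.algebraMap_apply D κ Ω]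
      split_ifs <;> simp
    rw [h1, hq, map_zero]
  have hroot : ∀ μ ∈ N'.charpoly.roots, IsIntegral D μ := by
    intro μ hμ
    have hμ' : IsRoot N'.charpoly μ := (mem_roots (Matrix.charpoly_monic N').ne_zero).mp hμ
    have hs : μ ∈ spectrum Ω N' := Matrix.mem_spectrum_iff_isRoot_charpoly.mpr hμ'
    have h2 := spectrum.subset_polynomial_aeval N' (q.map (algebraMap D Ω)) ⟨μ, hs, rfl⟩
    rw [hq'] at h2
    rcases isEmpty_or_nonempty n with hn | hn
    · exfalso
      have : Subsingleton (Matrix n n Ω) := inferInstance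
      exact spectrum.of_subsingleton (R := Ω) N' ▸ hs |>.elim
    · have h3 : eval μ (q.map (algebraMap D Ω)) = 0 := by
        rw [spectrum.zero_eq, Set.mem_singleton_iff] at h2
        exact h2
      exact ⟨q, hqm, by rw [← eval_map]; exact h3⟩
  have htr : algebraMap κ Ω N.trace = N'.charpoly.roots.sum := by
    rw [← Matrix.trace_eq_sum_roots_charpoly N']
    simp [N', Matrix.trace, Matrix.map_apply, Matrix.diag]
  have hint : IsIntegral D (algebraMap κ Ω N.trace) := by
    rw [htr]
    exact IsIntegral.multiset_sum hroot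
  have hint' : IsIntegral D N.trace :=
    (isIntegral_algebraMap_iff (algebraMap κ Ω).injective).mp hint
  exact IsIntegrallyClosed.isIntegral_iff.mp hint'

end TraceIntegral

section Dedekind

variable {D : Type*} [CommRing D] [IsDedekindDomain D]

/-- In a Dedekind domain, any two elements are comparable for divisibility up to a factor
outside a given maximal ideal. -/
theorem dvd_total_at (𝔪 : Ideal D) [h𝔪 : 𝔪.IsMaximal] (x y : D) :
    ∃ s : D, s ∉ 𝔪 ∧ ((∃ a, s * y = a * x) ∨ (∃ a, s * x = a * y)) := by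
  by_cases h : 𝔪 = ⊥
  · subst h
    refine ⟨1, fun h1 => one_ne_zero (Ideal.mem_bot.mp h1), ?_⟩
    by_cases hx : x = 0
    · right
      exact ⟨0, by rw [hx]; ring⟩
    · left
      have hspan : Ideal.span {x} = ⊤ := by
        by_contra hne
        have := h𝔪.eq_of_le hne bot_le
        have hx' : x ∈ (⊥ : Ideal D) := this ▸ Ideal.mem_span_singleton_self x
        exact hx (Ideal.mem_bot.mp hx')
      obtain ⟨u, hu⟩ := Ideal.mem_span_singleton'.mp (hspan ▸ Submodule.mem_top (x := (1 : D)))
      exact ⟨y * u, by rw [one_mul, mul_assoc, hu, mul_one]⟩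
  · let L := Localization.AtPrime 𝔪
    have : IsDiscreteValuationRing L :=
      IsLocalization.AtPrime.isDiscreteValuationRing_of_dedekind_domain D h L
    have hinj : Function.Injective (algebraMap D L) :=
      IsLocalization.injective L (M := 𝔪.primeCompl) 𝔪.primeCompl_le_nonZeroDivisors
    have key : ∀ x y : D, algebraMap D L x ∣ algebraMap D L y →
        ∃ s : D, s ∉ 𝔪 ∧ ∃ a, s * y = a * x := by
      intro x y ⟨z, hz⟩
      obtain ⟨a, s, rfl⟩ := IsLocalization.exists_mk'_eq 𝔪.primeCompl z
      refine ⟨s, s.2, a, hinj ?_⟩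
      rw [map_mul, map_mul, hz, mul_comm (algebraMap D L x), ← mul_assoc, mul_comm _ (IsLocalization.mk' L a s),
        IsLocalization.mk'_spec]
    rcases ValuationRing.dvd_total (algebraMap D L x) (algebraMap D L y) with h1 | h1
    · obtain ⟨s, hs, a, ha⟩ := key x y h1
      exact ⟨s, hs, Or.inl ⟨a, ha⟩⟩
    · obtain ⟨s, hs, a, ha⟩ := key y x h1
      exact ⟨s, hs, Or.inr ⟨a, ha⟩⟩

/-- A finite nonempty family has an element dividing all the others, up to a common factor
outside a given maximal ideal. -/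
theorem exists_min_index (𝔪 : Ideal D) [h𝔪 : 𝔪.IsMaximal] {ι : Type*} (w : ι → D)
    (J : Finset ι) (hJ : J.Nonempty) :
    ∃ i₀ ∈ J, ∃ s : D, s ∉ 𝔪 ∧ ∀ i ∈ J, ∃ a, s * w i = a * w i₀ := by
  classical
  induction hJ using Finset.Nonempty.cons_induction with
  | singleton a =>
    refine ⟨a, Finset.mem_singleton_self a, 1, ?_, ?_⟩
    · exact fun h1 => h𝔪.ne_top ((Ideal.eq_top_iff_one _).mpr h1)
    · intro i hi
      rw [Finset.mem_singleton] at hi
      subst hi
      exact ⟨1, rfl⟩
  | cons a J ha hJ ih =>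
    obtain ⟨i₀, hi₀, s, hs, hall⟩ := ih
    obtain ⟨s', hs', hcmp⟩ := dvd_total_at 𝔪 (w i₀) (w a)
    have hss' : s * s' ∉ 𝔪 := fun hmem =>
      (h𝔪.isPrime.mem_or_mem hmem).elim hs hs'
    rcases hcmp with ⟨a', ha'⟩ | ⟨a', ha'⟩
    · refine ⟨i₀, Finset.mem_cons.mpr (Or.inr hi₀), s * s', hss', ?_⟩
      intro i hi
      rcases Finset.mem_cons.mp hi with rfl | hi
      · exact ⟨s * a', by rw [mul_assoc, ha', mul_assoc]⟩
      · obtain ⟨c, hc⟩ := hall i hi
        exact ⟨s' * c, by rw [mul_comm s s', mul_assoc, hc, mul_assoc]⟩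
    · refine ⟨a, Finset.mem_cons_self a J, s * s', hss', ?_⟩
      intro i hi
      rcases Finset.mem_cons.mp hi with rfl | hi
      · exact ⟨s * s', rfl⟩
      · obtain ⟨c, hc⟩ := hall i hi
        refine ⟨c * a', ?_⟩
        calc s * s' * w i = s' * (s * w i) := by ring
          _ = s' * (c * w i₀) := by rw [hc]
          _ = c * (s' * w i₀) := by ring
          _ = c * (a' * w a) := by rw [ha']
          _ = c * a' * w a := by ring

end Dedekind


section Gens

variable {R B : Type*} [CommRing R] [CommRing B] [Algebra R B] [Module.Finite R B]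

/-- Local generators of `B` at a maximal ideal `M`: lifts of a basis of `B / M B`. -/
theorem exists_local_gens (M : Ideal R) [hM : M.IsMaximal] :
    ∃ (n : ℕ) (b : Fin n → B) (s : R), s ∉ M ∧
      (∀ x : B, s • x ∈ Submodule.span R (Set.range b)) ∧
      (∀ a : Fin n → R, (∑ i, a i • b i) ∈ M • (⊤ : Submodule R B) → ∀ i, a i ∈ M) := by
  classical
  letI : Field (R ⧸ M) := Ideal.Quotient.field M
  let V := B ⧸ (M • (⊤ : Submodule R B))
  haveI : Module.Finite (R ⧸ M) V := Module.Finite.of_restrictScalars_finite R (R ⧸ M) V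
  let n := Module.finrank (R ⧸ M) V
  let β : Module.Basis (Fin n) (R ⧸ M) V := Module.finBasis (R ⧸ M) V
  let q : B →ₗ[R] V := (M • (⊤ : Submodule R B)).mkQ
  have hsurj : ∀ v : V, ∃ x : B, q x = v := fun v =>
    Submodule.Quotient.mk_surjective _ v
  choose b hb using fun i => hsurj (β i)
  have hmk : ∀ (a : R) (x : B), q (a • x) = (Ideal.Quotient.mk M a) • q x := fun a x => rfl
  -- independence mod M
  have hind : ∀ a : Fin n → R, (∑ i, a i • b i) ∈ M • (⊤ : Submodule R B) → ∀ i, a i ∈ M := by
    intro a ha i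
    have h0 : q (∑ i, a i • b i) = 0 :=
      (Submodule.Quotient.mk_eq_zero _).mpr ha
    have h1 : ∑ i, (Ideal.Quotient.mk M (a i)) • β i = 0 := by
      rw [← h0, map_sum]
      refine Finset.sum_congr rfl fun i _ => ?_
      rw [hmk, hb]
    have h2 := Fintype.linearIndependent_iff.mp β.linearIndependent _ h1 i
    exact Ideal.Quotient.eq_zero_iff_mem.mp h2
  -- generation up to an element outside M
  let N : Submodule R B := Submodule.span R (Set.range b)
  have hcover : ∀ x : B, ∃ y ∈ N, x - y ∈ M • (⊤ : Submodule R B) := by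
    intro x
    have hrepr := β.sum_repr (q x)
    choose c hc using fun i => Ideal.Quotient.mk_surjective (β.repr (q x) i)
    refine ⟨∑ i, c i • b i, Submodule.sum_mem _ fun i _ =>
      Submodule.smul_mem _ _ (Submodule.subset_span ⟨i, rfl⟩), ?_⟩
    have h1 : q (x - ∑ i, c i • b i) = 0 := by
      rw [map_sub, sub_eq_zero, map_sum, ← hrepr]
      refine Finset.sum_congr rfl fun i _ => ?_
      rw [hmk, hb, hc]
    exact (Submodule.Quotient.mk_eq_zero _).mp h1
  have hin : (⊤ : Submodule R (B ⧸ N)) ≤ M • (⊤ : Submodule R (B ⧸ N)) := by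
    intro z _
    obtain ⟨x, rfl⟩ := Submodule.Quotient.mk_surjective N z
    obtain ⟨y, hy, hxy⟩ := hcover x
    have h1 : (Submodule.Quotient.mk x : B ⧸ N) = N.mkQ (x - y) := by
      rw [map_sub, Submodule.mkQ_apply, Submodule.mkQ_apply,
        (Submodule.Quotient.mk_eq_zero N).mpr hy, sub_zero]
    rw [h1]
    have h2 : N.mkQ (x - y) ∈ (M • (⊤ : Submodule R B)).map N.mkQ := Submodule.mem_map_of_mem hxy
    rw [Submodule.map_smul''] at h2
    exact Submodule.smul_mono le_rfl le_top h2
  obtain ⟨r, hr1, hr⟩ := Submodule.exists_sub_one_mem_and_smul_eq_zero_of_fg_of_le_smul M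
    (⊤ : Submodule R (B ⧸ N)) (Module.Finite.fg_top) hin
  refine ⟨n, b, r, ?_, ?_, hind⟩
  · intro hrM
    apply hM.ne_top
    rw [Ideal.eq_top_iff_one]
    have : (1 : R) = r - (r - 1) := by ring
    rw [this]
    exact M.sub_mem hrM hr1
  · intro x
    have := hr (Submodule.Quotient.mk x) Submodule.mem_top
    rw [← Submodule.Quotient.mk_smul, Submodule.Quotient.mk_eq_zero] at this
    exact this

end Gens

section Indep

variable {R B : Type*} [CommRing R] [IsDomain R] [IsNoetherianRing R] [CommRing B] [IsDomain B]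
  [Algebra R B]

/-- Modulo `π`, a nontrivial relation between the local generators is impossible. -/
theorem mem_span_of_relation (hinj : Function.Injective (algebraMap R B))
    (π : R) (hprime : (Ideal.span {π}).IsPrime)
    (hDed : IsDedekindDomain (R ⧸ Ideal.span {π}))
    (hT : ∀ (x : B) (r : R), r ∉ Ideal.span {π} → (∃ z : B, r • x = π • z) → ∃ z : B, x = π • z)
    (M : Ideal R) [hM : M.IsMaximal] (hπM : π ∈ M) {n : ℕ} (b : Fin n → B)
    (hind : ∀ a : Fin n → R, (∑ i, a i • b i) ∈ M • (⊤ : Submodule R B) → ∀ i, a i ∈ M)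
    (w : Fin n → R) (hw : ∑ i, w i • b i = 0) : ∀ i, w i ∈ Ideal.span {π} := by
  classical
  set P : Ideal R := Ideal.span {π} with hP
  have hPM : P ≤ M := (Ideal.span_singleton_le_iff_mem _).mpr hπM
  by_contra hcon
  push Not at hcon
  obtain ⟨j, hj⟩ := hcon
  let J : Finset (Fin n) := Finset.univ.filter (fun i => w i ∉ P)
  have hJ : J.Nonempty := ⟨j, Finset.mem_filter.mpr ⟨Finset.mem_univ _, hj⟩⟩
  let mk := Ideal.Quotient.mk P
  have hmksurj : Function.Surjective mk := Ideal.Quotient.mk_surjective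
  let 𝔪 : Ideal (R ⧸ P) := M.map mk
  have h𝔪mem : ∀ x : R, mk x ∈ 𝔪 ↔ x ∈ M := fun x => Ideal.mem_quotient_iff_mem hPM
  haveI h𝔪 : 𝔪.IsMaximal := by
    rcases Ideal.map_eq_top_or_isMaximal_of_surjective mk hmksurj hM with h | h
    · exfalso
      have h1 : mk 1 ∈ 𝔪 := by show mk 1 ∈ Ideal.map mk M; rw [h]; exact Submodule.mem_top
      exact hM.ne_top ((Ideal.eq_top_iff_one _).mpr ((h𝔪mem 1).mp h1))
    · exact h
  obtain ⟨i₀, hi₀, sbar, hsbar, hall⟩ := exists_min_index 𝔪 (fun i => mk (w i)) J hJ
  obtain ⟨s, rfl⟩ := hmksurj sbar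
  have hs : s ∉ M := fun h => hsbar ((h𝔪mem s).mpr h)
  have hi₀P : w i₀ ∉ P := (Finset.mem_filter.mp hi₀).2
  have hex : ∀ i, ∃ a : R, s * w i - a * w i₀ ∈ P ∧ (i = i₀ → a = s) := by
    intro i
    by_cases hi : i = i₀
    · subst hi
      exact ⟨s, by rw [sub_self]; exact P.zero_mem, fun _ => rfl⟩
    · by_cases hiJ : i ∈ J
      · obtain ⟨abar, habar⟩ := hall i hiJ
        obtain ⟨a, rfl⟩ := hmksurj abar
        refine ⟨a, ?_, fun h => absurd h hi⟩
        rw [← Ideal.Quotient.eq]
        simpa [mk] using habar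
      · have hwi : w i ∈ P := by
          by_contra h
          exact hiJ (Finset.mem_filter.mpr ⟨Finset.mem_univ _, h⟩)
        exact ⟨0, by rw [zero_mul, sub_zero]; exact P.mul_mem_left _ hwi, fun h => absurd h hi⟩
  choose a ha ha₀ using hex
  have hg : ∀ i, ∃ g : R, a i * w i₀ - s * w i = g * π := by
    intro i
    have h1 : a i * w i₀ - s * w i ∈ P := by
      have := P.neg_mem (ha i)
      rwa [neg_sub] at this
    obtain ⟨g, hg⟩ := Ideal.mem_span_singleton'.mp h1
    exact ⟨g, hg.symm⟩
  choose g hg using hg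
  have hx : w i₀ • (∑ i, a i • b i) = π • ∑ i, g i • b i := by
    have h1 : w i₀ • (∑ i, a i • b i) = ∑ i, (a i * w i₀ - s * w i) • b i := by
      have h2 : ∑ i, (a i * w i₀ - s * w i) • b i =
          w i₀ • (∑ i, a i • b i) - s • ∑ i, w i • b i := by
        rw [Finset.smul_sum, Finset.smul_sum, ← Finset.sum_sub_distrib]
        refine Finset.sum_congr rfl fun i _ => ?_
        rw [sub_smul, mul_smul, mul_smul, smul_comm (a i) (w i₀)]
      rw [h2, hw, smul_zero, sub_zero]
    rw [h1, Finset.smul_sum]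
    refine Finset.sum_congr rfl fun i _ => ?_
    rw [hg, mul_smul, smul_comm]
  obtain ⟨z, hz⟩ := hT (∑ i, a i • b i) (w i₀) hi₀P ⟨_, hx⟩
  have hmem : (∑ i, a i • b i) ∈ M • (⊤ : Submodule R B) := by
    rw [hz]
    exact Submodule.smul_mem_smul hπM Submodule.mem_top
  have := hind a hmem i₀
  rw [ha₀ i₀ rfl] at this
  exact hs this

/-- The local generators are linearly independent over `R`. -/
theorem linearIndependent_of_local_gens (hinj : Function.Injective (algebraMap R B))
    (π : R) (hπ : π ≠ 0) (hprime : (Ideal.span {π}).IsPrime)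
    (hDed : IsDedekindDomain (R ⧸ Ideal.span {π}))
    (hT : ∀ (x : B) (r : R), r ∉ Ideal.span {π} → (∃ z : B, r • x = π • z) → ∃ z : B, x = π • z)
    (M : Ideal R) [hM : M.IsMaximal] (hπM : π ∈ M) {n : ℕ} (b : Fin n → B)
    (hind : ∀ a : Fin n → R, (∑ i, a i • b i) ∈ M • (⊤ : Submodule R B) → ∀ i, a i ∈ M) :
    LinearIndependent R b := by
  classical
  rw [Fintype.linearIndependent_iff]
  have key : ∀ k : ℕ, ∀ w : Fin n → R, ∑ i, w i • b i = 0 → ∀ i, w i ∈ Ideal.span {π ^ k} := by
    intro k
    induction k with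
    | zero =>
      intro w _ i
      rw [pow_zero, Ideal.span_singleton_one]
      exact Submodule.mem_top
    | succ k ih =>
      intro w hw i
      have h1 := ih w hw
      have h2 : ∀ i, ∃ c : R, w i = c * π ^ k := fun i => by
        obtain ⟨c, hc⟩ := Ideal.mem_span_singleton'.mp (h1 i)
        exact ⟨c, hc.symm⟩
      choose c hc using h2
      have h3 : ∑ i, c i • b i = 0 := by
        have h4 : π ^ k • ∑ i, c i • b i = 0 := by
          rw [← hw, Finset.smul_sum]
          refine Finset.sum_congr rfl fun i _ => ?_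
          rw [hc i, mul_smul, smul_comm]
        rw [Algebra.smul_def] at h4
        rcases mul_eq_zero.mp h4 with h5 | h5
        · exfalso
          rw [← map_zero (algebraMap R B)] at h5
          exact pow_ne_zero k hπ (hinj h5)
        · exact h5
      have h6 := mem_span_of_relation hinj π hprime hDed hT M hπM b hind c h3 i
      obtain ⟨e, he⟩ := Ideal.mem_span_singleton'.mp h6
      rw [Ideal.mem_span_singleton']
      exact ⟨e, by rw [hc i, ← he, pow_succ]; ring⟩
  intro w hw i
  have hbot : ⨅ k : ℕ, (Ideal.span {π}) ^ k = ⊥ :=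
    Ideal.iInf_pow_eq_bot_of_isDomain _ hprime.ne_top
  have hmem : w i ∈ ⨅ k : ℕ, (Ideal.span {π}) ^ k := by
    rw [Ideal.mem_iInf]
    intro k
    rw [Ideal.span_singleton_pow]
    exact key k w hw i
  rw [hbot] at hmem
  exact Ideal.mem_bot.mp hmem

end Indep

section NC
variable {D A : Type*} [CommRing D] [Ring A] [Algebra D A]

/-- the product of two commuting integral elements is integral -/
theorem isIntegral_mul_of_commute {x y : A} (hx : IsIntegral D x) (hy : IsIntegral D y)
    (hxy : x * y = y * x) : IsIntegral D (x * y) := by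
  let s : Set A := {x, y}
  have hcomm : ∀ a ∈ s, ∀ b ∈ s, a * b = b * a := by
    intro a ha b hb
    rcases ha with rfl | rfl <;> rcases hb with rfl | rfl
    · rfl
    · exact hxy
    · exact hxy.symm
    · rfl
  letI : CommRing (Algebra.adjoin D s) := Algebra.adjoinCommRingOfComm D hcomm
  let x' : Algebra.adjoin D s := ⟨x, Algebra.subset_adjoin (Set.mem_insert x {y})⟩
  let y' : Algebra.adjoin D s := ⟨y, Algebra.subset_adjoin (Set.mem_insert_of_mem x rfl)⟩
  have hx' : IsIntegral D x' :=
    (isIntegral_algHom_iff (Algebra.adjoin D s).val Subtype.val_injective).mp hx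
  have hy' : IsIntegral D y' :=
    (isIntegral_algHom_iff (Algebra.adjoin D s).val Subtype.val_injective).mp hy
  exact (hx'.mul hy').map (Algebra.adjoin D s).val
end NC

section Loc
variable {R K : Type*} [CommRing R] [IsDomain R] [Field K] [Algebra R K] [IsFractionRing R K]
  (P : Ideal R) [hP : P.IsPrime]

variable (K) in
/-- the inclusion of the localization of `R` at `P` into the fraction field -/
noncomputable def locToFrac : Localization.AtPrime P →ₐ[R] K :=
  IsLocalization.liftAlgHom (M := P.primeCompl) (f := Algebra.ofId R K) (fun y => by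
    have hy : (y : R) ≠ 0 := fun h => y.2 (h ▸ P.zero_mem)
    exact IsUnit.mk0 _ ((map_ne_zero_iff _ (IsFractionRing.injective R K)).mpr hy))

theorem locToFrac_injective : Function.Injective (locToFrac K P) := by
  have hO : Function.Injective (algebraMap R (Localization.AtPrime P)) :=
    IsLocalization.injective _ (M := P.primeCompl) P.primeCompl_le_nonZeroDivisors
  have hK : Function.Injective (algebraMap R K) := IsFractionRing.injective R K
  unfold locToFrac
  refine (IsLocalization.lift_injective_iff (M := P.primeCompl) _).mpr fun x y => ?_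
  exact ⟨fun h => by rw [hO h], fun h => by rw [hK h]⟩

theorem locToFrac_mk' (r : R) (t : P.primeCompl) :
    locToFrac K P (IsLocalization.mk' (Localization.AtPrime P) r t) =
      algebraMap R K r / algebraMap R K (t : R) := by
  have ht : algebraMap R K (t : R) ≠ 0 := by
    have hy : (t : R) ≠ 0 := fun h => t.2 (h ▸ P.zero_mem)
    exact (map_ne_zero_iff _ (IsFractionRing.injective R K)).mpr hy
  rw [eq_div_iff ht]
  have h1 : algebraMap R K (t : R) = locToFrac K P (algebraMap R (Localization.AtPrime P) (t : R)) :=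
    ((locToFrac K P).commutes _).symm
  rw [h1, ← map_mul, IsLocalization.mk'_spec, (locToFrac K P).commutes]

/-- an element of `K` with a denominator outside `P` comes from the localization -/
theorem exists_locToFrac_eq (z : K) (t : R) (ht : t ∉ P) (r : R)
    (h : algebraMap R K t * z = algebraMap R K r) :
    ∃ w : Localization.AtPrime P, locToFrac K P w = z := by
  refine ⟨IsLocalization.mk' (Localization.AtPrime P) r (⟨t, ht⟩ : P.primeCompl), ?_⟩
  rw [locToFrac_mk']
  have ht0 : algebraMap R K t ≠ 0 := by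
    have hy : t ≠ 0 := fun h => ht (h ▸ P.zero_mem)
    exact (map_ne_zero_iff _ (IsFractionRing.injective R K)).mpr hy
  rw [div_eq_iff ht0, mul_comm]
  exact h.symm

/-- the reduction of the localization of `R` at `P` to the fraction field of `R ⧸ P` -/
noncomputable def locToRes : Localization.AtPrime P →ₐ[R] FractionRing (R ⧸ P) :=
  IsLocalization.liftAlgHom (M := P.primeCompl) (f := Algebra.ofId R (FractionRing (R ⧸ P)))
    (fun y => by
      have hy : Ideal.Quotient.mk P (y : R) ≠ 0 := fun h => y.2 (Ideal.Quotient.eq_zero_iff_mem.mp h)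
      have h1 : algebraMap R (FractionRing (R ⧸ P)) (y : R) =
          algebraMap (R ⧸ P) (FractionRing (R ⧸ P)) (Ideal.Quotient.mk P (y : R)) := rfl
      show IsUnit (algebraMap R (FractionRing (R ⧸ P)) (y : R))
      rw [h1]
      exact IsUnit.mk0 _ ((map_ne_zero_iff _ (IsFractionRing.injective (R ⧸ P) _)).mpr hy))

theorem locToRes_mk' (r : R) (t : P.primeCompl) :
    locToRes P (IsLocalization.mk' (Localization.AtPrime P) r t) =
      algebraMap R (FractionRing (R ⧸ P)) r / algebraMap R (FractionRing (R ⧸ P)) (t : R) := by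
  have ht : algebraMap R (FractionRing (R ⧸ P)) (t : R) ≠ 0 := by
    have hy : Ideal.Quotient.mk P (t : R) ≠ 0 := fun h => t.2 (Ideal.Quotient.eq_zero_iff_mem.mp h)
    have h1 : algebraMap R (FractionRing (R ⧸ P)) (t : R) =
        algebraMap (R ⧸ P) (FractionRing (R ⧸ P)) (Ideal.Quotient.mk P (t : R)) := rfl
    rw [h1]
    exact (map_ne_zero_iff _ (IsFractionRing.injective (R ⧸ P) _)).mpr hy
  rw [eq_div_iff ht]
  have h1 : algebraMap R (FractionRing (R ⧸ P)) (t : R) =
      locToRes P (algebraMap R (Localization.AtPrime P) (t : R)) :=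
    ((locToRes P).commutes _).symm
  rw [h1, ← map_mul, IsLocalization.mk'_spec, (locToRes P).commutes]

/-- the kernel of the reduction map is generated by `π` when `P = (π)` -/
theorem exists_eq_mul_of_locToRes_eq_zero (π : R) (hπ : P = Ideal.span {π})
    (w : Localization.AtPrime P) (hw : locToRes P w = 0) :
    ∃ w' : Localization.AtPrime P, w = algebraMap R (Localization.AtPrime P) π * w' := by
  obtain ⟨r, t, rfl⟩ := IsLocalization.exists_mk'_eq P.primeCompl w
  rw [locToRes_mk', div_eq_zero_iff] at hw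
  have ht : algebraMap R (FractionRing (R ⧸ P)) (t : R) ≠ 0 := by
    have hy : Ideal.Quotient.mk P (t : R) ≠ 0 := fun h => t.2 (Ideal.Quotient.eq_zero_iff_mem.mp h)
    have h1 : algebraMap R (FractionRing (R ⧸ P)) (t : R) =
        algebraMap (R ⧸ P) (FractionRing (R ⧸ P)) (Ideal.Quotient.mk P (t : R)) := rfl
    rw [h1]
    exact (map_ne_zero_iff _ (IsFractionRing.injective (R ⧸ P) _)).mpr hy
  have hr : algebraMap R (FractionRing (R ⧸ P)) r = 0 := hw.resolve_right ht
  have hr' : r ∈ P := by
    have h1 : algebraMap R (FractionRing (R ⧸ P)) r =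
        algebraMap (R ⧸ P) (FractionRing (R ⧸ P)) (Ideal.Quotient.mk P r) := rfl
    rw [h1, map_eq_zero_iff _ (IsFractionRing.injective (R ⧸ P) _)] at hr
    exact Ideal.Quotient.eq_zero_iff_mem.mp hr
  rw [hπ] at hr'
  obtain ⟨g, hg⟩ := Ideal.mem_span_singleton'.mp hr'
  refine ⟨IsLocalization.mk' (Localization.AtPrime P) g t, ?_⟩
  rw [IsLocalization.mul_mk'_eq_mk'_of_mul, mul_comm π g, hg]

end Loc

section Main

variable {R K Y B : Type*} [CommRing R] [IsDomain R] [IsNoetherianRing R] [IsIntegrallyClosed R]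
  [Field K] [Algebra R K] [IsFractionRing R K]
  [Field Y] [Algebra K Y] [Algebra R Y] [IsScalarTower R K Y] [FiniteDimensional K Y]
  [Algebra.IsSeparable K Y]
  [CommRing B] [Algebra R B] [Algebra B Y] [IsScalarTower R B Y] [IsIntegralClosure B R Y]

variable (K Y) in
theorem exists_trace (x : B) :
    ∃ a : R, algebraMap R K a = Algebra.trace K Y (algebraMap B Y x) := by
  have h1 : IsIntegral R (algebraMap B Y x) := (IsIntegralClosure.isIntegral R Y x).algebraMap
  have h2 : IsIntegral R (Algebra.trace K Y (algebraMap B Y x)) := Algebra.isIntegral_trace h1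
  exact IsIntegrallyClosed.isIntegral_iff.mp h2

variable (K Y) in
/-- The trace `B → R` as a function. -/
noncomputable def trFun (x : B) : R := (exists_trace K Y x).choose

theorem algebraMap_trFun (x : B) :
    algebraMap R K (trFun K Y x) = Algebra.trace K Y (algebraMap B Y x) :=
  (exists_trace K Y x).choose_spec

variable (K Y) in
/-- The trace `B → R`. -/
noncomputable def trR : B →ₗ[R] R where
  toFun x := trFun K Y x
  map_add' x y := by
    apply IsFractionRing.injective R K
    rw [map_add, algebraMap_trFun, algebraMap_trFun, algebraMap_trFun, map_add, map_add]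
  map_smul' r x := by
    apply IsFractionRing.injective R K
    rw [RingHom.id_apply, smul_eq_mul, map_mul, algebraMap_trFun, algebraMap_trFun,
      Algebra.smul_def, map_mul,
      ← IsScalarTower.algebraMap_apply R B Y, IsScalarTower.algebraMap_apply R K Y,
      ← Algebra.smul_def, map_smul, Algebra.smul_def]
    rfl

theorem algebraMap_trR (x : B) :
    algebraMap R K (trR K Y x) = Algebra.trace K Y (algebraMap B Y x) :=
  algebraMap_trFun x

variable (K Y) in
/-- The trace matrix of a family of elements of `B`, with entries in `R`. -/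
noncomputable def trMat {n : ℕ} (b : Fin n → B) : Matrix (Fin n) (Fin n) R :=
  fun i j => trR K Y (b i * b j)

/-- The discriminant of a family of local generators at `M` is a unit at `M`. -/
theorem det_trMat_notMem (π : R) (hπ : π ≠ 0) (hprime : (Ideal.span {π}).IsPrime)
    (hU : ∀ 𝔭 : Ideal R, 𝔭.IsPrime → (𝔭 = Ideal.span {π} ∨ π ∉ 𝔭) → ∀ x : B,
        (∀ y : B, ∃ a ∈ 𝔭, Algebra.trace K Y (algebraMap B Y (x * y)) = algebraMap R K a) →
        ∃ s : R, s ∉ 𝔭 ∧ s • x ∈ 𝔭 • (⊤ : Submodule R B))
    (M : Ideal R) [hM : M.IsMaximal] {n : ℕ} (b : Fin n → B) (s : R) (hs : s ∉ M)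
    (hgen : ∀ x : B, s • x ∈ Submodule.span R (Set.range b)) (hli : LinearIndependent R b) :
    (trMat K Y b).det ∉ M := by
  classical
  intro hd
  set T : Matrix (Fin n) (Fin n) R := trMat K Y b with hT_def
  set d := T.det with hd_def
  obtain ⟨𝔭, h𝔭min, h𝔭M⟩ := Ideal.exists_minimalPrimes_le (I := Ideal.span {d}) (J := M)
    ((Ideal.span_singleton_le_iff_mem _).mpr hd)
  haveI h𝔭prime : 𝔭.IsPrime := h𝔭min.1.1
  have hd𝔭 : d ∈ 𝔭 := h𝔭min.1.2 (Ideal.mem_span_singleton_self d)
  have hheight : 𝔭.height ≤ 1 :=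
    Ideal.height_le_one_of_isPrincipal_of_mem_minimalPrimes (Ideal.span {d}) 𝔭 h𝔭min
  have hcase : 𝔭 = Ideal.span {π} ∨ π ∉ 𝔭 := by
    by_cases hπ𝔭 : π ∈ 𝔭
    · left
      have hle : Ideal.span {π} ≤ 𝔭 := (Ideal.span_singleton_le_iff_mem _).mpr hπ𝔭
      by_contra hne
      have hlt : Ideal.span {π} < 𝔭 := lt_of_le_of_ne hle (Ne.symm hne)
      haveI := hprime
      have h1 : (Ideal.span {π}).height < 𝔭.height :=
        Ideal.height_strict_mono_of_isPrime_of_isPrime hlt
      have h2 : (Ideal.span {π}).height = 0 := by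
        have h3 : (Ideal.span {π}).height < 1 := lt_of_lt_of_le h1 hheight
        exact Order.lt_one_iff.mp h3
      rw [Ideal.height_eq_zero_iff_eq_bot, Ideal.span_singleton_eq_bot] at h2
      exact hπ h2
    · exact Or.inr hπ𝔭
  have hs𝔭 : s ∉ 𝔭 := fun h => hs (h𝔭M h)
  -- a vector in the kernel of `T` modulo `𝔭`
  let mk := Ideal.Quotient.mk 𝔭
  have hdet0 : (mk.mapMatrix T).det = 0 := by
    rw [← RingHom.map_det]
    exact Ideal.Quotient.eq_zero_iff_mem.mpr hd𝔭
  obtain ⟨vbar, hvbar, hker⟩ := Matrix.exists_mulVec_eq_zero_iff.mpr hdet0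
  choose v hv using fun i => Ideal.Quotient.mk_surjective (vbar i)
  have hvne : ∃ j, v j ∉ 𝔭 := by
    by_contra hcon
    push Not at hcon
    apply hvbar
    funext j
    rw [← hv j]
    exact Ideal.Quotient.eq_zero_iff_mem.mpr (hcon j)
  have hTv : ∀ i, ∑ j, T i j * v j ∈ 𝔭 := by
    intro i
    have h1 := congrFun hker i
    rw [Matrix.mulVec, dotProduct] at h1
    rw [← Ideal.Quotient.eq_zero_iff_mem, map_sum]
    rw [Pi.zero_apply] at h1
    rw [← h1]
    refine Finset.sum_congr rfl fun j _ => ?_
    rw [map_mul, ← hv j]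
    rfl
  -- the corresponding element of `B`
  let x : B := ∑ j, v j • b j
  have hsym : ∀ i j, T i j = T j i := fun i j => by
    show trR K Y (b i * b j) = trR K Y (b j * b i)
    rw [mul_comm]
  have htr : ∀ y : B, trR K Y (x * y) ∈ 𝔭 := by
    intro y
    obtain ⟨c, hc⟩ := (Submodule.mem_span_range_iff_exists_fun R).mp (hgen y)
    have h1 : s * trR K Y (x * y) = ∑ i, c i * ∑ j, T i j * v j := by
      have h2 : s • (x * y) = ∑ i, ∑ j, (c i * v j) • (b j * b i) := by
        rw [← mul_smul_comm, ← hc, Finset.mul_sum]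
        refine Finset.sum_congr rfl fun i _ => ?_
        rw [Finset.sum_mul]
        refine Finset.sum_congr rfl fun j _ => ?_
        rw [smul_mul_smul_comm, mul_comm (v j) (c i)]
      have h3 : s * trR K Y (x * y) = trR K Y (s • (x * y)) := by
        rw [map_smul, smul_eq_mul]
      rw [h3, h2, map_sum]
      refine Finset.sum_congr rfl fun i _ => ?_
      rw [map_sum, Finset.mul_sum]
      refine Finset.sum_congr rfl fun j _ => ?_
      rw [map_smul, smul_eq_mul, hsym i j]
      show c i * v j * T j i = c i * (T j i * v j)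
      ring
    have h4 : s * trR K Y (x * y) ∈ 𝔭 := by
      rw [h1]
      exact 𝔭.sum_mem fun i _ => 𝔭.mul_mem_left _ (hTv i)
    exact (h𝔭prime.mem_or_mem h4).resolve_left hs𝔭
  obtain ⟨s', hs', hmem⟩ := hU 𝔭 h𝔭prime hcase x
    (fun y => ⟨trR K Y (x * y), htr y, (algebraMap_trR (x * y)).symm⟩)
  -- elements of `𝔭 • ⊤` have coordinates in `𝔭` after multiplying by `s`
  have hcoord : ∀ z ∈ 𝔭 • (⊤ : Submodule R B), ∃ q : Fin n → R, (∀ i, q i ∈ 𝔭) ∧
      s • z = ∑ i, q i • b i := by
    intro z hz
    refine Submodule.smul_induction_on hz ?_ ?_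
    · intro r hr y _
      obtain ⟨c, hc⟩ := (Submodule.mem_span_range_iff_exists_fun R).mp (hgen y)
      refine ⟨fun i => r * c i, fun i => 𝔭.mul_mem_right _ hr, ?_⟩
      rw [smul_comm, ← hc, Finset.smul_sum]
      refine Finset.sum_congr rfl fun i _ => ?_
      rw [mul_smul]
    · intro y z ihy ihz
      obtain ⟨q₁, hq₁, h₁⟩ := ihy
      obtain ⟨q₂, hq₂, h₂⟩ := ihz
      refine ⟨fun i => q₁ i + q₂ i, fun i => 𝔭.add_mem (hq₁ i) (hq₂ i), ?_⟩
      rw [smul_add, h₁, h₂, ← Finset.sum_add_distrib]
      refine Finset.sum_congr rfl fun i _ => ?_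
      rw [add_smul]
  obtain ⟨q, hq, hqeq⟩ := hcoord _ hmem
  have hrel : ∑ i, (s * s' * v i - q i) • b i = 0 := by
    have h1 : ∑ i, (s * s' * v i - q i) • b i = s • s' • x - ∑ i, q i • b i := by
      rw [Finset.smul_sum, Finset.smul_sum, ← Finset.sum_sub_distrib]
      refine Finset.sum_congr rfl fun i _ => ?_
      rw [sub_smul, mul_smul, mul_smul]
    rw [h1, hqeq, sub_self]
  obtain ⟨j, hj⟩ := hvne
  have h5 := Fintype.linearIndependent_iff.mp hli _ hrel j
  have h6 : s * s' * v j ∈ 𝔭 := by
    rw [sub_eq_zero] at h5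
    rw [h5]
    exact hq j
  rcases h𝔭prime.mem_or_mem h6 with h7 | h7
  · rcases h𝔭prime.mem_or_mem h7 with h8 | h8
    · exact hs𝔭 h8
    · exact hs' h8
  · exact hj h7


/-- The local generators give a `K`-basis of `Y`. -/
theorem exists_basis_of_local_gens {n : ℕ} (b : Fin n → B) (s : R) (hs0 : s ≠ 0)
    (hgen : ∀ x : B, s • x ∈ Submodule.span R (Set.range b)) (hli : LinearIndependent R b) :
    ∃ bK : Module.Basis (Fin n) K Y, ∀ i, bK i = algebraMap B Y (b i) := by
  have hinjB : Function.Injective (algebraMap B Y) := IsIntegralClosure.algebraMap_injective B R Y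
  have h1 : LinearIndependent R (fun i => algebraMap B Y (b i)) := by
    have := hli.map' (IsScalarTower.toAlgHom R B Y).toLinearMap
      (LinearMap.ker_eq_bot.mpr hinjB)
    exact this
  have h2 : LinearIndependent K (fun i => algebraMap B Y (b i)) :=
    (LinearIndependent.iff_fractionRing R K).mp h1
  have h3 : ⊤ ≤ Submodule.span K (Set.range fun i => algebraMap B Y (b i)) := by
    intro y _
    haveI := IsLocalization.isAlgebraic K (nonZeroDivisors R)
    haveI : Algebra.IsAlgebraic R Y := Algebra.IsAlgebraic.trans R K Y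
    obtain ⟨r, hr0, hr⟩ := (Algebra.IsAlgebraic.isAlgebraic (R := R) y).exists_integral_multiple
    obtain ⟨x, hx⟩ := (IsIntegralClosure.isIntegral_iff (A := B)).mp hr
    obtain ⟨cc, hcc⟩ := (Submodule.mem_span_range_iff_exists_fun R).mp (hgen x)
    have hsm : ∀ (a : R) (z : B), algebraMap B Y (a • z) = a • algebraMap B Y z := fun a z => by
      rw [Algebra.smul_def, map_mul, ← IsScalarTower.algebraMap_apply R B Y, ← Algebra.smul_def]
    have h4 : (s * r) • y = ∑ i, algebraMap R K (cc i) • algebraMap B Y (b i) := by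
      rw [mul_smul, ← hx, ← hsm, ← hcc, map_sum]
      refine Finset.sum_congr rfl fun i _ => ?_
      rw [hsm, algebraMap_smul]
    have hsr : algebraMap R K (s * r) ≠ 0 :=
      (map_ne_zero_iff _ (IsFractionRing.injective R K)).mpr (mul_ne_zero hs0 hr0)
    have h5 : y = (algebraMap R K (s * r))⁻¹ • ((s * r) • y) := by
      rw [← algebraMap_smul K (s * r) y, smul_smul, inv_mul_cancel₀ hsr, one_smul]
    rw [h5, h4]
    refine Submodule.smul_mem _ _ (Submodule.sum_mem _ fun i _ => ?_)
    exact Submodule.smul_mem _ _ (Submodule.subset_span ⟨i, rfl⟩)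
  exact ⟨Module.Basis.mk h2 h3, fun i => Module.Basis.mk_apply h2 h3 i⟩


/-- Elements of `Y` with a denominator outside `P` act on the local generators by a matrix
with entries in the localization at `P`. -/
theorem exists_matrix_lift (P : Ideal R) [hP : P.IsPrime] {n : ℕ} (b : Fin n → B) (s : R)
    (hs : s ∉ P) (hgen : ∀ x : B, s • x ∈ Submodule.span R (Set.range b))
    (bK : Module.Basis (Fin n) K Y) (hbK : ∀ i, bK i = algebraMap B Y (b i))
    (y : Y) (t : R) (ht : t ∉ P) (x : B) (hx : t • y = algebraMap B Y x) :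
    ∃ X : Matrix (Fin n) (Fin n) (Localization.AtPrime P),
      X.map (locToFrac K P) = Algebra.leftMulMatrix bK y := by
  classical
  have hsm : ∀ (a : R) (z : B), algebraMap B Y (a • z) = a • algebraMap B Y z := fun a z => by
    rw [Algebra.smul_def, map_mul, ← IsScalarTower.algebraMap_apply R B Y, ← Algebra.smul_def]
  have hst : s * t ∉ P := fun h => (hP.mem_or_mem h).elim hs ht
  have key : ∀ i j, ∃ w : Localization.AtPrime P, locToFrac K P w = bK.repr (y * bK j) i := by
    intro i j
    obtain ⟨cc, hcc⟩ := (Submodule.mem_span_range_iff_exists_fun R).mp (hgen (x * b j))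
    have h1 : (algebraMap R K (s * t)) • (y * bK j) = ∑ i, (algebraMap R K (cc i)) • bK i := by
      have h2 : algebraMap B Y (s • (x * b j)) = (s * t) • (y * bK j) := by
        rw [hsm, map_mul, ← hx, ← hbK, mul_smul, smul_mul_assoc]
      rw [algebraMap_smul, ← h2, ← hcc, map_sum]
      refine Finset.sum_congr rfl fun i _ => ?_
      rw [hsm, algebraMap_smul, hbK]
    have h3 := congrArg (fun v => bK.repr v i) h1
    simp only [map_smul, Finsupp.smul_apply, smul_eq_mul, Module.Basis.repr_sum_self] at h3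
    exact exists_locToFrac_eq P _ (s * t) hst (cc i) h3
  choose X hX using key
  refine ⟨Matrix.of X, ?_⟩
  ext i j
  rw [Matrix.map_apply, Matrix.of_apply, hX, Algebra.leftMulMatrix_eq_repr_mul]

/-- Cramer's rule for the coordinates of an element in terms of its traces against a basis. -/
theorem cramer_trace {n : ℕ} (bK : Module.Basis (Fin n) K Y) (T : Matrix (Fin n) (Fin n) R)
    (hT : ∀ i j, algebraMap R K (T i j) = Algebra.trace K Y (bK i * bK j)) (c : Y) (i : Fin n) :
    algebraMap R K T.det * bK.repr c i =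
      ∑ j, Algebra.trace K Y (c * bK j) * algebraMap R K (T.adjugate j i) := by
  classical
  set TK : Matrix (Fin n) (Fin n) K := (algebraMap R K).mapMatrix T with hTK
  set γ : Fin n → K := fun i => bK.repr c i with hγ
  have hτ : ∀ j, Algebra.trace K Y (c * bK j) = (Matrix.vecMul γ TK) j := by
    intro j
    conv_lhs => rw [← bK.sum_repr c]
    rw [Finset.sum_mul, map_sum]
    simp only [Matrix.vecMul, dotProduct]
    refine Finset.sum_congr rfl fun k _ => ?_
    rw [smul_mul_assoc, map_smul, smul_eq_mul, hTK, RingHom.mapMatrix_apply, Matrix.map_apply, hT]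
  have h1 : Matrix.vecMul (Matrix.vecMul γ TK) TK.adjugate = TK.det • γ := by
    rw [Matrix.vecMul_vecMul, Matrix.mul_adjugate, Matrix.vecMul_smul, Matrix.vecMul_one]
  have h2 := congrFun h1 i
  rw [Pi.smul_apply, smul_eq_mul] at h2
  have h3 : TK.det = algebraMap R K T.det := by rw [hTK, ← RingHom.map_det]
  have h4 : ∀ j, TK.adjugate j i = algebraMap R K (T.adjugate j i) := by
    intro j
    rw [hTK, ← RingHom.map_adjugate]
    rfl
  have h5 : Matrix.vecMul (Matrix.vecMul γ TK) TK.adjugate i =
      ∑ j, (Matrix.vecMul γ TK) j * TK.adjugate j i := rfl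
  rw [← h3, ← h2, h5]
  refine Finset.sum_congr rfl fun j _ => ?_
  rw [hτ j, h4 j]

/-- The trace of a product of two commuting matrices over the localization at `P = (π)` whose
reductions are integral over `R ⧸ P` is congruent to an element of `R` modulo `π`. -/
theorem exists_trace_decomp (P : Ideal R) [hP : P.IsPrime] [IsIntegrallyClosed (R ⧸ P)] (π : R)
    (hPπ : P = Ideal.span {π}) {n : ℕ} (X X' : Matrix (Fin n) (Fin n) (Localization.AtPrime P))
    (hX : IsIntegral (R ⧸ P) (X.map (locToRes P)))
    (hX' : IsIntegral (R ⧸ P) (X'.map (locToRes P))) (hcomm : X * X' = X' * X) :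
    ∃ (a : R) (ω : Localization.AtPrime P),
      (X * X').trace = algebraMap R (Localization.AtPrime P) a +
        algebraMap R (Localization.AtPrime P) π * ω := by
  classical
  have hmul : ∀ A A' : Matrix (Fin n) (Fin n) (Localization.AtPrime P),
      (A * A').map (locToRes P) = A.map (locToRes P) * A'.map (locToRes P) := fun A A' =>
    Matrix.map_mul
  have hc' : X.map (locToRes P) * X'.map (locToRes P) =
      X'.map (locToRes P) * X.map (locToRes P) := by
    rw [← hmul, ← hmul, hcomm]
  have hint := isIntegral_mul_of_commute hX hX' hc'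
  obtain ⟨abar, habar⟩ := trace_mem_of_isIntegral _ hint
  obtain ⟨a, rfl⟩ := Ideal.Quotient.mk_surjective abar
  have h0 : locToRes P ((X * X').trace - algebraMap R (Localization.AtPrime P) a) = 0 := by
    rw [map_sub, (locToRes P).commutes, sub_eq_zero]
    have h1 : locToRes P ((X * X').trace) = ((X * X').map (locToRes P)).trace := by
      simp only [Matrix.trace, Matrix.diag, map_sum, Matrix.map_apply]
    rw [h1, hmul, ← habar]
    rfl
  obtain ⟨ω, hω⟩ := exists_eq_mul_of_locToRes_eq_zero P π hPπ _ h0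
  exact ⟨a, ω, by rw [← hω]; ring⟩

/-- The local lifting statement: at a family of local generators with discriminant `d`, the
element `d • c` is congruent to an element of `B` modulo `π`. -/
theorem local_lift (π : R) (hprime : (Ideal.span {π}).IsPrime)
    (hDed : IsDedekindDomain (R ⧸ Ideal.span {π}))
    {n : ℕ} (b : Fin n → B) (s : R) (hs : s ∉ Ideal.span {π})
    (hgen : ∀ x : B, s • x ∈ Submodule.span R (Set.range b)) (hli : LinearIndependent R b)
    (c : Y) (hc : ∃ s₀ : R, s₀ ∉ Ideal.span {π} ∧ ∃ b₀ : B, s₀ • c = algebraMap B Y b₀)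
    (p : Polynomial R) (hp : p.Monic)
    (hpc : ∃ s₁ : R, s₁ ∉ Ideal.span {π} ∧ ∃ b₁ : B,
      s₁ • Polynomial.aeval c p = π • algebraMap B Y b₁) :
    ∃ (e e' : B) (t : R), t ∉ Ideal.span {π} ∧
      t • ((trMat K Y b : Matrix (Fin n) (Fin n) R).det • c - algebraMap B Y e) =
        π • algebraMap B Y e' := by
  classical
  set P : Ideal R := Ideal.span {π} with hPdef
  haveI hPp : P.IsPrime := hprime
  haveI : IsIntegrallyClosed (R ⧸ P) := inferInstance
  have hs0 : s ≠ 0 := fun h => hs (h ▸ P.zero_mem)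
  have h1P : (1 : R) ∉ P := fun h => hPp.ne_top ((Ideal.eq_top_iff_one _).mpr h)
  obtain ⟨bK, hbK⟩ := exists_basis_of_local_gens (K := K) (Y := Y) b s hs0 hgen hli
  obtain ⟨s₀, hs₀, b₀, hb₀⟩ := hc
  obtain ⟨s₁, hs₁, b₁, hb₁⟩ := hpc
  let O := Localization.AtPrime P
  let κ := FractionRing (R ⧸ P)
  let LM : Y →ₐ[R] Matrix (Fin n) (Fin n) K := (Algebra.leftMulMatrix bK).restrictScalars R
  let ιM : Matrix (Fin n) (Fin n) O →ₐ[R] Matrix (Fin n) (Fin n) K := (locToFrac K P).mapMatrix
  let ρM : Matrix (Fin n) (Fin n) O →ₐ[R] Matrix (Fin n) (Fin n) κ := (locToRes P).mapMatrix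
  have hιM : Function.Injective ιM := Matrix.map_injective (locToFrac_injective P)
  have hlift : ∀ (y : Y) (t : R), t ∉ P → ∀ x : B, t • y = algebraMap B Y x →
      ∃ X, ιM X = LM y :=
    fun y t ht x hx => exists_matrix_lift P b s hs hgen bK hbK y t ht x hx
  obtain ⟨Xc, hXc⟩ := hlift c s₀ hs₀ b₀ hb₀
  have hXb : ∀ j, ∃ X, ιM X = LM (bK j) := fun j =>
    hlift (bK j) 1 h1P (b j) (by rw [one_smul, hbK])
  choose Xb hXb using hXb
  obtain ⟨X₁, hX₁⟩ := hlift (algebraMap B Y b₁) 1 h1P b₁ (one_smul _ _)
  -- the polynomial relation for `Xc`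
  have hrel : s₁ • aeval Xc p = π • X₁ := by
    apply hιM
    rw [map_smul, map_smul, ← aeval_algHom_apply, hXc, hX₁, aeval_algHom_apply, ← map_smul, hb₁,
      map_smul]
  -- reduction
  have hπκ : algebraMap R κ π = 0 := by
    have h1 : algebraMap R κ π = algebraMap (R ⧸ P) κ (Ideal.Quotient.mk P π) := rfl
    rw [h1, Ideal.Quotient.eq_zero_iff_mem.mpr (Ideal.mem_span_singleton_self π), map_zero]
  have hs₁κ : algebraMap R κ s₁ ≠ 0 := by
    have h1 : algebraMap R κ s₁ = algebraMap (R ⧸ P) κ (Ideal.Quotient.mk P s₁) := rfl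
    rw [h1]
    exact (map_ne_zero_iff _ (IsFractionRing.injective (R ⧸ P) _)).mpr
      (fun h => hs₁ (Ideal.Quotient.eq_zero_iff_mem.mp h))
  have hred : aeval (ρM Xc) p = 0 := by
    have h1 : s₁ • aeval (ρM Xc) p = π • ρM X₁ := by
      rw [aeval_algHom_apply, ← map_smul, hrel, map_smul]
    have h2 : π • ρM X₁ = 0 := by
      ext i j
      rw [Matrix.smul_apply, Algebra.smul_def, hπκ, zero_mul, Matrix.zero_apply]
    rw [h2] at h1
    ext i j
    have h3 := congrFun (congrFun h1 i) j
    rw [Matrix.smul_apply, Algebra.smul_def, Matrix.zero_apply] at h3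
    exact (mul_eq_zero.mp h3).resolve_left hs₁κ
  have hintc : IsIntegral (R ⧸ P) (Xc.map (locToRes P)) := by
    have h1 : IsIntegral R (ρM Xc) := ⟨p, hp, hred⟩
    exact h1.tower_top
  have hintb : ∀ j, IsIntegral (R ⧸ P) ((Xb j).map (locToRes P)) := by
    intro j
    have h1 : IsIntegral R (algebraMap B Y (b j)) :=
      (IsIntegralClosure.isIntegral R Y (b j)).algebraMap
    have h2 : IsIntegral R (LM (bK j)) := by rw [hbK]; exact h1.map LM
    rw [← hXb j] at h2
    have h3 : IsIntegral R (Xb j) := (isIntegral_algHom_iff ιM hιM).mp h2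
    have h4 : IsIntegral R (ρM (Xb j)) := h3.map ρM
    exact h4.tower_top
  have hcomm : ∀ j, Xc * Xb j = Xb j * Xc := by
    intro j
    apply hιM
    rw [map_mul, map_mul, hXc, hXb, ← map_mul, ← map_mul, mul_comm]
  have hdec := fun j => exists_trace_decomp P π rfl Xc (Xb j) hintc (hintb j) (hcomm j)
  choose a ω hω using hdec
  -- apply `ι`
  have htr : ∀ j, Algebra.trace K Y (c * bK j) =
      algebraMap R K (a j) + algebraMap R K π * locToFrac K P (ω j) := by
    intro j
    have h1 : locToFrac K P ((Xc * Xb j).trace) = (ιM (Xc * Xb j)).trace := by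
      simp only [Matrix.trace, Matrix.diag, map_sum]
      rfl
    rw [Algebra.trace_eq_matrix_trace bK]
    have h2 : Algebra.leftMulMatrix bK (c * bK j) = ιM (Xc * Xb j) := by
      have h3 : ιM (Xc * Xb j) = LM c * LM (bK j) := by rw [map_mul, hXc, hXb]
      rw [h3, map_mul]
      rfl
    rw [h2, ← h1, hω j, map_add, map_mul, AlgHom.commutes, AlgHom.commutes]
  -- Cramer
  set T : Matrix (Fin n) (Fin n) R := trMat K Y b with hTdef
  have hT : ∀ i j, algebraMap R K (T i j) = Algebra.trace K Y (bK i * bK j) := by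
    intro i j
    show algebraMap R K (trR K Y (b i * b j)) = _
    rw [algebraMap_trR, map_mul, hbK, hbK]
  let ev : Fin n → R := fun i => ∑ j, a j * T.adjugate j i
  let ω' : Fin n → O := fun i => ∑ j, ω j * algebraMap R O (T.adjugate j i)
  have hcr : ∀ i, algebraMap R K T.det * bK.repr c i =
      algebraMap R K (ev i) + algebraMap R K π * locToFrac K P (ω' i) := by
    intro i
    have hcm : ∀ x : R, locToFrac K P (algebraMap R O x) = algebraMap R K x :=
      fun x => (locToFrac K P).commutes x
    rw [cramer_trace bK T hT c i]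
    simp only [ev, ω', map_sum, map_mul, Finset.mul_sum, ← Finset.sum_add_distrib]
    refine Finset.sum_congr rfl fun j _ => ?_
    rw [htr j, hcm]
    ring
  obtain ⟨t, ht⟩ := IsLocalization.exist_integer_multiples P.primeCompl
    (Finset.univ : Finset (Fin n)) ω'
  have hr : ∀ i, ∃ r : R, algebraMap R O r = (t : R) • ω' i := fun i => ht i (Finset.mem_univ i)
  choose r hr using hr
  have hsm : ∀ (a : R) (z : B), algebraMap B Y (a • z) = a • algebraMap B Y z := fun a z => by
    rw [Algebra.smul_def, map_mul, ← IsScalarTower.algebraMap_apply R B Y, ← Algebra.smul_def]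
  refine ⟨∑ i, ev i • b i, ∑ i, r i • b i, (t : R), t.2, ?_⟩
  -- expand `c` in the basis
  have hc_exp : T.det • c = ∑ i, (algebraMap R K T.det * bK.repr c i) • bK i := by
    conv_lhs => rw [← bK.sum_repr c]
    rw [Finset.smul_sum]
    refine Finset.sum_congr rfl fun i _ => ?_
    rw [mul_smul, algebraMap_smul]
  have he : algebraMap B Y (∑ i, ev i • b i) = ∑ i, algebraMap R K (ev i) • bK i := by
    rw [map_sum]
    refine Finset.sum_congr rfl fun i _ => ?_
    rw [hsm, algebraMap_smul, hbK]
  have he' : algebraMap B Y (∑ i, r i • b i) = ∑ i, algebraMap R K (r i) • bK i := by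
    rw [map_sum]
    refine Finset.sum_congr rfl fun i _ => ?_
    rw [hsm, algebraMap_smul, hbK]
  have hrK : ∀ i, algebraMap R K (r i) = algebraMap R K (t : R) * locToFrac K P (ω' i) := by
    intro i
    have := congrArg (locToFrac K P) (hr i)
    rw [AlgHom.commutes, map_smul, Algebra.smul_def] at this
    exact this
  rw [hc_exp, he, he', ← Finset.sum_sub_distrib, Finset.smul_sum, Finset.smul_sum]
  refine Finset.sum_congr rfl fun i _ => ?_
  rw [hcr i, ← sub_smul, add_sub_cancel_left, hrK i, ← algebraMap_smul K (t : R),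
    ← algebraMap_smul K π, smul_smul, smul_smul]
  congr 1
  ring

/-- **Purity.**  If `B/πB` is torsion-free over `R/π` (`hT`) and the trace form of `B` is
nondegenerate at the prime `(π)` and at every prime not containing `π` (`hU`), then every element
`c` of `B_(π)` whose class modulo `π B_(π)` is integral over `R/π` lies in `B + π B_(π)`. -/
theorem purity (π : R) (hπ : π ≠ 0) (hprime : (Ideal.span {π}).IsPrime)
    (hDed : IsDedekindDomain (R ⧸ Ideal.span {π}))
    (hT : ∀ (x : B) (r : R), r ∉ Ideal.span {π} → (∃ z : B, r • x = π • z) → ∃ z : B, x = π • z)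
    (hU : ∀ 𝔭 : Ideal R, 𝔭.IsPrime → (𝔭 = Ideal.span {π} ∨ π ∉ 𝔭) → ∀ x : B,
        (∀ y : B, ∃ a ∈ 𝔭, Algebra.trace K Y (algebraMap B Y (x * y)) = algebraMap R K a) →
        ∃ s : R, s ∉ 𝔭 ∧ s • x ∈ 𝔭 • (⊤ : Submodule R B))
    (c : Y) (hc : ∃ s : R, s ∉ Ideal.span {π} ∧ ∃ b : B, s • c = algebraMap B Y b)
    (p : Polynomial R) (hp : p.Monic)
    (hpc : ∃ s : R, s ∉ Ideal.span {π} ∧ ∃ b : B,
      s • Polynomial.aeval c p = π • algebraMap B Y b) :
    ∃ b : B, ∃ s : R, s ∉ Ideal.span {π} ∧ ∃ b₁ : B,
      s • (c - algebraMap B Y b) = π • algebraMap B Y b₁ := by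
  classical
  set P : Ideal R := Ideal.span {π} with hPdef
  haveI hPp : P.IsPrime := hprime
  have h1P : (1 : R) ∉ P := fun h => hPp.ne_top ((Ideal.eq_top_iff_one _).mpr h)
  have hB : ∀ x : R, algebraMap B Y (algebraMap R B x) = algebraMap R Y x :=
    fun x => (IsScalarTower.algebraMap_apply R B Y x).symm
  have hinjB : Function.Injective (algebraMap B Y) := IsIntegralClosure.algebraMap_injective B R Y
  have hinjRY : Function.Injective (algebraMap R Y) := by
    rw [IsScalarTower.algebraMap_eq R K Y]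
    exact (algebraMap K Y).injective.comp (IsFractionRing.injective R K)
  have hinj : Function.Injective (algebraMap R B) := by
    intro x y hxy
    apply hinjRY
    rw [← hB, ← hB, hxy]
  haveI : IsDomain B := Function.Injective.isDomain (algebraMap B Y) hinjB
  haveI : Module.Finite R B := IsIntegralClosure.finite R K Y B
  -- the ideal of good multipliers
  let I : Ideal R :=
    { carrier := {r | ∃ (e e' : B) (t : R), t ∉ P ∧
        t • (r • c - algebraMap B Y e) = π • algebraMap B Y e'}
      add_mem' := by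
        rintro r₁ r₂ ⟨e₁, e₁', t₁, ht₁, h₁⟩ ⟨e₂, e₂', t₂, ht₂, h₂⟩
        refine ⟨e₁ + e₂, t₂ • e₁' + t₁ • e₂', t₁ * t₂,
          fun h => (hPp.mem_or_mem h).elim ht₁ ht₂, ?_⟩
        simp only [Algebra.smul_def, map_add, map_mul, hB] at h₁ h₂ ⊢
        linear_combination (algebraMap R Y t₂) * h₁ + (algebraMap R Y t₁) * h₂
      zero_mem' := ⟨0, 0, 1, h1P, by simp⟩
      smul_mem' := by
        rintro a r ⟨e, e', t, ht, h⟩
        refine ⟨a • e, a • e', t, ht, ?_⟩
        simp only [Algebra.smul_def, map_mul, hB, smul_eq_mul] at h ⊢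
        linear_combination (algebraMap R Y a) * h }
  have hImem : ∀ r : R, r ∈ I ↔ ∃ (e e' : B) (t : R), t ∉ P ∧
      t • (r • c - algebraMap B Y e) = π • algebraMap B Y e' := fun r => Iff.rfl
  have hπI : π ∈ I := by
    obtain ⟨s₀, hs₀, b₀, hb₀⟩ := hc
    refine (hImem π).mpr ⟨0, b₀, s₀, hs₀, ?_⟩
    rw [map_zero, sub_zero, smul_comm, hb₀]
  have hItop : I = ⊤ := by
    by_contra hne
    obtain ⟨M, hM, hIM⟩ := Ideal.exists_le_maximal I hne
    haveI := hM
    have hπM : π ∈ M := hIM hπI
    have hPM : P ≤ M := (Ideal.span_singleton_le_iff_mem _).mpr hπM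
    obtain ⟨n, b, s, hs, hgen, hind⟩ := exists_local_gens (R := R) (B := B) M
    have hli : LinearIndependent R b :=
      linearIndependent_of_local_gens hinj π hπ hprime hDed hT M hπM b hind
    have hd : (trMat K Y b : Matrix (Fin n) (Fin n) R).det ∉ M :=
      det_trMat_notMem π hπ hprime hU M b s hs hgen hli
    have hsP : s ∉ P := fun h => hs (hPM h)
    obtain ⟨e, e', t, ht, h⟩ := local_lift (K := K) π hprime hDed b s hsP hgen hli c hc p hp hpc
    exact hd (hIM ((hImem _).mpr ⟨e, e', t, ht, h⟩))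
  have h1I : (1 : R) ∈ I := hItop ▸ Submodule.mem_top
  obtain ⟨e, e', t, ht, h⟩ := (hImem 1).mp h1I
  rw [one_smul] at h
  exact ⟨e, t, ht, e', h⟩

end Main

end Fermat.Agent.S18.Purity
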