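import Mathlib

/-!
# S18 : tower lemma for the "trace form nondegenerate mod `𝔭`" currency of purity

`TraceNondeg R K Y B 𝔭` is *exactly* the unramifiedness hypothesis `hU` of the purity package
(`B` the integral closure of `R` in `Y`, `K = Frac R`): every `x : B` whose trace form pairing
with `B` lands in `𝔭` lies in `𝔭 B` up to a factor outside `𝔭`.

Main results (all elementwise, no localisation types):

* `trace_mem_of_mem_primes` : if `r : B` lies in every prime of `B` over `𝔭` then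
  `Tr_{Y/K} r ∈ 𝔭`.
* `exists_mul_mem_of_traceNondeg` : under `TraceNondeg R K Y B 𝔭`, every prime `𝔮` of `B` over `𝔭`
  is generated by `𝔭` locally at `𝔮` (there is `e ∉ 𝔮` with `e * 𝔮 ⊆ 𝔭 B` up to `R ∖ 𝔭`).
* `traceNondeg_tower` : `TraceNondeg` is transitive in towers `K ⊆ Y₁ ⊆ Y₂`.
-/

set_option autoImplicit false

namespace Fermat.Agent.S18.TowerUnram

/-- The unramifiedness currency `hU` of the purity package: the trace form of `B` over `R`
is nondegenerate modulo `𝔭` (up to elements outside `𝔭`). -/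
def TraceNondeg (R K Y B : Type*) [CommRing R] [Field K] [Algebra R K] [Field Y] [Algebra K Y]
    [CommRing B] [Algebra R B] [Algebra B Y] (𝔭 : Ideal R) : Prop :=
  ∀ x : B, (∀ y : B, ∃ a ∈ 𝔭, Algebra.trace K Y (algebraMap B Y (x * y)) = algebraMap R K a) →
    ∃ s : R, s ∉ 𝔭 ∧ s • x ∈ 𝔭 • (⊤ : Submodule R B)

section OneLayer

variable {R K Y B : Type*} [CommRing R] [IsDomain R] [IsIntegrallyClosed R]
  [Field K] [Algebra R K] [IsFractionRing R K]
  [Field Y] [Algebra K Y] [Algebra R Y] [IsScalarTower R K Y] [FiniteDimensional K Y]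
  [Algebra.IsSeparable K Y]
  [CommRing B] [Algebra R B] [Algebra B Y] [IsScalarTower R B Y] [IsIntegralClosure B R Y]

omit [IsDomain R] in
/-- If `r` lies in every prime of `B` over `𝔭`, then its trace lies in `𝔭`. -/
theorem trace_mem_of_mem_primes (𝔭 : Ideal R) [𝔭.IsPrime] (r : B)
    (hr : ∀ 𝔮 : Ideal B, 𝔮.IsPrime → 𝔮.comap (algebraMap R B) = 𝔭 → r ∈ 𝔮) :
    ∃ a ∈ 𝔭, Algebra.trace K Y (algebraMap B Y r) = algebraMap R K a := by
  classical
  -- the trace is integral, hence comes from `R`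
  have hint : IsIntegral R (Algebra.trace K Y (algebraMap B Y r)) :=
    Algebra.isIntegral_trace (IsIntegralClosure.isIntegral R Y r).algebraMap
  obtain ⟨a, ha⟩ := IsIntegrallyClosed.isIntegral_iff.mp hint
  refine ⟨a, ?_, ha.symm⟩
  -- work in an algebraic closure
  let Ω := AlgebraicClosure Y
  let R' := integralClosure R Ω
  have hinjRΩ : Function.Injective (algebraMap R Ω) := by
    rw [IsScalarTower.algebraMap_eq R K Ω]
    exact (algebraMap K Ω).injective.comp (IsFractionRing.injective R K)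
  have hker : RingHom.ker (algebraMap R R') ≤ 𝔭 := by
    intro z hz
    rw [RingHom.mem_ker] at hz
    have : algebraMap R Ω z = 0 := by
      have := congrArg (Subtype.val) hz
      simpa using this
    have hz0 : z = 0 := hinjRΩ (by rw [this, map_zero])
    rw [hz0]; exact 𝔭.zero_mem
  obtain ⟨𝔓, h𝔓prime, h𝔓⟩ :=
    Ideal.exists_ideal_over_prime_of_isIntegral_of_isDomain (S := R') 𝔭 hker
  -- each embedding gives a prime of `B` over `𝔭`
  have key : ∀ σ : Y →ₐ[K] Ω, ∃ w : R', w ∈ 𝔓 ∧ (w : Ω) = σ (algebraMap B Y r) := by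
    intro σ
    let τ : B →ₐ[R] Ω := (σ.restrictScalars R).comp (IsScalarTower.toAlgHom R B Y)
    have hτ : ∀ b : B, τ b ∈ integralClosure R Ω := fun b =>
      ((IsIntegralClosure.isIntegral R Y b).algebraMap (B := Y)).map (σ.restrictScalars R)
    let ψ : B →ₐ[R] R' := τ.codRestrict (integralClosure R Ω) hτ
    have hq : (𝔓.comap ψ).comap (algebraMap R B) = 𝔭 := by
      rw [← h𝔓]
      ext z
      simp only [Ideal.mem_comap, AlgHom.commutes]
    have := hr (𝔓.comap ψ) (Ideal.comap_isPrime _ _) hq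
    exact ⟨ψ r, this, rfl⟩
  choose w hw hwval using key
  have hsum : (∑ σ : Y →ₐ[K] Ω, w σ) ∈ 𝔓 := Ideal.sum_mem _ fun σ _ => hw σ
  have heq : algebraMap R R' a = ∑ σ : Y →ₐ[K] Ω, w σ := by
    apply Subtype.ext
    have h1 : ((algebraMap R R' a : R') : Ω) = algebraMap R Ω a := rfl
    rw [h1, IsScalarTower.algebraMap_apply R K Ω, ha, trace_eq_sum_embeddings (E := Ω)]
    rw [AddSubmonoidClass.coe_finsetSum]
    exact Finset.sum_congr rfl fun σ _ => (hwval σ).symm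
  rw [← h𝔓, Ideal.mem_comap, heq]
  exact hsum

/-- Under `TraceNondeg`, every prime `𝔮` of `B` over `𝔭` is generated by `𝔭` locally at `𝔮`:
there is `e ∉ 𝔮` with `e * 𝔮 ⊆ 𝔭 B` up to factors of `R ∖ 𝔭`. -/
theorem exists_mul_mem_of_traceNondeg [IsNoetherianRing R] (𝔭 : Ideal R) [𝔭.IsPrime]
    (h1 : TraceNondeg R K Y B 𝔭) (𝔮 : Ideal B) [𝔮.IsPrime]
    (h𝔮 : 𝔮.comap (algebraMap R B) = 𝔭) :
    ∃ e : B, e ∉ 𝔮 ∧ ∀ b ∈ 𝔮, ∃ s : R, s ∉ 𝔭 ∧ s • (e * b) ∈ 𝔭 • (⊤ : Submodule R B) := by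
  classical
  have : Module.Finite R B := IsIntegralClosure.finite R K Y B
  have hfin : (𝔭.primesOver B).Finite := Algebra.QuasiFinite.finite_primesOver 𝔭
  -- for each other prime over `𝔭` there is an element in it but not in `𝔮`
  have hex : ∀ 𝔮' ∈ hfin.toFinset.erase 𝔮, ∃ e' : B, e' ∈ 𝔮' ∧ e' ∉ 𝔮 := by
    intro 𝔮' h𝔮'
    rw [Finset.mem_erase, Set.Finite.mem_toFinset] at h𝔮'
    obtain ⟨hne, hprime, hover⟩ := h𝔮'
    by_contra hcon
    push Not at hcon
    have hle : 𝔮' ≤ 𝔮 := fun x hx => hcon x hx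
    have hlt : 𝔮' < 𝔮 := lt_of_le_of_ne hle hne
    obtain ⟨x, hx𝔮, hx𝔮'⟩ := SetLike.exists_of_lt hlt
    have := hprime
    have hlt' := Ideal.comap_lt_comap_of_integral_mem_sdiff (R := R) hle ⟨hx𝔮, hx𝔮'⟩
      (IsIntegralClosure.isIntegral R Y x)
    have h𝔮'c : 𝔮'.comap (algebraMap R B) = 𝔭 := hover.over.symm
    rw [h𝔮, h𝔮'c] at hlt'
    exact lt_irrefl _ hlt'
  let e' : Ideal B → B := fun 𝔮' =>
    if h : ∃ e' : B, e' ∈ 𝔮' ∧ e' ∉ 𝔮 then h.choose else 1
  have he'1 : ∀ 𝔮' ∈ hfin.toFinset.erase 𝔮, e' 𝔮' ∈ 𝔮' := by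
    intro 𝔮' h𝔮'
    have h := hex 𝔮' h𝔮'
    simp only [e', dif_pos h]
    exact h.choose_spec.1
  have he'2 : ∀ 𝔮' ∈ hfin.toFinset.erase 𝔮, e' 𝔮' ∉ 𝔮 := by
    intro 𝔮' h𝔮'
    have h := hex 𝔮' h𝔮'
    simp only [e', dif_pos h]
    exact h.choose_spec.2
  refine ⟨∏ 𝔮' ∈ hfin.toFinset.erase 𝔮, e' 𝔮', ?_, ?_⟩
  · intro hmem
    rw [Ideal.IsPrime.prod_mem_iff] at hmem
    obtain ⟨𝔮', h𝔮', hmem'⟩ := hmem
    exact he'2 𝔮' h𝔮' hmem'
  · intro b hb
    apply h1
    intro z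
    apply trace_mem_of_mem_primes (K := K) (Y := Y) 𝔭
    intro 𝔮'' hprime hover
    by_cases hq : 𝔮'' = 𝔮
    · rw [hq]
      exact Ideal.mul_mem_right _ _ (Ideal.mul_mem_left _ _ hb)
    · have hmem : 𝔮'' ∈ hfin.toFinset.erase 𝔮 := by
        rw [Finset.mem_erase, Set.Finite.mem_toFinset]
        exact ⟨hq, hprime, ⟨hover.symm⟩⟩
      have hdvd : e' 𝔮'' ∣ ∏ 𝔮' ∈ hfin.toFinset.erase 𝔮, e' 𝔮' := Finset.dvd_prod_of_mem _ hmem
      obtain ⟨c, hc⟩ := hdvd
      rw [hc]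
      exact Ideal.mul_mem_right _ _ (Ideal.mul_mem_right _ _
        (Ideal.mul_mem_right _ _ (he'1 𝔮'' hmem)))

end OneLayer

section Tower

variable {R K Y₁ Y₂ B₁ B₂ : Type*} [CommRing R] [IsDomain R] [IsIntegrallyClosed R]
  [IsNoetherianRing R]
  [Field K] [Algebra R K] [IsFractionRing R K]
  [Field Y₁] [Algebra K Y₁] [Algebra R Y₁] [IsScalarTower R K Y₁] [FiniteDimensional K Y₁]
  [Algebra.IsSeparable K Y₁]
  [Field Y₂] [Algebra K Y₂] [Algebra Y₁ Y₂] [IsScalarTower K Y₁ Y₂] [Algebra R Y₂]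
  [IsScalarTower R K Y₂] [FiniteDimensional Y₁ Y₂]
  [CommRing B₁] [Algebra R B₁] [Algebra B₁ Y₁] [IsScalarTower R B₁ Y₁] [IsIntegralClosure B₁ R Y₁]
  [CommRing B₂] [Algebra R B₂] [Algebra B₂ Y₂] [IsScalarTower R B₂ Y₂] [IsIntegralClosure B₂ R Y₂]
  [Algebra B₁ B₂] [IsScalarTower R B₁ B₂]

omit [IsDomain R] [IsIntegrallyClosed R] [IsNoetherianRing R] [IsFractionRing R K]
  [FiniteDimensional K Y₁] [Algebra.IsSeparable K Y₁] [FiniteDimensional Y₁ Y₂]
  [IsIntegralClosure B₁ R Y₁] [IsIntegralClosure B₂ R Y₂] [IsScalarTower R B₁ Y₁]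
  [IsScalarTower R B₂ Y₂] [Algebra R Y₁] [IsScalarTower R K Y₁] [Algebra R Y₂]
  [IsScalarTower R K Y₂] [Algebra K Y₂] [IsScalarTower K Y₁ Y₂] [Algebra B₁ Y₁] [Algebra B₂ Y₂]
  [Algebra Y₁ Y₂] [Field Y₁] [Field Y₂] [Field K] [Algebra R K] [Algebra K Y₁] in
/-- `𝔭 B₁`-multiples act into `𝔭 B₂`. -/
theorem smul_mem_of_mem_smul_top (𝔭 : Ideal R) {u : B₁} (hu : u ∈ 𝔭 • (⊤ : Submodule R B₁))
    (m : B₂) : u • m ∈ 𝔭 • (⊤ : Submodule R B₂) := by
  refine Submodule.smul_induction_on hu ?_ ?_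
  · intro p hp b _
    rw [smul_assoc]
    exact Submodule.smul_mem_smul hp Submodule.mem_top
  · intro u v hu hv
    rw [add_smul]
    exact Submodule.add_mem _ hu hv

/-- **Tower lemma** for the purity currency: if `B₁/R` is trace-nondegenerate at `𝔭` and
`B₂/B₁` is trace-nondegenerate at every prime `𝔮` of `B₁` over `𝔭`, then `B₂/R` is
trace-nondegenerate at `𝔭`. -/
theorem traceNondeg_tower (𝔭 : Ideal R) [𝔭.IsPrime]
    (hcompat : ∀ z : B₁, algebraMap B₂ Y₂ (algebraMap B₁ B₂ z) =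
      algebraMap Y₁ Y₂ (algebraMap B₁ Y₁ z))
    (h1 : TraceNondeg R K Y₁ B₁ 𝔭)
    (h2 : ∀ 𝔮 : Ideal B₁, 𝔮.IsPrime → 𝔮.comap (algebraMap R B₁) = 𝔭 →
      TraceNondeg B₁ Y₁ Y₂ B₂ 𝔮) :
    TraceNondeg R K Y₂ B₂ 𝔭 := by
  classical
  have : IsScalarTower R Y₁ Y₂ := IsScalarTower.of_algebraMap_eq fun r => by
    rw [IsScalarTower.algebraMap_apply R K Y₂, IsScalarTower.algebraMap_apply K Y₁ Y₂,
      ← IsScalarTower.algebraMap_apply R K Y₁]
  intro x hx
  -- Step 1: the relative traces lie in every prime of `B₁` over `𝔭`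
  have step1 : ∀ y : B₂, ∃ c : B₁,
      algebraMap B₁ Y₁ c = Algebra.trace Y₁ Y₂ (algebraMap B₂ Y₂ (x * y)) ∧
      ∀ 𝔮 : Ideal B₁, 𝔮.IsPrime → 𝔮.comap (algebraMap R B₁) = 𝔭 → c ∈ 𝔮 := by
    intro y
    have hint : IsIntegral R (Algebra.trace Y₁ Y₂ (algebraMap B₂ Y₂ (x * y))) :=
      Algebra.isIntegral_trace (IsIntegralClosure.isIntegral R Y₂ (x * y)).algebraMap
    obtain ⟨c, hc⟩ := (IsIntegralClosure.isIntegral_iff (A := B₁)).mp hint
    refine ⟨c, hc, ?_⟩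
    have hc1 : ∃ s : R, s ∉ 𝔭 ∧ s • c ∈ 𝔭 • (⊤ : Submodule R B₁) := by
      apply h1
      intro z
      obtain ⟨a, ha, hae⟩ := hx (y * algebraMap B₁ B₂ z)
      refine ⟨a, ha, ?_⟩
      have e2 : algebraMap B₂ Y₂ (x * (y * algebraMap B₁ B₂ z)) =
          algebraMap B₁ Y₁ z • algebraMap B₂ Y₂ (x * y) := by
        rw [Algebra.smul_def, ← hcompat, ← map_mul]
        congr 1
        ring
      have e1 : algebraMap B₁ Y₁ (c * z) =
          Algebra.trace Y₁ Y₂ (algebraMap B₂ Y₂ (x * (y * algebraMap B₁ B₂ z))) := by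
        rw [e2, map_smul, smul_eq_mul, map_mul, hc, mul_comm]
      rw [e1, Algebra.trace_trace]
      exact hae
    obtain ⟨s, hs, hsc⟩ := hc1
    intro 𝔮 h𝔮prime h𝔮
    have hsub : ∀ u ∈ 𝔭 • (⊤ : Submodule R B₁), u ∈ 𝔮 := by
      intro u hu
      refine Submodule.smul_induction_on hu ?_ ?_
      · intro p hp b _
        rw [Algebra.smul_def]
        refine Ideal.mul_mem_right _ _ ?_
        rw [← h𝔮] at hp
        exact hp
      · intro u v hu hv
        exact Ideal.add_mem _ hu hv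
    have h3 := hsub _ hsc
    rw [Algebra.smul_def] at h3
    rcases h𝔮prime.mem_or_mem h3 with h4 | h4
    · exfalso
      apply hs
      rw [← h𝔮]
      exact h4
    · exact h4
  -- Step 2: at each prime over `𝔭` we get a local multiplier
  have step2 : ∀ 𝔮 : Ideal B₁, 𝔮.IsPrime → 𝔮.comap (algebraMap R B₁) = 𝔭 →
      ∃ s : B₁, s ∉ 𝔮 ∧ s • x ∈ 𝔮 • (⊤ : Submodule B₁ B₂) := by
    intro 𝔮 h𝔮prime h𝔮
    apply h2 𝔮 h𝔮prime h𝔮
    intro y
    obtain ⟨c, hc, hcmem⟩ := step1 y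
    exact ⟨c, hcmem 𝔮 h𝔮prime h𝔮, hc.symm⟩
  -- Step 3: the ideal of multipliers
  let I : Ideal B₁ :=
    { carrier := {b | ∃ s : R, s ∉ 𝔭 ∧ s • (b • x) ∈ 𝔭 • (⊤ : Submodule R B₂)}
      zero_mem' := ⟨1, (Ideal.ne_top_iff_one 𝔭).mp (Ideal.IsPrime.ne_top inferInstance), by simp⟩
      add_mem' := by
        rintro b b' ⟨s, hs, hsb⟩ ⟨s', hs', hsb'⟩
        refine ⟨s * s', fun h => ?_, ?_⟩
        · rcases Ideal.IsPrime.mem_or_mem inferInstance h with h | h
          · exact hs h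
          · exact hs' h
        · rw [add_smul, smul_add]
          refine Submodule.add_mem _ ?_ ?_
          · rw [mul_comm, mul_smul]
            exact Submodule.smul_mem _ _ hsb
          · rw [mul_smul]
            exact Submodule.smul_mem _ _ hsb'
      smul_mem' := by
        rintro c b ⟨s, hs, hsb⟩
        refine ⟨s, hs, ?_⟩
        rw [smul_eq_mul, mul_smul, smul_comm s c]
        -- `𝔭 • ⊤` is stable under `B₁`
        have : ∀ w ∈ 𝔭 • (⊤ : Submodule R B₂), c • w ∈ 𝔭 • (⊤ : Submodule R B₂) := by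
          intro w hw
          refine Submodule.smul_induction_on hw ?_ ?_
          · intro p hp m _
            rw [smul_comm]
            exact Submodule.smul_mem_smul hp Submodule.mem_top
          · intro u v hu hv
            rw [smul_add]
            exact Submodule.add_mem _ hu hv
        exact this _ hsb }
  have hImem : ∀ b : B₁, b ∈ I ↔ ∃ s : R, s ∉ 𝔭 ∧ s • (b • x) ∈ 𝔭 • (⊤ : Submodule R B₂) :=
    fun b => Iff.rfl
  have hone : (1 : B₁) ∈ I := by
    by_contra hone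
    -- `I` is disjoint from the image of `R ∖ 𝔭`
    have hdisj : Disjoint (I : Set B₁) ((𝔭.primeCompl.map (algebraMap R B₁) : Submonoid B₁) : Set B₁) := by
      rw [Set.disjoint_left]
      rintro _ hb ⟨s₀, hs₀, rfl⟩
      apply hone
      obtain ⟨s, hs, hsb⟩ := (hImem _).mp hb
      refine (hImem 1).mpr ⟨s * s₀, fun h => ?_, ?_⟩
      · rcases Ideal.IsPrime.mem_or_mem inferInstance h with h | h
        · exact hs h
        · exact hs₀ h
      · rw [one_smul, mul_smul]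
        rw [algebraMap_smul] at hsb
        exact hsb
    obtain ⟨𝔮, h𝔮prime, hI𝔮, h𝔮disj⟩ := Ideal.exists_le_prime_disjoint I _ hdisj
    have h𝔮 : 𝔮.comap (algebraMap R B₁) = 𝔭 := by
      apply le_antisymm
      · intro r hr
        by_contra hr'
        rw [Set.disjoint_left] at h𝔮disj
        exact h𝔮disj (Ideal.mem_comap.mp hr) ⟨r, hr', rfl⟩
      · intro p hp
        apply hI𝔮
        refine (hImem _).mpr ⟨1, (Ideal.ne_top_iff_one 𝔭).mp (Ideal.IsPrime.ne_top inferInstance), ?_⟩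
        rw [one_smul, algebraMap_smul]
        exact Submodule.smul_mem_smul hp Submodule.mem_top
    obtain ⟨sq, hsq, hsqx⟩ := step2 𝔮 h𝔮prime h𝔮
    obtain ⟨e, he, hemul⟩ := exists_mul_mem_of_traceNondeg (K := K) (Y := Y₁) 𝔭 h1 𝔮 h𝔮
    -- `e * sq ∈ I`
    have hpred : ∀ w ∈ 𝔮 • (⊤ : Submodule B₁ B₂),
        ∃ s : R, s ∉ 𝔭 ∧ s • (e • w) ∈ 𝔭 • (⊤ : Submodule R B₂) := by
      intro w hw
      refine Submodule.smul_induction_on hw ?_ ?_
      · intro b hb m _
        obtain ⟨s, hs, hsb⟩ := hemul b hb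
        refine ⟨s, hs, ?_⟩
        rw [← mul_smul, ← smul_assoc]
        exact smul_mem_of_mem_smul_top 𝔭 hsb m
      · rintro u v ⟨s, hs, hsu⟩ ⟨s', hs', hsv⟩
        refine ⟨s * s', fun h => ?_, ?_⟩
        · rcases Ideal.IsPrime.mem_or_mem inferInstance h with h | h
          · exact hs h
          · exact hs' h
        · rw [smul_add, smul_add]
          refine Submodule.add_mem _ ?_ ?_
          · rw [mul_comm, mul_smul]
            exact Submodule.smul_mem _ _ hsu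
          · rw [mul_smul]
            exact Submodule.smul_mem _ _ hsv
    have hmemI : e * sq ∈ I := by
      obtain ⟨s, hs, h⟩ := hpred _ hsqx
      refine (hImem _).mpr ⟨s, hs, ?_⟩
      rw [mul_smul]
      exact h
    rcases h𝔮prime.mem_or_mem (hI𝔮 hmemI) with h | h
    · exact he h
    · exact hsq h
  obtain ⟨s, hs, h⟩ := (hImem 1).mp hone
  rw [one_smul] at h
  exact ⟨s, hs, h⟩

end Tower

end Fermat.Agent.S18.TowerUnram
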