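import Mathlib
import Fermat.Agent.S18.Chart
import Fermat.Agent.S18.Purity
import Fermat.Agent.S18.EtaleGauss
import Fermat.Agent.S18.TowerUnram

/-!
# S18, package C (part 2): the chart theorem in the trace-form currency

* `purity_gaussInt`: the purity theorem (`Purity.purity`) for the idempotent polynomial
  `X ^ 2 - X`, with input and output in `IsGaussInt` form; the torsion-freeness hypothesis is
  discharged by `EtaleGauss.torsionFree_quot`.
* `chart_lift_of_hU`: the generic chart theorem: nondegeneracy of the trace form of the integral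
  closure `B'` of the regular auxiliary ring `R0` in `Y'` at the vertical prime and at every
  horizontal prime implies that the sheet idempotent `ε` of `F2` lifts to an element integral
  over the chart ring `D`.
-/

set_option autoImplicit false

open Polynomial

namespace Fermat.Agent.S18.ChartHU

/-- **Purity for idempotents, `IsGaussInt` form.** -/
theorem purity_gaussInt {R K Y B : Type*} [CommRing R] [IsDomain R] [IsNoetherianRing R]
    [IsIntegrallyClosed R] [Field K] [Algebra R K] [IsFractionRing R K]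
    [Field Y] [Algebra K Y] [Algebra R Y] [IsScalarTower R K Y] [FiniteDimensional K Y]
    [Algebra.IsSeparable K Y]
    [CommRing B] [Algebra R B] [Algebra B Y] [IsScalarTower R B Y] [IsIntegralClosure B R Y]
    (π : R) (hπ : Prime π) (hDed : IsDedekindDomain (R ⧸ Ideal.span {π}))
    (hU : ∀ 𝔭 : Ideal R, 𝔭.IsPrime → (𝔭 = Ideal.span {π} ∨ π ∉ 𝔭) → ∀ x : B,
        (∀ y : B, ∃ a ∈ 𝔭, Algebra.trace K Y (algebraMap B Y (x * y)) = algebraMap R K a) →
        ∃ s : R, s ∉ 𝔭 ∧ s • x ∈ 𝔭 • (⊤ : Submodule R B))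
    (c : Y) (hc : IsGaussInt R π c) (hcc : ∃ d : Y, IsGaussInt R π d ∧ c ^ 2 - c = π • d) :
    ∃ b : Y, IsIntegral R b ∧ ∃ d : Y, IsGaussInt R π d ∧ c - b = π • d := by
  have hprime : (Ideal.span {π}).IsPrime := (Ideal.span_singleton_prime hπ.ne_zero).mpr hπ
  have hT : ∀ (x : B) (r : R), r ∉ Ideal.span {π} → (∃ z : B, r • x = π • z) →
      ∃ z : B, x = π • z := fun x r hr h => EtaleGauss.torsionFree_quot (Y := Y) K π hπ x r hr h
  have hinjRY : Function.Injective (algebraMap R Y) := by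
    rw [IsScalarTower.algebraMap_eq R K Y]
    exact (algebraMap K Y).injective.comp (IsFractionRing.injective R K)
  have hπY : algebraMap R Y π ≠ 0 := fun h => hπ.ne_zero (hinjRY (h.trans (map_zero _).symm))
  have hnm : ∀ s : R, ¬ π ∣ s → s ∉ Ideal.span {π} := fun s hs h =>
    hs (Ideal.mem_span_singleton.mp h)
  -- the hypotheses of `Purity.purity`
  have hc' : ∃ s : R, s ∉ Ideal.span {π} ∧ ∃ b : B, s • c = algebraMap B Y b := by
    obtain ⟨s, hs, hi⟩ := hc
    exact ⟨s, hnm s hs, IsIntegralClosure.mk' B (s • c) hi,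
      (IsIntegralClosure.algebraMap_mk' B _ hi).symm⟩
  have hp : (X ^ 2 - X : R[X]).Monic := monic_X_pow_sub (by rw [degree_X]; norm_num)
  have hpc : ∃ s : R, s ∉ Ideal.span {π} ∧ ∃ b : B,
      s • Polynomial.aeval c (X ^ 2 - X : R[X]) = π • algebraMap B Y b := by
    obtain ⟨d, ⟨s, hs, hi⟩, hd⟩ := hcc
    refine ⟨s, hnm s hs, IsIntegralClosure.mk' B (s • d) hi, ?_⟩
    rw [IsIntegralClosure.algebraMap_mk' B _ hi, map_sub, map_pow, aeval_X, hd, smul_comm]
  obtain ⟨b, s, hs, b₁, h⟩ := Purity.purity (K := K) π hπ.ne_zero hprime hDed hT hU c hc'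
    (X ^ 2 - X) hp hpc
  refine ⟨algebraMap B Y b, (IsIntegralClosure.isIntegral R Y b).algebraMap,
    (algebraMap R Y π)⁻¹ * (c - algebraMap B Y b),
    ⟨s, fun hd => hs (Ideal.mem_span_singleton.mpr hd), ?_⟩, ?_⟩
  · have : s • ((algebraMap R Y π)⁻¹ * (c - algebraMap B Y b)) = algebraMap B Y b₁ := by
      rw [← mul_smul_comm, h, Algebra.smul_def, ← mul_assoc, inv_mul_cancel₀ hπY, one_mul]
    rw [this]
    exact (IsIntegralClosure.isIntegral R Y b₁).algebraMap
  · rw [Algebra.smul_def, ← mul_assoc, mul_inv_cancel₀ hπY, one_mul]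

/-- **Generic chart theorem** (trace-form currency).  `D` = chart ring of the `j`-line, `R0` =
regular ring of the auxiliary line (integral over `D`), `K' = Frac R0`, `Y'` a finite separable
extension of `K'` which is Galois over `F2`, `B'` = integral closure of `R0` in `Y'`.  If the
trace form of `B'` is nondegenerate at `(π)` and at every prime of `R0` not containing `π`, then
an idempotent `ε` modulo `π` of the Gauss-integral elements of `F2` lifts to an element of `F2`
integral over `D`. -/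
theorem chart_lift_of_hU {D R0 K' F2 Y' B' : Type*} [CommRing D] [CommRing R0] [IsDomain R0]
    [IsNoetherianRing R0] [IsIntegrallyClosed R0] [Field K'] [Field F2] [Field Y']
    [Algebra D R0] [Algebra D F2] [Algebra R0 K'] [Algebra K' Y'] [Algebra R0 Y'] [Algebra F2 Y']
    [Algebra D Y'] [IsScalarTower D R0 Y'] [IsScalarTower D F2 Y'] [IsScalarTower R0 K' Y']
    [IsFractionRing R0 K'] [FiniteDimensional K' Y'] [Algebra.IsSeparable K' Y']
    [FiniteDimensional F2 Y'] [IsGalois F2 Y'] [Algebra.IsIntegral D R0]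
    [CommRing B'] [Algebra R0 B'] [Algebra B' Y'] [IsScalarTower R0 B' Y']
    [IsIntegralClosure B' R0 Y']
    (π : D) (hπ : Prime (algebraMap D R0 π))
    (hDed : IsDedekindDomain (R0 ⧸ Ideal.span {algebraMap D R0 π}))
    (hcompat : ∀ a : D, algebraMap D R0 π ∣ algebraMap D R0 a → π ∣ a)
    (hU : ∀ 𝔭 : Ideal R0, 𝔭.IsPrime → (𝔭 = Ideal.span {algebraMap D R0 π} ∨ algebraMap D R0 π ∉ 𝔭) →
        ∀ x : B', (∀ y : B', ∃ a ∈ 𝔭,
          Algebra.trace K' Y' (algebraMap B' Y' (x * y)) = algebraMap R0 K' a) →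
        ∃ s : R0, s ∉ 𝔭 ∧ s • x ∈ 𝔭 • (⊤ : Submodule R0 B'))
    (ε : F2) (hε : IsGaussInt D π ε) (hεε : ∃ d : F2, IsGaussInt D π d ∧ ε ^ 2 - ε = π • d) :
    ∃ e : F2, IsIntegral D e ∧ ∃ d : F2, IsGaussInt D π d ∧ e - ε = π • d := by
  have hinj : Function.Injective (algebraMap R0 Y') := by
    rw [IsScalarTower.algebraMap_eq R0 K' Y']
    exact (algebraMap K' Y').injective.comp (IsFractionRing.injective R0 K')
  exact Chart.chart_lift_of_purity π hπ hcompat hinj ε hε hεε
    (fun hc hcc => purity_gaussInt (K := K') (B := B') (algebraMap D R0 π) hπ hDed hU _ hc hcc)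

/-- **Generic chart theorem**, with the unramifiedness hypothesis stated through
`TowerUnram.TraceNondeg` (the same statement as `chart_lift_of_hU`, the two forms of `hU` being
definitionally equal). -/
theorem chart_lift_hU {D R0 K' F2 Y' B' : Type*} [CommRing D] [CommRing R0] [IsDomain R0]
    [IsNoetherianRing R0] [IsIntegrallyClosed R0] [Field K'] [Field F2] [Field Y']
    [Algebra D R0] [Algebra D F2] [Algebra R0 K'] [Algebra K' Y'] [Algebra R0 Y'] [Algebra F2 Y']
    [Algebra D Y'] [IsScalarTower D R0 Y'] [IsScalarTower D F2 Y'] [IsScalarTower R0 K' Y']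
    [IsFractionRing R0 K'] [FiniteDimensional K' Y'] [Algebra.IsSeparable K' Y']
    [FiniteDimensional F2 Y'] [IsGalois F2 Y'] [Algebra.IsIntegral D R0]
    [CommRing B'] [Algebra R0 B'] [Algebra B' Y'] [IsScalarTower R0 B' Y']
    [IsIntegralClosure B' R0 Y']
    (π : D) (hπ : Prime (algebraMap D R0 π))
    (hDed : IsDedekindDomain (R0 ⧸ Ideal.span {algebraMap D R0 π}))
    (hcompat : ∀ a : D, algebraMap D R0 π ∣ algebraMap D R0 a → π ∣ a)
    (hU : ∀ 𝔭 : Ideal R0, 𝔭.IsPrime → (𝔭 = Ideal.span {algebraMap D R0 π} ∨ algebraMap D R0 π ∉ 𝔭) →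
        TowerUnram.TraceNondeg R0 K' Y' B' 𝔭)
    (ε : F2) (hε : IsGaussInt D π ε) (hεε : ∃ d : F2, IsGaussInt D π d ∧ ε ^ 2 - ε = π • d) :
    ∃ e : F2, IsIntegral D e ∧ ∃ d : F2, IsGaussInt D π d ∧ e - ε = π • d :=
  chart_lift_of_hU (K' := K') (B' := B') π hπ hDed hcompat (fun 𝔭 h𝔭 h => hU 𝔭 h𝔭 h) ε hε hεε

/-- `chart_lift_hU` for the concrete integral closure `integralClosure R0 Y'`. -/
theorem chart_lift_hU_integralClosure {D R0 K' F2 Y' : Type*} [CommRing D] [CommRing R0]
    [IsDomain R0] [IsNoetherianRing R0] [IsIntegrallyClosed R0] [Field K'] [Field F2] [Field Y']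
    [Algebra D R0] [Algebra D F2] [Algebra R0 K'] [Algebra K' Y'] [Algebra R0 Y'] [Algebra F2 Y']
    [Algebra D Y'] [IsScalarTower D R0 Y'] [IsScalarTower D F2 Y'] [IsScalarTower R0 K' Y']
    [IsFractionRing R0 K'] [FiniteDimensional K' Y'] [Algebra.IsSeparable K' Y']
    [FiniteDimensional F2 Y'] [IsGalois F2 Y'] [Algebra.IsIntegral D R0]
    (π : D) (hπ : Prime (algebraMap D R0 π))
    (hDed : IsDedekindDomain (R0 ⧸ Ideal.span {algebraMap D R0 π}))
    (hcompat : ∀ a : D, algebraMap D R0 π ∣ algebraMap D R0 a → π ∣ a)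
    (hU : ∀ 𝔭 : Ideal R0, 𝔭.IsPrime → (𝔭 = Ideal.span {algebraMap D R0 π} ∨ algebraMap D R0 π ∉ 𝔭) →
        TowerUnram.TraceNondeg R0 K' Y' (integralClosure R0 Y') 𝔭)
    (ε : F2) (hε : IsGaussInt D π ε) (hεε : ∃ d : F2, IsGaussInt D π d ∧ ε ^ 2 - ε = π • d) :
    ∃ e : F2, IsIntegral D e ∧ ∃ d : F2, IsGaussInt D π d ∧ e - ε = π • d :=
  chart_lift_hU (K' := K') (B' := integralClosure R0 Y') π hπ hDed hcompat hU ε hε hεε

end Fermat.Agent.S18.ChartHU
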