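import Mathlib

set_option autoImplicit false

/-!
# S18, package P4b: Abhyankar's lemma (tame case, residue characteristic `0`), Dedekind form

Pure commutative algebra, no dependence on the modular setting.

* `ringHom_eq_id_of_tame`: a finite-order ring endomorphism of a Dedekind `ℚ`-algebra that is trivial
  modulo a nonzero prime `q` and fixes a uniformiser modulo `q^2` is the identity (no wild inertia).
* `algebraMap_uniformizer_mem`: a uniformiser of `q = Q ∩ S` has exact order `e(Q | q)` at `Q`.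
* `ramificationIdx_eq_one_of_dvd`: **Abhyankar**.  `A ⊆ BF ⊆ BY`, `A ⊆ BM ⊆ BY` Dedekind, `BY`
  Galois over `BF` with group `H` (Mathlib `IsGaloisGroup H BF BY`), `H` preserving `BM` and acting
  faithfully on it (i.e. `Y = F·M`, `M/K` normal).  If `e(Q ∩ BF | A)` divides `e(Q ∩ BM | A)` then
  `e(Q | BM) = 1`.
* `isUnramifiedAt_of_dvd`: the same conclusion as `Algebra.IsUnramifiedAt BM Q`.
-/

namespace Fermat.Agent.S18.Abhyankar

open Ideal

section Tame

variable {B : Type*} [CommRing B]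

theorem ringHom_pow_mem (q : Ideal B) (τ : B →+* B) (hin : ∀ x, τ x - x ∈ q) (m : ℕ) (y : B)
    (hy : y ∈ q ^ m) : τ y ∈ q ^ m := by
  have hτq : ∀ y ∈ q, τ y ∈ q := fun y hy => by
    have := q.add_mem (hin y) hy
    rwa [sub_add_cancel] at this
  have hmapq : q.map τ ≤ q := Ideal.map_le_iff_le_comap.mpr fun y hy => hτq y hy
  have h1 : τ y ∈ (q ^ m).map τ := Ideal.mem_map_of_mem τ hy
  rw [Ideal.map_pow] at h1
  exact Ideal.pow_right_mono hmapq m h1

variable [IsDedekindDomain B]

/-- **Tame inertia has no wild part in residue characteristic `0`.**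
A ring endomorphism `τ` of a Dedekind domain `B` with `τ^n = id`, `n` invertible in `B`,
acting trivially modulo a nonzero prime `q` and fixing a uniformiser `π` of `q` modulo `q^2`,
is the identity. -/
theorem ringHom_eq_id_of_tame (q : Ideal B) [q.IsPrime] (hq : q ≠ ⊥)
    (τ : B →+* B) (n : ℕ) (hτn : ∀ x, (τ^[n]) x = x) (hnu : IsUnit (n : B))
    (hin : ∀ x, τ x - x ∈ q)
    (π : B) (hπ : π ∈ q) (hπ2 : π ∉ q ^ 2) (hτπ : τ π - π ∈ q ^ 2) : ∀ x, τ x = x := by
  -- (S0) `τ` preserves the powers of `q`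
  have hτq : ∀ y ∈ q, τ y ∈ q := fun y hy => by
    have := q.add_mem (hin y) hy
    rwa [sub_add_cancel] at this
  have hτpow : ∀ (m : ℕ) (y : B), y ∈ q ^ m → τ y ∈ q ^ m := ringHom_pow_mem q τ hin
  -- (S1) `τ` is trivial on `q / q^2`
  have h1 : ∀ y ∈ q, τ y - y ∈ q ^ 2 := by
    intro y hy
    obtain ⟨d, e, he, hde⟩ := Ideal.exists_mul_add_mem_pow_succ hq (i := 1) π y
      (by simpa using hπ) (by simpa using hπ2) (by simpa using hy)
    have he2 : e ∈ q ^ 2 := by simpa using he
    have e1 : τ y - y = (τ π - π) * τ d + π * (τ d - d) + (τ e - e) := by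
      rw [← hde]; simp only [map_add, map_mul]; ring
    rw [e1]
    refine Ideal.add_mem _ (Ideal.add_mem _ (Ideal.mul_mem_right _ _ hτπ) ?_)
      (Ideal.sub_mem _ (hτpow 2 e he2) he2)
    rw [pow_two]
    exact Ideal.mul_mem_mul hπ (hin d)
  -- (S2) `τ` is trivial on `q^m / q^(m+1)` for `m ≥ 1`
  have h2 : ∀ (m : ℕ), 1 ≤ m → ∀ y ∈ q ^ m, τ y - y ∈ q ^ (m + 1) := by
    intro m hm
    induction m, hm using Nat.le_induction with
    | base => intro y hy; exact h1 y (by simpa using hy)
    | succ m hm ih =>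
      intro y hy
      rw [pow_succ] at hy
      refine Submodule.mul_induction_on hy ?_ ?_
      · intro a ha b hb
        have e1 : τ (a * b) - a * b = (τ a - a) * τ b + a * (τ b - b) := by
          simp only [map_mul]; ring
        rw [e1]
        refine Ideal.add_mem _ ?_ ?_
        · have : (τ a - a) * τ b ∈ q ^ (m + 1) * q := Ideal.mul_mem_mul (ih a ha) (hτq b hb)
          rwa [← pow_succ] at this
        · have : a * (τ b - b) ∈ q ^ m * q ^ 2 := Ideal.mul_mem_mul ha (h1 b hb)
          rwa [← pow_add] at this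
      · intro a b ha hb
        have e1 : τ (a + b) - (a + b) = (τ a - a) + (τ b - b) := by
          simp only [map_add]; ring
        rw [e1]
        exact Ideal.add_mem _ ha hb
  -- (S3) `τ` is trivial modulo every power of `q`
  have h3 : ∀ (i : ℕ), 1 ≤ i → ∀ x, τ x - x ∈ q ^ i := by
    intro i hi
    induction i, hi using Nat.le_induction with
    | base => intro x; simpa using hin x
    | succ i hi ih =>
      intro x
      have key : ∀ k : ℕ, (τ^[k]) x - x - (k : B) * (τ x - x) ∈ q ^ (i + 1) := by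
        intro k
        induction k with
        | zero => simp
        | succ k ihk =>
          set w := (τ^[k]) x - x with hw
          have hwi : w ∈ q ^ i := by
            have : w = (w - (k : B) * (τ x - x)) + (k : B) * (τ x - x) := by ring
            rw [this]
            exact Ideal.add_mem _ (Ideal.pow_le_pow_right (Nat.le_succ i) ihk)
              (Ideal.mul_mem_left _ _ (ih x))
          have e1 : (τ^[k + 1]) x - x - ((k + 1 : ℕ) : B) * (τ x - x) =
              (τ w - w) + (w - (k : B) * (τ x - x)) := by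
            rw [Function.iterate_succ_apply', hw]
            simp only [map_sub, Nat.cast_add, Nat.cast_one]
            ring
          rw [e1]
          exact Ideal.add_mem _ (h2 i hi w hwi) ihk
      have hn := key n
      rw [hτn x, sub_self, zero_sub] at hn
      obtain ⟨u, hu⟩ := hnu
      have : τ x - x = -(↑u⁻¹ : B) * (-((n : B) * (τ x - x))) := by
        rw [← hu]
        rw [neg_mul_neg, ← mul_assoc, Units.inv_mul, one_mul]
      rw [this]
      exact Ideal.mul_mem_left _ _ hn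
  -- (S4) Krull intersection
  intro x
  have hmem : τ x - x ∈ ⨅ i : ℕ, q ^ i := by
    rw [Ideal.mem_iInf]
    intro i
    rcases Nat.eq_zero_or_pos i with rfl | hi
    · simp
    · exact h3 i hi x
  rw [Ideal.iInf_pow_eq_bot_of_isDomain q (Ideal.IsPrime.ne_top ‹_›)] at hmem
  exact sub_eq_zero.mp hmem

end Tame

section Order

variable {T : Type*} [CommRing T] [IsDedekindDomain T]

theorem emultiplicity_span_eq_iff (Q : Ideal T) (x : T) (m : ℕ) :
    emultiplicity Q (Ideal.span {x}) = m ↔ x ∈ Q ^ m ∧ x ∉ Q ^ (m + 1) := by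
  rw [emultiplicity_eq_coe, Ideal.dvd_span_singleton, Ideal.dvd_span_singleton]

theorem pow_mem_notMem (Q : Ideal T) [Q.IsPrime] (hQ : Q ≠ ⊥) {x : T} {m : ℕ}
    (h1 : x ∈ Q ^ m) (h2 : x ∉ Q ^ (m + 1)) (a : ℕ) :
    x ^ a ∈ Q ^ (a * m) ∧ x ^ a ∉ Q ^ (a * m + 1) := by
  have hp : Prime Q := Ideal.prime_of_isPrime hQ inferInstance
  have h := (emultiplicity_span_eq_iff Q x m).mpr ⟨h1, h2⟩
  have h' : emultiplicity Q (Ideal.span {x ^ a}) = ((a * m : ℕ) : ℕ∞) := by
    rw [← Ideal.span_singleton_pow, emultiplicity_pow hp, h]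
    push_cast
    rfl
  exact (emultiplicity_span_eq_iff Q (x ^ a) (a * m)).mp h'

end Order

section Uniformizer

variable {S T : Type*} [CommRing S] [CommRing T] [IsDedekindDomain S] [IsDedekindDomain T]
  [Algebra S T] [Module.Finite S T] [FaithfulSMul S T]

omit [IsDedekindDomain S] in
/-- `q T ⊆ Q^e` for `q = Q ∩ S`, `e = e(Q | q)`. -/
theorem map_under_le_pow (Q : Ideal T) [Q.IsPrime] (hQ : Q ≠ ⊥) [IsDomain S] :
    (Q.under S).map (algebraMap S T) ≤ Q ^ (Q.ramificationIdx S) := by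
  have hq0 : Q.under S ≠ ⊥ := Ideal.under_ne_bot S hQ
  have hmap : (Q.under S).map (algebraMap S T) ≠ ⊥ := Ideal.map_ne_bot_of_ne_bot hq0
  rw [Ideal.IsDedekindDomain.ramificationIdx_eq_multiplicity (Q.under S) Q hmap]
  exact Ideal.le_of_dvd (pow_multiplicity_dvd _ _)

/-- A uniformiser of `q = Q ∩ S` has exact order `e(Q | q)` at `Q`. -/
theorem algebraMap_uniformizer_mem (Q : Ideal T) [Q.IsPrime] (hQ : Q ≠ ⊥) (π : S)
    (hπ : π ∈ Q.under S) (hπ2 : π ∉ (Q.under S) ^ 2) :
    algebraMap S T π ∈ Q ^ (Q.ramificationIdx S) ∧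
      algebraMap S T π ∉ Q ^ (Q.ramificationIdx S + 1) := by
  set q := Q.under S with hq
  have hq0 : q ≠ ⊥ := Ideal.under_ne_bot S hQ
  have hmap : q.map (algebraMap S T) ≠ ⊥ :=
    Ideal.map_ne_bot_of_ne_bot hq0
  have he : Q.ramificationIdx S = multiplicity Q (q.map (algebraMap S T)) :=
    Ideal.IsDedekindDomain.ramificationIdx_eq_multiplicity q Q hmap
  have hepos : 0 < Q.ramificationIdx S := Ideal.ramificationIdx_pos Q S
  have hle : q.map (algebraMap S T) ≤ Q ^ (Q.ramificationIdx S) := map_under_le_pow Q hQ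
  set e := Q.ramificationIdx S with hedef
  have hfin : FiniteMultiplicity Q (q.map (algebraMap S T)) := by
    apply FiniteMultiplicity.of_not_isUnit
    · rw [Ideal.isUnit_iff]
      exact Ideal.IsPrime.ne_top ‹_›
    · exact hmap
  have hnle : ¬ q.map (algebraMap S T) ≤ Q ^ (e + 1) := by
    intro h
    have h1 : Q ^ (e + 1) ∣ q.map (algebraMap S T) := Ideal.dvd_iff_le.mpr h
    exact hfin.not_pow_dvd_of_multiplicity_lt (by rw [← he]; exact Nat.lt_succ_self e) h1
  refine ⟨hle (Ideal.mem_map_of_mem _ hπ), fun hcon => hnle ?_⟩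
  rw [Ideal.map_le_iff_le_comap]
  intro y hy
  rw [Ideal.mem_comap]
  obtain ⟨d, e', he', hde⟩ := Ideal.exists_mul_add_mem_pow_succ hq0 (i := 1) π y
    (by simpa using hπ) (by simpa using hπ2) (by simpa using hy)
  rw [← hde, map_add, map_mul]
  refine Ideal.add_mem _ (Ideal.mul_mem_right _ _ hcon) ?_
  have h2 : algebraMap S T e' ∈ (q.map (algebraMap S T)) ^ 2 := by
    rw [← Ideal.map_pow]
    exact Ideal.mem_map_of_mem _ (by simpa using he')
  have h3 : (q.map (algebraMap S T)) ^ 2 ≤ Q ^ (e + 1) := by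
    calc (q.map (algebraMap S T)) ^ 2 ≤ (Q ^ e) ^ 2 := Ideal.pow_right_mono hle 2
      _ = Q ^ (e * 2) := (pow_mul Q e 2).symm
      _ ≤ Q ^ (e + 1) := Ideal.pow_le_pow_right (by omega)
  exact h3 h2

end Uniformizer

section Main

variable {A BF BM BY : Type*} [CommRing A] [CommRing BF] [CommRing BM] [CommRing BY]
  [IsDedekindDomain BF] [IsDedekindDomain BM] [IsDedekindDomain BY]
  [Algebra ℚ BF] [Algebra ℚ BM]
  [Algebra A BF] [Algebra A BM] [Algebra A BY] [Algebra BF BY] [Algebra BM BY]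
  [IsScalarTower A BF BY] [IsScalarTower A BM BY]
  [Module.Finite A BF] [Module.Finite A BM] [Module.Finite BF BY] [Module.Finite BM BY]
  [FaithfulSMul BF BY] [FaithfulSMul BM BY]
  {H : Type*} [Group H] [Finite H] [MulSemiringAction H BY] [IsGaloisGroup H BF BY]

omit [IsDedekindDomain BM] [Algebra ℚ BM] [Module.Finite BM BY] [Finite H]
  [IsDedekindDomain BY] in
theorem exists_res
    (hres : ∀ (σ : H) (x : BM), ∃ y : BM, algebraMap BM BY y = σ • algebraMap BM BY x)
    (σ : H) : ∃ τ : BM →+* BM, ∀ x, algebraMap BM BY (τ x) = σ • algebraMap BM BY x := by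
  have hinj : Function.Injective (algebraMap BM BY) := FaithfulSMul.algebraMap_injective BM BY
  choose f hf using hres σ
  refine ⟨{ toFun := f, map_one' := ?_, map_mul' := ?_, map_zero' := ?_, map_add' := ?_ }, hf⟩
  · apply hinj; rw [hf, map_one, smul_one]
  · intro x y; apply hinj; rw [hf, map_mul, map_mul, smul_mul', hf, hf]
  · apply hinj; rw [hf, map_zero, smul_zero]
  · intro x y; apply hinj; rw [hf, map_add, map_add, smul_add, hf, hf]

/-- **Abhyankar's lemma (tame, residue characteristic `0`), Dedekind form.**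
`A ⊆ BF ⊆ BY`, `A ⊆ BM ⊆ BY` Dedekind domains (ℚ-algebras), `BY` Galois over `BF` with group `H`
preserving `BM` and acting faithfully on it.  If `e(P | p)` divides `e(q | p)` for the primes
`P = Q ∩ BF`, `q = Q ∩ BM`, then `Q` is unramified over `BM`. -/
theorem ramificationIdx_eq_one_of_dvd
    (hres : ∀ (σ : H) (x : BM), ∃ y : BM, algebraMap BM BY y = σ • algebraMap BM BY x)
    (hinj : ∀ σ : H, (∀ x : BM, σ • algebraMap BM BY x = algebraMap BM BY x) → σ = 1)
    (Q : Ideal BY) [Q.IsPrime] (hQ : Q ≠ ⊥)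
    (hdvd : (Q.under BF).ramificationIdx A ∣ (Q.under BM).ramificationIdx A) :
    Q.ramificationIdx BM = 1 := by
  classical
  have hinjM : Function.Injective (algebraMap BM BY) := FaithfulSMul.algebraMap_injective BM BY
  have hcomm : SMulCommClass H BF BY := IsGaloisGroup.commutes
  choose res hresσ using exists_res (H := H) hres
  set P := Q.under BF with hP
  set q := Q.under BM with hq
  have hP0 : P ≠ ⊥ := Ideal.under_ne_bot BF hQ
  have hq0 : q ≠ ⊥ := Ideal.under_ne_bot BM hQ
  -- ramification indices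
  have he1pos : 0 < Q.ramificationIdx BF := Ideal.ramificationIdx_pos Q BF
  have he2pos : 0 < Q.ramificationIdx BM := Ideal.ramificationIdx_pos Q BM
  have heFpos : 0 < P.ramificationIdx A := Ideal.ramificationIdx_pos P A
  have heMpos : 0 < q.ramificationIdx A := Ideal.ramificationIdx_pos q A
  have t1 : Q.ramificationIdx A = P.ramificationIdx A * Q.ramificationIdx BF :=
    Ideal.ramificationIdx_tower P Q
  have t2 : Q.ramificationIdx A = q.ramificationIdx A * Q.ramificationIdx BM :=
    Ideal.ramificationIdx_tower q Q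
  obtain ⟨a, ha⟩ := hdvd
  set e1 := Q.ramificationIdx BF with he1
  set e2 := Q.ramificationIdx BM with he2
  set eF := P.ramificationIdx A with heF
  set eM := q.ramificationIdx A with heM
  have hapos : 0 < a := by
    rcases Nat.eq_zero_or_pos a with h | h
    · rw [h, mul_zero] at ha; omega
    · exact h
  have he1a : e1 = a * e2 := by
    have : eF * e1 = eF * (a * e2) := by rw [← t1, t2, ha]; ring
    exact Nat.eq_of_mul_eq_mul_left heFpos this
  -- Hilbert theory: the inertia group of `Q` in `H` has `e1` elements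
  have hcard : Nat.card (Q.inertia H) = e1 := by
    have : CharZero P.ResidueField :=
      charZero_of_injective_ringHom
        (f := (algebraMap BF P.ResidueField).comp (algebraMap ℚ BF)) (RingHom.injective _)
    rw [Ideal.card_inertia_eq_ramificationIdxIn (G := H) P Q,
      Ideal.ramificationIdxIn_eq_ramificationIdx P Q H]
  -- uniformisers
  obtain ⟨πM, hπM, hπM2⟩ : ∃ π, π ∈ q ∧ π ∉ q ^ 2 := by
    obtain ⟨x, hx, hx'⟩ := SetLike.exists_of_lt (Ideal.pow_succ_lt_pow hq0 1)
    exact ⟨x, by simpa using hx, by simpa using hx'⟩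
  obtain ⟨πF, hπF, hπF2⟩ : ∃ π, π ∈ P ∧ π ∉ P ^ 2 := by
    obtain ⟨x, hx, hx'⟩ := SetLike.exists_of_lt (Ideal.pow_succ_lt_pow hP0 1)
    exact ⟨x, by simpa using hx, by simpa using hx'⟩
  set xM := algebraMap BM BY πM with hxMdef
  set xF := algebraMap BF BY πF with hxFdef
  have hxM : xM ∈ Q ^ e2 ∧ xM ∉ Q ^ (e2 + 1) := algebraMap_uniformizer_mem Q hQ πM hπM hπM2
  have hxF : xF ∈ Q ^ e1 ∧ xF ∉ Q ^ (e1 + 1) := algebraMap_uniformizer_mem Q hQ πF hπF hπF2
  have hxMa : xM ^ a ∈ Q ^ e1 ∧ xM ^ a ∉ Q ^ (e1 + 1) := by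
    have := pow_mem_notMem Q hQ hxM.1 hxM.2 a
    rwa [← he1a] at this
  obtain ⟨D, Z, hZ, hDZ⟩ := Ideal.exists_mul_add_mem_pow_succ hQ (i := e1) (xM ^ a) xF
    hxMa.1 hxMa.2 hxF.1
  have hD : D ∉ Q := by
    intro hD
    apply hxF.2
    rw [← hDZ]
    exact Ideal.add_mem _ (by rw [pow_succ]; exact Ideal.mul_mem_mul hxMa.1 hD) hZ
  have hxMaD : xM ^ a * D ∉ Q ^ (e1 + 1) := fun h =>
    hD (Ideal.mem_prime_of_mul_mem_pow hQ hxMa.2 h)
  have hmapq : q.map (algebraMap BM BY) ≤ Q ^ e2 := map_under_le_pow Q hQ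
  -- the restriction maps
  have hres1 : ∀ x, res 1 x = x := fun x => hinjM (by rw [hresσ, one_smul])
  have hresmul : ∀ (σ σ' : H) (x : BM), res (σ * σ') x = res σ (res σ' x) := fun σ σ' x =>
    hinjM (by rw [hresσ, hresσ, hresσ, mul_smul])
  have hresiter : ∀ (σ : H) (k : ℕ) (x : BM), (res σ)^[k] x = res (σ ^ k) x := by
    intro σ k x
    induction k with
    | zero => rw [pow_zero, hres1]; rfl
    | succ k ih => rw [Function.iterate_succ_apply', ih, pow_succ', hresmul]
  -- inertia acts trivially modulo `Q` and `q`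
  have hIQ : ∀ σ ∈ Q.inertia H, ∀ y : BY, σ • y - y ∈ Q := fun σ hσ y => hσ y
  have hIq : ∀ σ ∈ Q.inertia H, ∀ x : BM, res σ x - x ∈ q := by
    intro σ hσ x
    rw [hq, Ideal.mem_under, map_sub, hresσ]
    exact hIQ σ hσ _
  have hIpow : ∀ σ ∈ Q.inertia H, ∀ (m : ℕ) (y : BY), y ∈ Q ^ m → σ • y ∈ Q ^ m := by
    intro σ hσ m y hy
    exact ringHom_pow_mem Q (MulSemiringAction.toRingHom H BY σ) (fun x => hIQ σ hσ x) m y hy
  -- the tame character datum
  have hdatum : ∀ σ ∈ Q.inertia H, ∃ d : BM, res σ πM - πM * d ∈ q ^ 2 := by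
    intro σ hσ
    have h1 : res σ πM ∈ q := by
      have := q.add_mem (hIq σ hσ πM) hπM
      rwa [sub_add_cancel] at this
    obtain ⟨d, e, he, hde⟩ := Ideal.exists_mul_add_mem_pow_succ hq0 (i := 1) πM (res σ πM)
      (by simpa using hπM) (by simpa using hπM2) (by simpa using h1)
    refine ⟨d, ?_⟩
    rw [← hde, add_sub_cancel_left]
    simpa using he
  -- Claim A: the character takes values in the `a`-th roots of unity
  have claimA : ∀ σ ∈ Q.inertia H, ∀ d : BM, res σ πM - πM * d ∈ q ^ 2 → d ^ a - 1 ∈ q := by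
    intro σ hσ d hd
    set Y := algebraMap BM BY (res σ πM - πM * d) with hY
    have hYmem : Y ∈ Q ^ (2 * e2) := by
      have h2 : Y ∈ (q.map (algebraMap BM BY)) ^ 2 := by
        rw [← Ideal.map_pow]
        exact Ideal.mem_map_of_mem _ hd
      have h3 : (q.map (algebraMap BM BY)) ^ 2 ≤ Q ^ (2 * e2) := by
        calc (q.map (algebraMap BM BY)) ^ 2 ≤ (Q ^ e2) ^ 2 := Ideal.pow_right_mono hmapq 2
          _ = Q ^ (2 * e2) := by rw [← pow_mul, mul_comm]
      exact h3 h2
    set X := xM * algebraMap BM BY d with hX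
    have hXmem : X ∈ Q ^ e2 := Ideal.mul_mem_right _ _ hxM.1
    have hσxM : σ • xM = X + Y := by
      rw [hxMdef, ← hresσ σ πM, hX, hY, hxMdef, ← map_mul, ← map_add]
      congr 1
      ring
    have hσxMmem : σ • xM ∈ Q ^ e2 := hIpow σ hσ e2 xM hxM.1
    -- `(X + Y)^a - X^a ∈ Q^(e1+1)`
    have hW1 : (X + Y) ^ a - X ^ a ∈ Q ^ (e1 + 1) := by
      have hgeom := Commute.geom_sum₂_mul (Commute.all (X + Y) X) a
      rw [add_sub_cancel_left] at hgeom
      rw [← hgeom]
      have hsum : ∑ i ∈ Finset.range a, (X + Y) ^ i * X ^ (a - 1 - i) ∈ Q ^ (e2 * (a - 1)) := by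
        refine Ideal.sum_mem _ fun i hi => ?_
        rw [Finset.mem_range] at hi
        have h1 : (X + Y) ^ i ∈ Q ^ (e2 * i) := by
          rw [pow_mul]
          exact Ideal.pow_mem_pow (hσxM ▸ hσxMmem) i
        have h2 : X ^ (a - 1 - i) ∈ Q ^ (e2 * (a - 1 - i)) := by
          rw [pow_mul]
          exact Ideal.pow_mem_pow hXmem _
        have h3 := Ideal.mul_mem_mul h1 h2
        rw [← pow_add] at h3
        have h4 : e2 * i + e2 * (a - 1 - i) = e2 * (a - 1) := by
          rw [← mul_add]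
          congr 1
          omega
        rwa [h4] at h3
      have h5 := Ideal.mul_mem_mul hsum hYmem
      rw [← pow_add] at h5
      refine Ideal.pow_le_pow_right ?_ h5
      rw [he1a]
      have : e2 * (a - 1) + 2 * e2 = a * e2 + e2 := by
        obtain ⟨b, rfl⟩ : ∃ b, a = b + 1 := ⟨a - 1, by omega⟩
        simp only [Nat.add_sub_cancel]
        ring
      omega
    have hσxF : σ • xF = xF := smul_algebraMap σ πF
    have hσeq : (σ • xM) ^ a * (σ • D) + σ • Z = xF := by
      have := congrArg (fun t => σ • t) hDZ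
      simp only [smul_add, smul_mul', smul_pow'] at this
      rw [this, hσxF]
    have hW2 : σ • D - D ∈ Q := hIQ σ hσ D
    have hσZ : σ • Z ∈ Q ^ (e1 + 1) := hIpow σ hσ _ Z hZ
    have hkey : xM ^ a * D * (algebraMap BM BY d ^ a - 1) ∈ Q ^ (e1 + 1) := by
      have e1' : xM ^ a * D * (algebraMap BM BY d ^ a - 1) =
          -(((X + Y) ^ a - X ^ a) * D) - (σ • xM) ^ a * (σ • D - D) - σ • Z + Z := by
        have hXa : X ^ a = xM ^ a * algebraMap BM BY d ^ a := by rw [hX, mul_pow]
        have h1 : xM ^ a * D = (σ • xM) ^ a * (σ • D) + σ • Z - Z := by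
          rw [hσeq, ← hDZ]; ring
        rw [hσxM] at h1 ⊢
        linear_combination (-1 : BY) * h1 + D * hXa
      rw [e1']
      refine Ideal.add_mem _ (Ideal.sub_mem _ (Ideal.sub_mem _ (Submodule.neg_mem _
        (Ideal.mul_mem_right _ _ hW1)) ?_) hσZ) hZ
      have h1 : (σ • xM) ^ a ∈ Q ^ e1 := by
        rw [he1a, mul_comm, pow_mul]
        exact Ideal.pow_mem_pow hσxMmem a
      rw [pow_succ]
      exact Ideal.mul_mem_mul h1 hW2
    have h1 := Ideal.mem_prime_of_mul_mem_pow hQ hxMaD hkey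
    rw [hq, Ideal.mem_under, map_sub, map_pow, map_one]
    exact h1
  -- Claim B: the character is injective
  have claimB : ∀ σ ∈ Q.inertia H, ∀ σ' ∈ Q.inertia H, ∀ d d' : BM,
      res σ πM - πM * d ∈ q ^ 2 → res σ' πM - πM * d' ∈ q ^ 2 → d - d' ∈ q → σ = σ' := by
    intro σ hσ σ' hσ' d d' hd hd' hdd
    set ρ := σ⁻¹ * σ' with hρ
    have hρI : ρ ∈ Q.inertia H := (Q.inertia H).mul_mem ((Q.inertia H).inv_mem hσ) hσ'
    have hE : res σ' πM - res σ πM ∈ q ^ 2 := by
      have : res σ' πM - res σ πM =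
          (res σ' πM - πM * d') - (res σ πM - πM * d) - πM * (d - d') := by ring
      rw [this]
      refine Ideal.sub_mem _ (Ideal.sub_mem _ hd' hd) ?_
      rw [pow_two]
      exact Ideal.mul_mem_mul hπM hdd
    have hρπ : res ρ πM - πM ∈ q ^ 2 := by
      have h1 : res ρ πM - πM = res σ⁻¹ (res σ' πM - res σ πM) := by
        rw [hρ, hresmul, map_sub, ← hresmul σ⁻¹ σ, inv_mul_cancel, hres1]
      rw [h1]
      exact ringHom_pow_mem q (res σ⁻¹) (hIq σ⁻¹ ((Q.inertia H).inv_mem hσ)) 2 _ hE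
    have hn : IsUnit ((orderOf ρ : ℕ) : BM) := by
      have h0 : ((orderOf ρ : ℕ) : ℚ) ≠ 0 := Nat.cast_ne_zero.mpr (orderOf_pos ρ).ne'
      have := (isUnit_iff_ne_zero.mpr h0).map (algebraMap ℚ BM)
      rwa [map_natCast] at this
    have hid := ringHom_eq_id_of_tame q hq0 (res ρ) (orderOf ρ)
      (fun x => by rw [hresiter, pow_orderOf_eq_one, hres1]) hn (hIq ρ hρI) πM hπM hπM2 hρπ
    have hρ1 : ρ = 1 := hinj ρ fun x => by rw [← hresσ, hid]
    rw [hρ, inv_mul_eq_one] at hρ1
    exact hρ1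
  -- counting
  choose! dσ hdσ using hdatum
  have hcardle : Nat.card (Q.inertia H) ≤ a := by
    let f : Q.inertia H → {z : BM ⧸ q // z ∈ Polynomial.nthRootsFinset a (1 : BM ⧸ q)} :=
      fun σ => ⟨Ideal.Quotient.mk q (dσ σ.1), by
        rw [Polynomial.mem_nthRootsFinset hapos, ← map_pow, ← sub_eq_zero, ← map_one
          (Ideal.Quotient.mk q), ← map_sub, Ideal.Quotient.eq_zero_iff_mem]
        exact claimA σ.1 σ.2 _ (hdσ σ.1 σ.2)⟩
    have hf : Function.Injective f := by
      intro σ σ' h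
      have h1 : Ideal.Quotient.mk q (dσ σ.1) = Ideal.Quotient.mk q (dσ σ'.1) :=
        congrArg Subtype.val h
      rw [Ideal.Quotient.eq] at h1
      exact Subtype.ext (claimB σ.1 σ.2 σ'.1 σ'.2 _ _ (hdσ σ.1 σ.2) (hdσ σ'.1 σ'.2) h1)
    calc Nat.card (Q.inertia H)
        ≤ Nat.card {z : BM ⧸ q // z ∈ Polynomial.nthRootsFinset a (1 : BM ⧸ q)} :=
          Nat.card_le_card_of_injective f hf
      _ = (Polynomial.nthRootsFinset a (1 : BM ⧸ q)).card := by
          rw [Nat.card_eq_fintype_card, Fintype.card_coe]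
      _ ≤ Multiset.card (Polynomial.nthRoots a (1 : BM ⧸ q)) := by
          rw [Polynomial.nthRootsFinset_def]
          exact Multiset.toFinset_card_le _
      _ ≤ a := Polynomial.card_nthRoots a 1
  rw [hcard, he1a] at hcardle
  have : e2 ≤ 1 := by
    by_contra hcon
    push Not at hcon
    have : a * 2 ≤ a * e2 := Nat.mul_le_mul_left a hcon
    omega
  omega

/-- **Abhyankar's lemma**, conclusion in the form `Algebra.IsUnramifiedAt`. -/
theorem isUnramifiedAt_of_dvd
    (hres : ∀ (σ : H) (x : BM), ∃ y : BM, algebraMap BM BY y = σ • algebraMap BM BY x)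
    (hinj : ∀ σ : H, (∀ x : BM, σ • algebraMap BM BY x = algebraMap BM BY x) → σ = 1)
    (Q : Ideal BY) [Q.IsPrime] (hQ : Q ≠ ⊥)
    (hdvd : (Q.under BF).ramificationIdx A ∣ (Q.under BM).ramificationIdx A) :
    Algebra.IsUnramifiedAt BM Q := by
  have : CharZero (Q.under BM).ResidueField :=
    charZero_of_injective_ringHom
      (f := (algebraMap BM (Q.under BM).ResidueField).comp (algebraMap ℚ BM)) (RingHom.injective _)
  exact Ideal.ramificationIdx_eq_one_iff.mp
    (ramificationIdx_eq_one_of_dvd (A := A) (BF := BF) hres hinj Q hQ hdvd)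

end Main

end Fermat.Agent.S18.Abhyankar
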