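import Mathlib
import Fermat.Agent.S18.Abhyankar

set_option autoImplicit false
set_option linter.style.haveILetI false

/-!
# S18, package P4c: Abhyankar's lemma, field-level wrapper and branch-data form

Builds on `Fermat.Agent.S18.Abhyankar` (Dedekind form).  Pure commutative algebra.

* `dvd_ramificationIdx_of_eq_mul_pow`: if a uniformiser of `Q ∩ S` is `u * g ^ n` with `u ∉ Q`,
  then `n ∣ e(Q | S)`.
* `forall_dvd_of_branch`: the divisibility hypothesis from branch data.
* `intValuation_algebraMap_uniformizer`, `valuation_algebraMap_uniformizer`,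
  `neg_log_valuation_algebraMap_uniformizer`: `e(Q | S)` as the `Q`-adic valuation of a
  uniformiser of `Q ∩ S` (bridge to the valuation / place currency).
* `isGalois_of_adjoin_eq_top`, `finiteDimensional_of_adjoin_eq_top`,
  `algEquiv_eq_one_of_adjoin_eq_top`: the compositum `Y = F·M` of a finite Galois `M/K`.
* `isUnramifiedAt_of_compositum`: **Abhyankar, field-level form** (`IsIntegralClosure` currency).
* `isUnramifiedAt_of_branch`: the same with the hypothesis given as branch data.
-/

namespace Fermat.Agent.S18.Abhyankar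

open Polynomial

section Divisibility

variable {S T : Type*} [CommRing S] [CommRing T] [IsDedekindDomain S] [IsDedekindDomain T]
  [Algebra S T] [Module.Finite S T] [FaithfulSMul S T]

/-- Exact order is unique. -/
theorem eq_of_pow_mem_notMem {T : Type*} [CommRing T] [IsDedekindDomain T] (Q : Ideal T)
    {x : T} {m n : ℕ} (h1 : x ∈ Q ^ m) (h2 : x ∉ Q ^ (m + 1)) (h3 : x ∈ Q ^ n)
    (h4 : x ∉ Q ^ (n + 1)) : m = n := by
  have hm := (emultiplicity_span_eq_iff Q x m).mpr ⟨h1, h2⟩
  have hn := (emultiplicity_span_eq_iff Q x n).mpr ⟨h3, h4⟩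
  rw [hm] at hn
  exact_mod_cast hn

/-- If a uniformiser `π` of `q = Q ∩ S` becomes `u * g ^ n` in `T` with `u ∉ Q`, then
`n ∣ e(Q | q)`. -/
theorem dvd_ramificationIdx_of_eq_mul_pow (Q : Ideal T) [Q.IsPrime] (hQ : Q ≠ ⊥) (π : S)
    (hπ : π ∈ Q.under S) (hπ2 : π ∉ (Q.under S) ^ 2) (u g : T) (n : ℕ) (hu : u ∉ Q)
    (h : algebraMap S T π = u * g ^ n) : n ∣ Q.ramificationIdx S := by
  obtain ⟨h1, h2⟩ := algebraMap_uniformizer_mem Q hQ π hπ hπ2
  set e := Q.ramificationIdx S with he
  rw [h] at h1 h2
  have hg0 : g ≠ 0 := by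
    rintro rfl
    rcases Nat.eq_zero_or_pos n with hn | hn
    · subst hn
      rw [pow_zero, mul_one] at h1
      have hepos : 0 < e := Ideal.ramificationIdx_pos Q S
      exact hu (Ideal.pow_le_self hepos.ne' h1)
    · rw [zero_pow hn.ne', mul_zero] at h2
      exact h2 (Ideal.zero_mem _)
  -- exact order of `g` at `Q`
  have hfin : FiniteMultiplicity Q (Ideal.span {g}) := by
    apply FiniteMultiplicity.of_not_isUnit
    · rw [Ideal.isUnit_iff]
      exact Ideal.IsPrime.ne_top ‹_›
    · rw [Ne, Ideal.zero_eq_bot, Ideal.span_singleton_eq_bot]; exact hg0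
  obtain ⟨m, hm⟩ : ∃ m : ℕ, emultiplicity Q (Ideal.span {g}) = m :=
    ⟨_, hfin.emultiplicity_eq_multiplicity⟩
  obtain ⟨hg1, hg2⟩ := (emultiplicity_span_eq_iff Q g m).mp hm
  obtain ⟨hp1, hp2⟩ := pow_mem_notMem Q hQ hg1 hg2 n
  have hup1 : u * g ^ n ∈ Q ^ (n * m) := Ideal.mul_mem_left _ _ hp1
  have hup2 : u * g ^ n ∉ Q ^ (n * m + 1) := fun hc =>
    (Ideal.IsPrime.mul_mem_pow Q hc).elim hu hp2
  have := eq_of_pow_mem_notMem Q h1 h2 hup1 hup2
  exact ⟨m, this⟩

omit [IsDedekindDomain S] [Module.Finite S T] [FaithfulSMul S T] [IsDedekindDomain T] in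
/-- A prime element `a` of a Dedekind domain lying in a prime `p` is a uniformiser of `p`. -/
theorem notMem_sq_of_prime [IsDedekindDomain S] (p : Ideal S) [p.IsPrime] (a : S) (ha : Prime a)
    (hap : a ∈ p) : p = Ideal.span {a} ∧ a ∉ p ^ 2 := by
  have hspan : (Ideal.span {a}).IsPrime := (Ideal.span_singleton_prime ha.ne_zero).mpr ha
  have hne : Ideal.span {a} ≠ ⊥ := by
    rw [Ne, Ideal.span_singleton_eq_bot]; exact ha.ne_zero
  have hmax : (Ideal.span {a}).IsMaximal := hspan.isMaximal hne
  have hle : Ideal.span {a} ≤ p := (Ideal.span_singleton_le_iff_mem p).mpr hap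
  have hpeq : p = Ideal.span {a} := (hmax.eq_of_le (Ideal.IsPrime.ne_top ‹_›) hle).symm
  refine ⟨hpeq, fun h2 => ?_⟩
  rw [hpeq, Ideal.span_singleton_pow, Ideal.mem_span_singleton] at h2
  obtain ⟨c, hc⟩ := h2
  have h1 : a * 1 = a * (a * c) := by rw [mul_one]; exact hc.trans (by ring)
  have h3 : 1 = a * c := mul_left_cancel₀ ha.ne_zero h1
  exact ha.not_isUnit (IsUnit.of_mul_eq_one c h3.symm)

end Divisibility

section Branch

variable {A BF BM : Type*} [CommRing A] [IsDedekindDomain A]
  [CommRing BF] [Algebra A BF]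
  [CommRing BM] [IsDedekindDomain BM] [Algebra A BM] [Module.Finite A BM] [FaithfulSMul A BM]

/-- **Branch-data form of the divisibility hypothesis of Abhyankar's lemma.**
`a i` are prime elements of `A` (the branch points), `m i` the ramification of the auxiliary cover
`M` over `a i` (`a i = unit * g ^ (m i)` in `BM`); if `F` has ramification dividing `m i` over
`a i` and is unramified elsewhere, then every `e(P | p)` divides every `e(q | p)`. -/
theorem forall_dvd_of_branch {ι : Type*} (a : ι → A) (m : ι → ℕ) (ha : ∀ i, Prime (a i))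
    (hF : ∀ (i : ι) (P : Ideal BF), P.IsPrime → P ≠ ⊥ → a i ∈ P.under A →
      P.ramificationIdx A ∣ m i)
    (hF' : ∀ P : Ideal BF, P.IsPrime → P ≠ ⊥ → (∀ i, a i ∉ P.under A) →
      P.ramificationIdx A = 1)
    (hM : ∀ i, ∃ u g : BM, IsUnit u ∧ algebraMap A BM (a i) = u * g ^ (m i)) :
    ∀ (P : Ideal BF) (q : Ideal BM), P.IsPrime → q.IsPrime → P ≠ ⊥ → q ≠ ⊥ →
      P.under A = q.under A → P.ramificationIdx A ∣ q.ramificationIdx A := by
  intro P q hP hq hP0 hq0 hPq
  by_cases hex : ∃ i, a i ∈ P.under A
  · obtain ⟨i, hi⟩ := hex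
    refine (hF i P hP hP0 hi).trans ?_
    obtain ⟨u, g, hu, hug⟩ := hM i
    have hiq : a i ∈ q.under A := hPq ▸ hi
    have h2 := (notMem_sq_of_prime (q.under A) (a i) (ha i) hiq).2
    have huq : u ∉ q := fun hc => (Ideal.IsPrime.ne_top hq) (Ideal.eq_top_of_isUnit_mem _ hc hu)
    exact dvd_ramificationIdx_of_eq_mul_pow q hq0 (a i) hiq h2 u g (m i) huq hug
  · rw [hF' P hP hP0 (fun i hi => hex ⟨i, hi⟩)]
    exact one_dvd _

end Branch

section Valuation

open IsDedekindDomain

variable {S T : Type*} [CommRing S] [CommRing T] [IsDedekindDomain S] [IsDedekindDomain T]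
  [Algebra S T] [Module.Finite S T] [FaithfulSMul S T]

/-- Valuation form of `algebraMap_uniformizer_mem`: the `Q`-adic valuation of a uniformiser of
`Q ∩ S` is `exp (-e(Q | S))`. -/
theorem intValuation_algebraMap_uniformizer (Q : HeightOneSpectrum T) (π : S)
    (hπ : π ∈ Q.asIdeal.under S) (hπ2 : π ∉ (Q.asIdeal.under S) ^ 2) :
    Q.intValuation (algebraMap S T π) = WithZero.exp (-(Q.asIdeal.ramificationIdx S : ℤ)) := by
  obtain ⟨h1, h2⟩ := algebraMap_uniformizer_mem Q.asIdeal Q.ne_bot π hπ hπ2
  refine le_antisymm ((Q.intValuation_le_pow_iff_mem _ _).mpr h1) ?_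
  by_contra hlt
  rw [not_le] at hlt
  apply h2
  rw [← Q.intValuation_le_pow_iff_mem]
  have hne : Q.intValuation (algebraMap S T π) ≠ 0 := by
    apply Q.intValuation_ne_zero
    rintro h0
    rw [h0] at h2
    exact h2 (Ideal.zero_mem _)
  rw [← WithZero.exp_log hne] at hlt ⊢
  rw [WithZero.exp_lt_exp] at hlt
  rw [WithZero.exp_le_exp]
  push_cast
  omega

/-- Fraction-field valuation form. -/
theorem valuation_algebraMap_uniformizer (F : Type*) [Field F] [Algebra T F] [IsFractionRing T F]
    (Q : HeightOneSpectrum T) (π : S)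
    (hπ : π ∈ Q.asIdeal.under S) (hπ2 : π ∉ (Q.asIdeal.under S) ^ 2) :
    Q.valuation F (algebraMap T F (algebraMap S T π)) =
      WithZero.exp (-(Q.asIdeal.ramificationIdx S : ℤ)) := by
  rw [HeightOneSpectrum.valuation_of_algebraMap, intValuation_algebraMap_uniformizer Q π hπ hπ2]

/-- Logarithmic form (the `ord` currency): `-log v_Q(π) = e(Q | S)`. -/
theorem neg_log_valuation_algebraMap_uniformizer (F : Type*) [Field F] [Algebra T F]
    [IsFractionRing T F] (Q : HeightOneSpectrum T) (π : S)
    (hπ : π ∈ Q.asIdeal.under S) (hπ2 : π ∉ (Q.asIdeal.under S) ^ 2) :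
    -(WithZero.log (Q.valuation F (algebraMap T F (algebraMap S T π)))) =
      (Q.asIdeal.ramificationIdx S : ℤ) := by
  rw [valuation_algebraMap_uniformizer F Q π hπ hπ2, WithZero.log_exp, neg_neg]

end Valuation

section Fields

variable {K F M Y : Type*} [Field K] [Field F] [Field M] [Field Y]
  [Algebra K F] [Algebra K M] [Algebra K Y] [Algebra F Y] [Algebra M Y]
  [IsScalarTower K F Y] [IsScalarTower K M Y]

/-- If `M/K` is finite Galois and `Y = F·M`, then `Y` is the splitting field over `F` of a
separable polynomial. -/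
theorem exists_isSplittingField_of_adjoin_eq_top [FiniteDimensional K M] [IsGalois K M]
    (hFM : IntermediateField.adjoin F (Set.range (algebraMap M Y)) = ⊤) :
    ∃ p' : F[X], p'.Separable ∧ p'.IsSplittingField F Y := by
  obtain ⟨p, hpsep, hpsplit⟩ := IsGalois.is_separable_splitting_field (F := K) (E := M)
  have hp0 : p ≠ 0 := hpsep.ne_zero
  set p' : F[X] := p.map (algebraMap K F) with hp'
  have hp'0 : p' ≠ 0 := (Polynomial.map_ne_zero_iff (algebraMap K F).injective).mpr hp0
  have hp'sep : p'.Separable := hpsep.map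
  have hmapY : p'.map (algebraMap F Y) = (p.map (algebraMap K M)).map (algebraMap M Y) := by
    rw [hp', Polynomial.map_map, Polynomial.map_map, ← IsScalarTower.algebraMap_eq,
      ← IsScalarTower.algebraMap_eq]
  have hsplits : (p'.map (algebraMap F Y)).Splits := by
    rw [hmapY]
    exact (hpsplit.splits).map (algebraMap M Y)
  -- the roots of `p` in `M` map to roots of `p'` in `Y`
  have hroot : ∀ r ∈ p.rootSet M, algebraMap M Y r ∈ p'.rootSet Y := by
    intro r hr
    rw [Polynomial.mem_rootSet] at hr ⊢
    refine ⟨hp'0, ?_⟩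
    rw [Polynomial.aeval_def, Polynomial.eval₂_eq_eval_map, hmapY, Polynomial.eval_map,
      Polynomial.eval₂_hom, ← Polynomial.eval₂_eq_eval_map, ← Polynomial.aeval_def, hr.2, map_zero]
  have hle : Set.range (algebraMap M Y) ⊆ (IntermediateField.adjoin F (p'.rootSet Y) : Set Y) := by
    rintro _ ⟨m, rfl⟩
    have hm : m ∈ Algebra.adjoin K (p.rootSet M) := by
      rw [hpsplit.adjoin_rootSet]; exact Algebra.mem_top
    induction hm using Algebra.adjoin_induction with
    | mem r hr => exact IntermediateField.subset_adjoin F _ (hroot r hr)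
    | algebraMap c =>
      rw [← IsScalarTower.algebraMap_apply, IsScalarTower.algebraMap_apply K F Y]
      exact (IntermediateField.adjoin F (p'.rootSet Y)).algebraMap_mem _
    | add x y _ _ hx hy => rw [map_add]; exact add_mem hx hy
    | mul x y _ _ hx hy => rw [map_mul]; exact mul_mem hx hy
  have htop : IntermediateField.adjoin F (p'.rootSet Y) = ⊤ := by
    rw [eq_top_iff, ← hFM]
    exact IntermediateField.adjoin_le_iff.mpr hle
  have halg : Algebra.adjoin F (p'.rootSet Y) = ⊤ := by
    rw [← IntermediateField.adjoin_toSubalgebra_of_isAlgebraic, htop, IntermediateField.top_toSubalgebra]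
    intro x hx
    rw [Polynomial.mem_rootSet] at hx
    exact ⟨p', hx.1, hx.2⟩
  exact ⟨p', hp'sep, ⟨hsplits, halg⟩⟩

/-- If `M/K` is finite Galois and `Y = F·M`, then `Y/F` is Galois. -/
theorem isGalois_of_adjoin_eq_top [FiniteDimensional K M] [IsGalois K M]
    (hFM : IntermediateField.adjoin F (Set.range (algebraMap M Y)) = ⊤) : IsGalois F Y := by
  obtain ⟨p', hp'sep, hsf⟩ := exists_isSplittingField_of_adjoin_eq_top (K := K) hFM
  exact IsGalois.of_separable_splitting_field hp'sep

/-- If `M/K` is finite Galois and `Y = F·M`, then `Y/F` is finite. -/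
theorem finiteDimensional_of_adjoin_eq_top [FiniteDimensional K M] [IsGalois K M]
    (hFM : IntermediateField.adjoin F (Set.range (algebraMap M Y)) = ⊤) :
    FiniteDimensional F Y := by
  obtain ⟨p', hp'sep, hsf⟩ := exists_isSplittingField_of_adjoin_eq_top (K := K) hFM
  exact Polynomial.IsSplittingField.finiteDimensional Y p'

/-- An `F`-automorphism of `Y = F·M` fixing the image of `M` is the identity. -/
theorem algEquiv_eq_one_of_adjoin_eq_top
    (hFM : IntermediateField.adjoin F (Set.range (algebraMap M Y)) = ⊤) (σ : Y ≃ₐ[F] Y)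
    (hσ : ∀ m : M, σ (algebraMap M Y m) = algebraMap M Y m) : σ = 1 := by
  let E : IntermediateField F Y :=
    { carrier := {y | σ y = y}
      mul_mem' := fun {a b} ha hb => by
        simp only [Set.mem_ofPred_eq] at ha hb ⊢; rw [map_mul, ha, hb]
      add_mem' := fun {a b} ha hb => by
        simp only [Set.mem_ofPred_eq] at ha hb ⊢; rw [map_add, ha, hb]
      algebraMap_mem' := fun r => σ.commutes r
      inv_mem' := fun a ha => by
        simp only [Set.mem_ofPred_eq] at ha ⊢; rw [map_inv₀, ha] }
  have hle : IntermediateField.adjoin F (Set.range (algebraMap M Y)) ≤ E :=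
    IntermediateField.adjoin_le_iff.mpr (by rintro _ ⟨m, rfl⟩; exact hσ m)
  rw [hFM] at hle
  ext y
  exact hle (IntermediateField.mem_top (x := y))

end Fields

section Wrapper

/-- If `C` is the integral closure of `B` in `L` and `B` is integral over `A`, then `C` is the
integral closure of `A` in `L`. -/
theorem isIntegralClosure_of_isIntegral (A B C L : Type*) [CommRing A] [CommRing B] [CommRing C]
    [CommRing L] [Algebra A B] [Algebra B L] [Algebra A L] [IsScalarTower A B L] [Algebra C L]
    [Algebra.IsIntegral A B] [IsIntegralClosure C B L] : IsIntegralClosure C A L :=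
  ⟨IsIntegralClosure.algebraMap_injective C B L,
    fun hx => (IsIntegralClosure.isIntegral_iff (R := B)).mp hx.tower_top,
    fun hx => isIntegral_trans (R := A) (A := B) _ ((IsIntegralClosure.isIntegral_iff (R := B)).mpr hx)⟩

/-- **Abhyankar's lemma, field-level form.**  `A` a Dedekind `ℚ`-algebra with fraction field `K`;
`F`, `M` finite extensions of `K` with `M/K` Galois; `Y = F·M`; `BF`, `BM` the integral closures of
`A` in `F`, `M` and `BY` the integral closure of `BM` in `Y`.  If over every prime of `A` every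
ramification index of `F/K` divides every ramification index of `M/K`, then `Y/M` is unramified at
every nonzero prime of `BY`. -/
theorem isUnramifiedAt_of_compositum
    {A K F M Y BF BM BY : Type*}
    [CommRing A] [IsDedekindDomain A] [Algebra ℚ A]
    [Field K] [Algebra A K] [IsFractionRing A K]
    [Field F] [Algebra K F] [FiniteDimensional K F] [Algebra A F] [IsScalarTower A K F]
    [Field M] [Algebra K M] [FiniteDimensional K M] [IsGalois K M] [Algebra A M]
    [IsScalarTower A K M]
    [Field Y] [Algebra K Y] [Algebra F Y] [Algebra M Y] [IsScalarTower K F Y] [IsScalarTower K M Y]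
    (hFM : IntermediateField.adjoin F (Set.range (algebraMap M Y)) = ⊤)
    [CommRing BF] [Algebra A BF] [Algebra BF F] [IsScalarTower A BF F] [IsIntegralClosure BF A F]
    [CommRing BM] [Algebra A BM] [Algebra BM M] [IsScalarTower A BM M] [IsIntegralClosure BM A M]
    [CommRing BY] [Algebra BM BY] [Algebra BY Y] [Algebra BM Y] [IsScalarTower BM M Y]
    [IsScalarTower BM BY Y] [IsIntegralClosure BY BM Y]
    (hdvd : ∀ (P : Ideal BF) (q : Ideal BM), P.IsPrime → q.IsPrime → P ≠ ⊥ → q ≠ ⊥ →
      P.under A = q.under A → P.ramificationIdx A ∣ q.ramificationIdx A)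
    (Q : Ideal BY) [Q.IsPrime] (hQ : Q ≠ ⊥) : Algebra.IsUnramifiedAt BM Q := by
  classical
  -- characteristic zero
  haveI : CharZero A := algebraRat.charZero A
  haveI : CharZero K := charZero_of_injective_algebraMap (IsFractionRing.injective A K)
  haveI : CharZero F := charZero_of_injective_algebraMap (algebraMap K F).injective
  haveI : CharZero M := charZero_of_injective_algebraMap (algebraMap K M).injective
  -- `Y/F` is finite Galois
  haveI : IsGalois F Y := isGalois_of_adjoin_eq_top (K := K) hFM
  haveI : FiniteDimensional F Y := finiteDimensional_of_adjoin_eq_top (K := K) hFM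
  haveI : FiniteDimensional K Y := FiniteDimensional.trans K F Y
  haveI : FiniteDimensional M Y := FiniteDimensional.right K M Y
  -- algebra structures
  letI : Algebra A Y := ((algebraMap K Y).comp (algebraMap A K)).toAlgebra
  haveI : IsScalarTower A K Y := IsScalarTower.of_algebraMap_eq (fun _ => rfl)
  haveI : IsScalarTower A F Y := IsScalarTower.of_algebraMap_eq (fun a => by
    rw [IsScalarTower.algebraMap_apply A K Y, IsScalarTower.algebraMap_apply K F Y,
      ← IsScalarTower.algebraMap_apply A K F])
  haveI : IsScalarTower A M Y := IsScalarTower.of_algebraMap_eq (fun a => by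
    rw [IsScalarTower.algebraMap_apply A K Y, IsScalarTower.algebraMap_apply K M Y,
      ← IsScalarTower.algebraMap_apply A K M])
  letI : Algebra BF Y := ((algebraMap F Y).comp (algebraMap BF F)).toAlgebra
  haveI : IsScalarTower BF F Y := IsScalarTower.of_algebraMap_eq (fun _ => rfl)
  haveI : IsScalarTower A BF Y := IsScalarTower.of_algebraMap_eq (fun a => by
    rw [IsScalarTower.algebraMap_apply A F Y, IsScalarTower.algebraMap_apply BF F Y,
      ← IsScalarTower.algebraMap_apply A BF F])
  haveI : IsScalarTower A BM Y := IsScalarTower.of_algebraMap_eq (fun a => by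
    rw [IsScalarTower.algebraMap_apply A M Y, IsScalarTower.algebraMap_apply BM M Y,
      ← IsScalarTower.algebraMap_apply A BM M])
  letI : Algebra A BY := ((algebraMap BM BY).comp (algebraMap A BM)).toAlgebra
  haveI : IsScalarTower A BM BY := IsScalarTower.of_algebraMap_eq (fun _ => rfl)
  haveI : IsScalarTower A BY Y := IsScalarTower.of_algebraMap_eq (fun a => by
    show algebraMap A Y a = algebraMap BY Y (algebraMap BM BY (algebraMap A BM a))
    rw [← IsScalarTower.algebraMap_apply BM BY Y, ← IsScalarTower.algebraMap_apply A BM Y])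
  -- integrality
  haveI : Algebra.IsIntegral A BM := IsIntegralClosure.isIntegral_algebra A M
  haveI : Algebra.IsIntegral A BF := IsIntegralClosure.isIntegral_algebra A F
  haveI : IsIntegralClosure BY A Y := isIntegralClosure_of_isIntegral A BM BY Y
  letI : Algebra BF BY := (IsIntegralClosure.lift A BY Y (S := BF)).toRingHom.toAlgebra
  haveI : IsScalarTower BF BY Y := IsScalarTower.of_algebraMap_eq
    (fun x => (IsIntegralClosure.algebraMap_lift A BY Y x).symm)
  haveI : IsScalarTower A BF BY := IsScalarTower.of_algebraMap_eq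
    (fun a => ((IsIntegralClosure.lift A BY Y (S := BF)).commutes a).symm)
  haveI : IsIntegralClosure BY BF Y := IsIntegralClosure.tower_top (R := A)
  -- Dedekind domains, fraction fields, finiteness
  haveI : IsDomain BF := (IsIntegralClosure.algebraMap_injective BF A F).isDomain _
  haveI : IsDomain BM := (IsIntegralClosure.algebraMap_injective BM A M).isDomain _
  haveI : IsDomain BY := (IsIntegralClosure.algebraMap_injective BY A Y).isDomain _
  haveI : IsDedekindDomain BF := IsIntegralClosure.isDedekindDomain A K F BF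
  haveI : IsDedekindDomain BM := IsIntegralClosure.isDedekindDomain A K M BM
  haveI : IsDedekindDomain BY := IsIntegralClosure.isDedekindDomain A K Y BY
  haveI : IsFractionRing BF F := IsIntegralClosure.isFractionRing_of_finite_extension A K F BF
  haveI : IsFractionRing BM M := IsIntegralClosure.isFractionRing_of_finite_extension A K M BM
  haveI : IsFractionRing BY Y := IsIntegralClosure.isFractionRing_of_finite_extension A K Y BY
  haveI : Module.Finite A BF := IsIntegralClosure.finite A K F BF
  haveI : Module.Finite A BM := IsIntegralClosure.finite A K M BM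
  haveI : Module.Finite BF BY := IsIntegralClosure.finite BF F Y BY
  haveI : Module.Finite BM BY := IsIntegralClosure.finite BM M Y BY
  have hinjF : Function.Injective (algebraMap BF BY) := by
    intro x y hxy
    apply IsIntegralClosure.algebraMap_injective BF A F
    apply (algebraMap F Y).injective
    rw [← IsScalarTower.algebraMap_apply BF F Y, ← IsScalarTower.algebraMap_apply BF F Y,
      IsScalarTower.algebraMap_apply BF BY Y, hxy, ← IsScalarTower.algebraMap_apply BF BY Y]
  have hinjM : Function.Injective (algebraMap BM BY) := by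
    intro x y hxy
    apply IsIntegralClosure.algebraMap_injective BM A M
    apply (algebraMap M Y).injective
    rw [← IsScalarTower.algebraMap_apply BM M Y, ← IsScalarTower.algebraMap_apply BM M Y,
      IsScalarTower.algebraMap_apply BM BY Y, hxy, ← IsScalarTower.algebraMap_apply BM BY Y]
  haveI : FaithfulSMul BF BY := (faithfulSMul_iff_algebraMap_injective BF BY).mpr hinjF
  haveI : FaithfulSMul BM BY := (faithfulSMul_iff_algebraMap_injective BM BY).mpr hinjM
  letI : Algebra ℚ BF := ((algebraMap A BF).comp (algebraMap ℚ A)).toAlgebra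
  letI : Algebra ℚ BM := ((algebraMap A BM).comp (algebraMap ℚ A)).toAlgebra
  -- the Galois group
  letI : MulSemiringAction Gal(Y/F) BY := IsIntegralClosure.MulSemiringAction BF F Y BY
  haveI : IsGaloisGroup Gal(Y/F) BF BY := IsGaloisGroup.of_isFractionRing _ _ _ F Y
  have hsmul : ∀ (σ : Gal(Y/F)) (b : BY), algebraMap BY Y (σ • b) = σ (algebraMap BY Y b) :=
    fun σ b => algebraMap_galRestrict_apply BF σ b
  have hres : ∀ (σ : Gal(Y/F)) (x : BM), ∃ y : BM, algebraMap BM BY y = σ • algebraMap BM BY x := by
    intro σ x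
    let τ : M ≃ₐ[K] M := (σ.restrictScalars K).restrictNormal M
    have hτ : ∀ m : M, algebraMap M Y (τ m) = σ (algebraMap M Y m) :=
      fun m => AlgEquiv.restrictNormal_commutes (σ.restrictScalars K) M m
    have hint : IsIntegral A (τ (algebraMap BM M x)) := by
      have h0 : IsIntegral A (algebraMap BM M x) :=
        (IsIntegralClosure.isIntegral_iff (A := BM)).mpr ⟨x, rfl⟩
      exact h0.map ((τ : M →ₐ[K] M).restrictScalars A)
    obtain ⟨y, hy⟩ := (IsIntegralClosure.isIntegral_iff (A := BM)).mp hint
    refine ⟨y, ?_⟩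
    apply IsFractionRing.injective BY Y
    rw [hsmul, ← IsScalarTower.algebraMap_apply BM BY Y, ← IsScalarTower.algebraMap_apply BM BY Y,
      IsScalarTower.algebraMap_apply BM M Y, hy, hτ, ← IsScalarTower.algebraMap_apply BM M Y]
  have hinj : ∀ σ : Gal(Y/F), (∀ x : BM, σ • algebraMap BM BY x = algebraMap BM BY x) → σ = 1 := by
    intro σ hσ
    apply algEquiv_eq_one_of_adjoin_eq_top hFM
    intro m
    have h1 : ∀ x : BM,
        σ (algebraMap M Y (algebraMap BM M x)) = algebraMap M Y (algebraMap BM M x) := by
      intro x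
      have := congrArg (algebraMap BY Y) (hσ x)
      rw [hsmul, ← IsScalarTower.algebraMap_apply BM BY Y,
        IsScalarTower.algebraMap_apply BM M Y] at this
      exact this
    obtain ⟨a, b, hb, rfl⟩ := IsFractionRing.div_surjective (A := BM) m
    rw [map_div₀, map_div₀, h1, h1]
  have hQF : Q.under BF ≠ ⊥ := Ideal.under_ne_bot BF hQ
  have hQM : Q.under BM ≠ ⊥ := Ideal.under_ne_bot BM hQ
  exact isUnramifiedAt_of_dvd hres hinj Q hQ
    (hdvd (Q.under BF) (Q.under BM) inferInstance inferInstance hQF hQM
      (by rw [Ideal.under_under, Ideal.under_under]))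

end Wrapper

section BranchWrapper

/-- **Abhyankar's lemma, field-level form with branch data.**  As `isUnramifiedAt_of_compositum`,
with the divisibility hypothesis produced by `forall_dvd_of_branch`: `a i` prime elements of `A`,
`a i = unit * g ^ (m i)` in `BM`, `F/K` has ramification dividing `m i` over `a i` and is unramified
over all other primes. -/
theorem isUnramifiedAt_of_branch
    {A K F M Y BF BM BY : Type*}
    [CommRing A] [IsDedekindDomain A] [Algebra ℚ A]
    [Field K] [Algebra A K] [IsFractionRing A K]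
    [Field F] [Algebra K F] [FiniteDimensional K F] [Algebra A F] [IsScalarTower A K F]
    [Field M] [Algebra K M] [FiniteDimensional K M] [IsGalois K M] [Algebra A M]
    [IsScalarTower A K M]
    [Field Y] [Algebra K Y] [Algebra F Y] [Algebra M Y] [IsScalarTower K F Y] [IsScalarTower K M Y]
    (hFM : IntermediateField.adjoin F (Set.range (algebraMap M Y)) = ⊤)
    [CommRing BF] [Algebra A BF] [Algebra BF F] [IsScalarTower A BF F] [IsIntegralClosure BF A F]
    [CommRing BM] [Algebra A BM] [Algebra BM M] [IsScalarTower A BM M] [IsIntegralClosure BM A M]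
    [CommRing BY] [Algebra BM BY] [Algebra BY Y] [Algebra BM Y] [IsScalarTower BM M Y]
    [IsScalarTower BM BY Y] [IsIntegralClosure BY BM Y]
    {ι : Type*} (a : ι → A) (m : ι → ℕ) (ha : ∀ i, Prime (a i))
    (hF : ∀ (i : ι) (P : Ideal BF), P.IsPrime → P ≠ ⊥ → a i ∈ P.under A →
      P.ramificationIdx A ∣ m i)
    (hF' : ∀ P : Ideal BF, P.IsPrime → P ≠ ⊥ → (∀ i, a i ∉ P.under A) →
      P.ramificationIdx A = 1)
    (hM : ∀ i, ∃ u g : BM, IsUnit u ∧ algebraMap A BM (a i) = u * g ^ (m i))
    (Q : Ideal BY) [Q.IsPrime] (hQ : Q ≠ ⊥) : Algebra.IsUnramifiedAt BM Q := by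
  haveI : IsDomain BM := (IsIntegralClosure.algebraMap_injective BM A M).isDomain _
  haveI : IsDedekindDomain BM := IsIntegralClosure.isDedekindDomain A K M BM
  haveI : Module.Finite A BM := IsIntegralClosure.finite A K M BM
  have hinj : Function.Injective (algebraMap A BM) := by
    intro x y hxy
    apply IsFractionRing.injective A K
    apply (algebraMap K M).injective
    rw [← IsScalarTower.algebraMap_apply A K M, ← IsScalarTower.algebraMap_apply A K M,
      IsScalarTower.algebraMap_apply A BM M, hxy, ← IsScalarTower.algebraMap_apply A BM M]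
  haveI : FaithfulSMul A BM := (faithfulSMul_iff_algebraMap_injective A BM).mpr hinj
  exact isUnramifiedAt_of_compositum (K := K) (F := F) hFM
    (forall_dvd_of_branch a m ha hF hF' hM) Q hQ

end BranchWrapper

end Fermat.Agent.S18.Abhyankar
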