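/-
S18, bridge package PB (helper1): from Mathlib's notion of unramifiedness in Dedekind domains to the
elementwise "trace form is nondegenerate modulo `𝔭`" hypothesis `hU` consumed by the purity
theorem (package P2).

* `mem_map_of_trace_mem`: Dedekind core.  If the different of `B / A` is coprime to `p B`, then
  `Tr(x B) ⊆ p` forces `x ∈ p B`.
* `differentIdeal_sup_map_eq_top_of_not_dvd / _of_isUnramifiedAt / _of_ramificationIdx`: the
  coprimality hypothesis from the three usual currencies.
* `hU_of_isCoprime_differentIdeal`, `hU_of_isUnramifiedAt`, `hU_of_ramificationIdx`: the chart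
  form; `R` is the two-dimensional base, `A` a Dedekind domain between `R` and its fraction field
  whose elements have denominators outside `𝔭` (`A = R[1/π]` with `π ∉ 𝔭`, or `A = R_𝔭`).
* `hU_bot`: the generic point.
-/
import Mathlib

set_option autoImplicit false
set_option linter.unusedSectionVars false

namespace Fermat.Agent.S18.UnramBridge

open nonZeroDivisors FractionalIdeal Polynomial

section Core

variable (A K L B : Type*) [CommRing A] [Field K] [CommRing B] [Field L]
  [Algebra A K] [Algebra B L] [Algebra A B] [Algebra K L] [Algebra A L]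
  [IsScalarTower A K L] [IsScalarTower A B L]
  [IsDedekindDomain A] [IsFractionRing A K] [FiniteDimensional K L] [Algebra.IsSeparable K L]
  [IsIntegralClosure B A L] [IsDedekindDomain B] [Module.IsTorsionFree A B] [IsFractionRing B L]

/-- An element of `K` stabilising a nonzero ideal of `A` lies in `A`. -/
theorem mem_range_of_mul_mem (p : Ideal A) (hp : p ≠ ⊥) (t : K)
    (ht : ∀ c ∈ p, ∃ a ∈ p, t * algebraMap A K c = algebraMap A K a) :
    t ∈ (algebraMap A K).range := by
  have hinj : Function.Injective (algebraMap A K) := IsFractionRing.injective A K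
  let N : Submodule A K := Submodule.map (Algebra.linearMap A K) p
  have hN : N ≠ ⊥ := by
    intro h
    apply hp
    rw [Submodule.eq_bot_iff] at h ⊢
    intro c hc
    have := h (algebraMap A K c) ⟨c, hc, rfl⟩
    exact hinj (by rw [this, map_zero])
  have hN' : N.FG := Submodule.FG.map _ (IsNoetherian.noetherian p)
  have hint : IsIntegral A t := by
    refine isIntegral_of_smul_mem_submodule N hN hN' t ?_
    rintro _ ⟨c, hc, rfl⟩
    obtain ⟨a, ha, hat⟩ := ht c hc
    exact ⟨a, ha, by simp [hat]⟩
  exact IsIntegrallyClosed.isIntegral_iff.mp hint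

/-- **Dedekind core.**  If the different is coprime to `p B`, then `Tr(x B) ⊆ p` forces
`x ∈ p B`. -/
theorem mem_map_of_trace_mem (p : Ideal A) (hp : p ≠ ⊥)
    (hcop : differentIdeal A B ⊔ p.map (algebraMap A B) = ⊤)
    (x : B)
    (hx : ∀ y : B, ∃ a ∈ p, Algebra.trace K L (algebraMap B L (x * y)) = algebraMap A K a) :
    x ∈ p.map (algebraMap A B) := by
  classical
  have hinjB : Function.Injective (algebraMap B L) := IsFractionRing.injective B L
  have hinjAB : Function.Injective (algebraMap A B) := FaithfulSMul.algebraMap_injective A B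
  set pB : Ideal B := p.map (algebraMap A B) with hpB
  have hpB0 : pB ≠ ⊥ := (Ideal.map_eq_bot_iff_of_injective hinjAB).not.mpr hp
  set J : FractionalIdeal B⁰ L := (pB : FractionalIdeal B⁰ L) with hJ
  have hJ0 : J ≠ 0 := by
    rw [hJ]; exact FractionalIdeal.coeIdeal_ne_zero.mpr hpB0
  have hI0 : J⁻¹ ≠ 0 := inv_ne_zero hJ0
  -- Step 1: `x` lies in the dual of `(pB)⁻¹`.
  have h1 : algebraMap B L x ∈ FractionalIdeal.dual A K (J⁻¹) := by
    rw [FractionalIdeal.mem_dual hI0]
    intro a ha
    rw [FractionalIdeal.mem_inv_iff hJ0] at ha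
    apply mem_range_of_mul_mem A K p hp
    intro c hc
    have hcJ : algebraMap B L (algebraMap A B c) ∈ J := by
      rw [hJ, FractionalIdeal.mem_coeIdeal]
      exact ⟨algebraMap A B c, Ideal.mem_map_of_mem _ hc, rfl⟩
    have h := ha _ hcJ
    rw [FractionalIdeal.mem_one_iff] at h
    obtain ⟨b, hb⟩ := h
    obtain ⟨a', ha', hxa⟩ := hx b
    refine ⟨a', ha', ?_⟩
    rw [← hxa, map_mul, hb, Algebra.traceForm_apply]
    have : algebraMap B L x * (a * algebraMap B L (algebraMap A B c))
        = algebraMap A K c • (algebraMap B L x * a) := by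
      rw [Algebra.smul_def, ← IsScalarTower.algebraMap_apply A B L,
        IsScalarTower.algebraMap_apply A K L]
      ring
    rw [this, map_smul, smul_eq_mul, mul_comm]
  -- Step 2: rewrite the dual.
  have hD : (differentIdeal A B : FractionalIdeal B⁰ L) =
      (FractionalIdeal.dual A K (1 : FractionalIdeal B⁰ L))⁻¹ := coeIdeal_differentIdeal A K L B
  have hD0 : (differentIdeal A B : FractionalIdeal B⁰ L) ≠ 0 := by
    rw [hD]
    exact inv_ne_zero (FractionalIdeal.dual_ne_zero A K one_ne_zero)
  have h2 : FractionalIdeal.dual A K (J⁻¹) =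
      ((differentIdeal A B : FractionalIdeal B⁰ L))⁻¹ * J := by
    rw [FractionalIdeal.dual_eq_mul_inv, inv_inv, hD, inv_inv]
  rw [h2] at h1
  -- Step 3: multiply by elements of the different.
  have h3 : ∀ d ∈ differentIdeal A B, x * d ∈ pB := by
    intro d hd
    have hdD : algebraMap B L d ∈ (differentIdeal A B : FractionalIdeal B⁰ L) := by
      rw [FractionalIdeal.mem_coeIdeal]; exact ⟨d, hd, rfl⟩
    have hmem : algebraMap B L d * algebraMap B L x ∈
        (differentIdeal A B : FractionalIdeal B⁰ L) *
          (((differentIdeal A B : FractionalIdeal B⁰ L))⁻¹ * J) :=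
      FractionalIdeal.mul_mem_mul hdD h1
    rw [← mul_assoc, mul_inv_cancel₀ hD0, one_mul, hJ, FractionalIdeal.mem_coeIdeal] at hmem
    obtain ⟨z, hz, hzz⟩ := hmem
    have : z = x * d := by
      apply hinjB
      rw [hzz, map_mul]; ring
    rw [← this]; exact hz
  -- Step 4: coprimality.
  have h1mem : (1 : B) ∈ differentIdeal A B ⊔ pB := by rw [hcop]; trivial
  obtain ⟨d, hd, u, hu, hdu⟩ := Submodule.mem_sup.mp h1mem
  have : x = x * d + x * u := by rw [← mul_add, hdu, mul_one]
  rw [this]
  exact Ideal.add_mem _ (h3 d hd) (Ideal.mul_mem_left _ _ hu)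

end Core


section Variants

attribute [local instance] FractionRing.liftAlgebra FractionRing.isScalarTower_liftAlgebra

variable {A B : Type*} [CommRing A] [CommRing B] [Algebra A B]
  [IsDedekindDomain A] [IsDedekindDomain B] [Module.IsTorsionFree A B] [Module.Finite A B]
  [Algebra.IsSeparable (FractionRing A) (FractionRing B)]

/-- If no prime above `p` divides the different, the different is coprime to `p B`. -/
theorem differentIdeal_sup_map_eq_top_of_not_dvd (p : Ideal A)
    (hunr : ∀ P : Ideal B, P.IsPrime → p.map (algebraMap A B) ≤ P → ¬ P ∣ differentIdeal A B) :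
    differentIdeal A B ⊔ p.map (algebraMap A B) = ⊤ := by
  by_contra h
  obtain ⟨M, hM, hle⟩ := Ideal.exists_le_maximal _ h
  exact hunr M hM.isPrime (le_sup_right.trans hle) (Ideal.dvd_iff_le.mpr (le_sup_left.trans hle))

/-- If `B` is unramified over `A` at all primes above `p`, the different is coprime to `p B`. -/
theorem differentIdeal_sup_map_eq_top_of_isUnramifiedAt (p : Ideal A)
    (hunr : ∀ (P : Ideal B) [P.IsPrime], p.map (algebraMap A B) ≤ P → Algebra.IsUnramifiedAt A P) :
    differentIdeal A B ⊔ p.map (algebraMap A B) = ⊤ := by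
  refine differentIdeal_sup_map_eq_top_of_not_dvd p fun P hP hle => ?_
  have := hunr P hle
  exact not_dvd_differentIdeal_iff.mpr this

/-- The residue field at a prime not containing any nonzero integer has characteristic zero. -/
theorem charZero_residueField (I : Ideal A) [I.IsPrime] (hchar : ∀ n : ℕ, n ≠ 0 → (n : A) ∉ I) :
    CharZero I.ResidueField := by
  refine charZero_of_inj_zero fun n hn => ?_
  by_contra h0
  apply hchar n h0
  rw [← Ideal.algebraMap_residueField_eq_zero, map_natCast]
  exact hn

/-- If all primes above the maximal ideal `p` have ramification index one and the residue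
characteristic is zero, the different is coprime to `p B`. -/
theorem differentIdeal_sup_map_eq_top_of_ramificationIdx (p : Ideal A) [p.IsMaximal]
    (hchar : ∀ n : ℕ, n ≠ 0 → (n : A) ∉ p)
    (hunr : ∀ (P : Ideal B) [P.IsPrime], p.map (algebraMap A B) ≤ P → P.ramificationIdx A = 1) :
    differentIdeal A B ⊔ p.map (algebraMap A B) = ⊤ := by
  refine differentIdeal_sup_map_eq_top_of_isUnramifiedAt p fun P hP hle => ?_
  have hunder : P.under A = p := by
    refine (Ideal.IsMaximal.eq_of_le inferInstance ?_ ?_).symm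
    · exact (Ideal.IsPrime.under A P).ne_top
    · exact Ideal.map_le_iff_le_comap.mp hle
  have : CharZero (P.under A).ResidueField :=
    charZero_residueField (P.under A) (by rw [hunder]; exact hchar)
  have : PerfectField (P.under A).ResidueField := PerfectField.ofCharZero
  exact Ideal.ramificationIdx_eq_one_iff.mp (hunr P hle)

end Variants


section Chart

variable {R K Y B : Type*} [CommRing R] [IsDomain R] [Field K] [Algebra R K] [IsFractionRing R K]
  [Field Y] [Algebra K Y] [Algebra R Y] [IsScalarTower R K Y] [FiniteDimensional K Y]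
  [Algebra.IsSeparable K Y]
  [CommRing B] [Algebra R B] [Algebra B Y] [IsScalarTower R B Y] [IsIntegralClosure B R Y]

/-- Clearing denominators of an integral element: if every element of `A` has a denominator
outside the prime `𝔭` of `R`, an element integral over `A` becomes integral over `R` after
multiplication by some `t ∉ 𝔭`. -/
theorem exists_isIntegral_smul {A : Type*} [CommRing A] [Algebra R A] [Algebra A Y]
    [IsScalarTower R A Y] (𝔭 : Ideal R) [𝔭.IsPrime]
    (hA : ∀ a : A, ∃ t : R, t ∉ 𝔭 ∧ ∃ r : R, algebraMap R A r = algebraMap R A t * a)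
    (z : Y) (hz : IsIntegral A z) : ∃ t : R, t ∉ 𝔭 ∧ IsIntegral R (algebraMap R Y t * z) := by
  classical
  obtain ⟨f, hf, hfz⟩ := hz
  choose τ hτ ρ hρ using hA
  set t : R := ∏ i ∈ Finset.range f.natDegree, τ (f.coeff i) with ht
  have ht𝔭 : t ∉ 𝔭 := by
    rw [ht]
    intro h
    obtain ⟨i, -, hi⟩ := (Ideal.IsPrime.prod_mem_iff).mp h
    exact hτ _ hi
  refine ⟨t, ht𝔭, ?_⟩
  have hdiv : ∀ i ∈ Finset.range f.natDegree, ∃ r : R,
      algebraMap R A r = algebraMap R A t * f.coeff i := by
    intro i hi
    refine ⟨ρ (f.coeff i) * ∏ j ∈ (Finset.range f.natDegree).erase i, τ (f.coeff j), ?_⟩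
    rw [ht, ← Finset.mul_prod_erase _ _ hi, map_mul, map_mul, hρ]
    ring
  have hlift : f.scaleRoots (algebraMap R A t) ∈ Polynomial.lifts (algebraMap R A) := by
    rw [Polynomial.lifts_iff_coeff_lifts]
    intro i
    rw [Polynomial.coeff_scaleRoots]
    rcases lt_trichotomy i f.natDegree with hi | hi | hi
    · obtain ⟨r, hr⟩ := hdiv i (Finset.mem_range.mpr hi)
      obtain ⟨m, hm⟩ : ∃ m, f.natDegree - i = m + 1 := ⟨f.natDegree - i - 1, by omega⟩
      refine ⟨r * t ^ m, ?_⟩
      rw [hm, pow_succ, map_mul, map_pow, hr]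
      ring
    · refine ⟨1, ?_⟩
      rw [hi, hf.coeff_natDegree, Nat.sub_self, pow_zero, mul_one, map_one]
    · refine ⟨0, ?_⟩
      rw [Polynomial.coeff_eq_zero_of_natDegree_lt hi, zero_mul, map_zero]
  obtain ⟨g, hg, -, hgm⟩ := Polynomial.lifts_and_natDegree_eq_and_monic hlift
    ((Polynomial.monic_scaleRoots_iff _).mpr hf)
  refine ⟨g, hgm, ?_⟩
  have h0 : Polynomial.aeval (algebraMap A Y (algebraMap R A t) * z)
      (f.scaleRoots (algebraMap R A t)) = 0 :=
    Polynomial.scaleRoots_aeval_eq_zero (by rw [Polynomial.aeval_def]; exact hfz)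
  rw [← hg, Polynomial.aeval_def, Polynomial.eval₂_map, ← IsScalarTower.algebraMap_eq,
    ← IsScalarTower.algebraMap_apply] at h0
  exact h0


/-- `𝔭 • ⊤` is stable under multiplication by elements of `B`. -/
theorem mul_mem_smul_top (𝔭 : Ideal R) (b w : B) (hw : w ∈ 𝔭 • (⊤ : Submodule R B)) :
    b * w ∈ 𝔭 • (⊤ : Submodule R B) := by
  refine Submodule.smul_induction_on hw ?_ ?_
  · intro r hr n _
    rw [mul_smul_comm]
    exact Submodule.smul_mem_smul hr trivial
  · intro u v hu hv
    rw [mul_add]
    exact Submodule.add_mem _ hu hv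

/-- **Chart form with a coprimality hypothesis on the different.** -/
theorem hU_of_isCoprime_differentIdeal
    {A BA : Type*} [CommRing A] [IsDedekindDomain A] [Algebra R A] [Algebra A K]
    [IsScalarTower R A K] [IsFractionRing A K]
    [CommRing BA] [IsDedekindDomain BA] [Algebra A BA] [Algebra BA Y] [Algebra A Y]
    [IsScalarTower A K Y] [IsScalarTower A BA Y] [IsIntegralClosure BA A Y]
    [Module.IsTorsionFree A BA]
    (𝔭 : Ideal R) [𝔭.IsPrime] (p : Ideal A) [p.IsPrime] (hp0 : p ≠ ⊥)
    (hp𝔭 : p.comap (algebraMap R A) = 𝔭)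
    (hA : ∀ a : A, ∃ t : R, t ∉ 𝔭 ∧ ∃ r : R, algebraMap R A r = algebraMap R A t * a)
    (hcop : differentIdeal A BA ⊔ p.map (algebraMap A BA) = ⊤)
    (x : B)
    (hx : ∀ y : B, ∃ a ∈ 𝔭, Algebra.trace K Y (algebraMap B Y (x * y)) = algebraMap R K a) :
    ∃ s : R, s ∉ 𝔭 ∧ s • x ∈ 𝔭 • (⊤ : Submodule R B) := by
  classical
  have hRAY : IsScalarTower R A Y := by
    refine IsScalarTower.of_algebraMap_eq fun r => ?_
    rw [IsScalarTower.algebraMap_apply R K Y, IsScalarTower.algebraMap_apply A K Y,
      ← IsScalarTower.algebraMap_apply R A K]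
  have hinjBY : Function.Injective (algebraMap B Y) := IsIntegralClosure.algebraMap_injective B R Y
  have hinjBAY : Function.Injective (algebraMap BA Y) :=
    IsIntegralClosure.algebraMap_injective BA A Y
  have hinjAK : Function.Injective (algebraMap A K) := IsFractionRing.injective A K
  have hfr : IsFractionRing BA Y := IsIntegralClosure.isFractionRing_of_finite_extension A K Y BA
  have hmemp : ∀ r : R, algebraMap R A r ∈ p ↔ r ∈ 𝔭 := fun r => by
    rw [← hp𝔭, Ideal.mem_comap]
  -- every element of `BA` has a multiple in `B`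
  have hden : ∀ z : BA, ∃ t : R, t ∉ 𝔭 ∧ ∃ b : B,
      algebraMap B Y b = algebraMap R Y t * algebraMap BA Y z := by
    intro z
    obtain ⟨t, ht, hint⟩ := exists_isIntegral_smul (R := R) (A := A) 𝔭 hA (algebraMap BA Y z)
      ((IsIntegralClosure.isIntegral A Y z).algebraMap)
    exact ⟨t, ht, IsIntegralClosure.mk' B _ hint, IsIntegralClosure.algebraMap_mk' B _ hint⟩
  -- the image of `x` in `BA`
  have hxint : IsIntegral A (algebraMap B Y x) :=
    (IsIntegralClosure.isIntegral R Y x).algebraMap.tower_top
  set x' : BA := IsIntegralClosure.mk' BA _ hxint with hx'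
  have hx'Y : algebraMap BA Y x' = algebraMap B Y x := IsIntegralClosure.algebraMap_mk' BA _ hxint
  -- the trace hypothesis over `A`
  have htr : ∀ y : BA, ∃ a ∈ p, Algebra.trace K Y (algebraMap BA Y (x' * y)) = algebraMap A K a := by
    intro y
    obtain ⟨t, ht, b, hb⟩ := hden y
    obtain ⟨a, ha, hab⟩ := hx b
    have hint : IsIntegral A (Algebra.trace K Y (algebraMap BA Y (x' * y))) :=
      Algebra.isIntegral_trace ((IsIntegralClosure.isIntegral A Y (x' * y)).algebraMap)
    obtain ⟨c, hc⟩ := IsIntegrallyClosed.isIntegral_iff.mp hint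
    refine ⟨c, ?_, hc.symm⟩
    have h1 : algebraMap B Y (x * b) = algebraMap R K t • algebraMap BA Y (x' * y) := by
      rw [map_mul, hb, map_mul, hx'Y, Algebra.smul_def, ← IsScalarTower.algebraMap_apply R K Y]
      ring
    rw [h1, map_smul, smul_eq_mul, ← hc, IsScalarTower.algebraMap_apply R A K,
      IsScalarTower.algebraMap_apply R A K, ← map_mul] at hab
    have h2 : algebraMap R A t * c = algebraMap R A a := hinjAK hab
    have h3 : algebraMap R A t * c ∈ p := by rw [h2]; exact (hmemp a).mpr ha
    rcases Ideal.IsPrime.mem_or_mem inferInstance h3 with h | h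
    · exact absurd ((hmemp t).mp h) ht
    · exact h
  have hmem : x' ∈ p.map (algebraMap A BA) :=
    mem_map_of_trace_mem A K Y BA p hp0 hcop x' htr
  -- descend to `B`
  have key : ∀ z ∈ p.map (algebraMap A BA), ∃ s : R, s ∉ 𝔭 ∧ ∃ w ∈ 𝔭 • (⊤ : Submodule R B),
      algebraMap B Y w = algebraMap R Y s * algebraMap BA Y z := by
    intro z hz
    rw [Ideal.map] at hz
    refine Submodule.span_induction ?_ ?_ ?_ ?_ hz
    · rintro _ ⟨a, ha, rfl⟩
      obtain ⟨t, ht, r, hr⟩ := hA a
      have hr𝔭 : r ∈ 𝔭 := by
        rw [← hmemp, hr]; exact Ideal.mul_mem_left _ _ ha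
      refine ⟨t, ht, algebraMap R B r, ?_, ?_⟩
      · have : algebraMap R B r = r • (1 : B) := by rw [Algebra.smul_def, mul_one]
        rw [this]
        exact Submodule.smul_mem_smul hr𝔭 trivial
      · rw [← IsScalarTower.algebraMap_apply R B Y, IsScalarTower.algebraMap_apply R A Y, hr,
          map_mul, ← IsScalarTower.algebraMap_apply R A Y, ← IsScalarTower.algebraMap_apply A BA Y]
    · exact ⟨1, fun h => (Ideal.IsPrime.ne_top inferInstance) ((Ideal.eq_top_iff_one _).mpr h),
        0, Submodule.zero_mem _, by simp⟩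
    · rintro u v - - ⟨s₁, hs₁, w₁, hw₁, e₁⟩ ⟨s₂, hs₂, w₂, hw₂, e₂⟩
      refine ⟨s₁ * s₂, fun h => ?_, s₂ • w₁ + s₁ • w₂, ?_, ?_⟩
      · rcases Ideal.IsPrime.mem_or_mem inferInstance h with h | h
        · exact hs₁ h
        · exact hs₂ h
      · exact Submodule.add_mem _ (Submodule.smul_mem _ _ hw₁) (Submodule.smul_mem _ _ hw₂)
      · rw [map_add, Algebra.smul_def, Algebra.smul_def, map_mul, map_mul, e₁, e₂,
          ← IsScalarTower.algebraMap_apply R B Y, ← IsScalarTower.algebraMap_apply R B Y,
          map_mul, map_add]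
        ring
    · rintro c u - ⟨s, hs, w, hw, e⟩
      obtain ⟨t, ht, b, hb⟩ := hden c
      refine ⟨t * s, fun h => ?_, b * w, mul_mem_smul_top 𝔭 b w hw, ?_⟩
      · rcases Ideal.IsPrime.mem_or_mem inferInstance h with h | h
        · exact ht h
        · exact hs h
      · rw [map_mul, hb, e, smul_eq_mul, map_mul, map_mul]
        ring
  obtain ⟨s, hs, w, hw, e⟩ := key x' hmem
  refine ⟨s, hs, ?_⟩
  have : w = s • x := by
    apply hinjBY
    rw [e, hx'Y, Algebra.smul_def, map_mul, ← IsScalarTower.algebraMap_apply R B Y]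
  rw [← this]
  exact hw

end Chart

section Transfer

attribute [local instance] FractionRing.liftAlgebra FractionRing.isScalarTower_liftAlgebra

/-- Separability of the fraction field extension transfers to `FractionRing`. -/
theorem isSeparable_fractionRing (A K L B : Type*) [CommRing A] [Field K] [CommRing B] [Field L]
    [Algebra A K] [Algebra B L] [Algebra A B] [Algebra K L] [Algebra A L]
    [IsScalarTower A K L] [IsScalarTower A B L] [IsDomain A] [IsDomain B]
    [IsFractionRing A K] [IsFractionRing B L] [Module.IsTorsionFree A B]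
    [Algebra.IsSeparable K L] :
    Algebra.IsSeparable (FractionRing A) (FractionRing B) := by
  have H : RingHom.comp (algebraMap (FractionRing A) (FractionRing B))
      ↑(FractionRing.algEquiv A K).symm.toRingEquiv =
        RingHom.comp ↑(FractionRing.algEquiv B L).symm.toRingEquiv (algebraMap K L) := by
    apply IsLocalization.ringHom_ext A⁰
    ext
    simp only [RingHom.coe_comp, RingHom.coe_coe,
      AlgEquiv.coe_ringEquiv, Function.comp_apply, AlgEquiv.commutes,
      ← IsScalarTower.algebraMap_apply]
    rw [IsScalarTower.algebraMap_apply A B L, AlgEquiv.commutes, ← IsScalarTower.algebraMap_apply]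
  exact Algebra.IsSeparable.of_equiv_equiv _ _ H

end Transfer

section Chart2

attribute [local instance] FractionRing.liftAlgebra FractionRing.isScalarTower_liftAlgebra

variable {R K Y B : Type*} [CommRing R] [IsDomain R] [Field K] [Algebra R K] [IsFractionRing R K]
  [Field Y] [Algebra K Y] [Algebra R Y] [IsScalarTower R K Y] [FiniteDimensional K Y]
  [Algebra.IsSeparable K Y]
  [CommRing B] [Algebra R B] [Algebra B Y] [IsScalarTower R B Y] [IsIntegralClosure B R Y]

/-- **Chart form, in the currency of the purity theorem.**  `A` is a Dedekind domain between `R`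
and `K` all of whose elements have denominators outside `𝔭` (e.g. `A = R[1/π]` with `π ∉ 𝔭`, or
`A = R_𝔭`), `p` is the prime of `A` above `𝔭`, `BA` is the integral closure of `A` in `Y`.
If `BA` is unramified over `A` at every prime above `p`, then the trace form of `B` is
nondegenerate modulo `𝔭` in the elementwise sense. -/
theorem hU_of_isUnramifiedAt
    {A BA : Type*} [CommRing A] [IsDedekindDomain A] [Algebra R A] [Algebra A K]
    [IsScalarTower R A K] [IsFractionRing A K]
    [CommRing BA] [IsDedekindDomain BA] [Algebra A BA] [Algebra BA Y] [Algebra A Y]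
    [IsScalarTower A K Y] [IsScalarTower A BA Y] [IsIntegralClosure BA A Y]
    (𝔭 : Ideal R) [𝔭.IsPrime] (p : Ideal A) [p.IsPrime] (hp0 : p ≠ ⊥)
    (hp𝔭 : p.comap (algebraMap R A) = 𝔭)
    (hA : ∀ a : A, ∃ t : R, t ∉ 𝔭 ∧ ∃ r : R, algebraMap R A r = algebraMap R A t * a)
    (hunr : ∀ (P : Ideal BA) [P.IsPrime], p.map (algebraMap A BA) ≤ P →
      Algebra.IsUnramifiedAt A P)
    (x : B)
    (hx : ∀ y : B, ∃ a ∈ 𝔭, Algebra.trace K Y (algebraMap B Y (x * y)) = algebraMap R K a) :
    ∃ s : R, s ∉ 𝔭 ∧ s • x ∈ 𝔭 • (⊤ : Submodule R B) := by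
  have hinj : Function.Injective (algebraMap A BA) := by
    have h1 : Function.Injective (algebraMap A Y) := by
      rw [IsScalarTower.algebraMap_eq A K Y]
      exact (algebraMap K Y).injective.comp (IsFractionRing.injective A K)
    rw [IsScalarTower.algebraMap_eq A BA Y] at h1
    exact Function.Injective.of_comp h1
  have : FaithfulSMul A BA := (faithfulSMul_iff_algebraMap_injective A BA).mpr hinj
  have : Module.IsTorsionFree A BA := inferInstance
  have : Module.Finite A BA := IsIntegralClosure.finite A K Y BA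
  have : IsFractionRing BA Y := IsIntegralClosure.isFractionRing_of_finite_extension A K Y BA
  have : Algebra.IsSeparable (FractionRing A) (FractionRing BA) :=
    isSeparable_fractionRing A K Y BA
  exact hU_of_isCoprime_differentIdeal 𝔭 p hp0 hp𝔭 hA
    (differentIdeal_sup_map_eq_top_of_isUnramifiedAt p hunr) x hx

/-- **Chart form, ramification-index currency** (residue characteristic zero, i.e. the horizontal
primes). -/
theorem hU_of_ramificationIdx
    {A BA : Type*} [CommRing A] [IsDedekindDomain A] [Algebra R A] [Algebra A K]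
    [IsScalarTower R A K] [IsFractionRing A K]
    [CommRing BA] [IsDedekindDomain BA] [Algebra A BA] [Algebra BA Y] [Algebra A Y]
    [IsScalarTower A K Y] [IsScalarTower A BA Y] [IsIntegralClosure BA A Y]
    (𝔭 : Ideal R) [𝔭.IsPrime] (p : Ideal A) [p.IsPrime] (hp0 : p ≠ ⊥)
    (hp𝔭 : p.comap (algebraMap R A) = 𝔭)
    (hA : ∀ a : A, ∃ t : R, t ∉ 𝔭 ∧ ∃ r : R, algebraMap R A r = algebraMap R A t * a)
    (hchar : ∀ n : ℕ, n ≠ 0 → (n : A) ∉ p)
    (hunr : ∀ (P : Ideal BA) [P.IsPrime], p.map (algebraMap A BA) ≤ P →
      P.ramificationIdx A = 1)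
    (x : B)
    (hx : ∀ y : B, ∃ a ∈ 𝔭, Algebra.trace K Y (algebraMap B Y (x * y)) = algebraMap R K a) :
    ∃ s : R, s ∉ 𝔭 ∧ s • x ∈ 𝔭 • (⊤ : Submodule R B) := by
  have hinj : Function.Injective (algebraMap A BA) := by
    have h1 : Function.Injective (algebraMap A Y) := by
      rw [IsScalarTower.algebraMap_eq A K Y]
      exact (algebraMap K Y).injective.comp (IsFractionRing.injective A K)
    rw [IsScalarTower.algebraMap_eq A BA Y] at h1
    exact Function.Injective.of_comp h1
  have : FaithfulSMul A BA := (faithfulSMul_iff_algebraMap_injective A BA).mpr hinj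
  have : Module.IsTorsionFree A BA := inferInstance
  have : Module.Finite A BA := IsIntegralClosure.finite A K Y BA
  have : IsFractionRing BA Y := IsIntegralClosure.isFractionRing_of_finite_extension A K Y BA
  have : Algebra.IsSeparable (FractionRing A) (FractionRing BA) :=
    isSeparable_fractionRing A K Y BA
  have : p.IsMaximal := Ideal.IsPrime.isMaximal inferInstance hp0
  exact hU_of_isCoprime_differentIdeal 𝔭 p hp0 hp𝔭 hA
    (differentIdeal_sup_map_eq_top_of_ramificationIdx p hchar hunr) x hx

/-- The generic point: the trace form of a finite separable extension is nondegenerate. -/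
theorem hU_bot (x : B)
    (hx : ∀ y : B, ∃ a ∈ (⊥ : Ideal R),
      Algebra.trace K Y (algebraMap B Y (x * y)) = algebraMap R K a) :
    ∃ s : R, s ∉ (⊥ : Ideal R) ∧ s • x ∈ (⊥ : Ideal R) • (⊤ : Submodule R B) := by
  have hinjBY : Function.Injective (algebraMap B Y) := IsIntegralClosure.algebraMap_injective B R Y
  have hx0 : ∀ y : B, Algebra.trace K Y (algebraMap B Y x * algebraMap B Y y) = 0 := by
    intro y
    obtain ⟨a, ha, hay⟩ := hx y
    rw [Ideal.mem_bot] at ha
    rw [← map_mul, hay, ha, map_zero]
  have halg : Algebra.IsAlgebraic R Y := by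
    have := IsLocalization.isAlgebraic K (nonZeroDivisors R)
    exact Algebra.IsAlgebraic.trans R K Y
  have hall : ∀ z : Y, Algebra.traceForm K Y (algebraMap B Y x) z = 0 := by
    intro z
    obtain ⟨r, hr, hint⟩ := (Algebra.IsAlgebraic.isAlgebraic (R := R) z).exists_integral_multiple
    have h := hx0 (IsIntegralClosure.mk' B _ hint)
    rw [IsIntegralClosure.algebraMap_mk', Algebra.smul_def,
      IsScalarTower.algebraMap_apply R K Y, ← mul_assoc, mul_comm (algebraMap B Y x),
      mul_assoc, ← Algebra.smul_def, map_smul, smul_eq_mul] at h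
    rw [Algebra.traceForm_apply]
    rcases mul_eq_zero.mp h with h | h
    · exact absurd ((map_eq_zero_iff _ (IsFractionRing.injective R K)).mp h) hr
    · exact h
  have hxY : algebraMap B Y x = 0 := by
    have hnd := traceForm_nondegenerate K Y
    exact hnd.1 _ hall
  have hx00 : x = 0 := hinjBY (by rw [hxY, map_zero])
  refine ⟨1, fun h => one_ne_zero (Ideal.mem_bot.mp h), ?_⟩
  rw [hx00, smul_zero]
  exact Submodule.zero_mem _

end Chart2

end Fermat.Agent.S18.UnramBridge
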