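import Mathlib
import Fermat.Agent.S18.UnramBridge
import Fermat.Agent.S18.AbhyankarField

/-!
# S18, link 5: the purity hypothesis `hU` at every horizontal prime of a chart ring

`R0` is the two-dimensional chart ring (`W[x]_f`), `π` the uniformiser of the base, `BM = R0[1/π]`
the Dedekind ring of the generic fibre (`L[x]_f`), `B` the integral closure of `R0` in `Y`.

* `isLocalization_away_of_forall`: elementwise criterion for `IsLocalization.Away π BM`.
* `hU_of_forall_isUnramifiedAt`: if the integral closure `BY` of `BM` in `Y` is unramified over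
  `BM` at every nonzero prime, then the trace form of `B` is nondegenerate modulo every prime `𝔭`
  of `R0` not containing `π` (the hypothesis `hU` of `Purity.purity` at the horizontal primes,
  including `𝔭 = ⊥`).
* `hU_of_branch`: the same conclusion directly from branch data (Abhyankar's lemma in the form
  `Abhyankar.isUnramifiedAt_of_branch`).
-/

set_option autoImplicit false
set_option linter.style.haveILetI false

namespace Fermat.Agent.S18.HorizU

/-- Elementwise criterion: `BM` is `R0[1/π]`. -/
theorem isLocalization_away_of_forall {R0 BM : Type*} [CommRing R0] [CommRing BM] [Algebra R0 BM]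
    (π : R0) (hinj : Function.Injective (algebraMap R0 BM))
    (hunit : IsUnit (algebraMap R0 BM π))
    (hden : ∀ a : BM, ∃ n : ℕ, ∃ r : R0, algebraMap R0 BM r = algebraMap R0 BM π ^ n * a) :
    IsLocalization.Away π BM where
  map_units := by
    rintro ⟨_, n, rfl⟩
    rw [map_pow]
    exact hunit.pow n
  surj := by
    intro a
    obtain ⟨n, r, hr⟩ := hden a
    refine ⟨⟨r, ⟨π ^ n, n, rfl⟩⟩, ?_⟩
    rw [hr, map_pow]
    ring
  exists_of_eq := by
    intro x y hxy
    exact ⟨1, by rw [hinj hxy]⟩

section Core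

variable {R0 K Y B : Type*} [CommRing R0] [IsDomain R0] [Field K] [Algebra R0 K]
  [IsFractionRing R0 K] [Field Y] [Algebra K Y] [Algebra R0 Y] [IsScalarTower R0 K Y]
  [FiniteDimensional K Y] [Algebra.IsSeparable K Y]
  [CommRing B] [Algebra R0 B] [Algebra B Y] [IsScalarTower R0 B Y] [IsIntegralClosure B R0 Y]

/-- **`hU` at the horizontal primes from unramifiedness of the generic fibre.**
`BM = R0[1/π]` is a Dedekind domain with fraction field `K`, `BY` is the integral closure of `BM`
in `Y`.  If `BY` is unramified over `BM` at every nonzero prime, then for every prime `𝔭` of `R0`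
with `π ∉ 𝔭` the trace form of `B` is nondegenerate modulo `𝔭` (elementwise form). -/
theorem hU_of_forall_isUnramifiedAt
    {BM BY : Type*} [CommRing BM] [IsDedekindDomain BM] [Algebra R0 BM] [Algebra BM K]
    [IsScalarTower R0 BM K] [IsFractionRing BM K]
    [CommRing BY] [Algebra BM BY] [Algebra BY Y] [Algebra BM Y]
    [IsScalarTower BM K Y] [IsScalarTower BM BY Y] [IsIntegralClosure BY BM Y]
    (π : R0) [IsLocalization.Away π BM]
    (hunr : ∀ (Q : Ideal BY) [Q.IsPrime], Q ≠ ⊥ → Algebra.IsUnramifiedAt BM Q)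
    (𝔭 : Ideal R0) [h𝔭 : 𝔭.IsPrime] (hπ𝔭 : π ∉ 𝔭) (x : B)
    (hx : ∀ y : B, ∃ a ∈ 𝔭, Algebra.trace K Y (algebraMap B Y (x * y)) = algebraMap R0 K a) :
    ∃ s : R0, s ∉ 𝔭 ∧ s • x ∈ 𝔭 • (⊤ : Submodule R0 B) := by
  classical
  by_cases hbot : 𝔭 = ⊥
  · subst hbot
    exact UnramBridge.hU_bot (K := K) (Y := Y) x hx
  -- injectivity of the structure maps
  have hinjR : Function.Injective (algebraMap R0 BM) := by
    have h1 : Function.Injective (algebraMap R0 K) := IsFractionRing.injective R0 K
    rw [IsScalarTower.algebraMap_eq R0 BM K] at h1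
    exact Function.Injective.of_comp h1
  have hinjBM : Function.Injective (algebraMap BM BY) := by
    have h1 : Function.Injective (algebraMap BM Y) := by
      rw [IsScalarTower.algebraMap_eq BM K Y]
      exact (algebraMap K Y).injective.comp (IsFractionRing.injective BM K)
    rw [IsScalarTower.algebraMap_eq BM BY Y] at h1
    exact Function.Injective.of_comp h1
  haveI : IsDomain BY := (IsIntegralClosure.algebraMap_injective BY BM Y).isDomain _
  haveI : IsDedekindDomain BY := IsIntegralClosure.isDedekindDomain BM K Y BY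
  -- the prime of `BM` over `𝔭`
  have hdisj : Disjoint ((Submonoid.powers π : Submonoid R0) : Set R0) (𝔭 : Set R0) := by
    rw [Set.disjoint_left]
    rintro _ ⟨n, rfl⟩ hmem
    exact hπ𝔭 (h𝔭.mem_of_pow_mem n hmem)
  haveI hpprime : (Ideal.map (algebraMap R0 BM) 𝔭).IsPrime :=
    IsLocalization.isPrime_of_isPrime_disjoint (Submonoid.powers π) BM 𝔭 h𝔭 hdisj
  have hcomap : (Ideal.map (algebraMap R0 BM) 𝔭).comap (algebraMap R0 BM) = 𝔭 :=
    IsLocalization.under_map_of_isPrime_disjoint (Submonoid.powers π) BM h𝔭 hdisj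
  have hp0 : Ideal.map (algebraMap R0 BM) 𝔭 ≠ ⊥ := by
    intro h0
    apply hbot
    rw [← hcomap, h0]
    exact (Ideal.comap_bot_of_injective _ hinjR)
  have hA : ∀ a : BM, ∃ t : R0, t ∉ 𝔭 ∧ ∃ r : R0,
      algebraMap R0 BM r = algebraMap R0 BM t * a := by
    intro a
    obtain ⟨⟨r, ⟨t, n, rfl⟩⟩, hrt⟩ := IsLocalization.surj (Submonoid.powers π) a
    refine ⟨π ^ n, fun hmem => hπ𝔭 (h𝔭.mem_of_pow_mem n hmem), r, ?_⟩
    rw [← hrt]
    ring
  refine UnramBridge.hU_of_isUnramifiedAt (K := K) (Y := Y) (A := BM) (BA := BY) 𝔭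
    (Ideal.map (algebraMap R0 BM) 𝔭) hp0 hcomap hA ?_ x hx
  intro P hP hle
  refine hunr P ?_
  intro hPbot
  apply hp0
  rw [hPbot, le_bot_iff] at hle
  rw [eq_bot_iff]
  intro z hz
  have : algebraMap BM BY z ∈ (⊥ : Ideal BY) := by
    rw [← hle]
    exact Ideal.mem_map_of_mem _ hz
  rw [Ideal.mem_bot] at this ⊢
  exact hinjBM (by rw [this, map_zero])

end Core

section Branch

/-- **`hU` at the horizontal primes from branch data** (Abhyankar).  Binders = those of
`Abhyankar.isUnramifiedAt_of_branch` (`A` the Dedekind base of the `j`-line, `K = Frac A`, `F` the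
function field (`F2`), `M = Frac R0` the function field of the auxiliary line, Galois over `K`,
`Y = F·M`, `BF`, `BM`, `BY` the integral closures) plus the two-dimensional chart `R0` with
`BM = R0[1/π]` and `B` the integral closure of `R0` in `Y`. -/
theorem hU_of_branch
    {A K F M Y BF BM BY : Type*}
    [CommRing A] [IsDedekindDomain A] [Algebra ℚ A]
    [Field K] [Algebra A K] [IsFractionRing A K]
    [Field F] [Algebra K F] [FiniteDimensional K F] [Algebra A F] [IsScalarTower A K F]
    [Field M] [Algebra K M] [FiniteDimensional K M] [IsGalois K M] [Algebra A M]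
    [IsScalarTower A K M]
    [Field Y] [Algebra K Y] [Algebra F Y] [Algebra M Y] [IsScalarTower K F Y] [IsScalarTower K M Y]
    (hFM : IntermediateField.adjoin F (Set.range (algebraMap M Y)) = ⊤)
    [CommRing BF] [Algebra A BF] [Algebra BF F] [IsScalarTower A BF F] [IsIntegralClosure BF A F]
    [CommRing BM] [Algebra A BM] [Algebra BM M] [IsScalarTower A BM M] [IsIntegralClosure BM A M]
    [CommRing BY] [Algebra BM BY] [Algebra BY Y] [Algebra BM Y] [IsScalarTower BM M Y]
    [IsScalarTower BM BY Y] [IsIntegralClosure BY BM Y]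
    {ι : Type*} (a : ι → A) (m : ι → ℕ) (ha : ∀ i, Prime (a i))
    (hF : ∀ (i : ι) (P : Ideal BF), P.IsPrime → P ≠ ⊥ → a i ∈ P.under A →
      P.ramificationIdx A ∣ m i)
    (hF' : ∀ P : Ideal BF, P.IsPrime → P ≠ ⊥ → (∀ i, a i ∉ P.under A) →
      P.ramificationIdx A = 1)
    (hM : ∀ i, ∃ u g : BM, IsUnit u ∧ algebraMap A BM (a i) = u * g ^ (m i))
    {R0 B : Type*} [CommRing R0] [IsDomain R0] [Algebra R0 M] [IsFractionRing R0 M]
    [Algebra R0 Y] [IsScalarTower R0 M Y]
    [CommRing B] [Algebra R0 B] [Algebra B Y] [IsScalarTower R0 B Y] [IsIntegralClosure B R0 Y]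
    [Algebra R0 BM] [IsScalarTower R0 BM M] (π : R0) [IsLocalization.Away π BM]
    (𝔭 : Ideal R0) [𝔭.IsPrime] (hπ𝔭 : π ∉ 𝔭) (x : B)
    (hx : ∀ y : B, ∃ a ∈ 𝔭, Algebra.trace M Y (algebraMap B Y (x * y)) = algebraMap R0 M a) :
    ∃ s : R0, s ∉ 𝔭 ∧ s • x ∈ 𝔭 • (⊤ : Submodule R0 B) := by
  haveI : CharZero A := algebraRat.charZero A
  haveI : CharZero K := charZero_of_injective_algebraMap (IsFractionRing.injective A K)
  haveI : CharZero M := charZero_of_injective_algebraMap (algebraMap K M).injective
  haveI : FiniteDimensional F Y := Abhyankar.finiteDimensional_of_adjoin_eq_top (K := K) hFM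
  haveI : FiniteDimensional K Y := FiniteDimensional.trans K F Y
  haveI : FiniteDimensional M Y := FiniteDimensional.right K M Y
  haveI : Algebra.IsSeparable M Y := Algebra.IsAlgebraic.isSeparable_of_perfectField
  haveI : IsDomain BM := (IsIntegralClosure.algebraMap_injective BM A M).isDomain _
  haveI : IsDedekindDomain BM := IsIntegralClosure.isDedekindDomain A K M BM
  haveI : IsFractionRing BM M := IsIntegralClosure.isFractionRing_of_finite_extension A K M BM
  exact hU_of_forall_isUnramifiedAt (K := M) (Y := Y) (BM := BM) (BY := BY) π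
    (fun Q _ hQ => Abhyankar.isUnramifiedAt_of_branch (K := K) (F := F) (BF := BF) hFM a m ha
      hF hF' hM Q hQ) 𝔭 hπ𝔭 x hx

end Branch

end Fermat.Agent.S18.HorizU
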