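import Mathlib
import Fermat.Agent.S18.ChartHU
import Fermat.Agent.S18.HorizU

/-!
# S18: the generic chart theorem from branch data

`chart_lift_branch` = `ChartHU.chart_lift_hU` with the horizontal primes discharged by
`HorizU.hU_of_branch` (Abhyankar).  What is left for a chart owner: the instance diagram, the
branch data of the function field `F2` over the `j`-line base `A`, and the nondegeneracy of the
trace form at the vertical prime `(π)`.
-/

set_option autoImplicit false
set_option linter.style.haveILetI false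

namespace Fermat.Agent.S18.ChartBranch

/-- **Generic chart theorem from branch data.**
`A` = Dedekind base of the `j`-line (generic fibre), `K = Frac A`; `F2` the function field,
`M = Frac R0 = Frac BM` the function field of the auxiliary line (Galois over `K`), `Y' = F2·M`;
`BF`, `BM`, `BY` the integral closures of `A` in `F2`, of `A` in `M`, of `BM` in `Y'`;
`R0` the two-dimensional chart ring with `BM = R0[1/π]`, `D` the chart ring of the `j`-line,
`B'` the integral closure of `R0` in `Y'`. -/
theorem chart_lift_branch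
    {A K F2 M Y' BF BM BY D R0 B' : Type*}
    [CommRing A] [IsDedekindDomain A] [Algebra ℚ A]
    [Field K] [Algebra A K] [IsFractionRing A K]
    [Field F2] [Algebra K F2] [FiniteDimensional K F2] [Algebra A F2] [IsScalarTower A K F2]
    [Field M] [Algebra K M] [FiniteDimensional K M] [IsGalois K M] [Algebra A M]
    [IsScalarTower A K M]
    [Field Y'] [Algebra K Y'] [Algebra F2 Y'] [Algebra M Y'] [IsScalarTower K F2 Y']
    [IsScalarTower K M Y']
    (hFM : IntermediateField.adjoin F2 (Set.range (algebraMap M Y')) = ⊤)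
    [CommRing BF] [Algebra A BF] [Algebra BF F2] [IsScalarTower A BF F2] [IsIntegralClosure BF A F2]
    [CommRing BM] [Algebra A BM] [Algebra BM M] [IsScalarTower A BM M] [IsIntegralClosure BM A M]
    [CommRing BY] [Algebra BM BY] [Algebra BY Y'] [Algebra BM Y'] [IsScalarTower BM M Y']
    [IsScalarTower BM BY Y'] [IsIntegralClosure BY BM Y']
    {ι : Type*} (a : ι → A) (m : ι → ℕ) (ha : ∀ i, Prime (a i))
    (hF : ∀ (i : ι) (P : Ideal BF), P.IsPrime → P ≠ ⊥ → a i ∈ P.under A →
      P.ramificationIdx A ∣ m i)
    (hF' : ∀ P : Ideal BF, P.IsPrime → P ≠ ⊥ → (∀ i, a i ∉ P.under A) →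
      P.ramificationIdx A = 1)
    (hM : ∀ i, ∃ u g : BM, IsUnit u ∧ algebraMap A BM (a i) = u * g ^ (m i))
    [CommRing R0] [IsDomain R0] [IsNoetherianRing R0] [IsIntegrallyClosed R0]
    [Algebra R0 M] [IsFractionRing R0 M] [Algebra R0 Y'] [IsScalarTower R0 M Y']
    [CommRing B'] [Algebra R0 B'] [Algebra B' Y'] [IsScalarTower R0 B' Y']
    [IsIntegralClosure B' R0 Y']
    [Algebra R0 BM] [IsScalarTower R0 BM M]
    [CommRing D] [Algebra D R0] [Algebra D F2] [Algebra D Y'] [IsScalarTower D R0 Y']
    [IsScalarTower D F2 Y'] [Algebra.IsIntegral D R0]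
    (π : D) [IsLocalization.Away (algebraMap D R0 π) BM]
    (hπ : Prime (algebraMap D R0 π))
    (hDed : IsDedekindDomain (R0 ⧸ Ideal.span {algebraMap D R0 π}))
    (hcompat : ∀ a : D, algebraMap D R0 π ∣ algebraMap D R0 a → π ∣ a)
    (hvert : TowerUnram.TraceNondeg R0 M Y' B' (Ideal.span {algebraMap D R0 π}))
    (ε : F2) (hε : IsGaussInt D π ε) (hεε : ∃ d : F2, IsGaussInt D π d ∧ ε ^ 2 - ε = π • d) :
    ∃ e : F2, IsIntegral D e ∧ ∃ d : F2, IsGaussInt D π d ∧ e - ε = π • d := by
  haveI : CharZero A := algebraRat.charZero A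
  haveI : CharZero K := charZero_of_injective_algebraMap (IsFractionRing.injective A K)
  haveI : CharZero M := charZero_of_injective_algebraMap (algebraMap K M).injective
  haveI : FiniteDimensional F2 Y' := Abhyankar.finiteDimensional_of_adjoin_eq_top (K := K) hFM
  haveI : IsGalois F2 Y' := Abhyankar.isGalois_of_adjoin_eq_top (K := K) hFM
  haveI : FiniteDimensional K Y' := FiniteDimensional.trans K F2 Y'
  haveI : FiniteDimensional M Y' := FiniteDimensional.right K M Y'
  haveI : Algebra.IsSeparable M Y' := Algebra.IsAlgebraic.isSeparable_of_perfectField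
  refine ChartHU.chart_lift_hU (D := D) (R0 := R0) (K' := M) (F2 := F2) (Y' := Y') (B' := B')
    π hπ hDed hcompat ?_ ε hε hεε
  intro 𝔭 h𝔭 hcase
  rcases hcase with h | h
  · rw [h]; exact hvert
  · intro x hx
    haveI := h𝔭
    exact HorizU.hU_of_branch (K := K) (F := F2) (BF := BF) (BM := BM) (BY := BY) hFM a m ha hF hF'
      hM (algebraMap D R0 π) 𝔭 h x hx

end Fermat.Agent.S18.ChartBranch
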