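import Fermat.Agent.S18.AwayPoly

/-!
# S18, package E3: the cusp chart, Kummer cover `τ^M = t = 1/j`

* `CuspBase W = W[t, 1/(1 - 1728 t)]` (the chart `D` of the `j`-line around `j = ∞`, with
  `j = 1728` removed) and `CuspRing W M = W[τ, 1/(1 - 1728 τ^M)]` (the regular auxiliary ring `R₀`);
* the map `cuspMap : CuspBase W → CuspRing W M`, `t ↦ τ^M`: injective, integral, compatible with
  divisibility by a prime of `W`;
* structure of both rings (domain, noetherian, integrally closed, `(p)` prime, quotient a PID);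
* lifts to fields and the Kummer/Galois property of `F(τ)/F`.
-/

set_option autoImplicit false
set_option linter.style.haveILetI false

namespace Fermat.Agent.S18.Cusp

open Polynomial Fermat.Agent.S18

section Defs

variable (W : Type*) [CommRing W]

/-- `1 - 1728 t`, inverted on the base chart. -/
noncomputable def cuspG : W[X] := 1 - C 1728 * X

/-- `1 - 1728 τ^M`, inverted on the cover chart. -/
noncomputable def cuspF (M : ℕ) : W[X] := 1 - C 1728 * X ^ M

/-- The base chart `W[t, 1/(1 - 1728 t)]`, `t = 1/j`. -/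
abbrev CuspBase := Localization.Away (cuspG W)

/-- The cover chart `W[τ, 1/(1 - 1728 τ^M)]`, `τ^M = t`. -/
abbrev CuspRing (M : ℕ) := Localization.Away (cuspF W M)

/-- The coordinate `t` of the base chart. -/
noncomputable def baseT : CuspBase W := algebraMap W[X] (CuspBase W) X

/-- `1 / (1 - 1728 t)` on the base chart. -/
noncomputable def baseInv : CuspBase W := IsLocalization.Away.invSelf (cuspG W)

/-- The coordinate `τ` of the cover chart. -/
noncomputable def chartX (M : ℕ) : CuspRing W M := algebraMap W[X] (CuspRing W M) X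

/-- `1 / (1 - 1728 τ^M)` on the cover chart. -/
noncomputable def chartInv (M : ℕ) : CuspRing W M := IsLocalization.Away.invSelf (cuspF W M)

theorem algebraMap_cuspG_mul_baseInv :
    algebraMap W[X] (CuspBase W) (cuspG W) * baseInv W = 1 :=
  IsLocalization.Away.mul_invSelf _

theorem algebraMap_cuspF_mul_chartInv (M : ℕ) :
    algebraMap W[X] (CuspRing W M) (cuspF W M) * chartInv W M = 1 :=
  IsLocalization.Away.mul_invSelf _

theorem C_1728 : (C (1728 : W) : W[X]) = 1728 := map_ofNat C 1728

theorem cuspG_eq : cuspG W = 1 - 1728 * X := by rw [cuspG, C_1728]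

theorem cuspF_eq (M : ℕ) : cuspF W M = 1 - 1728 * X ^ M := by rw [cuspF, C_1728]

theorem algebraMap_cuspG :
    algebraMap W[X] (CuspBase W) (cuspG W) = 1 - 1728 * baseT W := by
  have h2 := congrArg (algebraMap W[X] (CuspBase W)) (cuspG_eq W)
  rw [h2, map_sub, map_one, map_mul, map_ofNat]
  rfl

theorem algebraMap_cuspF (M : ℕ) :
    algebraMap W[X] (CuspRing W M) (cuspF W M) = 1 - 1728 * chartX W M ^ M := by
  have h2 := congrArg (algebraMap W[X] (CuspRing W M)) (cuspF_eq W M)
  rw [h2, map_sub, map_one, map_mul, map_ofNat, map_pow]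
  rfl

theorem baseT_mul_baseInv : (1 - 1728 * baseT W) * baseInv W = 1 := by
  rw [← algebraMap_cuspG]
  exact algebraMap_cuspG_mul_baseInv W

theorem chartX_mul_chartInv (M : ℕ) : (1 - 1728 * chartX W M ^ M) * chartInv W M = 1 := by
  rw [← algebraMap_cuspF]
  exact algebraMap_cuspF_mul_chartInv W M

theorem expand_cuspG (M : ℕ) : expand W M (cuspG W) = cuspF W M := by
  simp [cuspG, cuspF]

theorem coeff_zero_cuspF {M : ℕ} (hM : 0 < M) : (cuspF W M).coeff 0 = 1 := by
  simp [cuspF, coeff_X_pow, hM.ne]

theorem coeff_zero_cuspG : (cuspG W).coeff 0 = 1 := by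
  simp [cuspG]

theorem not_C_dvd_cuspF {M : ℕ} (hM : 0 < M) {p : W} (hp : ¬ IsUnit p) : ¬ C p ∣ cuspF W M := by
  intro h
  rw [Polynomial.C_dvd_iff_dvd_coeff] at h
  have h1 := h 0
  rw [coeff_zero_cuspF W hM] at h1
  exact hp (isUnit_of_dvd_one h1)

theorem not_C_dvd_cuspG {p : W} (hp : ¬ IsUnit p) : ¬ C p ∣ cuspG W := by
  intro h
  rw [Polynomial.C_dvd_iff_dvd_coeff] at h
  have h1 := h 0
  rw [coeff_zero_cuspG W] at h1
  exact hp (isUnit_of_dvd_one h1)

theorem cuspF_ne_zero [Nontrivial W] {M : ℕ} (hM : 0 < M) : cuspF W M ≠ 0 := by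
  intro h
  have := coeff_zero_cuspF W hM
  rw [h, coeff_zero] at this
  exact zero_ne_one this

theorem cuspG_ne_zero [Nontrivial W] : cuspG W ≠ 0 := by
  intro h
  have := coeff_zero_cuspG W
  rw [h, coeff_zero] at this
  exact zero_ne_one this

/-- The cover map `t ↦ τ^M` from the base chart to the cover chart. -/
noncomputable def cuspMap (M : ℕ) : CuspBase W →ₐ[W] CuspRing W M :=
  IsLocalization.Away.liftAlgHom (A := W) (R := W[X]) (cuspG W)
    (f := (IsScalarTower.toAlgHom W W[X] (CuspRing W M)).comp (expand W M)) (by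
      rw [AlgHom.comp_apply, expand_cuspG]
      exact IsLocalization.Away.algebraMap_isUnit (cuspF W M))

theorem cuspMap_algebraMap (M : ℕ) (P : W[X]) :
    cuspMap W M (algebraMap W[X] (CuspBase W) P) =
      algebraMap W[X] (CuspRing W M) (expand W M P) := by
  simp [cuspMap]

theorem cuspMap_baseT (M : ℕ) : cuspMap W M (baseT W) = chartX W M ^ M := by
  rw [baseT, cuspMap_algebraMap, expand_X, map_pow, chartX]

theorem cuspMap_baseInv (M : ℕ) : cuspMap W M (baseInv W) = chartInv W M := by
  have h1 := congrArg (cuspMap W M) (algebraMap_cuspG_mul_baseInv W)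
  rw [map_mul, map_one, cuspMap_algebraMap, expand_cuspG] at h1
  have h2 := algebraMap_cuspF_mul_chartInv W M
  calc cuspMap W M (baseInv W) = cuspMap W M (baseInv W) *
        (algebraMap W[X] (CuspRing W M) (cuspF W M) * chartInv W M) := by rw [h2, mul_one]
    _ = (algebraMap W[X] (CuspRing W M) (cuspF W M) * cuspMap W M (baseInv W)) * chartInv W M := by
        ring
    _ = chartInv W M := by rw [h1, one_mul]

theorem cuspMap_algebraMap_base (M : ℕ) (a : W) :
    cuspMap W M (algebraMap W (CuspBase W) a) = algebraMap W (CuspRing W M) a :=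
  (cuspMap W M).commutes a

end Defs

section Integral

variable (W : Type*) [CommRing W]

theorem algebraMap_base_eq (f : W[X]) (a : W) :
    algebraMap W (Localization.Away f) a = algebraMap W[X] (Localization.Away f) (C a) := by
  rw [IsScalarTower.algebraMap_apply W W[X] (Localization.Away f)]
  rfl

/-- Every element of the cover chart is `algebraMap a * chartInv ^ n`. -/
theorem exists_eq_mul_chartInv_pow (M : ℕ) (s : CuspRing W M) :
    ∃ (a : W[X]) (n : ℕ), s = algebraMap W[X] (CuspRing W M) a * chartInv W M ^ n := by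
  obtain ⟨n, a, ha⟩ := IsLocalization.Away.surj (cuspF W M) s
  have h1 := algebraMap_cuspF_mul_chartInv W M
  refine ⟨a, n, ?_⟩
  calc s = s * (algebraMap W[X] (CuspRing W M) (cuspF W M) * chartInv W M) ^ n := by
        rw [h1, one_pow, mul_one]
    _ = (s * algebraMap W[X] (CuspRing W M) (cuspF W M) ^ n) * chartInv W M ^ n := by ring
    _ = _ := by rw [ha]

/-- Every element of the base chart is `algebraMap a * baseInv ^ n`. -/
theorem exists_eq_mul_baseInv_pow (s : CuspBase W) :
    ∃ (a : W[X]) (n : ℕ), s = algebraMap W[X] (CuspBase W) a * baseInv W ^ n := by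
  obtain ⟨n, a, ha⟩ := IsLocalization.Away.surj (cuspG W) s
  have h1 := algebraMap_cuspG_mul_baseInv W
  refine ⟨a, n, ?_⟩
  calc s = s * (algebraMap W[X] (CuspBase W) (cuspG W) * baseInv W) ^ n := by
        rw [h1, one_pow, mul_one]
    _ = (s * algebraMap W[X] (CuspBase W) (cuspG W) ^ n) * baseInv W ^ n := by ring
    _ = _ := by rw [ha]

/-- The algebra structure of the cover chart over the base chart (`t ↦ τ^M`).  A reducible
definition, NOT a global instance: activate it with `letI := cuspAlgebra W M`. -/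
@[reducible] noncomputable def cuspAlgebra (M : ℕ) : Algebra (CuspBase W) (CuspRing W M) :=
  (cuspMap W M).toRingHom.toAlgebra

theorem cuspAlgebra_algebraMap (M : ℕ) (a : CuspBase W) :
    letI := cuspAlgebra W M
    algebraMap (CuspBase W) (CuspRing W M) a = cuspMap W M a := rfl

theorem cuspAlgebra_isScalarTower (M : ℕ) :
    letI := cuspAlgebra W M
    IsScalarTower W (CuspBase W) (CuspRing W M) := by
  letI := cuspAlgebra W M
  exact IsScalarTower.of_algebraMap_eq fun a => (cuspMap_algebraMap_base W M a).symm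

/-- `τ` is a root of the monic polynomial `X^M - t` over the base chart. -/
theorem chartX_isIntegral {M : ℕ} (hM : 0 < M) :
    (cuspMap W M).toRingHom.IsIntegralElem (chartX W M) := by
  refine ⟨X ^ M - C (baseT W), monic_X_pow_sub_C _ hM.ne', ?_⟩
  rw [eval₂_sub, eval₂_pow, eval₂_X, eval₂_C]
  show chartX W M ^ M - cuspMap W M (baseT W) = 0
  rw [cuspMap_baseT, sub_self]

/-- The cover chart is integral over the base chart. -/
theorem cuspMap_isIntegral {M : ℕ} (hM : 0 < M) : (cuspMap W M).toRingHom.IsIntegral := by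
  letI : Algebra (CuspBase W) (CuspRing W M) := cuspAlgebra W M
  have hmap : ∀ a : CuspBase W, algebraMap (CuspBase W) (CuspRing W M) a = cuspMap W M a :=
    fun a => rfl
  have hX : IsIntegral (CuspBase W) (chartX W M) := chartX_isIntegral W hM
  have hpoly : ∀ P : W[X], IsIntegral (CuspBase W) (algebraMap W[X] (CuspRing W M) P) := by
    intro P
    induction P using Polynomial.induction_on with
    | C a =>
      have : algebraMap W[X] (CuspRing W M) (C a) =
          algebraMap (CuspBase W) (CuspRing W M) (algebraMap W (CuspBase W) a) := by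
        rw [hmap, cuspMap_algebraMap_base, ← algebraMap_base_eq]
      rw [this]
      exact isIntegral_algebraMap
    | add p q hp hq => rw [map_add]; exact hp.add hq
    | monomial n a ih =>
      rw [pow_succ, ← mul_assoc, map_mul]
      exact ih.mul hX
  intro s
  obtain ⟨a, n, rfl⟩ := exists_eq_mul_chartInv_pow W M s
  have hinv : IsIntegral (CuspBase W) (chartInv W M) := by
    rw [← cuspMap_baseInv, ← hmap]
    exact isIntegral_algebraMap
  exact (hpoly a).mul (hinv.pow n)

theorem cuspAlgebra_isIntegral {M : ℕ} (hM : 0 < M) :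
    letI := cuspAlgebra W M
    Algebra.IsIntegral (CuspBase W) (CuspRing W M) := by
  letI := cuspAlgebra W M
  exact ⟨cuspMap_isIntegral W hM⟩

/-- The cover chart is generated by `τ` over the base chart. -/
theorem cuspAlgebra_adjoin_chartX (M : ℕ) :
    letI := cuspAlgebra W M
    Algebra.adjoin (CuspBase W) {chartX W M} = ⊤ := by
  letI := cuspAlgebra W M
  rw [eq_top_iff]
  intro s _
  have hX : chartX W M ∈ Algebra.adjoin (CuspBase W) {chartX W M} :=
    Algebra.subset_adjoin rfl
  have hpoly : ∀ P : W[X],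
      algebraMap W[X] (CuspRing W M) P ∈ Algebra.adjoin (CuspBase W) {chartX W M} := by
    intro P
    induction P using Polynomial.induction_on with
    | C a =>
      have : algebraMap W[X] (CuspRing W M) (C a) =
          algebraMap (CuspBase W) (CuspRing W M) (algebraMap W (CuspBase W) a) := by
        rw [cuspAlgebra_algebraMap, cuspMap_algebraMap_base, ← algebraMap_base_eq]
      rw [this]
      exact Subalgebra.algebraMap_mem _ _
    | add p q hp hq => rw [map_add]; exact Subalgebra.add_mem _ hp hq
    | monomial n a ih =>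
      rw [pow_succ, ← mul_assoc, map_mul]
      exact Subalgebra.mul_mem _ ih hX
  obtain ⟨a, n, rfl⟩ := exists_eq_mul_chartInv_pow W M s
  have hinv : chartInv W M ∈ Algebra.adjoin (CuspBase W) {chartX W M} := by
    rw [← cuspMap_baseInv, ← cuspAlgebra_algebraMap]
    exact Subalgebra.algebraMap_mem _ _
  exact Subalgebra.mul_mem _ (hpoly a) (Subalgebra.pow_mem _ hinv n)

/-- The cover chart is a finite module over the base chart. -/
theorem cuspAlgebra_finite {M : ℕ} (hM : 0 < M) :
    letI := cuspAlgebra W M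
    Module.Finite (CuspBase W) (CuspRing W M) := by
  letI := cuspAlgebra W M
  have h1 : (Algebra.adjoin (CuspBase W) {chartX W M}).toSubmodule.FG :=
    IsIntegral.fg_adjoin_singleton (chartX_isIntegral W hM)
  rw [cuspAlgebra_adjoin_chartX, Algebra.top_toSubmodule] at h1
  exact Module.finite_def.mpr h1

end Integral

section Compat

variable (W : Type*) [CommRing W] [IsDomain W]

/-- `(p) R₀ ∩ D = p D`: divisibility by a prime of `W` descends along the cover map. -/
theorem cusp_dvd {M : ℕ} (hM : 0 < M) {p : W} (hp : Prime p) (a : CuspBase W)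
    (h : algebraMap W (CuspRing W M) p ∣ cuspMap W M a) : algebraMap W (CuspBase W) p ∣ a := by
  obtain ⟨P, n, rfl⟩ := exists_eq_mul_baseInv_pow W a
  rw [map_mul, map_pow, cuspMap_algebraMap, cuspMap_baseInv] at h
  -- multiply by the unit `cuspF ^ n`
  have h1 : algebraMap W (CuspRing W M) p ∣ algebraMap W[X] (CuspRing W M) (expand W M P) := by
    have h2 := Dvd.dvd.mul_right h (algebraMap W[X] (CuspRing W M) (cuspF W M) ^ n)
    have h3 : algebraMap W[X] (CuspRing W M) (expand W M P) * chartInv W M ^ n *
        algebraMap W[X] (CuspRing W M) (cuspF W M) ^ n =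
        algebraMap W[X] (CuspRing W M) (expand W M P) := by
      have := algebraMap_cuspF_mul_chartInv W M
      calc _ = algebraMap W[X] (CuspRing W M) (expand W M P) *
            (algebraMap W[X] (CuspRing W M) (cuspF W M) * chartInv W M) ^ n := by ring
        _ = _ := by rw [this, one_pow, mul_one]
    rwa [h3] at h2
  rw [algebraMap_base_eq] at h1
  have h4 : C p ∣ expand W M P :=
    AwayPoly.dvd_of_algebraMap_dvd (cuspF W M) hp (not_C_dvd_cuspF W hM hp.not_isUnit) _ h1
  have h5 : C p ∣ P := by
    rw [Polynomial.C_dvd_iff_dvd_coeff] at h4 ⊢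
    intro i
    have := h4 (i * M)
    rwa [coeff_expand_mul hM] at this
  obtain ⟨P', rfl⟩ := h5
  rw [map_mul, ← algebraMap_base_eq, mul_assoc]
  exact Dvd.intro _ rfl

/-- The cover map is injective. -/
theorem cuspMap_injective {M : ℕ} (hM : 0 < M) : Function.Injective (cuspMap W M) := by
  rw [injective_iff_map_eq_zero]
  intro a ha
  obtain ⟨P, n, rfl⟩ := exists_eq_mul_baseInv_pow W a
  rw [map_mul, map_pow, cuspMap_algebraMap, cuspMap_baseInv] at ha
  have h1 : algebraMap W[X] (CuspRing W M) (expand W M P) = 0 := by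
    have h2 := congrArg (fun z => z * algebraMap W[X] (CuspRing W M) (cuspF W M) ^ n) ha
    simp only [zero_mul] at h2
    have := algebraMap_cuspF_mul_chartInv W M
    calc _ = algebraMap W[X] (CuspRing W M) (expand W M P) *
          (algebraMap W[X] (CuspRing W M) (cuspF W M) * chartInv W M) ^ n := by
          rw [this, one_pow, mul_one]
      _ = algebraMap W[X] (CuspRing W M) (expand W M P) * chartInv W M ^ n *
          algebraMap W[X] (CuspRing W M) (cuspF W M) ^ n := by ring
      _ = 0 := h2
  have h3 : expand W M P = 0 := by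
    have := AwayPoly.away_algebraMap_injective (cuspF W M) (cuspF_ne_zero W hM)
    exact this (by rw [h1, map_zero])
  have h4 : P = 0 := by
    have := expand_injective hM (R := W)
    exact this (by rw [h3, map_zero])
  rw [h4, map_zero, zero_mul]

end Compat

section ChartStructure

variable (W : Type*) [CommRing W] [IsDomain W]

theorem cuspRing_isDomain {M : ℕ} (hM : 0 < M) : IsDomain (CuspRing W M) :=
  AwayPoly.away_isDomain (cuspF W M) (cuspF_ne_zero W hM)

theorem cuspBase_isDomain : IsDomain (CuspBase W) :=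
  AwayPoly.away_isDomain (cuspG W) (cuspG_ne_zero W)

theorem cuspRing_isNoetherianRing [IsNoetherianRing W] (M : ℕ) :
    IsNoetherianRing (CuspRing W M) :=
  AwayPoly.away_isNoetherianRing (cuspF W M)

theorem cuspBase_isNoetherianRing [IsNoetherianRing W] : IsNoetherianRing (CuspBase W) :=
  AwayPoly.away_isNoetherianRing (cuspG W)

theorem cuspRing_isIntegrallyClosed [IsIntegrallyClosed W] {M : ℕ} (hM : 0 < M) :
    IsIntegrallyClosed (CuspRing W M) :=
  AwayPoly.away_isIntegrallyClosed (cuspF W M) (cuspF_ne_zero W hM)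

theorem cuspBase_isIntegrallyClosed [IsIntegrallyClosed W] : IsIntegrallyClosed (CuspBase W) :=
  AwayPoly.away_isIntegrallyClosed (cuspG W) (cuspG_ne_zero W)

theorem cuspRing_span_isPrime {M : ℕ} (hM : 0 < M) {p : W} (hp : Prime p) :
    (Ideal.span {algebraMap W (CuspRing W M) p}).IsPrime := by
  rw [algebraMap_base_eq]
  exact AwayPoly.away_span_isPrime (cuspF W M) hp (not_C_dvd_cuspF W hM hp.not_isUnit)

theorem cuspBase_span_isPrime {p : W} (hp : Prime p) :
    (Ideal.span {algebraMap W (CuspBase W) p}).IsPrime := by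
  rw [algebraMap_base_eq]
  exact AwayPoly.away_span_isPrime (cuspG W) hp (not_C_dvd_cuspG W hp.not_isUnit)

theorem cuspRing_algebraMap_injective {M : ℕ} (hM : 0 < M) :
    Function.Injective (algebraMap W (CuspRing W M)) := by
  intro a b hab
  rw [algebraMap_base_eq, algebraMap_base_eq] at hab
  exact C_injective (AwayPoly.away_algebraMap_injective (cuspF W M) (cuspF_ne_zero W hM) hab)

theorem cuspBase_algebraMap_injective : Function.Injective (algebraMap W (CuspBase W)) := by
  intro a b hab
  rw [algebraMap_base_eq, algebraMap_base_eq] at hab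
  exact C_injective (AwayPoly.away_algebraMap_injective (cuspG W) (cuspG_ne_zero W) hab)

/-- A prime of `W` stays prime in the cover chart. -/
theorem cuspRing_prime {M : ℕ} (hM : 0 < M) {p : W} (hp : Prime p) :
    Prime (algebraMap W (CuspRing W M) p) := by
  have hne : algebraMap W (CuspRing W M) p ≠ 0 := by
    rw [Ne, ← map_zero (algebraMap W (CuspRing W M))]
    exact fun h => hp.ne_zero (cuspRing_algebraMap_injective W hM h)
  exact (Ideal.span_singleton_prime hne).mp (cuspRing_span_isPrime W hM hp)

/-- A prime of `W` stays prime in the base chart. -/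
theorem cuspBase_prime {p : W} (hp : Prime p) : Prime (algebraMap W (CuspBase W) p) := by
  have hne : algebraMap W (CuspBase W) p ≠ 0 := by
    rw [Ne, ← map_zero (algebraMap W (CuspBase W))]
    exact fun h => hp.ne_zero (cuspBase_algebraMap_injective W h)
  exact (Ideal.span_singleton_prime hne).mp (cuspBase_span_isPrime W hp)

theorem cuspRing_quotient_isPrincipalIdealRing (M : ℕ) {p : W}
    (hmax : (Ideal.span {p}).IsMaximal) :
    IsPrincipalIdealRing (CuspRing W M ⧸ Ideal.span {algebraMap W (CuspRing W M) p}) := by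
  rw [algebraMap_base_eq]
  exact AwayPoly.away_quotient_isPrincipalIdealRing (cuspF W M) hmax

theorem cuspBase_quotient_isPrincipalIdealRing {p : W} (hmax : (Ideal.span {p}).IsMaximal) :
    IsPrincipalIdealRing (CuspBase W ⧸ Ideal.span {algebraMap W (CuspBase W) p}) := by
  rw [algebraMap_base_eq]
  exact AwayPoly.away_quotient_isPrincipalIdealRing (cuspG W) hmax

theorem cuspRing_quotient_isDedekindDomain {M : ℕ} (hM : 0 < M) {p : W} (hp : Prime p)
    (hmax : (Ideal.span {p}).IsMaximal) :
    IsDedekindDomain (CuspRing W M ⧸ Ideal.span {algebraMap W (CuspRing W M) p}) := by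
  rw [algebraMap_base_eq]
  exact AwayPoly.away_quotient_isDedekindDomain (cuspF W M) hp hmax
    (not_C_dvd_cuspF W hM hp.not_isUnit)

theorem cuspBase_quotient_isDedekindDomain {p : W} (hp : Prime p)
    (hmax : (Ideal.span {p}).IsMaximal) :
    IsDedekindDomain (CuspBase W ⧸ Ideal.span {algebraMap W (CuspBase W) p}) := by
  rw [algebraMap_base_eq]
  exact AwayPoly.away_quotient_isDedekindDomain (cuspG W) hp hmax
    (not_C_dvd_cuspG W hp.not_isUnit)

/-- `t` is a prime element of the base chart (the branch point `j = ∞`). -/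
theorem baseT_prime : Prime (baseT W) := by
  have hI : (Ideal.span {(X : W[X])}).IsPrime :=
    (Ideal.span_singleton_prime X_ne_zero).mpr prime_X
  have hd : Disjoint (Submonoid.powers (cuspG W) : Set W[X]) (Ideal.span {(X : W[X])} : Ideal W[X]) := by
    rw [Set.disjoint_left]
    rintro _ ⟨n, rfl⟩ hmem
    have h1 : (X : W[X]) ∣ cuspG W := prime_X.dvd_of_dvd_pow (Ideal.mem_span_singleton.mp hmem)
    rw [X_dvd_iff, coeff_zero_cuspG] at h1
    exact one_ne_zero h1
  have h2 := IsLocalization.isPrime_of_isPrime_disjoint (Submonoid.powers (cuspG W)) (CuspBase W) _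
    hI hd
  rw [Ideal.map_span, Set.image_singleton] at h2
  have hne : baseT W ≠ 0 := by
    rw [baseT, Ne, ← map_zero (algebraMap W[X] (CuspBase W))]
    exact fun h => X_ne_zero (AwayPoly.away_algebraMap_injective (cuspG W) (cuspG_ne_zero W) h)
  exact (Ideal.span_singleton_prime hne).mp h2

/-- `τ` is a prime element of the cover chart. -/
theorem chartX_prime {M : ℕ} (hM : 0 < M) : Prime (chartX W M) := by
  have hI : (Ideal.span {(X : W[X])}).IsPrime :=
    (Ideal.span_singleton_prime X_ne_zero).mpr prime_X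
  have hd : Disjoint (Submonoid.powers (cuspF W M) : Set W[X]) (Ideal.span {(X : W[X])} : Ideal W[X]) := by
    rw [Set.disjoint_left]
    rintro _ ⟨n, rfl⟩ hmem
    have h1 : (X : W[X]) ∣ cuspF W M := prime_X.dvd_of_dvd_pow (Ideal.mem_span_singleton.mp hmem)
    rw [X_dvd_iff, coeff_zero_cuspF W hM] at h1
    exact one_ne_zero h1
  have h2 := IsLocalization.isPrime_of_isPrime_disjoint (Submonoid.powers (cuspF W M))
    (CuspRing W M) _ hI hd
  rw [Ideal.map_span, Set.image_singleton] at h2
  have hne : chartX W M ≠ 0 := by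
    rw [chartX, Ne, ← map_zero (algebraMap W[X] (CuspRing W M))]
    exact fun h => X_ne_zero (AwayPoly.away_algebraMap_injective (cuspF W M) (cuspF_ne_zero W hM) h)
  exact (Ideal.span_singleton_prime hne).mp h2

omit [IsDomain W] in
/-- The base chart is `W[X]` localised away from `1 - 1728 X` (the shape without `cuspG`). -/
theorem cuspBase_isLocalization :
    IsLocalization.Away (1 - C 1728 * X : W[X]) (CuspBase W) :=
  inferInstanceAs (IsLocalization.Away (cuspG W) (CuspBase W))

omit [IsDomain W] in
/-- The cover chart is `W[X]` localised away from `1 - 1728 X^M`. -/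
theorem cuspRing_isLocalization (M : ℕ) :
    IsLocalization.Away (1 - C 1728 * X ^ M : W[X]) (CuspRing W M) :=
  inferInstanceAs (IsLocalization.Away (cuspF W M) (CuspRing W M))

end ChartStructure

section FieldBase

variable (L : Type*) [Field L]

/-- Over a field the base chart is a Dedekind domain. -/
theorem cuspBase_isDedekindDomain : IsDedekindDomain (CuspBase L) := by
  haveI := cuspBase_isDomain L
  exact IsLocalization.isDedekindDomain L[X] (AwayPoly.powers_le (cuspG L) (cuspG_ne_zero L))
    (CuspBase L)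

/-- Over a field the cover chart is a Dedekind domain. -/
theorem cuspRing_isDedekindDomain {M : ℕ} (hM : 0 < M) : IsDedekindDomain (CuspRing L M) := by
  haveI := cuspRing_isDomain L hM
  exact IsLocalization.isDedekindDomain L[X] (AwayPoly.powers_le (cuspF L M) (cuspF_ne_zero L hM))
    (CuspRing L M)

end FieldBase

section Lifts

variable (W : Type*) [CommRing W] [IsDomain W] {Y : Type*} [Field Y] [Algebra W Y]

omit [IsDomain W] in
theorem aeval_cuspG (t0 : Y) : aeval t0 (cuspG W) = 1 - 1728 * t0 := by
  rw [cuspG_eq, map_sub, map_one, map_mul, aeval_X, map_ofNat]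

omit [IsDomain W] in
theorem aeval_cuspF (M : ℕ) (x0 : Y) : aeval x0 (cuspF W M) = 1 - 1728 * x0 ^ M := by
  rw [cuspF_eq, map_sub, map_one, map_mul, map_pow, aeval_X, map_ofNat]

/-- The map from the base chart to a field `Y` sending `t` to `t0` (with `1 - 1728 t0 ≠ 0`). -/
noncomputable def baseLift (t0 : Y) (h : 1 - 1728 * t0 ≠ 0) : CuspBase W →ₐ[W] Y :=
  AwayPoly.awayLift (cuspG W) t0 (by rw [aeval_cuspG]; exact h)

/-- The map from the cover chart to a field `Y` sending `τ` to `x0` (with `1 - 1728 x0^M ≠ 0`). -/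
noncomputable def chartLift (M : ℕ) (x0 : Y) (h : 1 - 1728 * x0 ^ M ≠ 0) : CuspRing W M →ₐ[W] Y :=
  AwayPoly.awayLift (cuspF W M) x0 (by rw [aeval_cuspF]; exact h)

variable {W}

theorem baseLift_algebraMap (t0 : Y) (h : 1 - 1728 * t0 ≠ 0) (P : W[X]) :
    baseLift W t0 h (algebraMap W[X] (CuspBase W) P) = aeval t0 P :=
  AwayPoly.awayLift_algebraMap _ _ _ _

theorem chartLift_algebraMap (M : ℕ) (x0 : Y) (h : 1 - 1728 * x0 ^ M ≠ 0) (P : W[X]) :
    chartLift W M x0 h (algebraMap W[X] (CuspRing W M) P) = aeval x0 P :=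
  AwayPoly.awayLift_algebraMap _ _ _ _

theorem baseLift_baseT (t0 : Y) (h : 1 - 1728 * t0 ≠ 0) : baseLift W t0 h (baseT W) = t0 := by
  rw [baseT, baseLift_algebraMap, aeval_X]

theorem chartLift_chartX (M : ℕ) (x0 : Y) (h : 1 - 1728 * x0 ^ M ≠ 0) :
    chartLift W M x0 h (chartX W M) = x0 := by
  rw [chartX, chartLift_algebraMap, aeval_X]

theorem baseLift_baseInv (t0 : Y) (h : 1 - 1728 * t0 ≠ 0) :
    baseLift W t0 h (baseInv W) = (1 - 1728 * t0)⁻¹ := by
  have h1 := congrArg (baseLift W t0 h) (baseT_mul_baseInv W)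
  rw [map_mul, map_one, map_sub, map_one, map_mul, map_ofNat, baseLift_baseT] at h1
  exact eq_inv_of_mul_eq_one_right h1

theorem chartLift_chartInv (M : ℕ) (x0 : Y) (h : 1 - 1728 * x0 ^ M ≠ 0) :
    chartLift W M x0 h (chartInv W M) = (1 - 1728 * x0 ^ M)⁻¹ := by
  have h1 := congrArg (chartLift W M x0 h) (chartX_mul_chartInv W M)
  rw [map_mul, map_one, map_sub, map_one, map_mul, map_ofNat, map_pow, chartLift_chartX] at h1
  exact eq_inv_of_mul_eq_one_right h1

/-- The lift of the cover chart restricts to the lift of the base chart at `t0 = x0^M`. -/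
theorem chartLift_cuspMap (M : ℕ) (x0 : Y) (h : 1 - 1728 * x0 ^ M ≠ 0) (a : CuspBase W) :
    chartLift W M x0 h (cuspMap W M a) = baseLift W (x0 ^ M) h a := by
  obtain ⟨P, n, rfl⟩ := exists_eq_mul_baseInv_pow W a
  rw [map_mul, map_pow, map_mul, map_pow, map_mul, map_pow, cuspMap_algebraMap, cuspMap_baseInv,
    chartLift_algebraMap, chartLift_chartInv, baseLift_algebraMap, baseLift_baseInv,
    expand_aeval]

theorem chartLift_comp_cuspMap (M : ℕ) (x0 : Y) (h : 1 - 1728 * x0 ^ M ≠ 0) :
    (chartLift W M x0 h).comp (cuspMap W M) = baseLift W (x0 ^ M) h :=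
  AlgHom.ext fun a => chartLift_cuspMap M x0 h a

theorem baseLift_injective (t0 : Y) (h : 1 - 1728 * t0 ≠ 0) (htr : Transcendental W t0) :
    Function.Injective (baseLift W t0 h) :=
  AwayPoly.awayLift_injective (cuspG W) t0 _ htr

theorem chartLift_injective (M : ℕ) (x0 : Y) (h : 1 - 1728 * x0 ^ M ≠ 0)
    (htr : Transcendental W x0) : Function.Injective (chartLift W M x0 h) :=
  AwayPoly.awayLift_injective (cuspF W M) x0 _ htr

end Lifts

section Galois

variable {F Y : Type*} [Field F] [Field Y] [Algebra F Y]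

/-- Kummer: if `F` contains a primitive `M`-th root of unity, `M ≠ 0` in `F`, `t ≠ 0` and
`Y = F(x0)` with `x0^M = t`, then `Y / F` is Galois. -/
theorem isGalois_of_root {M : ℕ} (hM : (M : F) ≠ 0) {ζ : F} (hζ : IsPrimitiveRoot ζ M)
    (t : F) (ht : t ≠ 0) (x0 : Y) (hx : x0 ^ M = algebraMap F Y t)
    (hgen : IntermediateField.adjoin F {x0} = ⊤) : IsGalois F Y := by
  have hM0 : 0 < M := Nat.pos_of_ne_zero (by rintro rfl; simp at hM)
  have hsep : (X ^ M - C t : F[X]).Separable := separable_X_pow_sub_C t hM ht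
  have hne : (X ^ M - C t : F[X]) ≠ 0 := hsep.ne_zero
  have hζ' : IsPrimitiveRoot (algebraMap F Y ζ) M :=
    hζ.map_of_injective (algebraMap F Y).injective
  have hfac : (X ^ M - C t : F[X]).map (algebraMap F Y) =
      ∏ i ∈ Finset.range M, (X - C (algebraMap F Y ζ ^ i * x0)) := by
    rw [Polynomial.map_sub, Polynomial.map_pow, map_X, map_C]
    exact X_pow_sub_C_eq_prod hζ' hM0 hx
  have hroot : aeval x0 (X ^ M - C t : F[X]) = 0 := by
    rw [map_sub, map_pow, aeval_X, aeval_C, hx, sub_self]
  have hint : IsIntegral F x0 := ⟨X ^ M - C t, monic_X_pow_sub_C _ hM0.ne', by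
    rw [← aeval_def, hroot]⟩
  haveI : (X ^ M - C t : F[X]).IsSplittingField F Y := by
    refine ⟨?_, ?_⟩
    · rw [hfac]
      exact Splits.prod fun i _ => Splits.X_sub_C _
    · rw [eq_top_iff]
      have h3 : Algebra.adjoin F {x0} = ⊤ := by
        have := IntermediateField.adjoin_simple_toSubalgebra_of_isAlgebraic hint.isAlgebraic
        rw [hgen] at this
        rw [← this]; rfl
      rw [← h3]
      apply Algebra.adjoin_mono
      rw [Set.singleton_subset_iff, mem_rootSet]
      exact ⟨hne, hroot⟩
  exact IsGalois.of_separable_splitting_field hsep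

end Galois

end Fermat.Agent.S18.Cusp
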