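import Fermat.Agent.S18.Cusp

/-!
# S18, package E3 (cusp chart): fraction-field level facts

For the Kummer cover `τ^N = t = 1/j` of the cusp chart (`Cusp.lean`):

* `Frac (CuspRing W N) = Frac (CuspBase W) (τ)`: generated by `τ`, finite, and Galois as soon as a
  primitive `N`-th root of unity is available;
* the cover chart is the integral closure of the base chart in its fraction field;
* the branch data `t = 1 · τ^N` in the binder shape of the Abhyankar wrappers;
* the divisibility criterion `π ∣ ι f ↔ f ≡ 0 mod π` for the structure maps `W[X] → CuspRing W N`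
  (`X ↦ τ^N` and `X ↦ τ`) used at the vertical prime.

All algebra structures are instance arguments with explicit compatibility hypotheses.
-/

set_option autoImplicit false
set_option linter.style.haveILetI false
set_option linter.unusedSectionVars false

namespace Fermat.Agent.S18.Cusp

open Polynomial Fermat.Agent.S18

section Frac

variable (W : Type*) [CommRing W] [IsDomain W] (N : ℕ)
  {K M : Type*} [Field K] [Field M] [Algebra (CuspBase W) K] [IsFractionRing (CuspBase W) K]
  [Algebra (CuspRing W N) M] [IsFractionRing (CuspRing W N) M] [Algebra K M]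

/-- `Frac (CuspRing W N)` is generated over `Frac (CuspBase W)` by `τ`. -/
theorem adjoin_chartX_eq_top
    (hc : ∀ a : CuspBase W, algebraMap K M (algebraMap (CuspBase W) K a) =
      algebraMap (CuspRing W N) M (cuspMap W N a)) :
    IntermediateField.adjoin K {algebraMap (CuspRing W N) M (chartX W N)} = ⊤ := by
  set E := IntermediateField.adjoin K {algebraMap (CuspRing W N) M (chartX W N)} with hE
  have hX : algebraMap (CuspRing W N) M (chartX W N) ∈ E :=
    IntermediateField.subset_adjoin K _ rfl
  have hbase : ∀ a : CuspBase W, algebraMap (CuspRing W N) M (cuspMap W N a) ∈ E := by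
    intro a
    rw [← hc]
    exact E.algebraMap_mem _
  have hpoly : ∀ P : W[X],
      algebraMap (CuspRing W N) M (algebraMap W[X] (CuspRing W N) P) ∈ E := by
    intro P
    induction P using Polynomial.induction_on with
    | C a =>
      rw [← algebraMap_base_eq, ← cuspMap_algebraMap_base]
      exact hbase _
    | add p q hp hq => rw [map_add, map_add]; exact E.add_mem hp hq
    | monomial n a ih =>
      rw [pow_succ, ← mul_assoc, map_mul, map_mul]
      exact E.mul_mem ih hX
  have hring : ∀ r : CuspRing W N, algebraMap (CuspRing W N) M r ∈ E := by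
    intro r
    obtain ⟨a, n, rfl⟩ := exists_eq_mul_chartInv_pow W N r
    rw [map_mul, map_pow]
    refine E.mul_mem (hpoly a) (pow_mem ?_ n)
    rw [← cuspMap_baseInv]
    exact hbase _
  rw [eq_top_iff]
  intro x _
  obtain ⟨a, b, -, rfl⟩ := IsFractionRing.div_surjective (A := CuspRing W N) x
  exact E.div_mem (hring a) (hring b)

/-- `τ^N = t` at the fraction field level. -/
theorem algebraMap_chartX_pow
    (hc : ∀ a : CuspBase W, algebraMap K M (algebraMap (CuspBase W) K a) =
      algebraMap (CuspRing W N) M (cuspMap W N a)) :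
    algebraMap (CuspRing W N) M (chartX W N) ^ N =
      algebraMap K M (algebraMap (CuspBase W) K (baseT W)) := by
  rw [hc, cuspMap_baseT, map_pow]

theorem algebraMap_baseT_ne_zero : algebraMap (CuspBase W) K (baseT W) ≠ 0 := by
  haveI := cuspBase_isDomain W
  rw [Ne, map_eq_zero_iff _ (IsFractionRing.injective (CuspBase W) K)]
  exact (baseT_prime W).ne_zero

/-- `τ` is integral over `Frac (CuspBase W)`. -/
theorem isIntegral_algebraMap_chartX (hN : 0 < N)
    (hc : ∀ a : CuspBase W, algebraMap K M (algebraMap (CuspBase W) K a) =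
      algebraMap (CuspRing W N) M (cuspMap W N a)) :
    IsIntegral K (algebraMap (CuspRing W N) M (chartX W N)) := by
  refine ⟨X ^ N - C (algebraMap (CuspBase W) K (baseT W)), monic_X_pow_sub_C _ hN.ne', ?_⟩
  rw [eval₂_sub, eval₂_pow, eval₂_X, eval₂_C, algebraMap_chartX_pow W N hc, sub_self]

/-- `Frac (CuspRing W N)` is finite over `Frac (CuspBase W)`. -/
theorem finiteDimensional_frac (hN : 0 < N)
    (hc : ∀ a : CuspBase W, algebraMap K M (algebraMap (CuspBase W) K a) =
      algebraMap (CuspRing W N) M (cuspMap W N a)) :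
    FiniteDimensional K M := by
  have h1 : FiniteDimensional K
      (IntermediateField.adjoin K {algebraMap (CuspRing W N) M (chartX W N)}) :=
    IntermediateField.adjoin.finiteDimensional (isIntegral_algebraMap_chartX W N hN hc)
  rw [adjoin_chartX_eq_top W N hc] at h1
  exact Module.Finite.equiv (IntermediateField.topEquiv (F := K) (E := M)).toLinearEquiv

/-- `Frac (CuspRing W N)` is Galois over `Frac (CuspBase W)` when the latter contains a primitive
`N`-th root of unity and `N ≠ 0` in it. -/
theorem isGalois_frac (hNK : (N : K) ≠ 0) {ζ : K} (hζ : IsPrimitiveRoot ζ N)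
    (hc : ∀ a : CuspBase W, algebraMap K M (algebraMap (CuspBase W) K a) =
      algebraMap (CuspRing W N) M (cuspMap W N a)) :
    IsGalois K M :=
  isGalois_of_root hNK hζ (algebraMap (CuspBase W) K (baseT W)) (algebraMap_baseT_ne_zero W)
    (algebraMap (CuspRing W N) M (chartX W N)) (algebraMap_chartX_pow W N hc)
    (adjoin_chartX_eq_top W N hc)

end Frac

section IntegralClosure

variable (W : Type*) [CommRing W] [IsDomain W] (N : ℕ)

/-- `Algebra.IsIntegral` for any algebra instance whose structure map is `cuspMap`. -/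
theorem algebra_isIntegral_of_eq (hN : 0 < N) [Algebra (CuspBase W) (CuspRing W N)]
    (h : ∀ a : CuspBase W, algebraMap (CuspBase W) (CuspRing W N) a = cuspMap W N a) :
    Algebra.IsIntegral (CuspBase W) (CuspRing W N) := by
  have e : algebraMap (CuspBase W) (CuspRing W N) = (cuspMap W N).toRingHom := RingHom.ext h
  refine ⟨fun x => ?_⟩
  show (algebraMap (CuspBase W) (CuspRing W N)).IsIntegralElem x
  rw [e]
  exact cuspMap_isIntegral W hN x

/-- `Module.Finite` for any algebra instance whose structure map is `cuspMap`. -/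
theorem module_finite_of_eq (hN : 0 < N) [Algebra (CuspBase W) (CuspRing W N)]
    (h : ∀ a : CuspBase W, algebraMap (CuspBase W) (CuspRing W N) a = cuspMap W N a) :
    Module.Finite (CuspBase W) (CuspRing W N) := by
  haveI := algebra_isIntegral_of_eq W N hN h
  have e : algebraMap (CuspBase W) (CuspRing W N) = (cuspMap W N).toRingHom := RingHom.ext h
  -- generated by `τ`
  have htop : Algebra.adjoin (CuspBase W) {chartX W N} = ⊤ := by
    rw [eq_top_iff]
    intro s _
    have hX : chartX W N ∈ Algebra.adjoin (CuspBase W) {chartX W N} :=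
      Algebra.subset_adjoin rfl
    have hpoly : ∀ P : W[X],
        algebraMap W[X] (CuspRing W N) P ∈ Algebra.adjoin (CuspBase W) {chartX W N} := by
      intro P
      induction P using Polynomial.induction_on with
      | C a =>
        have : algebraMap W[X] (CuspRing W N) (C a) =
            algebraMap (CuspBase W) (CuspRing W N) (algebraMap W (CuspBase W) a) := by
          rw [h, cuspMap_algebraMap_base, ← algebraMap_base_eq]
        rw [this]
        exact Subalgebra.algebraMap_mem _ _
      | add p q hp hq => rw [map_add]; exact Subalgebra.add_mem _ hp hq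
      | monomial n a ih =>
        rw [pow_succ, ← mul_assoc, map_mul]
        exact Subalgebra.mul_mem _ ih hX
    obtain ⟨a, n, rfl⟩ := exists_eq_mul_chartInv_pow W N s
    have hinv : chartInv W N ∈ Algebra.adjoin (CuspBase W) {chartX W N} := by
      rw [← cuspMap_baseInv, ← h]
      exact Subalgebra.algebraMap_mem _ _
    exact Subalgebra.mul_mem _ (hpoly a) (Subalgebra.pow_mem _ hinv n)
  have h1 : (Algebra.adjoin (CuspBase W) {chartX W N}).toSubmodule.FG :=
    IsIntegral.fg_adjoin_singleton (Algebra.IsIntegral.isIntegral (chartX W N))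
  rw [htop, Algebra.top_toSubmodule] at h1
  exact Module.finite_def.mpr h1

/-- The cover chart is the integral closure of the base chart in (any model of) its fraction
field. -/
theorem isIntegralClosure_frac [IsIntegrallyClosed W] (hN : 0 < N)
    [Algebra (CuspBase W) (CuspRing W N)]
    (h : ∀ a : CuspBase W, algebraMap (CuspBase W) (CuspRing W N) a = cuspMap W N a)
    (M : Type*) [Field M] [Algebra (CuspRing W N) M] [IsFractionRing (CuspRing W N) M]
    [Algebra (CuspBase W) M] [IsScalarTower (CuspBase W) (CuspRing W N) M] :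
    IsIntegralClosure (CuspRing W N) (CuspBase W) M := by
  haveI := algebra_isIntegral_of_eq W N hN h
  haveI := cuspRing_isDomain W hN
  haveI := cuspRing_isIntegrallyClosed W hN
  exact IsIntegralClosure.of_isIntegrallyClosed (CuspRing W N) (CuspBase W) M

/-- Branch datum at the cusp: `t = 1 · τ^N` on the cover chart (binder shape of
`AbhyankarField.isUnramifiedAt_of_branch` / `HorizU.hU_of_branch` with `ι := Unit`). -/
theorem branch_hM [Algebra (CuspBase W) (CuspRing W N)]
    (h : ∀ a : CuspBase W, algebraMap (CuspBase W) (CuspRing W N) a = cuspMap W N a) :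
    ∀ _ : Unit, ∃ u g : CuspRing W N, IsUnit u ∧
      algebraMap (CuspBase W) (CuspRing W N) (baseT W) = u * g ^ N :=
  fun _ => ⟨1, chartX W N, isUnit_one, by rw [h, cuspMap_baseT, one_mul]⟩

/-- Single-branch form: `t = u · g^N` with `u` a unit. -/
theorem branch_hM' [Algebra (CuspBase W) (CuspRing W N)]
    (h : ∀ a : CuspBase W, algebraMap (CuspBase W) (CuspRing W N) a = cuspMap W N a) :
    ∃ u g : CuspRing W N, IsUnit u ∧
      algebraMap (CuspBase W) (CuspRing W N) (baseT W) = u * g ^ N :=
  branch_hM W N h ()

theorem branch_ha : ∀ _ : Unit, Prime (baseT W) := fun _ => baseT_prime W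

end IntegralClosure

section Vertical

variable (W : Type*) [CommRing W] [IsDomain W]

/-- `(π) R₀ ∩ W[τ] = π W[τ]`. -/
theorem cuspRing_dvd_iff {M : ℕ} (hM : 0 < M) {p : W} (hp : Prime p) (f : W[X]) :
    algebraMap W (CuspRing W M) p ∣ algebraMap W[X] (CuspRing W M) f ↔ C p ∣ f := by
  constructor
  · intro h
    rw [algebraMap_base_eq] at h
    exact AwayPoly.dvd_of_algebraMap_dvd (cuspF W M) hp (not_C_dvd_cuspF W hM hp.not_isUnit) _ h
  · rintro ⟨g, rfl⟩
    rw [map_mul, ← algebraMap_base_eq]
    exact Dvd.intro _ rfl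

/-- `(π) D ∩ W[t] = π W[t]`. -/
theorem cuspBase_dvd_iff {p : W} (hp : Prime p) (f : W[X]) :
    algebraMap W (CuspBase W) p ∣ algebraMap W[X] (CuspBase W) f ↔ C p ∣ f := by
  constructor
  · intro h
    rw [algebraMap_base_eq] at h
    exact AwayPoly.dvd_of_algebraMap_dvd (cuspG W) hp (not_C_dvd_cuspG W hp.not_isUnit) _ h
  · rintro ⟨g, rfl⟩
    rw [map_mul, ← algebraMap_base_eq]
    exact Dvd.intro _ rfl

omit [IsDomain W] in
theorem C_dvd_expand_iff {M : ℕ} (hM : 0 < M) (p : W) (f : W[X]) :
    C p ∣ expand W M f ↔ C p ∣ f := by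
  rw [Polynomial.C_dvd_iff_dvd_coeff, Polynomial.C_dvd_iff_dvd_coeff]
  constructor
  · intro h i
    have := h (i * M)
    rwa [coeff_expand_mul hM] at this
  · intro h i
    rw [coeff_expand hM]
    split_ifs
    · exact h _
    · exact dvd_zero _

omit [IsDomain W] in
/-- `C p ∣ f ↔ f ≡ 0` modulo a ring map with kernel `(p)`. -/
theorem C_dvd_iff_map_eq_zero {k : Type*} [CommRing k] (res : W →+* k) {p : W}
    (hres : ∀ a : W, res a = 0 ↔ p ∣ a) (f : W[X]) : C p ∣ f ↔ f.map res = 0 := by
  rw [Polynomial.C_dvd_iff_dvd_coeff, Polynomial.ext_iff]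
  constructor
  · intro h i
    rw [coeff_map, coeff_zero]
    exact (hres _).mpr (h i)
  · intro h i
    have := h i
    rw [coeff_map, coeff_zero] at this
    exact (hres _).mp this

/-- The structure map `W[X] → CuspRing W M`, `X ↦ τ^M = t` (the `1/j`-line coordinate). -/
noncomputable def cuspIota (M : ℕ) : W[X] →+* CuspRing W M :=
  (algebraMap W[X] (CuspRing W M)).comp (expand W M : W[X] →+* W[X])

omit [IsDomain W] in
theorem cuspIota_apply (M : ℕ) (f : W[X]) :
    cuspIota W M f = algebraMap W[X] (CuspRing W M) (expand W M f) := rfl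

omit [IsDomain W] in
theorem cuspIota_eq_cuspMap (M : ℕ) (f : W[X]) :
    cuspIota W M f = cuspMap W M (algebraMap W[X] (CuspBase W) f) := by
  rw [cuspIota_apply, cuspMap_algebraMap]

omit [IsDomain W] in
theorem cuspIota_X (M : ℕ) : cuspIota W M X = chartX W M ^ M := by
  rw [cuspIota_apply, expand_X, map_pow, chartX]

omit [IsDomain W] in
theorem cuspIota_C (M : ℕ) (a : W) : cuspIota W M (C a) = algebraMap W (CuspRing W M) a := by
  rw [cuspIota_apply, expand_C, ← algebraMap_base_eq]

/-- Vertical prime of the cusp chart, structure map `X ↦ τ^M`: the hypothesis `hι` of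
`VerticalChart.hU_vertical_chart'`. -/
theorem cuspIota_dvd_iff {M : ℕ} (hM : 0 < M) {p : W} (hp : Prime p) {k : Type*} [CommRing k]
    (res : W →+* k) (hres : ∀ a : W, res a = 0 ↔ p ∣ a) (f : W[X]) :
    algebraMap W (CuspRing W M) p ∣ cuspIota W M f ↔ f.map res = 0 := by
  rw [cuspIota_apply, cuspRing_dvd_iff W hM hp, C_dvd_expand_iff W hM,
    C_dvd_iff_map_eq_zero W res hres]

/-- Vertical prime of the cusp chart, structure map `X ↦ τ`. -/
theorem cuspRing_dvd_iff_map_eq_zero {M : ℕ} (hM : 0 < M) {p : W} (hp : Prime p) {k : Type*}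
    [CommRing k] (res : W →+* k) (hres : ∀ a : W, res a = 0 ↔ p ∣ a) (f : W[X]) :
    algebraMap W (CuspRing W M) p ∣ algebraMap W[X] (CuspRing W M) f ↔ f.map res = 0 := by
  rw [cuspRing_dvd_iff W hM hp, C_dvd_iff_map_eq_zero W res hres]

/-- Vertical prime of the base chart, structure map `X ↦ t`. -/
theorem cuspBase_dvd_iff_map_eq_zero {p : W} (hp : Prime p) {k : Type*}
    [CommRing k] (res : W →+* k) (hres : ∀ a : W, res a = 0 ↔ p ∣ a) (f : W[X]) :
    algebraMap W (CuspBase W) p ∣ algebraMap W[X] (CuspBase W) f ↔ f.map res = 0 := by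
  rw [cuspBase_dvd_iff W hp, C_dvd_iff_map_eq_zero W res hres]

end Vertical

end Fermat.Agent.S18.Cusp
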