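import Mathlib
import Fermat.Agent.S18.TSD
import Fermat.Agent.S18.AwayPoly

/-!
# S18, cusp chart: change of chart for Gauss integrality

`IsGaussInt R π z` (integral over the localisation of `R` at `(π)`) is compared for

* a ring map `A → A'` compatible with the maps to the target (`isGaussInt_of_comp`);
* a localisation `A' = A[1/f]` with `π ∤ f` (`isGaussInt_of_away`);
* the two coordinates `j` and `t = 1/j` of the projective line: `W[X]` acting through `X ↦ j`
  versus `W[X][1/f]` acting through `X ↦ t` (`isGaussInt_chart_iff`).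
-/

namespace Fermat.Agent.S18.CuspGauss

open Polynomial

set_option linter.unusedSectionVars false
set_option linter.style.haveILetI false

section generic

variable {A A' Y : Type*} [CommRing A] [CommRing A'] [CommRing Y] [Algebra A Y] [Algebra A' Y]

/-- Integrality passes to a bigger coefficient ring (no scalar tower instance needed). -/
theorem isIntegral_of_comp (ψ : A →+* A') (hψ : ∀ a, algebraMap A' Y (ψ a) = algebraMap A Y a)
    {x : Y} (hx : IsIntegral A x) : IsIntegral A' x := by
  obtain ⟨p, hp, hpx⟩ := hx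
  refine ⟨p.map ψ, hp.map ψ, ?_⟩
  rw [eval₂_map]
  have : (algebraMap A' Y).comp ψ = algebraMap A Y := RingHom.ext hψ
  rw [this]; exact hpx

/-- Gauss integrality passes along a ring map `ψ : A → A'` with `(π) A' ∩ A = (π) A`. -/
theorem isGaussInt_of_comp (ψ : A →+* A') (hψ : ∀ a, algebraMap A' Y (ψ a) = algebraMap A Y a)
    (π : A) (hcompat : ∀ a : A, ψ π ∣ ψ a → π ∣ a) {z : Y} (hz : IsGaussInt A π z) :
    IsGaussInt A' (ψ π) z := by
  obtain ⟨s, hs, hsz⟩ := hz
  refine ⟨ψ s, fun h => hs (hcompat s h), ?_⟩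
  have : ψ s • z = s • z := by rw [Algebra.smul_def, Algebra.smul_def, hψ]
  rw [this]; exact isIntegral_of_comp ψ hψ hsz

/-- Typeclass form of `isGaussInt_of_comp`. -/
theorem isGaussInt_of_tower [Algebra A A'] [IsScalarTower A A' Y] (π : A)
    (hcompat : ∀ a : A, algebraMap A A' π ∣ algebraMap A A' a → π ∣ a) {z : Y}
    (hz : IsGaussInt A π z) : IsGaussInt A' (algebraMap A A' π) z :=
  isGaussInt_of_comp (algebraMap A A')
    (fun a => (IsScalarTower.algebraMap_apply A A' Y a).symm) π hcompat hz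

/-- Clearing a denominator `f`: integral over `A[1/f]` implies `f ^ k • x` integral over `A`. -/
theorem exists_pow_smul_isIntegral_of_away [Algebra A A'] [IsScalarTower A A' Y] (f : A)
    [IsLocalization.Away f A'] {x : Y} (hx : IsIntegral A' x) :
    ∃ k : ℕ, IsIntegral A (f ^ k • x) := by
  obtain ⟨⟨m, k, rfl⟩, hm⟩ :=
    IsIntegral.exists_multiple_integral_of_isLocalization (Submonoid.powers f) x hx
  exact ⟨k, hm⟩

/-- Gauss integrality over `A[1/f]` implies Gauss integrality over `A` when `π ∤ f`. -/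
theorem isGaussInt_of_away [Algebra A A'] [IsScalarTower A A' Y] (f : A)
    [IsLocalization.Away f A'] (π : A) (hπ : Prime π) (hf : ¬ π ∣ f) {z : Y}
    (hz : IsGaussInt A' (algebraMap A A' π) z) : IsGaussInt A π z := by
  obtain ⟨s', hs', hsz⟩ := hz
  obtain ⟨n, a, ha⟩ := IsLocalization.Away.surj f s'
  -- `s' * f ^ n = a`
  have hfu : IsUnit (algebraMap A A' f) := IsLocalization.Away.algebraMap_isUnit f
  have ha' : ¬ π ∣ a := by
    rintro ⟨c, rfl⟩
    apply hs'
    obtain ⟨u, hu⟩ := hfu.pow n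
    refine ⟨algebraMap A A' c * ↑u⁻¹, ?_⟩
    have h1 : s' * (u : A') = algebraMap A A' π * algebraMap A A' c := by
      rw [hu, ha, map_mul]
    calc s' = s' * (u : A') * ↑u⁻¹ := by rw [mul_assoc, Units.mul_inv, mul_one]
      _ = algebraMap A A' π * (algebraMap A A' c * ↑u⁻¹) := by rw [h1, mul_assoc]
  have h2 : IsIntegral A' (a • z) := by
    have : a • z = (algebraMap A A' f ^ n) • (s' • z) := by
      rw [smul_smul, mul_comm, ha, algebraMap_smul]
    rw [this]
    exact IsIntegral.smul _ hsz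
  obtain ⟨k, hk⟩ := exists_pow_smul_isIntegral_of_away (A' := A') f h2
  refine ⟨f ^ k * a, ?_, ?_⟩
  · intro h
    rcases hπ.dvd_or_dvd h with h | h
    · exact hf (hπ.dvd_of_dvd_pow h)
    · exact ha' h
  · rwa [mul_smul]

end generic

section reflect

variable {W Y : Type*} [CommRing W] [CommRing Y] [Algebra W Y]

/-- `reflect k s` evaluated at the inverse point. -/
theorem aeval_reflect (x x' : Y) (hxx' : x * x' = 1) (k : ℕ) (s : W[X]) (hs : s.natDegree ≤ k) :
    aeval x' (reflect k s) = x' ^ k * aeval x s := by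
  letI : Invertible x := ⟨x', by rw [mul_comm]; exact hxx', hxx'⟩
  have h := eval₂_reflect_mul_pow (algebraMap W Y) x k s hs
  have h' : aeval (⅟x) (reflect k s) * x ^ k = aeval x s := h
  have hx' : (⅟x : Y) = x' := rfl
  rw [hx'] at h'
  have hpow : x ^ k * x' ^ k = 1 := by rw [← mul_pow, hxx', one_pow]
  calc aeval x' (reflect k s) = aeval x' (reflect k s) * (x ^ k * x' ^ k) := by
        rw [hpow, mul_one]
    _ = x' ^ k * (aeval x' (reflect k s) * x ^ k) := by ring
    _ = x' ^ k * aeval x s := by rw [h']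

theorem C_dvd_reflect_iff (π : W) (k : ℕ) (s : W[X]) (hs : s.natDegree ≤ k) :
    C π ∣ reflect k s ↔ C π ∣ s := by
  rw [C_dvd_iff_dvd_coeff, C_dvd_iff_dvd_coeff]
  constructor
  · intro h i
    by_cases hi : i ≤ k
    · have := h (revAt k i)
      rwa [coeff_reflect, revAt_invol] at this
    · have : s.coeff i = 0 := coeff_eq_zero_of_natDegree_lt (by omega)
      rw [this]; exact dvd_zero _
  · intro h i
    rw [coeff_reflect]; exact h _

/-- If `y` is integral over `W[x]`, then `x'^k * y` is integral over `W[x']` for all large `k`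
(`x * x' = 1`). -/
theorem isIntegralElem_inv (x x' : Y) (hxx' : x * x' = 1) (y : Y)
    (hy : (aeval x : W[X] →ₐ[W] Y).toRingHom.IsIntegralElem y) :
    ∃ k₀ : ℕ, ∀ k, k₀ ≤ k → (aeval x' : W[X] →ₐ[W] Y).toRingHom.IsIntegralElem (x' ^ k * y) := by
  obtain ⟨P, hP, hPy⟩ := hy
  set n := P.natDegree with hn
  refine ⟨(Finset.range n).sup fun i => (P.coeff i).natDegree, fun k hk => ?_⟩
  have hdeg : ∀ i, i < n → (P.coeff i).natDegree ≤ k * (n - i) := by
    intro i hi
    have h1 : (P.coeff i).natDegree ≤ (Finset.range n).sup fun i => (P.coeff i).natDegree :=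
      Finset.le_sup (f := fun i => (P.coeff i).natDegree) (Finset.mem_range.mpr hi)
    have h2 : k ≤ k * (n - i) := Nat.le_mul_of_pos_right k (by omega)
    omega
  set Q : (W[X])[X] := X ^ n + ∑ i ∈ Finset.range n, C (reflect (k * (n - i)) (P.coeff i)) * X ^ i
    with hQ
  have hQmonic : Q.Monic := by
    apply monic_X_pow_add
    refine (degree_sum_le _ _).trans_lt ?_
    rw [Finset.sup_lt_iff (by exact WithBot.bot_lt_coe n)]
    intro i hi
    refine (degree_C_mul_X_pow_le i _).trans_lt ?_
    exact_mod_cast Finset.mem_range.mp hi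
  refine ⟨Q, hQmonic, ?_⟩
  have hPsum : eval₂ (aeval x : W[X] →ₐ[W] Y).toRingHom y P
      = y ^ n + ∑ i ∈ Finset.range n, aeval x (P.coeff i) * y ^ i := by
    conv_lhs => rw [hP.as_sum]
    simp [eval₂_add, eval₂_finsetSum, hn]
  rw [hPsum] at hPy
  have hxk : ∀ m : ℕ, x ^ m * x' ^ m = 1 := fun m => by rw [← mul_pow, hxx', one_pow]
  have key : eval₂ (aeval x' : W[X] →ₐ[W] Y).toRingHom (x' ^ k * y) Q
      = x' ^ (k * n) * (y ^ n + ∑ i ∈ Finset.range n, aeval x (P.coeff i) * y ^ i) := by
    rw [hQ]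
    simp only [eval₂_add, eval₂_finsetSum, eval₂_mul, eval₂_C, eval₂_X_pow, AlgHom.toRingHom_eq_coe,
      RingHom.coe_coe]
    rw [mul_add, Finset.mul_sum]
    congr 1
    · rw [mul_pow, ← pow_mul]
    · refine Finset.sum_congr rfl fun i hi => ?_
      have hi' : i < n := Finset.mem_range.mp hi
      rw [aeval_reflect x x' hxx' _ _ (hdeg i hi'), mul_pow, ← pow_mul]
      have : k * n = k * (n - i) + k * i := by
        rw [← Nat.mul_add]; congr 1; omega
      rw [this, pow_add]; ring
  rw [key, hPy, mul_zero]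

/-- Gauss integrality with respect to `W[x]` implies Gauss integrality with respect to
`W[1/x]`, in instance-free form. -/
theorem gaussInt_inv (π : W) (x x' : Y) (hxx' : x * x' = 1) (z : Y)
    (h : ∃ s : W[X], ¬ C π ∣ s ∧
      (aeval x : W[X] →ₐ[W] Y).toRingHom.IsIntegralElem (aeval x s * z)) :
    ∃ s : W[X], ¬ C π ∣ s ∧
      (aeval x' : W[X] →ₐ[W] Y).toRingHom.IsIntegralElem (aeval x' s * z) := by
  obtain ⟨s, hs, hsz⟩ := h
  obtain ⟨k₀, hk₀⟩ := isIntegralElem_inv x x' hxx' _ hsz
  set k := max k₀ s.natDegree with hk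
  refine ⟨reflect k s, ?_, ?_⟩
  · rw [C_dvd_reflect_iff π k s (le_max_right _ _)]; exact hs
  · rw [aeval_reflect x x' hxx' k s (le_max_right _ _), mul_assoc]
    exact hk₀ k (le_max_left _ _)

theorem gaussInt_inv_iff (π : W) (x x' : Y) (hxx' : x * x' = 1) (z : Y) :
    (∃ s : W[X], ¬ C π ∣ s ∧
      (aeval x : W[X] →ₐ[W] Y).toRingHom.IsIntegralElem (aeval x s * z)) ↔
    ∃ s : W[X], ¬ C π ∣ s ∧
      (aeval x' : W[X] →ₐ[W] Y).toRingHom.IsIntegralElem (aeval x' s * z) :=
  ⟨gaussInt_inv π x x' hxx' z, gaussInt_inv π x' x (by rw [mul_comm]; exact hxx') z⟩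

end reflect

section chart

variable {W Y : Type*} [CommRing W] [IsDomain W] [CommRing Y] [Algebra W Y]

/-- Typeclass form versus instance-free form for the polynomial ring acting through
`X ↦ x`. -/
theorem isGaussInt_poly_iff (π : W) (x : Y) [Algebra W[X] Y]
    (h1 : ∀ P : W[X], algebraMap W[X] Y P = aeval x P) (z : Y) :
    IsGaussInt W[X] (C π) z ↔
      ∃ s : W[X], ¬ C π ∣ s ∧
        (aeval x : W[X] →ₐ[W] Y).toRingHom.IsIntegralElem (aeval x s * z) := by
  have hmap : algebraMap W[X] Y = (aeval x : W[X] →ₐ[W] Y).toRingHom := RingHom.ext h1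
  constructor
  · rintro ⟨s, hs, p, hp, hpz⟩
    refine ⟨s, hs, p, hp, ?_⟩
    rw [Algebra.smul_def, hmap] at hpz
    exact hpz
  · rintro ⟨s, hs, p, hp, hpz⟩
    refine ⟨s, hs, p, hp, ?_⟩
    rw [Algebra.smul_def, hmap]
    exact hpz

/-- The polynomial ring acting through `X ↦ t` versus its localisation `W[X][1/f]`. -/
theorem gaussInt_away_iff (π : W) (hπ : Prime π) (f : W[X]) (hf : ¬ C π ∣ f) (t : Y)
    [Algebra (Localization.Away f) Y]
    (h2 : ∀ P : W[X], algebraMap (Localization.Away f) Y (algebraMap W[X] (Localization.Away f) P)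
      = aeval t P) (z : Y) :
    (∃ s : W[X], ¬ C π ∣ s ∧
        (aeval t : W[X] →ₐ[W] Y).toRingHom.IsIntegralElem (aeval t s * z)) ↔
      IsGaussInt (Localization.Away f) (algebraMap W[X] (Localization.Away f) (C π)) z := by
  letI It : Algebra W[X] Y := (aeval t : W[X] →ₐ[W] Y).toRingHom.toAlgebra
  have h1 : ∀ P : W[X], algebraMap W[X] Y P = aeval t P := fun P => rfl
  haveI : IsScalarTower W[X] (Localization.Away f) Y :=
    IsScalarTower.of_algebraMap_eq fun P => by rw [h2 P, h1 P]
  rw [← isGaussInt_poly_iff π t h1 z]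
  have hprime : Prime (C π) := Polynomial.prime_C_iff.mpr hπ
  constructor
  · intro h
    exact isGaussInt_of_tower (A' := Localization.Away f) (C π)
      (fun a ha => AwayPoly.dvd_of_algebraMap_dvd f hπ hf a ha) h
  · intro h
    exact isGaussInt_of_away (A' := Localization.Away f) f (C π) hprime hf h

/-- **Change of chart.** `W[X]` acting through `X ↦ j` and `W[X][1/f]` acting through
`X ↦ t = 1/j` define the same Gauss-integral elements (`π ∤ f`, e.g. `f = 1 - 1728 X`). -/
theorem isGaussInt_chart_iff (π : W) (hπ : Prime π) (f : W[X]) (hf : ¬ C π ∣ f) (j t : Y)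
    (hjt : j * t = 1) [Algebra W[X] Y] (h1 : ∀ P : W[X], algebraMap W[X] Y P = aeval j P)
    [Algebra (Localization.Away f) Y]
    (h2 : ∀ P : W[X], algebraMap (Localization.Away f) Y (algebraMap W[X] (Localization.Away f) P)
      = aeval t P) (z : Y) :
    IsGaussInt W[X] (C π) z ↔
      IsGaussInt (Localization.Away f) (algebraMap W[X] (Localization.Away f) (C π)) z :=
  (isGaussInt_poly_iff π j h1 z).trans
    ((gaussInt_inv_iff π j t hjt z).trans (gaussInt_away_iff π hπ f hf t h2 z))

end chart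

end Fermat.Agent.S18.CuspGauss
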