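import Mathlib
import Fermat.Agent.S18.AbhyankarField

set_option autoImplicit false
set_option linter.style.haveILetI false

/-!
# S18, package P4c (chart corollaries of Abhyankar's lemma)

Pre-instantiated forms of `Fermat.Agent.S18.Abhyankar.isUnramifiedAt_of_branch`:

* `isUnramifiedAt_finite_chart`: base `L[X]` (`X ↦ j`), branch points `X` (index `3`) and
  `X - C 1728` (index `2`) — the Legendre and Hesse charts.
* `isUnramifiedAt_single_branch`: an arbitrary Dedekind base with one branch point `t` of index `n`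
  — the cusp chart (`t = 1/j`, `τ ^ n = t`).
-/

namespace Fermat.Agent.S18.Abhyankar

open Polynomial

/-- **Finite chart.**  `F/L(j)` has ramification dividing `3` over `j = 0`, dividing `2` over
`j = 1728` and is unramified over every other prime of `L[j]`; in the auxiliary ring `BM`,
`j = unit * cube` and `j - 1728 = unit * square`.  Then `Y = F·M` is unramified over `M` at every
nonzero prime of the integral closure `BY` of `BM` in `Y`. -/
theorem isUnramifiedAt_finite_chart
    {L K F M Y BF BM BY : Type*} [Field L] [Algebra ℚ L]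
    [Field K] [Algebra L[X] K] [IsFractionRing L[X] K]
    [Field F] [Algebra K F] [FiniteDimensional K F] [Algebra L[X] F] [IsScalarTower L[X] K F]
    [Field M] [Algebra K M] [FiniteDimensional K M] [IsGalois K M] [Algebra L[X] M]
    [IsScalarTower L[X] K M]
    [Field Y] [Algebra K Y] [Algebra F Y] [Algebra M Y] [IsScalarTower K F Y] [IsScalarTower K M Y]
    (hFM : IntermediateField.adjoin F (Set.range (algebraMap M Y)) = ⊤)
    [CommRing BF] [Algebra L[X] BF] [Algebra BF F] [IsScalarTower L[X] BF F]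
    [IsIntegralClosure BF L[X] F]
    [CommRing BM] [Algebra L[X] BM] [Algebra BM M] [IsScalarTower L[X] BM M]
    [IsIntegralClosure BM L[X] M]
    [CommRing BY] [Algebra BM BY] [Algebra BY Y] [Algebra BM Y] [IsScalarTower BM M Y]
    [IsScalarTower BM BY Y] [IsIntegralClosure BY BM Y]
    (hF : ∀ P : Ideal BF, P.IsPrime → P ≠ ⊥ →
      (X ∈ P.under L[X] → P.ramificationIdx L[X] ∣ 3) ∧
      (X - C 1728 ∈ P.under L[X] → P.ramificationIdx L[X] ∣ 2) ∧
      (X ∉ P.under L[X] → X - C 1728 ∉ P.under L[X] → P.ramificationIdx L[X] = 1))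
    (u₀ g₀ u₁ g₁ : BM) (hu₀ : IsUnit u₀) (h₀ : algebraMap L[X] BM X = u₀ * g₀ ^ 3)
    (hu₁ : IsUnit u₁) (h₁ : algebraMap L[X] BM (X - C 1728) = u₁ * g₁ ^ 2)
    (Q : Ideal BY) [Q.IsPrime] (hQ : Q ≠ ⊥) : Algebra.IsUnramifiedAt BM Q := by
  refine isUnramifiedAt_of_branch (K := K) (F := F) (BF := BF) hFM
    (fun b : Bool => if b then (X : L[X]) else X - C 1728) (fun b : Bool => if b then 3 else 2)
    ?_ ?_ ?_ ?_ Q hQ
  · rintro (_ | _)
    · simpa using Polynomial.prime_X_sub_C (1728 : L)
    · simpa using (Polynomial.prime_X : Prime (X : L[X]))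
  · rintro (_ | _) P hP hP0 hmem
    · simpa using (hF P hP hP0).2.1 (by simpa using hmem)
    · simpa using (hF P hP hP0).1 (by simpa using hmem)
  · intro P hP hP0 h
    exact (hF P hP hP0).2.2 (by simpa using h true) (by simpa using h false)
  · rintro (_ | _)
    · exact ⟨u₁, g₁, hu₁, by simpa using h₁⟩
    · exact ⟨u₀, g₀, hu₀, by simpa using h₀⟩

/-- **One branch point** (cusp chart: `A = L[t, 1/(1 - 1728 t)]`, `t = 1/j`, `BM ∋ τ`, `τ ^ n = t`).
`F/K` has ramification dividing `n` over the prime element `t` of `A` and is unramified over every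
other prime; in `BM`, `t = unit * g ^ n`.  Then `Y = F·M` is unramified over `M` at every nonzero
prime of the integral closure `BY` of `BM` in `Y`. -/
theorem isUnramifiedAt_single_branch
    {A K F M Y BF BM BY : Type*}
    [CommRing A] [IsDedekindDomain A] [Algebra ℚ A]
    [Field K] [Algebra A K] [IsFractionRing A K]
    [Field F] [Algebra K F] [FiniteDimensional K F] [Algebra A F] [IsScalarTower A K F]
    [Field M] [Algebra K M] [FiniteDimensional K M] [IsGalois K M] [Algebra A M]
    [IsScalarTower A K M]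
    [Field Y] [Algebra K Y] [Algebra F Y] [Algebra M Y] [IsScalarTower K F Y] [IsScalarTower K M Y]
    (hFM : IntermediateField.adjoin F (Set.range (algebraMap M Y)) = ⊤)
    [CommRing BF] [Algebra A BF] [Algebra BF F] [IsScalarTower A BF F] [IsIntegralClosure BF A F]
    [CommRing BM] [Algebra A BM] [Algebra BM M] [IsScalarTower A BM M] [IsIntegralClosure BM A M]
    [CommRing BY] [Algebra BM BY] [Algebra BY Y] [Algebra BM Y] [IsScalarTower BM M Y]
    [IsScalarTower BM BY Y] [IsIntegralClosure BY BM Y]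
    (t : A) (ht : Prime t) (n : ℕ)
    (hF : ∀ P : Ideal BF, P.IsPrime → P ≠ ⊥ →
      (t ∈ P.under A → P.ramificationIdx A ∣ n) ∧ (t ∉ P.under A → P.ramificationIdx A = 1))
    (u g : BM) (hu : IsUnit u) (h : algebraMap A BM t = u * g ^ n)
    (Q : Ideal BY) [Q.IsPrime] (hQ : Q ≠ ⊥) : Algebra.IsUnramifiedAt BM Q :=
  isUnramifiedAt_of_branch (K := K) (F := F) (BF := BF) hFM (fun _ : Unit => t) (fun _ : Unit => n)
    (fun _ => ht) (fun _ P hP hP0 hmem => (hF P hP hP0).1 hmem)
    (fun P hP hP0 h => (hF P hP hP0).2 (h ())) (fun _ => ⟨u, g, hu, h⟩) Q hQ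

end Fermat.Agent.S18.Abhyankar
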