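import Mathlib
import Fermat.Agent.S18.HorizU
import Fermat.Agent.S18.AbhyankarCharts

/-!
# S18, link 5: `hU` at the horizontal primes, pre-instantiated for the charts

Chart forms of `Fermat.Agent.S18.HorizU.hU_of_branch`, with the branch data in exactly the shapes
of `Abhyankar.isUnramifiedAt_finite_chart` (Legendre / Hesse chart, base `L[X]`, `X ↦ j`) and
`Abhyankar.isUnramifiedAt_single_branch` (cusp chart, one branch point `t`).  The conclusion is the
hypothesis `hU` of `Purity.purity` at a prime `𝔭` of the two-dimensional chart ring `R0` with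
`π ∉ 𝔭` (`𝔭 = ⊥` included), `B` being any integral closure of `R0` in `Y`.
-/

set_option autoImplicit false
set_option linter.style.haveILetI false

namespace Fermat.Agent.S18.HorizU

open Polynomial

/-- **Finite chart** (Legendre, Hesse): base `L[X]` (`X ↦ j`), branch points `X` (index `3`) and
`X - C 1728` (index `2`). -/
theorem hU_finite_chart
    {L K F M Y BF BM BY : Type*} [Field L] [Algebra ℚ L]
    [Field K] [Algebra L[X] K] [IsFractionRing L[X] K]
    [Field F] [Algebra K F] [FiniteDimensional K F] [Algebra L[X] F] [IsScalarTower L[X] K F]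
    [Field M] [Algebra K M] [FiniteDimensional K M] [IsGalois K M] [Algebra L[X] M]
    [IsScalarTower L[X] K M]
    [Field Y] [Algebra K Y] [Algebra F Y] [Algebra M Y] [IsScalarTower K F Y] [IsScalarTower K M Y]
    (hFM : IntermediateField.adjoin F (Set.range (algebraMap M Y)) = ⊤)
    [CommRing BF] [Algebra L[X] BF] [Algebra BF F] [IsScalarTower L[X] BF F]
    [IsIntegralClosure BF L[X] F]
    [CommRing BM] [Algebra L[X] BM] [Algebra BM M] [IsScalarTower L[X] BM M]
    [IsIntegralClosure BM L[X] M]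
    [CommRing BY] [Algebra BM BY] [Algebra BY Y] [Algebra BM Y] [IsScalarTower BM M Y]
    [IsScalarTower BM BY Y] [IsIntegralClosure BY BM Y]
    (hF : ∀ P : Ideal BF, P.IsPrime → P ≠ ⊥ →
      (X ∈ P.under L[X] → P.ramificationIdx L[X] ∣ 3) ∧
      (X - C 1728 ∈ P.under L[X] → P.ramificationIdx L[X] ∣ 2) ∧
      (X ∉ P.under L[X] → X - C 1728 ∉ P.under L[X] → P.ramificationIdx L[X] = 1))
    (u₀ g₀ u₁ g₁ : BM) (hu₀ : IsUnit u₀) (h₀ : algebraMap L[X] BM X = u₀ * g₀ ^ 3)
    (hu₁ : IsUnit u₁) (h₁ : algebraMap L[X] BM (X - C 1728) = u₁ * g₁ ^ 2)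
    {R0 B : Type*} [CommRing R0] [IsDomain R0] [Algebra R0 M] [IsFractionRing R0 M]
    [Algebra R0 Y] [IsScalarTower R0 M Y]
    [CommRing B] [Algebra R0 B] [Algebra B Y] [IsScalarTower R0 B Y] [IsIntegralClosure B R0 Y]
    [Algebra R0 BM] [IsScalarTower R0 BM M] (π : R0) [IsLocalization.Away π BM]
    (𝔭 : Ideal R0) [𝔭.IsPrime] (hπ𝔭 : π ∉ 𝔭) (x : B)
    (hx : ∀ y : B, ∃ a ∈ 𝔭, Algebra.trace M Y (algebraMap B Y (x * y)) = algebraMap R0 M a) :
    ∃ s : R0, s ∉ 𝔭 ∧ s • x ∈ 𝔭 • (⊤ : Submodule R0 B) := by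
  haveI : CharZero L[X] := algebraRat.charZero L[X]
  haveI : CharZero K := charZero_of_injective_algebraMap (IsFractionRing.injective L[X] K)
  haveI : CharZero M := charZero_of_injective_algebraMap (algebraMap K M).injective
  haveI : FiniteDimensional F Y := Abhyankar.finiteDimensional_of_adjoin_eq_top (K := K) hFM
  haveI : FiniteDimensional K Y := FiniteDimensional.trans K F Y
  haveI : FiniteDimensional M Y := FiniteDimensional.right K M Y
  haveI : Algebra.IsSeparable M Y := Algebra.IsAlgebraic.isSeparable_of_perfectField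
  haveI : IsDomain BM := (IsIntegralClosure.algebraMap_injective BM L[X] M).isDomain _
  haveI : IsDedekindDomain BM := IsIntegralClosure.isDedekindDomain L[X] K M BM
  haveI : IsFractionRing BM M := IsIntegralClosure.isFractionRing_of_finite_extension L[X] K M BM
  exact hU_of_forall_isUnramifiedAt (K := M) (Y := Y) (BM := BM) (BY := BY) π
    (fun Q _ hQ => Abhyankar.isUnramifiedAt_finite_chart (K := K) (F := F) (BF := BF) hFM hF
      u₀ g₀ u₁ g₁ hu₀ h₀ hu₁ h₁ Q hQ) 𝔭 hπ𝔭 x hx

/-- **One branch point** (cusp chart: `A = L[t, 1/(1 - 1728 t)]`, `t = 1/j`, `BM ∋ τ`,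
`τ ^ n = t`). -/
theorem hU_single_branch
    {A K F M Y BF BM BY : Type*}
    [CommRing A] [IsDedekindDomain A] [Algebra ℚ A]
    [Field K] [Algebra A K] [IsFractionRing A K]
    [Field F] [Algebra K F] [FiniteDimensional K F] [Algebra A F] [IsScalarTower A K F]
    [Field M] [Algebra K M] [FiniteDimensional K M] [IsGalois K M] [Algebra A M]
    [IsScalarTower A K M]
    [Field Y] [Algebra K Y] [Algebra F Y] [Algebra M Y] [IsScalarTower K F Y] [IsScalarTower K M Y]
    (hFM : IntermediateField.adjoin F (Set.range (algebraMap M Y)) = ⊤)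
    [CommRing BF] [Algebra A BF] [Algebra BF F] [IsScalarTower A BF F] [IsIntegralClosure BF A F]
    [CommRing BM] [Algebra A BM] [Algebra BM M] [IsScalarTower A BM M] [IsIntegralClosure BM A M]
    [CommRing BY] [Algebra BM BY] [Algebra BY Y] [Algebra BM Y] [IsScalarTower BM M Y]
    [IsScalarTower BM BY Y] [IsIntegralClosure BY BM Y]
    (t : A) (ht : Prime t) (n : ℕ)
    (hF : ∀ P : Ideal BF, P.IsPrime → P ≠ ⊥ →
      (t ∈ P.under A → P.ramificationIdx A ∣ n) ∧ (t ∉ P.under A → P.ramificationIdx A = 1))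
    (u g : BM) (hu : IsUnit u) (h : algebraMap A BM t = u * g ^ n)
    {R0 B : Type*} [CommRing R0] [IsDomain R0] [Algebra R0 M] [IsFractionRing R0 M]
    [Algebra R0 Y] [IsScalarTower R0 M Y]
    [CommRing B] [Algebra R0 B] [Algebra B Y] [IsScalarTower R0 B Y] [IsIntegralClosure B R0 Y]
    [Algebra R0 BM] [IsScalarTower R0 BM M] (π : R0) [IsLocalization.Away π BM]
    (𝔭 : Ideal R0) [𝔭.IsPrime] (hπ𝔭 : π ∉ 𝔭) (x : B)
    (hx : ∀ y : B, ∃ a ∈ 𝔭, Algebra.trace M Y (algebraMap B Y (x * y)) = algebraMap R0 M a) :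
    ∃ s : R0, s ∉ 𝔭 ∧ s • x ∈ 𝔭 • (⊤ : Submodule R0 B) :=
  hU_of_branch (K := K) (F := F) (BF := BF) (BM := BM) (BY := BY) hFM (fun _ : Unit => t) (fun _ : Unit => n)
    (fun _ => ht) (fun _ P hP hP0 hmem => (hF P hP hP0).1 hmem)
    (fun P hP hP0 h => (hF P hP hP0).2 (h ())) (fun _ => ⟨u, g, hu, h⟩) π 𝔭 hπ𝔭 x hx

end Fermat.Agent.S18.HorizU
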