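import Mathlib
import Fermat.Agent.S18.HorizUCharts
import Fermat.Agent.S18.Cusp

/-!
# S18, cusp chart: `hU` at the horizontal primes of `R0 = W[τ, 1/(1 - 1728 τ^N)]`

`HorizU.hU_single_branch` instantiated for helper27's concrete rings: `A = CuspBase L`
(`= L[t, 1/(1 - 1728 t)]`, `t = 1/j`), `BM = CuspRing L N` (`= L[τ, 1/(1 - 1728 τ^N)]`,
`τ^N = t`), `R0 = CuspRing W N`.  All fields (`K = Frac A`, `F` (the function field `F2`),
`M = Frac BM = Frac R0`, `Y = F·M`) and the integral closures `BF`, `BY`, `B` stay abstract, with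
instance arguments and one compatibility equation.
-/

set_option autoImplicit false
set_option linter.style.haveILetI false

namespace Fermat.Agent.S18.CuspHoriz

open Polynomial Cusp

/-- the cover chart over a field is the integral closure of the base chart in its fraction
field -/
theorem isIntegralClosure_cuspRing (L : Type*) [Field L] {N : ℕ} (hN : 0 < N)
    {M : Type*} [Field M] [Algebra (CuspBase L) M]
    [Algebra (CuspRing L N) M] [IsFractionRing (CuspRing L N) M]
    (hBM : ∀ a : CuspBase L, algebraMap (CuspRing L N) M (cuspMap L N a) =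
      algebraMap (CuspBase L) M a) :
    letI := cuspAlgebra L N
    IsScalarTower (CuspBase L) (CuspRing L N) M ∧
      IsIntegralClosure (CuspRing L N) (CuspBase L) M := by
  letI := cuspAlgebra L N
  haveI : IsScalarTower (CuspBase L) (CuspRing L N) M :=
    IsScalarTower.of_algebraMap_eq fun a => (hBM a).symm
  haveI : IsDomain (CuspRing L N) := cuspRing_isDomain L hN
  haveI : IsIntegrallyClosed (CuspRing L N) := cuspRing_isIntegrallyClosed L hN
  haveI : Algebra.IsIntegral (CuspBase L) (CuspRing L N) := cuspAlgebra_isIntegral L hN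
  exact ⟨inferInstance, IsIntegralClosure.of_isIntegrallyClosed (CuspRing L N) (CuspBase L) M⟩

/-- **Cusp chart, horizontal primes.**  `hU` of `Purity.purity` at every prime `𝔭` of
`R0 = CuspRing W N` not containing `π`, from the ramification of `F` over the `t`-line
(`e ∣ N` over `t = 0`, `e = 1` elsewhere on the chart). -/
theorem cusp_hU_horizontal
    {W L : Type*} [CommRing W] [IsDomain W] [Field L] [Algebra ℚ L] {N : ℕ} (hN : 0 < N)
    {K F M Y BF BY B : Type*}
    [Field K] [Algebra (CuspBase L) K] [IsFractionRing (CuspBase L) K]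
    [Field F] [Algebra K F] [FiniteDimensional K F] [Algebra (CuspBase L) F]
    [IsScalarTower (CuspBase L) K F]
    [Field M] [Algebra K M] [FiniteDimensional K M] [IsGalois K M] [Algebra (CuspBase L) M]
    [IsScalarTower (CuspBase L) K M]
    [Field Y] [Algebra K Y] [Algebra F Y] [Algebra M Y] [IsScalarTower K F Y] [IsScalarTower K M Y]
    (hFM : IntermediateField.adjoin F (Set.range (algebraMap M Y)) = ⊤)
    [CommRing BF] [Algebra (CuspBase L) BF] [Algebra BF F] [IsScalarTower (CuspBase L) BF F]
    [IsIntegralClosure BF (CuspBase L) F]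
    [Algebra (CuspRing L N) M] [IsFractionRing (CuspRing L N) M]
    (hBM : ∀ a : CuspBase L, algebraMap (CuspRing L N) M (cuspMap L N a) =
      algebraMap (CuspBase L) M a)
    [CommRing BY] [Algebra (CuspRing L N) BY] [Algebra BY Y] [Algebra (CuspRing L N) Y]
    [IsScalarTower (CuspRing L N) M Y] [IsScalarTower (CuspRing L N) BY Y]
    [IsIntegralClosure BY (CuspRing L N) Y]
    (hF : ∀ P : Ideal BF, P.IsPrime → P ≠ ⊥ →
      (baseT L ∈ P.under (CuspBase L) → P.ramificationIdx (CuspBase L) ∣ N) ∧
      (baseT L ∉ P.under (CuspBase L) → P.ramificationIdx (CuspBase L) = 1))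
    [Algebra (CuspRing W N) M] [IsFractionRing (CuspRing W N) M]
    [Algebra (CuspRing W N) Y] [IsScalarTower (CuspRing W N) M Y]
    [CommRing B] [Algebra (CuspRing W N) B] [Algebra B Y] [IsScalarTower (CuspRing W N) B Y]
    [IsIntegralClosure B (CuspRing W N) Y]
    [Algebra (CuspRing W N) (CuspRing L N)] [IsScalarTower (CuspRing W N) (CuspRing L N) M]
    (π : CuspRing W N) [IsLocalization.Away π (CuspRing L N)]
    (𝔭 : Ideal (CuspRing W N)) [𝔭.IsPrime] (hπ𝔭 : π ∉ 𝔭) (x : B)
    (hx : ∀ y : B, ∃ a ∈ 𝔭, Algebra.trace M Y (algebraMap B Y (x * y)) =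
      algebraMap (CuspRing W N) M a) :
    ∃ s : CuspRing W N, s ∉ 𝔭 ∧ s • x ∈ 𝔭 • (⊤ : Submodule (CuspRing W N) B) := by
  letI := cuspAlgebra L N
  obtain ⟨hST, hIC⟩ := isIntegralClosure_cuspRing L hN (M := M) hBM
  haveI := hST
  haveI := hIC
  haveI : IsDedekindDomain (CuspBase L) := cuspBase_isDedekindDomain L
  haveI : IsDomain (CuspRing W N) := cuspRing_isDomain W hN
  exact HorizU.hU_single_branch (K := K) (F := F) (BF := BF) (BM := CuspRing L N) (BY := BY) hFM
    (baseT L) (baseT_prime L) N hF 1 (chartX L N) isUnit_one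
    (by rw [one_mul]; exact cuspMap_baseT L N) π 𝔭 hπ𝔭 x hx

end Fermat.Agent.S18.CuspHoriz
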