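import Mathlib

/-!
# S18, cusp chart: the coordinate flip `j ↦ t = 1/j` of a monogenic datum

A monic `P ∈ W[X][T]` with `P(j, θ) = 0` is turned into a monic `flipPoly K P ∈ W[X][T]` with
`(flipPoly K P)(t, t^K θ) = 0` for `t = 1/j` (`K` at least the `X`-degrees of the coefficients of
`P`), and separability of the reduction over `k(X)` is preserved.  This supplies the vertical
prime of a chart in the coordinate `t` (the chart ring does not contain `j`).
-/

namespace Fermat.Agent.S18.CuspVertical

open Polynomial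

set_option linter.unusedSectionVars false
set_option linter.style.haveILetI false

section flip

variable {W : Type*} [CommRing W]

/-- The coordinate flip of `P ∈ W[X][T]`, monic in `T` of degree `n`:
`T^n + ∑_{i<n} X^(K (n - i)) P_i(1/X) T^i`. -/
noncomputable def flipPoly (K : ℕ) (P : (W[X])[X]) : (W[X])[X] :=
  X ^ P.natDegree +
    ∑ i ∈ Finset.range P.natDegree, C (reflect (K * (P.natDegree - i)) (P.coeff i)) * X ^ i

/-- A bound for the `X`-degrees of the coefficients of `P`. -/
noncomputable def flipBound (P : (W[X])[X]) : ℕ :=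
  (Finset.range P.natDegree).sup fun i => (P.coeff i).natDegree

theorem natDegree_coeff_le_flipBound (P : (W[X])[X]) (i : ℕ) (hi : i < P.natDegree) :
    (P.coeff i).natDegree ≤ flipBound P :=
  Finset.le_sup (f := fun i => (P.coeff i).natDegree) (Finset.mem_range.mpr hi)

theorem degree_flipPoly_tail_lt (K : ℕ) (P : (W[X])[X]) :
    (∑ i ∈ Finset.range P.natDegree,
      C (reflect (K * (P.natDegree - i)) (P.coeff i)) * X ^ i : (W[X])[X]).degree
      < (P.natDegree : WithBot ℕ) := by
  refine (degree_sum_le _ _).trans_lt ?_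
  rw [Finset.sup_lt_iff (by exact WithBot.bot_lt_coe _)]
  intro i hi
  refine (degree_C_mul_X_pow_le i _).trans_lt ?_
  exact_mod_cast Finset.mem_range.mp hi

theorem flipPoly_monic (K : ℕ) (P : (W[X])[X]) : (flipPoly K P).Monic :=
  monic_X_pow_add (degree_flipPoly_tail_lt K P)

theorem natDegree_flipPoly [Nontrivial W] (K : ℕ) (P : (W[X])[X]) :
    (flipPoly K P).natDegree = P.natDegree := by
  unfold flipPoly
  rw [natDegree_add_eq_left_of_degree_lt (by rw [degree_X_pow]; exact degree_flipPoly_tail_lt K P),
    natDegree_X_pow]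

theorem coeff_flipPoly_of_lt (K : ℕ) (P : (W[X])[X]) (i : ℕ) (hi : i < P.natDegree) :
    (flipPoly K P).coeff i = reflect (K * (P.natDegree - i)) (P.coeff i) := by
  unfold flipPoly
  rw [coeff_add, coeff_X_pow, if_neg (by omega), zero_add, finsetSum_coeff]
  rw [Finset.sum_eq_single i]
  · rw [coeff_C_mul, coeff_X_pow, if_pos rfl, mul_one]
  · intro b _ hb
    rw [coeff_C_mul, coeff_X_pow, if_neg (Ne.symm hb), mul_zero]
  · intro h
    exact absurd (Finset.mem_range.mpr hi) h

theorem coeff_flipPoly_natDegree (K : ℕ) (P : (W[X])[X]) :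
    (flipPoly K P).coeff P.natDegree = 1 := by
  unfold flipPoly
  rw [coeff_add, coeff_X_pow, if_pos rfl, finsetSum_coeff]
  rw [Finset.sum_eq_zero, add_zero]
  intro b hb
  have : P.natDegree ≠ b := (Finset.mem_range.mp hb).ne'
  rw [coeff_C_mul, coeff_X_pow, if_neg this, mul_zero]

theorem coeff_flipPoly_of_gt (K : ℕ) (P : (W[X])[X]) (i : ℕ) (hi : P.natDegree < i) :
    (flipPoly K P).coeff i = 0 := by
  unfold flipPoly
  rw [coeff_add, coeff_X_pow, if_neg (by omega), zero_add, finsetSum_coeff]
  apply Finset.sum_eq_zero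
  intro b hb
  have : i ≠ b := by have := Finset.mem_range.mp hb; omega
  rw [coeff_C_mul, coeff_X_pow, if_neg this, mul_zero]

/-- `reflect` evaluated along two ring maps out of `W[X]` that agree on constants and send `X`
to mutually inverse elements. -/
theorem map_reflect {Y : Type*} [CommRing Y] (φ φ' : W[X] →+* Y) (hC : ∀ a : W, φ (C a) = φ' (C a))
    (hX : φ X * φ' X = 1) (N : ℕ) (s : W[X]) (hs : s.natDegree ≤ N) :
    φ' (reflect N s) = φ' X ^ N * φ s := by
  letI : Invertible (φ X) := ⟨φ' X, by rw [mul_comm]; exact hX, hX⟩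
  have h := eval₂_reflect_mul_pow (φ.comp C) (φ X) N s hs
  have hinv : (⅟(φ X) : Y) = φ' X := rfl
  rw [hinv] at h
  have h1 : eval₂ (φ.comp C) (φ X) s = φ s := by
    have := hom_eval₂ s (C : W →+* W[X]) φ X
    rw [eval₂_C_X] at this
    exact this.symm
  have hcomp : φ.comp C = φ'.comp C := RingHom.ext hC
  have h2 : eval₂ (φ.comp C) (φ' X) (reflect N s) = φ' (reflect N s) := by
    rw [hcomp]
    have := hom_eval₂ (reflect N s) (C : W →+* W[X]) φ' X
    rw [eval₂_C_X] at this
    exact this.symm
  rw [h1, h2] at h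
  have hpow : φ X ^ N * φ' X ^ N = 1 := by rw [← mul_pow, hX, one_pow]
  calc φ' (reflect N s) = φ' (reflect N s) * (φ X ^ N * φ' X ^ N) := by rw [hpow, mul_one]
    _ = φ' X ^ N * (φ' (reflect N s) * φ X ^ N) := by ring
    _ = φ' X ^ N * φ s := by rw [h]

/-- **The flipped polynomial kills the scaled element.** -/
theorem eval₂_flipPoly {Y : Type*} [CommRing Y] (φ φ' : W[X] →+* Y)
    (hC : ∀ a : W, φ (C a) = φ' (C a)) (hX : φ X * φ' X = 1) (K : ℕ) (P : (W[X])[X])
    (hP : P.Monic) (hK : ∀ i, i < P.natDegree → (P.coeff i).natDegree ≤ K) (θ : Y)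
    (h : eval₂ φ θ P = 0) : eval₂ φ' (φ' X ^ K * θ) (flipPoly K P) = 0 := by
  set n := P.natDegree with hn
  have hdeg : ∀ i, i < n → (P.coeff i).natDegree ≤ K * (n - i) := by
    intro i hi
    have h1 := hK i hi
    have h2 : K ≤ K * (n - i) := Nat.le_mul_of_pos_right K (by omega)
    omega
  have hPsum : eval₂ φ θ P = θ ^ n + ∑ i ∈ Finset.range n, φ (P.coeff i) * θ ^ i := by
    conv_lhs => rw [hP.as_sum]
    simp [eval₂_add, eval₂_finsetSum, hn]
  rw [hPsum] at h
  have key : eval₂ φ' (φ' X ^ K * θ) (flipPoly K P)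
      = φ' X ^ (K * n) * (θ ^ n + ∑ i ∈ Finset.range n, φ (P.coeff i) * θ ^ i) := by
    unfold flipPoly
    simp only [eval₂_add, eval₂_finsetSum, eval₂_mul, eval₂_C, eval₂_X_pow]
    rw [mul_add, Finset.mul_sum, ← hn]
    congr 1
    · rw [mul_pow, ← pow_mul]
    · refine Finset.sum_congr rfl fun i hi => ?_
      have hi' : i < n := Finset.mem_range.mp hi
      rw [map_reflect φ φ' hC hX _ _ (hdeg i hi'), mul_pow, ← pow_mul]
      have : K * n = K * (n - i) + K * i := by
        rw [← Nat.mul_add]; congr 1; omega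
      rw [this, pow_add]; ring
  rw [key, h, mul_zero]

theorem reflect_map' {S : Type*} [CommRing S] (f : W →+* S) (N : ℕ) (s : W[X]) :
    (reflect N s).map f = reflect N (s.map f) := by
  ext i
  rw [coeff_map, coeff_reflect, coeff_reflect, coeff_map]

/-- The flip commutes with a change of coefficients. -/
theorem map_flipPoly {S : Type*} [CommRing S] [Nontrivial S] (f : W →+* S) (K : ℕ)
    (P : (W[X])[X]) (hP : P.Monic) :
    (flipPoly K P).map (mapRingHom f) = flipPoly K (P.map (mapRingHom f)) := by
  have hn : (P.map (mapRingHom f)).natDegree = P.natDegree := hP.natDegree_map _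
  unfold flipPoly
  rw [hn]
  simp only [Polynomial.map_add, Polynomial.map_pow, Polynomial.map_X, Polynomial.map_sum,
    Polynomial.map_mul, Polynomial.map_C, coe_mapRingHom, reflect_map', coeff_map]

end flip

section sep

/-- Scaling the roots by a nonzero constant preserves separability. -/
theorem separable_scaleRoots {κ : Type*} [Field κ] (p : κ[X]) (r : κ) (hr : r ≠ 0)
    (hp : p.Separable) : (scaleRoots p r).Separable := by
  have hcop : IsCoprime (scaleRoots p r) (scaleRoots (derivative p) r) :=
    isCoprime_scaleRoots p (derivative p) r (IsUnit.mk0 r hr) hp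
  have hder : derivative (scaleRoots p r) =
      C (r ^ (p.natDegree - 1 - (derivative p).natDegree)) * scaleRoots (derivative p) r := by
    ext i
    rw [coeff_derivative, coeff_scaleRoots, coeff_C_mul, coeff_scaleRoots, coeff_derivative]
    by_cases hi : i ≤ (derivative p).natDegree
    · have hle : (derivative p).natDegree ≤ p.natDegree - 1 := natDegree_derivative_le p
      by_cases hp0 : p.natDegree = 0
      · have : p.coeff (i + 1) = 0 := coeff_eq_zero_of_natDegree_lt (by omega)
        rw [this]; ring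
      · have e1 : p.natDegree - (i + 1) =
            (p.natDegree - 1 - (derivative p).natDegree) + ((derivative p).natDegree - i) := by
          omega
        rw [e1, pow_add]; ring
    · have : (derivative p).coeff i = 0 := coeff_eq_zero_of_natDegree_lt (by omega)
      rw [coeff_derivative] at this
      linear_combination (r ^ (p.natDegree - (i + 1)) -
        r ^ (p.natDegree - 1 - (derivative p).natDegree) *
          r ^ ((derivative p).natDegree - i)) * this
  unfold Polynomial.Separable
  rw [hder]
  exact (isCoprime_mul_unit_left_right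
    ((IsUnit.mk0 _ (pow_ne_zero _ hr)).map C) _ _).mpr hcop

variable {k κ₀ : Type*} [Field k] [Field κ₀] [Algebra k[X] κ₀] [IsFractionRing k[X] κ₀]

/-- **Separability is preserved by the flip** (over any fraction field `κ₀` of `k[X]`). -/
theorem flipPoly_separable (K : ℕ) (Q : (k[X])[X]) (hQ : Q.Monic)
    (hK : ∀ i, i < Q.natDegree → (Q.coeff i).natDegree ≤ K)
    (hsep : (Q.map (algebraMap k[X] κ₀)).Separable) :
    ((flipPoly K Q).map (algebraMap k[X] κ₀)).Separable := by
  set a : k[X] →+* κ₀ := algebraMap k[X] κ₀ with ha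
  have hainj : Function.Injective a := IsFractionRing.injective k[X] κ₀
  set Xκ : κ₀ := a X with hXκ
  have hX0 : Xκ ≠ 0 := by
    rw [hXκ, Ne, map_eq_zero_iff a hainj]; exact X_ne_zero
  -- the flip `X ↦ 1/X` on coefficients
  let σ : k[X] →+* κ₀ := eval₂RingHom (a.comp C) Xκ⁻¹
  have hσC : ∀ c : k, σ (C c) = a (C c) := fun c => by simp [σ]
  have hσX : σ X = Xκ⁻¹ := by simp [σ]
  have hA : ∀ (N : ℕ) (f : k[X]), f.natDegree ≤ N → a (reflect N f) = Xκ ^ N * σ f := by
    intro N f hf
    exact map_reflect σ a hσC (by rw [hσX, ← hXκ, inv_mul_cancel₀ hX0]) N f hf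
  have hσinj : Function.Injective σ := by
    rw [injective_iff_map_eq_zero]
    intro f hf
    have h1 := hA f.natDegree f le_rfl
    rw [hf, mul_zero, map_eq_zero_iff a hainj, reflect_eq_zero_iff] at h1
    exact h1
  let σ' : κ₀ →+* κ₀ := IsFractionRing.lift hσinj
  have hσ' : ∀ p : k[X], σ' (a p) = σ p := fun p => IsFractionRing.lift_algebraMap hσinj p
  have hmap : Q.map σ = (Q.map a).map σ' := by
    rw [Polynomial.map_map]
    congr 1
    exact RingHom.ext fun p => (hσ' p).symm
  have hsepσ : (Q.map σ).Separable := by rw [hmap]; exact hsep.map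
  have hmonσ : (Q.map σ).Monic := hQ.map σ
  have hdegσ : (Q.map σ).natDegree = Q.natDegree := hQ.natDegree_map σ
  have hmain : (flipPoly K Q).map a = scaleRoots (Q.map σ) (Xκ ^ K) := by
    ext i
    rw [coeff_map, coeff_scaleRoots, hdegσ, coeff_map]
    rcases lt_trichotomy i Q.natDegree with hi | hi | hi
    · rw [coeff_flipPoly_of_lt K Q i hi,
        hA _ _ ((hK i hi).trans (Nat.le_mul_of_pos_right K (by omega))), ← pow_mul, mul_comm]
    · subst hi
      rw [coeff_flipPoly_natDegree, map_one, Nat.sub_self, pow_zero, mul_one]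
      have := hQ.coeff_natDegree
      rw [this, map_one]
    · rw [coeff_flipPoly_of_gt K Q i hi, map_zero,
        coeff_eq_zero_of_natDegree_lt hi, map_zero, zero_mul]
  rw [hmain]
  exact separable_scaleRoots _ _ (pow_ne_zero _ hX0) hsepσ

/-- Consumer form over a ring `W` with a reduction map `res : W →+* k`: the flip of a monic
`P ∈ W[X][T]` with separable reduction has separable reduction. -/
theorem flipPoly_separable_res {W : Type*} [CommRing W] (res : W →+* k) (P : (W[X])[X])
    (hP : P.Monic)
    (hsep : ((P.map (mapRingHom res)).map (algebraMap k[X] κ₀)).Separable) :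
    (((flipPoly (flipBound P) P).map (mapRingHom res)).map (algebraMap k[X] κ₀)).Separable := by
  rw [map_flipPoly res _ P hP]
  have hn : (P.map (mapRingHom res)).natDegree = P.natDegree := hP.natDegree_map _
  refine flipPoly_separable _ _ (hP.map _) (fun i hi => ?_) hsep
  rw [hn] at hi
  rw [coeff_map, coe_mapRingHom]
  exact (natDegree_map_le).trans (natDegree_coeff_le_flipBound P i hi)

end sep

/-- **Packaged flip.**  From a monic `P ∈ W[X][T]` with separable reduction one gets `K` and a
monic `P'` of the same degree with separable reduction such that `P(j, θ) = 0` implies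
`P'(t, t^K θ) = 0` whenever `j t = 1`. -/
theorem exists_flip {W k κ₀ : Type*} [CommRing W] [Field k] [Field κ₀] [Algebra k[X] κ₀]
    [IsFractionRing k[X] κ₀] (res : W →+* k) (P : (W[X])[X]) (hP : P.Monic)
    (hsep : ((P.map (mapRingHom res)).map (algebraMap k[X] κ₀)).Separable) :
    ∃ (K : ℕ) (P' : (W[X])[X]), P'.Monic ∧
      ((P'.map (mapRingHom res)).map (algebraMap k[X] κ₀)).Separable ∧
      ∀ {Y : Type*} [CommRing Y] (φ φ' : W[X] →+* Y), (∀ a : W, φ (C a) = φ' (C a)) →
        φ X * φ' X = 1 → ∀ θ : Y, eval₂ φ θ P = 0 → eval₂ φ' (φ' X ^ K * θ) P' = 0 :=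
  ⟨flipBound P, flipPoly (flipBound P) P, flipPoly_monic _ _, flipPoly_separable_res res P hP hsep,
    fun φ φ' hC hX θ h =>
      eval₂_flipPoly φ φ' hC hX _ P hP (natDegree_coeff_le_flipBound P) θ h⟩

end Fermat.Agent.S18.CuspVertical
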