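import Fermat.Agent.S18.VerticalTower

/-!
# S18, v3 link 4 (elements form): `hU` at the vertical prime with no intermediate field type

`VerticalTower.traceNondeg_vertical_chart_tower` asks for the bottom layer `Y₁ = K(θ)` as a type
with its instances.  Here everything lives in the top field `Y`: `θ, u, w : Y` with
`w ∈ K⟮θ⟯`, `u ^ s = w`, `K⟮θ, u⟯ = ⊤`; the intermediate field and its instances are internal.
-/

set_option autoImplicit false
set_option linter.style.haveILetI false
set_option linter.unusedSectionVars false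


namespace Fermat.Agent.S18.VerticalElems

open Polynomial Fermat.Agent.S18

/-- A subfield of `Y` containing the images of `F` and of a generating set of `E / F` contains
the image of `E`. -/
theorem map_mem_of_adjoin_eq_top {F E Y : Type*} [Field F] [Field E] [Field Y] [Algebra F E]
    (φ : E →+* Y) (S : Subfield Y) (T : Set E) (hT : IntermediateField.adjoin F T = ⊤)
    (hF : ∀ x : F, φ (algebraMap F E x) ∈ S) (hTS : ∀ t ∈ T, φ t ∈ S) (z : E) : φ z ∈ S := by
  let M : IntermediateField F E :=
    { S.comap φ with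
      algebraMap_mem' := fun x => hF x }
  have h1 : IntermediateField.adjoin F T ≤ M := by
    rw [IntermediateField.adjoin_le_iff]
    exact fun t ht => hTS t ht
  rw [hT] at h1
  exact h1 (IntermediateField.mem_top)

section Main

variable {W k R K Y B : Type*} [CommRing W] [Field k] [CommRing R] [IsDomain R]
  [IsIntegrallyClosed R] [IsNoetherianRing R] [Field K] [Algebra R K] [IsFractionRing R K]
  [Field Y] [Algebra K Y] [Algebra R Y] [IsScalarTower R K Y] [FiniteDimensional K Y]
  [Algebra.IsSeparable K Y]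
  [CommRing B] [Algebra R B] [Algebra B Y] [IsScalarTower R B Y] [IsIntegralClosure B R Y]

/-- **Vertical prime, elements form.**  The trace form of the integral closure `B` of the chart
ring `R` in `Y = K(θ, u)` is nondegenerate at the vertical prime `(π)`, where `θ` is a root of a
monic `P` with coefficients in the image of `ι : W[X] →+* R` and separable reduction, and
`u ^ s = w ∈ K(θ)` with `w`, `w⁻¹` Gauss-integral.  No intermediate field type is needed. -/
theorem traceNondeg_vertical_of_elements
    (κ₀ : Type*) [Field κ₀] [Algebra k[X] κ₀] [IsFractionRing k[X] κ₀]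
    (res : W →+* k) (hres : Function.Surjective res) (π : R) (hπ : Prime π) (ι : W[X] →+* R)
    (hι : ∀ f : W[X], π ∣ ι f ↔ f.map res = 0)
    (θ : Y) (P : (W[X])[X]) (hP : P.Monic) (hPθ : aeval θ (P.map ι) = 0)
    (hsep : ((P.map (mapRingHom res)).map (algebraMap k[X] κ₀)).Separable)
    (s : ℕ) (hs : s.Prime) (hsπ : ¬ π ∣ (s : R)) (ζ : K) (hζ : IsPrimitiveRoot ζ s)
    (u w : Y) (hw0 : w ≠ 0) (huw : u ^ s = w)
    (hwθ : w ∈ IntermediateField.adjoin K {θ})
    (hgen : IntermediateField.adjoin K {θ, u} = ⊤)
    (hw : IsGaussInt R π w) (hw' : IsGaussInt R π w⁻¹) :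
    TowerUnram.TraceNondeg R K Y B (Ideal.span {π}) := by
  classical
  -- the intermediate field `Y₁ = K(θ)`
  let E : IntermediateField K Y := IntermediateField.adjoin K {θ}
  haveI hRE : IsScalarTower R ↥E Y := IsScalarTower.of_algebraMap_eq fun r => rfl
  have hθint : IsIntegral K θ := by
    refine ⟨(P.map ι).map (algebraMap R K), (hP.map ι).map _, ?_⟩
    rw [eval₂_map, ← IsScalarTower.algebraMap_eq R K Y, ← aeval_def]
    exact hPθ
  let θ₁ : ↥E := IntermediateField.AdjoinSimple.gen K θ
  have hθ₁ : Algebra.adjoin K {θ₁} = ⊤ := by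
    have h := (IntermediateField.adjoin.powerBasis hθint).adjoin_gen_eq_top
    rwa [IntermediateField.adjoin.powerBasis_gen] at h
  have hPθ₁ : aeval θ₁ (P.map ι) = 0 := by
    have h1 : algebraMap ↥E Y (aeval θ₁ (P.map ι)) = 0 := by
      rw [← aeval_algebraMap_apply]
      exact hPθ
    exact (map_eq_zero_iff _ (algebraMap ↥E Y).injective).mp h1
  let w₁ : ↥E := ⟨w, hwθ⟩
  have hw₁0 : w₁ ≠ 0 := fun h => hw0 (congrArg Subtype.val h)
  have hζ₁ : IsPrimitiveRoot (algebraMap K ↥E ζ) s :=
    hζ.map_of_injective (algebraMap K ↥E).injective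
  have hgen₁ : IntermediateField.adjoin ↥E {u} = ⊤ := by
    rw [← IntermediateField.restrictScalars_eq_top_iff (K := K),
      IntermediateField.adjoin_adjoin_left, Set.singleton_union]
    exact hgen
  -- Gauss integrality descends to `Y₁`
  have hG : ∀ z : ↥E, IsGaussInt R π (z : Y) → IsGaussInt R π z := by
    rintro z ⟨c, hc, hint⟩
    refine ⟨c, hc, ?_⟩
    have h2 : (IsScalarTower.toAlgHom R ↥E Y) (c • z) = c • (z : Y) := by
      rw [map_smul]; rfl
    rw [← h2] at hint
    exact (isIntegral_algHom_iff (IsScalarTower.toAlgHom R ↥E Y)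
      (algebraMap ↥E Y).injective).mp hint
  exact VerticalTower.traceNondeg_vertical_chart_tower (K := K) (Y₁ := ↥E) (Y₂ := Y) κ₀
    res hres π hπ ι hι θ₁ hθ₁ P hP hPθ₁ hsep s hs hsπ (algebraMap K ↥E ζ) hζ₁ u w₁ hw₁0 huw hgen₁
    (hG w₁ hw) (hG w₁⁻¹ hw')

end Main

end Fermat.Agent.S18.VerticalElems
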