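import Fermat.Agent.S18.CuspFrac
import Fermat.Agent.S18.CuspGauss
import Fermat.Agent.S18.CuspVertical
import Fermat.Agent.S18.VerticalElems

/-!
# S18, cusp chart: `hU` at the vertical prime

The vertical case (`𝔭 = (π)`) of the hypothesis `hU` of `ChartHU.chart_lift_hU` for the cusp
chart `R₀ = Cusp.CuspRing W N` (`τ^N = t = 1/j`), from the `j`-line datum:

* `θ : Y'` a root of a monic `P ∈ W[X][T]` along the `j`-evaluation `φ : W[X] →+* Y'`
  (`φ X · τ^N = 1`) with separable reduction (`Gauss.exists_monogenic`); the passage to the chart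
  at infinity (`θ_∞ = t^K θ`, `P_∞`) is done inside by `CuspVertical.exists_flip`;
* the Kummer layer `u ^ s = w ∈ K'⟮θ⟯`, `K'⟮θ, u⟯ = Y'`, with `w`, `w⁻¹` Gauss-integral.

`K'`, `Y'`, `B'` are abstract with instance arguments.
-/

set_option autoImplicit false
set_option linter.style.haveILetI false
set_option linter.unusedSectionVars false

namespace Fermat.Agent.S18.CuspVertHU

open Polynomial Fermat.Agent.S18 Fermat.Agent.S18.Cusp

section Field

variable {K Y : Type*} [Field K] [Field Y] [Algebra K Y]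

/-- Scaling a generator by a nonzero element of the base field does not change the field it
generates (with further generators `T`). -/
theorem adjoin_insert_mul (a : K) (ha : a ≠ 0) (θ : Y) (T : Set Y) :
    IntermediateField.adjoin K (insert (algebraMap K Y a * θ) T) =
      IntermediateField.adjoin K (insert θ T) := by
  apply le_antisymm
  · rw [IntermediateField.adjoin_le_iff]
    rintro x (rfl | hx)
    · exact (IntermediateField.adjoin K (insert θ T)).mul_mem
        ((IntermediateField.adjoin K (insert θ T)).algebraMap_mem a)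
        (IntermediateField.subset_adjoin K _ (Set.mem_insert _ _))
    · exact IntermediateField.subset_adjoin K _ (Set.mem_insert_of_mem _ hx)
  · rw [IntermediateField.adjoin_le_iff]
    rintro x (rfl | hx)
    · have h1 : algebraMap K Y a * x ∈
          IntermediateField.adjoin K (insert (algebraMap K Y a * x) T) :=
        IntermediateField.subset_adjoin K _ (Set.mem_insert _ _)
      have h2 := (IntermediateField.adjoin K (insert (algebraMap K Y a * x) T)).mul_mem
        ((IntermediateField.adjoin K (insert (algebraMap K Y a * x) T)).algebraMap_mem a⁻¹) h1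
      have h3 : algebraMap K Y a⁻¹ * (algebraMap K Y a * x) = x := by
        rw [← mul_assoc, ← map_mul, inv_mul_cancel₀ ha, map_one, one_mul]
      rwa [h3] at h2
    · exact IntermediateField.subset_adjoin K _ (Set.mem_insert_of_mem _ hx)

theorem adjoin_singleton_mul (a : K) (ha : a ≠ 0) (θ : Y) :
    IntermediateField.adjoin K {algebraMap K Y a * θ} = IntermediateField.adjoin K {θ} := by
  have h := adjoin_insert_mul a ha θ (∅ : Set Y)
  rwa [LawfulSingleton.insert_empty_eq, LawfulSingleton.insert_empty_eq] at h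

theorem adjoin_pair_mul (a : K) (ha : a ≠ 0) (θ u : Y) :
    IntermediateField.adjoin K {algebraMap K Y a * θ, u} = IntermediateField.adjoin K {θ, u} :=
  adjoin_insert_mul a ha θ {u}

end Field

section Main

variable {W k : Type*} [CommRing W] [IsDomain W] [IsIntegrallyClosed W] [IsNoetherianRing W]
  [Field k] (N : ℕ)
  {K' Y' B' : Type*} [Field K'] [Algebra (CuspRing W N) K'] [IsFractionRing (CuspRing W N) K']
  [Field Y'] [Algebra K' Y'] [Algebra (CuspRing W N) Y'] [IsScalarTower (CuspRing W N) K' Y']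
  [FiniteDimensional K' Y'] [Algebra.IsSeparable K' Y']
  [CommRing B'] [Algebra (CuspRing W N) B'] [Algebra B' Y'] [IsScalarTower (CuspRing W N) B' Y']
  [IsIntegralClosure B' (CuspRing W N) Y']

omit [IsIntegrallyClosed W] [IsNoetherianRing W] in
/-- Divisibility by a prime of `W` between constants of the cover chart. -/
theorem cuspRing_algebraMap_dvd_iff (hN : 0 < N) {p : W} (hp : Prime p) (a : W) :
    algebraMap W (CuspRing W N) p ∣ algebraMap W (CuspRing W N) a ↔ p ∣ a := by
  rw [algebraMap_base_eq W (cuspF W N) a, cuspRing_dvd_iff W hN hp, Polynomial.C_dvd_iff_dvd_coeff]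
  constructor
  · intro h
    simpa using h 0
  · intro h i
    rw [coeff_C]
    split_ifs
    · exact h
    · exact dvd_zero _

/-- **Vertical prime of the cusp chart.**  `hU` at `(π)` for `R₀ = CuspRing W N`, from the
`j`-line datum `(φ, θ, P)` and the Kummer layer `(u, w)`; `w`, `w⁻¹` Gauss-integral over `R₀`. -/
theorem cusp_hU_vertical (hN : 0 < N)
    (κ₀ : Type*) [Field κ₀] [Algebra k[X] κ₀] [IsFractionRing k[X] κ₀]
    (res : W →+* k) (hres : Function.Surjective res) (π : W) (hπ : Prime π)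
    (hker : ∀ a : W, res a = 0 ↔ π ∣ a)
    (φ : W[X] →+* Y')
    (hφC : ∀ a : W, φ (C a) = algebraMap (CuspRing W N) Y' (algebraMap W (CuspRing W N) a))
    (hφX : φ X * algebraMap (CuspRing W N) Y' (chartX W N) ^ N = 1)
    (θ : Y') (P : (W[X])[X]) (hP : P.Monic) (hPθ : eval₂ φ θ P = 0)
    (hsep : ((P.map (mapRingHom res)).map (algebraMap k[X] κ₀)).Separable)
    (s : ℕ) (hs : s.Prime) (hsπ : ¬ π ∣ (s : W)) (ζ : K') (hζ : IsPrimitiveRoot ζ s)
    (u w : Y') (hw0 : w ≠ 0) (huw : u ^ s = w)
    (hwθ : w ∈ IntermediateField.adjoin K' {θ})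
    (hgen : IntermediateField.adjoin K' {θ, u} = ⊤)
    (hw : IsGaussInt (CuspRing W N) (algebraMap W (CuspRing W N) π) w)
    (hw' : IsGaussInt (CuspRing W N) (algebraMap W (CuspRing W N) π) w⁻¹) :
    TowerUnram.TraceNondeg (CuspRing W N) K' Y' B'
      (Ideal.span {algebraMap W (CuspRing W N) π}) := by
  haveI := cuspRing_isDomain W hN
  haveI := cuspRing_isIntegrallyClosed W hN
  haveI := cuspRing_isNoetherianRing W N
  have hπ0 : Prime (algebraMap W (CuspRing W N) π) := cuspRing_prime W hN hπ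
  -- the structure map of the chart at infinity and the flipped datum
  set φ' : W[X] →+* Y' := (algebraMap (CuspRing W N) Y').comp (cuspIota W N) with hφ'
  obtain ⟨Kf, P', hP', hsep', hflip⟩ := CuspVertical.exists_flip res P hP hsep
  have hφ'X : φ' X = algebraMap (CuspRing W N) Y' (chartX W N) ^ N := by
    rw [hφ', RingHom.comp_apply, cuspIota_X, map_pow]
  have hC : ∀ a : W, φ (C a) = φ' (C a) := by
    intro a
    rw [hφC, hφ', RingHom.comp_apply, cuspIota_C]
  have hX : φ X * φ' X = 1 := by rw [hφ'X]; exact hφX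
  have hroot : eval₂ φ' (φ' X ^ Kf * θ) P' = 0 := hflip φ φ' hC hX θ hPθ
  -- the scaling factor lies in `K'` and is nonzero
  set a : K' := algebraMap (CuspRing W N) K' (chartX W N ^ N) ^ Kf with ha
  have ha0 : a ≠ 0 := by
    rw [ha]
    refine pow_ne_zero _ ?_
    rw [Ne, map_eq_zero_iff _ (IsFractionRing.injective (CuspRing W N) K')]
    exact pow_ne_zero _ (chartX_prime W hN).ne_zero
  have haY : algebraMap K' Y' a = φ' X ^ Kf := by
    rw [ha, map_pow, ← IsScalarTower.algebraMap_apply, hφ'X, map_pow]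
  have hPθ' : aeval (algebraMap K' Y' a * θ) (P'.map (cuspIota W N)) = 0 := by
    rw [aeval_def, eval₂_map, haY]
    exact hroot
  have hsπ0 : ¬ algebraMap W (CuspRing W N) π ∣ ((s : ℕ) : CuspRing W N) := by
    rw [← map_natCast (algebraMap W (CuspRing W N)) s, cuspRing_algebraMap_dvd_iff N hN hπ]
    exact hsπ
  exact VerticalElems.traceNondeg_vertical_of_elements (K := K') κ₀ res hres
    (algebraMap W (CuspRing W N) π) hπ0 (cuspIota W N)
    (cuspIota_dvd_iff W hN hπ res hker) (algebraMap K' Y' a * θ) P' hP' hPθ' hsep' s hs hsπ0 ζ hζ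
    u w hw0 huw (by rw [adjoin_singleton_mul a ha0]; exact hwθ)
    (by rw [adjoin_pair_mul a ha0]; exact hgen) hw hw'

omit [IsIntegrallyClosed W] [IsNoetherianRing W] [FiniteDimensional K' Y']
  [Algebra.IsSeparable K' Y'] in
/-- Gauss-integrality over the `j`-line (ring-hom currency along the `j`-evaluation `φ`) implies
Gauss-integrality over the cusp chart `R₀ = CuspRing W N`. -/
theorem isGaussInt_cuspRing_of_j (hN : 0 < N) (π : W) (hπ : Prime π)
    (φ : W[X] →+* Y')
    (hφC : ∀ a : W, φ (C a) = algebraMap (CuspRing W N) Y' (algebraMap W (CuspRing W N) a))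
    (hφX : φ X * algebraMap (CuspRing W N) Y' (chartX W N) ^ N = 1)
    (z : Y') (hz : ∃ p : W[X], ¬ C π ∣ p ∧ φ.IsIntegralElem (φ p * z)) :
    IsGaussInt (CuspRing W N) (algebraMap W (CuspRing W N) π) z := by
  letI : Algebra W Y' :=
    ((algebraMap (CuspRing W N) Y').comp (algebraMap W (CuspRing W N))).toAlgebra
  have hWY : ∀ a : W, algebraMap W Y' a =
      algebraMap (CuspRing W N) Y' (algebraMap W (CuspRing W N) a) := fun a => rfl
  set φ' : W[X] →+* Y' := (algebraMap (CuspRing W N) Y').comp (cuspIota W N) with hφ'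
  have hφ'X : φ' X = algebraMap (CuspRing W N) Y' (chartX W N) ^ N := by
    rw [hφ', RingHom.comp_apply, cuspIota_X, map_pow]
  have e1 : (aeval (φ X) : W[X] →ₐ[W] Y').toRingHom = φ := by
    refine Polynomial.ringHom_ext (fun a => ?_) ?_
    · show aeval (φ X) (C a) = φ (C a)
      rw [aeval_C, hWY, hφC]
    · show aeval (φ X) X = φ X
      rw [aeval_X]
  have e2 : (aeval (φ' X) : W[X] →ₐ[W] Y').toRingHom = φ' := by
    refine Polynomial.ringHom_ext (fun a => ?_) ?_
    · show aeval (φ' X) (C a) = φ' (C a)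
      rw [aeval_C, hWY, hφ', RingHom.comp_apply, cuspIota_C]
    · show aeval (φ' X) X = φ' X
      rw [aeval_X]
  have hz1 : ∃ p : W[X], ¬ C π ∣ p ∧
      (aeval (φ X) : W[X] →ₐ[W] Y').toRingHom.IsIntegralElem (aeval (φ X) p * z) := by
    obtain ⟨p, hp, hint⟩ := hz
    refine ⟨p, hp, ?_⟩
    rw [e1]
    have : aeval (φ X) p = φ p := congrArg (fun f : W[X] →+* Y' => f p) e1
    rw [this]
    exact hint
  obtain ⟨p', hp', hint'⟩ := (CuspGauss.gaussInt_inv_iff π (φ X) (φ' X)
    (by rw [hφ'X]; exact hφX) z).mp hz1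
  rw [e2] at hint'
  have hp'' : aeval (φ' X) p' = φ' p' := congrArg (fun f : W[X] →+* Y' => f p') e2
  rw [hp''] at hint'
  refine ⟨cuspIota W N p', ?_, ?_⟩
  · rw [cuspIota_apply, cuspRing_dvd_iff W hN hπ, C_dvd_expand_iff W hN]
    exact hp'
  · obtain ⟨Q, hQ, hQ0⟩ := hint'
    refine ⟨Q.map (cuspIota W N), hQ.map _, ?_⟩
    rw [eval₂_map, Algebra.smul_def]
    exact hQ0

/-- **Vertical prime of the cusp chart, `j`-line Gauss currency.**  Same as `cusp_hU_vertical`
with `w`, `w⁻¹` Gauss-integral over `W[j]` (multiplier `p(j)`, `π ∤ p`, integrality along the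
`j`-evaluation `φ`) — the output shape of the Gauss package. -/
theorem cusp_hU_vertical_of_j (hN : 0 < N)
    (κ₀ : Type*) [Field κ₀] [Algebra k[X] κ₀] [IsFractionRing k[X] κ₀]
    (res : W →+* k) (hres : Function.Surjective res) (π : W) (hπ : Prime π)
    (hker : ∀ a : W, res a = 0 ↔ π ∣ a)
    (φ : W[X] →+* Y')
    (hφC : ∀ a : W, φ (C a) = algebraMap (CuspRing W N) Y' (algebraMap W (CuspRing W N) a))
    (hφX : φ X * algebraMap (CuspRing W N) Y' (chartX W N) ^ N = 1)
    (θ : Y') (P : (W[X])[X]) (hP : P.Monic) (hPθ : eval₂ φ θ P = 0)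
    (hsep : ((P.map (mapRingHom res)).map (algebraMap k[X] κ₀)).Separable)
    (s : ℕ) (hs : s.Prime) (hsπ : ¬ π ∣ (s : W)) (ζ : K') (hζ : IsPrimitiveRoot ζ s)
    (u w : Y') (hw0 : w ≠ 0) (huw : u ^ s = w)
    (hwθ : w ∈ IntermediateField.adjoin K' {θ})
    (hgen : IntermediateField.adjoin K' {θ, u} = ⊤)
    (hw : ∃ p : W[X], ¬ C π ∣ p ∧ φ.IsIntegralElem (φ p * w))
    (hw' : ∃ p : W[X], ¬ C π ∣ p ∧ φ.IsIntegralElem (φ p * w⁻¹)) :
    TowerUnram.TraceNondeg (CuspRing W N) K' Y' B'
      (Ideal.span {algebraMap W (CuspRing W N) π}) :=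
  cusp_hU_vertical N hN κ₀ res hres π hπ hker φ hφC hφX θ P hP hPθ hsep s hs hsπ ζ hζ u w hw0 huw
    hwθ hgen (isGaussInt_cuspRing_of_j N hN π hπ φ hφC hφX w hw)
    (isGaussInt_cuspRing_of_j N hN π hπ φ hφC hφX w⁻¹ hw')

end Main

end Fermat.Agent.S18.CuspVertHU
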