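import Mathlib

set_option autoImplicit false
set_option linter.style.haveILetI false
set_option linter.unusedSectionVars false

/-!
# S18: function-field kit (algebra structures induced by an injective ring hom into a field)

For a domain `A` with fraction field `K` and an injective ring hom `g : A →+* E` into a field `E`
(e.g. `A = L[X]`, `g = aeval x` with `x` transcendental; or a chart ring with its lift): the
`A`-algebra and `K`-algebra structures on `E` as **reducible defs** (never instances), the scalar
towers, compatibility along field extensions `E → E'`, and transfer of finite-dimensionality.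
-/

namespace Fermat.Agent.S18.FFKit

open Polynomial

section Generic

variable {A : Type*} [CommRing A] [IsDomain A] (K : Type*) [Field K] [Algebra A K]
  [IsFractionRing A K] {E : Type*} [Field E]

/-- The `K`-algebra structure on `E` induced by an injective ring hom `g : A →+* E`. -/
@[reducible] noncomputable def fracAlgebra (g : A →+* E) (hg : Function.Injective g) :
    Algebra K E :=
  (IsFractionRing.lift hg : K →+* E).toAlgebra

theorem fracAlgebra_algebraMap (g : A →+* E) (hg : Function.Injective g) (a : A) :
    letI := fracAlgebra K g hg
    algebraMap K E (algebraMap A K a) = g a :=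
  IsFractionRing.lift_algebraMap hg a

theorem fracAlgebra_isScalarTower (g : A →+* E) (hg : Function.Injective g) :
    letI := g.toAlgebra
    letI := fracAlgebra K g hg
    IsScalarTower A K E := by
  letI := g.toAlgebra
  letI := fracAlgebra K g hg
  exact IsScalarTower.of_algebraMap_eq (fun a => (IsFractionRing.lift_algebraMap hg a).symm)

/-- Two `K`-algebra structures on a field that restrict to the same map on `A` have the same
`algebraMap`. -/
theorem algebraMap_eq_of_comp_eq (φ ψ : K →+* E)
    (h : ∀ a : A, φ (algebraMap A K a) = ψ (algebraMap A K a)) : φ = ψ :=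
  IsLocalization.ringHom_ext (nonZeroDivisors A) (RingHom.ext h)

/-- Compatibility along a field extension `E → E'`: if `g' = (E → E') ∘ g` then `K → E → E'` is a
scalar tower. -/
theorem fracAlgebra_isScalarTower_of_comp {E' : Type*} [Field E'] [Algebra E E']
    (g : A →+* E) (hg : Function.Injective g) (g' : A →+* E') (hg' : Function.Injective g')
    (hcomp : ∀ a : A, g' a = algebraMap E E' (g a)) :
    letI := fracAlgebra K g hg
    letI := fracAlgebra K g' hg'
    IsScalarTower K E E' := by
  letI := fracAlgebra K g hg
  letI := fracAlgebra K g' hg'
  refine IsScalarTower.of_algebraMap_eq (fun k => ?_)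
  have h := algebraMap_eq_of_comp_eq K (IsFractionRing.lift hg' : K →+* E')
    ((algebraMap E E').comp (IsFractionRing.lift hg : K →+* E)) (fun a => by
      rw [IsFractionRing.lift_algebraMap, RingHom.comp_apply, IsFractionRing.lift_algebraMap,
        hcomp])
  exact congrArg (fun f : K →+* E' => f k) h

/-- Every element of the image of `K` is a quotient of images of `A`. -/
theorem fracAlgebra_exists_div (g : A →+* E) (hg : Function.Injective g) (k : K) :
    letI := fracAlgebra K g hg
    ∃ a b : A, b ≠ 0 ∧ algebraMap K E k = g a / g b := by
  letI := fracAlgebra K g hg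
  obtain ⟨a, b, hb, rfl⟩ := IsFractionRing.div_surjective (A := A) k
  refine ⟨a, b, nonZeroDivisors.ne_zero hb, ?_⟩
  rw [map_div₀, fracAlgebra_algebraMap, fracAlgebra_algebraMap]

/-- Transfer of finite-dimensionality: if `E` is finite over a subfield `S` all of whose elements
are quotients `g a / g b`, then `E` is finite over `K`. -/
theorem fracAlgebra_finite (g : A →+* E) (hg : Function.Injective g) (S : Subfield E)
    (hS : ∀ s ∈ S, ∃ a b : A, g b ≠ 0 ∧ s = g a / g b) [Module.Finite S E] :
    letI := fracAlgebra K g hg
    Module.Finite K E := by
  letI := fracAlgebra K g hg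
  obtain ⟨t, ht⟩ := (Module.finite_def (R := S) (M := E)).mp inferInstance
  refine Module.finite_def.mpr ⟨t, ?_⟩
  have key : ∀ e : E, e ∈ Submodule.span S (t : Set E) → e ∈ Submodule.span K (t : Set E) := by
    intro e he
    induction he using Submodule.span_induction with
    | mem x hx => exact Submodule.subset_span hx
    | zero => exact Submodule.zero_mem _
    | add x y _ _ hx hy => exact Submodule.add_mem _ hx hy
    | smul s x _ hx =>
      obtain ⟨a, b, hb, hs⟩ := hS s s.2
      have hk : algebraMap K E (algebraMap A K a / algebraMap A K b) = (s : E) := by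
        rw [map_div₀, fracAlgebra_algebraMap, fracAlgebra_algebraMap, hs]
      have : s • x = (algebraMap A K a / algebraMap A K b : K) • x := by
        rw [Algebra.smul_def (algebraMap A K a / algebraMap A K b : K) x, hk]
        rfl
      rw [this]
      exact Submodule.smul_mem _ _ hx
  rw [eq_top_iff]
  intro e _
  exact key e (by rw [ht]; trivial)

end Generic

section Poly

variable {L : Type*} [Field L] (K : Type*) [Field K] [Algebra L[X] K] [IsFractionRing L[X] K]
  {E : Type*} [Field E] [Algebra L E]

/-- `aeval x` is injective for transcendental `x`. -/
theorem aeval_injective_of_transcendental {x : E} (hx : Transcendental L x) :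
    Function.Injective (Polynomial.aeval x : L[X] →ₐ[L] E).toRingHom :=
  transcendental_iff_injective.mp hx

/-- The `L[X]`-algebra structure `X ↦ x` on `E`. -/
@[reducible] noncomputable def polyAlgebra (x : E) : Algebra L[X] E :=
  (Polynomial.aeval x : L[X] →ₐ[L] E).toRingHom.toAlgebra

theorem polyAlgebra_algebraMap (x : E) (p : L[X]) :
    letI := polyAlgebra (L := L) x
    algebraMap L[X] E p = Polynomial.aeval x p := rfl

theorem polyAlgebra_X (x : E) :
    letI := polyAlgebra (L := L) x
    algebraMap L[X] E X = x := by
  letI := polyAlgebra (L := L) x
  exact Polynomial.aeval_X x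

theorem polyAlgebra_isScalarTower (x : E) :
    letI := polyAlgebra (L := L) x
    IsScalarTower L L[X] E := by
  letI := polyAlgebra (L := L) x
  refine IsScalarTower.of_algebraMap_eq (fun a => ?_)
  show algebraMap L E a = Polynomial.aeval x (algebraMap L L[X] a)
  rw [Polynomial.algebraMap_apply, Polynomial.aeval_C, Algebra.algebraMap_self, RingHom.id_apply]

theorem polyAlgebra_isScalarTower_of_map {E' : Type*} [Field E'] [Algebra L E'] [Algebra E E']
    [IsScalarTower L E E'] (x : E) (x' : E') (hxx' : algebraMap E E' x = x') :
    letI := polyAlgebra (L := L) x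
    letI := polyAlgebra (L := L) x'
    IsScalarTower L[X] E E' := by
  letI := polyAlgebra (L := L) x
  letI := polyAlgebra (L := L) x'
  refine IsScalarTower.of_algebraMap_eq (fun p => ?_)
  show Polynomial.aeval x' p = algebraMap E E' (Polynomial.aeval x p)
  rw [← hxx', Polynomial.aeval_algebraMap_apply]

/-- The `K`-algebra structure on `E` for `K = Frac L[X]`, `X ↦ x` transcendental. -/
@[reducible] noncomputable def ratAlgebra (x : E) (hx : Transcendental L x) : Algebra K E :=
  fracAlgebra K (Polynomial.aeval x : L[X] →ₐ[L] E).toRingHom
    (aeval_injective_of_transcendental hx)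

theorem ratAlgebra_algebraMap (x : E) (hx : Transcendental L x) (p : L[X]) :
    letI := ratAlgebra K x hx
    algebraMap K E (algebraMap L[X] K p) = Polynomial.aeval x p :=
  fracAlgebra_algebraMap K _ (aeval_injective_of_transcendental hx) p

theorem ratAlgebra_isScalarTower (x : E) (hx : Transcendental L x) :
    letI := polyAlgebra (L := L) x
    letI := ratAlgebra K x hx
    IsScalarTower L[X] K E :=
  fracAlgebra_isScalarTower K _ (aeval_injective_of_transcendental hx)

theorem ratAlgebra_isScalarTower_of_map {E' : Type*} [Field E'] [Algebra L E'] [Algebra E E']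
    [IsScalarTower L E E'] (x : E) (hx : Transcendental L x) (x' : E')
    (hx' : Transcendental L x') (hxx' : algebraMap E E' x = x') :
    letI := ratAlgebra K x hx
    letI := ratAlgebra K x' hx'
    IsScalarTower K E E' :=
  fracAlgebra_isScalarTower_of_comp K _ (aeval_injective_of_transcendental hx) _
    (aeval_injective_of_transcendental hx') (fun p => by
      show Polynomial.aeval x' p = algebraMap E E' (Polynomial.aeval x p)
      rw [← hxx', Polynomial.aeval_algebraMap_apply])

/-- Transcendence passes up a field extension. -/
theorem transcendental_algebraMap {E' : Type*} [Field E'] [Algebra L E'] [Algebra E E']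
    [IsScalarTower L E E'] {x : E} (hx : Transcendental L x) :
    Transcendental L (algebraMap E E' x) := by
  intro h
  exact hx ((isAlgebraic_algebraMap_iff (algebraMap E E').injective).mp h)

/-- `E` finite over `L⟮x⟯` implies `E` finite over `K = Frac L[X]` (structure `X ↦ x`). -/
theorem ratAlgebra_finite (x : E) (hx : Transcendental L x)
    [h : FiniteDimensional (IntermediateField.adjoin L {x}) E] :
    letI := ratAlgebra K x hx
    FiniteDimensional K E := by
  have hfin : Module.Finite (IntermediateField.adjoin L {x}).toSubfield E := h
  refine fracAlgebra_finite K _ (aeval_injective_of_transcendental hx)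
    (IntermediateField.adjoin L {x}).toSubfield (fun s hs => ?_)
  obtain ⟨r, q, hrq⟩ := (IntermediateField.mem_adjoin_simple_iff L s).mp hs
  by_cases hq : Polynomial.aeval x q = 0
  · refine ⟨0, 1, by simp, ?_⟩
    rw [hrq, hq, div_zero]; simp
  · exact ⟨r, q, hq, hrq⟩

end Poly

end Fermat.Agent.S18.FFKit
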