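import Mathlib
import Fermat.Agent.S18.Cusp
import Fermat.Agent.S18.CuspFrac
import Fermat.Agent.S18.CuspGauss
import Fermat.Agent.S18.CuspHoriz
import Fermat.Agent.S18.CuspVertHU
import Fermat.Agent.S18.ChartBasics
import Fermat.Agent.S18.ChartBranch
import Fermat.Agent.S18.FunctionFieldKit

/-!
# S18, cusp chart: the chart theorem with abstract fields

`cusp_lift_core`: the sheet idempotent lifts to an element integral over the cusp chart
`D = Cusp.CuspBase W` (`= W[t, 1/(1 - 1728 t)]`, `t = 1/j`), for the concrete chart rings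
`R0 = Cusp.CuspRing W N` (`τ ^ N = t`), `BM = Cusp.CuspRing L N`, `A = Cusp.CuspBase L`; the fields
`K = Frac A`, `M = Frac R0` and `Y' = F2(x0)`, `x0 ^ N = t`, are abstract with instance arguments.
All remaining inputs live in the function field `F2`:

* horizontal primes: the ramification of `F2` over the `t`-line (`hF`);
* vertical prime: the monogenic separable datum `(θ, P)` along the `j`-evaluation `φJ`, the
  Kummer datum `(u, w)` with `w` a Gauss unit, and generation statements for `F2 / L`.

The instance diagram over the generic fibre is built inside.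
-/

set_option autoImplicit false
set_option linter.style.haveILetI false
set_option linter.unusedSectionVars false

namespace Fermat.Agent.S18.CuspCore

open Polynomial Fermat.Agent.S18 Fermat.Agent.S18.Cusp

section Lifts

variable {W : Type*} [CommRing W] [IsDomain W] {E E' : Type*} [Field E] [Field E']
  [Algebra W E] [Algebra W E'] [Algebra E E'] [IsScalarTower W E E']

/-- The lift of the base chart is compatible with field extensions. -/
theorem baseLift_map (t0 : E) (h : 1 - 1728 * t0 ≠ 0) (t0' : E') (ht : t0' = algebraMap E E' t0)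
    (h' : 1 - 1728 * t0' ≠ 0) (a : CuspBase W) :
    baseLift W t0' h' a = algebraMap E E' (baseLift W t0 h a) := by
  subst ht
  have key : (baseLift W (algebraMap E E' t0) h' : CuspBase W →+* E') =
      (algebraMap E E').comp (baseLift W t0 h : CuspBase W →+* E) := by
    apply IsLocalization.ringHom_ext (Submonoid.powers (cuspG W))
    refine RingHom.ext fun P => ?_
    simp only [RingHom.coe_comp, RingHom.coe_coe, Function.comp_apply]
    rw [baseLift_algebraMap, baseLift_algebraMap, aeval_algebraMap_apply]
  exact congrArg (fun φ : CuspBase W →+* E' => φ a) key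

end Lifts

section Subfield

/-- A subfield of `Y` containing the images of the constants and of a set `T` contains the image
of the field generated by `T`. -/
theorem map_mem_subfield_of_mem_adjoin {L F Y : Type*} [Field L] [Field F] [Field Y]
    [Algebra L F] (φ : F →+* Y) (S : Subfield Y) (T : Set F)
    (hL : ∀ a : L, φ (algebraMap L F a) ∈ S) (hTS : ∀ t ∈ T, φ t ∈ S) {x : F}
    (hx : x ∈ IntermediateField.adjoin L T) : φ x ∈ S := by
  have hle : IntermediateField.adjoin L T ≤
      (S.comap φ).toIntermediateField (fun a => hL a) := by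
    rw [IntermediateField.adjoin_le_iff]
    intro t ht
    exact hTS t ht
  exact hle hx

end Subfield

section Core

/-- **The cusp chart, abstract fields.**  `F2` is the function field (with `t0 = 1/j`
transcendental over `L`), `Y' = F2(x0)` with `x0 ^ N = t0`, `M = Frac (CuspRing W N)` embedded in
`Y'` by `τ ↦ x0`, `K = Frac (CuspBase L)`.  The idempotent `ε` modulo `ϖ` lifts to an element of
`F2` integral over the cusp chart `CuspBase W`. -/
theorem cusp_lift_core
    {W L F2 K M Y' k : Type*} [CommRing W] [IsDomain W] [IsDiscreteValuationRing W]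
    [Field L] [Algebra ℚ L] [Algebra W L] [IsFractionRing W L]
    [Field F2] [Algebra L F2] [Algebra W F2] [IsScalarTower W L F2]
    [Field Y'] [Algebra F2 Y'] [Algebra L Y'] [IsScalarTower L F2 Y'] [Algebra W Y']
    [IsScalarTower W F2 Y'] [IsScalarTower W L Y']
    {N : ℕ} (hN : 0 < N) (ζN : L) (hζN : IsPrimitiveRoot ζN N)
    (ϖ : W) (hϖ : Irreducible ϖ)
    (t0 : F2) (h1 : 1 - 1728 * t0 ≠ 0)
    (x0 : Y') (hx0 : x0 ^ N = algebraMap F2 Y' t0) (h2 : 1 - 1728 * x0 ^ N ≠ 0)
    (hgen : IntermediateField.adjoin F2 {x0} = ⊤)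
    -- base chart structures on `F2`
    [Algebra (CuspBase L) F2] (hA : ∀ a, algebraMap (CuspBase L) F2 a = baseLift L t0 h1 a)
    [Algebra (CuspBase W) F2] (hD : ∀ a, algebraMap (CuspBase W) F2 a = baseLift W t0 h1 a)
    [Field K] [Algebra (CuspBase L) K] [IsFractionRing (CuspBase L) K] [Algebra K F2]
    [IsScalarTower (CuspBase L) K F2] [FiniteDimensional K F2]
    -- the chart structure
    [Field M] [Algebra (CuspRing W N) M] [IsFractionRing (CuspRing W N) M] [Algebra M Y']
    [Algebra (CuspRing W N) Y'] [IsScalarTower (CuspRing W N) M Y']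
    (hR : ∀ r, algebraMap (CuspRing W N) Y' r = chartLift W N x0 h2 r)
    -- horizontal primes
    (hF : ∀ P : Ideal (integralClosure (CuspBase L) F2), P.IsPrime → P ≠ ⊥ →
      (baseT L ∈ P.under (CuspBase L) → P.ramificationIdx (CuspBase L) ∣ N) ∧
      (baseT L ∉ P.under (CuspBase L) → P.ramificationIdx (CuspBase L) = 1))
    -- vertical prime: `j`-evaluation and monogenic datum
    [Field k] (κ₀ : Type*) [Field κ₀] [Algebra k[X] κ₀] [IsFractionRing k[X] κ₀]
    (res : W →+* k) (hres : Function.Surjective res) (hker : ∀ a : W, res a = 0 ↔ ϖ ∣ a)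
    (φJ : W[X] →+* F2) (hφC : ∀ a : W, φJ (C a) = algebraMap W F2 a) (hφX : φJ X * t0 = 1)
    (θ : F2) (P : (W[X])[X]) (hP : P.Monic) (hPθ : eval₂ φJ θ P = 0)
    (hsep : ((P.map (mapRingHom res)).map (algebraMap k[X] κ₀)).Separable)
    (s : ℕ) (hs : s.Prime) (hsϖ : ¬ ϖ ∣ (s : W)) (ζs : L) (hζs : IsPrimitiveRoot ζs s)
    (u w : F2) (hw0 : w ≠ 0) (huw : u ^ s = w)
    (hwθ : w ∈ IntermediateField.adjoin L {t0, θ})
    (hgenF2 : IntermediateField.adjoin L {t0, θ, u} = ⊤)
    (hw : ∃ p : W[X], ¬ C ϖ ∣ p ∧ φJ.IsIntegralElem (φJ p * w))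
    (hw' : ∃ p : W[X], ¬ C ϖ ∣ p ∧ φJ.IsIntegralElem (φJ p * w⁻¹))
    -- the idempotent
    (ε : F2) (hε : IsGaussInt (CuspBase W) (algebraMap W (CuspBase W) ϖ) ε)
    (hεε : ∃ d : F2, IsGaussInt (CuspBase W) (algebraMap W (CuspBase W) ϖ) d ∧
      ε ^ 2 - ε = algebraMap W (CuspBase W) ϖ • d) :
    ∃ e : F2, IsIntegral (CuspBase W) e ∧
      ∃ d : F2, IsGaussInt (CuspBase W) (algebraMap W (CuspBase W) ϖ) d ∧
        e - ε = algebraMap W (CuspBase W) ϖ • d := by
  classical
  have hϖp : Prime ϖ := hϖ.prime
  have hmax : (Ideal.span {ϖ}).IsMaximal := by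
    rw [← hϖ.maximalIdeal_eq]; exact IsLocalRing.maximalIdeal.isMaximal W
  haveI : CharZero L := algebraRat.charZero L
  -- domains etc.
  haveI : IsDomain (CuspRing W N) := cuspRing_isDomain W hN
  haveI : IsNoetherianRing (CuspRing W N) := cuspRing_isNoetherianRing W N
  haveI : IsIntegrallyClosed (CuspRing W N) := cuspRing_isIntegrallyClosed W hN
  haveI : IsDomain (CuspBase L) := cuspBase_isDomain L
  haveI : IsDedekindDomain (CuspBase L) := cuspBase_isDedekindDomain L
  haveI : IsDomain (CuspRing L N) := cuspRing_isDomain L hN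
  -- the `W`-level chart algebra
  letI : Algebra (CuspBase W) (CuspRing W N) := cuspAlgebra W N
  letI : Algebra (CuspBase W) Y' :=
    ((algebraMap F2 Y').comp (algebraMap (CuspBase W) F2)).toAlgebra
  haveI : IsScalarTower (CuspBase W) F2 Y' := IsScalarTower.of_algebraMap_eq fun _ => rfl
  haveI : IsScalarTower (CuspBase W) (CuspRing W N) Y' :=
    IsScalarTower.of_algebraMap_eq fun a => by
      show algebraMap F2 Y' (algebraMap (CuspBase W) F2 a) =
        algebraMap (CuspRing W N) Y' (cuspMap W N a)
      rw [hR, chartLift_cuspMap, hD]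
      exact (baseLift_map t0 h1 (x0 ^ N) hx0 h2 a).symm
  haveI : Algebra.IsIntegral (CuspBase W) (CuspRing W N) := cuspAlgebra_isIntegral W hN
  -- the generic fibre `BM = R0[1/ϖ]`
  have hg : cuspF L N = (cuspF W N).map (algebraMap W L) := by
    rw [cuspF_eq, cuspF_eq, Polynomial.map_sub, Polynomial.map_one, Polynomial.map_mul,
      Polynomial.map_pow, Polynomial.map_X, Polynomial.map_ofNat]
  haveI : IsLocalization.Away ϖ L := ChartBasics.isLocalization_away_of_irreducible ϖ hϖ
  letI : Algebra (CuspRing W N) (CuspRing L N) :=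
    ChartBasics.algAwayBC (cuspF W N) (cuspF L N) hg
  haveI : IsLocalization.Away (algebraMap W (CuspRing W N) ϖ) (CuspRing L N) :=
    ChartBasics.isLocalization_awayBC ϖ (cuspF W N) (cuspF L N) hg
  have hϖ0 : algebraMap W (CuspRing W N) ϖ ≠ 0 := (cuspRing_prime W hN hϖp).ne_zero
  letI : Algebra (CuspRing L N) M :=
    ChartBasics.algAwayFrac (A := CuspRing L N) (K := M) (algebraMap W (CuspRing W N) ϖ) hϖ0
  haveI : IsScalarTower (CuspRing W N) (CuspRing L N) M :=
    ChartBasics.isScalarTower_awayFrac (A := CuspRing L N) (K := M) _ hϖ0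
  haveI : IsFractionRing (CuspRing L N) M :=
    ChartBasics.isFractionRing_awayFrac (A := CuspRing L N) (K := M) _ hϖ0
  -- `BM → M → Y'` is the lift `τ ↦ x0`
  have hBMY : ∀ b : CuspRing L N,
      algebraMap M Y' (algebraMap (CuspRing L N) M b) = chartLift L N x0 h2 b := by
    have key : (algebraMap M Y').comp (algebraMap (CuspRing L N) M) =
        (chartLift L N x0 h2 : CuspRing L N →+* Y') := by
      apply IsLocalization.ringHom_ext (Submonoid.powers (algebraMap W (CuspRing W N) ϖ))
      refine RingHom.ext fun r => ?_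
      simp only [RingHom.coe_comp, RingHom.coe_coe, Function.comp_apply]
      rw [← IsScalarTower.algebraMap_apply (CuspRing W N) (CuspRing L N) M,
        ← IsScalarTower.algebraMap_apply (CuspRing W N) M Y', hR]
      exact (ChartBasics.awayLift_awayBC (cuspF W N) (cuspF L N) hg x0 _ _ r).symm
    intro b
    exact congrArg (fun φ : CuspRing L N →+* Y' => φ b) key
  -- `K → M`
  let gM : CuspBase L →+* M :=
    (algebraMap (CuspRing L N) M).comp (cuspMap L N : CuspBase L →+* CuspRing L N)
  have hgM : Function.Injective gM :=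
    (IsFractionRing.injective (CuspRing L N) M).comp (cuspMap_injective L hN)
  letI : Algebra (CuspBase L) M := gM.toAlgebra
  letI : Algebra K M := FFKit.fracAlgebra K gM hgM
  haveI : IsScalarTower (CuspBase L) K M := FFKit.fracAlgebra_isScalarTower K gM hgM
  have hc : ∀ a : CuspBase L, algebraMap K M (algebraMap (CuspBase L) K a) =
      algebraMap (CuspRing L N) M (cuspMap L N a) :=
    fun a => FFKit.fracAlgebra_algebraMap K gM hgM a
  haveI : FiniteDimensional K M := finiteDimensional_frac L N hN hc
  haveI : CharZero (CuspBase L) := algebraRat.charZero (CuspBase L)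
  haveI : CharZero K :=
    charZero_of_injective_algebraMap (IsFractionRing.injective (CuspBase L) K)
  haveI : CharZero M := charZero_of_injective_algebraMap (algebraMap K M).injective
  have hNK : (N : K) ≠ 0 := Nat.cast_ne_zero.mpr hN.ne'
  have hζK : IsPrimitiveRoot (algebraMap (CuspBase L) K (algebraMap L (CuspBase L) ζN)) N :=
    (hζN.map_of_injective (cuspBase_algebraMap_injective L)).map_of_injective
      (IsFractionRing.injective (CuspBase L) K)
  haveI : IsGalois K M := isGalois_frac L N hNK hζK hc
  -- `K → Y'`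
  letI : Algebra K Y' := ((algebraMap F2 Y').comp (algebraMap K F2)).toAlgebra
  haveI : IsScalarTower K F2 Y' := IsScalarTower.of_algebraMap_eq fun _ => rfl
  haveI : IsScalarTower K M Y' := IsScalarTower.of_algebraMap_eq fun κ => by
    have key := FFKit.algebraMap_eq_of_comp_eq (A := CuspBase L) K
      ((algebraMap F2 Y').comp (algebraMap K F2)) ((algebraMap M Y').comp (algebraMap K M))
      (fun a => by
        rw [RingHom.comp_apply, RingHom.comp_apply,
          ← IsScalarTower.algebraMap_apply (CuspBase L) K F2, hc, hBMY, chartLift_cuspMap, hA]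
        exact (baseLift_map t0 h1 (x0 ^ N) hx0 h2 a).symm)
    exact congrArg (fun φ : K →+* Y' => φ κ) key
  -- `BM → Y'`
  letI : Algebra (CuspRing L N) Y' :=
    ((algebraMap M Y').comp (algebraMap (CuspRing L N) M)).toAlgebra
  haveI : IsScalarTower (CuspRing L N) M Y' := IsScalarTower.of_algebraMap_eq fun _ => rfl
  -- `A → BM`
  letI : Algebra (CuspBase L) (CuspRing L N) := cuspAlgebra L N
  haveI : IsScalarTower (CuspBase L) (CuspRing L N) M :=
    IsScalarTower.of_algebraMap_eq fun _ => rfl
  haveI : IsIntegralClosure (CuspRing L N) (CuspBase L) M :=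
    isIntegralClosure_frac L N hN (fun _ => rfl) M
  -- `Y' = F2 · M`
  have hx0M : algebraMap M Y' (algebraMap (CuspRing W N) M (chartX W N)) = x0 := by
    rw [← IsScalarTower.algebraMap_apply, hR, chartLift_chartX]
  have hFM : IntermediateField.adjoin F2 (Set.range (algebraMap M Y')) = ⊤ := by
    rw [eq_top_iff, ← hgen]
    apply IntermediateField.adjoin.mono
    rintro _ rfl
    exact ⟨_, hx0M⟩
  haveI : FiniteDimensional F2 Y' := Abhyankar.finiteDimensional_of_adjoin_eq_top (K := K) hFM
  haveI : FiniteDimensional K Y' := FiniteDimensional.trans K F2 Y'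
  haveI : FiniteDimensional M Y' := FiniteDimensional.right K M Y'
  haveI : Algebra.IsSeparable M Y' := Algebra.IsAlgebraic.isSeparable_of_perfectField
  -- the vertical prime
  have hLY : ∀ a : L, algebraMap F2 Y' (algebraMap L F2 a) =
      algebraMap M Y' (algebraMap (CuspRing L N) M (algebraMap L (CuspRing L N) a)) := by
    intro a
    rw [hBMY, AlgHom.commutes, ← IsScalarTower.algebraMap_apply]
  have ht0M : algebraMap F2 Y' t0 =
      algebraMap M Y' (algebraMap (CuspRing W N) M (chartX W N) ^ N) := by
    rw [map_pow, hx0M, hx0]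
  set φ : W[X] →+* Y' := (algebraMap F2 Y').comp φJ with hφ
  have hφC' : ∀ a : W, φ (C a) =
      algebraMap (CuspRing W N) Y' (algebraMap W (CuspRing W N) a) := by
    intro a
    rw [hφ, RingHom.comp_apply, hφC, hR, AlgHom.commutes, ← IsScalarTower.algebraMap_apply]
  have hφX' : φ X * algebraMap (CuspRing W N) Y' (chartX W N) ^ N = 1 := by
    rw [hφ, RingHom.comp_apply, hR, chartLift_chartX, hx0, ← map_mul, hφX, map_one]
  have hPθ' : eval₂ φ (algebraMap F2 Y' θ) P = 0 := by
    rw [hφ, ← Polynomial.hom_eval₂, hPθ, map_zero]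
  have hζM : IsPrimitiveRoot
      (algebraMap (CuspRing L N) M (algebraMap L (CuspRing L N) ζs)) s :=
    (hζs.map_of_injective (cuspRing_algebraMap_injective L hN)).map_of_injective
      (IsFractionRing.injective (CuspRing L N) M)
  have hw0' : algebraMap F2 Y' w ≠ 0 := by
    rw [Ne, map_eq_zero]; exact hw0
  have hup : ∀ z : F2, (∃ p : W[X], ¬ C ϖ ∣ p ∧ φJ.IsIntegralElem (φJ p * z)) →
      ∃ p : W[X], ¬ C ϖ ∣ p ∧ φ.IsIntegralElem (φ p * algebraMap F2 Y' z) := by
    rintro z ⟨p, hp, q, hq, hqz⟩
    refine ⟨p, hp, q, hq, ?_⟩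
    rw [hφ, RingHom.comp_apply, ← map_mul, ← Polynomial.hom_eval₂, hqz, map_zero]
  -- generation: `Y' = M(θ, u)`, `w ∈ M(θ)`
  have hwθ' : algebraMap F2 Y' w ∈ IntermediateField.adjoin M {algebraMap F2 Y' θ} := by
    refine map_mem_subfield_of_mem_adjoin (L := L) (algebraMap F2 Y')
      (IntermediateField.adjoin M {algebraMap F2 Y' θ}).toSubfield {t0, θ} (fun a => ?_) ?_ hwθ
    · rw [hLY]
      exact (IntermediateField.adjoin M {algebraMap F2 Y' θ}).algebraMap_mem _
    · rintro t (rfl | rfl)
      · rw [ht0M]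
        exact (IntermediateField.adjoin M {algebraMap F2 Y' θ}).algebraMap_mem _
      · exact IntermediateField.mem_adjoin_simple_self M _
  have hgen' : IntermediateField.adjoin M {algebraMap F2 Y' θ, algebraMap F2 Y' u} = ⊤ := by
    set S := IntermediateField.adjoin M {algebraMap F2 Y' θ, algebraMap F2 Y' u} with hS
    have hB : ∀ x : F2, algebraMap F2 Y' x ∈ S.toSubfield := by
      intro x
      refine map_mem_subfield_of_mem_adjoin (L := L) (algebraMap F2 Y') S.toSubfield {t0, θ, u}
        (fun a => ?_) ?_ (by rw [hgenF2]; trivial)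
      · rw [hLY]
        exact S.algebraMap_mem _
      · rintro t (rfl | rfl | rfl)
        · rw [ht0M]
          exact S.algebraMap_mem _
        · exact IntermediateField.subset_adjoin M _ (by simp)
        · exact IntermediateField.subset_adjoin M _ (by simp)
    let T3 : IntermediateField F2 Y' := S.toSubfield.toIntermediateField hB
    have hT3 : IntermediateField.adjoin F2 {x0} ≤ T3 := by
      rw [IntermediateField.adjoin_le_iff, Set.singleton_subset_iff]
      show x0 ∈ S
      rw [← hx0M]
      exact S.algebraMap_mem _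
    rw [eq_top_iff]
    intro y _
    have : y ∈ T3 := hT3 (by rw [hgen]; trivial)
    exact this
  have hvert : TowerUnram.TraceNondeg (CuspRing W N) M Y' (integralClosure (CuspRing W N) Y')
      (Ideal.span {algebraMap W (CuspRing W N) ϖ}) :=
    CuspVertHU.cusp_hU_vertical_of_j N hN κ₀ res hres ϖ hϖp hker φ hφC' hφX'
      (algebraMap F2 Y' θ) P hP hPθ' hsep s hs hsϖ _ hζM (algebraMap F2 Y' u)
      (algebraMap F2 Y' w) hw0' (by rw [← map_pow, huw]) hwθ' hgen' (hup w hw)
      (by rw [← map_inv₀]; exact hup _ hw')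
  -- the chart theorem
  have e0 : algebraMap (CuspBase W) (CuspRing W N) (algebraMap W (CuspBase W) ϖ) =
      algebraMap W (CuspRing W N) ϖ := (cuspMap W N).commutes ϖ
  haveI : IsLocalization.Away
      (algebraMap (CuspBase W) (CuspRing W N) (algebraMap W (CuspBase W) ϖ)) (CuspRing L N) := by
    rw [e0]; infer_instance
  exact ChartBranch.chart_lift_branch (A := CuspBase L) (K := K) (F2 := F2) (M := M) (Y' := Y')
    (BF := integralClosure (CuspBase L) F2) (BM := CuspRing L N)
    (BY := integralClosure (CuspRing L N) Y') (D := CuspBase W) (R0 := CuspRing W N)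
    (B' := integralClosure (CuspRing W N) Y') hFM (fun _ : Unit => baseT L) (fun _ => N)
    (branch_ha L) (fun _ P hP hP0 hmem => (hF P hP hP0).1 hmem)
    (fun P hP hP0 hnot => (hF P hP hP0).2 (hnot ())) (branch_hM L N (fun _ => rfl))
    (algebraMap W (CuspBase W) ϖ) (by rw [e0]; exact cuspRing_prime W hN hϖp)
    (by rw [e0]; exact cuspRing_quotient_isDedekindDomain W hN hϖp hmax)
    (fun a h => cusp_dvd W hN hϖp a (by rw [← e0]; exact h))
    (by rw [e0]; exact hvert) ε hε hεε

end Core

end Fermat.Agent.S18.CuspCore
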