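import Mathlib
import Fermat.Prelude.Def_ModularCurve_ReductionModL
import Fermat.Agent.S24.BaseChange
import Fermat.Agent.S24.CoeffBC
import Fermat.Agent.S24.ComplexPlaces

/-!
# S18, package P7b: descent of the Kummer witness to a small base field

The witness extracted from the hypothesis of S18 lives over `ℚ̄`: two `q`-series `Y1, Y2` with
coefficients in the valuation ring `A ⊆ ℚ̄`, lying in the function field `F_ℚ̄` of `X₀(N)`,
such that the divisor of `w = Y1 / Y2` is divisible by `s`.  This file shows that there is a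
finite set `S ⊆ ℚ̄` such that for every intermediate field `L2 ⊇ S`:

* `Y1, Y2` are the images of series `Z1, Z2` with coefficients in `W = A ∩ L2`, lying in the
  function field `F_L2 = FF L2 N`;
* (H1) the order of `w' = Z1 / Z2` at **every place of `F_L2` over `L2`** is divisible by `s`
  (the places of `F_ℚ̄` where `w` has a zero or a pole are finitely many, and `S` contains the
  coefficients of a uniformiser at each of them, so these places are unramified over `F_L2`);
* equalities / non-vanishing of reductions and "not an `s`-th power" descend.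

Also: the conversion of "`s ∣ ord_v w`" into "`w = unit · g^s`", for places and for arbitrary
principal valuation rings containing the constants.
-/

set_option autoImplicit false

namespace Fermat.Agent.S18.Descent

open AlgebraicCurve IntermediateField ModularCurve

/-! ## Coefficient maps -/

section Coeff

variable {R S : Type*} [CommRing R] [CommRing S]

/-- the coefficientwise map of an injective ring homomorphism is injective -/
theorem coeffMap_injective (f : R →+* S) (hf : Function.Injective f) :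
    Function.Injective (coeffMap f) := by
  intro x y h
  ext k
  apply hf
  have h1 := congrArg (fun z : LaurentSeries S => z.coeff k) h
  simpa using h1

/-- a series all of whose coefficients lie in the image of an injective ring homomorphism
comes from a series over the source -/
theorem exists_coeffMap_eq (f : R →+* S) (hf : Function.Injective f) (x : LaurentSeries S)
    (hx : ∀ k, ∃ r, f r = x.coeff k) : ∃ z : LaurentSeries R, coeffMap f z = x := by
  choose g hg using hx
  have hsupp : Function.support g = x.support := by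
    ext k
    simp only [Function.mem_support, HahnSeries.mem_support, ne_eq]
    rw [← hg k]
    constructor
    · intro h h'
      exact h (hf (by rw [h', map_zero]))
    · intro h h'
      exact h (by rw [h', map_zero])
  refine ⟨⟨g, hsupp ▸ x.isPWO_support⟩, ?_⟩
  ext k
  exact hg k

end Coeff

/-! ## The valuation ring `A ∩ K` -/

section Comap

variable {K K' : Type*} [Field K] [Field K'] (ι : K →+* K') (A : ValuationSubring K')

/-- the inclusion of `A ∩ K` in `A` -/
def inclComap : ↥(A.comap ι) →+* ↥A where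
  toFun x := ⟨ι x, x.2⟩
  map_one' := by
    apply Subtype.ext
    exact map_one ι
  map_mul' x y := by
    apply Subtype.ext
    exact map_mul ι (x : K) (y : K)
  map_zero' := by
    apply Subtype.ext
    exact map_zero ι
  map_add' x y := by
    apply Subtype.ext
    exact map_add ι (x : K) (y : K)

theorem coe_inclComap (x : ↥(A.comap ι)) : ((inclComap ι A x : ↥A) : K') = ι (x : K) := rfl

theorem subtype_comp_inclComap :
    A.subtype.comp (inclComap ι A) = ι.comp (A.comap ι).subtype := rfl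

theorem inclComap_injective : Function.Injective (inclComap ι A) := by
  intro x y h
  apply Subtype.ext
  apply ι.injective
  exact congrArg Subtype.val h

instance isLocalHom_inclComap : IsLocalHom (inclComap ι A) := by
  constructor
  intro x hx
  obtain ⟨y, hy⟩ := hx.exists_right_inv
  have hy' : ι (x : K) * (y : K') = 1 := congrArg Subtype.val hy
  have hx0 : (x : K) ≠ 0 := by
    intro h
    rw [h, map_zero, zero_mul] at hy'
    exact zero_ne_one hy'
  have hinv : ι ((x : K)⁻¹) = (y : K') := by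
    rw [map_inv₀]
    exact inv_eq_of_mul_eq_one_right hy'
  have hmem : (x : K)⁻¹ ∈ A.comap ι := by
    show ι ((x : K)⁻¹) ∈ A
    rw [hinv]
    exact y.2
  exact IsUnit.of_mul_eq_one (⟨(x : K)⁻¹, hmem⟩ : ↥(A.comap ι))
    (Subtype.ext (mul_inv_cancel₀ hx0))

/-- the induced map of residue fields -/
noncomputable def resComap :
    IsLocalRing.ResidueField ↥(A.comap ι) →+* IsLocalRing.ResidueField ↥A :=
  IsLocalRing.ResidueField.map (inclComap ι A)

theorem resComap_residue (x : ↥(A.comap ι)) :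
    resComap ι A (IsLocalRing.residue ↥(A.comap ι) x) =
      IsLocalRing.residue ↥A (inclComap ι A x) :=
  IsLocalRing.ResidueField.map_residue _ _

theorem resComap_injective : Function.Injective (resComap ι A) :=
  (resComap ι A).injective

/-- reduction of series commutes with the inclusion `A ∩ K ⊆ A` -/
theorem coeffMap_resComap (Z : LaurentSeries ↥(A.comap ι)) :
    coeffMap (resComap ι A) (coeffMap (IsLocalRing.residue ↥(A.comap ι)) Z) =
      coeffMap (IsLocalRing.residue ↥A) (coeffMap (inclComap ι A) Z) := by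
  rw [coeffMap_coeffMap, coeffMap_coeffMap]
  exact coeffMap_congr (RingHom.ext fun x => resComap_residue ι A x) Z

/-- equality of reductions descends -/
theorem residue_eq_of_incl {Z1 Z2 : LaurentSeries ↥(A.comap ι)}
    (h : coeffMap (IsLocalRing.residue ↥A) (coeffMap (inclComap ι A) Z1) =
      coeffMap (IsLocalRing.residue ↥A) (coeffMap (inclComap ι A) Z2)) :
    coeffMap (IsLocalRing.residue ↥(A.comap ι)) Z1 =
      coeffMap (IsLocalRing.residue ↥(A.comap ι)) Z2 := by
  apply coeffMap_injective (resComap ι A) (resComap_injective ι A)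
  rw [coeffMap_resComap, coeffMap_resComap, h]

/-- non-vanishing of the reduction descends -/
theorem residue_ne_zero_of_incl {Z : LaurentSeries ↥(A.comap ι)}
    (h : coeffMap (IsLocalRing.residue ↥A) (coeffMap (inclComap ι A) Z) ≠ 0) :
    coeffMap (IsLocalRing.residue ↥(A.comap ι)) Z ≠ 0 := by
  intro h0
  apply h
  rw [← coeffMap_resComap, h0, map_zero]

/-- **Integral descent**: a series with coefficients in `A` whose image over `K'` comes from
a series over `K` comes from a series with coefficients in `A ∩ K`. -/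
theorem exists_integral_descent (Y : LaurentSeries ↥A) (y : LaurentSeries K)
    (h : coeffMap ι y = coeffMap A.subtype Y) :
    ∃ Z : LaurentSeries ↥(A.comap ι),
      coeffMap (A.comap ι).subtype Z = y ∧ coeffMap (inclComap ι A) Z = Y := by
  have hmem : ∀ k, ∃ r : ↥(A.comap ι), (A.comap ι).subtype r = y.coeff k := by
    intro k
    have hk : ι (y.coeff k) = ((Y.coeff k : ↥A) : K') :=
      congrArg (fun z : LaurentSeries K' => z.coeff k) h
    have hmemk : y.coeff k ∈ A.comap ι := by
      show ι (y.coeff k) ∈ A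
      rw [hk]
      exact (Y.coeff k).2
    exact ⟨⟨y.coeff k, hmemk⟩, rfl⟩
  obtain ⟨Z, hZ⟩ := exists_coeffMap_eq (A.comap ι).subtype Subtype.val_injective y hmem
  refine ⟨Z, hZ, ?_⟩
  apply coeffMap_injective A.subtype Subtype.val_injective
  rw [← h, ← hZ, coeffMap_coeffMap, coeffMap_coeffMap, subtype_comp_inclComap]

end Comap

/-! ## Descent of the coefficients of an element of the function field -/

section FieldDescent

variable {C : Type*} [Field C] [Algebra ℚ C]

/-- **Coefficient descent**: every element of `laurentBaseChange C F₀` is defined over every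
subfield (given as `ι : L →+* C`) containing a suitable finite set. -/
theorem exists_finset_descent (F₀ : IntermediateField ℚ (LaurentSeries ℚ)) {x : LaurentSeries C}
    (hx : x ∈ laurentBaseChange C F₀) :
    ∃ S : Finset C, ∀ (L : Type) [Field L] [Algebra ℚ L] (ι : L →+* C),
      (∀ a ∈ S, ∃ b : L, ι b = a) →
      ∃ y : LaurentSeries L, y ∈ laurentBaseChange L F₀ ∧ coeffMap ι y = x := by
  classical
  rw [mem_laurentBaseChange_iff] at hx
  induction hx using Subfield.closure_induction with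
  | mem y hy =>
      rcases hy with ⟨a, rfl⟩ | ⟨z, hz, rfl⟩
      · refine ⟨{a}, fun L _ _ ι hL => ?_⟩
        obtain ⟨b, rfl⟩ := hL a (Finset.mem_singleton_self a)
        exact ⟨algebraMap L (LaurentSeries L) b, (laurentBaseChange L F₀).algebraMap_mem _,
          S24.CoeffBC.coeffMap_algebraMap' ι b⟩
      · exact ⟨∅, fun L _ _ ι _ => ⟨coeffEmb L z, coeffEmb_mem_laurentBaseChange L hz,
          S24.CoeffBC.coeffMap_coeffEmb' ι z⟩⟩
  | one => exact ⟨∅, fun L _ _ ι _ => ⟨1, one_mem _, map_one _⟩⟩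
  | add x y _ _ hx hy =>
      obtain ⟨S1, h1⟩ := hx
      obtain ⟨S2, h2⟩ := hy
      refine ⟨S1 ∪ S2, fun L _ _ ι hL => ?_⟩
      obtain ⟨y1, hy1, e1⟩ := h1 L ι (fun a ha => hL a (Finset.mem_union_left _ ha))
      obtain ⟨y2, hy2, e2⟩ := h2 L ι (fun a ha => hL a (Finset.mem_union_right _ ha))
      exact ⟨y1 + y2, add_mem hy1 hy2, by rw [map_add, e1, e2]⟩
  | neg x _ hx =>
      obtain ⟨S1, h1⟩ := hx
      refine ⟨S1, fun L _ _ ι hL => ?_⟩
      obtain ⟨y1, hy1, e1⟩ := h1 L ι hL
      exact ⟨-y1, neg_mem hy1, by rw [map_neg, e1]⟩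
  | inv x _ hx =>
      obtain ⟨S1, h1⟩ := hx
      refine ⟨S1, fun L _ _ ι hL => ?_⟩
      obtain ⟨y1, hy1, e1⟩ := h1 L ι hL
      exact ⟨y1⁻¹, inv_mem hy1, by rw [map_inv₀, e1]⟩
  | mul x y _ _ hx hy =>
      obtain ⟨S1, h1⟩ := hx
      obtain ⟨S2, h2⟩ := hy
      refine ⟨S1 ∪ S2, fun L _ _ ι hL => ?_⟩
      obtain ⟨y1, hy1, e1⟩ := h1 L ι (fun a ha => hL a (Finset.mem_union_left _ ha))
      obtain ⟨y2, hy2, e2⟩ := h2 L ι (fun a ha => hL a (Finset.mem_union_right _ ha))
      exact ⟨y1 * y2, mul_mem hy1 hy2, by rw [map_mul, e1, e2]⟩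

end FieldDescent

/-! ## Places: generalities -/

section PlacesGen

variable {K F : Type*} [Field K] [Field F] [Algebra K F]

/-- a constant has order zero at every place -/
theorem ord_algebraMap (v : Place K F) (c : K) : v.ord (algebraMap K F c) = 0 := by
  rcases eq_or_ne c 0 with rfl | hc
  · simp
  have h0 : algebraMap K F c ≠ 0 := by simpa using hc
  have h1 : 0 ≤ v.ord (algebraMap K F c) :=
    (S24.Places.ord_nonneg_iff_mem v h0).mpr (v.algebraMap_mem' c)
  have h2 : 0 ≤ v.ord (algebraMap K F c)⁻¹ := by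
    rw [← map_inv₀]
    exact (S24.Places.ord_nonneg_iff_mem v (by simpa using hc)).mpr (v.algebraMap_mem' c⁻¹)
  rw [v.ord_inv] at h2
  omega

/-- divisibility of the order by `s` means: a unit times an `s`-th power -/
theorem exists_pow_mul_mem (v : Place K F) {w : F} (hw : w ≠ 0) {s : ℕ}
    (h : (s : ℤ) ∣ v.ord w) :
    ∃ g : F, g ≠ 0 ∧ w * g ^ s ∈ v.toValuationSubring ∧
      (w * g ^ s)⁻¹ ∈ v.toValuationSubring := by
  obtain ⟨π, hπ⟩ := IsDiscreteValuationRing.exists_irreducible v.toValuationSubring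
  have hπ0 : (π : F) ≠ 0 := by simpa using hπ.ne_zero
  obtain ⟨u, hu⟩ := v.exists_unit_mul_zpow hw hπ
  obtain ⟨m, hm⟩ := h
  refine ⟨(π : F) ^ (-m), zpow_ne_zero _ hπ0, ?_⟩
  have hkey : w * ((π : F) ^ (-m)) ^ s = ((u : v.toValuationSubring) : F) := by
    conv_lhs => rw [hu, hm]
    rw [← zpow_natCast, ← zpow_mul, mul_assoc, ← zpow_add₀ hπ0]
    have h0 : (s : ℤ) * m + -m * (s : ℤ) = 0 := by ring
    rw [h0, zpow_zero, mul_one]
  rw [hkey]
  refine ⟨(u : v.toValuationSubring).2, ?_⟩
  have hui : (((u⁻¹ : v.toValuationSubringˣ) : v.toValuationSubring) : F)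
      = (((u : v.toValuationSubring) : F))⁻¹ := by
    have h := congrArg (fun z : v.toValuationSubring => (z : F)) (u.mul_inv)
    simp only [MulMemClass.coe_mul, OneMemClass.coe_one] at h
    exact eq_inv_of_mul_eq_one_right h
  rw [← hui]
  exact ((u⁻¹ : v.toValuationSubringˣ) : v.toValuationSubring).2

/-- the same for an arbitrary principal valuation ring containing the constants
(a discrete valuation ring of `F` over `K`, or `F` itself) -/
theorem exists_pow_mul_mem_of_isPrincipalIdealRing {w : F} (hw : w ≠ 0) {s : ℕ}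
    (hdiv : ∀ v : Place K F, (s : ℤ) ∣ v.ord w) (O : ValuationSubring F)
    (hK : ∀ a : K, algebraMap K F a ∈ O) (hO : IsPrincipalIdealRing O) :
    ∃ g : F, g ≠ 0 ∧ w * g ^ s ∈ O ∧ (w * g ^ s)⁻¹ ∈ O := by
  by_cases htop : O = ⊤
  · subst htop
    exact ⟨1, one_ne_zero, ValuationSubring.mem_top _, ValuationSubring.mem_top _⟩
  · exact exists_pow_mul_mem (⟨O, hK, htop, hO⟩ : Place K F) hw (hdiv _)

/-- the same for an abstract discrete valuation ring `Rp` with fraction field `F` whose image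
contains the constants (e.g. the localisation of a normal model at a horizontal prime of
height one): `w g^s` is the image of a unit of `Rp` -/
theorem exists_pow_mul_unit_of_dvr (Rp : Type*) [CommRing Rp] [IsDomain Rp]
    [IsDiscreteValuationRing Rp] [Algebra Rp F] [IsFractionRing Rp F]
    (hK : ∀ a : K, ∃ r : Rp, algebraMap Rp F r = algebraMap K F a)
    {w : F} (hw : w ≠ 0) {s : ℕ} (hdiv : ∀ v : Place K F, (s : ℤ) ∣ v.ord w) :
    ∃ (g : F) (u : Rpˣ), g ≠ 0 ∧ w * g ^ s = algebraMap Rp F (u : Rp) := by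
  let O : ValuationSubring F := (ValuationRing.valuation Rp F).valuationSubring
  have hmem : ∀ x : F, x ∈ O ↔ ∃ r : Rp, algebraMap Rp F r = x := fun x =>
    ValuationRing.mem_integer_iff Rp F x
  let φ : Rp →+* O :=
    (algebraMap Rp F).codRestrict O.toSubring (fun r => (hmem _).mpr ⟨r, rfl⟩)
  have hφs : Function.Surjective φ := by
    intro x
    obtain ⟨r, hr⟩ := (hmem _).mp x.2
    exact ⟨r, Subtype.ext hr⟩
  have hPIR : IsPrincipalIdealRing O := IsPrincipalIdealRing.of_surjective φ hφs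
  obtain ⟨g, hg, h1, h2⟩ := exists_pow_mul_mem_of_isPrincipalIdealRing hw hdiv O
    (fun a => (hmem _).mpr (hK a)) hPIR
  obtain ⟨r, hr⟩ := (hmem _).mp h1
  obtain ⟨r', hr'⟩ := (hmem _).mp h2
  have hrr' : r * r' = 1 := by
    apply IsFractionRing.injective Rp F
    rw [map_mul, hr, hr', map_one]
    exact mul_inv_cancel₀ (mul_ne_zero hw (pow_ne_zero _ hg))
  exact ⟨g, Units.mkOfMulEqOne r r' hrr', hg, hr.symm⟩

end PlacesGen

section AlgClosed

variable {K F : Type*} [Field K] [IsAlgClosed K] [CharZero K] [Field F] [Algebra K F]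

/-- the zeros and poles of a function are finitely many -/
theorem exists_finset_ord_ne_zero (x : F) (hx : Transcendental K x) [FiniteDimensional K⟮x⟯ F]
    (w : F) : ∃ T : Finset (Place K F), ∀ v : Place K F, v.ord w ≠ 0 → v ∈ T := by
  classical
  by_cases hw : Transcendental K w
  · have hwi : Transcendental K w⁻¹ := fun h => hw (by simpa using h.inv)
    have i1 : FiniteDimensional K⟮w⟯ F := S24.finiteDimensional_of_transcendental x w hx hw
    have i2 : FiniteDimensional K⟮w⁻¹⟯ F :=
      S24.finiteDimensional_of_transcendental x w⁻¹ hx hwi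
    obtain ⟨s1, h1, -⟩ := S24.exists_finset_zeros w hw
    obtain ⟨s2, h2, -⟩ := S24.exists_finset_zeros w⁻¹ hwi
    refine ⟨s1 ∪ s2, fun v hv => ?_⟩
    rw [Finset.mem_union, h1, h2, v.ord_inv]
    omega
  · refine ⟨∅, fun v hv => absurd ?_ hv⟩
    have halg : IsAlgebraic K w := not_not.mp hw
    have hint : IsIntegral K w := halg.isIntegral
    have hdeg : (minpoly K w).degree = 1 :=
      IsAlgClosed.degree_eq_one_of_irreducible K (minpoly.irreducible hint)
    obtain ⟨c, rfl⟩ := minpoly.mem_range_of_degree_eq_one K w hdeg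
    exact ord_algebraMap v c

end AlgClosed

/-! ## The modular function field -/

local notation "Qb" => AlgebraicClosure ℚ

/-- `j` is transcendental in `F_ℚ̄` and `F_ℚ̄` is finite over `ℚ̄(j)` -/
theorem bar_transcendental (N : ℕ) [NeZero N] :
    Transcendental Qb (S24.jBC Qb N) ∧ FiniteDimensional Qb⟮S24.jBC Qb N⟯ (S24.FF Qb N) := by
  obtain ⟨ι, φ, hφ, hLD, hgen, hφj⟩ := S24.exists_barToComplex N
  obtain ⟨hxC, hfdC, -⟩ := S24.complex_places N
  have hxC' : Transcendental ℂ (φ (S24.jBC Qb N)) := by rw [hφj]; exact hxC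
  have hfdC' : FiniteDimensional ℂ⟮φ (S24.jBC Qb N)⟯ (S24.FF ℂ N) := by
    rw [hφj]; exact hfdC
  obtain ⟨hx, hfd, -⟩ := S24.baseChange_finrank ι φ hφ hLD hgen (S24.jBC Qb N) hxC'
  exact ⟨hx, hfd⟩

/-- **(H1) Descent of the divisibility of the divisor.**  If `w = Y1 / Y2 ∈ F_ℚ̄` has all its
orders divisible by `s`, then over every subfield `ι : L → ℚ̄` containing a suitable finite
set, `Y1, Y2` descend to series `Z1, Z2` with coefficients in `A ∩ L` lying in `F_L`, and
`w' = Z1 / Z2` has all its orders **at the places of `F_L` over `L`** divisible by `s`. -/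
theorem exists_descent (N : ℕ) [NeZero N] (A : ValuationSubring Qb) (s : ℕ)
    (Y1 Y2 : LaurentSeries ↥A)
    (h1 : coeffMap A.subtype Y1 ∈ modularFunctionFieldBar N)
    (h2 : coeffMap A.subtype Y2 ∈ modularFunctionFieldBar N)
    (hdiv : ∀ v : Place Qb (modularFunctionFieldBar N),
      (s : ℤ) ∣ v.ord ((⟨_, h1⟩ : modularFunctionFieldBar N) / ⟨_, h2⟩)) :
    ∃ S : Finset Qb, ∀ (L : Type) [Field L] [Algebra ℚ L] (ι : L →+* Qb),
      (∀ a ∈ S, ∃ b : L, ι b = a) →
      ∃ (Z1 Z2 : LaurentSeries ↥(A.comap ι))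
        (g1 : coeffMap (A.comap ι).subtype Z1 ∈
          laurentBaseChange L (modularFunctionFieldFull N))
        (g2 : coeffMap (A.comap ι).subtype Z2 ∈
          laurentBaseChange L (modularFunctionFieldFull N)),
        coeffMap (inclComap ι A) Z1 = Y1 ∧
        coeffMap (inclComap ι A) Z2 = Y2 ∧
        S24.CoeffBC.bc ι (modularFunctionFieldFull N) ⟨_, g1⟩ =
          (⟨_, h1⟩ : modularFunctionFieldBar N) ∧
        S24.CoeffBC.bc ι (modularFunctionFieldFull N) ⟨_, g2⟩ =
          (⟨_, h2⟩ : modularFunctionFieldBar N) ∧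
        ∀ v : Place L (S24.FF L N),
          (s : ℤ) ∣ v.ord ((⟨_, g1⟩ : S24.FF L N) / ⟨_, g2⟩) := by
  classical
  obtain ⟨htr, hfd⟩ := bar_transcendental N
  obtain ⟨T, hT⟩ := exists_finset_ord_ne_zero (S24.jBC Qb N) htr
    ((⟨_, h1⟩ : S24.FF Qb N) / ⟨_, h2⟩)
  -- uniformisers at all places, with fields of definition
  have hunif : ∀ v' : Place Qb (S24.FF Qb N), ∃ (τ : S24.FF Qb N) (Sτ : Finset Qb),
      v'.ord τ = 1 ∧ ∀ (L : Type) [Field L] [Algebra ℚ L] (ι : L →+* Qb),
        (∀ a ∈ Sτ, ∃ b : L, ι b = a) →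
        ∃ t : S24.FF L N, S24.CoeffBC.bc ι (modularFunctionFieldFull N) t = τ := by
    intro v'
    obtain ⟨π, hπ⟩ := IsDiscreteValuationRing.exists_irreducible v'.toValuationSubring
    obtain ⟨Sτ, hSτ⟩ := exists_finset_descent (modularFunctionFieldFull N)
      ((π : S24.FF Qb N)).2
    refine ⟨(π : S24.FF Qb N), Sτ, v'.ord_coe_irreducible hπ, fun L _ _ ι hL => ?_⟩
    obtain ⟨y, hy, e⟩ := hSτ L ι hL
    exact ⟨⟨y, hy⟩, Subtype.ext e⟩
  choose τ Sτ hτ hSτ using hunif
  obtain ⟨S1, hS1⟩ := exists_finset_descent (modularFunctionFieldFull N) h1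
  obtain ⟨S2, hS2⟩ := exists_finset_descent (modularFunctionFieldFull N) h2
  refine ⟨S1 ∪ S2 ∪ T.biUnion Sτ, fun L _ _ ι hL => ?_⟩
  obtain ⟨y1, hy1, e1⟩ := hS1 L ι (fun a ha => hL a
    (Finset.mem_union_left _ (Finset.mem_union_left _ ha)))
  obtain ⟨y2, hy2, e2⟩ := hS2 L ι (fun a ha => hL a
    (Finset.mem_union_left _ (Finset.mem_union_right _ ha)))
  obtain ⟨Z1, hZ1, hZ1'⟩ := exists_integral_descent ι A Y1 y1 e1
  obtain ⟨Z2, hZ2, hZ2'⟩ := exists_integral_descent ι A Y2 y2 e2
  have g1 : coeffMap (A.comap ι).subtype Z1 ∈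
      laurentBaseChange L (modularFunctionFieldFull N) := hZ1 ▸ hy1
  have g2 : coeffMap (A.comap ι).subtype Z2 ∈
      laurentBaseChange L (modularFunctionFieldFull N) := hZ2 ▸ hy2
  have hφ1 : S24.CoeffBC.bc ι (modularFunctionFieldFull N) ⟨_, g1⟩ =
      (⟨_, h1⟩ : S24.FF Qb N) := by
    apply Subtype.ext
    rw [S24.CoeffBC.coe_bc]
    show coeffMap ι (coeffMap (A.comap ι).subtype Z1) = _
    rw [hZ1, e1]
  have hφ2 : S24.CoeffBC.bc ι (modularFunctionFieldFull N) ⟨_, g2⟩ =
      (⟨_, h2⟩ : S24.FF Qb N) := by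
    apply Subtype.ext
    rw [S24.CoeffBC.coe_bc]
    show coeffMap ι (coeffMap (A.comap ι).subtype Z2) = _
    rw [hZ2, e2]
  refine ⟨Z1, Z2, g1, g2, hZ1', hZ2', hφ1, hφ2, fun v => ?_⟩
  have hφ := S24.CoeffBC.bc_algebraMap ι (modularFunctionFieldFull N)
  have hLD := fun n f hf =>
    S24.CoeffBC.bc_linearIndependent ι (modularFunctionFieldFull N) n f hf
  obtain ⟨v', hv'⟩ := S24.BaseChange.exists_place_over ι
    (S24.CoeffBC.bc ι (modularFunctionFieldFull N)) hφ hLD (S24.jBC Qb N) htr v
  obtain ⟨e, he, hord⟩ := S24.BaseChange.exists_ord_eq_mul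
    (S24.CoeffBC.bc ι (modularFunctionFieldFull N)) v v' hv'
  have hmain : v'.ord ((⟨_, h1⟩ : S24.FF Qb N) / ⟨_, h2⟩) =
      e * v.ord ((⟨_, g1⟩ : S24.FF L N) / ⟨_, g2⟩) := by
    rw [← hord, map_div₀, hφ1, hφ2]
  by_cases h0 : v'.ord ((⟨_, h1⟩ : S24.FF Qb N) / ⟨_, h2⟩) = 0
  · have hz : v.ord ((⟨_, g1⟩ : S24.FF L N) / ⟨_, g2⟩) = 0 := by
      rw [h0] at hmain
      rcases mul_eq_zero.mp hmain.symm with h | h
      · omega
      · exact h
    rw [hz]
    exact dvd_zero _
  · have hvT : v' ∈ T := hT v' h0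
    obtain ⟨t, ht⟩ := hSτ v' L ι (fun a ha => hL a
      (Finset.mem_union_right _ (Finset.mem_biUnion.mpr ⟨v', hvT, ha⟩)))
    have h1e : e * v.ord t = 1 := by rw [← hτ v', ← ht]; exact (hord t).symm
    have he1 : e = 1 := Int.eq_one_of_mul_eq_one_right he.le h1e
    rw [he1, one_mul] at hmain
    rw [← hmain]
    exact hdiv v'

/-- **P7b, packaged.**  Descent of the whole Kummer witness `(Y1, Y2)` (output of P7a) to
every subfield `ι : L → ℚ̄` containing a suitable finite set `S`; `W = A.comap ι = A ∩ L`.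
Exports: the descended integral series `Z1, Z2 ∈ W((q))`, lying in `F_L = FF L N`; their
compatibility with `Y1, Y2`; equal non-zero reductions over the residue field of `W`;
(H1) in the three currencies "`s ∣ ord_v w'` for every place `v` of `F_L` over `L`",
"`w' g^s` is a unit of every principal valuation ring of `F_L` containing `L`";
(H2) `w'` is not an `s`-th power in `F_L`. -/
theorem exists_descent_full (N : ℕ) [NeZero N] (A : ValuationSubring Qb) (s : ℕ)
    (Y1 Y2 : LaurentSeries ↥A)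
    (h1 : coeffMap A.subtype Y1 ∈ modularFunctionFieldBar N)
    (h2 : coeffMap A.subtype Y2 ∈ modularFunctionFieldBar N)
    (hred : coeffMap (IsLocalRing.residue ↥A) Y1 = coeffMap (IsLocalRing.residue ↥A) Y2)
    (hne : coeffMap (IsLocalRing.residue ↥A) Y1 ≠ 0)
    (hdiv : ∀ v : Place Qb (modularFunctionFieldBar N),
      (s : ℤ) ∣ v.ord ((⟨_, h1⟩ : modularFunctionFieldBar N) / ⟨_, h2⟩))
    (hnp : ¬ ∃ a : modularFunctionFieldBar N,
      a ^ s = (⟨_, h1⟩ : modularFunctionFieldBar N) / ⟨_, h2⟩) :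
    ∃ S : Finset Qb, ∀ (L : Type) [Field L] [Algebra ℚ L] (ι : L →+* Qb),
      (∀ a ∈ S, ∃ b : L, ι b = a) →
      ∃ (Z1 Z2 : LaurentSeries ↥(A.comap ι))
        (g1 : coeffMap (A.comap ι).subtype Z1 ∈
          laurentBaseChange L (modularFunctionFieldFull N))
        (g2 : coeffMap (A.comap ι).subtype Z2 ∈
          laurentBaseChange L (modularFunctionFieldFull N)),
        coeffMap (inclComap ι A) Z1 = Y1 ∧
        coeffMap (inclComap ι A) Z2 = Y2 ∧
        S24.CoeffBC.bc ι (modularFunctionFieldFull N) ⟨_, g1⟩ =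
          (⟨_, h1⟩ : modularFunctionFieldBar N) ∧
        S24.CoeffBC.bc ι (modularFunctionFieldFull N) ⟨_, g2⟩ =
          (⟨_, h2⟩ : modularFunctionFieldBar N) ∧
        coeffMap (IsLocalRing.residue ↥(A.comap ι)) Z1 =
          coeffMap (IsLocalRing.residue ↥(A.comap ι)) Z2 ∧
        coeffMap (IsLocalRing.residue ↥(A.comap ι)) Z1 ≠ 0 ∧
        (⟨_, g1⟩ : S24.FF L N) ≠ 0 ∧ (⟨_, g2⟩ : S24.FF L N) ≠ 0 ∧
        (∀ v : Place L (S24.FF L N),
          (s : ℤ) ∣ v.ord ((⟨_, g1⟩ : S24.FF L N) / ⟨_, g2⟩)) ∧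
        (∀ O : ValuationSubring (S24.FF L N),
          (∀ a : L, algebraMap L (S24.FF L N) a ∈ O) → IsPrincipalIdealRing O →
          ∃ g : S24.FF L N, g ≠ 0 ∧
            (⟨_, g1⟩ : S24.FF L N) / ⟨_, g2⟩ * g ^ s ∈ O ∧
            ((⟨_, g1⟩ : S24.FF L N) / ⟨_, g2⟩ * g ^ s)⁻¹ ∈ O) ∧
        ¬ ∃ a : S24.FF L N, a ^ s = (⟨_, g1⟩ : S24.FF L N) / ⟨_, g2⟩ := by
  obtain ⟨S, hS⟩ := exists_descent N A s Y1 Y2 h1 h2 hdiv
  refine ⟨S, fun L _ _ ι hL => ?_⟩
  obtain ⟨Z1, Z2, g1, g2, hZ1, hZ2, hφ1, hφ2, hH1⟩ := hS L ι hL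
  have hr : coeffMap (IsLocalRing.residue ↥(A.comap ι)) Z1 =
      coeffMap (IsLocalRing.residue ↥(A.comap ι)) Z2 :=
    residue_eq_of_incl ι A (by rw [hZ1, hZ2]; exact hred)
  have hn : coeffMap (IsLocalRing.residue ↥(A.comap ι)) Z1 ≠ 0 :=
    residue_ne_zero_of_incl ι A (by rw [hZ1]; exact hne)
  have hg1 : (⟨_, g1⟩ : S24.FF L N) ≠ 0 := by
    intro h0
    have h00 : coeffMap (A.comap ι).subtype Z1 = 0 := congrArg Subtype.val h0
    have hZ0 : Z1 = 0 :=
      coeffMap_injective (A.comap ι).subtype Subtype.val_injective (by rw [h00, map_zero])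
    exact hn (by rw [hZ0, map_zero])
  have hg2 : (⟨_, g2⟩ : S24.FF L N) ≠ 0 := by
    intro h0
    have h00 : coeffMap (A.comap ι).subtype Z2 = 0 := congrArg Subtype.val h0
    have hZ0 : Z2 = 0 :=
      coeffMap_injective (A.comap ι).subtype Subtype.val_injective (by rw [h00, map_zero])
    exact hn (by rw [hr, hZ0, map_zero])
  refine ⟨Z1, Z2, g1, g2, hZ1, hZ2, hφ1, hφ2, hr, hn, hg1, hg2, hH1, ?_, ?_⟩
  · intro O hK hO
    exact exists_pow_mul_mem_of_isPrincipalIdealRing (div_ne_zero hg1 hg2) hH1 O hK hO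
  · rintro ⟨a, ha⟩
    apply hnp
    refine ⟨S24.CoeffBC.bc ι (modularFunctionFieldFull N) a, ?_⟩
    rw [← map_pow, ha, map_div₀, hφ1, hφ2]

end Fermat.Agent.S18.Descent
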