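import Mathlib
import Fermat.Agent.S18.Kummer
import Fermat.Agent.S18.UnramBridge

/-!
# S18 (plan v2, row D''): the Kummer layer `F2 = F(u)`, `u ^ s = w`, is unramified

Ideal / Dedekind currency (`Ideal.ramificationIdx q R`, `Algebra.IsUnramifiedAt R q`).

* `isUnramifiedAt_of_scaled`, `ramificationIdx_eq_one_of_scaled` : `A ⊆ B` Dedekind with fraction
  fields `K ⊆ L = K(u)`, `u ^ s = w`, `[L : K] = s`; if at the prime `p = P ∩ A` the element `w`
  is a unit times an `s`-th power (`w * n₂ = n₁ * g ^ s`, `n₁, n₂ ∉ p`) and `s ∉ p`, then `P` is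
  unramified over `A`.  (Different ideal: `s · v ^ (s - 1)` lies in it for `v = (n₂ / g) · u`.)
* `ramificationIdx_eq_under` : in a tower `A₀ → A → B` with `e(P | A) = 1` one has
  `e(P | A₀) = e(P ∩ A | A₀)`.
* `exists_prime_ramificationIdx_eq` : the packaged statement for integral closures `BF`, `BF2`
  of a Dedekind base `A` in `F ⊆ F2` (characteristic zero): every nonzero prime `P2` of `BF2`
  has the same ramification index over `A` as a nonzero prime `P` of `BF` with the same
  contraction to `A`.  So every ramification statement for `F` over `A` transfers to `F2`.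
-/

set_option autoImplicit false

open Polynomial

namespace Fermat.Agent.S18.KummerRam

open Fermat.Agent.S18.Kummer

attribute [local instance] FractionRing.liftAlgebra FractionRing.isScalarTower_liftAlgebra

section Scaled

variable {A K L B : Type*} [CommRing A] [IsDedekindDomain A] [Field K] [Algebra A K]
  [IsFractionRing A K] [Field L] [Algebra K L] [Algebra A L] [IsScalarTower A K L]
  [FiniteDimensional K L] [Algebra.IsSeparable K L]
  [CommRing B] [IsDedekindDomain B] [Algebra A B] [Algebra B L] [IsScalarTower A B L]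
  [IsIntegralClosure B A L]

/-- **Kummer layer, local form.**  If `w` is a unit times an `s`-th power at `P ∩ A` and
`s ∉ P ∩ A`, then `P` is unramified over `A`. -/
theorem isUnramifiedAt_of_scaled
    (s : ℕ) (hs : 0 < s) (u : L) (w : K) (huw : u ^ s = algebraMap K L w)
    (hirr : Irreducible (X ^ s - C w : K[X])) (hdeg : Module.finrank K L = s)
    (P : Ideal B) [P.IsPrime]
    (hsP : (s : A) ∉ P.under A)
    (n₁ n₂ : A) (hn₁ : n₁ ∉ P.under A) (hn₂ : n₂ ∉ P.under A) (g : K) (hg : g ≠ 0)
    (hw : w * algebraMap A K n₂ = algebraMap A K n₁ * g ^ s) :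
    Algebra.IsUnramifiedAt A P := by
  classical
  have hs0 : s ≠ 0 := by omega
  have hinjAL : Function.Injective (algebraMap A L) := by
    rw [IsScalarTower.algebraMap_eq A K L]
    exact (algebraMap K L).injective.comp (IsFractionRing.injective A K)
  have hinjAB : Function.Injective (algebraMap A B) := by
    rw [IsScalarTower.algebraMap_eq A B L] at hinjAL
    exact Function.Injective.of_comp hinjAL
  have hinjBL : Function.Injective (algebraMap B L) :=
    IsIntegralClosure.algebraMap_injective B A L
  have : FaithfulSMul A B := (faithfulSMul_iff_algebraMap_injective A B).mpr hinjAB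
  have : Module.IsTorsionFree A B := inferInstance
  have : Module.Finite A B := IsIntegralClosure.finite A K L B
  have : IsFractionRing B L := IsIntegralClosure.isFractionRing_of_finite_extension A K L B
  have : Algebra.IsSeparable (FractionRing A) (FractionRing B) :=
    UnramBridge.isSeparable_fractionRing A K L B
  rw [← not_dvd_differentIdeal_iff]
  intro hdvd
  have hle : differentIdeal A B ≤ P := Ideal.le_of_dvd hdvd
  -- the scaled generator
  have hn₂0 : n₂ ≠ 0 := fun h0 => hn₂ (h0 ▸ (P.under A).zero_mem)
  have hc₂ : algebraMap A K n₂ ≠ 0 := by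
    rw [Ne, IsFractionRing.to_map_eq_zero_iff]; exact hn₂0
  set ρ : K := algebraMap A K n₂ / g with hρdef
  have hρ0 : ρ ≠ 0 := div_ne_zero hc₂ hg
  set v : L := algebraMap K L ρ * u with hvdef
  set m : A := n₁ * n₂ ^ (s - 1) with hm
  have hAL : ∀ a : A, algebraMap A L a = algebraMap K L (algebraMap A K a) :=
    fun a => IsScalarTower.algebraMap_apply A K L a
  have hρw : ρ ^ s * w = algebraMap A K m := by
    have hs1 : s = (s - 1) + 1 := by omega
    have h1 : ρ ^ s * w = (algebraMap A K n₂) ^ (s - 1) * (w * algebraMap A K n₂) / g ^ s := by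
      rw [hρdef, div_pow]
      conv_lhs => rw [hs1, pow_succ]
      rw [← hs1]
      ring
    rw [h1, hw, hm, map_mul, map_pow]
    field_simp
  have hvs : v ^ s = algebraMap A L m := by
    rw [hvdef, mul_pow, huw, ← map_pow, ← map_mul, hρw, hAL]
  have hvint : IsIntegral A v := IsIntegral.of_pow hs (hvs ▸ isIntegral_algebraMap)
  obtain ⟨vB, hvB⟩ : ∃ vB : B, algebraMap B L vB = v :=
    ⟨IsIntegralClosure.mk' B v hvint, IsIntegralClosure.algebraMap_mk' _ _ _⟩
  -- `v` generates `L` over `K`
  have hb := powBasis_apply s u w hs0 huw hirr hdeg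
  set b := powBasis s u w hs0 huw hirr hdeg
  have hadjv : Algebra.adjoin K {v} = ⊤ := by
    have hu_mem : u ∈ Algebra.adjoin K {v} := by
      have hu : u = ρ⁻¹ • v := by
        rw [hvdef, Algebra.smul_def, ← mul_assoc, ← map_mul, inv_mul_cancel₀ hρ0, map_one,
          one_mul]
      rw [hu]
      exact Subalgebra.smul_mem _ (Algebra.self_mem_adjoin_singleton K v) _
    rw [eq_top_iff]
    intro x _
    rw [← b.sum_repr x]
    refine Subalgebra.sum_mem _ fun i _ => Subalgebra.smul_mem _ ?_ _
    rw [hb i]
    exact Subalgebra.pow_mem _ hu_mem _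
  have hadj : Algebra.adjoin K {algebraMap B L vB} = ⊤ := by rw [hvB]; exact hadjv
  -- the minimal polynomial of `v`
  have hvintK : IsIntegral K v := Algebra.IsIntegral.isIntegral v
  have hdegv : (minpoly K v).natDegree = s := by
    have h1 := (PowerBasis.ofAdjoinEqTop' hvintK hadjv).finrank
    rw [PowerBasis.ofAdjoinEqTop'_dim, hdeg] at h1
    exact h1.symm
  have hminK : minpoly K v = X ^ s - C (algebraMap A K m) := by
    have hmonic : (X ^ s - C (algebraMap A K m) : K[X]).Monic := monic_X_pow_sub_C _ hs0
    have hroot : aeval v (X ^ s - C (algebraMap A K m) : K[X]) = 0 := by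
      rw [map_sub, map_pow, aeval_X, aeval_C, hvs, hAL, sub_self]
    have hdvd' : minpoly K v ∣ X ^ s - C (algebraMap A K m) := minpoly.dvd K v hroot
    refine (Polynomial.eq_of_monic_of_dvd_of_natDegree_le (minpoly.monic hvintK) hmonic hdvd'
      ?_).symm
    rw [natDegree_X_pow_sub_C, hdegv]
  have hmin : minpoly A vB = X ^ s - C m := by
    have h1 : minpoly K v = (minpoly A v).map (algebraMap A K) :=
      minpoly.isIntegrallyClosed_eq_field_fractions' K hvint
    have h2 : minpoly A v = minpoly A vB := by
      rw [← hvB]; exact minpoly.algebraMap_eq hinjBL vB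
    apply Polynomial.map_injective _ (IsFractionRing.injective A K)
    rw [← h2, ← h1, hminK, Polynomial.map_sub, Polynomial.map_pow, Polynomial.map_X,
      Polynomial.map_C]
  have hmem := aeval_derivative_mem_differentIdeal A K L vB hadj
  rw [hmin] at hmem
  have hder : aeval vB (derivative (X ^ s - C m : A[X])) =
      algebraMap A B (s : A) * vB ^ (s - 1) := by
    rw [derivative_sub, derivative_C, sub_zero, derivative_X_pow, map_mul, map_pow, aeval_X,
      aeval_C]
  rw [hder] at hmem
  have hvBs : vB ^ s = algebraMap A B m := by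
    apply hinjBL
    rw [map_pow, hvB, hvs, IsScalarTower.algebraMap_apply A B L]
  rcases Ideal.IsPrime.mem_or_mem inferInstance (hle hmem) with h | h
  · exact hsP h
  · have hvP : vB ∈ P := Ideal.IsPrime.mem_of_pow_mem inferInstance _ h
    have hmP : m ∈ P.under A := by
      rw [Ideal.under_def, Ideal.mem_comap, ← hvBs]
      exact Ideal.pow_mem_of_mem _ hvP _ hs
    have hprime : (P.under A).IsPrime := inferInstance
    rcases hprime.mem_or_mem hmP with h1 | h2
    · exact hn₁ h1
    · exact hn₂ (hprime.mem_of_pow_mem _ h2)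

/-- The same conclusion as a ramification index. -/
theorem ramificationIdx_eq_one_of_scaled
    (s : ℕ) (hs : 0 < s) (u : L) (w : K) (huw : u ^ s = algebraMap K L w)
    (hirr : Irreducible (X ^ s - C w : K[X])) (hdeg : Module.finrank K L = s)
    (P : Ideal B) [P.IsPrime]
    (hsP : (s : A) ∉ P.under A)
    (n₁ n₂ : A) (hn₁ : n₁ ∉ P.under A) (hn₂ : n₂ ∉ P.under A) (g : K) (hg : g ≠ 0)
    (hw : w * algebraMap A K n₂ = algebraMap A K n₁ * g ^ s) :
    P.ramificationIdx A = 1 := by
  have : Module.Finite A B := IsIntegralClosure.finite A K L B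
  have := isUnramifiedAt_of_scaled s hs u w huw hirr hdeg P hsP n₁ n₂ hn₁ hn₂ g hg hw
  exact Ideal.ramificationIdx_eq_one P A

end Scaled

section Transfer

/-- In a tower `A₀ → A → B` with `B` flat over `A` and `e(P | A) = 1`, the ramification index of
`P` over `A₀` is that of `P ∩ A`. -/
theorem ramificationIdx_eq_under {A₀ A B : Type*} [CommRing A₀] [CommRing A] [CommRing B]
    [Algebra A₀ A] [Algebra A₀ B] [Algebra A B] [IsScalarTower A₀ A B] [Module.Flat A B]
    (P : Ideal B) (h : P.ramificationIdx A = 1) :
    P.ramificationIdx A₀ = (P.under A).ramificationIdx A₀ := by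
  have : P.LiesOver (P.under A) := ⟨rfl⟩
  rw [Ideal.ramificationIdx_tower (P.under A) P, h, mul_one]

end Transfer

section Packaged

/-- **Row D'' (abstract form).**  `A` a Dedekind base of characteristic zero with fraction field
`K`, `K ⊆ F ⊆ F2` finite, `F2 = F(u)`, `u ^ s = w`, `[F2 : F] = s`; `BF`, `BF2` the integral
closures of `A` in `F`, `F2`.  If at every nonzero prime `p` of `BF` the element `w` is a unit
times an `s`-th power, then every nonzero prime `P2` of `BF2` has the same ramification index
over `A` as some nonzero prime `P` of `BF` with the same contraction to `A`. -/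
theorem exists_prime_ramificationIdx_eq
    {A K F F2 BF BF2 : Type*}
    [CommRing A] [IsDedekindDomain A] [Algebra ℚ A]
    [Field K] [Algebra A K] [IsFractionRing A K]
    [Field F] [Algebra K F] [Algebra A F] [IsScalarTower A K F] [FiniteDimensional K F]
    [Field F2] [Algebra K F2] [Algebra A F2] [IsScalarTower A K F2] [FiniteDimensional K F2]
    [Algebra F F2] [IsScalarTower K F F2]
    [CommRing BF] [Algebra A BF] [Algebra BF F] [IsScalarTower A BF F] [IsIntegralClosure BF A F]
    [CommRing BF2] [Algebra A BF2] [Algebra BF2 F2] [IsScalarTower A BF2 F2]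
    [IsIntegralClosure BF2 A F2]
    (s : ℕ) (hs : 0 < s) (u : F2) (w : F) (huw : u ^ s = algebraMap F F2 w)
    (hirr : Irreducible (X ^ s - C w : F[X])) (hdeg : Module.finrank F F2 = s)
    (hloc : ∀ p : Ideal BF, p.IsPrime → p ≠ ⊥ → ∃ (n₁ n₂ : BF) (g : F), n₁ ∉ p ∧ n₂ ∉ p ∧
      g ≠ 0 ∧ w * algebraMap BF F n₂ = algebraMap BF F n₁ * g ^ s)
    (P2 : Ideal BF2) [P2.IsPrime] (hP2 : P2 ≠ ⊥) :
    ∃ P : Ideal BF, P.IsPrime ∧ P ≠ ⊥ ∧ P.under A = P2.under A ∧
      P2.ramificationIdx A = P.ramificationIdx A := by
  classical
  -- characteristic zero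
  have : CharZero A := algebraRat.charZero A
  have : CharZero K := charZero_of_injective_algebraMap (IsFractionRing.injective A K)
  have : CharZero F := charZero_of_injective_algebraMap (algebraMap K F).injective
  have : FiniteDimensional F F2 := FiniteDimensional.right K F F2
  have : Algebra.IsSeparable K F := inferInstance
  have : Algebra.IsSeparable K F2 := inferInstance
  have : Algebra.IsSeparable F F2 := inferInstance
  -- the two integral closures are Dedekind
  have : IsDomain BF := (IsIntegralClosure.algebraMap_injective BF A F).isDomain _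
  have : IsDomain BF2 := (IsIntegralClosure.algebraMap_injective BF2 A F2).isDomain _
  have : IsDedekindDomain BF := IsIntegralClosure.isDedekindDomain A K F BF
  have : IsDedekindDomain BF2 := IsIntegralClosure.isDedekindDomain A K F2 BF2
  have : IsFractionRing BF F := IsIntegralClosure.isFractionRing_of_finite_extension A K F BF
  have : Algebra.IsIntegral A BF := IsIntegralClosure.isIntegral_algebra A F
  -- the tower `A → BF → BF2`
  have hAF2 : ∀ a : A, algebraMap A F2 a = algebraMap F F2 (algebraMap A F a) := by
    intro a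
    rw [IsScalarTower.algebraMap_apply A K F2, IsScalarTower.algebraMap_apply K F F2,
      ← IsScalarTower.algebraMap_apply A K F]
  let _ : Algebra BF F2 := ((algebraMap F F2).comp (algebraMap BF F)).toAlgebra
  have : IsScalarTower BF F F2 := IsScalarTower.of_algebraMap_eq fun _ => rfl
  have : IsScalarTower A BF F2 := IsScalarTower.of_algebraMap_eq fun a => by
    rw [hAF2, IsScalarTower.algebraMap_apply A BF F]; rfl
  let φ : BF →ₐ[A] BF2 := IsIntegralClosure.lift A BF2 F2
  let _ : Algebra BF BF2 := φ.toRingHom.toAlgebra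
  have : IsScalarTower A BF BF2 := IsScalarTower.of_algebraMap_eq fun a => (φ.commutes a).symm
  have : IsScalarTower BF BF2 F2 := IsScalarTower.of_algebraMap_eq fun x =>
    (IsIntegralClosure.algebraMap_lift A BF2 F2 x).symm
  have : IsIntegralClosure BF2 BF F2 := IsIntegralClosure.tower_top (R := A)
  have : Algebra.IsIntegral BF BF2 := IsIntegralClosure.isIntegral_algebra BF F2
  have : Module.Finite BF BF2 := IsIntegralClosure.finite BF F F2 BF2
  have hinj : Function.Injective (algebraMap BF BF2) := by
    have h1 : Function.Injective (algebraMap BF F2) :=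
      (algebraMap F F2).injective.comp (IsFractionRing.injective BF F)
    rw [IsScalarTower.algebraMap_eq BF BF2 F2] at h1
    exact Function.Injective.of_comp h1
  have : FaithfulSMul BF BF2 := (faithfulSMul_iff_algebraMap_injective BF BF2).mpr hinj
  have : Module.IsTorsionFree BF BF2 := inferInstance
  -- the prime below
  have hP : (P2.under BF) ≠ ⊥ := fun h => hP2 (Ideal.eq_bot_of_comap_eq_bot h)
  have hPprime : (P2.under BF).IsPrime := inferInstance
  obtain ⟨n₁, n₂, g, hn₁, hn₂, hg, hw⟩ := hloc _ hPprime hP
  have hsP : ((s : ℕ) : BF) ∉ P2.under BF := by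
    intro hmem
    have hunit : IsUnit ((s : ℕ) : BF) := by
      have h1 : IsUnit ((s : ℚ)) := (Nat.cast_ne_zero.mpr (by omega)).isUnit
      have h2 := (h1.map (algebraMap ℚ A)).map (algebraMap A BF)
      rwa [map_natCast, map_natCast] at h2
    exact hPprime.ne_top (Ideal.eq_top_of_isUnit_mem _ hmem hunit)
  have he : P2.ramificationIdx BF = 1 :=
    ramificationIdx_eq_one_of_scaled s hs u w huw hirr hdeg P2 hsP n₁ n₂ hn₁ hn₂ g hg hw
  refine ⟨P2.under BF, hPprime, hP, ?_, ramificationIdx_eq_under P2 he⟩
  exact Ideal.under_under P2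

end Packaged

end Fermat.Agent.S18.KummerRam
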