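import Mathlib
import Fermat.Agent.S18.Descent
import Fermat.Agent.S18.KummerRam

/-!
# S18 (plan v2, row D''): the Kummer layer is unramified, from the divisor hypothesis (H1)

`(H1)`: `∀ v : Place L₀ F, (s : ℤ) ∣ v.ord w` (the output of `Descent.exists_descent_full`).

* `exists_scaled_of_places` : for a Dedekind ring `BF` with fraction field `F` containing the
  constants, `(H1)` gives at every nonzero prime `p` of `BF` a presentation
  `w * n₂ = n₁ * g ^ s` with `n₁, n₂ ∉ p` (the hypothesis `hloc` of
  `KummerRam.exists_prime_ramificationIdx_eq`).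
* `exists_prime_ramificationIdx_eq_of_places` : the packaged row D'' with hypothesis `(H1)`.
-/

set_option autoImplicit false

open Polynomial AlgebraicCurve

namespace Fermat.Agent.S18.KummerRamPlace

section Dict

variable {L₀ F BF : Type*} [Field L₀] [Field F] [Algebra L₀ F]
  [CommRing BF] [IsDedekindDomain BF] [Algebra BF F] [IsFractionRing BF F]

/-- `(H1)` at a nonzero prime of a Dedekind chart: `w` is a unit times an `s`-th power. -/
theorem exists_scaled_of_places
    (hL : ∀ a : L₀, ∃ r : BF, algebraMap BF F r = algebraMap L₀ F a)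
    {w : F} (hw : w ≠ 0) {s : ℕ} (hdiv : ∀ v : Place L₀ F, (s : ℤ) ∣ v.ord w)
    (p : Ideal BF) (hp : p.IsPrime) (hp0 : p ≠ ⊥) :
    ∃ (n₁ n₂ : BF) (g : F), n₁ ∉ p ∧ n₂ ∉ p ∧ g ≠ 0 ∧
      w * algebraMap BF F n₂ = algebraMap BF F n₁ * g ^ s := by
  classical
  let Rp := Localization.AtPrime p
  have hle : p.primeCompl ≤ nonZeroDivisors BF := by
    intro x hx
    rw [mem_nonZeroDivisors_iff_ne_zero]
    rintro rfl
    exact hx p.zero_mem
  let ψ : Rp →+* F := IsLocalization.lift (M := p.primeCompl) (g := algebraMap BF F)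
    (fun y => by
      have hy0 : (y : BF) ≠ 0 := fun h0 => y.2 (h0 ▸ p.zero_mem)
      exact (IsUnit.mk0 _ ((IsFractionRing.to_map_eq_zero_iff (K := F)).not.mpr hy0)))
  let _ : Algebra Rp F := ψ.toAlgebra
  have : IsScalarTower BF Rp F := IsScalarTower.of_algebraMap_eq fun x =>
    (IsLocalization.lift_eq _ x).symm
  have : IsFractionRing Rp F :=
    IsFractionRing.isFractionRing_of_isDomain_of_isLocalization p.primeCompl Rp F
  have : IsDiscreteValuationRing Rp :=
    IsLocalization.AtPrime.isDiscreteValuationRing_of_dedekind_domain BF hp0 Rp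
  have hK : ∀ a : L₀, ∃ r : Rp, algebraMap Rp F r = algebraMap L₀ F a := by
    intro a
    obtain ⟨r, hr⟩ := hL a
    exact ⟨algebraMap BF Rp r, by rw [← IsScalarTower.algebraMap_apply, hr]⟩
  obtain ⟨g, uR, hg, hwg⟩ := Descent.exists_pow_mul_unit_of_dvr Rp hK hw hdiv
  obtain ⟨⟨n₁, n₂⟩, hn⟩ := IsLocalization.surj p.primeCompl (uR : Rp)
  have hn' : (uR : Rp) * algebraMap BF Rp (n₂ : BF) = algebraMap BF Rp n₁ := hn
  have hn₁ : n₁ ∉ p := by
    have hunit : IsUnit (algebraMap BF Rp n₁) := by
      rw [← hn']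
      exact uR.isUnit.mul (IsLocalization.map_units Rp n₂)
    intro hmem
    exact (IsLocalization.AtPrime.isUnit_to_map_iff Rp p n₁).mp hunit hmem
  refine ⟨n₁, n₂, g⁻¹, hn₁, n₂.2, inv_ne_zero hg, ?_⟩
  have h1 : algebraMap Rp F (uR : Rp) * algebraMap BF F (n₂ : BF) = algebraMap BF F n₁ := by
    rw [IsScalarTower.algebraMap_apply BF Rp F, IsScalarTower.algebraMap_apply BF Rp F,
      ← map_mul, hn']
  rw [← h1, ← hwg, inv_pow]
  field_simp

end Dict

section Packaged

/-- **Row D''** with the divisor hypothesis `(H1)`: every nonzero prime `P2` of the integral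
closure `BF2` of `A` in `F2 = F(u)`, `u ^ s = w`, has the same ramification index over `A` as a
nonzero prime `P` of the integral closure `BF` of `A` in `F` with the same contraction to `A`. -/
theorem exists_prime_ramificationIdx_eq_of_places
    {L₀ A K F F2 BF BF2 : Type*} [Field L₀]
    [CommRing A] [IsDedekindDomain A] [Algebra ℚ A]
    [Field K] [Algebra A K] [IsFractionRing A K]
    [Field F] [Algebra K F] [Algebra A F] [IsScalarTower A K F] [FiniteDimensional K F]
    [Field F2] [Algebra K F2] [Algebra A F2] [IsScalarTower A K F2] [FiniteDimensional K F2]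
    [Algebra F F2] [IsScalarTower K F F2]
    [CommRing BF] [Algebra A BF] [Algebra BF F] [IsScalarTower A BF F] [IsIntegralClosure BF A F]
    [CommRing BF2] [Algebra A BF2] [Algebra BF2 F2] [IsScalarTower A BF2 F2]
    [IsIntegralClosure BF2 A F2]
    [Algebra L₀ F] (hL : ∀ a : L₀, ∃ r : A, algebraMap A F r = algebraMap L₀ F a)
    (s : ℕ) (hs : 0 < s) (u : F2) (w : F) (huw : u ^ s = algebraMap F F2 w)
    (hirr : Irreducible (X ^ s - C w : F[X])) (hdeg : Module.finrank F F2 = s)
    (hw0 : w ≠ 0) (hdiv : ∀ v : Place L₀ F, (s : ℤ) ∣ v.ord w)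
    (P2 : Ideal BF2) [P2.IsPrime] (hP2 : P2 ≠ ⊥) :
    ∃ P : Ideal BF, P.IsPrime ∧ P ≠ ⊥ ∧ P.under A = P2.under A ∧
      P2.ramificationIdx A = P.ramificationIdx A := by
  have : CharZero A := algebraRat.charZero A
  have : CharZero K := charZero_of_injective_algebraMap (IsFractionRing.injective A K)
  have : Algebra.IsSeparable K F := inferInstance
  have : IsDomain BF := (IsIntegralClosure.algebraMap_injective BF A F).isDomain _
  have : IsDedekindDomain BF := IsIntegralClosure.isDedekindDomain A K F BF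
  have : IsFractionRing BF F := IsIntegralClosure.isFractionRing_of_finite_extension A K F BF
  have hL' : ∀ a : L₀, ∃ r : BF, algebraMap BF F r = algebraMap L₀ F a := by
    intro a
    obtain ⟨r, hr⟩ := hL a
    exact ⟨algebraMap A BF r, by rw [← IsScalarTower.algebraMap_apply, hr]⟩
  exact KummerRam.exists_prime_ramificationIdx_eq (A := A) (K := K) s hs u w huw hirr hdeg
    (fun p hp hp0 => exists_scaled_of_places hL' hw0 hdiv p hp hp0) P2 hP2

end Packaged

end Fermat.Agent.S18.KummerRamPlace
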