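import Mathlib
import Fermat.Agent.S24.ComplexPlaces
import Fermat.Agent.S24.CoeffBC
import Fermat.Agent.S24.BaseChange
import Fermat.Agent.S24.PrimeBridge
import Fermat.Agent.S20.DictInf

/-!
# S18, package P6a: cusp widths divide `N` (places over `j = ∞`)

For every place `v` of the function field `L(j(q^d) : d ∣ N)` (`L = ℂ`, `ℚ̄`, or any subfield of
`ℚ̄`) with `ord_v(j) < 0`, the pole order `-ord_v(j)` divides `N`.  Source: `S20.DictInf.main`
(`c x * ramificationIdx = N` for the primes of the integral closure at infinity), transported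
through the `q`-expansion isomorphism and two extensions of the constant field.
-/

set_option autoImplicit false

namespace Fermat.Agent.S18.RamInf

open AlgebraicCurve IntermediateField ModularCurve Polynomial IsDedekindDomain CongruenceSubgroup
open scoped MatrixGroups RatFunc

/-- Cusp widths divide `N`, on the weakly holomorphic model `S20.FF N`. -/
theorem ramInf_S20 (N : ℕ) [NeZero N] (v : Place ℂ (S20.FF N))
    (h : v.ord (algebraMap ℂ[X] (S20.FF N) X) < 0) :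
    (-(v.ord (algebraMap ℂ[X] (S20.FF N) X))) ∣ (N : ℤ) := by
  have hfaith := S20.DictInf.faithfulSMul_Binf N
  have hX : algebraMap ℂ[X] (S20.FF N) X ∉ v.toValuationSubring := by
    intro hmem
    have := (S24.Places.ord_nonneg_iff_mem v (S24.PrimeBridge.X_ne_zero ℂ (S20.FF N))).2 hmem
    omega
  have hB := S24.PrimeBridge.algebraMap_mem_of_X_notMem ℂ (S20.FF N) (S20.Binf N) v hX
  set 𝔫 := S24.PrimeBridge.toPrime v hB with h𝔫
  have hxinv := S24.PrimeBridge.xinv_eq ℂ (S20.FF N) (S20.Binf N)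
  have hord := S24.PrimeBridge.ord_eq_toPrime v hB ((algebraMap ℂ[X] (S20.FF N) X)⁻¹)
  rw [Place.ord_inv, ← hxinv] at hord
  have hmem : algebraMap (S20.Ainf ℂ) (S20.Binf N) S20.Ainf.Xinv ∈ 𝔫.asIdeal :=
    S24.PrimeBridge.xinv_mem ℂ (S20.Binf N)
      (IsIntegralClosure.isIntegral_algebra (S20.Ainf ℂ) (S20.FF N)) 𝔫
  have hmax : (Ideal.span {(S20.Ainf.Xinv : S20.Ainf ℂ)}).IsMaximal := by
    rw [← S20.Ainf.maximalIdeal_eq]
    exact IsLocalRing.maximalIdeal.isMaximal _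
  have hlies : 𝔫.asIdeal.LiesOver (Ideal.span {(S20.Ainf.Xinv : S20.Ainf ℂ)}) := by
    refine ⟨?_⟩
    refine hmax.eq_of_le ?_ ?_
    · exact (Ideal.IsPrime.under (S20.Ainf ℂ) 𝔫.asIdeal).ne_top
    · rw [Ideal.span_le, Set.singleton_subset_iff]
      exact hmem
  have hval := S20.Places.valuation_pi_eq (L := S20.FF N) (S20.Ainf.Xinv : S20.Ainf ℂ)
    S20.Ainf.Xinv_ne_zero 𝔫
  rw [hval, WithZero.log_exp, neg_neg] at hord
  obtain ⟨𝔮, c, -, hc, -, hall, -⟩ := S20.DictInf.main N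
  obtain ⟨x, hx⟩ := hall 𝔫 hmem
  obtain ⟨-, hcx, -⟩ := hc x
  rw [hx] at hcx
  rw [hord]
  refine ⟨c x, ?_⟩
  have hcx' : ((c x * 𝔫.asIdeal.ramificationIdx (S20.Ainf ℂ) : ℕ) : ℤ) = (N : ℤ) :=
    congrArg (Nat.cast : ℕ → ℤ) hcx
  rw [← hcx']
  push_cast
  ring

/-- Cusp widths divide `N`: places of `ℂ(j(q^d) : d ∣ N)` over `j = ∞`. -/
theorem ramInf_complex (N : ℕ) [NeZero N] (v : Place ℂ (S24.FF ℂ N))
    (h : v.ord (S24.jBC ℂ N) < 0) : (-(v.ord (S24.jBC ℂ N))) ∣ (N : ℤ) := by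
  obtain ⟨e, -, he'⟩ := S24.exists_qIso_of_genRel N (S20.FF N) (S24.exists_rel_jN N)
  have he : e (algebraMap ℂ[X] (S20.FF N) X) = S24.jBC ℂ N := by
    rw [← he', IsScalarTower.algebraMap_apply ℂ[X] (S20.WH (Gamma0 N)) (S20.FF N),
      S20.algebraMap_poly_WH, Polynomial.aeval_X]
  set v₀ := (S24.placeEquiv e).symm v with hv₀
  have hv : S24.placeEquiv e v₀ = v := Equiv.apply_symm_apply _ _
  have hord := S24.placeEquiv_ord e v₀ (algebraMap ℂ[X] (S20.FF N) X)
  rw [hv, he] at hord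
  rw [hord] at h ⊢
  exact ramInf_S20 N v₀ h

/-- Descent of a divisibility statement on pole orders along an extension of the constant
field. -/
theorem dvd_of_place_over {K K' F F' : Type*} [Field K] [Field K'] [IsAlgClosed K'] [CharZero K']
    [Field F] [Field F'] [Algebra K F] [Algebra K' F']
    (ι : K →+* K') (φ : F →+* F')
    (hφ : ∀ a : K, φ (algebraMap K F a) = algebraMap K' F' (ι a))
    (hLD : ∀ (n : ℕ) (f : Fin n → F), LinearIndependent K f → LinearIndependent K' (φ ∘ f))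
    (x' : F') (hx' : Transcendental K' x') [FiniteDimensional K'⟮x'⟯ F']
    (y : F) (n : ℤ) (hn : ∀ v' : Place K' F', v'.ord (φ y) < 0 → (-(v'.ord (φ y))) ∣ n)
    (v : Place K F) (h : v.ord y < 0) : (-(v.ord y)) ∣ n := by
  obtain ⟨v', hv'⟩ := S24.BaseChange.exists_place_over ι φ hφ hLD x' hx' v
  obtain ⟨e, he, hord⟩ := S24.BaseChange.exists_ord_eq_mul φ v v' hv'
  have h1 : v'.ord (φ y) = e * v.ord y := hord y
  have h2 : v'.ord (φ y) < 0 := by
    rw [h1]
    exact mul_neg_of_pos_of_neg he h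
  have h3 := hn v' h2
  rw [h1] at h3
  exact Dvd.dvd.trans ⟨e, by ring⟩ h3

local notation "Qb" => AlgebraicClosure ℚ

/-- `j` is transcendental and the function field is finite over `ℚ̄(j)`. -/
theorem bar_transcendental_finite (N : ℕ) [NeZero N] :
    Transcendental Qb (S24.jBC Qb N) ∧ FiniteDimensional Qb⟮S24.jBC Qb N⟯ (S24.FF Qb N) := by
  obtain ⟨ι, φ, hφ, hLD, hgen, hφj⟩ := S24.exists_barToComplex N
  obtain ⟨hxC, hfdC, -⟩ := S24.complex_places N
  have hxC' : Transcendental ℂ (φ (S24.jBC Qb N)) := by rw [hφj]; exact hxC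
  have hfdC' : FiniteDimensional ℂ⟮φ (S24.jBC Qb N)⟯ (S24.FF ℂ N) := by
    rw [hφj]; exact hfdC
  obtain ⟨hx, hfd, -⟩ := S24.baseChange_finrank ι φ hφ hLD hgen (S24.jBC Qb N) hxC'
  exact ⟨hx, hfd⟩

/-- Cusp widths divide `N`: places of `ℚ̄(j(q^d) : d ∣ N)` over `j = ∞`. -/
theorem ramInf_bar (N : ℕ) [NeZero N] (v : Place Qb (S24.FF Qb N))
    (h : v.ord (S24.jBC Qb N) < 0) : (-(v.ord (S24.jBC Qb N))) ∣ (N : ℤ) := by
  obtain ⟨ι, φ, hφ, hLD, hgen, hφj⟩ := S24.exists_barToComplex N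
  obtain ⟨hxC, hfdC, -⟩ := S24.complex_places N
  refine dvd_of_place_over ι φ hφ hLD (S24.jBC ℂ N) hxC (S24.jBC Qb N) N ?_ v h
  intro v' hv'
  rw [hφj] at hv' ⊢
  exact ramInf_complex N v' hv'

/-- Cusp widths divide `N` over any coefficient field `L ⊆ ℚ̄`. -/
theorem ramInf_of_hom (N : ℕ) [NeZero N] {L : Type*} [Field L] [Algebra ℚ L] (i : L →+* Qb)
    (v : Place L (S24.FF L N)) (h : v.ord (S24.jBC L N) < 0) :
    (-(v.ord (S24.jBC L N))) ∣ (N : ℤ) := by
  obtain ⟨hx, hfd⟩ := bar_transcendental_finite N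
  have hφj : S24.CoeffBC.bc i (modularFunctionFieldFull N) (S24.jBC L N) = S24.jBC Qb N := by
    apply Subtype.ext
    rw [S24.CoeffBC.coe_bc, S24.coe_jBC, S24.coe_jBC]
    exact S24.CoeffBC.coeffMap_coeffEmb' i jq
  refine dvd_of_place_over i (S24.CoeffBC.bc i (modularFunctionFieldFull N))
    (fun a => S24.CoeffBC.bc_algebraMap i _ a)
    (fun n f hf => S24.CoeffBC.bc_linearIndependent i _ n f hf)
    (S24.jBC Qb N) hx (S24.jBC L N) N ?_ v h
  intro v' hv'
  rw [hφj] at hv' ⊢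
  exact ramInf_bar N v' hv'

end Fermat.Agent.S18.RamInf
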