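import Mathlib
import Fermat.Agent.S20.FinitePlaces
import Fermat.Agent.S24.ComplexPlaces
import Fermat.Agent.S24.QIsoFinal
import Fermat.Agent.S24.BaseChange
import Fermat.Agent.S24.CoeffBC

/-!
# S18, package P4a: ramification of the function field of `X₀(N)` over the `j`-line

For a place `v` of the function field at which `j - a` vanishes, the vanishing order divides `3`
if `a = 0`, divides `2` if `a = 1728`, and is `1` otherwise.  This is proved over `ℂ` from the
analytic description of the finite places (`S20.finite_places`), transported to `ℚ̄` along the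
coefficient extension, and then to every coefficient field `L ⊆ ℚ̄` (for the irreducible
polynomial `P` of the centre on `L[j]`).
-/

set_option autoImplicit false

namespace Fermat.Agent.S18.RamJ

open AlgebraicCurve ModularCurve Polynomial IsDedekindDomain CongruenceSubgroup
open Fermat.Agent.S24
open scoped MatrixGroups

/-! ### general facts on `Place.ord` -/

section Ord

variable {K F : Type*} [Field K] [Field F] [Algebra K F]

/-- nonzero constants have order zero -/
theorem ord_const (v : Place K F) {c : K} (hc : c ≠ 0) : v.ord (algebraMap K F c) = 0 := by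
  have h0 : algebraMap K F c ≠ 0 := by simpa using hc
  have h1 : 0 ≤ v.ord (algebraMap K F c) :=
    (Places.ord_nonneg_iff_mem v h0).mpr (v.algebraMap_mem' c)
  have h2 : 0 ≤ v.ord (algebraMap K F c)⁻¹ := by
    rw [← map_inv₀]
    exact (Places.ord_nonneg_iff_mem v (by simpa using hc)).mpr (v.algebraMap_mem' c⁻¹)
  rw [v.ord_inv] at h2
  omega

/-- ultrametric equality -/
theorem ord_add_eq (v : Place K F) {f g : F} (hf : f ≠ 0) (hg : g ≠ 0)
    (h : v.ord f < v.ord g) : v.ord (f + g) = v.ord f := by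
  have hvf : v.adicValuation f ≠ 0 := v.adicValuation_ne_zero hf
  have hvg : v.adicValuation g ≠ 0 := v.adicValuation_ne_zero hg
  have hlt : v.adicValuation g < v.adicValuation f := by
    unfold Place.ord at h
    have h' : WithZero.log (v.adicValuation g) < WithZero.log (v.adicValuation f) := by omega
    exact (WithZero.log_lt_log hvg hvf).mp h'
  unfold Place.ord
  rw [add_comm, Valuation.map_add_eq_of_lt_right _ hlt]

/-- an element congruent to a nonzero constant modulo an element of positive order has order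
zero -/
theorem ord_const_add (v : Place K F) {c : K} (hc : c ≠ 0) {g : F} (hg : g = 0 ∨ 0 < v.ord g) :
    v.ord (algebraMap K F c + g) = 0 := by
  rcases hg with rfl | hg
  · rw [add_zero, ord_const v hc]
  · have hg0 : g ≠ 0 := by
      rintro rfl
      rw [v.ord_zero] at hg
      exact lt_irrefl _ hg
    rw [ord_add_eq v (by simpa using hc) hg0 (by rw [ord_const v hc]; exact hg), ord_const v hc]

/-- polynomials in an integral element are integral -/
theorem aeval_mem (v : Place K F) {T : F} (hT : T ∈ v.toValuationSubring) (p : K[X]) :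
    aeval T p ∈ v.toValuationSubring := by
  induction p using Polynomial.induction_on with
  | C a =>
    rw [aeval_C]
    exact v.algebraMap_mem' a
  | add p q hp hq => rw [map_add]; exact v.toValuationSubring.add_mem _ _ hp hq
  | monomial n a h =>
    rw [pow_succ, ← mul_assoc, map_mul, aeval_X]
    exact v.toValuationSubring.mul_mem _ _ h hT

/-- a product with an integral element keeps positive order -/
theorem zero_or_pos_mul (v : Place K F) {f g : F} (hf : 0 < v.ord f)
    (hg : g ∈ v.toValuationSubring) : f * g = 0 ∨ 0 < v.ord (f * g) := by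
  by_cases hg0 : g = 0
  · left; rw [hg0, mul_zero]
  · right
    have hf0 : f ≠ 0 := by
      rintro rfl
      rw [v.ord_zero] at hf
      exact lt_irrefl _ hf
    rw [v.ord_mul hf0 hg0]
    have := (Places.ord_nonneg_iff_mem v hg0).mpr hg
    omega

/-- Taylor expansion to first order: `p(T) = p(a) + (T - a) q(T)` -/
theorem exists_aeval_eq (T : F) (a : K) (p : K[X]) :
    ∃ q : K[X], aeval T p = algebraMap K F (p.eval a) + (T - algebraMap K F a) * aeval T q := by
  obtain ⟨q, hq⟩ := Polynomial.X_sub_C_dvd_sub_C_eval (a := a) (p := p)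
  refine ⟨q, ?_⟩
  have h := congrArg (aeval T) hq
  rw [map_sub, map_mul, map_sub, aeval_X, aeval_C, aeval_C] at h
  rw [← h]
  ring

/-- if `T - a` has positive order and `p(a) ≠ 0` then `p(T)` has order zero -/
theorem ord_aeval_eq_zero (v : Place K F) {T : F} {a : K}
    (hT : 0 < v.ord (T - algebraMap K F a)) (p : K[X]) (hp : p.eval a ≠ 0) :
    v.ord (aeval T p) = 0 := by
  obtain ⟨q, hq⟩ := exists_aeval_eq T a p
  have hT0 : T - algebraMap K F a ≠ 0 := by
    intro h0
    rw [h0, v.ord_zero] at hT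
    exact lt_irrefl _ hT
  have hTmem : T ∈ v.toValuationSubring := by
    have h1 : T - algebraMap K F a ∈ v.toValuationSubring :=
      (Places.ord_nonneg_iff_mem v hT0).mp hT.le
    have h2 : T = (T - algebraMap K F a) + algebraMap K F a := by ring
    rw [h2]
    exact v.toValuationSubring.add_mem _ _ h1 (v.algebraMap_mem' a)
  rw [hq]
  exact ord_const_add v hp (zero_or_pos_mul v hT (aeval_mem v hTmem q))

end Ord

/-! ### the complex function field, analytic model -/

section Analytic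

open Fermat.Agent.S20 Fermat.Agent.S20.FinitePlaces

/-- the order of `j - a` at a place of the analytic function field `Frac (WH Γ₀(N))` -/
theorem ramJ_analytic (N : ℕ) [NeZero N] (v : Place ℂ (S20.FF N)) (a : ℂ)
    (h : 0 < v.ord (algebraMap ℂ[X] (S20.FF N) (X - C a))) :
    (a = 0 → v.ord (algebraMap ℂ[X] (S20.FF N) (X - C a)) ∣ 3) ∧
    (a = 1728 → v.ord (algebraMap ℂ[X] (S20.FF N) (X - C a)) ∣ 2) ∧
    (a ≠ 0 → a ≠ 1728 → v.ord (algebraMap ℂ[X] (S20.FF N) (X - C a)) = 1) := by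
  have hX := PrimeBridge.X_mem_of_ord_pos ℂ (S20.FF N) v a h
  have hB : ∀ b : WH (Gamma0 N), algebraMap (WH (Gamma0 N)) (S20.FF N) b ∈ v.toValuationSubring :=
    PrimeBridge.algebraMap_mem_of_X_mem ℂ (S20.FF N) (WH (Gamma0 N)) v hX
  obtain ⟨z0, rfl⟩ := jFun_surjective a
  obtain ⟨b, hb⟩ : ∃ b : WH (Gamma0 N), b = algebraMap ℂ[X] (WH (Gamma0 N)) (X - C (jFun z0)) :=
    ⟨_, rfl⟩
  have hb0 : b ≠ 0 := hb ▸ algebraMap_X_sub_C_ne_zero (Gamma0 N) (jFun z0)
  have hbF : algebraMap ℂ[X] (S20.FF N) (X - C (jFun z0)) =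
      algebraMap (WH (Gamma0 N)) (S20.FF N) b := by
    rw [hb, ← IsScalarTower.algebraMap_apply]
  rw [hbF] at h ⊢
  have hmem : b ∈ (PrimeBridge.toPrime v hB).asIdeal :=
    (PrimeBridge.ord_pos_iff_mem_toPrime v hB b hb0).mp h
  have hmem' : algebraMap ℂ[X] (WH (Gamma0 N)) (X - C (jFun z0)) ∈
      (PrimeBridge.toPrime v hB).asIdeal := hb ▸ hmem
  obtain ⟨φ, hφ⟩ := S20.finite_places N (S20.FF N) z0
  obtain ⟨q, hq⟩ := φ.surjective ⟨PrimeBridge.toPrime v hB, hmem'⟩
  obtain ⟨x, rfl⟩ := Quotient.exists_rep q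
  have hv := (hφ x).2 (algebraMap (WH (Gamma0 N)) (S20.FF N) b)
  have hq' : (φ (Quotient.mk _ x)).1 = PrimeBridge.toPrime v hB := by rw [hq]
  have hZ : ordZ (pt z0 x) b = (eIdx z0 : ℤ) := by
    rw [hb]
    exact ordZ_algebraMap_X_sub_C (Gamma0 N) z0 x
  rw [hq', ordVal_apply _ _ _ b hb0, hZ] at hv
  have hord := PrimeBridge.ord_eq_toPrime v hB (algebraMap (WH (Gamma0 N)) (S20.FF N) b)
  have hbF0 : algebraMap (WH (Gamma0 N)) (S20.FF N) b ≠ 0 := by
    rw [Ne, map_eq_zero_iff _ (IsFractionRing.injective (WH (Gamma0 N)) (S20.FF N))]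
    exact hb0
  have hne : (PrimeBridge.toPrime v hB).valuation (S20.FF N)
      (algebraMap (WH (Gamma0 N)) (S20.FF N) b) ≠ 0 :=
    (Valuation.ne_zero_iff _).2 hbF0
  obtain ⟨m, hm⟩ : ∃ m : ℤ, m = v.ord (algebraMap (WH (Gamma0 N)) (S20.FF N) b) := ⟨_, rfl⟩
  rw [← hm] at h hord ⊢
  have hval : (PrimeBridge.toPrime v hB).valuation (S20.FF N)
      (algebraMap (WH (Gamma0 N)) (S20.FF N) b) = WithZero.exp (-m) := by
    rw [hord, neg_neg, WithZero.exp_log hne]
  rw [hval, ← WithZero.exp_nsmul, WithZero.exp_inj] at hv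
  have hkey : (eIdx z0 : ℤ) = (nIdx (Gamma0 N) z0 x : ℤ) * m := by
    rw [nsmul_eq_mul] at hv
    linarith
  have hdvd : m ∣ (eIdx z0 : ℤ) := ⟨(nIdx (Gamma0 N) z0 x : ℤ), by rw [hkey]; ring⟩
  rcases eIdx_cases z0 with ⟨h4, h6, he⟩ | ⟨h6, he⟩ | ⟨h4, he⟩
  · refine ⟨fun h0 => absurd ((E₄_eq_zero_iff z0).mpr h0) h4,
      fun h1 => absurd ((E₆_eq_zero_iff z0).mpr h1) h6, fun _ _ => ?_⟩
    rw [he] at hdvd
    have h1 : m ∣ 1 := by exact_mod_cast hdvd
    exact Int.eq_one_of_dvd_one h.le h1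
  · have hj : jFun z0 = 1728 := (E₆_eq_zero_iff z0).mp h6
    refine ⟨fun h0 => ?_, fun _ => ?_, fun _ h1 => absurd hj h1⟩
    · rw [hj] at h0
      norm_num at h0
    · rw [he] at hdvd
      exact_mod_cast hdvd
  · have hj : jFun z0 = 0 := (E₄_eq_zero_iff z0).mp h4
    refine ⟨fun _ => ?_, fun h1 => ?_, fun h0 _ => absurd hj h0⟩
    · rw [he] at hdvd
      exact_mod_cast hdvd
    · rw [hj] at h1
      norm_num at h1

end Analytic

/-! ### the complex function field, formal model -/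

/-- **P4a over `ℂ`**: the order of `j - a` at a place of `FF ℂ N` divides `3` if `a = 0`,
divides `2` if `a = 1728`, and is `1` otherwise. -/
theorem ramJ_complex (N : ℕ) [NeZero N] (v : Place ℂ (FF ℂ N)) (a : ℂ)
    (h : 0 < v.ord (jBC ℂ N - algebraMap ℂ (FF ℂ N) a)) :
    (a = 0 → v.ord (jBC ℂ N - algebraMap ℂ (FF ℂ N) a) ∣ 3) ∧
    (a = 1728 → v.ord (jBC ℂ N - algebraMap ℂ (FF ℂ N) a) ∣ 2) ∧
    (a ≠ 0 → a ≠ 1728 → v.ord (jBC ℂ N - algebraMap ℂ (FF ℂ N) a) = 1) := by
  obtain ⟨e, he, -⟩ := exists_algEquiv_FF' N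
  have hXa : e (algebraMap ℂ[X] (S20.FF N) (X - C a)) = jBC ℂ N - algebraMap ℂ (FF ℂ N) a := by
    have h1 : algebraMap ℂ[X] (S20.FF N) (X - C a) =
        algebraMap ℂ[X] (S20.FF N) X - algebraMap ℂ (S20.FF N) a := by
      rw [map_sub, ← Polynomial.algebraMap_eq, ← IsScalarTower.algebraMap_apply ℂ ℂ[X] (S20.FF N)]
    rw [h1, map_sub, he, AlgEquiv.commutes]
  have hv : ((placeEquiv e).symm v).ord (algebraMap ℂ[X] (S20.FF N) (X - C a)) =
      v.ord (jBC ℂ N - algebraMap ℂ (FF ℂ N) a) := by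
    rw [← hXa, ← placeEquiv_ord e ((placeEquiv e).symm v), Equiv.apply_symm_apply]
  rw [← hv] at h ⊢
  exact ramJ_analytic N _ a h

/-! ### descent to `ℚ̄` -/

/-- `j` is transcendental over `ℚ̄` and `FF ℚ̄ N` is finite over `ℚ̄(j)` -/
theorem bar_transcendental (N : ℕ) [NeZero N] :
    Transcendental (AlgebraicClosure ℚ) (jBC (AlgebraicClosure ℚ) N) ∧
      FiniteDimensional (IntermediateField.adjoin (AlgebraicClosure ℚ)
        {jBC (AlgebraicClosure ℚ) N}) (FF (AlgebraicClosure ℚ) N) := by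
  obtain ⟨ι, φ, hφ, hLD, hgen, hφj⟩ := exists_barToComplex N
  obtain ⟨hxC, hfdC, -⟩ := complex_places N
  have hxC' : Transcendental ℂ (φ (jBC (AlgebraicClosure ℚ) N)) := by rw [hφj]; exact hxC
  have hfdC' : FiniteDimensional (IntermediateField.adjoin ℂ {φ (jBC (AlgebraicClosure ℚ) N)})
      (FF ℂ N) := by
    rw [hφj]; exact hfdC
  obtain ⟨hx, hfd, -⟩ := baseChange_finrank ι φ hφ hLD hgen (jBC (AlgebraicClosure ℚ) N) hxC'
  exact ⟨hx, hfd⟩

/-- **P4a over `ℚ̄`**: the order of `j - a` at a place of `FF ℚ̄ N` divides `3` if `a = 0`,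
divides `2` if `a = 1728`, and is `1` otherwise. -/
theorem ramJ_bar (N : ℕ) [NeZero N] (v : Place (AlgebraicClosure ℚ) (FF (AlgebraicClosure ℚ) N))
    (a : AlgebraicClosure ℚ)
    (h : 0 < v.ord (jBC (AlgebraicClosure ℚ) N -
      algebraMap (AlgebraicClosure ℚ) (FF (AlgebraicClosure ℚ) N) a)) :
    (a = 0 → v.ord (jBC (AlgebraicClosure ℚ) N -
      algebraMap (AlgebraicClosure ℚ) (FF (AlgebraicClosure ℚ) N) a) ∣ 3) ∧
    (a = 1728 → v.ord (jBC (AlgebraicClosure ℚ) N -
      algebraMap (AlgebraicClosure ℚ) (FF (AlgebraicClosure ℚ) N) a) ∣ 2) ∧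
    (a ≠ 0 → a ≠ 1728 → v.ord (jBC (AlgebraicClosure ℚ) N -
      algebraMap (AlgebraicClosure ℚ) (FF (AlgebraicClosure ℚ) N) a) = 1) := by
  obtain ⟨ι, φ, hφ, hLD, hgen, hφj⟩ := exists_barToComplex N
  obtain ⟨hxC, hfdC, -⟩ := complex_places N
  obtain ⟨v', hv'⟩ := BaseChange.exists_place_over ι φ hφ hLD (jBC ℂ N) hxC v
  obtain ⟨e, he, hord⟩ := BaseChange.exists_ord_eq_mul φ v v' hv'
  have hmap : φ (jBC (AlgebraicClosure ℚ) N -
      algebraMap (AlgebraicClosure ℚ) (FF (AlgebraicClosure ℚ) N) a) =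
      jBC ℂ N - algebraMap ℂ (FF ℂ N) (ι a) := by
    rw [map_sub, hφj, hφ]
  obtain ⟨m, hm⟩ : ∃ m : ℤ, m = v.ord (jBC (AlgebraicClosure ℚ) N -
      algebraMap (AlgebraicClosure ℚ) (FF (AlgebraicClosure ℚ) N) a) := ⟨_, rfl⟩
  rw [← hm] at h ⊢
  have hm' : v'.ord (jBC ℂ N - algebraMap ℂ (FF ℂ N) (ι a)) = e * m := by
    rw [← hmap, hord, hm]
  have hpos : 0 < v'.ord (jBC ℂ N - algebraMap ℂ (FF ℂ N) (ι a)) := by
    rw [hm']
    exact mul_pos he h
  obtain ⟨h0, h1, h2⟩ := ramJ_complex N v' (ι a) hpos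
  rw [hm'] at h0 h1 h2
  have hdvd : m ∣ e * m := Dvd.intro_left e rfl
  refine ⟨fun ha => hdvd.trans (h0 (by rw [ha, map_zero])),
    fun ha => hdvd.trans (h1 (by rw [ha, map_ofNat])), fun ha0 ha1 => ?_⟩
  have h3 := h2 (fun h => ha0 (ι.injective (by rw [h, map_zero])))
    (fun h => ha1 (ι.injective (by rw [h, map_ofNat])))
  exact Int.eq_one_of_dvd_one h.le ⟨e, by rw [← h3]; ring⟩

/-! ### descent to an arbitrary coefficient field inside `ℚ̄` -/

section Descent

variable {L : Type*} [Field L] [Algebra ℚ L]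

/-- the coefficient extension maps `j` to `j` -/
theorem bc_jBC (ι : L →+* AlgebraicClosure ℚ) (N : ℕ) [NeZero N] :
    CoeffBC.bc ι (modularFunctionFieldFull N) (jBC L N) = jBC (AlgebraicClosure ℚ) N := by
  apply Subtype.ext
  rw [CoeffBC.coe_bc, coe_jBC, coe_jBC]
  exact CoeffBC.coeffMap_coeffEmb' ι jq

/-- the coefficient extension on polynomials in `j` -/
theorem bc_aeval (ι : L →+* AlgebraicClosure ℚ) (N : ℕ) [NeZero N] (P : L[X]) :
    CoeffBC.bc ι (modularFunctionFieldFull N) (aeval (jBC L N) P) =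
      aeval (jBC (AlgebraicClosure ℚ) N) (P.map ι) := by
  rw [aeval_def, Polynomial.hom_eval₂, bc_jBC, aeval_def, Polynomial.eval₂_map]
  congr 1
  exact RingHom.ext fun c => CoeffBC.bc_algebraMap ι _ c

/-- a place of `FF ℚ̄ N` over a given place of `FF L N` -/
theorem exists_place_bar (ι : L →+* AlgebraicClosure ℚ) (N : ℕ) [NeZero N]
    (v : Place L (FF L N)) :
    ∃ (v' : Place (AlgebraicClosure ℚ) (FF (AlgebraicClosure ℚ) N)) (e : ℤ), 0 < e ∧
      (∀ f : FF L N, f ∈ v.toValuationSubring ↔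
        CoeffBC.bc ι (modularFunctionFieldFull N) f ∈ v'.toValuationSubring) ∧
      ∀ f : FF L N, v'.ord (CoeffBC.bc ι (modularFunctionFieldFull N) f) = e * v.ord f := by
  obtain ⟨hx, hfd⟩ := bar_transcendental N
  obtain ⟨v', hv'⟩ := BaseChange.exists_place_over ι (CoeffBC.bc ι (modularFunctionFieldFull N))
    (fun c => CoeffBC.bc_algebraMap ι _ c) (fun n f hf => CoeffBC.bc_linearIndependent ι _ n f hf)
    (jBC (AlgebraicClosure ℚ) N) hx v
  obtain ⟨e, he, hord⟩ := BaseChange.exists_ord_eq_mul _ v v' hv'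
  exact ⟨v', e, he, hv', hord⟩

/-- over `ℚ̄`: a place at which `Q(j)` vanishes is a zero of `j - a` for a root `a` of `Q` -/
theorem exists_root_bar (N : ℕ) [NeZero N]
    (v : Place (AlgebraicClosure ℚ) (FF (AlgebraicClosure ℚ) N)) (Q : (AlgebraicClosure ℚ)[X])
    (h : 0 < v.ord (aeval (jBC (AlgebraicClosure ℚ) N) Q)) :
    ∃ a : AlgebraicClosure ℚ, Q.eval a = 0 ∧
      0 < v.ord (jBC (AlgebraicClosure ℚ) N -
        algebraMap (AlgebraicClosure ℚ) (FF (AlgebraicClosure ℚ) N) a) := by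
  obtain ⟨hx, hfd⟩ := bar_transcendental N
  have hQ0 : aeval (jBC (AlgebraicClosure ℚ) N) Q ≠ 0 := by
    intro h0
    rw [h0, v.ord_zero] at h
    exact lt_irrefl _ h
  have hQ : Q ≠ 0 := by
    rintro rfl
    exact hQ0 (map_zero _)
  have hmem : jBC (AlgebraicClosure ℚ) N ∈ v.toValuationSubring := by
    by_contra hj
    have h1 := PrimeBridge.div_mem_of_natDegree_le (AlgebraicClosure ℚ) v.toValuationSubring
      (algebraMap (AlgebraicClosure ℚ) (FF (AlgebraicClosure ℚ) N)) v.algebraMap_mem'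
      (jBC (AlgebraicClosure ℚ) N) hj 1 Q hQ (by simp)
    rw [Polynomial.eval₂_one, one_div, ← aeval_def] at h1
    have h2 := (Places.ord_nonneg_iff_mem v (inv_ne_zero hQ0)).mpr h1
    rw [v.ord_inv] at h2
    omega
  obtain ⟨a, ha | ha⟩ := exists_residue (jBC (AlgebraicClosure ℚ) N) hx v _ hmem
  · exact absurd (ha ▸ (isAlgebraic_algebraMap a)) hx
  · refine ⟨a, ?_, ha⟩
    by_contra hQa
    rw [ord_aeval_eq_zero v ha Q hQa] at h
    exact lt_irrefl _ h

/-- **P4a over a coefficient field `L ⊆ ℚ̄`**: let `v` be a place of `FF L N` and `P ∈ L[X]`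
irreducible with `P(j)` vanishing at `v` (so `(P)` is the centre of `v` on `L[j]`).  Then the
order of `P(j)` at `v` (the ramification index of `v` over `L(j)`) divides `3` if `P = X`,
divides `2` if `P = X - 1728`, and is `1` otherwise. -/
theorem ramJ_of_hom (ι : L →+* AlgebraicClosure ℚ) (N : ℕ) [NeZero N] (v : Place L (FF L N))
    (P : L[X]) (hP : Irreducible P) (h : 0 < v.ord (aeval (jBC L N) P)) :
    (P = X → v.ord (aeval (jBC L N) P) ∣ 3) ∧
    (P = X - C 1728 → v.ord (aeval (jBC L N) P) ∣ 2) ∧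
    (¬ Associated P X → ¬ Associated P (X - C 1728) → v.ord (aeval (jBC L N) P) = 1) := by
  have hchar : CharZero L := algebraRat.charZero L
  obtain ⟨v', e, he, -, hord⟩ := exists_place_bar ι N v
  obtain ⟨m, hm⟩ : ∃ m : ℤ, m = v.ord (aeval (jBC L N) P) := ⟨_, rfl⟩
  rw [← hm] at h ⊢
  have hQord : v'.ord (aeval (jBC (AlgebraicClosure ℚ) N) (P.map ι)) = e * m := by
    rw [← bc_aeval, hord, hm]
  have hQpos : 0 < v'.ord (aeval (jBC (AlgebraicClosure ℚ) N) (P.map ι)) := by
    rw [hQord]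
    exact mul_pos he h
  obtain ⟨a, hroot, ha⟩ := exists_root_bar N v' (P.map ι) hQpos
  -- `a` is a simple root
  have hsep : (P.map ι).Separable := hP.separable.map
  obtain ⟨Q1, hQ1⟩ : (X - C a) ∣ P.map ι := Polynomial.dvd_iff_isRoot.mpr hroot
  have hQ1a : Q1.eval a ≠ 0 := by
    intro h0
    obtain ⟨Q2, hQ2⟩ : (X - C a) ∣ Q1 := Polynomial.dvd_iff_isRoot.mpr h0
    have hsq : (X - C a) * (X - C a) ∣ P.map ι := ⟨Q2, by rw [hQ1, hQ2]; ring⟩
    exact Polynomial.not_isUnit_X_sub_C a (hsep.squarefree _ hsq)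
  have ha0 : jBC (AlgebraicClosure ℚ) N -
      algebraMap (AlgebraicClosure ℚ) (FF (AlgebraicClosure ℚ) N) a ≠ 0 := by
    intro h0
    rw [h0, v'.ord_zero] at ha
    exact lt_irrefl _ ha
  have hQ1ord := ord_aeval_eq_zero v' ha Q1 hQ1a
  have hQ1ne : aeval (jBC (AlgebraicClosure ℚ) N) Q1 ≠ 0 := by
    intro h0
    rw [hQ1, map_mul, h0, mul_zero, v'.ord_zero] at hQpos
    exact lt_irrefl _ hQpos
  have hma : v'.ord (jBC (AlgebraicClosure ℚ) N -
      algebraMap (AlgebraicClosure ℚ) (FF (AlgebraicClosure ℚ) N) a) = e * m := by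
    rw [← hQord, hQ1, map_mul, map_sub, aeval_X, aeval_C, v'.ord_mul ha0 hQ1ne, hQ1ord, add_zero]
  obtain ⟨h0, h1, h2⟩ := ramJ_bar N v' a ha
  rw [hma] at h0 h1 h2
  have hdvd : m ∣ e * m := Dvd.intro_left e rfl
  have hevalι : ∀ c : L, (P.map ι).eval (ι c) = ι (P.eval c) := fun c => by
    rw [Polynomial.eval_map, Polynomial.eval₂_at_apply]
  refine ⟨fun hPX => hdvd.trans (h0 ?_), fun hPX => hdvd.trans (h1 ?_), fun hX hX' => ?_⟩
  · rw [hPX, Polynomial.map_X, Polynomial.eval_X] at hroot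
    exact hroot
  · rw [hPX, Polynomial.map_sub, Polynomial.map_X, Polynomial.map_C, map_ofNat,
      Polynomial.eval_sub, Polynomial.eval_X, Polynomial.eval_C] at hroot
    exact sub_eq_zero.mp hroot
  · have hne0 : a ≠ 0 := by
      rintro rfl
      have h3 : P.eval 0 = 0 := by
        apply ι.injective
        rw [← hevalι, map_zero]
        exact hroot
      have h4 : X ∣ P := by
        rw [Polynomial.X_dvd_iff, Polynomial.coeff_zero_eq_eval_zero]
        exact h3
      exact hX (Polynomial.irreducible_X.associated_of_dvd hP h4).symm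
    have hne1 : a ≠ 1728 := by
      rintro rfl
      have h3 : P.eval 1728 = 0 := by
        apply ι.injective
        rw [← hevalι, map_ofNat, map_zero]
        exact hroot
      have h4 : (X - C (1728 : L)) ∣ P := Polynomial.dvd_iff_isRoot.mpr h3
      exact hX' ((Polynomial.irreducible_X_sub_C (1728 : L)).associated_of_dvd hP h4).symm
    have h3 := h2 hne0 hne1
    exact Int.eq_one_of_dvd_one h.le ⟨e, by rw [← h3]; ring⟩

end Descent

end Fermat.Agent.S18.RamJ
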