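import Mathlib
import Fermat.Agent.S24.PrimeBridge
import Fermat.Agent.S18.RamJ
import Fermat.Agent.S18.RamInf

/-!
# S18, package D′ in ideal currency: ramification of `FF L N` over the `j`-line

Bridge between the `Place` currency of `RamJ` / `RamInf` and the ideal currency
(`Ideal.ramificationIdx`) used by the Dedekind form of Abhyankar's lemma.

* `ord_eq_ramificationIdx`: for a Dedekind domain `B` with fraction field `F` and a prime `Q`
  of `B` lying over a principal ideal `(ϖ)` of a subring `A`, the order of `ϖ` at the place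
  of `Q` is the ramification index `e(Q | A)`.
* `dvd_ramificationIdx_of_eq_unit_mul_pow`: if `ϖ = u * g ^ n` in `B` with `u` a unit then
  `n ∣ e(Q | A)`.
* `ramJ_gen`, `ramInf_gen`: the ramification statements for a generator of the prime below.
* `ramJ_ideal`, `ramInf_ideal`: membership forms for the two concrete charts `L[j]` and
  `L[1/j, 1/(1 - 1728/j)]`.
-/

set_option autoImplicit false

namespace Fermat.Agent.S18.RamIdeal

open AlgebraicCurve ModularCurve IsDedekindDomain Polynomial
open Fermat.Agent.S24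

/-! ### generic bridge -/

section Generic

variable {K F : Type*} [Field K] [Field F] [Algebra K F]
variable {A B : Type*} [CommRing A] [CommRing B] [IsDedekindDomain B] [Algebra A B]
  [Algebra B F] [IsFractionRing B F]

omit [IsDedekindDomain B] in
theorem mem_of_liesOver_span (ϖ : A) (Q : Ideal B) [hlies : Q.LiesOver (Ideal.span {ϖ})] :
    algebraMap A B ϖ ∈ Q := by
  have : ϖ ∈ Q.under A := by
    rw [← hlies.over]
    exact Ideal.subset_span rfl
  exact this

/-- the valuation of a generator of the prime below is `exp (-e)` -/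
theorem valuation_gen_eq (ϖ : A) (hϖ : algebraMap A B ϖ ≠ 0) (𝔮 : HeightOneSpectrum B)
    [𝔮.asIdeal.LiesOver (Ideal.span {ϖ})] :
    𝔮.valuation F (algebraMap B F (algebraMap A B ϖ)) =
      WithZero.exp (-(𝔮.asIdeal.ramificationIdx A : ℤ)) := by
  have hmap : (Ideal.span {ϖ} : Ideal A).map (algebraMap A B) ≠ ⊥ := by
    rw [Ideal.map_span, Set.image_singleton, Ne, Ideal.span_singleton_eq_bot]
    exact hϖ
  rw [HeightOneSpectrum.valuation_of_algebraMap, 𝔮.intValuation_eq_exp_neg_multiplicity hϖ,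
    Ideal.IsDedekindDomain.ramificationIdx_eq_multiplicity (Ideal.span {ϖ}) 𝔮.asIdeal hmap,
    Ideal.map_span, Set.image_singleton]

/-- **Place ↔ prime bridge**: the order of a generator of the prime below at the place of a
prime `Q` of `B` is the ramification index of `Q` over `A`. -/
theorem ord_eq_ramificationIdx (hK : ∀ a : K, algebraMap K F a ∈ (algebraMap B F).range)
    (ϖ : A) (hϖ : algebraMap A B ϖ ≠ 0) (Q : Ideal B) [hQ : Q.IsPrime] (hQ0 : Q ≠ ⊥)
    [hlies : Q.LiesOver (Ideal.span {ϖ})] :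
    (PrimeBridge.placeOfPrime B hK ⟨Q, hQ, hQ0⟩).ord (algebraMap B F (algebraMap A B ϖ)) =
      (Q.ramificationIdx A : ℤ) := by
  have hlies' : (⟨Q, hQ, hQ0⟩ : HeightOneSpectrum B).asIdeal.LiesOver (Ideal.span {ϖ}) := hlies
  rw [PrimeBridge.placeOfPrime_ord, valuation_gen_eq (F := F) ϖ hϖ ⟨Q, hQ, hQ0⟩,
    WithZero.log_exp, neg_neg]

/-- if a generator of the prime below is a unit times an `n`-th power in `B`, then `n` divides
the ramification index -/
theorem dvd_ramificationIdx_of_eq_unit_mul_pow (ϖ : A) (hϖ : algebraMap A B ϖ ≠ 0)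
    (Q : Ideal B) [hQ : Q.IsPrime] (hQ0 : Q ≠ ⊥) [hlies : Q.LiesOver (Ideal.span {ϖ})]
    (u g : B) (n : ℕ) (hu : IsUnit u) (h : algebraMap A B ϖ = u * g ^ n) :
    n ∣ Q.ramificationIdx A := by
  let 𝔮 : HeightOneSpectrum B := ⟨Q, hQ, hQ0⟩
  have hlies' : 𝔮.asIdeal.LiesOver (Ideal.span {ϖ}) := hlies
  have h1 := valuation_gen_eq (F := FractionRing B) ϖ hϖ 𝔮
  have hg0 : g ≠ 0 := by
    rintro rfl
    rcases Nat.eq_zero_or_pos n with hn | hn
    · subst hn
      rw [pow_zero, mul_one] at h
      have h2 : algebraMap A B ϖ ∈ Q := by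
        have : ϖ ∈ Q.under A := by
          rw [← hlies.over]
          exact Ideal.subset_span rfl
        exact this
      rw [h] at h2
      exact hQ.ne_top (Ideal.eq_top_of_isUnit_mem _ h2 hu)
    · rw [zero_pow hn.ne', mul_zero] at h
      exact hϖ h
  have hu1 : 𝔮.valuation (FractionRing B) (algebraMap B (FractionRing B) u) = 1 := by
    obtain ⟨u', hu'⟩ := hu.exists_right_inv
    have ha := 𝔮.valuation_le_one (K := FractionRing B) u
    have hb := 𝔮.valuation_le_one (K := FractionRing B) u'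
    have hc : 𝔮.valuation (FractionRing B) (algebraMap B (FractionRing B) u) *
        𝔮.valuation (FractionRing B) (algebraMap B (FractionRing B) u') = 1 := by
      rw [← map_mul, ← map_mul, hu', map_one, map_one]
    refine le_antisymm ha ?_
    calc (1 : WithZero (Multiplicative ℤ)) = _ := hc.symm
      _ ≤ 𝔮.valuation (FractionRing B) (algebraMap B (FractionRing B) u) * 1 :=
          mul_le_mul' le_rfl hb
      _ = _ := mul_one _
  have hgF : algebraMap B (FractionRing B) g ≠ 0 := by
    rw [Ne, map_eq_zero_iff _ (IsFractionRing.injective B (FractionRing B))]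
    exact hg0
  have hgv : 𝔮.valuation (FractionRing B) (algebraMap B (FractionRing B) g) ≠ 0 :=
    (Valuation.ne_zero_iff _).2 hgF
  rw [h, map_mul, map_pow, map_mul, map_pow, hu1, one_mul, ← WithZero.exp_log hgv,
    ← WithZero.exp_nsmul, WithZero.exp_inj] at h1
  have h2 : (Q.ramificationIdx A : ℤ) =
      (n : ℤ) * (-(WithZero.log (𝔮.valuation (FractionRing B)
        (algebraMap B (FractionRing B) g)))) := by
    have h3 : (𝔮.asIdeal.ramificationIdx A : ℤ) = (Q.ramificationIdx A : ℤ) := rfl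
    rw [← h3]
    rw [nsmul_eq_mul] at h1
    linarith
  exact Int.natCast_dvd_natCast.mp ⟨_, h2⟩

end Generic

/-! ### polynomial lemmas -/

section Poly

variable {L : Type*} [Field L]

/-- evaluation at `T⁻¹` through the reversed polynomial -/
theorem aeval_inv_eq {F : Type*} [Field F] [Algebra L F] (T : F) (hT : T ≠ 0) (P : L[X]) :
    aeval T⁻¹ P = aeval T P.reverse * T⁻¹ ^ P.natDegree := by
  haveI : Invertible T⁻¹ := invertibleOfNonzero (inv_ne_zero hT)
  have h := eval₂_reverse_mul_pow (algebraMap L F) T⁻¹ P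
  rw [invOf_eq_inv, inv_inv] at h
  rw [aeval_def, aeval_def, h]

theorem isUnit_of_isUnit_mirror {a : L[X]} (h : IsUnit a.mirror) : IsUnit a := by
  obtain ⟨c, hc, hca⟩ := Polynomial.isUnit_iff.mp h
  have h1 : a = C c := by
    rw [← mirror_mirror (p := a), ← hca, mirror_C]
  rw [h1]
  exact Polynomial.isUnit_C.mpr hc

/-- the mirror of an irreducible polynomial is irreducible -/
theorem irreducible_mirror {P : L[X]} (hP : Irreducible P) : Irreducible P.mirror := by
  refine ⟨fun hu => hP.not_isUnit (isUnit_of_isUnit_mirror hu), fun a b hab => ?_⟩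
  have h1 : P = a.mirror * b.mirror := by
    rw [← mirror_mul_of_domain, ← hab, mirror_mirror]
  rcases hP.isUnit_or_isUnit h1 with h | h
  · exact Or.inl (isUnit_of_isUnit_mirror h)
  · exact Or.inr (isUnit_of_isUnit_mirror h)

/-- the reverse of an irreducible polynomial with nonzero constant term is irreducible -/
theorem irreducible_reverse {P : L[X]} (hP : Irreducible P) (h0 : P.eval 0 ≠ 0) :
    Irreducible P.reverse := by
  have h1 : P.natTrailingDegree = 0 := by
    rw [Polynomial.natTrailingDegree_eq_zero]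
    right
    rwa [Polynomial.coeff_zero_eq_eval_zero]
  have h2 : P.mirror = P.reverse := by
    rw [Polynomial.mirror, h1, pow_zero, mul_one]
  rw [← h2]
  exact irreducible_mirror hP

end Poly

/-! ### the function field `FF L N` -/

section Modular

variable {L : Type*} [Field L] [Algebra ℚ L] (ι : L →+* AlgebraicClosure ℚ) (N : ℕ) [NeZero N]

include ι in
/-- `j` is transcendental over `L` (polynomial form) -/
theorem aeval_jBC_ne_zero (P : L[X]) (hP : P ≠ 0) : aeval (jBC L N) P ≠ 0 := by
  intro h0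
  have h1 := congrArg (CoeffBC.bc ι (modularFunctionFieldFull N)) h0
  rw [RamJ.bc_aeval, map_zero] at h1
  have h2 := (transcendental_iff.mp (RamJ.bar_transcendental N).1) _ h1
  exact hP ((Polynomial.map_eq_zero ι).mp h2)

include ι in
theorem jBC_ne_zero : jBC L N ≠ 0 := by
  have h := aeval_jBC_ne_zero ι N (X : L[X]) Polynomial.X_ne_zero
  rwa [aeval_X] at h

include ι in
theorem aeval_jBC_inv_ne_zero (P : L[X]) (hP : P ≠ 0) : aeval (jBC L N)⁻¹ P ≠ 0 := by
  rw [aeval_inv_eq _ (jBC_ne_zero ι N)]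
  refine mul_ne_zero (aeval_jBC_ne_zero ι N _ ?_) (pow_ne_zero _ (inv_ne_zero (jBC_ne_zero ι N)))
  rwa [Ne, Polynomial.reverse_eq_zero]

variable {A B : Type*} [CommRing A] [CommRing B] [IsDedekindDomain B] [Algebra A B]
  [Algebra B (FF L N)] [IsFractionRing B (FF L N)]

include ι in
/-- **D′, finite chart, generator form**: let `Q` be a nonzero prime of a Dedekind domain `B`
with fraction field `FF L N`, lying over a principal ideal `(ϖ)` of `A`, where `ϖ = P(j)` with
`P ∈ L[X]` irreducible.  Then `e(Q | A)` divides `3` if `P = X`, divides `2` if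
`P = X - 1728`, and is `1` otherwise. -/
theorem ramJ_gen (hL : ∀ a : L, algebraMap L (FF L N) a ∈ (algebraMap B (FF L N)).range)
    (P : L[X]) (hP : Irreducible P) (ϖ : A)
    (hϖ : algebraMap B (FF L N) (algebraMap A B ϖ) = aeval (jBC L N) P)
    (Q : Ideal B) [hQ : Q.IsPrime] (hQ0 : Q ≠ ⊥) [hlies : Q.LiesOver (Ideal.span {ϖ})] :
    (P = X → Q.ramificationIdx A ∣ 3) ∧
    (P = X - C 1728 → Q.ramificationIdx A ∣ 2) ∧
    (¬ Associated P X → ¬ Associated P (X - C 1728) → Q.ramificationIdx A = 1) := by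
  have hϖ0 : algebraMap A B ϖ ≠ 0 := by
    intro h0
    rw [h0, map_zero] at hϖ
    exact aeval_jBC_ne_zero ι N P hP.ne_zero hϖ.symm
  have hord := ord_eq_ramificationIdx hL ϖ hϖ0 Q hQ0
  have hpos := (PrimeBridge.placeOfPrime_ord_pos_iff B hL ⟨Q, hQ, hQ0⟩ _ hϖ0).2
    (mem_of_liesOver_span ϖ Q)
  rw [hϖ] at hord hpos
  obtain ⟨h0, h1, h2⟩ := RamJ.ramJ_of_hom ι N _ P hP hpos
  rw [hord] at h0 h1 h2
  refine ⟨fun h => ?_, fun h => ?_, fun hX hX' => ?_⟩
  · exact Int.natCast_dvd_natCast.mp (by exact_mod_cast h0 h)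
  · exact Int.natCast_dvd_natCast.mp (by exact_mod_cast h1 h)
  · exact_mod_cast h2 hX hX'

include ι in
/-- **D′, cusp chart, generator form**: the same with `ϖ = P(1/j)`.  Then `e(Q | A)` divides
`N` if `P = X` (the cusps), and is `1` if `P(0) ≠ 0` and `P(1/1728) ≠ 0`. -/
theorem ramInf_gen (hL : ∀ a : L, algebraMap L (FF L N) a ∈ (algebraMap B (FF L N)).range)
    (ht : (jBC L N)⁻¹ ∈ (algebraMap B (FF L N)).range)
    (P : L[X]) (hP : Irreducible P) (ϖ : A)
    (hϖ : algebraMap B (FF L N) (algebraMap A B ϖ) = aeval (jBC L N)⁻¹ P)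
    (Q : Ideal B) [hQ : Q.IsPrime] (hQ0 : Q ≠ ⊥) [hlies : Q.LiesOver (Ideal.span {ϖ})] :
    (P = X → Q.ramificationIdx A ∣ N) ∧
    (P.eval 0 ≠ 0 → P.eval (1728 : L)⁻¹ ≠ 0 → Q.ramificationIdx A = 1) := by
  have hchar : CharZero L := algebraRat.charZero L
  have hj0 : jBC L N ≠ 0 := jBC_ne_zero ι N
  have hϖ0 : algebraMap A B ϖ ≠ 0 := by
    intro h0
    rw [h0, map_zero] at hϖ
    exact aeval_jBC_inv_ne_zero ι N P hP.ne_zero hϖ.symm
  have hord := ord_eq_ramificationIdx hL ϖ hϖ0 Q hQ0
  have hpos := (PrimeBridge.placeOfPrime_ord_pos_iff B hL ⟨Q, hQ, hQ0⟩ _ hϖ0).2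
    (mem_of_liesOver_span ϖ Q)
  rw [hϖ] at hord hpos
  obtain ⟨v, hv⟩ : ∃ v : Place L (FF L N), v = PrimeBridge.placeOfPrime B hL ⟨Q, hQ, hQ0⟩ :=
    ⟨_, rfl⟩
  rw [← hv] at hord hpos
  have htmem : (jBC L N)⁻¹ ∈ v.toValuationSubring := by
    obtain ⟨b, hb⟩ := ht
    rw [← hb, hv]
    exact PrimeBridge.algebraMap_mem_placeOfPrime B hL _ b
  refine ⟨fun hPX => ?_, fun hP0 hP1 => ?_⟩
  · rw [hPX, aeval_X] at hord hpos
    rw [v.ord_inv] at hord hpos
    have h1 : v.ord (jBC L N) < 0 := by omega
    have h2 := RamInf.ramInf_of_hom N ι v h1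
    have h3 : -(v.ord (jBC L N)) = (Q.ramificationIdx A : ℤ) := hord
    rw [h3] at h2
    exact Int.natCast_dvd_natCast.mp h2
  · -- `1/j` is a unit at `v`
    have ht0 : v.ord (jBC L N)⁻¹ = 0 := by
      have h1 : 0 ≤ v.ord (jBC L N)⁻¹ :=
        (Places.ord_nonneg_iff_mem v (inv_ne_zero hj0)).mpr htmem
      rcases h1.lt_or_eq with h2 | h2
      · exfalso
        have h3 : 0 < v.ord ((jBC L N)⁻¹ - algebraMap L (FF L N) 0) := by
          rw [map_zero, sub_zero]
          exact h2
        have h4 := RamJ.ord_aeval_eq_zero v h3 P hP0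
        omega
      · exact h2.symm
    have hM : Irreducible P.reverse := irreducible_reverse hP hP0
    have hMne : aeval (jBC L N) P.reverse ≠ 0 :=
      aeval_jBC_ne_zero ι N _ hM.ne_zero
    have hordM : v.ord (aeval (jBC L N) P.reverse) = v.ord (aeval (jBC L N)⁻¹ P) := by
      rw [aeval_inv_eq _ hj0, v.ord_mul hMne (pow_ne_zero _ (inv_ne_zero hj0)),
        ← zpow_natCast, v.ord_zpow, ht0, mul_zero, add_zero]
    have hposM : 0 < v.ord (aeval (jBC L N) P.reverse) := by
      rw [hordM]
      exact hpos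
    obtain ⟨-, -, h2⟩ := RamJ.ramJ_of_hom ι N v P.reverse hM hposM
    have hX : ¬ Associated P.reverse X := by
      intro h
      have h3 : (X : L[X]) ∣ P.reverse := h.symm.dvd
      rw [Polynomial.X_dvd_iff, Polynomial.coeff_zero_reverse] at h3
      exact hP.ne_zero (Polynomial.leadingCoeff_eq_zero.mp h3)
    have hX' : ¬ Associated P.reverse (X - C 1728) := by
      intro h
      have h3 : (X - C (1728 : L)) ∣ P.reverse := h.symm.dvd
      have h4 : P.reverse.eval 1728 = 0 := Polynomial.dvd_iff_isRoot.mp h3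
      have h5 := aeval_inv_eq (F := L) (1728 : L) (by norm_num) P
      rw [Polynomial.coe_aeval_eq_eval, Polynomial.coe_aeval_eq_eval, h4, zero_mul] at h5
      exact hP1 h5
    have h3 := h2 hX hX'
    rw [hordM, hord] at h3
    exact_mod_cast h3

/-! ### membership forms for the two concrete charts -/

include ι in
/-- **D′, finite chart `L[j]`**: `B` a Dedekind domain with fraction field `FF L N`, integral
over `L[X]` (with `X ↦ j`).  For every nonzero prime `Q` of `B`: `e(Q | L[X])` divides `3` if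
`j ∈ Q`, divides `2` if `j - 1728 ∈ Q`, and is `1` otherwise. -/
theorem ramJ_ideal {B : Type*} [CommRing B] [IsDedekindDomain B] [Algebra L[X] B]
    [Algebra B (FF L N)] [IsFractionRing B (FF L N)] [Algebra.IsIntegral L[X] B]
    (hA : ∀ P : L[X], algebraMap B (FF L N) (algebraMap L[X] B P) = aeval (jBC L N) P)
    (Q : Ideal B) [hQ : Q.IsPrime] (hQ0 : Q ≠ ⊥) :
    (algebraMap L[X] B X ∈ Q → Q.ramificationIdx L[X] ∣ 3) ∧
    (algebraMap L[X] B (X - C 1728) ∈ Q → Q.ramificationIdx L[X] ∣ 2) ∧
    (algebraMap L[X] B X ∉ Q → algebraMap L[X] B (X - C 1728) ∉ Q →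
      Q.ramificationIdx L[X] = 1) := by
  have hL : ∀ a : L, algebraMap L (FF L N) a ∈ (algebraMap B (FF L N)).range := by
    intro a
    refine ⟨algebraMap L[X] B (C a), ?_⟩
    rw [hA, aeval_C]
  have hprime : (Q.under L[X]).IsPrime := Ideal.IsPrime.under L[X] Q
  have hmem : ∀ G : L[X], G ∈ Q.under L[X] ↔ algebraMap L[X] B G ∈ Q := fun G => Iff.rfl
  refine ⟨fun h => ?_, fun h => ?_, fun hX hX' => ?_⟩
  · have hmax : (Ideal.span {(X : L[X])}).IsMaximal :=
      PrincipalIdealRing.isMaximal_of_irreducible Polynomial.irreducible_X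
    have hover : Ideal.span {(X : L[X])} = Q.under L[X] :=
      hmax.eq_of_le hprime.ne_top
        ((Ideal.span_singleton_le_iff_mem (I := Q.under L[X])).mpr ((hmem X).mpr h))
    haveI : Q.LiesOver (Ideal.span {(X : L[X])}) := ⟨hover⟩
    exact (ramJ_gen ι N hL X Polynomial.irreducible_X (X : L[X]) (hA X) Q hQ0).1 rfl
  · have hmax : (Ideal.span {(X - C 1728 : L[X])}).IsMaximal :=
      PrincipalIdealRing.isMaximal_of_irreducible (Polynomial.irreducible_X_sub_C _)
    have hover : Ideal.span {(X - C 1728 : L[X])} = Q.under L[X] :=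
      hmax.eq_of_le hprime.ne_top
        ((Ideal.span_singleton_le_iff_mem (I := Q.under L[X])).mpr ((hmem _).mpr h))
    haveI : Q.LiesOver (Ideal.span {(X - C 1728 : L[X])}) := ⟨hover⟩
    exact (ramJ_gen ι N hL (X - C 1728) (Polynomial.irreducible_X_sub_C _) (X - C 1728 : L[X])
      (hA _) Q hQ0).2.1 rfl
  · have hp0 : Q.under L[X] ≠ ⊥ := by
      obtain ⟨x, hxQ, hx0⟩ := Submodule.exists_mem_ne_zero_of_ne_bot hQ0
      exact Ideal.comap_ne_bot_of_integral_mem hx0 hxQ (Algebra.IsIntegral.isIntegral x)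
    obtain ⟨P, hPgen⟩ : ∃ P : L[X], Q.under L[X] = Ideal.span {P} :=
      ⟨_, (Ideal.span_singleton_generator (Q.under L[X])).symm⟩
    have hPprime : Prime P := by
      have h1 := Submodule.IsPrincipal.prime_generator_of_isPrime (Q.under L[X]) hp0
      have h2 : Ideal.span {Submodule.IsPrincipal.generator (Q.under L[X])} = Ideal.span {P} := by
        rw [Ideal.span_singleton_generator, hPgen]
      exact (Ideal.span_singleton_eq_span_singleton.mp h2).prime h1
    haveI : Q.LiesOver (Ideal.span {P}) := ⟨hPgen.symm⟩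
    have hnot : ∀ G : L[X], algebraMap L[X] B G ∉ Q → ¬ Associated P G := by
      intro G hG hassoc
      apply hG
      rw [← hmem, hPgen, Ideal.mem_span_singleton]
      exact hassoc.dvd
    exact (ramJ_gen ι N hL P hPprime.irreducible P (hA P) Q hQ0).2.2 (hnot _ hX) (hnot _ hX')

include ι in
/-- **D′, cusp chart `L[t, 1/(1 - 1728 t)]`, `t = 1/j`**: `A` a localisation of `L[X]` away
from `g = 1 - 1728 X`, `B` a Dedekind domain with fraction field `FF L N`, integral over `A`
(with `X ↦ 1/j`).  For every nonzero prime `Q` of `B`: `e(Q | A)` divides `N` if `1/j ∈ Q`,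
and is `1` otherwise. -/
theorem ramInf_ideal {A B : Type*} [CommRing A] [Algebra L[X] A] (g : L[X])
    (hg : g = 1 - C 1728 * X) [IsLocalization.Away g A]
    [CommRing B] [IsDedekindDomain B] [Algebra A B]
    [Algebra B (FF L N)] [IsFractionRing B (FF L N)] [Algebra.IsIntegral A B]
    (hA : ∀ P : L[X], algebraMap B (FF L N) (algebraMap A B (algebraMap L[X] A P)) =
      aeval (jBC L N)⁻¹ P)
    (Q : Ideal B) [hQ : Q.IsPrime] (hQ0 : Q ≠ ⊥) :
    (algebraMap A B (algebraMap L[X] A X) ∈ Q → Q.ramificationIdx A ∣ N) ∧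
    (algebraMap A B (algebraMap L[X] A X) ∉ Q → Q.ramificationIdx A = 1) := by
  have hchar : CharZero L := algebraRat.charZero L
  have hL : ∀ a : L, algebraMap L (FF L N) a ∈ (algebraMap B (FF L N)).range := by
    intro a
    refine ⟨algebraMap A B (algebraMap L[X] A (C a)), ?_⟩
    rw [hA, aeval_C]
  have ht : (jBC L N)⁻¹ ∈ (algebraMap B (FF L N)).range := by
    refine ⟨algebraMap A B (algebraMap L[X] A X), ?_⟩
    rw [hA, aeval_X]
  haveI : Nontrivial A :=
    RingHom.domain_nontrivial ((algebraMap B (FF L N)).comp (algebraMap A B))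
  have hprime : (Q.under A).IsPrime := Ideal.IsPrime.under A Q
  have hp0 : Q.under A ≠ ⊥ := by
    obtain ⟨x, hxQ, hx0⟩ := Submodule.exists_mem_ne_zero_of_ne_bot hQ0
    exact Ideal.comap_ne_bot_of_integral_mem hx0 hxQ (Algebra.IsIntegral.isIntegral x)
  -- the prime of `L[X]` below
  set p0 : Ideal L[X] := (Q.under A).comap (algebraMap L[X] A) with hp0def
  have hp0prime : p0.IsPrime := Ideal.comap_isPrime _ _
  have hmap : p0.map (algebraMap L[X] A) = Q.under A :=
    IsLocalization.map_comap (Submonoid.powers g) A (Q.under A)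
  have hp0ne : p0 ≠ ⊥ := by
    intro h0
    rw [h0, Ideal.map_bot] at hmap
    exact hp0 hmap.symm
  obtain ⟨P, hPgen⟩ : ∃ P : L[X], p0 = Ideal.span {P} :=
    ⟨_, (Ideal.span_singleton_generator p0).symm⟩
  have hPprime : Prime P := by
    have h1 := Submodule.IsPrincipal.prime_generator_of_isPrime p0 hp0ne
    have h2 : Ideal.span {Submodule.IsPrincipal.generator p0} = Ideal.span {P} := by
      rw [Ideal.span_singleton_generator, hPgen]
    exact (Ideal.span_singleton_eq_span_singleton.mp h2).prime h1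
  have hmem0 : ∀ G : L[X], G ∈ p0 ↔ algebraMap A B (algebraMap L[X] A G) ∈ Q := fun G => Iff.rfl
  have hunder : ∀ G : L[X], Associated P G →
      Ideal.span {algebraMap L[X] A G} = Q.under A := by
    intro G hassoc
    rw [← hmap, hPgen, Ideal.map_span, Set.image_singleton]
    have h1 : Associated (algebraMap L[X] A P) (algebraMap L[X] A G) :=
      hassoc.map (algebraMap L[X] A)
    exact le_antisymm (Ideal.span_singleton_le_span_singleton.mpr h1.dvd)
      (Ideal.span_singleton_le_span_singleton.mpr h1.symm.dvd)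
  refine ⟨fun h => ?_, fun h => ?_⟩
  · have h1 : (X : L[X]) ∈ p0 := (hmem0 X).mpr h
    rw [hPgen, Ideal.mem_span_singleton] at h1
    have hassoc : Associated P X :=
      hPprime.irreducible.associated_of_dvd Polynomial.irreducible_X h1
    haveI : Q.LiesOver (Ideal.span {algebraMap L[X] A X}) := ⟨hunder X hassoc⟩
    exact (ramInf_gen ι N hL ht X Polynomial.irreducible_X (algebraMap L[X] A X) (hA X)
      Q hQ0).1 rfl
  · haveI : Q.LiesOver (Ideal.span {algebraMap L[X] A P}) := ⟨hunder P (Associated.refl P)⟩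
    have hP0 : P.eval 0 ≠ 0 := by
      intro h0
      have h1 : (X : L[X]) ∣ P := by
        rw [Polynomial.X_dvd_iff, Polynomial.coeff_zero_eq_eval_zero]
        exact h0
      apply h
      rw [← hmem0, hPgen, Ideal.mem_span_singleton]
      exact (Polynomial.irreducible_X.associated_of_dvd hPprime.irreducible h1).symm.dvd
    have hP1 : P.eval (1728 : L)⁻¹ ≠ 0 := by
      intro h0
      have h1 : (X - C (1728 : L)⁻¹) ∣ P := Polynomial.dvd_iff_isRoot.mpr h0
      have h2 : P ∣ (X - C (1728 : L)⁻¹) :=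
        ((Polynomial.irreducible_X_sub_C _).associated_of_dvd hPprime.irreducible h1).symm.dvd
      have h3 : g ∈ p0 := by
        rw [hPgen, Ideal.mem_span_singleton]
        refine h2.trans ⟨-C 1728, ?_⟩
        rw [hg]
        have h4 : (C (1728 : L) * C (1728 : L)⁻¹ : L[X]) = 1 := by
          rw [← C_mul, mul_inv_cancel₀ (by norm_num : (1728 : L) ≠ 0), C_1]
        linear_combination (-1 : L[X]) * h4
      have h5 : algebraMap L[X] A g ∈ Q.under A := h3
      exact hprime.ne_top (Ideal.eq_top_of_isUnit_mem _ h5 (IsLocalization.Away.algebraMap_isUnit g))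
    exact (ramInf_gen ι N hL ht P hPprime.irreducible (algebraMap L[X] A P) (hA P) Q hQ0).2 hP0 hP1

end Modular

end Fermat.Agent.S18.RamIdeal
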