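import Mathlib
import Fermat.Agent.S18.RamIdeal
import Fermat.Agent.S18.Cusp

/-!
# S18, link 5 (numerical input, cusp chart): ramification of `FF L N` over `L[t, 1/(1 - 1728 t)]`

`RamIdeal.ramInf_ideal` instantiated at helper27's concrete base chart
`Cusp.CuspBase L = Localization.Away (1 - 1728 X)` (`X ↦ t = 1/j`), in the exact shape of the
hypothesis `hF` of `Abhyankar.isUnramifiedAt_single_branch` (branch point `t := Cusp.baseT L`,
index `n := N`).
-/

set_option autoImplicit false

namespace Fermat.Agent.S18.RamCusp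

open AlgebraicCurve ModularCurve IsDedekindDomain Polynomial
open Fermat.Agent.S24

variable {L : Type*} [Field L] [Algebra ℚ L] (ι : L →+* AlgebraicClosure ℚ) (N : ℕ) [NeZero N]

include ι in
/-- **Cusp chart, Dedekind form.**  `BF` a Dedekind domain with fraction field `FF L N`, integral
over `CuspBase L` (with `t ↦ 1/j`).  For every nonzero prime `P` of `BF`: `e(P | CuspBase L)`
divides `N` if `t ∈ P`, and is `1` otherwise. -/
theorem ramInf_cuspBase {BF : Type*} [CommRing BF] [IsDedekindDomain BF]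
    [Algebra (Cusp.CuspBase L) BF] [Algebra BF (FF L N)] [IsFractionRing BF (FF L N)]
    [Algebra.IsIntegral (Cusp.CuspBase L) BF]
    (hA : ∀ G : L[X], algebraMap BF (FF L N)
      (algebraMap (Cusp.CuspBase L) BF (algebraMap L[X] (Cusp.CuspBase L) G)) =
        aeval (jBC L N)⁻¹ G)
    (P : Ideal BF) [hP : P.IsPrime] (hP0 : P ≠ ⊥) :
    (Cusp.baseT L ∈ P.under (Cusp.CuspBase L) → P.ramificationIdx (Cusp.CuspBase L) ∣ N) ∧
    (Cusp.baseT L ∉ P.under (Cusp.CuspBase L) → P.ramificationIdx (Cusp.CuspBase L) = 1) :=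
  RamIdeal.ramInf_ideal ι N (A := Cusp.CuspBase L) (Cusp.cuspG L) rfl hA P hP0

include ι in
/-- **Cusp chart, integral-closure form** = the hypothesis `hF` of
`Abhyankar.isUnramifiedAt_single_branch` for `A := CuspBase L`, `F := FF L N`, `t := baseT L`,
`n := N`: everything about `BF` is derived from `IsIntegralClosure BF (CuspBase L) (FF L N)`. -/
theorem hF_cusp {K BF : Type*} [Field K] [Algebra (Cusp.CuspBase L) K]
    [IsFractionRing (Cusp.CuspBase L) K] [Algebra K (FF L N)] [FiniteDimensional K (FF L N)]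
    [Algebra (Cusp.CuspBase L) (FF L N)] [IsScalarTower (Cusp.CuspBase L) K (FF L N)]
    [CommRing BF] [Algebra (Cusp.CuspBase L) BF] [Algebra BF (FF L N)]
    [IsScalarTower (Cusp.CuspBase L) BF (FF L N)]
    [IsIntegralClosure BF (Cusp.CuspBase L) (FF L N)]
    (hA : ∀ G : L[X], algebraMap (Cusp.CuspBase L) (FF L N)
      (algebraMap L[X] (Cusp.CuspBase L) G) = aeval (jBC L N)⁻¹ G) :
    ∀ P : Ideal BF, P.IsPrime → P ≠ ⊥ →
      (Cusp.baseT L ∈ P.under (Cusp.CuspBase L) → P.ramificationIdx (Cusp.CuspBase L) ∣ N) ∧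
      (Cusp.baseT L ∉ P.under (Cusp.CuspBase L) → P.ramificationIdx (Cusp.CuspBase L) = 1) := by
  intro P hP hP0
  haveI : CharZero L := algebraRat.charZero L
  haveI : CharZero (FF L N) := charZero_of_injective_algebraMap (algebraMap L (FF L N)).injective
  haveI : CharZero K := by
    refine ⟨fun m n h => ?_⟩
    have h1 := congrArg (algebraMap K (FF L N)) h
    rw [map_natCast, map_natCast] at h1
    exact Nat.cast_injective h1
  haveI : IsDedekindDomain (Cusp.CuspBase L) := Cusp.cuspBase_isDedekindDomain L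
  haveI : Algebra.IsIntegral (Cusp.CuspBase L) BF :=
    IsIntegralClosure.isIntegral_algebra (Cusp.CuspBase L) (FF L N)
  haveI : IsDomain BF :=
    (IsIntegralClosure.algebraMap_injective BF (Cusp.CuspBase L) (FF L N)).isDomain _
  haveI : IsDedekindDomain BF :=
    IsIntegralClosure.isDedekindDomain (Cusp.CuspBase L) K (FF L N) BF
  haveI : IsFractionRing BF (FF L N) :=
    IsIntegralClosure.isFractionRing_of_finite_extension (Cusp.CuspBase L) K (FF L N) BF
  refine ramInf_cuspBase ι N (fun G => ?_) P hP0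
  rw [← IsScalarTower.algebraMap_apply (Cusp.CuspBase L) BF (FF L N), hA]

end Fermat.Agent.S18.RamCusp
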