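import Mathlib
import Fermat.Agent.S18.FunctionFieldKit
import Fermat.Agent.S18.KummerRamPlace
import Fermat.Agent.S18.RamCusp
import Fermat.Agent.S18.GaussDegree

set_option autoImplicit false
set_option linter.style.haveILetI false

/-!
# S18: the cusp-chart structures on `FF L N` and on `F2 = FF L N (u)`; ramification input for `F2`

One-call form of the hypothesis `hF` of `Abhyankar.isUnramifiedAt_single_branch` /
`CuspHoriz.cusp_hU_horizontal` for `F := F2` over `A := Cusp.CuspBase L` (`t ↦ 1/j`).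
-/

namespace Fermat.Agent.S18.FFKit

open Polynomial AlgebraicCurve ModularCurve
open Fermat.Agent.S24

variable {L : Type*} [Field L] [Algebra ℚ L]

/-- `1/j` is transcendental over `L`. -/
theorem transcendental_jBC_inv (ι : L →+* AlgebraicClosure ℚ) (N : ℕ) [NeZero N] :
    Transcendental L (jBC L N)⁻¹ := by
  rw [transcendental_iff]
  intro p hp
  by_contra hp0
  exact RamIdeal.aeval_jBC_inv_ne_zero ι N p hp0 hp

/-- `1 - 1728 / j ≠ 0`. -/
theorem one_sub_jBC_inv_ne_zero (ι : L →+* AlgebraicClosure ℚ) (N : ℕ) [NeZero N] :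
    (1 : FF L N) - 1728 * (jBC L N)⁻¹ ≠ 0 := by
  have h := RamIdeal.aeval_jBC_inv_ne_zero ι N (1 - C 1728 * X : L[X]) (by
    intro h0
    have := congrArg (fun p : L[X] => p.coeff 0) h0
    simp at this)
  have h2 : aeval (jBC L N)⁻¹ (1 - C 1728 * X : L[X]) = 1 - 1728 * (jBC L N)⁻¹ := by
    rw [map_sub, map_one, map_mul, aeval_C, aeval_X, map_ofNat]
  rwa [h2] at h

/-- The base-chart structure `CuspBase L → FF L N`, `t ↦ 1/j`, as a ring hom. -/
noncomputable def cuspHom (ι : L →+* AlgebraicClosure ℚ) (N : ℕ) [NeZero N] :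
    Cusp.CuspBase L →+* FF L N :=
  (Cusp.baseLift L (jBC L N)⁻¹ (one_sub_jBC_inv_ne_zero ι N)).toRingHom

theorem cuspHom_algebraMap (ι : L →+* AlgebraicClosure ℚ) (N : ℕ) [NeZero N] (G : L[X]) :
    cuspHom ι N (algebraMap L[X] (Cusp.CuspBase L) G) = aeval (jBC L N)⁻¹ G :=
  Cusp.baseLift_algebraMap _ _ G

theorem cuspHom_injective (ι : L →+* AlgebraicClosure ℚ) (N : ℕ) [NeZero N] :
    Function.Injective (cuspHom ι N) :=
  Cusp.baseLift_injective _ _ (transcendental_jBC_inv ι N)

/-- Every element of `L⟮j⟯` is a quotient of images of the base chart. -/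
theorem exists_cuspHom_div (ι : L →+* AlgebraicClosure ℚ) (N : ℕ) [NeZero N] (x : FF L N)
    (hx : x ∈ IntermediateField.adjoin L {jBC L N}) :
    ∃ a b : Cusp.CuspBase L, cuspHom ι N b ≠ 0 ∧ x = cuspHom ι N a / cuspHom ι N b := by
  have hj : jBC L N ≠ 0 := RamIdeal.jBC_ne_zero ι N
  obtain ⟨r, q, hrq⟩ := (IntermediateField.mem_adjoin_simple_iff L x).mp hx
  by_cases hq : q = 0
  · refine ⟨0, 1, by simp, ?_⟩
    rw [hrq, hq]; simp
  · -- `p(j) = p.reverse(1/j) * j ^ deg p`
    have key : ∀ p : L[X], aeval (jBC L N) p =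
        aeval (jBC L N)⁻¹ p.reverse * (jBC L N) ^ p.natDegree := by
      intro p
      haveI : Invertible (jBC L N) := invertibleOfNonzero hj
      have h := eval₂_reverse_mul_pow (algebraMap L (FF L N)) (jBC L N) p
      rw [invOf_eq_inv] at h
      rw [aeval_def, aeval_def, h]
    have hq' : q.reverse * X ^ r.natDegree ≠ 0 :=
      mul_ne_zero (by rwa [Ne, Polynomial.reverse_eq_zero]) (pow_ne_zero _ X_ne_zero)
    refine ⟨algebraMap L[X] _ (r.reverse * X ^ q.natDegree),
      algebraMap L[X] _ (q.reverse * X ^ r.natDegree), ?_, ?_⟩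
    · rw [cuspHom_algebraMap]
      exact RamIdeal.aeval_jBC_inv_ne_zero ι N _ hq'
    · rw [cuspHom_algebraMap, cuspHom_algebraMap, hrq, key r, key q]
      simp only [map_mul, map_pow, aeval_X]
      have h1 : aeval (jBC L N)⁻¹ q.reverse ≠ 0 :=
        RamIdeal.aeval_jBC_inv_ne_zero ι N _ (by rwa [Ne, Polynomial.reverse_eq_zero])
      have hjr : (jBC L N) ^ r.natDegree ≠ 0 := pow_ne_zero _ hj
      have hjq : (jBC L N) ^ q.natDegree ≠ 0 := pow_ne_zero _ hj
      rw [inv_pow, inv_pow, div_eq_div_iff (mul_ne_zero h1 hjq)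
        (mul_ne_zero h1 (inv_ne_zero hjr))]
      field_simp

/-- `FF L N` is finite over `K = Frac (CuspBase L)` for the structure `t ↦ 1/j`. -/
theorem finiteDimensional_FF_cusp (ι : L →+* AlgebraicClosure ℚ) (N : ℕ) [NeZero N]
    (K : Type*) [Field K] [Algebra (Cusp.CuspBase L) K] [IsFractionRing (Cusp.CuspBase L) K] :
    haveI := Cusp.cuspBase_isDomain L
    letI := fracAlgebra K (cuspHom ι N) (cuspHom_injective ι N)
    FiniteDimensional K (FF L N) := by
  haveI := Cusp.cuspBase_isDomain L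
  haveI h := (Gauss.finrank_FF_le L N).1
  have hfin : Module.Finite (IntermediateField.adjoin L {jBC L N}).toSubfield (FF L N) := h
  exact fracAlgebra_finite K (cuspHom ι N) (cuspHom_injective ι N)
    (IntermediateField.adjoin L {jBC L N}).toSubfield (fun s hs => exists_cuspHom_div ι N s hs)

/-- **Ramification of `F2 = FF L N (u)`, `u ^ s = w`, over the cusp chart, one call.**
`BF2` is any integral closure of `CuspBase L` in `F2` for a `CuspBase L`-structure on `F2` with
`t ↦ 1/j` (hypothesis `hA`).  Conclusion = the hypothesis `hF` of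
`Abhyankar.isUnramifiedAt_single_branch` / `CuspHoriz.cusp_hU_horizontal` with `F := F2`. -/
theorem ramificationIdx_F2_cusp (ι : L →+* AlgebraicClosure ℚ) (N : ℕ) [NeZero N]
    {F2 : Type*} [Field F2] [Algebra (FF L N) F2]
    (s : ℕ) (hs : 0 < s) (u : F2) (w : FF L N) (huw : u ^ s = algebraMap (FF L N) F2 w)
    (hirr : Irreducible (X ^ s - C w : (FF L N)[X])) (hdeg : Module.finrank (FF L N) F2 = s)
    (hw0 : w ≠ 0) (hdiv : ∀ v : Place L (FF L N), (s : ℤ) ∣ v.ord w)
    {BF2 : Type*} [CommRing BF2] [Algebra (Cusp.CuspBase L) BF2] [Algebra BF2 F2]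
    [Algebra (Cusp.CuspBase L) F2] [IsScalarTower (Cusp.CuspBase L) BF2 F2]
    [IsIntegralClosure BF2 (Cusp.CuspBase L) F2]
    (hA : ∀ G : L[X], algebraMap (Cusp.CuspBase L) F2 (algebraMap L[X] (Cusp.CuspBase L) G) =
      algebraMap (FF L N) F2 (aeval (jBC L N)⁻¹ G)) :
    ∀ P : Ideal BF2, P.IsPrime → P ≠ ⊥ →
      (Cusp.baseT L ∈ P.under (Cusp.CuspBase L) → P.ramificationIdx (Cusp.CuspBase L) ∣ N) ∧
      (Cusp.baseT L ∉ P.under (Cusp.CuspBase L) → P.ramificationIdx (Cusp.CuspBase L) = 1) := by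
  intro P hP hP0
  haveI := Cusp.cuspBase_isDomain L
  haveI : IsDedekindDomain (Cusp.CuspBase L) := Cusp.cuspBase_isDedekindDomain L
  let K := FractionRing (Cusp.CuspBase L)
  have hg := cuspHom_injective ι N
  -- structures on `FF L N`
  letI : Algebra (Cusp.CuspBase L) (FF L N) := (cuspHom ι N).toAlgebra
  letI : Algebra K (FF L N) := fracAlgebra K (cuspHom ι N) hg
  haveI : IsScalarTower (Cusp.CuspBase L) K (FF L N) := fracAlgebra_isScalarTower K (cuspHom ι N) hg
  haveI : FiniteDimensional K (FF L N) := finiteDimensional_FF_cusp ι N K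
  have hA' : ∀ G : L[X], algebraMap (Cusp.CuspBase L) (FF L N)
      (algebraMap L[X] (Cusp.CuspBase L) G) = aeval (jBC L N)⁻¹ G := cuspHom_algebraMap ι N
  -- structures on `F2`
  have hcomp : ∀ a : Cusp.CuspBase L,
      algebraMap (Cusp.CuspBase L) F2 a = algebraMap (FF L N) F2 (cuspHom ι N a) := by
    have h := IsLocalization.ringHom_ext (Submonoid.powers (Cusp.cuspG L))
      (j := algebraMap (Cusp.CuspBase L) F2)
      (k := (algebraMap (FF L N) F2).comp (cuspHom ι N)) (RingHom.ext fun G => by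
        rw [RingHom.comp_apply, RingHom.comp_apply, RingHom.comp_apply, hA, cuspHom_algebraMap])
    intro a
    exact congrArg (fun f : Cusp.CuspBase L →+* F2 => f a) h
  have hinj2 : Function.Injective (algebraMap (Cusp.CuspBase L) F2) := by
    intro a b hab
    rw [hcomp, hcomp] at hab
    exact hg ((algebraMap (FF L N) F2).injective hab)
  letI : Algebra K F2 := fracAlgebra K (algebraMap (Cusp.CuspBase L) F2) hinj2
  haveI : IsScalarTower (Cusp.CuspBase L) K F2 := IsScalarTower.of_algebraMap_eq (fun a =>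
    (fracAlgebra_algebraMap K (algebraMap (Cusp.CuspBase L) F2) hinj2 a).symm)
  haveI : IsScalarTower K (FF L N) F2 :=
    fracAlgebra_isScalarTower_of_comp K (cuspHom ι N) hg (algebraMap (Cusp.CuspBase L) F2) hinj2
      hcomp
  haveI : FiniteDimensional (FF L N) F2 := by
    apply Module.finite_of_finrank_pos
    rw [hdeg]; exact hs
  haveI : FiniteDimensional K F2 := FiniteDimensional.trans K (FF L N) F2
  have hL : ∀ a : L, ∃ r : Cusp.CuspBase L,
      algebraMap (Cusp.CuspBase L) (FF L N) r = algebraMap L (FF L N) a := by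
    intro a
    refine ⟨algebraMap L[X] _ (C a), ?_⟩
    rw [hA', aeval_C]
  haveI := hP
  obtain ⟨P', hP'p, hP'0, hunder, he⟩ :=
    KummerRamPlace.exists_prime_ramificationIdx_eq_of_places (L₀ := L) (A := Cusp.CuspBase L)
      (K := K) (F := FF L N) (BF := integralClosure (Cusp.CuspBase L) (FF L N)) hL s hs u w huw
      hirr hdeg hw0 hdiv P hP0
  have key := RamCusp.hF_cusp ι N (K := K) (BF := integralClosure (Cusp.CuspBase L) (FF L N))
    hA' P' hP'p hP'0
  rw [← hunder, he]
  exact key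

end Fermat.Agent.S18.FFKit
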