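/-
S18, PG output glue (V): the vertical (monogenic, separable) datum of the function field
`F = S24.FF L N`, extracted from `Contracts.KData`, in the shapes the chart instances consume.

* `exists_theta` : `θ ∈ F`, `P ∈ W[X][T]` monic with `P(j, θ) = 0`, reduction of `P` separable
  over `κ(X)`, and `F = L(j, θ)`.
* `exists_theta_map` : the same datum transported along a ring homomorphism `φ : F → Y` into a
  field, with the generation statement in the form "a subfield of `Y` containing the images of
  the constants, of `j` and of `θ` contains the image of `F`".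
-/
import Mathlib
import Fermat.Agent.S18.Contracts
import Fermat.Agent.S18.GaussVal

set_option autoImplicit false

namespace Fermat.Agent.S18.PGOut

open ModularCurve AlgebraicCurve Polynomial

local notation "Qb" => AlgebraicClosure ℚ

variable {ℓ : ℕ} {L : Type} [Field L] [Algebra ℚ L] {ι : L →+* Qb} {W : ValuationSubring L}
  {N : ℕ} [NeZero N] {s : ℕ} {Z1 Z2 : LaurentSeries ↥W}

/-- `F = L(j, θ)` from the span clause of `Gauss.exists_monogenic`. -/
theorem adjoin_eq_top_of_span (θ : S24.FF L N) {n : ℕ}
    (hspan : ∀ x : S24.FF L N, ∃ c : Fin n → S24.FF L N,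
        (∀ i, (c i : LaurentSeries L) ∈ IntermediateField.adjoin L {jqModC L}) ∧
        x = ∑ i, c i * θ ^ (i : ℕ)) :
    IntermediateField.adjoin L {S24.jBC L N, θ} = ⊤ := by
  rw [eq_top_iff]
  intro x _
  obtain ⟨c, hc, rfl⟩ := hspan x
  refine sum_mem fun i _ => mul_mem ?_
    (pow_mem (IntermediateField.subset_adjoin _ _ (by simp)) _)
  obtain ⟨c', hc'⟩ := Gauss.exists_of_mem_adjoin_jq L N (hc i)
  have hci : c i = (c' : S24.FF L N) := Subtype.ext hc'.symm
  rw [hci]
  exact IntermediateField.adjoin.mono L {S24.jBC L N} {S24.jBC L N, θ} (by simp) c'.2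

/-- **(V)** The vertical datum of the chart `W[j]`: a primitive element `θ` of `F / L(j)` killed
by a monic `P ∈ W[j][T]` whose reduction modulo the maximal ideal of `W` is separable over
`κ(X)`. -/
theorem exists_theta (h : Contracts.KData ℓ ι W N s Z1 Z2) :
    ∃ (θ : S24.FF L N) (P : (↥W)[X][X]), P.Monic ∧ P.eval₂ (Gauss.evF W N) θ = 0 ∧
      ((P.map (mapRingHom (IsLocalRing.residue ↥W))).map
        (algebraMap (IsLocalRing.ResidueField ↥W)[X]
          (FractionRing (IsLocalRing.ResidueField ↥W)[X]))).Separable ∧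
      IntermediateField.adjoin L {S24.jBC L N, θ} = ⊤ := by
  have : Fact ℓ.Prime := ⟨h.prime_l⟩
  have := h.char
  have := h.closed
  obtain ⟨θ, P, -, -, -, hP, -, hroot, -, hspan, -, hsep⟩ :=
    Gauss.exists_monogenic W N ℓ h.not_dvd
  exact ⟨θ, P, hP, hroot, Gauss.separable_fractionRing_of_redK W P hsep _,
    adjoin_eq_top_of_span θ hspan⟩

/-- A subfield of `Y` containing the images of the constants and of a generating set of an
extension `F / L` contains the image of `F`. -/
theorem map_mem_subfield_of_adjoin_eq_top {L F Y : Type*} [Field L] [Field F] [Field Y]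
    [Algebra L F] (φ : F →+* Y) (S : Subfield Y) (T : Set F)
    (hT : IntermediateField.adjoin L T = ⊤) (hL : ∀ a : L, φ (algebraMap L F a) ∈ S)
    (hTS : ∀ t ∈ T, φ t ∈ S) (x : F) : φ x ∈ S := by
  have hx : x ∈ IntermediateField.adjoin L T := by rw [hT]; trivial
  have hle : IntermediateField.adjoin L T ≤
      (S.comap φ).toIntermediateField (fun a => hL a) := by
    rw [IntermediateField.adjoin_le_iff]
    intro t ht
    exact hTS t ht
  exact hle hx

/-- **(V), transported.** The vertical datum along a ring homomorphism `φ : F → Y` into a field: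
`P(φ j, φ θ) = 0`, and every subfield of `Y` containing the images of the constants, of `j` and
of `θ` contains the image of `F`. -/
theorem exists_theta_map (h : Contracts.KData ℓ ι W N s Z1 Z2) {Y : Type*} [Field Y]
    (φ : S24.FF L N →+* Y) :
    ∃ (θ : S24.FF L N) (P : (↥W)[X][X]), P.Monic ∧
      P.eval₂ (φ.comp (Gauss.evF W N)) (φ θ) = 0 ∧
      ((P.map (mapRingHom (IsLocalRing.residue ↥W))).map
        (algebraMap (IsLocalRing.ResidueField ↥W)[X]
          (FractionRing (IsLocalRing.ResidueField ↥W)[X]))).Separable ∧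
      ∀ S : Subfield Y, (∀ a : L, φ (algebraMap L (S24.FF L N) a) ∈ S) →
        φ (S24.jBC L N) ∈ S → φ θ ∈ S → ∀ x : S24.FF L N, φ x ∈ S := by
  obtain ⟨θ, P, hP, hroot, hsep, hgen⟩ := exists_theta h
  refine ⟨θ, P, hP, ?_, hsep, fun S hL hj hθ x => ?_⟩
  · rw [← Polynomial.hom_eval₂, hroot, map_zero]
  · refine map_mem_subfield_of_adjoin_eq_top φ S _ hgen hL ?_ x
    intro t ht
    rcases ht with rfl | rfl
    · exact hj
    · exact hθ

/-- The chart structure map at the level of `F2`: `φ ∘ evF` is `Contracts.evAt` at `j`. -/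
theorem algebraMap_comp_evF (F2 : Type) [Field F2] [Algebra (S24.FF L N) F2] :
    (algebraMap (S24.FF L N) F2).comp (Gauss.evF W N) =
      Contracts.evAt W N (Contracts.jF2 L N F2) := by
  refine Polynomial.ringHom_ext (fun a => ?_) ?_
  · simp only [RingHom.comp_apply, Contracts.evAt, Polynomial.coe_eval₂RingHom,
      Polynomial.eval₂_C, Contracts.toF2, Gauss.evF_C]
    rfl
  · simp only [RingHom.comp_apply, Contracts.evAt, Polynomial.coe_eval₂RingHom,
      Polynomial.eval₂_X, Gauss.evF_X, Contracts.jF2]

/-- **(V) in `Contracts` currency**, for the generic `F2` of the chart contracts. -/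
theorem exists_theta_F2 (h : Contracts.KData ℓ ι W N s Z1 Z2) (F2 : Type) [Field F2]
    [Algebra (S24.FF L N) F2] :
    ∃ (θ : S24.FF L N) (P : (↥W)[X][X]), P.Monic ∧
      P.eval₂ (Contracts.evAt W N (Contracts.jF2 L N F2)) (algebraMap (S24.FF L N) F2 θ) = 0 ∧
      ((P.map (mapRingHom (IsLocalRing.residue ↥W))).map
        (algebraMap (IsLocalRing.ResidueField ↥W)[X]
          (FractionRing (IsLocalRing.ResidueField ↥W)[X]))).Separable ∧
      IntermediateField.adjoin L {S24.jBC L N, θ} = ⊤ := by
  obtain ⟨θ, P, hP, hroot, hsep, hgen⟩ := exists_theta h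
  refine ⟨θ, P, hP, ?_, hsep, hgen⟩
  rw [← algebraMap_comp_evF, ← Polynomial.hom_eval₂, hroot, map_zero]

end Fermat.Agent.S18.PGOut
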