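import Mathlib
import Fermat.Prelude.Def_FLTPrelim_Ramification
import Fermat.Agent.S05.OfSubring
import Fermat.Agent.S13.ValQbar

/-!
# S18, package P0: a base DVR with algebraically closed residue field

For a valuation subring `A` of `AlgebraicClosure ℚ` over a prime `ℓ` and a finite set `S`, the
field `E = ℚ(μ_n (ℓ ∤ n), S)` has the property that `A ∩ E` is a discrete valuation ring whose
residue field is all of the residue field of `A` (in particular algebraically closed).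
-/

set_option autoImplicit false

namespace Fermat.Agent.S18.BaseDVR

open Fermat.Agent.S05 Fermat.Agent.S05.OrdData Fermat.Agent.S13 Polynomial

local notation "Qb" => AlgebraicClosure ℚ

section Cyclo

variable (A : ValuationSubring Qb) {ℓ : ℕ}

/-- Integer polynomials in an element of `A` are in `A`. -/
theorem aeval_int_mem {ζ : Qb} (hζ : ζ ∈ A) (f : ℤ[X]) : aeval ζ f ∈ A := by
  induction f using Polynomial.induction_on with
  | C a => simp
  | add p q hp hq => rw [map_add]; exact A.add_mem _ _ hp hq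
  | monomial n a ih =>
    rw [map_mul, map_pow, aeval_X, aeval_C] at ih ⊢
    rw [pow_succ, ← mul_assoc]
    exact A.mul_mem _ _ ih hζ

/-- A polynomial over `ℤ` that vanishes modulo `ℓ` is a multiple of `ℓ`. -/
theorem exists_eq_C_mul_of_map_eq_zero (ℓ : ℕ) (f : ℤ[X])
    (hf : f.map (Int.castRingHom (ZMod ℓ)) = 0) : ∃ e : ℤ[X], f = C (ℓ : ℤ) * e := by
  have h : C (ℓ : ℤ) ∣ f := by
    rw [Polynomial.C_dvd_iff_dvd_coeff]
    intro i
    have := congrArg (fun p => p.coeff i) hf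
    simp only [coeff_map, coeff_zero, eq_intCast] at this
    exact (ZMod.intCast_zmod_eq_zero_iff_dvd _ _).mp this
  exact h

/-- A root of unity lies in `A`. -/
theorem mem_of_pow_eq_one {ζ : Qb} {n : ℕ} (hn : n ≠ 0) (hζ : ζ ^ n = 1) : ζ ∈ A := by
  by_contra h
  have hζ0 : ζ ≠ 0 := by
    rintro rfl
    exact h A.zero_mem
  have hgt : (ordOfSubring A).ord ζ < 0 := by
    by_contra h'
    exact h ((ordOfSubring_ge_iff A ζ).mp (Or.inr (not_lt.mp h')))
  have h1 : (ordOfSubring A).ord (ζ ^ n) = n • (ordOfSubring A).ord ζ :=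
    (ordOfSubring A).ord_pow hζ0 n
  rw [hζ, (ordOfSubring A).ord_one] at h1
  have := nsmul_neg hgt hn
  rw [← h1] at this
  exact lt_irrefl _ this


theorem key1 (hℓ : ℓ.Prime) (hA : A.LiesOverPrime ℓ) {n : ℕ} (hn : ¬ ℓ ∣ n) {ζ : Qb}
    (hζ : ζ ^ n = 1) (g : ℤ[X]) (hg : aeval ζ g ∈ A.nonunits) :
    ∃ t r : ℤ[X], aeval ζ t ∉ A.nonunits ∧
      aeval ζ g * aeval ζ t = (ℓ : Qb) * aeval ζ r := by
  have : Fact ℓ.Prime := ⟨hℓ⟩
  have hn0 : n ≠ 0 := by
    rintro rfl
    exact hn (dvd_zero _)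
  have hζA : ζ ∈ A := mem_of_pow_eq_one A hn0 hζ
  set φ : ℤ[X] →+* (ZMod ℓ)[X] := Polynomial.mapRingHom (Int.castRingHom (ZMod ℓ)) with hφ
  have hφsurj : Function.Surjective φ :=
    Polynomial.map_surjective _ (ZMod.intCast_surjective)
  have hker : ∀ f : ℤ[X], φ f = 0 → ∃ e : ℤ[X], f = C (ℓ : ℤ) * e := fun f hf =>
    exists_eq_C_mul_of_map_eq_zero ℓ f hf
  have hp : aeval ζ (X ^ n - 1 : ℤ[X]) = 0 := by simp [hζ]
  have hφp : φ (X ^ n - 1 : ℤ[X]) = X ^ n - 1 := by simp [hφ]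
  have hsep : (X ^ n - 1 : (ZMod ℓ)[X]).Separable := by
    have h := Polynomial.separable_X_pow_sub_C (1 : ZMod ℓ) (n := n)
      (by rwa [Ne, ZMod.natCast_eq_zero_iff]) one_ne_zero
    simpa using h
  obtain ⟨tb, htb⟩ : EuclideanDomain.gcd (φ g) (X ^ n - 1 : (ZMod ℓ)[X]) ∣ X ^ n - 1 :=
    EuclideanDomain.gcd_dvd_right _ _
  obtain ⟨ub, hub⟩ : EuclideanDomain.gcd (φ g) (X ^ n - 1 : (ZMod ℓ)[X]) ∣ φ g :=
    EuclideanDomain.gcd_dvd_left _ _
  have hbez := EuclideanDomain.gcd_eq_gcd_ab (φ g) (X ^ n - 1 : (ZMod ℓ)[X])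
  set hb := EuclideanDomain.gcd (φ g) (X ^ n - 1 : (ZMod ℓ)[X]) with hhb
  have hcop : IsCoprime hb tb := by
    rw [htb] at hsep
    exact hsep.isCoprime
  obtain ⟨c1, c2, hc⟩ := hcop
  obtain ⟨t, ht⟩ := hφsurj tb
  obtain ⟨u, hu⟩ := hφsurj ub
  obtain ⟨h, hh⟩ := hφsurj hb
  obtain ⟨a, ha⟩ := hφsurj (EuclideanDomain.gcdA (φ g) (X ^ n - 1 : (ZMod ℓ)[X]))
  obtain ⟨b, hb'⟩ := hφsurj (EuclideanDomain.gcdB (φ g) (X ^ n - 1 : (ZMod ℓ)[X]))
  obtain ⟨C1, hC1⟩ := hφsurj c1
  obtain ⟨C2, hC2⟩ := hφsurj c2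
  obtain ⟨r, hr⟩ := hker (g * t - u * (X ^ n - 1)) (by
    rw [map_sub, map_mul, map_mul, hφp, ht, hu, hub]
    rw [htb]
    ring)
  obtain ⟨e1, he1⟩ := hker (h - (g * a + (X ^ n - 1) * b)) (by
    rw [map_sub, map_add, map_mul, map_mul, hφp, hh, ha, hb', ← hbez, sub_self])
  obtain ⟨e2, he2⟩ := hker (C1 * h + C2 * t - 1) (by
    rw [map_sub, map_add, map_mul, map_mul, hC1, hC2, hh, ht, map_one, hc, sub_self])
  have hr' : aeval ζ g * aeval ζ t = (ℓ : Qb) * aeval ζ r := by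
    have h1 := congrArg (aeval ζ) hr
    rw [map_sub, map_mul, map_mul, hp, mul_zero, sub_zero, map_mul, aeval_C] at h1
    simpa using h1
  have he1' : aeval ζ h = aeval ζ g * aeval ζ a + (ℓ : Qb) * aeval ζ e1 := by
    have h1 := congrArg (aeval ζ) he1
    rw [map_sub, map_add, map_mul, map_mul, hp, zero_mul, add_zero, map_mul, aeval_C] at h1
    have h2 : (algebraMap ℤ Qb) (ℓ : ℤ) = (ℓ : Qb) := by simp
    rw [h2] at h1
    linear_combination h1
  have he2' : (1 : Qb) = aeval ζ C1 * aeval ζ h + aeval ζ C2 * aeval ζ t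
      - (ℓ : Qb) * aeval ζ e2 := by
    have h1 := congrArg (aeval ζ) he2
    rw [map_sub, map_add, map_mul, map_mul, map_one, map_mul, aeval_C] at h1
    have h2 : (algebraMap ℤ Qb) (ℓ : ℤ) = (ℓ : Qb) := by simp
    rw [h2] at h1
    linear_combination -h1
  set V := ordOfSubring A with hV
  have hmem : ∀ f : ℤ[X], V.Ge (aeval ζ f) 0 := fun f =>
    (ordOfSubring_ge_iff A _).mpr (aeval_int_mem A hζA f)
  have hℓgt : V.Gt (ℓ : Qb) 0 := (ordOfSubring_gt_iff A _).mpr hA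
  have hggt : V.Gt (aeval ζ g) 0 := (ordOfSubring_gt_iff A _).mpr hg
  refine ⟨t, r, ?_, hr'⟩
  intro htm
  have htgt : V.Gt (aeval ζ t) 0 := (ordOfSubring_gt_iff A _).mpr htm
  have hhgt : V.Gt (aeval ζ h) 0 := by
    rw [he1']
    refine Gt.add ?_ ?_
    · simpa using hggt.mul_ge (hmem a)
    · simpa using hℓgt.mul_ge (hmem e1)
  have h1gt : V.Gt (1 : Qb) 0 := by
    rw [he2']
    refine Gt.sub (Gt.add ?_ ?_) ?_
    · simpa using (hmem C1).mul_gt hhgt
    · simpa using (hmem C2).mul_gt htgt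
    · simpa using hℓgt.mul_ge (hmem e2)
  have := h1gt.lt one_ne_zero
  rw [V.ord_one] at this
  exact lt_irrefl _ this



/-- Every nonzero algebraic number has order bounded by a multiple of `ord ℓ`. -/
theorem exists_ord_le (hℓ : ℓ.Prime) (hA : A.LiesOverPrime ℓ) (x : Qb) (hx : x ≠ 0) :
    ∃ j : ℕ, (ordOfSubring A).ord x ≤ j • (ordOfSubring A).ord (ℓ : Qb) := by
  have hint : IsIntegral ℚ x := ((AlgebraicClosure.isAlgebraic ℚ).isAlgebraic x).isIntegral
  obtain ⟨n, hn1, -, m, hnm⟩ := Fermat.Agent.S13.exists_nsmul_ord_eq A ℓ hℓ hA x hx (minpoly ℚ x)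
    (minpoly.ne_zero hint) (minpoly.aeval ℚ x)
  have hpos := (Fermat.Agent.S13.ord_prime_pos A ℓ hℓ hA).2
  rcases le_or_gt ((ordOfSubring A).ord x) 0 with h0 | h0
  · exact ⟨0, by simpa using h0⟩
  · refine ⟨m.toNat, ?_⟩
    have h1 : (ordOfSubring A).ord x ≤ n • (ordOfSubring A).ord x := by
      obtain ⟨n', rfl⟩ : ∃ n', n = n' + 1 := ⟨n - 1, by omega⟩
      rw [succ_nsmul]
      exact le_add_of_nonneg_left (nsmul_nonneg h0.le n')
    have hm : 0 ≤ m := by
      by_contra hneg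
      have hneg' : m < 0 := not_le.mp hneg
      have h2 : m • (ordOfSubring A).ord (ℓ : Qb) < 0 := by
        obtain ⟨k, rfl⟩ : ∃ k : ℕ, m = -((k : ℤ) + 1) := ⟨(-m - 1).toNat, by omega⟩
        rw [neg_zsmul, neg_lt_zero]
        have : ((k : ℤ) + 1) = ((k + 1 : ℕ) : ℤ) := by push_cast; ring
        rw [this, natCast_zsmul]
        exact nsmul_pos hpos (by omega)
      rw [← hnm] at h2
      exact absurd (lt_of_le_of_lt (le_trans h0.le h1) h2) (lt_irrefl _)
    have h3 : m • (ordOfSubring A).ord (ℓ : Qb) = m.toNat • (ordOfSubring A).ord (ℓ : Qb) := by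
      conv_lhs => rw [← Int.toNat_of_nonneg hm]
      rw [natCast_zsmul]
    rw [← h3, ← hnm]
    exact h1

theorem key2 (hℓ : ℓ.Prime) (hA : A.LiesOverPrime ℓ) {n : ℕ} (hn : ¬ ℓ ∣ n) {ζ : Qb}
    (hζ : ζ ^ n = 1) : ∀ (j : ℕ) (g : ℤ[X]), aeval ζ g ≠ 0 →
      (ordOfSubring A).ord (aeval ζ g) ≤ j • (ordOfSubring A).ord (ℓ : Qb) →
      ∃ k : ℕ, (ordOfSubring A).ord (aeval ζ g) = k • (ordOfSubring A).ord (ℓ : Qb) := by
  have hn0 : n ≠ 0 := by
    rintro rfl
    exact hn (dvd_zero _)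
  have hζA : ζ ∈ A := mem_of_pow_eq_one A hn0 hζ
  have hℓ0 : (ℓ : Qb) ≠ 0 := Nat.cast_ne_zero.mpr hℓ.ne_zero
  set V := ordOfSubring A with hV
  have hmem : ∀ f : ℤ[X], V.Ge (aeval ζ f) 0 := fun f =>
    (ordOfSubring_ge_iff A _).mpr (aeval_int_mem A hζA f)
  intro j
  induction j with
  | zero =>
    intro g hg0 hle
    refine ⟨0, ?_⟩
    rw [zero_nsmul] at hle ⊢
    exact le_antisymm hle ((hmem g).le hg0)
  | succ j ih =>
    intro g hg0 hle
    by_cases hgm : aeval ζ g ∈ A.nonunits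
    · obtain ⟨t, r, ht, hr⟩ := key1 A hℓ hA hn hζ g hgm
      have ht0 : aeval ζ t ≠ 0 := by
        intro h0
        rw [h0] at ht
        exact ht (A.nonunits.zero_mem)
      have hr0 : aeval ζ r ≠ 0 := by
        intro h0
        rw [h0, mul_zero] at hr
        exact (mul_ne_zero hg0 ht0) hr
      have htord : V.ord (aeval ζ t) = 0 := by
        refine le_antisymm ?_ ((hmem t).le ht0)
        by_contra hcon
        exact ht ((ordOfSubring_gt_iff A _).mp (Or.inr (not_le.mp hcon)))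
      have hord := congrArg V.ord hr
      rw [V.ord_mul _ _ hg0 ht0, V.ord_mul _ _ hℓ0 hr0, htord, add_zero] at hord
      obtain ⟨k, hk⟩ := ih r hr0 (by
        rw [hord, succ_nsmul, add_comm] at hle
        exact le_of_add_le_add_right hle)
      exact ⟨k + 1, by rw [hord, hk, succ_nsmul, add_comm]⟩
    · refine ⟨0, ?_⟩
      rw [zero_nsmul]
      refine le_antisymm ?_ ((hmem g).le hg0)
      by_contra hcon
      exact hgm ((ordOfSubring_gt_iff A _).mp (Or.inr (not_le.mp hcon)))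



/-- Integer polynomial values at a root of unity of order prime to `ℓ` have order in
`ℕ • ord ℓ`. -/
theorem ord_aeval_int (hℓ : ℓ.Prime) (hA : A.LiesOverPrime ℓ) {n : ℕ} (hn : ¬ ℓ ∣ n) {ζ : Qb}
    (hζ : ζ ^ n = 1) (g : ℤ[X]) (hg : aeval ζ g ≠ 0) :
    ∃ k : ℕ, (ordOfSubring A).ord (aeval ζ g) = k • (ordOfSubring A).ord (ℓ : Qb) := by
  obtain ⟨j, hj⟩ := exists_ord_le A hℓ hA _ hg
  exact key2 A hℓ hA hn hζ j g hg hj

/-- Rational polynomial values: clear denominators. -/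
theorem ord_aeval_rat (hℓ : ℓ.Prime) (hA : A.LiesOverPrime ℓ) {n : ℕ} (hn : ¬ ℓ ∣ n) {ζ : Qb}
    (hζ : ζ ^ n = 1) (g : ℚ[X]) (hg : aeval ζ g ≠ 0) :
    ∃ k : ℤ, (ordOfSubring A).ord (aeval ζ g) = k • (ordOfSubring A).ord (ℓ : Qb) := by
  obtain ⟨b, hbM, hb⟩ := IsLocalization.integerNormalization_spec (nonZeroDivisors ℤ) g
  set G := IsLocalization.integerNormalization (nonZeroDivisors ℤ) g with hG
  have hbne : b ≠ 0 := nonZeroDivisors.ne_zero hbM
  have hb0 : ((b : ℤ) : Qb) ≠ 0 := by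
    exact_mod_cast hbne
  have h1 : aeval ζ G = ((b : ℤ) : Qb) * aeval ζ g := by
    have h2 : aeval ζ (G.map (algebraMap ℤ ℚ)) = aeval ζ G := by
      rw [aeval_map_algebraMap]
    rw [← h2, hb]
    rw [Algebra.smul_def, map_mul]
    simp
  have hG0 : aeval ζ G ≠ 0 := by
    rw [h1]
    exact mul_ne_zero hb0 hg
  obtain ⟨k1, hk1⟩ := ord_aeval_int A hℓ hA hn hζ G hG0
  obtain ⟨k2, hk2⟩ := ValQbar.ord_intCast A hℓ hA (b : ℤ) hbne
  refine ⟨(k1 : ℤ) - k2, ?_⟩
  have h3 := congrArg (ordOfSubring A).ord h1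
  rw [(ordOfSubring A).ord_mul _ _ hb0 hg, hk1, hk2] at h3
  rw [sub_zsmul, natCast_zsmul, natCast_zsmul, h3]
  abel

/-- Elements of `ℚ(ζ)`. -/
theorem ord_adjoin_simple (hℓ : ℓ.Prime) (hA : A.LiesOverPrime ℓ) {n : ℕ} (hn : ¬ ℓ ∣ n) {ζ : Qb}
    (hζ : ζ ^ n = 1) (x : Qb) (hx : x ∈ IntermediateField.adjoin ℚ {ζ}) (hx0 : x ≠ 0) :
    ∃ k : ℤ, (ordOfSubring A).ord x = k • (ordOfSubring A).ord (ℓ : Qb) := by
  obtain ⟨r, s, rfl⟩ := (IntermediateField.mem_adjoin_simple_iff ℚ x).mp hx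
  have hr0 : aeval ζ r ≠ 0 := by
    intro h
    rw [h, zero_div] at hx0
    exact hx0 rfl
  have hs0 : aeval ζ s ≠ 0 := by
    intro h
    rw [h, div_zero] at hx0
    exact hx0 rfl
  obtain ⟨k1, hk1⟩ := ord_aeval_rat A hℓ hA hn hζ r hr0
  obtain ⟨k2, hk2⟩ := ord_aeval_rat A hℓ hA hn hζ s hs0
  exact ⟨k1 - k2, by rw [(ordOfSubring A).ord_div hr0 hs0, hk1, hk2, sub_zsmul, sub_eq_add_neg]⟩

end Cyclo

/-- Roots of unity of order prime to `ℓ`. -/
def rootSet (ℓ : ℕ) : Set Qb := {x | ∃ n : ℕ, ¬ ℓ ∣ n ∧ x ^ n = 1}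

/-- The field `ℚ(μ_n : ℓ ∤ n)`. -/
noncomputable def cycloField (ℓ : ℕ) : IntermediateField ℚ Qb :=
  IntermediateField.adjoin ℚ (rootSet ℓ)

section Cyclo2
variable (A : ValuationSubring Qb) {ℓ : ℕ}

/-- The valuation is unramified on `ℚ(μ_n : ℓ ∤ n)`. -/
theorem ord_cycloField (hℓ : ℓ.Prime) (hA : A.LiesOverPrime ℓ) (x : Qb)
    (hx : x ∈ cycloField ℓ) (hx0 : x ≠ 0) :
    ∃ k : ℤ, (ordOfSubring A).ord x = k • (ordOfSubring A).ord (ℓ : Qb) := by
  classical
  obtain ⟨T, hT, hxT⟩ := IntermediateField.exists_finset_of_mem_adjoin hx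
  have hT' : ∀ z ∈ T, ∃ n : ℕ, ¬ ℓ ∣ n ∧ z ^ n = 1 := fun z hz => hT hz
  choose! e he using hT'
  set n := ∏ z ∈ T, e z with hn
  have hℓn : ¬ ℓ ∣ n := by
    rw [hn, (Nat.prime_iff.mp hℓ).dvd_finsetProd_iff]
    rintro ⟨z, hz, hdvd⟩
    exact (he z hz).1 hdvd
  have hn0 : n ≠ 0 := by
    rintro h
    exact hℓn (h ▸ dvd_zero _)
  have hzn : ∀ z ∈ T, z ^ n = 1 := by
    intro z hz
    obtain ⟨c, hc⟩ := Finset.dvd_prod_of_mem e hz
    rw [hn, hc, pow_mul, (he z hz).2, one_pow]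
  have : NeZero (n : ℚ) := ⟨Nat.cast_ne_zero.mpr hn0⟩
  have : NeZero n := ⟨hn0⟩
  obtain ⟨ζ, hζ⟩ := HasEnoughRootsOfUnity.exists_primitiveRoot Qb n
  have hle : IntermediateField.adjoin ℚ (T : Set Qb) ≤ IntermediateField.adjoin ℚ {ζ} := by
    rw [IntermediateField.adjoin_le_iff]
    intro z hz
    obtain ⟨i, -, rfl⟩ := hζ.eq_pow_of_pow_eq_one (hzn z hz)
    exact pow_mem (IntermediateField.mem_adjoin_simple_self ℚ ζ) i
  exact ord_adjoin_simple A hℓ hA hℓn hζ.pow_eq_one x (hle hxT) hx0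

end Cyclo2

section Finite
variable (A : ValuationSubring Qb) {ℓ : ℕ}

/-- Two-term Newton polygon over a subfield whose value group is `ℤ • γ`. -/
theorem exists_nsmul_ord_eq_of_base (K0 : IntermediateField ℚ Qb)
    (γ : Additive (A.ValueGroup)ˣ)
    (hK0 : ∀ c : Qb, c ∈ K0 → c ≠ 0 → ∃ m : ℤ, (ordOfSubring A).ord c = m • γ)
    (x : Qb) (hx : x ≠ 0) (f : Polynomial K0) (hf : f ≠ 0) (hfx : Polynomial.aeval x f = 0) :
    ∃ n : ℕ, 1 ≤ n ∧ n ≤ f.natDegree ∧ ∃ m : ℤ, n • (ordOfSubring A).ord x = m • γ := by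
  classical
  have hsum : ∑ i ∈ f.support, ((f.coeff i : K0) : Qb) * x ^ i = 0 := by
    rw [← hfx, Polynomial.aeval_def, Polynomial.eval₂_eq_sum, Polynomial.sum_def]
    rfl
  have hsupp : f.support.Nonempty := Polynomial.support_nonempty.mpr hf
  have hc0 : ∀ i ∈ f.support, ((f.coeff i : K0) : Qb) ≠ 0 := fun i hi => by
    have := Polynomial.mem_support_iff.mp hi
    exact fun h => this (Subtype.ext h)
  have ht0 : ∀ i ∈ f.support, ((f.coeff i : K0) : Qb) * x ^ i ≠ 0 := fun i hi =>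
    mul_ne_zero (hc0 i hi) (pow_ne_zero _ hx)
  obtain ⟨i, hi, j, hj, hij, hord⟩ :=
    ValQbar.exists_ord_eq_of_sum_eq_zero (ordOfSubring A) f.support _ hsupp ht0 hsum
  have key : ∀ i ∈ f.support, ∀ j ∈ f.support, i < j →
      (ordOfSubring A).ord (((f.coeff i : K0) : Qb) * x ^ i) =
        (ordOfSubring A).ord (((f.coeff j : K0) : Qb) * x ^ j) →
      ∃ n : ℕ, 1 ≤ n ∧ n ≤ f.natDegree ∧ ∃ m : ℤ, n • (ordOfSubring A).ord x = m • γ := by
    intro i hi j hj hlt h
    obtain ⟨n, rfl⟩ : ∃ n, j = i + n := ⟨j - i, by omega⟩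
    obtain ⟨mi, hmi⟩ := hK0 _ (f.coeff i).2 (hc0 i hi)
    obtain ⟨mj, hmj⟩ := hK0 _ (f.coeff (i + n)).2 (hc0 _ hj)
    refine ⟨n, by omega, ?_, mi - mj, ?_⟩
    · have := Polynomial.le_natDegree_of_mem_supp _ hj
      omega
    · rw [(ordOfSubring A).ord_mul _ _ (hc0 i hi) (pow_ne_zero _ hx),
        (ordOfSubring A).ord_mul _ _ (hc0 _ hj) (pow_ne_zero _ hx),
        (ordOfSubring A).ord_pow hx, (ordOfSubring A).ord_pow hx, hmi, hmj, add_nsmul,
        ← add_assoc] at h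
      rw [sub_zsmul]
      apply add_left_cancel (a := mj • γ + i • (ordOfSubring A).ord x)
      rw [← h]
      abel
  rcases lt_or_gt_of_ne hij with hlt | hlt
  · exact key i hi j hj hlt hord
  · exact key j hj i hi hlt hord.symm

end Finite

/-- The base field `E = ℚ(μ_n (ℓ ∤ n), S)`. -/
noncomputable def baseField (ℓ : ℕ) (S : Set Qb) : IntermediateField ℚ Qb :=
  IntermediateField.adjoin ℚ (rootSet ℓ ∪ S)

theorem cycloField_le_baseField (ℓ : ℕ) (S : Set Qb) : cycloField ℓ ≤ baseField ℓ S :=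
  IntermediateField.adjoin.mono ℚ _ _ Set.subset_union_left

theorem subset_baseField (ℓ : ℕ) (S : Set Qb) : S ⊆ baseField ℓ S :=
  fun _ hx => IntermediateField.subset_adjoin ℚ _ (Set.mem_union_right _ hx)

theorem baseField_mono (ℓ : ℕ) {S S' : Set Qb} (h : S ⊆ S') : baseField ℓ S ≤ baseField ℓ S' :=
  IntermediateField.adjoin.mono ℚ _ _ (Set.union_subset_union_right _ h)

theorem mem_baseField_iff (ℓ : ℕ) (S : Set Qb) (x : Qb) :
    x ∈ baseField ℓ S ↔ x ∈ IntermediateField.adjoin (cycloField ℓ) S := by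
  rw [baseField, ← IntermediateField.adjoin_adjoin_left]
  rfl

section Finite2
variable (A : ValuationSubring Qb) {ℓ : ℕ}

/-- Bounded index: every nonzero element of the base field has a bounded multiple of its order in
`ℤ • ord ℓ`. -/
theorem exists_bound (hℓ : ℓ.Prime) (hA : A.LiesOverPrime ℓ) (S : Finset Qb) :
    ∃ D : ℕ, D ≠ 0 ∧ ∀ x ∈ baseField ℓ (S : Set Qb), x ≠ 0 →
      ∃ m : ℤ, D • (ordOfSubring A).ord x = m • (ordOfSubring A).ord (ℓ : Qb) := by
  classical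
  set L1 := cycloField ℓ with hL1
  set E' := IntermediateField.adjoin L1 (S : Set Qb) with hE'
  have hint : ∀ x ∈ (S : Set Qb), IsIntegral L1 x := fun x _ =>
    (((AlgebraicClosure.isAlgebraic ℚ).isAlgebraic x).isIntegral).tower_top
  have hfd : FiniteDimensional L1 E' := IntermediateField.finiteDimensional_adjoin hint
  have hfree : Module.Free L1 E' := Module.Free.of_divisionRing L1 E'
  set d := Module.finrank L1 E' with hd
  refine ⟨d.factorial, Nat.factorial_ne_zero d, ?_⟩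
  intro x hx hx0
  rw [mem_baseField_iff] at hx
  set y : E' := ⟨x, hx⟩ with hy
  have hyint : IsIntegral L1 y := IsIntegral.of_finite L1 y
  have hdeg : (minpoly L1 y).natDegree ≤ d := minpoly.natDegree_le y
  have haev : Polynomial.aeval x (minpoly L1 y) = 0 := by
    have h1 := minpoly.aeval L1 y
    have h2 := congrArg (algebraMap E' Qb) h1
    rw [← Polynomial.aeval_algebraMap_apply, map_zero] at h2
    exact h2
  obtain ⟨n, hn1, hn2, m, hm⟩ := exists_nsmul_ord_eq_of_base A L1 _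
    (fun c hc hc0 => ord_cycloField A hℓ hA c hc hc0) x hx0 (minpoly L1 y)
    (minpoly.ne_zero hyint) haev
  have hnd : n ∣ d.factorial := Nat.dvd_factorial (by omega) (le_trans hn2 hdeg)
  obtain ⟨q, hq⟩ := hnd
  refine ⟨(q : ℤ) * m, ?_⟩
  rw [hq, mul_comm n q, mul_nsmul', hm, mul_comm (q : ℤ) m, mul_zsmul', natCast_zsmul]

end Finite2

section Unif
variable (A : ValuationSubring Qb) {ℓ : ℕ}

/-- The value group of the base field is infinite cyclic. -/
theorem exists_uniformizer (hℓ : ℓ.Prime) (hA : A.LiesOverPrime ℓ) (S : Finset Qb) :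
    ∃ ϖ ∈ baseField ℓ (S : Set Qb), ϖ ≠ 0 ∧ 0 < (ordOfSubring A).ord ϖ ∧
      ∀ x ∈ baseField ℓ (S : Set Qb), x ≠ 0 →
        ∃ n : ℤ, (ordOfSubring A).ord x = n • (ordOfSubring A).ord ϖ := by
  classical
  obtain ⟨D, hD0, hD⟩ := exists_bound A hℓ hA S
  set V := ordOfSubring A with hV
  set γ := V.ord (ℓ : Qb) with hγ
  have hγpos : 0 < γ := (Fermat.Agent.S13.ord_prime_pos A ℓ hℓ hA).2
  have hℓ0 : (ℓ : Qb) ≠ 0 := Nat.cast_ne_zero.mpr hℓ.ne_zero
  set E := baseField ℓ (S : Set Qb) with hE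
  let P : ℕ → Prop := fun g => 0 < g ∧ ∃ x ∈ E, x ≠ 0 ∧ D • V.ord x = (g : ℤ) • γ
  have hPD : P D := ⟨Nat.pos_of_ne_zero hD0, (ℓ : Qb), natCast_mem E ℓ, hℓ0, by
    rw [natCast_zsmul]⟩
  have hex : ∃ g, P g := ⟨D, hPD⟩
  obtain ⟨hgpos, ϖ, hϖE, hϖ0, hϖ⟩ := Nat.find_spec hex
  set g := Nat.find hex with hg
  have hmin : ∀ g' < g, ¬ P g' := fun g' hg' => Nat.find_min hex hg'
  have hϖpos : 0 < V.ord ϖ := by
    by_contra hcon
    have h1 : D • V.ord ϖ ≤ 0 := nsmul_nonpos (not_lt.mp hcon) D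
    rw [hϖ, natCast_zsmul] at h1
    exact absurd (nsmul_pos hγpos hgpos.ne') (not_lt.mpr h1)
  refine ⟨ϖ, hϖE, hϖ0, hϖpos, ?_⟩
  intro x hxE hx0
  obtain ⟨m, hm⟩ := hD x hxE hx0
  have hgZ : (0 : ℤ) < g := by exact_mod_cast hgpos
  set q := m / (g : ℤ) with hq
  set r := m % (g : ℤ) with hr
  have hr0 : 0 ≤ r := Int.emod_nonneg _ hgZ.ne'
  have hrg : r < g := Int.emod_lt_of_pos _ hgZ
  have hmqr : m = q * g + r := by
    rw [hq, hr, mul_comm]
    exact (Int.mul_ediv_add_emod m g).symm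
  set x' := x * ϖ ^ (-q) with hx'
  have hx'0 : x' ≠ 0 := mul_ne_zero hx0 (zpow_ne_zero _ hϖ0)
  have hx'E : x' ∈ E := E.mul_mem hxE (zpow_mem hϖE _)
  have hordx' : V.ord x' = V.ord x - q • V.ord ϖ := by
    rw [hx', V.ord_mul _ _ hx0 (zpow_ne_zero _ hϖ0), V.ord_zpow hϖ0, neg_zsmul, sub_eq_add_neg]
  have hDx' : D • V.ord x' = r • γ := by
    have h1 : D • (q • V.ord ϖ) = (q * g) • γ := by
      rw [smul_comm D q, hϖ, mul_zsmul]
    have h2 : r = m - q * g := by omega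
    rw [hordx', nsmul_sub, hm, h1, h2, sub_zsmul, sub_eq_add_neg]
  have hr_eq : r = 0 := by
    by_contra hne
    have hrpos : 0 < r := lt_of_le_of_ne hr0 (Ne.symm hne)
    refine hmin r.toNat (by omega) ⟨by omega, x', hx'E, hx'0, ?_⟩
    rw [hDx', Int.toNat_of_nonneg hr0]
  rw [hr_eq, zero_zsmul] at hDx'
  have h0 : V.ord x' = 0 := nsmul_eq_zero_imp hD0 hDx'
  exact ⟨q, by rw [hordx', sub_eq_zero] at h0; exact h0⟩

end Unif

section DVR
variable (A : ValuationSubring Qb)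

/-- Criterion: if the value group of `A` on a subfield `E` is generated by the order of a
uniformiser, then `A ∩ E` is a discrete valuation ring. -/
theorem isDiscreteValuationRing_comap_of_uniformizer (E : IntermediateField ℚ Qb) (ϖ : Qb)
    (hϖE : ϖ ∈ E) (hϖ0 : ϖ ≠ 0) (hpos : 0 < (ordOfSubring A).ord ϖ)
    (hgen : ∀ x ∈ E, x ≠ 0 → ∃ n : ℤ, (ordOfSubring A).ord x = n • (ordOfSubring A).ord ϖ) :
    IsDiscreteValuationRing (A.comap (algebraMap E Qb)) := by
  set V := ordOfSubring A with hV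
  set W := A.comap (algebraMap E Qb) with hW
  -- coercion to `Qb`
  let c : W → Qb := fun w => ((w : E) : Qb)
  have hc_mul : ∀ a b : W, c (a * b) = c a * c b := fun a b => rfl
  have hc_one : c 1 = 1 := rfl
  have hc0 : ∀ a : W, a ≠ 0 → c a ≠ 0 := by
    intro a ha h
    apply ha
    apply Subtype.ext
    apply Subtype.ext
    exact h
  have hcge : ∀ a : W, a ≠ 0 → 0 ≤ V.ord (c a) := by
    intro a ha
    have hmem : c a ∈ A := a.2
    exact ((ordOfSubring_ge_iff A _).mpr hmem).le (hc0 a ha)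
  have hunit : ∀ a : W, a ≠ 0 → V.ord (c a) = 0 → IsUnit a := by
    intro a ha h0
    have hinvA : (c a)⁻¹ ∈ A := by
      refine (ordOfSubring_ge_iff A _).mp (Or.inr ?_)
      rw [← hV, V.ord_inv (hc0 a ha), h0, neg_zero]
    have hmem : ((a : E)⁻¹ : E) ∈ W := by
      refine ValuationSubring.mem_comap.mpr ?_
      simpa [c] using hinvA
    refine IsUnit.of_mul_eq_one (⟨(a : E)⁻¹, hmem⟩ : W) ?_
    apply Subtype.ext
    have hne : (a : E) ≠ 0 := fun h => ha (Subtype.ext h)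
    exact mul_inv_cancel₀ hne
  have hunit' : ∀ a : W, IsUnit a → V.ord (c a) = 0 := by
    intro a ha
    obtain ⟨b, hb⟩ := ha.exists_right_inv
    have ha0 : a ≠ 0 := ha.ne_zero
    have hb0 : b ≠ 0 := by
      rintro rfl
      rw [mul_zero] at hb
      exact zero_ne_one hb
    have h1 := congrArg c hb
    rw [hc_mul, hc_one] at h1
    have h2 := congrArg V.ord h1
    rw [V.ord_mul _ _ (hc0 a ha0) (hc0 b hb0), V.ord_one] at h2
    have h3 := hcge a ha0
    have h4 := hcge b hb0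
    refine le_antisymm ?_ h3
    by_contra hcon
    have : 0 < V.ord (c a) + V.ord (c b) := add_pos_of_pos_of_nonneg (not_le.mp hcon) h4
    rw [h2] at this
    exact lt_irrefl _ this
  -- the uniformiser as an element of `W`
  have hϖA : ϖ ∈ A := (ordOfSubring_ge_iff A _).mp (Or.inr hpos.le)
  let p : W := ⟨⟨ϖ, hϖE⟩, hϖA⟩
  have hcp : c p = ϖ := rfl
  have hp0 : p ≠ 0 := by
    intro h
    have := congrArg c h
    exact hϖ0 this
  have hgen' : ∀ a : W, a ≠ 0 → ∃ n : ℕ, V.ord (c a) = n • V.ord ϖ := by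
    intro a ha
    obtain ⟨n, hn⟩ := hgen (c a) (a : E).2 (hc0 a ha)
    have hn0 : 0 ≤ n := by
      by_contra hneg
      obtain ⟨k, rfl⟩ : ∃ k : ℕ, n = -((k : ℤ) + 1) := ⟨(-n - 1).toNat, by omega⟩
      have h1 : (-((k : ℤ) + 1)) • V.ord ϖ < 0 := by
        rw [neg_zsmul, neg_lt_zero]
        have : ((k : ℤ) + 1) = ((k + 1 : ℕ) : ℤ) := by push_cast; ring
        rw [this, natCast_zsmul]
        exact nsmul_pos hpos (by omega)
      rw [← hn] at h1
      exact absurd (hcge a ha) (not_le.mpr h1)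
    refine ⟨n.toNat, ?_⟩
    rw [hn]
    conv_lhs => rw [← Int.toNat_of_nonneg hn0]
    rw [natCast_zsmul]
  have hinj : ∀ i j : ℕ, i • V.ord ϖ = j • V.ord ϖ → i = j := by
    intro i j hij
    by_contra hne
    rcases lt_or_gt_of_ne hne with h | h
    · exact absurd hij (ne_of_lt (nsmul_lt_nsmul_left hpos h))
    · exact absurd hij.symm (ne_of_lt (nsmul_lt_nsmul_left hpos h))
  refine IsDiscreteValuationRing.ofHasUnitMulPowIrreducibleFactorization ⟨p, ?_, ?_⟩
  · rw [irreducible_iff]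
    refine ⟨?_, ?_⟩
    · intro hu
      have := hunit' p hu
      rw [hcp] at this
      exact absurd this hpos.ne'
    · intro a b hab
      have ha0 : a ≠ 0 := by
        rintro rfl
        rw [zero_mul] at hab
        exact hp0 hab
      have hb0 : b ≠ 0 := by
        rintro rfl
        rw [mul_zero] at hab
        exact hp0 hab
      obtain ⟨i, hi⟩ := hgen' a ha0
      obtain ⟨j, hj⟩ := hgen' b hb0
      have h1 := congrArg c hab
      rw [hc_mul, hcp] at h1
      have h2 := congrArg V.ord h1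
      rw [V.ord_mul _ _ (hc0 a ha0) (hc0 b hb0), hi, hj, ← add_nsmul] at h2
      have h3 : 1 = i + j := hinj 1 (i + j) (by rw [one_nsmul]; exact h2)
      rcases Nat.eq_zero_or_pos i with hi0 | hipos
      · left
        exact hunit a ha0 (by rw [hi, hi0, zero_nsmul])
      · right
        have hj0 : j = 0 := by omega
        exact hunit b hb0 (by rw [hj, hj0, zero_nsmul])
  · intro x hx
    obtain ⟨n, hn⟩ := hgen' x hx
    refine ⟨n, ?_⟩
    -- the unit `x / p ^ n`
    have hpn0 : c (p ^ n) ≠ 0 := hc0 _ (pow_ne_zero n hp0)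
    have hcpn : c (p ^ n) = ϖ ^ n := rfl
    have hquotA : c x * (ϖ ^ n)⁻¹ ∈ A := by
      refine (ordOfSubring_ge_iff A _).mp (Or.inr ?_)
      rw [← hV, V.ord_mul _ _ (hc0 x hx) (inv_ne_zero (pow_ne_zero n hϖ0)),
        V.ord_inv (pow_ne_zero n hϖ0), V.ord_pow hϖ0, hn, add_neg_cancel]
    have hmem : ((x : E) * ((p : E) ^ n)⁻¹ : E) ∈ W := by
      refine ValuationSubring.mem_comap.mpr ?_
      simpa [c, p] using hquotA
    let u : W := ⟨(x : E) * ((p : E) ^ n)⁻¹, hmem⟩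
    have hpE0 : ((p : E) ^ n) ≠ 0 := by
      intro h
      apply pow_ne_zero n hp0
      apply Subtype.ext
      exact h
    have hmul : p ^ n * u = x := by
      apply Subtype.ext
      change (p : E) ^ n * ((x : E) * ((p : E) ^ n)⁻¹) = (x : E)
      field_simp
    have hu0 : u ≠ 0 := by
      rintro h
      rw [h, mul_zero] at hmul
      exact hx hmul.symm
    have hcu : c u = c x * (ϖ ^ n)⁻¹ := by
      simp [c, u, p]
    have hordu : V.ord (c u) = 0 := by
      rw [hcu, V.ord_mul _ _ (hc0 x hx) (inv_ne_zero (pow_ne_zero n hϖ0)),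
        V.ord_inv (pow_ne_zero n hϖ0), V.ord_pow hϖ0, hn, add_neg_cancel]
    obtain ⟨u', hu'⟩ := hunit u hu0 hordu
    exact ⟨u', by rw [hu', hmul]⟩

end DVR

section Residue
variable (A : ValuationSubring Qb) {ℓ : ℕ}

theorem mem_nonunits_iff_residue (a : A) :
    (a : Qb) ∈ A.nonunits ↔ IsLocalRing.residue A a = 0 := by
  rw [IsLocalRing.residue_eq_zero_iff, ValuationSubring.coe_mem_nonunits_iff]

/-- The residue field of `A` has characteristic `ℓ`. -/
theorem charP_residueField (hℓ : ℓ.Prime) (hA : A.LiesOverPrime ℓ) :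
    CharP (IsLocalRing.ResidueField A) ℓ := by
  rw [CharP.charP_iff_prime_eq_zero hℓ]
  have h : IsLocalRing.residue A (ℓ : A) = 0 :=
    (mem_nonunits_iff_residue A _).mp (by
      have h1 : (((ℓ : A) : Qb)) = (ℓ : Qb) := by simp
      rw [h1]
      exact hA)
  simpa using h

/-- Every nonzero residue class of `A` is a root of unity of order prime to `ℓ`. -/
theorem exists_pow_residue_eq_one (hℓ : ℓ.Prime) (hA : A.LiesOverPrime ℓ) (a : A)
    (ha : IsLocalRing.residue A a ≠ 0) :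
    ∃ n : ℕ, ¬ ℓ ∣ n ∧ (IsLocalRing.residue A a) ^ n = 1 := by
  classical
  have : Fact ℓ.Prime := ⟨hℓ⟩
  have hchar := charP_residueField A hℓ hA
  let _ : Algebra (ZMod ℓ) (IsLocalRing.ResidueField A) := ZMod.algebra _ ℓ
  have halg : IsAlgebraic (ZMod ℓ) (IsLocalRing.residue A a) := by
    have h1 : IsAlgebraic ℤ (a : Qb) :=
      (IsFractionRing.isAlgebraic_iff ℤ ℚ Qb).mpr ((AlgebraicClosure.isAlgebraic ℚ).isAlgebraic _)
    obtain ⟨p, hp0, hp⟩ := h1
    have hprim := p.isPrimitive_primPart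
    have hpp : aeval (a : Qb) p.primPart = 0 := Polynomial.aeval_primPart_eq_zero hp0 hp
    refine ⟨p.primPart.map (Int.castRingHom (ZMod ℓ)), ?_, ?_⟩
    · intro h0
      obtain ⟨e, he⟩ := exists_eq_C_mul_of_map_eq_zero ℓ _ h0
      have hu : IsUnit (ℓ : ℤ) := hprim (ℓ : ℤ) ⟨e, he⟩
      rw [Int.isUnit_iff] at hu
      have h2 := hℓ.one_lt
      omega
    · have hA0 : Polynomial.eval₂ (Int.castRingHom A) a p.primPart = 0 := by
        apply Subtype.ext
        have h3 := Polynomial.hom_eval₂ p.primPart (Int.castRingHom A) A.subtype a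
        change (A.subtype (Polynomial.eval₂ (Int.castRingHom A) a p.primPart)) = 0
        have h4 : (A.subtype.comp (Int.castRingHom A)) = algebraMap ℤ Qb := RingHom.ext_int _ _
        rw [h4] at h3
        exact h3.trans hpp
      have h5 := Polynomial.hom_eval₂ p.primPart (Int.castRingHom A) (IsLocalRing.residue A) a
      rw [hA0, map_zero] at h5
      rw [Polynomial.aeval_def, Polynomial.eval₂_map]
      have h6 : ((algebraMap (ZMod ℓ) (IsLocalRing.ResidueField A)).comp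
          (Int.castRingHom (ZMod ℓ))) = (IsLocalRing.residue A).comp (Int.castRingHom A) :=
        RingHom.ext_int _ _
      rw [h6]
      exact h5.symm
  have hint : IsIntegral (ZMod ℓ) (IsLocalRing.residue A a) := halg.isIntegral
  let K' := IntermediateField.adjoin (ZMod ℓ) {IsLocalRing.residue A a}
  have hfd : FiniteDimensional (ZMod ℓ) K' := IntermediateField.adjoin.finiteDimensional hint
  have hfin : Finite K' := Module.finite_of_finite (ZMod ℓ)
  let _ : Fintype K' := Fintype.ofFinite K'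
  have hcharK : CharP K' ℓ :=
    charP_of_injective_algebraMap (algebraMap (ZMod ℓ) K').injective ℓ
  let y : K' := ⟨IsLocalRing.residue A a, IntermediateField.mem_adjoin_simple_self _ _⟩
  have hy0 : y ≠ 0 := fun h => ha (congrArg Subtype.val h)
  have h1 := FiniteField.pow_card_sub_one_eq_one y hy0
  obtain ⟨f, -, hcard⟩ := FiniteField.card K' ℓ
  refine ⟨Fintype.card K' - 1, ?_, ?_⟩
  · rw [hcard]
    intro hdvd
    have h2 : ℓ ∣ ℓ ^ (f : ℕ) := dvd_pow_self ℓ f.ne_zero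
    have h1le : 1 ≤ ℓ ^ (f : ℕ) := Nat.one_le_pow _ _ hℓ.pos
    have h3 := Nat.dvd_sub h2 hdvd
    rw [Nat.sub_sub_self h1le] at h3
    exact hℓ.one_lt.ne' (Nat.dvd_one.mp h3)
  · exact congrArg Subtype.val h1

/-- Every residue class of `A` is represented by `0` or a root of unity of order prime to `ℓ`;
in particular by an element of `ℚ(μ_n : ℓ ∤ n)`. -/
theorem exists_cyclo_congr (hℓ : ℓ.Prime) (hA : A.LiesOverPrime ℓ) (a : Qb) (ha : a ∈ A) :
    ∃ b ∈ cycloField ℓ, b ∈ A ∧ a - b ∈ A.nonunits := by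
  by_cases h0 : IsLocalRing.residue A ⟨a, ha⟩ = 0
  · exact ⟨0, zero_mem _, A.zero_mem, by
      simpa using (mem_nonunits_iff_residue A ⟨a, ha⟩).mpr h0⟩
  obtain ⟨n, hn, hpow⟩ := exists_pow_residue_eq_one A hℓ hA ⟨a, ha⟩ h0
  have hn0 : n ≠ 0 := by
    rintro rfl
    exact hn (dvd_zero _)
  have : NeZero (n : ℚ) := ⟨Nat.cast_ne_zero.mpr hn0⟩
  have : NeZero n := ⟨hn0⟩
  have hchar := charP_residueField A hℓ hA
  obtain ⟨ζ, hζ⟩ := HasEnoughRootsOfUnity.exists_primitiveRoot Qb n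
  have hζA : ζ ∈ A := mem_of_pow_eq_one A hn0 hζ.pow_eq_one
  have hprim : IsPrimitiveRoot (IsLocalRing.residue A ⟨ζ, hζA⟩) n := by
    refine IsPrimitiveRoot.mk_of_lt _ (Nat.pos_of_ne_zero hn0) ?_ ?_
    · rw [← map_pow]
      have : (⟨ζ, hζA⟩ : A) ^ n = 1 := Subtype.ext (by simpa using hζ.pow_eq_one)
      rw [this, map_one]
    · intro l hl0 hln h1
      have hω : ζ ^ l ≠ 1 := hζ.pow_ne_one_of_pos_of_lt hl0.ne' hln
      have hsum : ∑ i ∈ Finset.range n, (ζ ^ l) ^ i = 0 := by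
        have h2 := mul_geom_sum (ζ ^ l) n
        rw [← pow_mul, mul_comm l n, pow_mul, hζ.pow_eq_one, one_pow, sub_self] at h2
        exact (mul_eq_zero.mp h2).resolve_left (sub_ne_zero.mpr hω)
      have hsumA : ∑ i ∈ Finset.range n, ((⟨ζ, hζA⟩ : A) ^ l) ^ i = 0 := by
        apply Subtype.ext
        change (A.subtype (∑ i ∈ Finset.range n, ((⟨ζ, hζA⟩ : A) ^ l) ^ i)) = 0
        rw [map_sum, ← hsum]
        simp
      have h3 := congrArg (IsLocalRing.residue A) hsumA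
      rw [map_sum] at h3
      simp only [map_pow, h1, one_pow, Finset.sum_const, Finset.card_range, nsmul_eq_mul, mul_one,
        map_zero] at h3
      exact hn ((CharP.cast_eq_zero_iff (IsLocalRing.ResidueField A) ℓ n).mp h3)
  obtain ⟨i, -, hi⟩ := hprim.eq_pow_of_pow_eq_one hpow
  refine ⟨ζ ^ i, ?_, pow_mem hζA i, ?_⟩
  · exact IntermediateField.subset_adjoin ℚ _
      ⟨n, hn, by rw [← pow_mul, mul_comm, pow_mul, hζ.pow_eq_one, one_pow]⟩
  · have h4 := (mem_nonunits_iff_residue A (⟨a, ha⟩ - ⟨ζ, hζA⟩ ^ i)).mpr (by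
      rw [map_sub, map_pow, hi, sub_self])
    simpa using h4

end Residue


/-- The base ring `W = A ∩ E` for `E = baseField ℓ S`. -/
noncomputable abbrev baseRing (A : ValuationSubring Qb) (ℓ : ℕ) (S : Set Qb) :
    ValuationSubring (baseField ℓ S) :=
  A.comap (algebraMap (baseField ℓ S) Qb)

/-- The inclusion `W → A`. -/
noncomputable def baseRingIncl (A : ValuationSubring Qb) (ℓ : ℕ) (S : Set Qb) : baseRing A ℓ S →+* A where
  toFun w := ⟨((w : baseField ℓ S) : Qb), w.2⟩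
  map_one' := rfl
  map_mul' _ _ := rfl
  map_zero' := rfl
  map_add' _ _ := rfl

@[simp]
theorem coe_baseRingIncl (A : ValuationSubring Qb) (ℓ : ℕ) (S : Set Qb) (w : baseRing A ℓ S) :
    ((baseRingIncl A ℓ S w : A) : Qb) = ((w : baseField ℓ S) : Qb) := rfl

theorem baseRingIncl_injective (A : ValuationSubring Qb) (ℓ : ℕ) (S : Set Qb) :
    Function.Injective (baseRingIncl A ℓ S) := by
  intro a b h
  apply Subtype.ext
  apply Subtype.ext
  exact congrArg (fun x : A => (x : Qb)) h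

instance isLocalHom_baseRingIncl (A : ValuationSubring Qb) (ℓ : ℕ) (S : Set Qb) :
    IsLocalHom (baseRingIncl A ℓ S) where
  map_nonunit w hw := by
    obtain ⟨b, hb⟩ := hw.exists_right_inv
    have hb' : ((w : baseField ℓ S) : Qb) * (b : Qb) = 1 := congrArg Subtype.val hb
    have hw0 : ((w : baseField ℓ S) : Qb) ≠ 0 := left_ne_zero_of_mul_eq_one hb'
    have hbeq : (b : Qb) = (((w : baseField ℓ S)⁻¹ : baseField ℓ S) : Qb) := by
      rw [IntermediateField.coe_inv]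
      exact eq_inv_of_mul_eq_one_right hb'
    have hmem : ((w : baseField ℓ S)⁻¹ : baseField ℓ S) ∈ baseRing A ℓ S := by
      refine ValuationSubring.mem_comap.mpr ?_
      change (((w : baseField ℓ S)⁻¹ : baseField ℓ S) : Qb) ∈ A
      rw [← hbeq]
      exact b.2
    refine IsUnit.of_mul_eq_one (⟨(w : baseField ℓ S)⁻¹, hmem⟩ : baseRing A ℓ S) ?_
    apply Subtype.ext
    have hne : (w : baseField ℓ S) ≠ 0 := fun h => hw0 (by rw [h]; rfl)
    exact mul_inv_cancel₀ hne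

section Final
variable (A : ValuationSubring Qb) {ℓ : ℕ}

/-- **P0, part 1.** `A ∩ ℚ(μ_n (ℓ ∤ n), S)` is a discrete valuation ring for finite `S`. -/
theorem isDiscreteValuationRing_baseRing (hℓ : ℓ.Prime) (hA : A.LiesOverPrime ℓ)
    (S : Finset Qb) : IsDiscreteValuationRing (baseRing A ℓ (S : Set Qb)) := by
  obtain ⟨ϖ, hϖE, hϖ0, hpos, hgen⟩ := exists_uniformizer A hℓ hA S
  exact isDiscreteValuationRing_comap_of_uniformizer A _ ϖ hϖE hϖ0 hpos hgen

/-- Every element of `A` is congruent to an element of the base ring. -/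
theorem exists_baseRing_congr (hℓ : ℓ.Prime) (hA : A.LiesOverPrime ℓ) (S : Set Qb) (a : A) :
    ∃ w : baseRing A ℓ S, a - baseRingIncl A ℓ S w ∈ IsLocalRing.maximalIdeal A := by
  obtain ⟨b, hbL, hbA, hb⟩ := exists_cyclo_congr A hℓ hA (a : Qb) a.2
  have hbE : b ∈ baseField ℓ S := cycloField_le_baseField ℓ S hbL
  refine ⟨⟨⟨b, hbE⟩, hbA⟩, ?_⟩
  rw [← IsLocalRing.residue_eq_zero_iff, ← mem_nonunits_iff_residue]
  exact hb

/-- **P0, part 2.** The residue field of the base ring is the whole residue field of `A`. -/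
theorem bijective_residueFieldMap (hℓ : ℓ.Prime) (hA : A.LiesOverPrime ℓ) (S : Set Qb) :
    Function.Bijective (IsLocalRing.ResidueField.map (baseRingIncl A ℓ S)) := by
  refine ⟨RingHom.injective _, ?_⟩
  intro x
  obtain ⟨a, rfl⟩ := IsLocalRing.residue_surjective x
  obtain ⟨w, hw⟩ := exists_baseRing_congr A hℓ hA S a
  refine ⟨IsLocalRing.residue _ w, ?_⟩
  rw [IsLocalRing.ResidueField.map_residue]
  rw [← IsLocalRing.residue_eq_zero_iff, map_sub, sub_eq_zero] at hw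
  exact hw.symm

/-- The residue field of `A` is algebraically closed. -/
theorem isAlgClosed_residueField : IsAlgClosed (IsLocalRing.ResidueField A) := by
  refine IsAlgClosed.of_exists_root _ ?_
  intro p hpm hpirr
  obtain ⟨q, hq, hdeg, hqm⟩ := Polynomial.lifts_and_degree_eq_and_monic
    ((Polynomial.mem_lifts p).mpr
      (Polynomial.map_surjective _ IsLocalRing.residue_surjective p)) hpm
  have hqdeg : (q.map A.subtype).degree ≠ 0 := by
    rw [Polynomial.degree_map_eq_of_injective A.subtype_injective, hdeg]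
    exact (Polynomial.degree_pos_of_irreducible hpirr).ne'
  obtain ⟨x, hx⟩ := IsAlgClosed.exists_root (q.map A.subtype) hqdeg
  have hxint : IsIntegral A x := ⟨q, hqm, by
    rw [Polynomial.IsRoot.def, Polynomial.eval_map] at hx
    exact hx⟩
  obtain ⟨y, rfl⟩ := IsIntegrallyClosed.isIntegral_iff.mp hxint
  refine ⟨IsLocalRing.residue A y, ?_⟩
  have hy : q.eval y = 0 := by
    apply Subtype.ext
    rw [Polynomial.IsRoot.def, Polynomial.eval_map] at hx
    have h1 := Polynomial.hom_eval₂ q (RingHom.id A) A.subtype y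
    rw [RingHom.comp_id] at h1
    rw [Polynomial.eval₂_id] at h1
    exact h1.trans hx
  rw [← hq, Polynomial.eval_map]
  have h2 := Polynomial.hom_eval₂ q (RingHom.id A) (IsLocalRing.residue A) y
  rw [RingHom.comp_id, Polynomial.eval₂_id, hy, map_zero] at h2
  exact h2.symm

/-- **P0, part 3.** The residue field of the base ring is algebraically closed. -/
theorem isAlgClosed_residueField_baseRing (hℓ : ℓ.Prime) (hA : A.LiesOverPrime ℓ)
    (S : Set Qb) : IsAlgClosed (IsLocalRing.ResidueField (baseRing A ℓ S)) := by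
  have := isAlgClosed_residueField A
  exact IsAlgClosed.of_ringEquiv _ _
    (RingEquiv.ofBijective _ (bijective_residueFieldMap A hℓ hA S)).symm

/-- The residue field of the base ring has characteristic `ℓ`. -/
theorem charP_residueField_baseRing (hℓ : ℓ.Prime) (hA : A.LiesOverPrime ℓ) (S : Set Qb) :
    CharP (IsLocalRing.ResidueField (baseRing A ℓ S)) ℓ := by
  have := charP_residueField A hℓ hA
  exact (RingHom.charP_iff (IsLocalRing.ResidueField.map (baseRingIncl A ℓ S))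
    (RingHom.injective _) ℓ).mpr this

/-- **P0 summary.** For every finite set `S` of algebraic numbers there is a subfield `E ⊇ S`
of `AlgebraicClosure ℚ`, containing all roots of unity of order prime to `ℓ`, such that
`W = A ∩ E` is a discrete valuation ring with algebraically closed residue field of
characteristic `ℓ`, and every residue class of `A` has a representative in `E`. -/
theorem exists_dvr_subfield (hℓ : ℓ.Prime) (hA : A.LiesOverPrime ℓ) (S : Finset Qb) :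
    ∃ E : IntermediateField ℚ Qb, (∀ x ∈ S, x ∈ E) ∧
      (∀ x : Qb, (∃ n : ℕ, ¬ ℓ ∣ n ∧ x ^ n = 1) → x ∈ E) ∧
      IsDiscreteValuationRing (A.comap (algebraMap E Qb)) ∧
      IsAlgClosed (IsLocalRing.ResidueField (A.comap (algebraMap E Qb))) ∧
      CharP (IsLocalRing.ResidueField (A.comap (algebraMap E Qb))) ℓ ∧
      ∀ a ∈ A, ∃ b : E, (b : Qb) ∈ A ∧ a - (b : Qb) ∈ A.nonunits := by
  refine ⟨baseField ℓ (S : Set Qb), fun x hx => subset_baseField ℓ _ (Finset.mem_coe.mpr hx),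
    fun x hx => cycloField_le_baseField ℓ _ (IntermediateField.subset_adjoin ℚ _ hx),
    isDiscreteValuationRing_baseRing A hℓ hA S, isAlgClosed_residueField_baseRing A hℓ hA _,
    charP_residueField_baseRing A hℓ hA _, ?_⟩
  intro a ha
  obtain ⟨b, hbL, hbA, hb⟩ := exists_cyclo_congr A hℓ hA a ha
  exact ⟨⟨b, cycloField_le_baseField ℓ _ hbL⟩, hbA, hb⟩

end Final

end Fermat.Agent.S18.BaseDVR
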