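import Fermat.Prelude.Def_ModularCurve_ReductionModL
import Fermat.Agent.S24.Hurwitz
import Fermat.Agent.S24.BaseChange
import Fermat.Agent.S24.CoeffBC
import Fermat.Agent.S24.ComplexPlaces

/-!
# S18, package P7a: the Kummer witness extracted from the reduction hypothesis

From `ReductionInputsModL A N` and a nonzero class `z` of `J₀(N)` killed by some `m` prime to `ℓ`
whose reduction vanishes we produce a prime `s ≠ ℓ` and two `A`-integral `q`-series `Y₁`, `Y₂`
in the function field with equal nonzero reductions, such that `w = Y₁ / Y₂` has all orders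
divisible by `s` but is not an `s`-th power.
-/

set_option autoImplicit false
set_option linter.unusedSectionVars false

namespace Fermat.Agent.S18

open AlgebraicCurve ModularCurve IntermediateField HahnSeries

namespace Witness

/-! ### Generic facts on places -/

section Generic

variable {K F : Type*} [Field K] [Field F] [Algebra K F]

/-- nonnegative order means membership in the valuation ring -/
theorem mem_of_ord_nonneg (v : Place K F) {f : F} (hf : 0 ≤ v.ord f) :
    f ∈ v.toValuationSubring := by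
  rcases eq_or_ne f 0 with rfl | h0
  · exact zero_mem _
  · exact (S24.Places.ord_nonneg_iff_mem v h0).mp hf

theorem ord_nonneg_of_mem (v : Place K F) {f : F} (hf : f ∈ v.toValuationSubring) :
    0 ≤ v.ord f := by
  rcases eq_or_ne f 0 with rfl | h0
  · simp
  · exact (S24.Places.ord_nonneg_iff_mem v h0).mpr hf

/-- at a place of degree one, an integral element is congruent to a constant -/
theorem exists_const_of_deg_one (v : Place K F) (hdeg : v.deg = 1) {u : F}
    (hu : u ∈ v.toValuationSubring) :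
    ∃ a : K, u = algebraMap K F a ∨ 0 < v.ord (u - algebraMap K F a) := by
  have hbij := (Algebra.finrank_eq_one_iff_bijective_algebraMap (F := K)
    (E := v.ResidueField)).mp hdeg
  obtain ⟨a, ha⟩ := hbij.2 (IsLocalRing.residue v.toValuationSubring ⟨u, hu⟩)
  refine ⟨a, ?_⟩
  by_cases h0 : u = algebraMap K F a
  · exact Or.inl h0
  · right
    have hmem : (⟨u, hu⟩ - algebraMap K v.toValuationSubring a : v.toValuationSubring) ∈
        IsLocalRing.maximalIdeal v.toValuationSubring := by
      rw [← IsLocalRing.residue_eq_zero_iff, map_sub, sub_eq_zero]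
      exact ha.symm
    have hne : (⟨u, hu⟩ - algebraMap K v.toValuationSubring a : v.toValuationSubring) ≠ 0 := by
      intro h
      apply h0
      have := congrArg Subtype.val h
      simpa [sub_eq_zero] using this
    have := (S24.Places.ord_pos_iff_mem_maximalIdeal v _ hne).mpr hmem
    simpa using this

/-- the degree of an effective divisor which is positive at a place of degree one is positive -/
theorem degree_pos_of_nonneg (E : Divisor K F) (hE : ∀ v, 0 ≤ E v) (v₁ : Place K F)
    (hdeg : v₁.deg = 1) (h1 : 0 < E v₁) : 0 < Divisor.degree E := by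
  classical
  have hdecomp : Divisor.degree E = E.sum (fun v n => n * (v.deg : ℤ)) := by
    simp [Divisor.degree, Finsupp.liftAddHom_apply]
  rw [hdecomp, Finsupp.sum]
  have hmem : v₁ ∈ E.support := by
    rw [Finsupp.mem_support_iff]; exact h1.ne'
  have hle : E v₁ * (v₁.deg : ℤ) ≤ ∑ v ∈ E.support, E v * (v.deg : ℤ) :=
    Finset.single_le_sum (f := fun v => E v * (v.deg : ℤ))
      (fun v _ => mul_nonneg (hE v) (Int.natCast_nonneg _)) hmem
  have : 0 < E v₁ * (v₁.deg : ℤ) := by rw [hdeg]; simpa using h1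
  exact lt_of_lt_of_le this hle

/-- coercion of `(a - c) * b` from an intermediate field -/
theorem coe_sub_mul {K E : Type*} [Field K] [Field E] [Algebra K E] (S : IntermediateField K E)
    (a b : S) (c : K) :
    (((a - algebraMap K S c) * b : S) : E) = ((a : E) - algebraMap K E c) * (b : E) := by
  push_cast
  rfl

end Generic


/-! ### The function field over `ℚ̄` -/

section Bar

variable (N : ℕ) [NeZero N]

local notation "L" => AlgebraicClosure ℚ

/-- `j` is transcendental and the function field is finite over `ℚ̄(j)` -/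
theorem bar_transcendental_finite :
    Transcendental L (S24.jBC L N) ∧ FiniteDimensional L⟮S24.jBC L N⟯ (S24.FF L N) := by
  obtain ⟨ι, φ, hφ, hLD, hgen, hφj⟩ := S24.exists_barToComplex N
  obtain ⟨hxC, hfdC, -⟩ := S24.complex_places N
  have hxC' : Transcendental ℂ (φ (S24.jBC L N)) := by rw [hφj]; exact hxC
  have hfdC' : FiniteDimensional ℂ⟮φ (S24.jBC L N)⟯ (S24.FF ℂ N) := by
    rw [hφj]; exact hfdC
  obtain ⟨hx, hfd, -⟩ := S24.baseChange_finrank ι φ hφ hLD hgen (S24.jBC L N) hxC'
  exact ⟨hx, hfd⟩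

/-- all places of the function field over `ℚ̄` have degree one -/
theorem bar_deg_eq_one (v : Place L (modularFunctionFieldBar N)) : v.deg = 1 := by
  obtain ⟨hx, hfd⟩ := bar_transcendental_finite N
  exact S24.place_deg_eq_one (S24.jBC L N) hx v

/-- there is a place -/
theorem bar_nonempty_place : Nonempty (Place L (modularFunctionFieldBar N)) := by
  obtain ⟨hx, hfd⟩ := bar_transcendental_finite N
  obtain ⟨s, hs, hsum⟩ := S24.exists_finset_zeros (S24.jBC L N) hx
  have hpos : 0 < Module.finrank L⟮S24.jBC L N⟯ (S24.FF L N) := Module.finrank_pos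
  have hne : s.Nonempty := by
    by_contra h
    rw [Finset.not_nonempty_iff_eq_empty] at h
    rw [h, Finset.sum_empty] at hsum
    have : (0 : ℤ) < (Module.finrank L⟮S24.jBC L N⟯ (S24.FF L N) : ℤ) := by exact_mod_cast hpos
    omega
  obtain ⟨v, -⟩ := hne
  exact ⟨v⟩

/-- the divisor of a nonzero function, of degree zero -/
theorem bar_exists_divisor (f : modularFunctionFieldBar N) (hf : f ≠ 0) :
    ∃ D : Divisor L (modularFunctionFieldBar N),
      (∀ v, D v = v.ord f) ∧ Divisor.degree D = 0 := by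
  classical
  obtain ⟨hx, hfd⟩ := bar_transcendental_finite N
  obtain ⟨s, hs, hsum⟩ := S24.sum_ord_eq_zero (S24.jBC L N) hx f hf
  refine ⟨Finsupp.onFinset s (fun v => v.ord f) (fun v hv => hs v hv), fun v => rfl, ?_⟩
  have hdecomp : ∀ E : Divisor L (modularFunctionFieldBar N),
      Divisor.degree E = E.sum (fun v n => n * (v.deg : ℤ)) := by
    intro E
    simp [Divisor.degree, Finsupp.liftAddHom_apply]
  rw [hdecomp, Finsupp.onFinset_sum _ (by intro v; simp)]
  rw [← hsum]
  refine Finset.sum_congr rfl fun v _ => ?_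
  rw [bar_deg_eq_one N v]; simp

end Bar


/-! ### Integral series and lifting from the residue function field -/

section Integral

local notation "L" => AlgebraicClosure ℚ

variable (A : ValuationSubring L) {k : Type*} [Field k] (π : A →+* k) (N : ℕ) [NeZero N]

/-- the series `y` with coefficients in `A` lies in the function field, and so does its
reduction -/
def IsMem (y : LaurentSeries A) : Prop :=
  coeffMap A.subtype y ∈ modularFunctionFieldBar N ∧
    coeffMap π y ∈
      modularFunctionFieldFullC k N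

variable {A π N}

theorem IsMem.add {y z : LaurentSeries A} (hy : IsMem A π N y) (hz : IsMem A π N z) :
    IsMem A π N (y + z) := by
  refine ⟨?_, ?_⟩
  · rw [map_add]; exact add_mem hy.1 hz.1
  · rw [map_add]; exact add_mem hy.2 hz.2

theorem IsMem.mul {y z : LaurentSeries A} (hy : IsMem A π N y) (hz : IsMem A π N z) :
    IsMem A π N (y * z) := by
  refine ⟨?_, ?_⟩
  · rw [map_mul]; exact mul_mem hy.1 hz.1
  · rw [map_mul]; exact mul_mem hy.2 hz.2

theorem IsMem.neg {y : LaurentSeries A} (hy : IsMem A π N y) : IsMem A π N (-y) := by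
  refine ⟨?_, ?_⟩
  · rw [map_neg]; exact neg_mem hy.1
  · rw [map_neg]; exact neg_mem hy.2

theorem IsMem.sub {y z : LaurentSeries A} (hy : IsMem A π N y) (hz : IsMem A π N z) :
    IsMem A π N (y - z) := by
  rw [sub_eq_add_neg]; exact hy.add hz.neg

theorem IsMem.pow {y : LaurentSeries A} (hy : IsMem A π N y) (n : ℕ) : IsMem A π N (y ^ n) := by
  refine ⟨?_, ?_⟩
  · rw [map_pow]; exact pow_mem hy.1 n
  · rw [map_pow]; exact pow_mem hy.2 n

variable (π N) in
theorem isMem_const (a : A) : IsMem A π N (HahnSeries.single 0 a) := by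
  refine ⟨?_, ?_⟩
  · rw [coeffMap_single, ← algebraMap_laurentSeries_eq_single]
    exact IntermediateField.algebraMap_mem _ _
  · rw [coeffMap_single, ← algebraMap_laurentSeries_eq_single]
    exact IntermediateField.algebraMap_mem _ _

theorem isMem_one : IsMem A π N 1 := by
  have h := isMem_const π N 1
  have h1 : (HahnSeries.single 0 (1 : A) : LaurentSeries A) = 1 := rfl
  rwa [h1] at h

theorem isMem_jd {d : ℕ} [NeZero d] (hd : d ∣ N) : IsMem A π N (jqNModC A d) := by
  refine ⟨?_, ?_⟩
  · rw [coeffMap_jqNModC]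
    have h1 : jqNModC L d = coeffEmb L (jqNModC ℚ d) := by
      rw [coeffEmb, coeffMap_jqNModC]
    rw [h1]
    exact coeffEmb_mem_laurentBaseChange L (jqModCd_mem_full ℚ N hd)
  · rw [coeffMap_jqNModC]
    exact jqModCd_mem_full _ N hd

/-- every element of the residue function field is a quotient of reductions of integral
series of the function field -/
theorem exists_lift (hπ : Function.Surjective π) (b : LaurentSeries k)
    (hb : b ∈ modularFunctionFieldFullC k N) :
    ∃ P Q : LaurentSeries A, IsMem A π N P ∧ IsMem A π N Q ∧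
      coeffMap π Q ≠ 0 ∧
      b * coeffMap π Q = coeffMap π P := by
  unfold modularFunctionFieldFullC at hb
  induction hb using IntermediateField.adjoin_induction with
  | mem x hx =>
    obtain ⟨d, hne, hd, rfl⟩ := hx
    have := hne
    refine ⟨jqNModC A d, 1, isMem_jd hd, isMem_one, ?_, ?_⟩
    · rw [map_one]; exact one_ne_zero
    · rw [map_one, mul_one, coeffMap_jqNModC]; rfl
  | algebraMap c =>
    obtain ⟨a, rfl⟩ := hπ c
    refine ⟨HahnSeries.single 0 a, 1, isMem_const π N a, isMem_one, ?_, ?_⟩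
    · rw [map_one]; exact one_ne_zero
    · rw [map_one, mul_one, coeffMap_single, algebraMap_laurentSeries_eq_single]
  | add x y _ _ hx hy =>
    obtain ⟨P₁, Q₁, hP₁, hQ₁, hne₁, h₁⟩ := hx
    obtain ⟨P₂, Q₂, hP₂, hQ₂, hne₂, h₂⟩ := hy
    refine ⟨P₁ * Q₂ + P₂ * Q₁, Q₁ * Q₂, (hP₁.mul hQ₂).add (hP₂.mul hQ₁), hQ₁.mul hQ₂, ?_, ?_⟩
    · rw [map_mul]; exact mul_ne_zero hne₁ hne₂
    · rw [map_add, map_mul, map_mul, map_mul, ← h₁, ← h₂]; ring
  | inv x _ hx =>
    obtain ⟨P, Q, hP, hQ, hne, h⟩ := hx
    by_cases hx0 : x = 0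
    · subst hx0
      refine ⟨0, 1, ?_, isMem_one, ?_, ?_⟩
      · have := (isMem_one (π := π) (N := N)).sub (isMem_one (π := π) (N := N))
        rwa [sub_self] at this
      · rw [map_one]; exact one_ne_zero
      · simp
    · have hP0 : coeffMap π P ≠ 0 := by
        rw [← h]; exact mul_ne_zero hx0 hne
      refine ⟨Q, P, hQ, hP, hP0, ?_⟩
      rw [← h]; field_simp
  | mul x y _ _ hx hy =>
    obtain ⟨P₁, Q₁, hP₁, hQ₁, hne₁, h₁⟩ := hx
    obtain ⟨P₂, Q₂, hP₂, hQ₂, hne₂, h₂⟩ := hy
    refine ⟨P₁ * P₂, Q₁ * Q₂, hP₁.mul hP₂, hQ₁.mul hQ₂, ?_, ?_⟩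
    · rw [map_mul]; exact mul_ne_zero hne₁ hne₂
    · rw [map_mul, map_mul, ← h₁, ← h₂]; ring

end Integral


/-! ### Elements attached to integral series -/

section Elements

local notation "L" => AlgebraicClosure ℚ

variable {A : ValuationSubring L} {k : Type*} [Field k] {π : A →+* k} {N : ℕ} [NeZero N]

/-- the element of the function field over `ℚ̄` attached to an integral series -/
noncomputable def toBar (y : LaurentSeries A) (hy : IsMem A π N y) : modularFunctionFieldBar N :=
  ⟨coeffMap A.subtype y, hy.1⟩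

/-- the element of the residue function field attached to an integral series -/
noncomputable def toRes (y : LaurentSeries A) (hy : IsMem A π N y) :
    modularFunctionFieldFullC k N :=
  ⟨coeffMap π y, hy.2⟩

theorem toBar_mul (y z : LaurentSeries A) (hy : IsMem A π N y) (hz : IsMem A π N z) :
    toBar (y * z) (hy.mul hz) = toBar y hy * toBar z hz :=
  Subtype.ext (map_mul _ _ _)

theorem toRes_mul (y z : LaurentSeries A) (hy : IsMem A π N y) (hz : IsMem A π N z) :
    toRes (y * z) (hy.mul hz) = toRes y hy * toRes z hz :=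
  Subtype.ext (map_mul _ _ _)

theorem toBar_pow (y : LaurentSeries A) (hy : IsMem A π N y) (n : ℕ) :
    toBar (y ^ n) (hy.pow n) = toBar y hy ^ n :=
  Subtype.ext (map_pow _ _ _)

theorem toRes_pow (y : LaurentSeries A) (hy : IsMem A π N y) (n : ℕ) :
    toRes (y ^ n) (hy.pow n) = toRes y hy ^ n :=
  Subtype.ext (map_pow _ _ _)

theorem toBar_one : toBar (1 : LaurentSeries A) (isMem_one (π := π) (N := N)) = 1 :=
  Subtype.ext (map_one _)

theorem toRes_one : toRes (1 : LaurentSeries A) (isMem_one (π := π) (N := N)) = 1 :=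
  Subtype.ext (map_one _)

theorem toRes_ne_zero_iff (y : LaurentSeries A) (hy : IsMem A π N y) :
    toRes y hy ≠ 0 ↔ coeffMap π y ≠ 0 := by
  rw [ne_eq, ne_eq, ← Subtype.coe_inj]; rfl

theorem toBar_ne_zero (y : LaurentSeries A) (hy : IsMem A π N y)
    (h : coeffMap π y ≠ 0) : toBar y hy ≠ 0 := by
  intro h0
  apply h
  have h1 : coeffMap A.subtype y = 0 := congrArg Subtype.val h0
  have h2 : y = 0 := by
    ext k
    have := congrArg (fun t => t.coeff k) h1
    simpa using this
  rw [h2, map_zero]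

end Elements


/-! ### Auxiliary algebra -/

section Aux

/-- a nonzero element killed by `m ≠ 0` has a multiple of prime order `s ∣ m` -/
theorem exists_prime_order {G : Type*} [AddCommGroup G] (z : G) (m : ℕ) (hm : m ≠ 0)
    (hmz : m • z = 0) (hz0 : z ≠ 0) :
    ∃ s c : ℕ, s.Prime ∧ s ∣ m ∧ c • z ≠ 0 ∧ s • (c • z) = 0 := by
  have hd : addOrderOf z ∣ m := addOrderOf_dvd_of_nsmul_eq_zero hmz
  have hd1 : addOrderOf z ≠ 1 := fun h => hz0 (AddMonoid.addOrderOf_eq_one_iff.mp h)
  have hd0 : addOrderOf z ≠ 0 := fun h => hm (by rw [h] at hd; exact Nat.eq_zero_of_zero_dvd hd)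
  have hs : (addOrderOf z).minFac.Prime := Nat.minFac_prime hd1
  have hsd : (addOrderOf z).minFac ∣ addOrderOf z := Nat.minFac_dvd _
  have ⟨c, hc⟩ := hsd
  refine ⟨(addOrderOf z).minFac, c, hs, hsd.trans hd, ?_, ?_⟩
  · intro h
    have h1 : addOrderOf z ∣ c := addOrderOf_dvd_of_nsmul_eq_zero h
    have hc0 : c ≠ 0 := by
      rintro rfl
      rw [mul_zero] at hc
      exact hd0 hc
    have h2 : addOrderOf z ≤ c := Nat.le_of_dvd (Nat.pos_of_ne_zero hc0) h1
    have h3 : c < addOrderOf z := by
      conv_rhs => rw [hc]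
      exact lt_mul_of_one_lt_left (Nat.pos_of_ne_zero hc0) hs.one_lt
    omega
  · rw [← mul_nsmul', ← hc]
    exact addOrderOf_nsmul_eq_zero z

local notation "L" => AlgebraicClosure ℚ

/-- the residue field of a valuation ring of `ℚ̄` has all `s`-th roots -/
theorem exists_root_residue (A : ValuationSubring L) {k : Type*} [Field k] (π : A →+* k)
    (hπ : Function.Surjective π) (s : ℕ) (hs : 0 < s)
    (c : k) : ∃ β : k, β ^ s = c := by
  obtain ⟨a, rfl⟩ := hπ c
  obtain ⟨x, hx⟩ := IsAlgClosed.exists_pow_nat_eq (a : L) hs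
  have hxA : x ∈ A := by
    rcases A.mem_or_inv_mem x with h | h
    · exact h
    · rcases eq_or_ne x 0 with rfl | hx0
      · exact zero_mem _
      · have h1 : x = (x⁻¹) ^ (s - 1) * (a : L) := by
          rw [← hx]
          have : x ^ s = x ^ (s - 1) * x := by
            rw [← pow_succ, Nat.sub_add_cancel hs]
          rw [this, inv_pow, ← mul_assoc, inv_mul_cancel₀ (pow_ne_zero _ hx0), one_mul]
        rw [h1]
        exact mul_mem (pow_mem h _) a.2
  refine ⟨π ⟨x, hxA⟩, ?_⟩
  rw [← map_pow]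
  congr 1
  exact Subtype.ext hx

end Aux


/-! ### Consequences of the reduction hypothesis -/

section Main

local notation "L" => AlgebraicClosure ℚ

variable {A : ValuationSubring L} {k : Type*} [Field k] {π : A →+* k} {N : ℕ} [NeZero N]

/-- principal divisors generated by integral ones: every element of the closure is the
difference of the divisors of two integral series with nonzero reductions -/
theorem exists_int_of_mem_closure (E : Divisor L (modularFunctionFieldBar N))
    (hE : E ∈ AddSubgroup.closure (integralPrincipalDivisors A π N)) :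
    ∃ (yp ym : LaurentSeries A) (hp : IsMem A π N yp) (hm : IsMem A π N ym),
      coeffMap π yp ≠ 0 ∧ coeffMap π ym ≠ 0 ∧
      ∀ P : Place L (modularFunctionFieldBar N),
        E P = P.ord (toBar yp hp) - P.ord (toBar ym hm) := by
  induction hE using AddSubgroup.closure_induction with
  | mem E hE =>
    obtain ⟨y, hy, hyk, hne, hD⟩ := hE
    refine ⟨y, 1, ⟨hy, hyk⟩, isMem_one, hne, ?_, fun P => ?_⟩
    · rw [map_one]; exact one_ne_zero
    · rw [hD P, toBar_one, Place.ord_one, sub_zero]; rfl
  | zero =>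
    refine ⟨1, 1, isMem_one, isMem_one, ?_, ?_, fun P => ?_⟩
    · rw [map_one]; exact one_ne_zero
    · rw [map_one]; exact one_ne_zero
    · simp
  | add E E' _ _ hE hE' =>
    obtain ⟨yp, ym, hp, hm, hnp, hnm, h⟩ := hE
    obtain ⟨yp', ym', hp', hm', hnp', hnm', h'⟩ := hE'
    refine ⟨yp * yp', ym * ym', hp.mul hp', hm.mul hm', ?_, ?_, fun P => ?_⟩
    · rw [map_mul]; exact mul_ne_zero hnp hnp'
    · rw [map_mul]; exact mul_ne_zero hnm hnm'
    · rw [Finsupp.add_apply, h P, h' P, toBar_mul yp yp' hp hp', toBar_mul ym ym' hm hm',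
        P.ord_mul (toBar_ne_zero _ hp hnp) (toBar_ne_zero _ hp' hnp'),
        P.ord_mul (toBar_ne_zero _ hm hnm) (toBar_ne_zero _ hm' hnm')]
      ring
  | neg E _ hE =>
    obtain ⟨yp, ym, hp, hm, hnp, hnm, h⟩ := hE
    refine ⟨ym, yp, hm, hp, hnm, hnp, fun P => ?_⟩
    rw [Finsupp.neg_apply, h P]; ring

variable {r : Place L (modularFunctionFieldBar N) →
  Place k (modularFunctionFieldFullC k N)}

/-- the reduction of the divisor of an integral series is the divisor of its reduction -/
theorem mapDomain_divisor (hr : IsPlaceReductionAlong A π N r)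
    (y : LaurentSeries A) (hy : IsMem A π N y) (hne : coeffMap π y ≠ 0)
    (D : Divisor L (modularFunctionFieldBar N)) (hD : ∀ P, D P = P.ord (toBar y hy))
    (Q : Place k
      (modularFunctionFieldFullC k N)) :
    Finsupp.mapDomain r D Q = Q.ord (toRes y hy) :=
  hr.2 y hy.1 hy.2 hne D hD Q

/-- a function of the residue function field without zeros and poles is a constant -/
theorem const_of_ord_zero (hπ : Function.Surjective π) (hr : IsPlaceReductionAlong A π N r)
    (b : modularFunctionFieldFullC k N)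
    (hb : ∀ Q : Place k
      (modularFunctionFieldFullC k N), Q.ord b = 0) :
    ∃ c : k,
      b = algebraMap k
        (modularFunctionFieldFullC k N) c := by
  classical
  by_contra hcon
  push Not at hcon
  obtain ⟨P₁⟩ := bar_nonempty_place N
  have hdeg : (r P₁).deg = 1 := (hr.1 P₁).trans (bar_deg_eq_one N P₁)
  have hbmem : ∀ Q : Place k
      (modularFunctionFieldFullC k N), b ∈ Q.toValuationSubring :=
    fun Q => mem_of_ord_nonneg Q (hb Q).ge
  obtain ⟨c, hc⟩ := exists_const_of_deg_one (r P₁) hdeg (hbmem (r P₁))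
  have hc' := hc.resolve_left (hcon c)
  -- lift `b` and `c`
  obtain ⟨P, V, hP, hV, hVne, hPV⟩ := exists_lift (N := N) hπ (b : LaurentSeries _) b.2
  obtain ⟨a, rfl⟩ := hπ c
  obtain ⟨y, hy_def⟩ : ∃ y : LaurentSeries A, y = P - HahnSeries.single 0 a * V := ⟨_, rfl⟩
  have hy : IsMem A π N y := by rw [hy_def]; exact hP.sub ((isMem_const π N a).mul hV)
  have hbc : b - algebraMap k
      (modularFunctionFieldFullC k N) (π a) ≠ 0 :=
    sub_ne_zero.mpr (hcon _)
  have hyres : toRes y hy = (b - algebraMap k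
      (modularFunctionFieldFullC k N) (π a)) *
        toRes V hV := by
    apply Subtype.ext
    rw [coe_sub_mul]
    show coeffMap π y = _
    rw [hy_def, map_sub, map_mul, coeffMap_single, ← hPV,
      algebraMap_laurentSeries_eq_single]
    exact (sub_mul _ _ _).symm
  have hVres : toRes V hV ≠ 0 := (toRes_ne_zero_iff V hV).mpr hVne
  have hyres0 : toRes y hy ≠ 0 := by rw [hyres]; exact mul_ne_zero hbc hVres
  have hyne : coeffMap π y ≠ 0 := (toRes_ne_zero_iff y hy).mp hyres0
  obtain ⟨Dy, hDy, hdegy⟩ := bar_exists_divisor N (toBar y hy) (toBar_ne_zero y hy hyne)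
  obtain ⟨DV, hDV, hdegV⟩ := bar_exists_divisor N (toBar V hV) (toBar_ne_zero V hV hVne)
  obtain ⟨E, hE_def⟩ : ∃ E, E = Finsupp.mapDomain r (Dy - DV) := ⟨_, rfl⟩
  have hEapp : ∀ Q, E Q = Q.ord (b - algebraMap k
      (modularFunctionFieldFullC k N) (π a)) := by
    intro Q
    rw [hE_def, Finsupp.mapDomain_sub, Finsupp.sub_apply, mapDomain_divisor hr y hy hyne Dy hDy,
      mapDomain_divisor hr V hV hVne DV hDV, hyres, Q.ord_mul hbc hVres]
    ring
  have hEdeg : Divisor.degree E = 0 := by
    rw [hE_def, degree_mapDomain_of_deg_eq hr.1, map_sub, hdegy, hdegV, sub_zero]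
  have hEnonneg : ∀ Q, 0 ≤ E Q := by
    intro Q
    rw [hEapp]
    exact ord_nonneg_of_mem Q (sub_mem (hbmem Q) (Q.algebraMap_mem' _))
  have hE1 : 0 < E (r P₁) := by rw [hEapp]; exact hc'
  have := degree_pos_of_nonneg E hEnonneg (r P₁) hdeg hE1
  omega

end Main


/-! ### The witness -/

section Witness

local notation "L" => AlgebraicClosure ℚ

variable {A : ValuationSubring L} {k : Type*} [Field k] {π : A →+* k} {N : ℕ} [NeZero N]

/-- **Kummer witness, for an arbitrary reduction map `r`.**  For every `r` satisfying the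
reduction specification, a nonzero class killed by `m` (prime to `ℓ`) whose reduction along `r`
vanishes yields a prime `s ≠ ℓ` and integral series `Y₁`, `Y₂` with equal nonzero reductions
such that `Y₁ / Y₂` has all orders divisible by `s` but is not an `s`-th power. -/
theorem exists_witness_of (hπ : Function.Surjective π) {ℓ : ℕ}
    (r : Place L (modularFunctionFieldBar N) → Place k (modularFunctionFieldFullC k N))
    (hr : IsPlaceReductionAlong A π N r) (hgen : PrincipalGeneratedByIntegral A π N)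
    (m : ℕ) (hm : ¬ ℓ ∣ m) (z : JZero N)
    (hmz : m • z = 0) (hz : reductionPic0Along r hr hgen z = 0) (hz0 : z ≠ 0) :
    ∃ s : ℕ, s.Prime ∧ s ≠ ℓ ∧
      ∃ (Y₁ Y₂ : LaurentSeries A) (h₁ : IsMem A π N Y₁) (h₂ : IsMem A π N Y₂),
        coeffMap π Y₁ = coeffMap π Y₂ ∧ coeffMap π Y₁ ≠ 0 ∧
        (∀ v : Place L (modularFunctionFieldBar N),
          (s : ℤ) ∣ v.ord (toBar Y₁ h₁ / toBar Y₂ h₂)) ∧
        ¬ ∃ a : modularFunctionFieldBar N, a ^ s = toBar Y₁ h₁ / toBar Y₂ h₂ := by
  classical
  have hm0 : m ≠ 0 := by rintro rfl; exact hm (dvd_zero _)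
  obtain ⟨s, c, hs, hsm, hcz, hscz⟩ := exists_prime_order z m hm0 hmz hz0
  have hsl : s ≠ ℓ := by rintro rfl; exact hm hsm
  have hs0 : (s : ℤ) ≠ 0 := by exact_mod_cast hs.ne_zero
  refine ⟨s, hs, hsl, ?_⟩
  obtain ⟨D, hD⟩ := Pic0.mk_surjective (c • z)
  -- `s • D` is principal
  have hsD : (s • (D : Divisor L (modularFunctionFieldBar N))) ∈
      Divisor.principal (K := L) (F := modularFunctionFieldBar N) := by
    have h1 : Pic0.mk (s • D) = 0 := by
      have : Pic0.mk (s • D) = s • Pic0.mk D := QuotientAddGroup.mk_nsmul _ D s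
      rw [this, hD, hscz]
    have h2 := (QuotientAddGroup.eq_zero_iff (s • D)).mp h1
    rw [AddSubgroup.mem_addSubgroupOf] at h2
    simpa using h2
  -- the reduction of `D` is principal
  have hred : Finsupp.mapDomain r (D : Divisor L (modularFunctionFieldBar N)) ∈
      Divisor.principal (K := k) (F := modularFunctionFieldFullC k N) := by
    have h1 : reductionPic0Along r hr hgen (Pic0.mk D) = 0 := by
      rw [hD, map_nsmul, hz, smul_zero]
    rw [reductionPic0Along_mk r hr hgen D] at h1
    have h2 := (QuotientAddGroup.eq_zero_iff _).mp h1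
    rw [AddSubgroup.mem_addSubgroupOf] at h2
    exact h2
  obtain ⟨g, hg0, hg⟩ := hred
  obtain ⟨yp, ym, hp, hmm, hnp, hnm, hord⟩ := exists_int_of_mem_closure _ (hgen hsD)
  have hsDapp : ∀ P : Place L (modularFunctionFieldBar N),
      (s • (D : Divisor L (modularFunctionFieldBar N))) P =
        (s : ℤ) * (D : Divisor L (modularFunctionFieldBar N)) P := by
    intro P
    rw [Finsupp.smul_apply, nsmul_eq_mul]
  obtain ⟨Dp, hDp, -⟩ := bar_exists_divisor N (toBar yp hp) (toBar_ne_zero yp hp hnp)
  obtain ⟨Dm, hDm, -⟩ := bar_exists_divisor N (toBar ym hmm) (toBar_ne_zero ym hmm hnm)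
  have hsDeq : s • (D : Divisor L (modularFunctionFieldBar N)) = Dp - Dm :=
    Finsupp.ext fun P => by rw [Finsupp.sub_apply, hDp, hDm, ← hord P]
  have hypne : toRes yp hp ≠ 0 := (toRes_ne_zero_iff yp hp).mpr hnp
  have hymne : toRes ym hmm ≠ 0 := (toRes_ne_zero_iff ym hmm).mpr hnm
  have key : ∀ Q : Place k (modularFunctionFieldFullC k N),
      (s : ℤ) * Q.ord g = Q.ord (toRes yp hp) - Q.ord (toRes ym hmm) := by
    intro Q
    have h1 := congrArg (fun E => (Finsupp.mapDomain.addMonoidHom r E) Q) hsDeq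
    simp only [map_nsmul, map_sub, Finsupp.mapDomain.addMonoidHom_apply, Finsupp.sub_apply,
      Finsupp.smul_apply, nsmul_eq_mul] at h1
    rw [hg Q, mapDomain_divisor hr yp hp hnp Dp hDp, mapDomain_divisor hr ym hmm hnm Dm hDm] at h1
    exact h1
  -- the unit `b`
  have hgs : g ^ s ≠ 0 := pow_ne_zero _ hg0
  obtain ⟨b, hb_def⟩ : ∃ b : modularFunctionFieldFullC k N,
      b = toRes yp hp * (toRes ym hmm * g ^ s)⁻¹ := ⟨_, rfl⟩
  have hb0 : b ≠ 0 := by
    rw [hb_def]; exact mul_ne_zero hypne (inv_ne_zero (mul_ne_zero hymne hgs))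
  have hb : ∀ Q : Place k (modularFunctionFieldFullC k N), Q.ord b = 0 := by
    intro Q
    have hzp : Q.ord (g ^ s) = (s : ℤ) * Q.ord g := by
      rw [← zpow_natCast, Q.ord_zpow]
    rw [hb_def, Q.ord_mul hypne (inv_ne_zero (mul_ne_zero hymne hgs)), Q.ord_inv,
      Q.ord_mul hymne hgs, hzp, key Q]
    ring
  obtain ⟨c₀, hc₀⟩ := const_of_ord_zero hπ hr b hb
  obtain ⟨β, hβ⟩ := exists_root_residue A π hπ s hs.pos c₀
  have hβ0 : β ≠ 0 := by
    rintro rfl
    rw [zero_pow hs.ne_zero] at hβ
    rw [← hβ, map_zero] at hc₀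
    exact hb0 hc₀
  obtain ⟨G, hG_def⟩ : ∃ G : modularFunctionFieldFullC k N,
      G = algebraMap k (modularFunctionFieldFullC k N) β * g := ⟨_, rfl⟩
  have hG0 : G ≠ 0 := by
    rw [hG_def]
    exact mul_ne_zero (by simpa using hβ0) hg0
  have hG : toRes yp hp = toRes ym hmm * G ^ s := by
    have h1 : toRes yp hp * (toRes ym hmm * g ^ s)⁻¹ =
        algebraMap k (modularFunctionFieldFullC k N) β ^ s := by
      rw [← hb_def, hc₀, ← hβ, map_pow]
    rw [hG_def, mul_pow, ← h1]
    field_simp
  obtain ⟨P, V, hP, hV, hVne, hPV⟩ := exists_lift (N := N) hπ (G : LaurentSeries k) G.2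
  have hGs : (G : LaurentSeries k) ≠ 0 := by
    intro h0
    exact hG0 (Subtype.ext h0)
  have hPne : coeffMap π P ≠ 0 := by
    rw [← hPV]; exact mul_ne_zero hGs hVne
  have hGc : coeffMap π yp = coeffMap π ym * (G : LaurentSeries k) ^ s := by
    have := congrArg (Subtype.val) hG
    simpa [toRes] using this
  refine ⟨yp * V ^ s, ym * P ^ s, hp.mul (hV.pow s), hmm.mul (hP.pow s), ?_, ?_, ?_, ?_⟩
  · rw [map_mul, map_mul, map_pow, map_pow, hGc, ← hPV, mul_pow]
    ring
  · rw [map_mul, map_pow]
    exact mul_ne_zero hnp (pow_ne_zero _ hVne)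
  · intro v
    have hVb : toBar V hV ≠ 0 := toBar_ne_zero V hV hVne
    have hPb : toBar P hP ≠ 0 := toBar_ne_zero P hP hPne
    have hypb : toBar yp hp ≠ 0 := toBar_ne_zero yp hp hnp
    have hymb : toBar ym hmm ≠ 0 := toBar_ne_zero ym hmm hnm
    have hzV : v.ord (toBar V hV ^ s) = (s : ℤ) * v.ord (toBar V hV) := by
      rw [← zpow_natCast, v.ord_zpow]
    have hzP : v.ord (toBar P hP ^ s) = (s : ℤ) * v.ord (toBar P hP) := by
      rw [← zpow_natCast, v.ord_zpow]
    rw [toBar_mul yp (V ^ s) hp (hV.pow s), toBar_mul ym (P ^ s) hmm (hP.pow s),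
      toBar_pow V hV s, toBar_pow P hP s, div_eq_mul_inv,
      v.ord_mul (mul_ne_zero hypb (pow_ne_zero _ hVb))
        (inv_ne_zero (mul_ne_zero hymb (pow_ne_zero _ hPb))),
      v.ord_inv, v.ord_mul hypb (pow_ne_zero _ hVb), v.ord_mul hymb (pow_ne_zero _ hPb),
      hzV, hzP]
    have h1 := hord v
    rw [hsDapp v] at h1
    refine ⟨(D : Divisor L (modularFunctionFieldBar N)) v + v.ord (toBar V hV) -
      v.ord (toBar P hP), ?_⟩
    linear_combination (-1 : ℤ) * h1
  · rintro ⟨a, ha⟩
    have hVb : toBar V hV ≠ 0 := toBar_ne_zero V hV hVne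
    have hPb : toBar P hP ≠ 0 := toBar_ne_zero P hP hPne
    have hypb : toBar yp hp ≠ 0 := toBar_ne_zero yp hp hnp
    have hymb : toBar ym hmm ≠ 0 := toBar_ne_zero ym hmm hnm
    rw [toBar_mul yp (V ^ s) hp (hV.pow s), toBar_mul ym (P ^ s) hmm (hP.pow s),
      toBar_pow V hV s, toBar_pow P hP s] at ha
    obtain ⟨a', ha'_def⟩ : ∃ a' : modularFunctionFieldBar N,
        a' = a * toBar P hP * (toBar V hV)⁻¹ := ⟨_, rfl⟩
    have ha's : a' ^ s = toBar yp hp * (toBar ym hmm)⁻¹ := by
      rw [ha'_def, mul_pow, mul_pow, ha, inv_pow]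
      field_simp
    have ha'0 : a' ≠ 0 := by
      intro h0
      rw [h0, zero_pow hs.ne_zero] at ha's
      exact mul_ne_zero hypb (inv_ne_zero hymb) ha's.symm
    have hprin : (D : Divisor L (modularFunctionFieldBar N)) ∈
        Divisor.principal (K := L) (F := modularFunctionFieldBar N) := by
      refine ⟨a', ha'0, fun v => ?_⟩
      have h1 : v.ord (a' ^ s) = (s : ℤ) * v.ord a' := by
        rw [← zpow_natCast, v.ord_zpow]
      have h2 := hord v
      rw [hsDapp v] at h2
      rw [ha's, v.ord_mul hypb (inv_ne_zero hymb), v.ord_inv] at h1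
      have h3 : (s : ℤ) * (D : Divisor L (modularFunctionFieldBar N)) v = (s : ℤ) * v.ord a' := by
        rw [h2, ← h1]; ring
      exact mul_left_cancel₀ hs0 h3
    apply hcz
    rw [← hD]
    exact (QuotientAddGroup.eq_zero_iff D).mpr (AddSubgroup.mem_addSubgroupOf.mpr hprin)

/-- **Kummer witness.**  The same for the reduction map chosen by the prelude's
`reductionAlong` (which is `reductionPic0Along` of a chosen `r`). -/
theorem exists_witness_along (hπ : Function.Surjective π) {ℓ : ℕ}
    (h : ReductionInputsAlong A π N) (m : ℕ) (hm : ¬ ℓ ∣ m) (z : JZero N)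
    (hmz : m • z = 0) (hz : reductionAlong A π N z = 0) (hz0 : z ≠ 0) :
    ∃ s : ℕ, s.Prime ∧ s ≠ ℓ ∧
      ∃ (Y₁ Y₂ : LaurentSeries A) (h₁ : IsMem A π N Y₁) (h₂ : IsMem A π N Y₂),
        coeffMap π Y₁ = coeffMap π Y₂ ∧ coeffMap π Y₁ ≠ 0 ∧
        (∀ v : Place L (modularFunctionFieldBar N),
          (s : ℤ) ∣ v.ord (toBar Y₁ h₁ / toBar Y₂ h₂)) ∧
        ¬ ∃ a : modularFunctionFieldBar N, a ^ s = toBar Y₁ h₁ / toBar Y₂ h₂ := by
  rw [reductionAlong_eq h] at hz
  exact exists_witness_of hπ h.choose h.choose_spec.1 h.choose_spec.2 m hm z hmz hz hz0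

/-- the witness in the form of the statement S18 (reduction at the residue field of `A`) -/
theorem exists_witness (N : ℕ) [NeZero N] {ℓ : ℕ} (A : ValuationSubring (AlgebraicClosure ℚ))
    (h : ReductionInputsModL A N) (m : ℕ) (hm : ¬ ℓ ∣ m) (z : JZero N)
    (hmz : m • z = 0) (hz : reductionModL A N z = 0) (hz0 : z ≠ 0) :
    ∃ s : ℕ, s.Prime ∧ s ≠ ℓ ∧
      ∃ (Y₁ Y₂ : LaurentSeries A) (h₁ : IsMem A (IsLocalRing.residue A) N Y₁)
        (h₂ : IsMem A (IsLocalRing.residue A) N Y₂),
        coeffMap (IsLocalRing.residue A) Y₁ = coeffMap (IsLocalRing.residue A) Y₂ ∧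
        coeffMap (IsLocalRing.residue A) Y₁ ≠ 0 ∧
        (∀ v : Place (AlgebraicClosure ℚ) (modularFunctionFieldBar N),
          (s : ℤ) ∣ v.ord (toBar Y₁ h₁ / toBar Y₂ h₂)) ∧
        ¬ ∃ a : modularFunctionFieldBar N, a ^ s = toBar Y₁ h₁ / toBar Y₂ h₂ :=
  exists_witness_along IsLocalRing.residue_surjective h m hm z hmz hz hz0

end Witness

end Witness

end Fermat.Agent.S18
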