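/-
S18, the reduction of the statement to the geometric core.

`KummerCore A π N ℓ` is the statement (free of any reduction map `r`) that the geometric part
of the argument proves: for a prime `s ≠ ℓ`, a quotient `Y₁ / Y₂` of two integral series with
equal nonzero reductions, all of whose orders are divisible by `s`, is an `s`-th power in the
function field over `ℚ̄`.

Given the core, the kernel of `reductionPic0Along r` contains no nonzero torsion class of order
prime to `ℓ`, for EVERY reduction map `r` satisfying the specification, and in particular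
the statement S18 follows.
-/
import Mathlib
import Fermat.Prelude.Def_ModularCurve_ReductionModL
import Fermat.Agent.S18.Witness

set_option autoImplicit false

namespace Fermat.Agent.S18

open ModularCurve AlgebraicCurve

namespace WitnessCore

open Witness

section Core

local notation "L" => AlgebraicClosure ℚ

variable (A : ValuationSubring L) {k : Type*} [Field k] (π : A →+* k) (N : ℕ) [NeZero N]

/-- The geometric core of S18 (no reduction map appears): every "Kummer datum" congruent
to `1` with divisor divisible by a prime `s ≠ ℓ` is an `s`-th power. -/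
def KummerCore (ℓ : ℕ) : Prop :=
  ∀ s : ℕ, s.Prime → s ≠ ℓ →
    ∀ (Y₁ Y₂ : LaurentSeries A) (h₁ : IsMem A π N Y₁) (h₂ : IsMem A π N Y₂),
      coeffMap π Y₁ = coeffMap π Y₂ → coeffMap π Y₁ ≠ 0 →
      (∀ v : Place L (modularFunctionFieldBar N),
        (s : ℤ) ∣ v.ord (toBar Y₁ h₁ / toBar Y₂ h₂)) →
      ∃ a : modularFunctionFieldBar N, a ^ s = toBar Y₁ h₁ / toBar Y₂ h₂

variable {A π N}

/-- **Injectivity on prime-to-`ℓ` torsion, for an arbitrary reduction map `r`.** -/
theorem injective_torsion_of {ℓ : ℕ} (hcore : KummerCore A π N ℓ)
    (hπ : Function.Surjective π)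
    (r : Place L (modularFunctionFieldBar N) → Place k (modularFunctionFieldFullC k N))
    (hr : IsPlaceReductionAlong A π N r) (hgen : PrincipalGeneratedByIntegral A π N)
    (m : ℕ) (hm : ¬ ℓ ∣ m) (z : JZero N)
    (hmz : m • z = 0) (hz : reductionPic0Along r hr hgen z = 0) : z = 0 := by
  by_contra hz0
  obtain ⟨s, hs, hsl, Y₁, Y₂, h₁, h₂, heq, hne, hord, hnot⟩ :=
    exists_witness_of hπ r hr hgen m hm z hmz hz hz0
  exact hnot (hcore s hs hsl Y₁ Y₂ h₁ h₂ heq hne hord)

/-- The same for the map `reductionAlong` of the prelude. -/
theorem injective_torsion_along {ℓ : ℕ} (hcore : KummerCore A π N ℓ)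
    (hπ : Function.Surjective π) (h : ReductionInputsAlong A π N)
    (m : ℕ) (hm : ¬ ℓ ∣ m) (z : JZero N)
    (hmz : m • z = 0) (hz : reductionAlong A π N z = 0) : z = 0 := by
  rw [reductionAlong_eq h] at hz
  exact injective_torsion_of hcore hπ h.choose h.choose_spec.1 h.choose_spec.2 m hm z hmz hz

end Core

/-- **S18 from the geometric core** (exactly the shape of the frozen statement, with the
core as an extra hypothesis). -/
theorem result_of_core (N : ℕ) [NeZero N] {ℓ : ℕ}
    (A : ValuationSubring (AlgebraicClosure ℚ))
    (hcore : KummerCore A (IsLocalRing.residue A) N ℓ)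
    (h : ModularCurve.ReductionInputsModL A N) (m : ℕ) (hm : ¬ ℓ ∣ m) (z : ModularCurve.JZero N)
    (hmz : m • z = 0) (hz : ModularCurve.reductionModL A N z = 0) :
    z = 0 :=
  injective_torsion_along hcore IsLocalRing.residue_surjective h m hm z hmz hz

end WitnessCore

end Fermat.Agent.S18
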