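import Mathlib
import Fermat.Prelude.Def_ModularCurve_ReductionModL
import Fermat.Agent.S18.Witness
import Fermat.Agent.S18.WitnessCore
import Fermat.Agent.S18.Descent
import Fermat.Agent.S18.BaseDVR

/-!
# S18: reduction of the statement to a core over a discrete valuation ring

`DVRCore N ℓ A` is the purely geometric statement over a *generic* coefficient field
`ι : L → ℚ̄` for which `W = A ∩ L` is a discrete valuation ring (with algebraically closed
residue field of characteristic `ℓ`, and `L` containing all roots of unity of order prime to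
`ℓ`): if `Z1, Z2 ∈ W((q))` lie in the function field `F_L = FF L N`, have equal non-zero
reductions, and `w' = Z1 / Z2` has all its orders at the places of `F_L` over `L` divisible by
a prime `s ≠ ℓ`, then the image of `w'` in `F_ℚ̄` is an `s`-th power.

`kummerCore_of_dvrCore` deduces the core of `WitnessCore` (hence S18, `result_of_dvrCore`) from
it, by the descent of `Descent.lean` and the base ring of `BaseDVR.lean`.
-/

set_option autoImplicit false

namespace Fermat.Agent.S18.TopReduction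

open AlgebraicCurve IntermediateField ModularCurve

local notation "Qb" => AlgebraicClosure ℚ

/-- **The DVR-level geometric core of S18**, for a generic coefficient field `ι : L → ℚ̄`;
`W = A.comap ι = A ∩ L`. -/
def DVRCore (N : ℕ) [NeZero N] (ℓ : ℕ) (A : ValuationSubring Qb) : Prop :=
  ∀ (L : Type) [Field L] [Algebra ℚ L] (ι : L →+* Qb),
    IsDiscreteValuationRing ↥(A.comap ι) →
    IsAlgClosed (IsLocalRing.ResidueField ↥(A.comap ι)) →
    CharP (IsLocalRing.ResidueField ↥(A.comap ι)) ℓ →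
    (∀ x : Qb, (∃ n : ℕ, ¬ ℓ ∣ n ∧ x ^ n = 1) → ∃ b : L, ι b = x) →
    ∀ s : ℕ, s.Prime → s ≠ ℓ →
    ∀ (Z1 Z2 : LaurentSeries ↥(A.comap ι))
      (g1 : coeffMap (A.comap ι).subtype Z1 ∈ laurentBaseChange L (modularFunctionFieldFull N))
      (g2 : coeffMap (A.comap ι).subtype Z2 ∈ laurentBaseChange L (modularFunctionFieldFull N)),
      coeffMap (IsLocalRing.residue ↥(A.comap ι)) Z1 =
        coeffMap (IsLocalRing.residue ↥(A.comap ι)) Z2 →
      coeffMap (IsLocalRing.residue ↥(A.comap ι)) Z1 ≠ 0 →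
      (∀ v : Place L (S24.FF L N),
        (s : ℤ) ∣ v.ord ((⟨_, g1⟩ : S24.FF L N) / ⟨_, g2⟩)) →
      ∃ b : S24.FF Qb N, b ^ s =
        S24.CoeffBC.bc ι (modularFunctionFieldFull N) ((⟨_, g1⟩ : S24.FF L N) / ⟨_, g2⟩)

/-- primitive roots of unity of order prime to `ℓ` exist in `L` as soon as the roots of unity
of `ℚ̄` of order prime to `ℓ` lie in the image of `ι` -/
theorem exists_isPrimitiveRoot {L : Type*} [Field L] (ι : L →+* Qb) {ℓ : ℕ}
    (hroots : ∀ x : Qb, (∃ n : ℕ, ¬ ℓ ∣ n ∧ x ^ n = 1) → ∃ b : L, ι b = x)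
    (n : ℕ) (hn : n ≠ 0) (hℓn : ¬ ℓ ∣ n) : ∃ ζ : L, IsPrimitiveRoot ζ n := by
  have : NeZero (n : Qb) := ⟨Nat.cast_ne_zero.mpr hn⟩
  have : NeZero n := ⟨hn⟩
  obtain ⟨ξ, hξ⟩ := HasEnoughRootsOfUnity.exists_primitiveRoot Qb n
  obtain ⟨b, hb⟩ := hroots ξ ⟨n, hℓn, hξ.pow_eq_one⟩
  refine ⟨b, IsPrimitiveRoot.of_map_of_injective (f := ι) ?_ ι.injective⟩
  rw [hb]
  exact hξ

/-- **S18's core from the DVR-level core.** -/
theorem kummerCore_of_dvrCore (N : ℕ) [NeZero N] {ℓ : ℕ} (hℓ : ℓ.Prime)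
    (A : ValuationSubring Qb) (hA : A.LiesOverPrime ℓ) (hcore : DVRCore N ℓ A) :
    WitnessCore.KummerCore A (IsLocalRing.residue A) N ℓ := by
  intro s hs hsl Y1 Y2 h1 h2 hred hne hdiv
  by_contra hnp
  obtain ⟨S, hS⟩ := Descent.exists_descent_full N A s Y1 Y2 h1.1 h2.1 hred hne hdiv hnp
  obtain ⟨E, hSE, hroots, hdvr, hac, hchar, -⟩ := BaseDVR.exists_dvr_subfield A hℓ hA S
  obtain ⟨Z1, Z2, g1, g2, -, -, hφ1, hφ2, hr, hn, -, -, hH1, -, -⟩ :=
    hS E (algebraMap E Qb) (fun a ha => ⟨⟨a, hSE a ha⟩, rfl⟩)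
  obtain ⟨b, hb⟩ := hcore E (algebraMap E Qb) hdvr hac hchar
    (fun x hx => ⟨⟨x, hroots x hx⟩, rfl⟩) s hs hsl Z1 Z2 g1 g2 hr hn hH1
  apply hnp
  refine ⟨b, ?_⟩
  rw [hb, map_div₀, hφ1, hφ2]
  rfl

/-- **S18 from the DVR-level core** (the shape of the frozen statement). -/
theorem result_of_dvrCore (N : ℕ) [NeZero N] {ℓ : ℕ} (hℓ : ℓ.Prime)
    (A : ValuationSubring Qb) (hA : A.LiesOverPrime ℓ) (hcore : DVRCore N ℓ A)
    (h : ModularCurve.ReductionInputsModL A N) (m : ℕ) (hm : ¬ ℓ ∣ m)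
    (z : ModularCurve.JZero N) (hmz : m • z = 0) (hz : ModularCurve.reductionModL A N z = 0) :
    z = 0 :=
  WitnessCore.result_of_core N A (kummerCore_of_dvrCore N hℓ A hA hcore) h m hm z hmz hz

end Fermat.Agent.S18.TopReduction
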