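import Mathlib
import Fermat.Agent.S18.CuspCore
import Fermat.Agent.S18.Contracts
import Fermat.Agent.S18.ContractsEps
import Fermat.Agent.S18.PGOut
import Fermat.Agent.S18.FunctionFieldKitCusp
import Fermat.Agent.S18.TopReduction

/-!
# S18, cusp chart: the instance and the contract

* `cusp_lift_adjoinRoot`: `CuspCore.cusp_lift_core` with the Kummer cover `Y' = F2(x0)`,
  `x0 ^ N = 1/j`, and `M = Frac (CuspRing W N)` constructed (no abstract field is left except
  `K = Frac (CuspBase L)`).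
* `gaussJ_iff_cuspBase`, `exists_pow_mul_isIntegralElem`: the dictionary between the ring-hom
  currency of `Contracts` (Gauss integrality over `W[j]`, integrality over `W[1/j]` up to powers
  of `1 - 1728/j`) and the typeclass currency over the cusp chart `CuspBase W`.
* `cusp_chartLift : Contracts.CuspChartLift N ℓ`: the contract of the cusp chart, from `KData`.
-/

set_option autoImplicit false
set_option linter.style.haveILetI false
set_option linter.unusedSectionVars false

namespace Fermat.Agent.S18.CuspInst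

open Polynomial Fermat.Agent.S18 Fermat.Agent.S18.Cusp

section AdjoinRoot

/-- **The cusp chart, concrete cover.**  As `CuspCore.cusp_lift_core`, with the Kummer cover
`Y' = F2(x0)`, `x0 ^ N = t0`, and `M = Frac (CuspRing W N)` constructed inside. -/
theorem cusp_lift_adjoinRoot
    {W L F2 K k : Type*} [CommRing W] [IsDomain W] [IsDiscreteValuationRing W]
    [Field L] [Algebra ℚ L] [Algebra W L] [IsFractionRing W L]
    [Field F2] [Algebra L F2] [Algebra W F2] [IsScalarTower W L F2]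
    {N : ℕ} (hN : 0 < N) (ζN : L) (hζN : IsPrimitiveRoot ζN N)
    (ϖ : W) (hϖ : Irreducible ϖ)
    (t0 : F2) (ht0 : Transcendental L t0) (h1 : 1 - 1728 * t0 ≠ 0)
    [Algebra (CuspBase L) F2] (hA : ∀ a, algebraMap (CuspBase L) F2 a = baseLift L t0 h1 a)
    [Algebra (CuspBase W) F2] (hD : ∀ a, algebraMap (CuspBase W) F2 a = baseLift W t0 h1 a)
    [Field K] [Algebra (CuspBase L) K] [IsFractionRing (CuspBase L) K] [Algebra K F2]
    [IsScalarTower (CuspBase L) K F2] [FiniteDimensional K F2]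
    (hF : ∀ P : Ideal (integralClosure (CuspBase L) F2), P.IsPrime → P ≠ ⊥ →
      (baseT L ∈ P.under (CuspBase L) → P.ramificationIdx (CuspBase L) ∣ N) ∧
      (baseT L ∉ P.under (CuspBase L) → P.ramificationIdx (CuspBase L) = 1))
    [Field k] (κ₀ : Type*) [Field κ₀] [Algebra k[X] κ₀] [IsFractionRing k[X] κ₀]
    (res : W →+* k) (hres : Function.Surjective res) (hker : ∀ a : W, res a = 0 ↔ ϖ ∣ a)
    (φJ : W[X] →+* F2) (hφC : ∀ a : W, φJ (C a) = algebraMap W F2 a) (hφX : φJ X * t0 = 1)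
    (θ : F2) (P : (W[X])[X]) (hP : P.Monic) (hPθ : eval₂ φJ θ P = 0)
    (hsep : ((P.map (mapRingHom res)).map (algebraMap k[X] κ₀)).Separable)
    (s : ℕ) (hs : s.Prime) (hsϖ : ¬ ϖ ∣ (s : W)) (ζs : L) (hζs : IsPrimitiveRoot ζs s)
    (u w : F2) (hw0 : w ≠ 0) (huw : u ^ s = w)
    (hwθ : w ∈ IntermediateField.adjoin L {t0, θ})
    (hgenF2 : IntermediateField.adjoin L {t0, θ, u} = ⊤)
    (hw : ∃ p : W[X], ¬ C ϖ ∣ p ∧ φJ.IsIntegralElem (φJ p * w))
    (hw' : ∃ p : W[X], ¬ C ϖ ∣ p ∧ φJ.IsIntegralElem (φJ p * w⁻¹))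
    (ε : F2) (hε : IsGaussInt (CuspBase W) (algebraMap W (CuspBase W) ϖ) ε)
    (hεε : ∃ d : F2, IsGaussInt (CuspBase W) (algebraMap W (CuspBase W) ϖ) d ∧
      ε ^ 2 - ε = algebraMap W (CuspBase W) ϖ • d) :
    ∃ e : F2, IsIntegral (CuspBase W) e ∧
      ∃ d : F2, IsGaussInt (CuspBase W) (algebraMap W (CuspBase W) ϖ) d ∧
        e - ε = algebraMap W (CuspBase W) ϖ • d := by
  classical
  -- the Kummer cover `x0 ^ N = t0`
  obtain ⟨g, hg, hgdvd⟩ := Polynomial.exists_irreducible_of_degree_pos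
    (f := (X ^ N - C t0 : F2[X])) (by rw [degree_X_pow_sub_C hN]; exact_mod_cast hN)
  haveI : Fact (Irreducible g) := ⟨hg⟩
  have hx0 : (AdjoinRoot.root g) ^ N = algebraMap F2 (AdjoinRoot g) t0 := by
    have h := (AdjoinRoot.aeval_eq (f := g) (X ^ N - C t0)).trans (AdjoinRoot.mk_eq_zero.mpr hgdvd)
    rw [map_sub, map_pow, aeval_X, aeval_C] at h
    exact sub_eq_zero.mp h
  have hgen : IntermediateField.adjoin F2 {AdjoinRoot.root g} = ⊤ :=
    IntermediateField.adjoin_eq_top_of_algebra F2 _ AdjoinRoot.adjoinRoot_eq_top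
  haveI : IsScalarTower W L (AdjoinRoot g) := IsScalarTower.of_algebraMap_eq fun a => by
    rw [AdjoinRoot.algebraMap_eq' W g, AdjoinRoot.algebraMap_eq' L g, RingHom.comp_apply,
      RingHom.comp_apply, IsScalarTower.algebraMap_apply W L F2]
  have h2 : 1 - 1728 * (AdjoinRoot.root g) ^ N ≠ 0 := by
    rw [hx0]
    intro h0
    apply h1
    apply (algebraMap F2 (AdjoinRoot g)).injective
    rw [map_sub, map_one, map_mul, map_ofNat, h0, map_zero]
  have htrL : Transcendental L (AdjoinRoot.root g) := by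
    intro halg
    have h3 : Transcendental L (algebraMap F2 (AdjoinRoot g) t0) :=
      FFKit.transcendental_algebraMap ht0
    rw [← hx0] at h3
    exact h3 (halg.pow N)
  have htrW : Transcendental W (AdjoinRoot.root g) :=
    htrL.restrictScalars (IsFractionRing.injective W L)
  -- the chart and its fraction field
  haveI : IsDomain (CuspRing W N) := cuspRing_isDomain W hN
  letI : Algebra (CuspRing W N) (AdjoinRoot g) :=
    (chartLift W N (AdjoinRoot.root g) h2).toRingHom.toAlgebra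
  have hinj : Function.Injective (chartLift W N (AdjoinRoot.root g) h2).toRingHom :=
    chartLift_injective N (AdjoinRoot.root g) h2 htrW
  letI : Algebra (FractionRing (CuspRing W N)) (AdjoinRoot g) :=
    FFKit.fracAlgebra (FractionRing (CuspRing W N))
      (chartLift W N (AdjoinRoot.root g) h2).toRingHom hinj
  haveI : IsScalarTower (CuspRing W N) (FractionRing (CuspRing W N)) (AdjoinRoot g) :=
    FFKit.fracAlgebra_isScalarTower (FractionRing (CuspRing W N)) _ hinj
  exact CuspCore.cusp_lift_core (K := K) (M := FractionRing (CuspRing W N))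
    (Y' := AdjoinRoot g) hN ζN hζN ϖ hϖ t0 h1 (AdjoinRoot.root g) hx0 h2 hgen hA hD
    (fun _ => rfl) hF κ₀ res hres hker φJ hφC hφX θ P hP hPθ hsep s hs hsϖ ζs hζs u w hw0 huw
    hwθ hgenF2 hw hw' ε hε hεε

end AdjoinRoot

section Currency

variable {W F2 : Type*} [CommRing W] [IsDomain W] [Field F2] [Algebra W F2]

/-- A ring hom `W[X] → F2` over `W` is the evaluation at the image of `X`. -/
theorem ringHom_eq_aeval (φ : W[X] →+* F2) (hφC : ∀ a : W, φ (C a) = algebraMap W F2 a) :
    (aeval (φ X) : W[X] →ₐ[W] F2).toRingHom = φ := by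
  refine Polynomial.ringHom_ext (fun a => ?_) ?_
  · show aeval (φ X) (C a) = φ (C a)
    rw [aeval_C, hφC]
  · show aeval (φ X) X = φ X
    rw [aeval_X]

/-- Gauss integrality over `W[j]` (ring-hom currency along the `j`-evaluation `φJ`) is Gauss
integrality over the cusp chart `CuspBase W` (`t ↦ t0 = 1/j`). -/
theorem gaussJ_iff_cuspBase (π : W) (hπ : Prime π) (φJ : W[X] →+* F2)
    (hφC : ∀ a : W, φJ (C a) = algebraMap W F2 a) (t0 : F2) (hφX : φJ X * t0 = 1)
    (h1 : 1 - 1728 * t0 ≠ 0) [Algebra (CuspBase W) F2]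
    (hD : ∀ a, algebraMap (CuspBase W) F2 a = baseLift W t0 h1 a) (z : F2) :
    (∃ p : W[X], ¬ C π ∣ p ∧ φJ.IsIntegralElem (φJ p * z)) ↔
      IsGaussInt (CuspBase W) (algebraMap W (CuspBase W) π) z := by
  have e := ringHom_eq_aeval φJ hφC
  have h2 : ∀ P : W[X], algebraMap (CuspBase W) F2 (algebraMap W[X] (CuspBase W) P) =
      aeval t0 P := fun P => by rw [hD, baseLift_algebraMap]
  have key := (CuspGauss.gaussInt_inv_iff π (φJ X) t0 hφX z).trans
    (CuspGauss.gaussInt_away_iff π hπ (cuspG W) (not_C_dvd_cuspG W hπ.not_isUnit) t0 h2 z)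
  rw [algebraMap_base_eq W (cuspG W) π, ← key]
  have hp : ∀ p : W[X], aeval (φJ X) p = φJ p :=
    fun p => congrArg (fun f : W[X] →+* F2 => f p) e
  constructor
  · rintro ⟨p, hp1, hint⟩
    refine ⟨p, hp1, ?_⟩
    rw [e, hp]
    exact hint
  · rintro ⟨p, hp1, hint⟩
    refine ⟨p, hp1, ?_⟩
    rw [e, hp] at hint
    exact hint

/-- Integrality over the cusp chart `CuspBase W` clears to integrality over `W[t]` after
multiplication by a power of `1 - 1728 t`. -/
theorem exists_pow_mul_isIntegralElem (φT : W[X] →+* F2)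
    (hφC : ∀ a : W, φT (C a) = algebraMap W F2 a) (t0 : F2) (hφX : φT X = t0)
    (h1 : 1 - 1728 * t0 ≠ 0) [Algebra (CuspBase W) F2]
    (hD : ∀ a, algebraMap (CuspBase W) F2 a = baseLift W t0 h1 a) (e : F2)
    (he : IsIntegral (CuspBase W) e) :
    ∃ m : ℕ, φT.IsIntegralElem ((1 - 1728 * t0) ^ m * e) := by
  have e0 := ringHom_eq_aeval φT hφC
  rw [hφX] at e0
  letI : Algebra W[X] F2 := (aeval t0 : W[X] →ₐ[W] F2).toRingHom.toAlgebra
  haveI : IsScalarTower W[X] (CuspBase W) F2 := IsScalarTower.of_algebraMap_eq fun P => by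
    rw [hD, baseLift_algebraMap]; rfl
  obtain ⟨m, hm⟩ := CuspGauss.exists_pow_smul_isIntegral_of_away (cuspG W) he
  refine ⟨m, ?_⟩
  have e1 : (cuspG W ^ m) • e = (1 - 1728 * t0) ^ m * e := by
    rw [Algebra.smul_def]
    show aeval t0 (cuspG W ^ m) * e = _
    rw [map_pow, aeval_cuspG]
  rw [← e1, ← e0]
  exact hm

end Currency

section Contract

open ModularCurve AlgebraicCurve

/-- **The cusp chart contract.**  For the data `KData` over the discrete valuation ring `W`, the
sheet idempotent `eps s u` of `F2 = F(u)` lifts modulo `π` to an element integral over the cusp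
chart `W[1/j, 1/(j - 1728)]`. -/
theorem cusp_chartLift (N : ℕ) [NeZero N] (ℓ : ℕ) : Contracts.CuspChartLift N ℓ := by
  intro L _ _ ι W s Z1 Z2 h π hπ F2 _ _ u hu hdeg
  classical
  haveI := h.dvr
  have hN : 0 < N := Nat.pos_of_ne_zero (NeZero.ne N)
  have hs := h.prime_s
  -- structures on `F2`
  letI : Algebra L F2 :=
    ((algebraMap (S24.FF L N) F2).comp (algebraMap L (S24.FF L N))).toAlgebra
  haveI : IsScalarTower L (S24.FF L N) F2 := IsScalarTower.of_algebraMap_eq fun _ => rfl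
  letI : Algebra ↥W F2 := (Contracts.toF2 W N F2).toAlgebra
  haveI : IsScalarTower ↥W L F2 := IsScalarTower.of_algebraMap_eq fun _ => rfl
  -- `j` and `t0 = 1/j`
  have hj0 : Contracts.jF2 L N F2 ≠ 0 := by
    rw [Contracts.jF2, Ne, map_eq_zero]; exact RamIdeal.jBC_ne_zero ι N
  have ht0e : (Contracts.jF2 L N F2)⁻¹ = algebraMap (S24.FF L N) F2 (S24.jBC L N)⁻¹ := by
    rw [map_inv₀]; rfl
  have ht0 : Transcendental L (Contracts.jF2 L N F2)⁻¹ := by
    rw [ht0e]; exact FFKit.transcendental_algebraMap (FFKit.transcendental_jBC_inv ι N)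
  have h1 : (1 : F2) - 1728 * (Contracts.jF2 L N F2)⁻¹ ≠ 0 := by
    rw [ht0e]
    intro h0
    apply FFKit.one_sub_jBC_inv_ne_zero ι N
    apply (algebraMap (S24.FF L N) F2).injective
    rw [map_sub, map_one, map_mul, map_ofNat, h0, map_zero]
  -- the base chart structures on `F2`
  letI : Algebra (CuspBase L) F2 :=
    (baseLift L (Contracts.jF2 L N F2)⁻¹ h1).toRingHom.toAlgebra
  letI : Algebra (CuspBase ↥W) F2 :=
    (baseLift ↥W (Contracts.jF2 L N F2)⁻¹ h1).toRingHom.toAlgebra
  -- `K = Frac (CuspBase L)`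
  haveI : IsDomain (CuspBase L) := cuspBase_isDomain L
  have hgF := FFKit.cuspHom_injective ι N
  letI : Algebra (FractionRing (CuspBase L)) (S24.FF L N) :=
    FFKit.fracAlgebra (FractionRing (CuspBase L)) (FFKit.cuspHom ι N) hgF
  haveI : FiniteDimensional (FractionRing (CuspBase L)) (S24.FF L N) :=
    FFKit.finiteDimensional_FF_cusp ι N (FractionRing (CuspBase L))
  have hcomp : ∀ a : CuspBase L,
      (baseLift L (Contracts.jF2 L N F2)⁻¹ h1).toRingHom a =
        algebraMap (S24.FF L N) F2 (FFKit.cuspHom ι N a) := fun a =>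
    CuspCore.baseLift_map (S24.jBC L N)⁻¹ (FFKit.one_sub_jBC_inv_ne_zero ι N) _ ht0e h1 a
  have hinj2 : Function.Injective (baseLift L (Contracts.jF2 L N F2)⁻¹ h1).toRingHom :=
    baseLift_injective _ h1 ht0
  letI : Algebra (FractionRing (CuspBase L)) F2 :=
    FFKit.fracAlgebra (FractionRing (CuspBase L))
      (baseLift L (Contracts.jF2 L N F2)⁻¹ h1).toRingHom hinj2
  haveI : IsScalarTower (CuspBase L) (FractionRing (CuspBase L)) F2 :=
    FFKit.fracAlgebra_isScalarTower (FractionRing (CuspBase L)) _ hinj2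
  haveI : IsScalarTower (FractionRing (CuspBase L)) (S24.FF L N) F2 :=
    FFKit.fracAlgebra_isScalarTower_of_comp (FractionRing (CuspBase L)) (FFKit.cuspHom ι N) hgF
      _ hinj2 hcomp
  haveI : FiniteDimensional (S24.FF L N) F2 :=
    Module.finite_of_finrank_pos (by rw [hdeg]; exact hs.pos)
  haveI : FiniteDimensional (FractionRing (CuspBase L)) F2 :=
    FiniteDimensional.trans (FractionRing (CuspBase L)) (S24.FF L N) F2
  -- the Kummer datum
  have hw0F : h.w ≠ 0 := div_ne_zero h.ne1 h.ne2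
  have hirr : Irreducible (X ^ s - C h.w : (S24.FF L N)[X]) :=
    X_pow_sub_C_irreducible_of_prime hs (fun b hb => h.H2 ⟨b, hb⟩)
  have hF := FFKit.ramificationIdx_F2_cusp ι N s hs.pos u h.w hu hirr hdeg hw0F h.H1
    (BF2 := integralClosure (CuspBase L) F2) (fun G => by
      show baseLift L _ h1 (algebraMap L[X] (CuspBase L) G) = _
      rw [baseLift_algebraMap, ht0e, aeval_algebraMap_apply])
  -- roots of unity
  obtain ⟨ζN, hζN⟩ := TopReduction.exists_isPrimitiveRoot ι h.roots N (NeZero.ne N) h.not_dvd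
  obtain ⟨ζs, hζs⟩ := TopReduction.exists_isPrimitiveRoot ι h.roots s hs.ne_zero
    (fun hd => h.ne ((Nat.prime_dvd_prime_iff_eq h.prime_l hs).mp hd).symm)
  -- the vertical datum
  obtain ⟨θ, P, hP, hPθ, hsep, hgenF⟩ := PGOut.exists_theta_F2 h F2
  have hker : ∀ a : ↥W, IsLocalRing.residue ↥W a = 0 ↔ π ∣ a := fun a => by
    rw [IsLocalRing.residue_eq_zero_iff, hπ.maximalIdeal_eq, Ideal.mem_span_singleton]
  have hsπ : ¬ π ∣ ((s : ℕ) : ↥W) := fun hd =>
    hπ.not_isUnit (isUnit_of_dvd_unit hd (ContractsEps.isUnit_natCast h))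
  have hφC : ∀ (x : F2) (a : ↥W), Contracts.evAt W N x (C a) = algebraMap ↥W F2 a :=
    fun x a => ContractsEps.evAt_C W N F2 x a
  have hφX : Contracts.evAt W N (Contracts.jF2 L N F2) X * (Contracts.jF2 L N F2)⁻¹ = 1 := by
    rw [ContractsEps.evAt_X, mul_inv_cancel₀ hj0]
  -- generation
  have hFu : IntermediateField.adjoin (S24.FF L N) {u} = ⊤ := by
    haveI := IntermediateField.isSimpleOrder_of_finrank_prime (S24.FF L N) F2 (hdeg ▸ hs)
    rcases eq_bot_or_eq_top (IntermediateField.adjoin (S24.FF L N) {u}) with hbot | htop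
    · exfalso
      have hu_mem : u ∈ (⊥ : IntermediateField (S24.FF L N) F2) :=
        hbot ▸ IntermediateField.mem_adjoin_simple_self _ u
      obtain ⟨a, ha⟩ := IntermediateField.mem_bot.mp hu_mem
      apply h.H2
      refine ⟨a, (algebraMap (S24.FF L N) F2).injective ?_⟩
      rw [map_pow, ha, hu]
      rfl
    · exact htop
  have hFimg : ∀ S : IntermediateField L F2, (Contracts.jF2 L N F2)⁻¹ ∈ S →
      algebraMap (S24.FF L N) F2 θ ∈ S → ∀ x : S24.FF L N, algebraMap (S24.FF L N) F2 x ∈ S := by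
    intro S ht hθ x
    refine CuspCore.map_mem_subfield_of_mem_adjoin (L := L) (algebraMap (S24.FF L N) F2)
      S.toSubfield {S24.jBC L N, θ} (fun a => S.algebraMap_mem a) ?_ (by rw [hgenF]; trivial)
    rintro y (rfl | rfl)
    · have h3 := S.inv_mem ht
      rwa [inv_inv] at h3
    · exact hθ
  have hwθ : algebraMap (S24.FF L N) F2 h.w ∈
      IntermediateField.adjoin L {(Contracts.jF2 L N F2)⁻¹, algebraMap (S24.FF L N) F2 θ} :=
    hFimg _ (IntermediateField.subset_adjoin L _ (by simp))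
      (IntermediateField.subset_adjoin L _ (by simp)) h.w
  have hgenF2 : IntermediateField.adjoin L
      {(Contracts.jF2 L N F2)⁻¹, algebraMap (S24.FF L N) F2 θ, u} = ⊤ := by
    set S := IntermediateField.adjoin L
      {(Contracts.jF2 L N F2)⁻¹, algebraMap (S24.FF L N) F2 θ, u} with hS
    have hB : ∀ x : S24.FF L N, algebraMap (S24.FF L N) F2 x ∈ S.toSubfield :=
      hFimg S (IntermediateField.subset_adjoin L _ (by simp))
        (IntermediateField.subset_adjoin L _ (by simp))
    let T3 : IntermediateField (S24.FF L N) F2 := S.toSubfield.toIntermediateField hB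
    have hT3 : IntermediateField.adjoin (S24.FF L N) {u} ≤ T3 := by
      rw [IntermediateField.adjoin_le_iff, Set.singleton_subset_iff]
      show u ∈ S
      exact IntermediateField.subset_adjoin L _ (by simp)
    rw [eq_top_iff]
    intro y _
    have : y ∈ T3 := hT3 (by rw [hFu]; trivial)
    exact this
  have hw0 : algebraMap (S24.FF L N) F2 h.w ≠ 0 := by
    rw [Ne, map_eq_zero]; exact hw0F
  -- the idempotent in the currency of the cusp chart
  have hGi := gaussJ_iff_cuspBase π hπ.prime (Contracts.evAt W N (Contracts.jF2 L N F2))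
    (hφC _) (Contracts.jF2 L N F2)⁻¹ hφX h1 (fun _ => rfl)
  have hε : IsGaussInt (CuspBase ↥W) (algebraMap ↥W (CuspBase ↥W) π) (Kummer.eps s u) :=
    (hGi _).mp (ContractsEps.isGaussJ_eps F2 h hπ u hu)
  have hsm : ∀ d : F2, algebraMap ↥W (CuspBase ↥W) π • d = Contracts.toF2 W N F2 π * d := by
    intro d
    rw [Algebra.smul_def]
    congr 1
    exact (baseLift ↥W (Contracts.jF2 L N F2)⁻¹ h1).commutes π
  have hεε : ∃ d : F2, IsGaussInt (CuspBase ↥W) (algebraMap ↥W (CuspBase ↥W) π) d ∧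
      Kummer.eps s u ^ 2 - Kummer.eps s u = algebraMap ↥W (CuspBase ↥W) π • d := by
    obtain ⟨d, hd, hed⟩ := ContractsEps.exists_eps_idem F2 h hπ u hu
    exact ⟨d, (hGi d).mp hd, by rw [hsm, hed]⟩
  obtain ⟨e, he, d, hd, hed⟩ := cusp_lift_adjoinRoot (K := FractionRing (CuspBase L)) hN ζN hζN
    π hπ (Contracts.jF2 L N F2)⁻¹ ht0 h1 (fun _ => rfl) (fun _ => rfl) hF
    (FractionRing (IsLocalRing.ResidueField ↥W)[X]) (IsLocalRing.residue ↥W)
    IsLocalRing.residue_surjective hker (Contracts.evAt W N (Contracts.jF2 L N F2)) (hφC _) hφX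
    (algebraMap (S24.FF L N) F2 θ) P hP hPθ hsep s hs hsπ ζs hζs u
    (algebraMap (S24.FF L N) F2 h.w) hw0 hu hwθ hgenF2 (ContractsEps.isGaussJ_w F2 h hπ)
    (ContractsEps.isGaussJ_w_inv F2 h hπ) (Kummer.eps s u) hε hεε
  refine ⟨e, ?_, d, (hGi d).mpr hd, by rw [hed, hsm]⟩
  exact exists_pow_mul_isIntegralElem (Contracts.evAt W N (Contracts.jF2 L N F2)⁻¹) (hφC _)
    (Contracts.jF2 L N F2)⁻¹ (ContractsEps.evAt_X W N F2 _) h1 (fun _ => rfl) e he

end Contract

end Fermat.Agent.S18.CuspInst
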