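import Mathlib
import Fermat.Agent.S18.Kummer

set_option autoImplicit false


/-!
# S18: descent of the "no constant" statement (K3) to the small Kummer field

`Kummer.no_constant` excludes a congruence `eps ≡ c mod π` with `c` in the BASE field of the
Kummer extension.  In the endgame the constant `c` lives in `Y = F_L(u)` and is only known to be
algebraic over the field of constants `L`; it becomes an element of the base field after the
base change to `F_Qbar(u)`.  This file performs that base change abstractly.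
-/

open Polynomial

namespace Fermat.Agent.S18.KummerDescent

open Fermat.Agent.S18

/-- Transfer of `Kummer.no_constant` along an embedding of Kummer extensions
`Y = F(u) ↪ Yb = Fb(u)`: the constant is only required to become an element of `Fb` in `Yb`,
and the ring `O ⊆ F` is only required to be integrally closed in `F`. -/
theorem no_constant_of_embedding
    {F Fb Y Yb O : Type*} [Field F] [Field Fb] [Field Y] [Field Yb]
    [CommRing O] [Algebra O F] [Algebra F Y] [Algebra O Y] [IsScalarTower O F Y]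
    [Algebra Fb Yb]
    (φ : F →+* Fb) (ψ : Y →+* Yb)
    (hψ : ∀ x : F, ψ (algebraMap F Y x) = algebraMap Fb Yb (φ x))
    (hO : ∀ x : F, IsIntegral O x → ∃ a : O, algebraMap O F a = x)
    (s : ℕ) (hs : 2 ≤ s) (u : Y) (w : F) (huw : u ^ s = algebraMap F Y w)
    (hirr : Irreducible (X ^ s - C (φ w) : Fb[X])) (hdeg : Module.finrank Fb Yb = s)
    (π ω sinv : O) (hsinv : algebraMap O F sinv * (s : F) = 1)
    (hπ : ∀ a : O, algebraMap O F (π * a) ≠ 1) (hw : w - 1 = algebraMap O F (π * ω))
    (c : Y) (c' : Fb) (hc : ψ c = algebraMap Fb Yb c') (γ : Y) (hγ : IsIntegral O γ)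
    (h : Kummer.eps s u - c = algebraMap O Y π * γ) : False := by
  let _ : Algebra O Fb := (φ.comp (algebraMap O F)).toAlgebra
  let _ : Algebra O Yb := ((algebraMap Fb Yb).comp (φ.comp (algebraMap O F))).toAlgebra
  have : IsScalarTower O Fb Yb := IsScalarTower.of_algebraMap_eq fun _ => rfl
  have hOFb : ∀ a : O, algebraMap O Fb a = φ (algebraMap O F a) := fun _ => rfl
  have hOYb : ∀ a : O, algebraMap O Yb a = ψ (algebraMap O Y a) := by
    intro a
    rw [IsScalarTower.algebraMap_apply O F Y, hψ]
    rfl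
  -- `ψ` and `φ` as `O`-algebra homomorphisms
  let φa : F →ₐ[O] Fb := { φ with commutes' := fun _ => rfl }
  let ψa : Y →ₐ[O] Yb := { ψ with commutes' := fun a => (hOYb a).symm }
  have hO' : ∀ x : Fb, IsIntegral (integralClosure O Fb) x →
      ∃ a : integralClosure O Fb, algebraMap (integralClosure O Fb) Fb a = x := by
    intro x hx
    exact ⟨⟨x, isIntegral_trans x hx⟩, rfl⟩
  have hsinv' : algebraMap (integralClosure O Fb) Fb
      (algebraMap O (integralClosure O Fb) sinv) * (s : Fb) = 1 := by
    rw [← IsScalarTower.algebraMap_apply O (integralClosure O Fb) Fb, hOFb, ← map_natCast φ,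
      ← map_mul, hsinv, map_one]
  have hπ' : ∀ a : integralClosure O Fb, algebraMap (integralClosure O Fb) Fb
      (algebraMap O (integralClosure O Fb) π * a) ≠ 1 := by
    intro a ha
    rw [map_mul, ← IsScalarTower.algebraMap_apply O (integralClosure O Fb) Fb, hOFb] at ha
    have hπ0 : algebraMap O F π ≠ 0 := by
      intro h0
      rw [h0, map_zero, zero_mul] at ha
      exact zero_ne_one ha
    have ha' : (a : Fb) = φ ((algebraMap O F π)⁻¹) := by
      rw [map_inv₀]
      exact eq_inv_of_mul_eq_one_right ha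
    have hint : IsIntegral O (φa ((algebraMap O F π)⁻¹)) := by
      change IsIntegral O (φ ((algebraMap O F π)⁻¹))
      rw [← ha']
      exact a.2
    rw [isIntegral_algHom_iff φa φ.injective] at hint
    obtain ⟨a₀, ha₀⟩ := hO _ hint
    exact hπ a₀ (by rw [map_mul, ha₀, mul_inv_cancel₀ hπ0])
  have hw' : φ w - 1 = algebraMap (integralClosure O Fb) Fb
      (algebraMap O (integralClosure O Fb) π * algebraMap O (integralClosure O Fb) ω) := by
    rw [← map_mul, ← IsScalarTower.algebraMap_apply O (integralClosure O Fb) Fb, hOFb, ← hw,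
      map_sub, map_one]
  have huw' : ψ u ^ s = algebraMap Fb Yb (φ w) := by
    rw [← map_pow, huw, hψ]
  have hγ' : IsIntegral (integralClosure O Fb) (ψ γ) := by
    have h1 : IsIntegral O (ψa γ) := hγ.map ψa
    exact IsIntegral.tower_top h1
  have h' : Kummer.eps s (ψ u) - algebraMap Fb Yb c' =
      algebraMap (integralClosure O Fb) Yb (algebraMap O (integralClosure O Fb) π) * ψ γ := by
    have h1 := congrArg ψ h
    rw [map_sub, map_mul, hc] at h1
    have h2 : ψ (Kummer.eps s u) = Kummer.eps s (ψ u) := by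
      simp [Kummer.eps, map_sum]
    rw [h2] at h1
    rw [h1, ← IsScalarTower.algebraMap_apply O (integralClosure O Fb) Yb, hOYb]
  exact Kummer.no_constant (K := Fb) (Y := Yb) (O := integralClosure O Fb) hO' s hs (ψ u) (φ w)
    huw' hirr hdeg (algebraMap O (integralClosure O Fb) π)
    (algebraMap O (integralClosure O Fb) ω) (algebraMap O (integralClosure O Fb) sinv)
    hsinv' hπ' hw' c' (ψ γ) hγ' h'

/-- **(KD) No constant, descended.**  `F ⊆ Fb` fields (`φ`), `Ω ⊆ Fb` an algebraically closed
field of constants (`ι`), `L ⊆ F` with `L ⊆ Ω` compatibly, `O ⊆ F` integrally closed in `F`,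
`π ∈ O` a non-unit, `s` a prime which is a unit of `O`, `w ≡ 1 mod π` in `O`, `w` not an `s`-th
power in `Fb`, `Y = F(u)` with `u ^ s = w`.  Then the sheet idempotent `eps` is not congruent
modulo `π · (integral closure of O in Y)` to any element of `Y` algebraic over `L`. -/
theorem no_constant_descent
    {L Ω F Fb Y O : Type*} [Field L] [Field Ω] [IsAlgClosed Ω] [Field F] [Field Fb] [Field Y]
    [Algebra L F] [Algebra F Y] [Algebra L Y] [IsScalarTower L F Y]
    [CommRing O] [Algebra O F] [Algebra O Y] [IsScalarTower O F Y]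
    (φ : F →+* Fb) (ι : Ω →+* Fb) (jL : L →+* Ω)
    (hcomp : ∀ a : L, φ (algebraMap L F a) = ι (jL a))
    (hO : ∀ x : F, IsIntegral O x → ∃ a : O, algebraMap O F a = x)
    (s : ℕ) (hs : s.Prime) (u : Y) (w : F) (huw : u ^ s = algebraMap F Y w)
    (hdeg : Module.finrank F Y = s)
    (hpow : ∀ b : Fb, b ^ s ≠ φ w)
    (π ω sinv : O) (hsinv : algebraMap O F sinv * (s : F) = 1)
    (hπ : ∀ a : O, algebraMap O F (π * a) ≠ 1) (hw : w - 1 = algebraMap O F (π * ω))
    (c γ : Y) (hc : IsAlgebraic L c) (hγ : IsIntegral O γ)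
    (h : Kummer.eps s u - c = algebraMap O Y π * γ) : False := by
  classical
  have hirrb : Irreducible (X ^ s - C (φ w) : Fb[X]) := X_pow_sub_C_irreducible_of_prime hs hpow
  have hirr : Irreducible (X ^ s - C w : F[X]) :=
    X_pow_sub_C_irreducible_of_prime hs (fun b hb => hpow (φ b) (by rw [← map_pow, hb]))
  have : Fact (Irreducible (X ^ s - C (φ w) : Fb[X])) := ⟨hirrb⟩
  let _ : Algebra F (AdjoinRoot (X ^ s - C (φ w) : Fb[X])) :=
    ((algebraMap Fb (AdjoinRoot (X ^ s - C (φ w) : Fb[X]))).comp φ).toAlgebra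
  have hs0 : s ≠ 0 := hs.ne_zero
  let pb : PowerBasis F Y :=
    { gen := u
      dim := s
      basis := Kummer.powBasis s u w hs0 huw hirr hdeg
      basis_eq_pow := Kummer.powBasis_apply s u w hs0 huw hirr hdeg }
  have hmin : minpoly F u = X ^ s - C w := Kummer.minpoly_eq s u w hs0 huw hirr
  have hroot : aeval (AdjoinRoot.root (X ^ s - C (φ w) : Fb[X])) (minpoly F pb.gen) = 0 := by
    change aeval (AdjoinRoot.root (X ^ s - C (φ w) : Fb[X])) (minpoly F u) = 0
    rw [hmin]
    simp only [map_sub, map_pow, aeval_X, aeval_C]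
    have h1 := AdjoinRoot.eval₂_root (X ^ s - C (φ w) : Fb[X])
    simp only [eval₂_sub, eval₂_pow, eval₂_X, eval₂_C] at h1
    exact h1
  have hψu : pb.lift (AdjoinRoot.root (X ^ s - C (φ w) : Fb[X])) hroot u =
      AdjoinRoot.root (X ^ s - C (φ w) : Fb[X]) := pb.lift_gen _ hroot
  have hψ : ∀ x : F, (pb.lift (AdjoinRoot.root (X ^ s - C (φ w) : Fb[X])) hroot : Y →+* _)
      (algebraMap F Y x) = algebraMap Fb (AdjoinRoot (X ^ s - C (φ w) : Fb[X])) (φ x) :=
    fun x => (pb.lift (AdjoinRoot.root (X ^ s - C (φ w) : Fb[X])) hroot).commutes x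
  have hdegb : Module.finrank Fb (AdjoinRoot (X ^ s - C (φ w) : Fb[X])) = s := by
    have hne : (X ^ s - C (φ w) : Fb[X]) ≠ 0 := hirrb.ne_zero
    rw [(AdjoinRoot.powerBasis hne).finrank, AdjoinRoot.powerBasis_dim, natDegree_X_pow_sub_C]
  obtain ⟨p, hp0, hpc⟩ := hc
  let _ : Algebra Ω (AdjoinRoot (X ^ s - C (φ w) : Fb[X])) :=
    ((algebraMap Fb (AdjoinRoot (X ^ s - C (φ w) : Fb[X]))).comp ι).toAlgebra
  have hint : IsIntegral Ω (pb.lift (AdjoinRoot.root (X ^ s - C (φ w) : Fb[X])) hroot c) := by
    have halg : IsAlgebraic Ω (pb.lift (AdjoinRoot.root (X ^ s - C (φ w) : Fb[X])) hroot c) := by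
      refine ⟨p.map jL, Polynomial.map_ne_zero hp0, ?_⟩
      rw [aeval_def, eval₂_map]
      have h1 : (algebraMap Ω (AdjoinRoot (X ^ s - C (φ w) : Fb[X]))).comp jL =
          ((pb.lift (AdjoinRoot.root (X ^ s - C (φ w) : Fb[X])) hroot : Y →+* _)).comp
            (algebraMap L Y) := by
        ext a
        simp only [RingHom.comp_apply]
        rw [IsScalarTower.algebraMap_apply L F Y, hψ, hcomp]
        rfl
      rw [h1]
      have h2 := Polynomial.hom_eval₂ p (algebraMap L Y)
        ((pb.lift (AdjoinRoot.root (X ^ s - C (φ w) : Fb[X])) hroot : Y →ₐ[F] _) :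
          Y →+* AdjoinRoot (X ^ s - C (φ w) : Fb[X])) c
      rw [← aeval_def, hpc, map_zero] at h2
      exact h2.symm
    exact halg.isIntegral
  have hdeg1 := IsAlgClosed.degree_eq_one_of_irreducible Ω (minpoly.irreducible hint)
  obtain ⟨c₀, hc₀⟩ := minpoly.mem_range_of_degree_eq_one Ω _ hdeg1
  exact no_constant_of_embedding φ
    (pb.lift (AdjoinRoot.root (X ^ s - C (φ w) : Fb[X])) hroot : Y →+* _) hψ hO s hs.two_le u w
    huw hirrb hdegb π ω sinv hsinv hπ hw c (ι c₀) hc₀.symm γ hγ h

end Fermat.Agent.S18.KummerDescent
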