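import Mathlib
import Fermat.Agent.S18.TSD
import Fermat.Agent.S18.Kummer
import Fermat.Agent.S18.KummerDescent
import Fermat.Agent.S18.KummerGauss


/-!
# S18, link 9: "no constant" in the Gauss-integrality currency, with a constant that is only
algebraic over the field of constants

Wrapper of `KummerDescent.no_constant_descent`: the ring `O` is the subalgebra of Gauss-integral
elements of `F` (integral over the localisation of the chart ring `D` at the prime `π`), which is
integrally closed in `F`.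
-/

open Polynomial

namespace Fermat.Agent.S18.KummerDescentGauss

open Fermat.Agent.S18

section Closure

variable {D F : Type*} [CommRing D] [CommRing F] [Algebra D F] {π : D}

theorem gi_of_isIntegral (hπ : Prime π) {z : F} (hz : IsIntegral D z) : IsGaussInt D π z :=
  ⟨1, fun h => hπ.not_isUnit (isUnit_of_dvd_one h), by rwa [one_smul]⟩

theorem gi_add (hπ : Prime π) {z₁ z₂ : F} (h₁ : IsGaussInt D π z₁) (h₂ : IsGaussInt D π z₂) :
    IsGaussInt D π (z₁ + z₂) := by
  obtain ⟨s₁, hs₁, hi₁⟩ := h₁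
  obtain ⟨s₂, hs₂, hi₂⟩ := h₂
  refine ⟨s₁ * s₂, fun h => (hπ.dvd_or_dvd h).elim hs₁ hs₂, ?_⟩
  have e : (s₁ * s₂) • (z₁ + z₂) = s₂ • (s₁ • z₁) + s₁ • (s₂ • z₂) := by
    rw [smul_add, mul_smul, mul_smul, smul_comm s₁ s₂ z₁]
  rw [e]
  exact (hi₁.smul s₂).add (hi₂.smul s₁)

theorem gi_mul (hπ : Prime π) {z₁ z₂ : F} (h₁ : IsGaussInt D π z₁) (h₂ : IsGaussInt D π z₂) :
    IsGaussInt D π (z₁ * z₂) := by
  obtain ⟨s₁, hs₁, hi₁⟩ := h₁
  obtain ⟨s₂, hs₂, hi₂⟩ := h₂
  refine ⟨s₁ * s₂, fun h => (hπ.dvd_or_dvd h).elim hs₁ hs₂, ?_⟩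
  have e : (s₁ * s₂) • (z₁ * z₂) = (s₁ • z₁) * (s₂ • z₂) := by
    rw [smul_mul_smul_comm]
  rw [e]
  exact hi₁.mul hi₂

/-- The `D`-subalgebra of Gauss-integral elements. -/
def gaussSubalgebra (D : Type*) (F : Type*) [CommRing D] [CommRing F] [Algebra D F] (π : D)
    (hπ : Prime π) : Subalgebra D F where
  carrier := {z | IsGaussInt D π z}
  mul_mem' := fun h₁ h₂ => gi_mul hπ h₁ h₂
  one_mem' := gi_of_isIntegral hπ isIntegral_one
  add_mem' := fun h₁ h₂ => gi_add hπ h₁ h₂
  zero_mem' := gi_of_isIntegral hπ isIntegral_zero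
  algebraMap_mem' := fun _ => gi_of_isIntegral hπ isIntegral_algebraMap

theorem mem_gaussSubalgebra (hπ : Prime π) {z : F} :
    z ∈ gaussSubalgebra D F π hπ ↔ IsGaussInt D π z := Iff.rfl

/-- The ring of Gauss-integral elements is integrally closed in `F`. -/
theorem isGaussInt_of_isIntegral_gaussSubalgebra (hπ : Prime π) (x : F)
    (hx : IsIntegral (gaussSubalgebra D F π hπ) x) : IsGaussInt D π x := by
  classical
  obtain ⟨p, hp, hpx⟩ := hx
  have hcoeff : ∀ i, ∃ t : D, ¬ π ∣ t ∧ IsIntegral D (t • ((p.coeff i : gaussSubalgebra D F π hπ) : F)) :=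
    fun i => (p.coeff i).2
  choose t ht hti using hcoeff
  set S : D := ∏ i ∈ Finset.range p.natDegree, t i with hS
  have hSπ : ¬ π ∣ S := by
    rw [hS, hπ.dvd_finsetProd_iff]
    rintro ⟨i, -, hi⟩
    exact ht i hi
  have hSa : ∀ i, i < p.natDegree →
      IsIntegral D (S • ((p.coeff i : gaussSubalgebra D F π hπ) : F)) := by
    intro i hi
    have h1 : S = (∏ k ∈ (Finset.range p.natDegree).erase i, t k) * t i := by
      rw [hS, mul_comm, Finset.mul_prod_erase _ _ (Finset.mem_range.mpr hi)]
    rw [h1, mul_smul]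
    exact (hti i).smul _
  refine ⟨S, hSπ, ?_⟩
  -- the scaled polynomial
  set SO : gaussSubalgebra D F π hπ := algebraMap D _ S with hSO
  have hroot : eval₂ (algebraMap (gaussSubalgebra D F π hπ) F) (S • x) (scaleRoots p SO) = 0 := by
    have h1 := scaleRoots_eval₂_eq_zero (algebraMap (gaussSubalgebra D F π hπ) F) (s := SO) hpx
    rw [Algebra.smul_def]
    exact h1
  have hmonic : (scaleRoots p SO).Monic := (monic_scaleRoots_iff SO).mpr hp
  have hlift : (scaleRoots p SO).map (algebraMap (gaussSubalgebra D F π hπ) F) ∈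
      lifts (algebraMap (integralClosure D F) F) := by
    rw [lifts_iff_coeff_lifts]
    intro i
    rw [coeff_map, coeff_scaleRoots]
    rcases lt_trichotomy i p.natDegree with hi | hi | hi
    · obtain ⟨k, hk⟩ : ∃ k, p.natDegree - i = k + 1 := ⟨p.natDegree - i - 1, by omega⟩
      have e : algebraMap (gaussSubalgebra D F π hπ) F (p.coeff i * SO ^ (p.natDegree - i)) =
          S ^ k • (S • ((p.coeff i : gaussSubalgebra D F π hπ) : F)) := by
        rw [hk, map_mul, map_pow, pow_succ, Algebra.smul_def, Algebra.smul_def, map_pow]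
        have e1 : algebraMap (gaussSubalgebra D F π hπ) F SO = algebraMap D F S := rfl
        have e2 : algebraMap (gaussSubalgebra D F π hπ) F (p.coeff i) =
            ((p.coeff i : gaussSubalgebra D F π hπ) : F) := rfl
        rw [e1, e2]
        ring
      have hmem : IsIntegral D (algebraMap (gaussSubalgebra D F π hπ) F
          (p.coeff i * SO ^ (p.natDegree - i))) := by
        rw [e]
        exact (hSa i hi).smul _
      exact ⟨⟨_, hmem⟩, rfl⟩
    · refine ⟨1, ?_⟩
      rw [hi, Nat.sub_self, pow_zero, mul_one, ← Polynomial.leadingCoeff, hp.leadingCoeff, map_one,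
        map_one]
    · refine ⟨0, ?_⟩
      rw [coeff_eq_zero_of_natDegree_lt hi, zero_mul, map_zero, map_zero]
  obtain ⟨Q, hQ, -, hQm⟩ := lifts_and_natDegree_eq_and_monic hlift (hmonic.map _)
  have hint : IsIntegral (integralClosure D F) (S • x) := by
    refine ⟨Q, hQm, ?_⟩
    rw [← eval_map, hQ, eval_map]
    exact hroot
  exact isIntegral_trans _ hint

end Closure

/-- **(9') No constant, descended, Gauss currency.**  `D` a chart ring with prime element `π`
which is not a Gauss unit of `F`; `s` a prime invertible in `D`; `Y = F(u)`, `u ^ s = w`,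
`w ≡ 1` modulo `π ·` (Gauss-integral), `w` not an `s`-th power in the big field `Fb ⊇ F` that
contains an algebraically closed field `Ω ⊇ L` of constants.  Then the sheet idempotent is not
congruent modulo `π ·` (Gauss-integral) to an element of `Y` algebraic over `L`. -/
theorem no_constant_descent_gauss {L Ω F Fb Y D : Type*} [Field L] [Field Ω] [IsAlgClosed Ω]
    [Field F] [Field Fb] [Field Y] [Algebra L F] [Algebra F Y] [Algebra L Y] [IsScalarTower L F Y]
    [CommRing D] [Algebra D F] [Algebra D Y] [IsScalarTower D F Y]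
    (φ : F →+* Fb) (ι : Ω →+* Fb) (jL : L →+* Ω)
    (hcomp : ∀ a : L, φ (algebraMap L F a) = ι (jL a))
    (π : D) (hπ : Prime π) (hπF : ¬ IsGaussInt D π ((algebraMap D F π)⁻¹))
    (s : ℕ) (hs : s.Prime) (sinv : D) (hsinv : (s : D) * sinv = 1)
    (u : Y) (w : F) (huw : u ^ s = algebraMap F Y w) (hdeg : Module.finrank F Y = s)
    (hpow : ∀ b : Fb, b ^ s ≠ φ w)
    (hw : ∃ d : F, IsGaussInt D π d ∧ w - 1 = π • d)
    (c γ : Y) (hc : IsAlgebraic L c) (hγ : IsGaussInt D π γ)
    (h : Kummer.eps s u - c = π • γ) : False := by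
  have hO : ∀ x : F, IsIntegral (gaussSubalgebra D F π hπ) x →
      ∃ a : gaussSubalgebra D F π hπ, algebraMap (gaussSubalgebra D F π hπ) F a = x :=
    fun x hx => ⟨⟨x, isGaussInt_of_isIntegral_gaussSubalgebra hπ x hx⟩, rfl⟩
  have hne : ∀ t : D, ¬ π ∣ t → algebraMap D F t ≠ 0 := by
    intro t ht h0
    refine hπF ⟨t, ht, ?_⟩
    rw [Algebra.smul_def, h0, zero_mul]
    exact isIntegral_zero
  obtain ⟨d, hd, hwd⟩ := hw
  have hsinv' : algebraMap (gaussSubalgebra D F π hπ) F (algebraMap D _ sinv) * (s : F) = 1 := by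
    change algebraMap D F sinv * (s : F) = 1
    rw [← map_natCast (algebraMap D F), ← map_mul, mul_comm, hsinv, map_one]
  have hπ' : ∀ a : gaussSubalgebra D F π hπ,
      algebraMap (gaussSubalgebra D F π hπ) F (algebraMap D _ π * a) ≠ 1 := by
    intro a ha
    apply hπF
    have ha' : algebraMap D F π * (a : F) = 1 := ha
    rw [← eq_inv_of_mul_eq_one_right ha']
    exact a.2
  have hw' : w - 1 = algebraMap (gaussSubalgebra D F π hπ) F
      (algebraMap D _ π * (⟨d, hd⟩ : gaussSubalgebra D F π hπ)) := by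
    rw [hwd, Algebra.smul_def]
    rfl
  have hγ' : IsIntegral (gaussSubalgebra D F π hπ) γ := by
    obtain ⟨t, ht, it⟩ := hγ
    have ht0 := hne t ht
    have htinv : IsGaussInt D π ((algebraMap D F t)⁻¹) := by
      refine ⟨t, ht, ?_⟩
      rw [Algebra.smul_def, mul_inv_cancel₀ ht0]
      exact isIntegral_one
    have e : γ = algebraMap (gaussSubalgebra D F π hπ) Y
        (⟨(algebraMap D F t)⁻¹, htinv⟩ : gaussSubalgebra D F π hπ) * (t • γ) := by
      have e1 : algebraMap (gaussSubalgebra D F π hπ) Y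
          (⟨(algebraMap D F t)⁻¹, htinv⟩ : gaussSubalgebra D F π hπ) =
          algebraMap F Y ((algebraMap D F t)⁻¹) := rfl
      rw [e1, Algebra.smul_def, IsScalarTower.algebraMap_apply D F Y, ← mul_assoc, ← map_mul,
        inv_mul_cancel₀ ht0, map_one, one_mul]
    rw [e]
    exact isIntegral_algebraMap.mul (IsIntegral.tower_top it)
  have h' : Kummer.eps s u - c =
      algebraMap (gaussSubalgebra D F π hπ) Y (algebraMap D _ π) * γ := by
    rw [h, Algebra.smul_def, IsScalarTower.algebraMap_apply D F Y]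
    rfl
  exact KummerDescent.no_constant_descent φ ι jL hcomp hO s hs u w huw hdeg hpow
    (algebraMap D _ π) ⟨d, hd⟩ (algebraMap D _ sinv) hsinv' hπ' hw' c γ hc hγ' h'

/-- For an integrally closed domain `D` embedded in a field `F`, a prime element `π` is not a
Gauss unit: this discharges the hypothesis `hπF` of `no_constant_descent_gauss`. -/
theorem not_isGaussInt_inv_algebraMap {D F : Type*} [CommRing D] [IsDomain D]
    [IsIntegrallyClosed D] [Field F] [Algebra D F] (hinj : Function.Injective (algebraMap D F))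
    {π : D} (hπ : Prime π) : ¬ IsGaussInt D π ((algebraMap D F π)⁻¹) := by
  intro hg
  have hπ0 : algebraMap D F π ≠ 0 := by
    rw [Ne, map_eq_zero_iff _ hinj]
    exact hπ.ne_zero
  exact KummerGauss.not_isGaussInt_inv hinj hπ _ hg
    (by rw [Algebra.smul_def, mul_inv_cancel₀ hπ0])

end Fermat.Agent.S18.KummerDescentGauss
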