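/-
S18 (helper2): chart algebra for the endgame (rows J/K of plan v2).

The two charts of the `j`-line are `W[j]` and `W[t, 1/(1 - 1728 t)]`, `t = 1/j`; the overlap is
obtained from either chart by inverting `v = j (j - 1728)`.  Everything is stated inside a field
`Y` containing `j`, instance-free.

* `exists_pow_mul_eq_aeval`  : elements of the second chart times a power of `v` lie in `W[j]`;
* `exists_pow_mul_mem`       : elements of `W[j]` times a power of `1/v` lie in the second chart;
* `exists_gens_over_v`       : generators over `W[j]` give generators over `W[v]`;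
* `isAlgebraic_of_isIntegral_two_charts` : an element integral over both charts is algebraic over
  the field of constants.
-/
import Mathlib

set_option autoImplicit false

namespace Fermat.Agent.S18.ChartAlg

open Polynomial

section Reverse

variable {W Y : Type*} [CommRing W] [Field Y] [Algebra W Y]

/-- `p(1/j) * j ^ deg p = (reverse p)(j)`. -/
theorem aeval_inv_mul_pow (j : Y) (hj : j ≠ 0) (p : W[X]) :
    aeval j⁻¹ p * j ^ p.natDegree = aeval j (reverse p) := by
  let _ : Invertible j⁻¹ := invertibleOfNonzero (inv_ne_zero hj)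
  have h := eval₂_reverse_mul_pow (algebraMap W Y) j⁻¹ p
  rw [invOf_eq_inv, inv_inv] at h
  rw [aeval_def, aeval_def, ← h, mul_assoc, ← mul_pow, inv_mul_cancel₀ hj, one_pow, mul_one]

/-- `p(j) * (1/j) ^ deg p = (reverse p)(1/j)`. -/
theorem aeval_mul_inv_pow (j : Y) (hj : j ≠ 0) (p : W[X]) :
    aeval j p * j⁻¹ ^ p.natDegree = aeval j⁻¹ (reverse p) := by
  have h := aeval_inv_mul_pow j⁻¹ (inv_ne_zero hj) p
  rwa [inv_inv] at h

end Reverse

section Charts

variable {W Y : Type*} [CommRing W] [Field Y] [Algebra W Y]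

/-- An element `a` of the second chart `W[t, 1/(1 - 1728 t)]` (`t = 1/j`), multiplied by a
suitable power of `v = j (j - 1728)`, lies in `W[j]`. -/
theorem exists_pow_mul_eq_aeval (j : Y) (hj : j ≠ 0) (a : Y) (p : W[X]) (m : ℕ)
    (h : a * (1 - 1728 * j⁻¹) ^ m = aeval j⁻¹ p) :
    ∃ (n : ℕ) (q : W[X]), (j * (j - 1728)) ^ n * a = aeval j q := by
  refine ⟨m + p.natDegree, X ^ (2 * m) * (X - C 1728) ^ p.natDegree * reverse p, ?_⟩
  have hR := aeval_inv_mul_pow j hj p
  have e1 : (1 - 1728 * j⁻¹) * j = j - 1728 := by field_simp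
  have e2 : (1 - 1728 * j⁻¹) ^ m * j ^ m = (j - 1728) ^ m := by rw [← mul_pow, e1]
  have key : a * (j - 1728) ^ m * j ^ p.natDegree = aeval j (reverse p) * j ^ m := by
    rw [← hR, ← h, ← e2]; ring
  have hC : aeval j (C (1728 : W)) = (1728 : Y) := by
    rw [aeval_C]; exact map_ofNat _ 1728
  simp only [map_mul, map_pow, map_sub, aeval_X, hC]
  have : (j * (j - 1728)) ^ (m + p.natDegree) * a
      = j ^ m * (j - 1728) ^ p.natDegree * (a * (j - 1728) ^ m * j ^ p.natDegree) := by
    rw [mul_pow, pow_add, pow_add]; ring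
  rw [this, key]; ring

/-- An element of `W[j]`, multiplied by a suitable power of `1/v`, lies in any subring containing
the constants, `t = 1/j` and `1/(1 - 1728 t)`. -/
theorem exists_pow_mul_mem (j : Y) (hj : j ≠ 0) (hj' : j - 1728 ≠ 0) (S : Subring Y)
    (hW : ∀ c : W, algebraMap W Y c ∈ S) (ht : j⁻¹ ∈ S) (hT : (1 - 1728 * j⁻¹)⁻¹ ∈ S)
    (q : W[X]) : ∃ n : ℕ, (j * (j - 1728))⁻¹ ^ n * aeval j q ∈ S := by
  refine ⟨q.natDegree, ?_⟩
  have hR := aeval_mul_inv_pow j hj q
  have hT0 : (1 - 1728 * j⁻¹) ≠ 0 := by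
    have e1 : (1 - 1728 * j⁻¹) * j = j - 1728 := by field_simp
    intro h0
    rw [h0, zero_mul] at e1
    exact hj' e1.symm
  have e3 : (j * (j - 1728))⁻¹ = j⁻¹ * (1 - 1728 * j⁻¹)⁻¹ * j⁻¹ := by
    field_simp
  have hmem : aeval j⁻¹ (reverse q) ∈ S := by
    rw [aeval_eq_sum_range]
    refine Subring.sum_mem _ fun i _ => ?_
    rw [Algebra.smul_def]
    exact S.mul_mem (hW _) (S.pow_mem ht i)
  have : (j * (j - 1728))⁻¹ ^ q.natDegree * aeval j q
      = (j⁻¹ * (1 - 1728 * j⁻¹)⁻¹) ^ q.natDegree * (aeval j q * j⁻¹ ^ q.natDegree) := by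
    rw [e3]; ring
  rw [this, hR]
  exact S.mul_mem (S.pow_mem (S.mul_mem ht hT) _) hmem

end Charts

section Gens

variable {W Y : Type*} [CommRing W] [CommRing Y] [Algebra W Y]

/-- `W[j] = W[v] + W[v] j` for `v = j (j - 1728)`. -/
theorem exists_aeval_eq_add (j : Y) (q : W[X]) :
    ∃ q₀ q₁ : W[X], aeval j q = aeval (j * (j - 1728)) q₀ + aeval (j * (j - 1728)) q₁ * j := by
  induction q using Polynomial.induction_on with
  | C a => exact ⟨C a, 0, by simp⟩
  | add p q hp hq =>
    obtain ⟨p₀, p₁, hp⟩ := hp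
    obtain ⟨q₀, q₁, hq⟩ := hq
    exact ⟨p₀ + q₀, p₁ + q₁, by rw [map_add, hp, hq]; simp only [map_add]; ring⟩
  | monomial n a ih =>
    obtain ⟨q₀, q₁, h⟩ := ih
    refine ⟨X * q₁, q₀ + C 1728 * q₁, ?_⟩
    have hC : aeval (j * (j - 1728)) (C (1728 : W)) = (1728 : Y) := by
      rw [aeval_C]; exact map_ofNat _ 1728
    have e : aeval j (C a * X ^ (n + 1)) = aeval j (C a * X ^ n) * j := by
      simp only [map_mul, map_pow, aeval_X, aeval_C]; ring
    rw [e, h]
    simp only [map_mul, map_add, aeval_X, hC]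
    ring

/-- Generators of a subalgebra over `W[j]` give generators over `W[v]`, `v = j (j - 1728)`. -/
theorem exists_gens_over_v (B1 : Subalgebra W Y) (j : Y) (hjB : j ∈ B1)
    (hfin : ∃ (n : ℕ) (g : Fin n → Y), (∀ i, g i ∈ B1) ∧
      ∀ y ∈ B1, ∃ p : Fin n → W[X], y = ∑ i, aeval j (p i) * g i) :
    ∃ (n : ℕ) (g : Fin n → Y), (∀ i, g i ∈ B1) ∧
      ∀ y ∈ B1, ∃ p : Fin n → W[X], y = ∑ i, aeval (j * (j - 1728)) (p i) * g i := by
  obtain ⟨n, g, hg, hgen⟩ := hfin
  refine ⟨n + n, Fin.append g (fun i => j * g i), ?_, ?_⟩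
  · intro i
    induction i using Fin.addCases with
    | left i => rw [Fin.append_left]; exact hg i
    | right i => rw [Fin.append_right]; exact B1.mul_mem hjB (hg i)
  · intro y hy
    obtain ⟨p, hp⟩ := hgen y hy
    choose q₀ q₁ hq using fun i => exists_aeval_eq_add (W := W) j (p i)
    refine ⟨Fin.append q₀ q₁, ?_⟩
    rw [Fin.sum_univ_add, hp, ← Finset.sum_add_distrib]
    refine Finset.sum_congr rfl fun i _ => ?_
    rw [Fin.append_left, Fin.append_left, Fin.append_right, Fin.append_right, hq i]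
    ring

end Gens

section Constants

variable {L Y : Type*} [Field L] [Field Y] [Algebra L Y]

/-- A polynomial in `j` which is integral over the second chart is a constant. -/
theorem exists_const_of_isIntegral (j : Y) (hj : Transcendental L j) (S₂ : Subring Y)
    (hS₂ : ∀ a ∈ S₂, ∃ (p : L[X]) (m : ℕ), a * (1 - 1728 * j⁻¹) ^ m = aeval j⁻¹ p)
    (q : L[X]) (hz : IsIntegral S₂ (aeval j q)) : ∃ c : L, aeval j q = algebraMap L Y c := by
  classical
  have hj0 : j ≠ 0 := fun h => hj (h ▸ isAlgebraic_zero)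
  have ht : Transcendental L j⁻¹ := fun h => hj (by simpa using h.inv)
  have htinj : Function.Injective (aeval (R := L) j⁻¹) := transcendental_iff_injective.mp ht
  rcases Nat.eq_zero_or_pos q.natDegree with hN | hN
  · rw [eq_C_of_natDegree_eq_zero hN, aeval_C]
    exact ⟨_, rfl⟩
  exfalso
  set N := q.natDegree with hNdef
  set t : Y := j⁻¹ with htdef
  set T : Y := 1 - 1728 * t with hTdef
  set z : Y := aeval j q with hzdef
  obtain ⟨h, hmon, hhz⟩ := hz
  set e := h.natDegree with hedef
  choose P m hPm using fun i : ℕ => hS₂ (h.coeff i : Y) (h.coeff i).2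
  set M := ∑ i ∈ Finset.range (e + 1), m i with hM
  have hmle : ∀ i ∈ Finset.range (e + 1), m i ≤ M := fun i hi =>
    Finset.single_le_sum (f := m) (fun _ _ => Nat.zero_le _) hi
  -- `t ^ N * z = r(t)`
  have hrz : z * t ^ N = aeval t (reverse q) := aeval_mul_inv_pow j hj0 q
  have hTaeval : aeval t (1 - C (1728 : L) * X) = T := by
    simp only [map_sub, map_one, map_mul, aeval_X, aeval_C, hTdef]
    congr 2
    exact map_ofNat _ 1728
  -- the polynomial identity
  set G : L[X] := ∑ i ∈ Finset.range (e + 1),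
    P i * (1 - C (1728 : L) * X) ^ (M - m i) * X ^ ((e - i) * N) * (reverse q) ^ i with hG
  have hG0 : aeval t G = 0 := by
    have h0 : (∑ i ∈ Finset.range (e + 1), (h.coeff i : Y) * z ^ i) = 0 := by
      rw [← hhz, eval₂_eq_sum_range]
      rfl
    have h1 : aeval t G = T ^ M * t ^ (e * N) *
        ∑ i ∈ Finset.range (e + 1), (h.coeff i : Y) * z ^ i := by
      rw [hG, map_sum, Finset.mul_sum]
      refine Finset.sum_congr rfl fun i hi => ?_
      have hie : i ≤ e := Nat.lt_succ_iff.mp (Finset.mem_range.mp hi)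
      simp only [map_mul, map_pow, aeval_X, hTaeval]
      rw [← hPm i, ← hrz]
      have e1 : T ^ M = T ^ m i * T ^ (M - m i) := by
        rw [← pow_add]; congr 1; have := hmle i hi; omega
      have e2 : t ^ (e * N) = t ^ ((e - i) * N) * (t ^ N) ^ i := by
        rw [← pow_mul, ← pow_add]; congr 1
        have : e * N = (e - i) * N + i * N := by
          rw [← Nat.add_mul]; congr 1; omega
        rw [this, Nat.mul_comm N i]
      rw [e1, e2, mul_pow]
      ring
    rw [h1, h0, mul_zero]
  have hGz : G = 0 := htinj (by rw [hG0, map_zero])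
  -- evaluate at `0`
  have hPe : P e = (1 - C (1728 : L) * X) ^ m e := by
    apply htinj
    rw [← hPm e, map_pow, hTaeval]
    have : (h.coeff e : Y) = 1 := by
      have h1 : h.coeff e = 1 := hmon
      rw [h1]; rfl
    rw [this, one_mul]
  have hev : eval 0 G = q.leadingCoeff ^ e := by
    rw [hG, eval_finsetSum, Finset.sum_eq_single e]
    · simp only [eval_mul, eval_pow, eval_X, eval_sub, eval_one, eval_C, mul_zero, sub_zero,
        one_pow, mul_one, Nat.sub_self, zero_mul, pow_zero, hPe]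
      rw [← coeff_zero_eq_eval_zero, coeff_zero_reverse, one_mul]
    · intro i hi hie
      have hilt : i < e := lt_of_le_of_ne (Nat.lt_succ_iff.mp (Finset.mem_range.mp hi)) hie
      have hpos : 0 < (e - i) * N := Nat.mul_pos (by omega) hN
      simp only [eval_mul, eval_pow, eval_X]
      rw [zero_pow (by omega)]
      ring
    · intro hne
      exact absurd (Finset.mem_range.mpr (Nat.lt_succ_self e)) hne
  rw [hGz, eval_zero] at hev
  have hlc : q.leadingCoeff ≠ 0 := by
    rw [Ne, leadingCoeff_eq_zero]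
    intro hq0
    rw [hNdef, hq0, natDegree_zero] at hN
    exact lt_irrefl _ hN
  exact pow_ne_zero e hlc hev.symm

open IntermediateField IntermediateField.algebraAdjoinAdjoin in
/-- **`H⁰` of the two-chart cover.**  An element of `Y` which is integral over `L[j]` and over
(a subring of) `L[t, 1/(1 - 1728 t)]`, `t = 1/j`, is algebraic over `L`. -/
theorem isAlgebraic_of_isIntegral_two_charts (j : Y) (hj : Transcendental L j) (S₂ : Subring Y)
    (hS₂ : ∀ a ∈ S₂, ∃ (p : L[X]) (m : ℕ), a * (1 - 1728 * j⁻¹) ^ m = aeval j⁻¹ p)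
    (x : Y) (hx₁ : IsIntegral (Algebra.adjoin L {j}) x) (hx₂ : IsIntegral S₂ x) :
    IsAlgebraic L x := by
  classical
  have hj0 : j ≠ 0 := fun h => hj (h ▸ isAlgebraic_zero)
  have : IsIntegrallyClosed (Algebra.adjoin L {j}) :=
    IsIntegrallyClosed.of_equiv (Polynomial.algEquivOfTranscendental L j hj).toRingEquiv
  -- the minimal polynomial over `L(j)` has coefficients in `L[j]`
  have h3 : minpoly L⟮j⟯ x = (minpoly (Algebra.adjoin L {j}) x).map
      (algebraMap (Algebra.adjoin L {j}) L⟮j⟯) :=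
    minpoly.isIntegrallyClosed_eq_field_fractions' L⟮j⟯ hx₁
  set Mp := minpoly (Algebra.adjoin L {j}) x with hMp
  have hMmon : Mp.Monic := minpoly.monic hx₁
  have hMx : aeval x Mp = 0 := minpoly.aeval _ x
  -- the image of `Mp` in `Y[X]`
  set g : Y[X] := Mp.map (algebraMap (Algebra.adjoin L {j}) Y) with hg
  have hgmon : g.Monic := hMmon.map _
  -- a monic polynomial over `S₂` killing `x`
  obtain ⟨f, hfmon, hfx⟩ := hx₂
  -- `f` has coefficients in `L(j)`
  have hT0 : (1 - 1728 * j⁻¹ : Y) ≠ 0 := by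
    intro h0
    have e1 : (1 - 1728 * j⁻¹) * j = j - 1728 := by field_simp
    rw [h0, zero_mul] at e1
    have : j = algebraMap L Y 1728 := by
      rw [map_ofNat]; exact (sub_eq_zero.mp e1.symm)
    exact hj (this ▸ isAlgebraic_algebraMap _)
  have hjK : j ∈ L⟮j⟯ := mem_adjoin_simple_self L j
  have hS₂K : ∀ a ∈ S₂, a ∈ L⟮j⟯ := by
    intro a ha
    obtain ⟨p, m, hpm⟩ := hS₂ a ha
    have hTK : (1 - 1728 * j⁻¹ : Y) ∈ L⟮j⟯ :=
      sub_mem (one_mem _) (mul_mem (by
        have : (1728 : Y) = algebraMap L Y 1728 := (map_ofNat _ 1728).symm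
        rw [this]; exact IntermediateField.algebraMap_mem _ _) (inv_mem hjK))
    have ha' : a = aeval j⁻¹ p * ((1 - 1728 * j⁻¹) ^ m)⁻¹ := by
      rw [← hpm, mul_assoc, mul_inv_cancel₀ (pow_ne_zero m hT0), mul_one]
    rw [ha']
    refine mul_mem ?_ (inv_mem (pow_mem hTK m))
    rw [aeval_eq_sum_range]
    refine sum_mem fun i _ => ?_
    rw [Algebra.smul_def]
    exact mul_mem (IntermediateField.algebraMap_mem _ _) (pow_mem (inv_mem hjK) i)
  have hflift : f.map (algebraMap S₂ Y) ∈ lifts (algebraMap L⟮j⟯ Y) := by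
    rw [lifts_iff_coeff_lifts]
    intro i
    rw [coeff_map]
    exact ⟨⟨_, hS₂K _ (f.coeff i).2⟩, rfl⟩
  obtain ⟨fK, hfK, -, hfKmon⟩ := lifts_and_natDegree_eq_and_monic hflift (hfmon.map _)
  have hfKx : aeval x fK = 0 := by
    rw [← aeval_map_algebraMap Y, hfK, aeval_def, eval₂_map, Algebra.algebraMap_self,
      RingHom.id_comp]
    exact hfx
  have hdvd : g ∣ f.map (algebraMap S₂ Y) := by
    have h1 : minpoly L⟮j⟯ x ∣ fK := minpoly.dvd _ x hfKx
    have h2 := Polynomial.map_dvd (algebraMap L⟮j⟯ Y) h1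
    rw [hfK, h3, Polynomial.map_map] at h2
    have : (algebraMap L⟮j⟯ Y).comp (algebraMap (Algebra.adjoin L {j}) L⟮j⟯)
        = algebraMap (Algebra.adjoin L {j}) Y := by
      ext a; rfl
    rwa [this] at h2
  have hglift := integralClosure.mem_lifts_of_monic_of_dvd_map (K := Y) hfmon hgmon hdvd
  rw [lifts_iff_coeff_lifts] at hglift
  -- every coefficient of `Mp` is a constant
  have hconst : ∀ i, ∃ c : L, ((Mp.coeff i : Algebra.adjoin L {j}) : Y) = algebraMap L Y c := by
    intro i
    obtain ⟨q, hq⟩ := Algebra.adjoin_mem_exists_aeval _ _ (Mp.coeff i).2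
    have hint : IsIntegral S₂ (aeval j q) := by
      obtain ⟨y, hy⟩ := hglift i
      rw [hq]
      have : ((Mp.coeff i : Algebra.adjoin L {j}) : Y) = g.coeff i := by
        rw [hg, coeff_map]; rfl
      rw [this, ← hy]
      exact y.2
    obtain ⟨c, hc⟩ := exists_const_of_isIntegral j hj S₂ hS₂ q hint
    exact ⟨c, by rw [← hq, hc]⟩
  choose c hc using hconst
  -- so `x` is a root of a monic polynomial over `L`
  have hglift' : g ∈ lifts (algebraMap L Y) := by
    rw [lifts_iff_coeff_lifts]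
    intro i
    refine ⟨c i, ?_⟩
    rw [← hc i, hg, coeff_map]
    rfl
  obtain ⟨G, hGmap, -, hGmon⟩ := lifts_and_natDegree_eq_and_monic hglift' hgmon
  refine ⟨G, hGmon.ne_zero, ?_⟩
  rw [← aeval_map_algebraMap Y, hGmap, hg, aeval_def, eval₂_map, Algebra.algebraMap_self,
    RingHom.id_comp]
  exact hMx

end Constants

end Fermat.Agent.S18.ChartAlg
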