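import Mathlib

/-
S18 chart algebra, link 8 (H⁰): a function on the `j`-line that is integral over both charts
`W[j]` and `W[1/j, 1/(j - 1728)]` (more generally: over any ring of functions regular at
`j = ∞`) is integral over the base ring `W`.  Mathlib only.
-/


open Polynomial

set_option linter.unusedSectionVars false
set_option linter.style.haveILetI false

namespace Fermat.Agent.S18.ChartConst

section Infinity

variable {W F : Type*} [CommRing W] [IsDomain W] [Field F] [Algebra W F] (j : F)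

/-- `b` has no pole at `j = ∞`: `b = q(j) / D(j)` with `deg q ≤ deg D`. -/
def RegInf (b : F) : Prop :=
  ∃ D q : W[X], D ≠ 0 ∧ q.natDegree ≤ D.natDegree ∧ b * aeval j D = aeval j q

/-- `b` vanishes at `j = ∞`: `b = q(j) / D(j)` with `deg q < deg D`. -/
def VanInf (b : F) : Prop :=
  ∃ D q : W[X], D ≠ 0 ∧ q.natDegree < D.natDegree ∧ b * aeval j D = aeval j q

variable {j}

theorem regInf_algebraMap (a : W) : RegInf (W := W) j (algebraMap W F a) :=
  ⟨1, C a, one_ne_zero, by simp, by simp⟩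

theorem RegInf.add {b₁ b₂ : F} (h₁ : RegInf (W := W) j b₁) (h₂ : RegInf (W := W) j b₂) :
    RegInf (W := W) j (b₁ + b₂) := by
  obtain ⟨D₁, q₁, hD₁, hq₁, e₁⟩ := h₁
  obtain ⟨D₂, q₂, hD₂, hq₂, e₂⟩ := h₂
  refine ⟨D₁ * D₂, q₁ * D₂ + q₂ * D₁, mul_ne_zero hD₁ hD₂, ?_, ?_⟩
  · rw [natDegree_mul hD₁ hD₂]
    refine (natDegree_add_le _ _).trans (max_le ?_ ?_)
    · exact natDegree_mul_le.trans (by omega)
    · exact natDegree_mul_le.trans (by omega)
  · simp only [map_mul, map_add]
    linear_combination (aeval j D₂) * e₁ + (aeval j D₁) * e₂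

theorem RegInf.mul {b₁ b₂ : F} (h₁ : RegInf (W := W) j b₁) (h₂ : RegInf (W := W) j b₂) :
    RegInf (W := W) j (b₁ * b₂) := by
  obtain ⟨D₁, q₁, hD₁, hq₁, e₁⟩ := h₁
  obtain ⟨D₂, q₂, hD₂, hq₂, e₂⟩ := h₂
  refine ⟨D₁ * D₂, q₁ * q₂, mul_ne_zero hD₁ hD₂, ?_, ?_⟩
  · rw [natDegree_mul hD₁ hD₂]
    exact natDegree_mul_le.trans (by omega)
  · simp only [map_mul]
    rw [← e₁, ← e₂]
    ring

/-- The inverse of a nonzero polynomial in `j` has no pole at infinity. -/
theorem regInf_inv_aeval (hj : Transcendental W j) (G : W[X]) (hG : G ≠ 0) :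
    RegInf (W := W) j (aeval j G)⁻¹ := by
  have h0 : aeval j G ≠ 0 := fun h => hG ((transcendental_iff.mp hj) G h)
  exact ⟨G, 1, hG, by simp, by rw [inv_mul_cancel₀ h0, map_one]⟩

theorem vanInf_zero : VanInf (W := W) j (0 : F) :=
  ⟨X, 0, X_ne_zero, by simp, by simp⟩

theorem VanInf.add {b₁ b₂ : F} (h₁ : VanInf (W := W) j b₁) (h₂ : VanInf (W := W) j b₂) :
    VanInf (W := W) j (b₁ + b₂) := by
  obtain ⟨D₁, q₁, hD₁, hq₁, e₁⟩ := h₁
  obtain ⟨D₂, q₂, hD₂, hq₂, e₂⟩ := h₂
  refine ⟨D₁ * D₂, q₁ * D₂ + q₂ * D₁, mul_ne_zero hD₁ hD₂, ?_, ?_⟩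
  · rw [natDegree_mul hD₁ hD₂]
    refine lt_of_le_of_lt (natDegree_add_le _ _) (max_lt ?_ ?_)
    · exact lt_of_le_of_lt natDegree_mul_le (by omega)
    · exact lt_of_le_of_lt natDegree_mul_le (by omega)
  · simp only [map_mul, map_add]
    linear_combination (aeval j D₂) * e₁ + (aeval j D₁) * e₂

theorem VanInf.neg {b : F} (h : VanInf (W := W) j b) : VanInf (W := W) j (-b) := by
  obtain ⟨D, q, hD, hq, e⟩ := h
  exact ⟨D, -q, hD, by rwa [natDegree_neg], by rw [map_neg, ← e]; ring⟩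

theorem RegInf.mul_vanInf {b₁ b₂ : F} (h₁ : RegInf (W := W) j b₁) (h₂ : VanInf (W := W) j b₂) :
    VanInf (W := W) j (b₁ * b₂) := by
  obtain ⟨D₁, q₁, hD₁, hq₁, e₁⟩ := h₁
  obtain ⟨D₂, q₂, hD₂, hq₂, e₂⟩ := h₂
  refine ⟨D₁ * D₂, q₁ * q₂, mul_ne_zero hD₁ hD₂, ?_, ?_⟩
  · rw [natDegree_mul hD₁ hD₂]
    exact lt_of_le_of_lt natDegree_mul_le (by omega)
  · simp only [map_mul]
    rw [← e₁, ← e₂]
    ring

theorem VanInf.regInf {b : F} (h : VanInf (W := W) j b) : RegInf (W := W) j b := by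
  obtain ⟨D, q, hD, hq, e⟩ := h
  exact ⟨D, q, hD, hq.le, e⟩

theorem VanInf.pow {b : F} (h : VanInf (W := W) j b) (k : ℕ) : VanInf (W := W) j (b ^ (k + 1)) := by
  induction k with
  | zero => simpa using h
  | succ k ih =>
    rw [pow_succ]
    exact ih.regInf.mul_vanInf h

theorem not_vanInf_one (hj : Transcendental W j) : ¬ VanInf (W := W) j (1 : F) := by
  rintro ⟨D, q, hD, hq, e⟩
  rw [one_mul] at e
  have h1 : D = q := by
    have h2 : aeval j (D - q) = 0 := by rw [map_sub, e, sub_self]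
    exact sub_eq_zero.mp ((transcendental_iff.mp hj) _ h2)
  rw [h1] at hq
  exact lt_irrefl _ hq

theorem vanInf_inv_aeval (hj : Transcendental W j) (p : W[X]) (hp : p.natDegree ≠ 0) :
    VanInf (W := W) j (aeval j p)⁻¹ := by
  have hp0 : p ≠ 0 := by
    rintro rfl
    exact hp natDegree_zero
  have h0 : aeval j p ≠ 0 := fun h => hp0 ((transcendental_iff.mp hj) p h)
  exact ⟨p, 1, hp0, by rw [natDegree_one]; omega, by rw [inv_mul_cancel₀ h0, map_one]⟩

/-- A non-constant polynomial in `j` is not integral over a ring of functions regular at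
infinity. -/
theorem natDegree_eq_zero_of_isIntegral (hj : Transcendental W j) (A₂ : Subalgebra W F)
    (hA₂ : ∀ b ∈ A₂, RegInf (W := W) j b) (p : W[X]) (h : IsIntegral A₂ (aeval j p)) :
    p.natDegree = 0 := by
  by_contra hp
  have hp0 : p ≠ 0 := by
    rintro rfl
    exact hp natDegree_zero
  have hc0 : aeval j p ≠ 0 := fun h => hp0 ((transcendental_iff.mp hj) p h)
  have hvan := vanInf_inv_aeval hj p hp
  obtain ⟨f, hf, hfc⟩ := h
  set c := aeval j p with hc
  have hsum : c ^ f.natDegree + ∑ i ∈ Finset.range f.natDegree, ((f.coeff i : A₂) : F) * c ^ i = 0 := by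
    have h1 := hf.as_sum
    rw [h1] at hfc
    simp only [eval₂_add, eval₂_pow, eval₂_X, eval₂_finsetSum, eval₂_mul, eval₂_C] at hfc
    rw [← hfc]
    rfl
  -- divide by `c ^ natDegree`
  have hone : (1 : F) = -∑ i ∈ Finset.range f.natDegree,
      ((f.coeff i : A₂) : F) * (c⁻¹) ^ (f.natDegree - i) := by
    have h2 : (c⁻¹) ^ f.natDegree * (c ^ f.natDegree +
        ∑ i ∈ Finset.range f.natDegree, ((f.coeff i : A₂) : F) * c ^ i) = 0 := by
      rw [hsum, mul_zero]
    rw [mul_add, ← mul_pow, inv_mul_cancel₀ hc0, one_pow, Finset.mul_sum] at h2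
    rw [eq_neg_iff_add_eq_zero, ← h2]
    congr 1
    refine Finset.sum_congr rfl fun i hi => ?_
    have hi' : i < f.natDegree := Finset.mem_range.mp hi
    have h3 : (c⁻¹) ^ f.natDegree = (c⁻¹) ^ (f.natDegree - i) * (c⁻¹) ^ i := by
      rw [← pow_add, Nat.sub_add_cancel hi'.le]
    rw [h3]
    have h4 : (c⁻¹) ^ i * c ^ i = 1 := by rw [← mul_pow, inv_mul_cancel₀ hc0, one_pow]
    calc ((f.coeff i : A₂) : F) * (c⁻¹) ^ (f.natDegree - i)
        = ((f.coeff i : A₂) : F) * (c⁻¹) ^ (f.natDegree - i) * ((c⁻¹) ^ i * c ^ i) := by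
          rw [h4, mul_one]
      _ = (c⁻¹) ^ (f.natDegree - i) * (c⁻¹) ^ i * (((f.coeff i : A₂) : F) * c ^ i) := by ring
  apply not_vanInf_one (W := W) hj
  rw [hone]
  apply VanInf.neg
  refine Finset.sum_induction _ (VanInf (W := W) j) (fun _ _ => VanInf.add) vanInf_zero ?_
  intro i hi
  have hi' : i < f.natDegree := Finset.mem_range.mp hi
  obtain ⟨k, hk⟩ : ∃ k, f.natDegree - i = k + 1 := ⟨f.natDegree - i - 1, by omega⟩
  rw [hk]
  exact (hA₂ _ (f.coeff i).2).mul_vanInf (hvan.pow k)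


/-- The `W`-subalgebra of elements of `F` that are regular at `j = ∞`. -/
def regInfSubalgebra (W : Type*) {F : Type*} [CommRing W] [IsDomain W] [Field F] [Algebra W F]
    (j : F) : Subalgebra W F where
  carrier := {b | RegInf (W := W) j b}
  mul_mem' := fun h₁ h₂ => RegInf.mul h₁ h₂
  one_mem' := by
    have h := regInf_algebraMap (W := W) (j := j) (1 : W)
    rwa [map_one] at h
  add_mem' := fun h₁ h₂ => RegInf.add h₁ h₂
  zero_mem' := by
    have h := regInf_algebraMap (W := W) (j := j) (0 : W)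
    rwa [map_zero] at h
  algebraMap_mem' := fun a => regInf_algebraMap a

theorem mem_regInfSubalgebra {b : F} : b ∈ regInfSubalgebra W j ↔ RegInf (W := W) j b := Iff.rfl

theorem natDegree_reflect_le' (k : ℕ) (p : W[X]) (hp : p.natDegree ≤ k) :
    (reflect k p).natDegree ≤ k := by
  rw [natDegree_le_iff_coeff_eq_zero]
  intro i hi
  rw [coeff_reflect, revAt, Function.Embedding.coeFn_mk, if_neg (by omega)]
  exact coeff_eq_zero_of_natDegree_lt (by omega)

/-- Elements of the chart `W[1/j][1/f(1/j)]` (with `f(0) ≠ 0`) are regular at `j = ∞`. -/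
theorem regInf_of_away (hj : Transcendental W j) (f : W[X]) (hf : f.coeff 0 ≠ 0) (b : F) (p : W[X])
    (m : ℕ) (h : b * (aeval j⁻¹ f) ^ m = aeval j⁻¹ p) : RegInf (W := W) j b := by
  have hj0 : j ≠ 0 := by
    rintro rfl
    exact hj ⟨X, X_ne_zero, by simp⟩
  have hrefl : ∀ (k : ℕ) (s : W[X]), s.natDegree ≤ k →
      aeval j (reflect k s) = aeval j⁻¹ s * j ^ k := by
    intro k s hs
    letI : Invertible (j⁻¹ : F) := invertibleOfNonzero (inv_ne_zero hj0)
    have h1 := eval₂_reflect_mul_pow (algebraMap W F) (j⁻¹ : F) k s hs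
    rw [invOf_eq_inv, inv_inv] at h1
    have h2 : (j⁻¹ : F) ^ k * j ^ k = 1 := by rw [← mul_pow, inv_mul_cancel₀ hj0, one_pow]
    rw [aeval_def, aeval_def, ← h1, mul_assoc, h2, mul_one]
  set k := max p.natDegree (f ^ m).natDegree with hk
  have hfm : (f ^ m).coeff 0 ≠ 0 := by
    rw [coeff_zero_eq_eval_zero, eval_pow, ← coeff_zero_eq_eval_zero]
    exact pow_ne_zero _ hf
  refine ⟨reflect k (f ^ m), reflect k p, ?_, ?_, ?_⟩
  · rw [Ne, reflect_eq_zero_iff]
    rintro h0
    rw [h0, coeff_zero] at hfm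
    exact hfm rfl
  · refine (natDegree_reflect_le' k p (le_max_left _ _)).trans ?_
    apply le_natDegree_of_ne_zero
    rw [coeff_reflect, revAt_le le_rfl, Nat.sub_self]
    exact hfm
  · rw [hrefl k _ (le_max_right _ _), hrefl k _ (le_max_left _ _), map_pow, ← h]
    ring

end Infinity

section Generic

variable {R F A : Type*} [CommRing R] [IsDomain R] [IsIntegrallyClosed R] [Field F] [Algebra R F]
  [CommRing A] [Algebra A F]

/-- Let `R` be an integrally closed domain inside a field `F`, and `x ∈ F` integral over `R`.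
If `x` is also a root of a monic polynomial over another ring `A → F` whose coefficients lie in
the fraction field of `R`, then the coefficients of the minimal polynomial of `x` over `R` are
integral over `A`. -/
theorem isIntegral_coeff_minpoly (hinj : Function.Injective (algebraMap R F)) (x : F)
    (hx : IsIntegral R x) (f₂ : A[X]) (hf₂ : f₂.Monic) (hx₂ : eval₂ (algebraMap A F) x f₂ = 0)
    (hfrac : ∀ n, ∃ r s : R, s ≠ 0 ∧
      algebraMap A F (f₂.coeff n) * algebraMap R F s = algebraMap R F r) (n : ℕ) :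
    IsIntegral A (algebraMap R F ((minpoly R x).coeff n)) := by
  haveI : FaithfulSMul R F := (faithfulSMul_iff_algebraMap_injective R F).mpr hinj
  letI := FractionRing.liftAlgebra R F
  haveI := FractionRing.isScalarTower_liftAlgebra R F
  have hmin : minpoly (FractionRing R) x = (minpoly R x).map (algebraMap R (FractionRing R)) :=
    minpoly.isIntegrallyClosed_eq_field_fractions' (FractionRing R) hx
  -- `f₂` lifts to `K[X]`
  have hlift : f₂.map (algebraMap A F) ∈ lifts (algebraMap (FractionRing R) F) := by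
    rw [lifts_iff_coeff_lifts]
    intro n
    obtain ⟨r, s, hs, e⟩ := hfrac n
    have hs' : algebraMap R F s ≠ 0 := fun h => hs (hinj (by rw [h, map_zero]))
    refine ⟨algebraMap R (FractionRing R) r / algebraMap R (FractionRing R) s, ?_⟩
    rw [map_div₀, ← IsScalarTower.algebraMap_apply, ← IsScalarTower.algebraMap_apply, ← e,
      coeff_map, mul_div_assoc, div_self hs', mul_one]
  obtain ⟨f₂', hf₂'⟩ := (mem_lifts _).mp hlift
  have hdvd : minpoly (FractionRing R) x ∣ f₂' := by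
    apply minpoly.dvd
    rw [aeval_def, ← eval_map, hf₂', eval_map, hx₂]
  have hdvd' : (minpoly R x).map (algebraMap R F) ∣ f₂.map (algebraMap A F) := by
    have h1 := Polynomial.map_dvd (algebraMap (FractionRing R) F) hdvd
    rwa [hmin, Polynomial.map_map, ← IsScalarTower.algebraMap_eq, hf₂'] at h1
  have h2 := integralClosure.mem_lifts_of_monic_of_dvd_map F hf₂
    ((minpoly.monic hx).map (algebraMap R F)) hdvd'
  rw [lifts_iff_coeff_lifts] at h2
  obtain ⟨c, hc⟩ := h2 n
  rw [coeff_map] at hc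
  rw [← hc]
  exact c.2

end Generic

section Main

variable {W F : Type*} [CommRing W] [IsDomain W] [IsIntegrallyClosed W] [Field F] [Algebra W F]
  {j : F}

/-- **H⁰, primitive form.** If `x` is a root of a monic polynomial with coefficients in `W[j]`
and of a monic polynomial with coefficients regular at `j = ∞`, then `x` is integral over `W`. -/
theorem isIntegral_of_monic_charts (hj : Transcendental W j) (x : F) (f₁ f₂ : F[X])
    (hf₁ : f₁.Monic) (hc₁ : ∀ n, ∃ p : W[X], f₁.coeff n = aeval j p) (hx₁ : f₁.eval x = 0)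
    (hf₂ : f₂.Monic) (hc₂ : ∀ n, RegInf (W := W) j (f₂.coeff n)) (hx₂ : f₂.eval x = 0) :
    IsIntegral W x := by
  letI : Algebra W[X] F := (aeval j : W[X] →ₐ[W] F).toRingHom.toAlgebra
  have halg : ∀ p : W[X], algebraMap W[X] F p = aeval j p := fun _ => rfl
  have hinj : Function.Injective (algebraMap W[X] F) := transcendental_iff_injective.mp hj
  -- `x` is integral over `W[X]`
  have hx : IsIntegral W[X] x := by
    have h1 : f₁ ∈ lifts (algebraMap W[X] F) := by
      rw [lifts_iff_coeff_lifts]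
      intro n
      obtain ⟨p, hp⟩ := hc₁ n
      exact ⟨p, hp.symm⟩
    obtain ⟨F₁, hF₁, -, hF₁m⟩ := lifts_and_natDegree_eq_and_monic h1 hf₁
    exact ⟨F₁, hF₁m, by rw [← eval_map, hF₁, hx₁]⟩
  -- `f₂` has coefficients in the subalgebra of regular elements
  have h2 : f₂ ∈ lifts (algebraMap (regInfSubalgebra W j) F) := by
    rw [lifts_iff_coeff_lifts]
    intro n
    exact ⟨⟨_, hc₂ n⟩, rfl⟩
  obtain ⟨F₂, hF₂, -, hF₂m⟩ := lifts_and_natDegree_eq_and_monic h2 hf₂
  have key : ∀ n, ((minpoly W[X] x).coeff n).natDegree = 0 := by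
    intro n
    apply natDegree_eq_zero_of_isIntegral hj (regInfSubalgebra W j) (fun b hb => hb)
    rw [← halg]
    refine isIntegral_coeff_minpoly hinj x hx F₂ hF₂m (by rw [← eval_map, hF₂, hx₂]) ?_ n
    intro m
    obtain ⟨D, q, hD, -, e⟩ := (F₂.coeff m).2
    exact ⟨q, D, hD, e⟩
  refine ⟨(minpoly W[X] x).map constantCoeff, (minpoly.monic hx).map _, ?_⟩
  have h3 : ((minpoly W[X] x).map constantCoeff).map (algebraMap W F) =
      (minpoly W[X] x).map (algebraMap W[X] F) := by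
    ext n
    rw [coeff_map, coeff_map, coeff_map, halg]
    conv_rhs => rw [eq_C_of_natDegree_eq_zero (key n)]
    rw [aeval_C]
    rfl
  rw [← eval_map, h3, eval_map, ← aeval_def]
  exact minpoly.aeval _ _

/-- **H⁰, ring-hom form** (second chart given by regularity at infinity). -/
theorem isIntegral_of_isIntegralElem_regInf {D₁ D₂ : Type*} [CommRing D₁] [CommRing D₂]
    (hj : Transcendental W j) (φ₁ : D₁ →+* F) (φ₂ : D₂ →+* F)
    (h₁ : ∀ a, ∃ p : W[X], φ₁ a = aeval j p) (h₂ : ∀ a, RegInf (W := W) j (φ₂ a)) (x : F)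
    (hx₁ : φ₁.IsIntegralElem x) (hx₂ : φ₂.IsIntegralElem x) : IsIntegral W x := by
  obtain ⟨p₁, hp₁, e₁⟩ := hx₁
  obtain ⟨p₂, hp₂, e₂⟩ := hx₂
  refine isIntegral_of_monic_charts hj x (p₁.map φ₁) (p₂.map φ₂) (hp₁.map _) ?_ ?_ (hp₂.map _) ?_ ?_
  · intro n
    rw [coeff_map]
    exact h₁ _
  · rw [eval_map, e₁]
  · intro n
    rw [coeff_map]
    exact h₂ _
  · rw [eval_map, e₂]

/-- **H⁰, ring-hom form** for the charts `D₁ → W[j]` and `D₂ → W[1/j][1/f(1/j)]`, `f(0) ≠ 0`
(e.g. `f = 1 - 1728 X`). -/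
theorem isIntegral_of_isIntegralElem_charts {D₁ D₂ : Type*} [CommRing D₁] [CommRing D₂]
    (hj : Transcendental W j) (φ₁ : D₁ →+* F) (φ₂ : D₂ →+* F)
    (h₁ : ∀ a, ∃ p : W[X], φ₁ a = aeval j p) (f : W[X]) (hf : f.coeff 0 ≠ 0)
    (h₂ : ∀ a, ∃ (p : W[X]) (m : ℕ), φ₂ a * (aeval j⁻¹ f) ^ m = aeval j⁻¹ p) (x : F)
    (hx₁ : φ₁.IsIntegralElem x) (hx₂ : φ₂.IsIntegralElem x) : IsIntegral W x := by
  refine isIntegral_of_isIntegralElem_regInf hj φ₁ φ₂ h₁ (fun a => ?_) x hx₁ hx₂
  obtain ⟨p, m, e⟩ := h₂ a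
  exact regInf_of_away hj f hf _ p m e

/-- Every element of `W[1/j, 1/(j - c)]` is regular at `j = ∞`. -/
theorem regInf_of_mem_adjoin (hj : Transcendental W j) (c : W) {b : F}
    (hb : b ∈ Algebra.adjoin W {j⁻¹, (j - algebraMap W F c)⁻¹}) : RegInf (W := W) j b := by
  induction hb using Algebra.adjoin_induction with
  | mem y hy =>
    rcases hy with rfl | rfl
    · have h := regInf_inv_aeval hj (X : W[X]) X_ne_zero
      rwa [aeval_X] at h
    · have h := regInf_inv_aeval hj (X - C c : W[X]) (X_sub_C_ne_zero c)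
      rwa [map_sub, aeval_X, aeval_C] at h
  | algebraMap r => exact regInf_algebraMap r
  | add y z _ _ hy hz => exact hy.add hz
  | mul y z _ _ hy hz => exact hy.mul hz

/-- **H⁰, subalgebra form**: integral over `W[j]` and over `W[1/j, 1/(j - 1728)]` implies
integral over `W`. -/
theorem isIntegral_of_isIntegral_charts (hj : Transcendental W j) (x : F)
    (h1 : IsIntegral (Algebra.adjoin W {j}) x)
    (h2 : IsIntegral (Algebra.adjoin W {j⁻¹, (j - 1728)⁻¹}) x) : IsIntegral W x := by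
  refine isIntegral_of_isIntegralElem_regInf hj (algebraMap (Algebra.adjoin W {j}) F)
    (algebraMap (Algebra.adjoin W {j⁻¹, (j - 1728)⁻¹}) F) ?_ ?_ x h1 h2
  · intro a
    have ha : (a : F) ∈ (aeval j : W[X] →ₐ[W] F).range := by
      rw [← Algebra.adjoin_singleton_eq_range_aeval]
      exact a.2
    obtain ⟨p, hp⟩ := ha
    exact ⟨p, hp.symm⟩
  · intro a
    have e : (1728 : F) = algebraMap W F 1728 := (map_ofNat (algebraMap W F) 1728).symm
    have ha : (a : F) ∈ Algebra.adjoin W {j⁻¹, (j - algebraMap W F 1728)⁻¹} := by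
      rw [← e]
      exact a.2
    exact regInf_of_mem_adjoin hj 1728 ha

/-- Variant of the subalgebra form for an arbitrary constant `c`. -/
theorem isIntegral_of_isIntegral_charts' (hj : Transcendental W j) (c : W) (x : F)
    (h1 : IsIntegral (Algebra.adjoin W {j}) x)
    (h2 : IsIntegral (Algebra.adjoin W {j⁻¹, (j - algebraMap W F c)⁻¹}) x) : IsIntegral W x := by
  refine isIntegral_of_isIntegralElem_regInf hj (algebraMap (Algebra.adjoin W {j}) F)
    (algebraMap (Algebra.adjoin W {j⁻¹, (j - algebraMap W F c)⁻¹}) F) ?_ ?_ x h1 h2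
  · intro a
    have ha : (a : F) ∈ (aeval j : W[X] →ₐ[W] F).range := by
      rw [← Algebra.adjoin_singleton_eq_range_aeval]
      exact a.2
    obtain ⟨p, hp⟩ := ha
    exact ⟨p, hp.symm⟩
  · intro a
    exact regInf_of_mem_adjoin hj c a.2

end Main

end Fermat.Agent.S18.ChartConst
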