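/-
S18, package P9 (helper17): the two-chart "formal functions" lemma in abstract form.

Setting: a commutative ring `B` with three subrings `B1, B2 ≤ B12` (two affine charts and their
overlap) and an element `π` of `B1 ∩ B2`.  If the `π`-power torsion of `B12 / (B1 + B2)` is
bounded (e.g. because that quotient is a finitely generated module over a noetherian ring), then
every pair of idempotents modulo `π` of the two charts which agree on the overlap modulo `π` is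
induced by a single element of `B1 ∩ B2`.

No sheaves, no completions: idempotents are lifted modulo `π ^ (t + 1)` by Newton's iteration
`e ↦ 3e² - 2e³`, the two lifts agree on the overlap modulo `π ^ (t + 1)` by uniqueness of
idempotent lifts, and the torsion bound turns the difference into `π * (b1 + b2)`.
-/
import Mathlib

set_option autoImplicit false

namespace Fermat.Agent.S18.TwoChart

section Idempotents

variable {B : Type*} [CommRing B]

/-- Newton's iteration for idempotents inside a subring: an idempotent modulo `π` lifts to an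
idempotent modulo `π ^ (n + 1)`, congruent to the original one modulo `π`. -/
theorem exists_idem_lift (S : Subring B) (π : B) (hπ : π ∈ S) (e : B) (he : e ∈ S)
    (hid : ∃ a ∈ S, e ^ 2 - e = π * a) (n : ℕ) :
    ∃ e' ∈ S, (∃ b ∈ S, e' - e = π * b) ∧ ∃ a ∈ S, e' ^ 2 - e' = π ^ (n + 1) * a := by
  induction n with
  | zero =>
    obtain ⟨a, ha, ha'⟩ := hid
    exact ⟨e, he, ⟨0, S.zero_mem, by ring⟩, a, ha, by rw [ha']; ring⟩
  | succ n ih =>
    obtain ⟨e', he', ⟨b, hb, hb'⟩, a, ha, ha'⟩ := ih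
    have h2 : (2 : B) ∈ S := by
      have : (2 : B) = 1 + 1 := by norm_num
      rw [this]; exact S.add_mem S.one_mem S.one_mem
    have h3 : (3 : B) ∈ S := by
      have : (3 : B) = 2 + 1 := by norm_num
      rw [this]; exact S.add_mem h2 S.one_mem
    have h4 : (4 : B) ∈ S := by
      have : (4 : B) = 2 + 2 := by norm_num
      rw [this]; exact S.add_mem h2 h2
    refine ⟨3 * e' ^ 2 - 2 * e' ^ 3, ?_, ⟨b + π ^ n * a * (1 - 2 * e'), ?_, ?_⟩,
      π ^ n * a ^ 2 * (4 * e' ^ 2 - 4 * e' - 3), ?_, ?_⟩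
    · exact S.sub_mem (S.mul_mem h3 (S.pow_mem he' 2)) (S.mul_mem h2 (S.pow_mem he' 3))
    · exact S.add_mem hb (S.mul_mem (S.mul_mem (S.pow_mem hπ n) ha)
        (S.sub_mem S.one_mem (S.mul_mem h2 he')))
    · have e1 : 3 * e' ^ 2 - 2 * e' ^ 3 - e = (e' ^ 2 - e') * (1 - 2 * e') + (e' - e) := by ring
      rw [e1, ha', hb']; ring
    · exact S.mul_mem (S.mul_mem (S.pow_mem hπ n) (S.pow_mem ha 2))
        (S.sub_mem (S.sub_mem (S.mul_mem h4 (S.pow_mem he' 2)) (S.mul_mem h4 he')) h3)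
    · have e1 : (3 * e' ^ 2 - 2 * e' ^ 3) ^ 2 - (3 * e' ^ 2 - 2 * e' ^ 3)
          = (e' ^ 2 - e') ^ 2 * (4 * e' ^ 2 - 4 * e' - 3) := by ring
      rw [e1, ha']; ring

/-- Uniqueness of idempotent lifts inside a subring: two idempotents modulo `π ^ n` which are
congruent modulo `π` are congruent modulo `π ^ n`. -/
theorem idem_sub_mem (T : Subring B) (π : B) (hπ : π ∈ T) (e e' : B) (he : e ∈ T) (he' : e' ∈ T)
    (n : ℕ) (h : ∃ a ∈ T, e ^ 2 - e = π ^ n * a) (h' : ∃ a ∈ T, e' ^ 2 - e' = π ^ n * a)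
    (hd : ∃ d ∈ T, e - e' = π * d) :
    ∃ d ∈ T, e - e' = π ^ n * d := by
  obtain ⟨a, ha, ha'⟩ := h
  obtain ⟨a', ha1, ha1'⟩ := h'
  obtain ⟨d, hd, hd'⟩ := hd
  have h3 : (3 : B) ∈ T := by
    have : (3 : B) = 1 + 1 + 1 := by norm_num
    rw [this]; exact T.add_mem (T.add_mem T.one_mem T.one_mem) T.one_mem
  -- `x ^ 3 - x` is divisible by `π ^ n`
  set x := e - e' with hx
  have hxT : x ∈ T := T.sub_mem he he'
  set c := a * (1 + e - 3 * e') - a' * (1 + e' - 3 * e) with hc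
  have hcT : c ∈ T := T.sub_mem
    (T.mul_mem ha (T.sub_mem (T.add_mem T.one_mem he) (T.mul_mem h3 he')))
    (T.mul_mem ha1 (T.sub_mem (T.add_mem T.one_mem he') (T.mul_mem h3 he)))
  have hcube : x ^ 3 = x + π ^ n * c := by
    have e1 : x ^ 3 = x + ((e ^ 2 - e) * (1 + e - 3 * e') - (e' ^ 2 - e') * (1 + e' - 3 * e)) := by
      rw [hx]; ring
    rw [e1, ha', ha1', hc]; ring
  -- hence `x = x ^ (2 k + 1) + π ^ n * c_k`
  have key : ∀ k : ℕ, ∃ ck ∈ T, x = x ^ (2 * k + 1) + π ^ n * ck := by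
    intro k
    induction k with
    | zero => exact ⟨0, T.zero_mem, by ring⟩
    | succ k ih =>
      obtain ⟨ck, hck, hck'⟩ := ih
      refine ⟨ck * x ^ 2 - c, T.sub_mem (T.mul_mem hck (T.pow_mem hxT 2)) hcT, ?_⟩
      have e1 : x ^ (2 * (k + 1) + 1) = x ^ (2 * k + 1) * x ^ 2 := by ring
      have e2 : x ^ (2 * k + 1) = x - π ^ n * ck := by
        have h0 := hck'
        exact eq_sub_of_add_eq h0.symm
      have e3 : x = x ^ 3 - π ^ n * c := eq_sub_of_add_eq hcube.symm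
      rw [e1, e2]
      calc x = x ^ 3 - π ^ n * c := e3
        _ = (x - π ^ n * ck) * x ^ 2 + π ^ n * (ck * x ^ 2 - c) := by ring
  obtain ⟨cn, hcn, hcn'⟩ := key n
  refine ⟨π ^ (n + 1) * d ^ (2 * n + 1) + cn,
    T.add_mem (T.mul_mem (T.pow_mem hπ _) (T.pow_mem hd _)) hcn, ?_⟩
  have e1 : x ^ (2 * n + 1) = π ^ n * (π ^ (n + 1) * d ^ (2 * n + 1)) := by
    rw [hd']; ring
  calc x = x ^ (2 * n + 1) + π ^ n * cn := hcn'
    _ = π ^ n * (π ^ (n + 1) * d ^ (2 * n + 1) + cn) := by rw [e1]; ring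

end Idempotents

section Main

variable {B : Type*} [CommRing B]

/-- **Two-chart lemma.**  `B1, B2 ≤ B12` subrings of `B`, `π ∈ B1 ∩ B2`, and the `π`-power torsion
of `B12 / (B1 + B2)` is killed by `π ^ t`.  Then idempotents modulo `π` of `B1` and of `B2` which
agree modulo `π` in `B12` are both induced by one element of `B1 ∩ B2`. -/
theorem exists_common_lift (B1 B2 B12 : Subring B) (h1 : B1 ≤ B12) (h2 : B2 ≤ B12)
    (π : B) (hπ1 : π ∈ B1) (hπ2 : π ∈ B2) (t : ℕ)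
    (hT : ∀ (n : ℕ) (x : B), x ∈ B12 → (∃ b1 ∈ B1, ∃ b2 ∈ B2, π ^ n * x = b1 + b2) →
      ∃ b1 ∈ B1, ∃ b2 ∈ B2, π ^ t * x = b1 + b2)
    (e1 e2 : B) (he1 : e1 ∈ B1) (he2 : e2 ∈ B2)
    (hid1 : ∃ a ∈ B1, e1 ^ 2 - e1 = π * a) (hid2 : ∃ a ∈ B2, e2 ^ 2 - e2 = π * a)
    (h12 : ∃ d ∈ B12, e1 - e2 = π * d) :
    ∃ c, c ∈ B1 ∧ c ∈ B2 ∧ (∃ a ∈ B1, c - e1 = π * a) ∧ (∃ a ∈ B2, c - e2 = π * a) := by
  obtain ⟨f1, hf1, ⟨b1, hb1, hb1'⟩, a1, ha1, ha1'⟩ := exists_idem_lift B1 π hπ1 e1 he1 hid1 t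
  obtain ⟨f2, hf2, ⟨b2, hb2, hb2'⟩, a2, ha2, ha2'⟩ := exists_idem_lift B2 π hπ2 e2 he2 hid2 t
  obtain ⟨d, hd, hd'⟩ := h12
  have hdiff : ∃ d' ∈ B12, f1 - f2 = π ^ (t + 1) * d' := by
    refine idem_sub_mem B12 π (h1 hπ1) f1 f2 (h1 hf1) (h2 hf2) (t + 1) ⟨a1, h1 ha1, ha1'⟩
      ⟨a2, h2 ha2, ha2'⟩ ⟨d + b1 - b2, B12.sub_mem (B12.add_mem hd (h1 hb1)) (h2 hb2), ?_⟩
    have e0 : f1 - f2 = (f1 - e1) - (f2 - e2) + (e1 - e2) := by ring
    rw [e0, hb1', hb2', hd']; ring
  obtain ⟨d', hd'mem, hd''⟩ := hdiff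
  obtain ⟨c1, hc1, c2, hc2, hc⟩ := hT (t + 1) d' hd'mem
    ⟨f1, hf1, -f2, B2.neg_mem hf2, by rw [← hd'']; ring⟩
  have hf12 : f1 - f2 = π * c1 + π * c2 := by
    rw [hd'', pow_succ', mul_assoc, hc]; ring
  refine ⟨f1 - π * c1, B1.sub_mem hf1 (B1.mul_mem hπ1 hc1), ?_,
    ⟨b1 - c1, B1.sub_mem hb1 hc1, ?_⟩, ⟨b2 + c2, B2.add_mem hb2 hc2, ?_⟩⟩
  · have : f1 - π * c1 = f2 + π * c2 := by
      have := hf12
      linear_combination this
    rw [this]
    exact B2.add_mem hf2 (B2.mul_mem hπ2 hc2)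
  · have e0 : f1 - π * c1 - e1 = (f1 - e1) - π * c1 := by ring
    rw [e0, hb1']; ring
  · have e0 : f1 - π * c1 - e2 = (f2 - e2) + π * c2 + ((f1 - f2) - (π * c1 + π * c2)) := by ring
    rw [e0, hb2', hf12]; ring

end Main

section Torsion

variable (W : Type*) [CommRing W] [IsNoetherianRing W] {B : Type*} [AddCommGroup B] [Module W B]

/-- Over a noetherian ring, if `N` is a finitely generated submodule then the `π`-power torsion of
the image of `M ⊔ N` in `B ⧸ M` is killed by a fixed power of `π`. -/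
theorem exists_torsion_bound (M N : Submodule W B) (hN : N.FG) (π : W) :
    ∃ t : ℕ, ∀ (n : ℕ) (x : B), x ∈ M ⊔ N → π ^ n • x ∈ M → π ^ t • x ∈ M := by
  classical
  -- the image of `N` in the quotient is a noetherian module
  set q : B →ₗ[W] B ⧸ M := M.mkQ with hq
  set N' : Submodule W (B ⧸ M) := N.map q with hN'
  have hfg : N'.FG := hN.map q
  have hnoeth : IsNoetherian W N' := isNoetherian_of_fg_of_noetherian N' hfg
  -- the chain of `π ^ n`-torsion submodules of `N'` stabilises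
  let f : ℕ →o Submodule W N' :=
    { toFun := fun n => LinearMap.ker (LinearMap.lsmul W N' (π ^ n))
      monotone' := by
        intro a b hab y hy
        rw [LinearMap.mem_ker, LinearMap.lsmul_apply] at hy ⊢
        obtain ⟨c, rfl⟩ := Nat.exists_eq_add_of_le hab
        rw [pow_add, mul_comm, mul_smul, hy, smul_zero] }
  obtain ⟨t, ht⟩ := (monotone_stabilizes_iff_noetherian (R := W) (M := N')).mpr hnoeth f
  refine ⟨t, fun n x hx hnx => ?_⟩
  have hqx : q x ∈ N' := by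
    obtain ⟨m, hm, y, hy, rfl⟩ := Submodule.mem_sup.mp hx
    have : q (m + y) = q y := by
      rw [map_add]
      have : q m = 0 := by rw [hq, Submodule.mkQ_apply, Submodule.Quotient.mk_eq_zero]; exact hm
      rw [this, zero_add]
    rw [this]
    exact Submodule.mem_map_of_mem hy
  have hmem : (⟨q x, hqx⟩ : N') ∈ f n := by
    show (⟨q x, hqx⟩ : N') ∈ LinearMap.ker (LinearMap.lsmul W N' (π ^ n))
    rw [LinearMap.mem_ker, LinearMap.lsmul_apply]
    apply Subtype.ext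
    show π ^ n • q x = 0
    rw [← map_smul, hq, Submodule.mkQ_apply, Submodule.Quotient.mk_eq_zero]
    exact hnx
  have hmem' : (⟨q x, hqx⟩ : N') ∈ f t := by
    rcases le_total n t with hnt | hnt
    · exact f.monotone hnt hmem
    · rw [ht n hnt]; exact hmem
  have h0 : π ^ t • (⟨q x, hqx⟩ : N') = 0 := by
    have := hmem'
    change (⟨q x, hqx⟩ : N') ∈ LinearMap.ker (LinearMap.lsmul W N' (π ^ t)) at this
    rwa [LinearMap.mem_ker, LinearMap.lsmul_apply] at this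
  have h1 : π ^ t • q x = 0 := by
    have := congrArg Subtype.val h0
    simpa using this
  rw [← map_smul, hq, Submodule.mkQ_apply, Submodule.Quotient.mk_eq_zero] at h1
  exact h1

end Torsion

section Algebra

variable (W : Type*) [CommRing W] [IsNoetherianRing W] {B : Type*} [CommRing B] [Algebra W B]

/-- **Two-chart lemma, module-finite form.**  `W` noetherian, `B1, B2 ≤ B12` subalgebras of `B`
such that `B12 ⊆ B1 + B2 + N` for a finitely generated `W`-submodule `N` (i.e. the first cohomology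
`B12 / (B1 + B2)` of the two-chart cover is a finitely generated `W`-module).  Then idempotents
modulo `π` of the two charts which agree modulo `π` on the overlap come from `B1 ∩ B2`. -/
theorem exists_common_lift_of_fg (B1 B2 B12 : Subalgebra W B) (h1 : B1 ≤ B12) (h2 : B2 ≤ B12)
    (N : Submodule W B) (hN : N.FG)
    (hcover : Subalgebra.toSubmodule B12 ≤
      Subalgebra.toSubmodule B1 ⊔ Subalgebra.toSubmodule B2 ⊔ N)
    (π : W) (e1 e2 : B) (he1 : e1 ∈ B1) (he2 : e2 ∈ B2)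
    (hid1 : ∃ a ∈ B1, e1 ^ 2 - e1 = π • a) (hid2 : ∃ a ∈ B2, e2 ^ 2 - e2 = π • a)
    (h12 : ∃ d ∈ B12, e1 - e2 = π • d) :
    ∃ c, c ∈ B1 ∧ c ∈ B2 ∧ (∃ a ∈ B1, c - e1 = π • a) ∧ (∃ a ∈ B2, c - e2 = π • a) := by
  obtain ⟨t, ht⟩ := exists_torsion_bound W
    (Subalgebra.toSubmodule B1 ⊔ Subalgebra.toSubmodule B2) N hN π
  have hsmul : ∀ x : B, π • x = algebraMap W B π * x := fun x => Algebra.smul_def π x
  have hpow : ∀ (n : ℕ) (x : B), π ^ n • x = algebraMap W B π ^ n * x := fun n x => by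
    rw [Algebra.smul_def, map_pow]
  have hT : ∀ (n : ℕ) (x : B), x ∈ B12.toSubring →
      (∃ b1 ∈ B1.toSubring, ∃ b2 ∈ B2.toSubring, algebraMap W B π ^ n * x = b1 + b2) →
      ∃ b1 ∈ B1.toSubring, ∃ b2 ∈ B2.toSubring, algebraMap W B π ^ t * x = b1 + b2 := by
    rintro n x hx ⟨b1, hb1, b2, hb2, hb⟩
    have hx' : x ∈ Subalgebra.toSubmodule B1 ⊔ Subalgebra.toSubmodule B2 ⊔ N := hcover hx
    have hn : π ^ n • x ∈ Subalgebra.toSubmodule B1 ⊔ Subalgebra.toSubmodule B2 := by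
      rw [hpow, hb]
      exact Submodule.add_mem_sup hb1 hb2
    obtain ⟨c1, hc1, c2, hc2, hc⟩ := Submodule.mem_sup.mp (ht n x hx' hn)
    exact ⟨c1, hc1, c2, hc2, by rw [← hpow, hc]⟩
  obtain ⟨a1, ha1, ha1'⟩ := hid1
  obtain ⟨a2, ha2, ha2'⟩ := hid2
  obtain ⟨d, hd, hd'⟩ := h12
  obtain ⟨c, hc1, hc2, ⟨u1, hu1, hu1'⟩, ⟨u2, hu2, hu2'⟩⟩ :=
    exists_common_lift B1.toSubring B2.toSubring B12.toSubring h1 h2 (algebraMap W B π)
      (B1.algebraMap_mem π) (B2.algebraMap_mem π) t hT e1 e2 he1 he2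
      ⟨a1, ha1, by rw [ha1', hsmul]⟩ ⟨a2, ha2, by rw [ha2', hsmul]⟩ ⟨d, hd, by rw [hd', hsmul]⟩
  exact ⟨c, hc1, hc2, ⟨u1, hu1, by rw [hu1', hsmul]⟩, ⟨u2, hu2, by rw [hu2', hsmul]⟩⟩

end Algebra

section Generators

variable {W : Type*} [CommRing W] {B : Type*} [CommRing B] [Algebra W B]

/-- The overlap of two charts `B1 ∋ j`, `B2 ∋ j⁻¹` with `B12 ⊆ B1[j⁻¹]`: if `B1` is spanned over
`W[j]` by finitely many `b i ∈ B1` and `j⁻ᵈ b i ∈ B2`, then `B12 ⊆ B1 + B2 + span {j⁻ⁿ b i : n < d}`. -/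
theorem cover_of_generators (B1 B2 B12 : Subalgebra W B) (j jinv : B) (hj : j ∈ B1)
    (hjinv : jinv ∈ B2) (hjj : j * jinv = 1)
    (h12 : ∀ x ∈ B12, ∃ n : ℕ, j ^ n * x ∈ B1)
    {ι : Type*} [Fintype ι] (b : ι → B) (hb1 : ∀ i, b i ∈ B1)
    (hb : ∀ y ∈ B1, ∃ p : ι → Polynomial W, y = ∑ i, Polynomial.aeval j (p i) * b i)
    (d : ℕ) (hd : ∀ i, jinv ^ d * b i ∈ B2) :
    Subalgebra.toSubmodule B12 ≤
      Subalgebra.toSubmodule B1 ⊔ Subalgebra.toSubmodule B2 ⊔
        Submodule.span W (Set.range fun p : ι × Fin d => jinv ^ (p.2 : ℕ) * b p.1) := by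
  classical
  set T : Submodule W B := Subalgebra.toSubmodule B1 ⊔ Subalgebra.toSubmodule B2 ⊔
        Submodule.span W (Set.range fun p : ι × Fin d => jinv ^ (p.2 : ℕ) * b p.1) with hT
  have hB1T : ∀ y ∈ B1, y ∈ T := fun y hy =>
    Submodule.mem_sup_left (Submodule.mem_sup_left hy)
  have hB2T : ∀ y ∈ B2, y ∈ T := fun y hy =>
    Submodule.mem_sup_left (Submodule.mem_sup_right hy)
  have hinv : ∀ n : ℕ, jinv ^ n * j ^ n = 1 := fun n => by
    rw [← mul_pow, mul_comm, hjj, one_pow]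
  -- Step A: monomials
  have stepA : ∀ (i : ι) (n k : ℕ), jinv ^ n * j ^ k * b i ∈ T := by
    intro i n k
    rcases le_or_gt n k with hnk | hnk
    · obtain ⟨c, rfl⟩ := Nat.exists_eq_add_of_le hnk
      have : jinv ^ n * j ^ (n + c) * b i = j ^ c * b i := by
        rw [pow_add, ← mul_assoc, hinv, one_mul]
      rw [this]
      exact hB1T _ (B1.mul_mem (B1.pow_mem hj c) (hb1 i))
    · obtain ⟨m, rfl⟩ := Nat.exists_eq_add_of_le hnk.le
      have e1 : jinv ^ (k + m) * j ^ k * b i = jinv ^ m * b i := by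
        rw [pow_add, mul_comm (jinv ^ k), mul_assoc (jinv ^ m), hinv, mul_one]
      rw [e1]
      rcases lt_or_ge m d with hmd | hmd
      · refine Submodule.mem_sup_right (Submodule.subset_span ⟨(i, ⟨m, hmd⟩), rfl⟩)
      · obtain ⟨c, rfl⟩ := Nat.exists_eq_add_of_le hmd
        have e2 : jinv ^ (d + c) * b i = jinv ^ c * (jinv ^ d * b i) := by
          rw [pow_add]; ring
        rw [e2]
        exact hB2T _ (B2.mul_mem (B2.pow_mem hjinv c) (hd i))
  -- Step B: polynomials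
  have stepB : ∀ (i : ι) (n : ℕ) (p : Polynomial W), jinv ^ n * Polynomial.aeval j p * b i ∈ T := by
    intro i n p
    rw [Polynomial.aeval_eq_sum_range, Finset.mul_sum, Finset.sum_mul]
    refine Submodule.sum_mem _ fun k _ => ?_
    have : jinv ^ n * p.coeff k • j ^ k * b i = p.coeff k • (jinv ^ n * j ^ k * b i) := by
      rw [mul_smul_comm, smul_mul_assoc]
    rw [this]
    exact Submodule.smul_mem _ _ (stepA i n k)
  -- Step C
  intro x hx
  obtain ⟨n, hn⟩ := h12 x hx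
  obtain ⟨p, hp⟩ := hb _ hn
  have hx' : x = ∑ i, jinv ^ n * Polynomial.aeval j (p i) * b i := by
    have : x = jinv ^ n * (j ^ n * x) := by rw [← mul_assoc, hinv, one_mul]
    rw [this, hp, Finset.mul_sum]
    exact Finset.sum_congr rfl fun i _ => by ring
  rw [hx']
  exact Submodule.sum_mem _ fun i _ => stepB i n (p i)

/-- The spanning set of `cover_of_generators` is finite. -/
theorem fg_span_generators {ι : Type*} [Fintype ι] (b : ι → B) (jinv : B) (d : ℕ) :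
    (Submodule.span W (Set.range fun p : ι × Fin d => jinv ^ (p.2 : ℕ) * b p.1)).FG :=
  Submodule.fg_span (Set.finite_range _)

end Generators

end Fermat.Agent.S18.TwoChart
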