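import Mathlib
import Fermat.Agent.S18.TwoChart

/-
S18, package P8b (helper10): the endgame of step 6 in abstract form.

Setting: `W` a noetherian UFD (a DVR in the application) with prime element `π`; `F` a field over
`W` with `j ∈ F` transcendental; `Y = F(u)` with `u ^ s = w`, `s` a prime invertible in `W` and
`ζ ∈ W` a primitive `s`-th root of unity.  The two charts are the integral closures `B₁`, `B₂` of
`W[j]`, `W[1/j]` in `Y`; `C` is the integral closure in `Y` of the Gauss ring `W[j]_(π)`.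
Membership `z ∈ π C` is spelled with a polynomial multiplier: `p(j) • z = π • b` with
`p ∉ π W[X]` and `b ∈ B₁`.

Main results:
* `isInt_of_inC`        : `π B = B ∩ π C` for a chart `B`;
* `InC.of_inv`, `InC.to_inv`, `isInt_pow_mul_of_isInt_inv` : change of chart;
* `isIntegral_of_isInt_of_isInt_inv` : integral over both charts implies integral over `W`;
* `sheet_idem`          : `ε = (1/s) ∑ uⁱ` is idempotent modulo `π C` when `w ≡ 1`;
* `exists_common_lift`  : two chart lifts of `ε` come from one element of `B₁ ∩ B₂`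
                          (via `TwoChart`);
* `projector_main`      : the `ζ`-eigencomponent of the common lift is a nonzero element of
                          `B₁ ∩ B₂`;
* `endgame`             : if `ε` lifts to both charts then `w = a * h ^ s` with `a ∈ F` nonzero
                          and integral over `W`.
-/

set_option autoImplicit false
set_option linter.unusedSectionVars false
set_option linter.style.haveILetI false

namespace Fermat.Agent.S18.Endgame

open Polynomial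

section Generic

variable {R Y : Type*} [CommRing R] [IsDomain R] [IsIntegrallyClosed R] [Field Y] [Algebra R Y]
  [FaithfulSMul R Y]

/-- `π B = B ∩ π C`: if `P • c` and `t • c` are integral over the integrally closed domain `R`,
with `P` prime and `P ∤ t`, then `c` is integral over `R`. -/
theorem isIntegral_of_smul_of_smul {P t : R} (hP : Prime P) (ht : ¬ P ∣ t) {c : Y}
    (h1 : IsIntegral R (P • c)) (h2 : IsIntegral R (t • c)) : IsIntegral R c := by
  have hP0 : P ≠ 0 := hP.ne_zero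
  have ht0 : t ≠ 0 := fun h => ht (h ▸ dvd_zero P)
  have e1 : minpoly R (t • (P • c)) = (minpoly R (P • c)).scaleRoots t :=
    IsIntegrallyClosed.minpoly_smul ht0 h1
  have e2 : minpoly R (P • (t • c)) = (minpoly R (t • c)).scaleRoots P :=
    IsIntegrallyClosed.minpoly_smul hP0 h2
  have e3 : t • (P • c) = P • (t • c) := smul_comm t P c
  rw [e3, e2] at e1
  have hmon : (minpoly R (P • c)).Monic := minpoly.monic h1
  have hn : (minpoly R (t • c)).natDegree = (minpoly R (P • c)).natDegree := by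
    have := congrArg natDegree e1
    simpa [natDegree_scaleRoots] using this
  obtain ⟨n, hnn⟩ : ∃ n, n = (minpoly R (P • c)).natDegree := ⟨_, rfl⟩
  have hcoeff : ∀ i, (minpoly R (t • c)).coeff i * P ^ (n - i) =
      (minpoly R (P • c)).coeff i * t ^ (n - i) := by
    intro i
    have := congrArg (fun q => q.coeff i) e1
    simpa [coeff_scaleRoots, hn, hnn] using this
  have hdvd : ∀ i, P ^ (n - i) ∣ (minpoly R (P • c)).coeff i := by
    intro i
    have h3 : P ^ (n - i) ∣ t ^ (n - i) * (minpoly R (P • c)).coeff i :=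
      ⟨(minpoly R (t • c)).coeff i, by rw [mul_comm (P ^ _), hcoeff i, mul_comm]⟩
    exact hP.pow_dvd_of_dvd_mul_left _ (fun h => ht (hP.dvd_of_dvd_pow h)) h3
  choose γ hγ using hdvd
  -- the monic polynomial `X ^ n + ∑_{i < n} γ i X ^ i` kills `c`
  have hdeg : (∑ i ∈ Finset.range n, C (γ i) * X ^ i : R[X]).degree < (n : WithBot ℕ) := by
    refine (degree_sum_le _ _).trans_lt ?_
    refine (Finset.sup_lt_iff (WithBot.bot_lt_coe n)).mpr ?_
    intro i hi
    refine (degree_C_mul_X_pow_le i (γ i)).trans_lt ?_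
    exact WithBot.coe_lt_coe.mpr (Finset.mem_range.mp hi)
  refine ⟨X ^ n + ∑ i ∈ Finset.range n, C (γ i) * X ^ i, monic_X_pow_add hdeg, ?_⟩
  have hz : aeval (P • c) (minpoly R (P • c)) = 0 := minpoly.aeval R (P • c)
  rw [aeval_eq_sum_range, ← hnn, Finset.sum_range_succ, hnn, hmon.coeff_natDegree, ← hnn,
    one_smul] at hz
  have key : P ^ n • (eval₂ (algebraMap R Y) c (X ^ n + ∑ i ∈ Finset.range n, C (γ i) * X ^ i)) =
      ∑ i ∈ Finset.range n, (minpoly R (P • c)).coeff i • (P • c) ^ i + (P • c) ^ n := by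
    rw [eval₂_add, eval₂_X_pow, eval₂_finsetSum, smul_add, Finset.smul_sum, add_comm]
    congr 1
    · refine Finset.sum_congr rfl fun i hi => ?_
      have hi' : i ≤ n := (Finset.mem_range.mp hi).le
      rw [eval₂_mul, eval₂_C, eval₂_X_pow, hγ i, _root_.smul_pow, ← Algebra.smul_def, smul_smul,
        smul_smul, mul_comm (P ^ (n - i)) (γ i), mul_assoc, ← pow_add, Nat.sub_add_cancel hi',
        mul_comm]
    · rw [_root_.smul_pow]
  rw [hz] at key
  have hPn : P ^ n ≠ 0 := pow_ne_zero n hP0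
  rcases smul_eq_zero.mp key with h | h
  · exact absurd h hPn
  · exact h

/-- an element `t / P` of the fraction field which is integral lies in `R` -/
theorem dvd_of_isIntegral_of_algebraMap_eq {P t : R} (hP : P ≠ 0) {b : Y} (hb : IsIntegral R b)
    (h : algebraMap R Y t = algebraMap R Y P * b) : P ∣ t := by
  let _ : Algebra (FractionRing R) Y := FractionRing.liftAlgebra R Y
  have hPK : algebraMap R (FractionRing R) P ≠ 0 := by
    simpa using hP
  have hPY : algebraMap R Y P ≠ 0 := by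
    simpa using hP
  have hb' : b = algebraMap (FractionRing R) Y
      (algebraMap R (FractionRing R) t / algebraMap R (FractionRing R) P) := by
    rw [map_div₀, ← IsScalarTower.algebraMap_apply, ← IsScalarTower.algebraMap_apply, h,
      mul_div_cancel_left₀ _ hPY]
  rw [hb'] at hb
  have hb2 : IsIntegral R (algebraMap R (FractionRing R) t / algebraMap R (FractionRing R) P) :=
    (isIntegral_algebraMap_iff (algebraMap (FractionRing R) Y).injective).mp hb
  obtain ⟨r, hr⟩ := IsIntegrallyClosed.isIntegral_iff.mp hb2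
  refine ⟨r, ?_⟩
  apply IsFractionRing.injective R (FractionRing R)
  rw [map_mul, hr, mul_div_cancel₀ _ hPK]

end Generic


/-! ### Charts: integrality over `W[x]` in polynomial currency -/

section Charts

variable (W : Type*) {Y : Type*} [CommRing W] [Field Y] [Algebra W Y]

/-- evaluation at `x` as a ring homomorphism `W[X] →+* Y` -/
noncomputable def ev (x : Y) : W[X] →+* Y := ((aeval x : W[X] →ₐ[W] Y) : W[X] →+* Y)

/-- `y` is integral over `W[x]` -/
def IsInt (x y : Y) : Prop := (ev W x).IsIntegralElem y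

variable {W}

theorem ev_apply (x : Y) (p : W[X]) : ev W x p = aeval x p := rfl

theorem ev_C (x : Y) (a : W) : ev W x (C a) = algebraMap W Y a := by
  rw [ev_apply, aeval_C]

theorem ev_X (x : Y) : ev W x X = x := by
  rw [ev_apply, aeval_X]

namespace IsInt

variable {x y z : Y}

theorem add (hy : IsInt W x y) (hz : IsInt W x z) : IsInt W x (y + z) :=
  RingHom.IsIntegralElem.add _ hy hz

theorem mul (hy : IsInt W x y) (hz : IsInt W x z) : IsInt W x (y * z) :=
  RingHom.IsIntegralElem.mul _ hy hz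

theorem neg (hy : IsInt W x y) : IsInt W x (-y) :=
  RingHom.IsIntegralElem.neg _ hy

theorem sub (hy : IsInt W x y) (hz : IsInt W x z) : IsInt W x (y - z) :=
  RingHom.IsIntegralElem.sub _ hy hz

theorem ev (p : W[X]) : IsInt W x (aeval x p) :=
  RingHom.isIntegralElem_map (Endgame.ev W x)

theorem const (a : W) : IsInt W x (algebraMap W Y a) := by
  rw [← ev_C x a]; exact RingHom.isIntegralElem_map (Endgame.ev W x)

theorem self : IsInt W x x := by
  have := RingHom.isIntegralElem_map (Endgame.ev W x) (x := X)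
  rwa [ev_X] at this

theorem one : IsInt W x 1 := RingHom.isIntegralElem_one _

theorem zero : IsInt W x 0 := RingHom.isIntegralElem_zero _

theorem pow (hy : IsInt W x y) (n : ℕ) : IsInt W x (y ^ n) := by
  induction n with
  | zero => rw [pow_zero]; exact one
  | succ n ih => rw [pow_succ]; exact ih.mul hy

theorem sum {ι : Type*} (s : Finset ι) (f : ι → Y) (h : ∀ i ∈ s, IsInt W x (f i)) :
    IsInt W x (∑ i ∈ s, f i) := by
  classical
  induction s using Finset.induction_on with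
  | empty => rw [Finset.sum_empty]; exact zero
  | insert a s ha ih =>
    rw [Finset.sum_insert ha]
    exact (h a (Finset.mem_insert_self a s)).add
      (ih fun i hi => h i (Finset.mem_insert_of_mem hi))

theorem of_pow {n : ℕ} (hn : 0 < n) (h : IsInt W x (y ^ n)) : IsInt W x y := by
  let _ : Algebra W[X] Y := (Endgame.ev W x).toAlgebra
  have h' : IsIntegral W[X] (y ^ n) := h
  exact IsIntegral.of_pow hn h'

/-- ring endomorphisms fixing `W[x]` preserve integrality -/
theorem map (σ : Y →+* Y) (hσx : σ x = x) (hσW : ∀ a : W, σ (algebraMap W Y a) =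
    algebraMap W Y a) (hy : IsInt W x y) : IsInt W x (σ y) := by
  have hcomp : σ.comp (Endgame.ev W x) = Endgame.ev W x := by
    apply Polynomial.ringHom_ext
    · intro a
      rw [RingHom.comp_apply, ev_C, hσW]
    · rw [RingHom.comp_apply, ev_X, hσx]
  have := RingHom.IsIntegralElem.map hy σ
  rwa [hcomp] at this

end IsInt

end Charts


/-! ### The integral closure of the Gauss ring, in multiplier currency -/

section Gauss

variable {W Y : Type*} [CommRing W] [IsDomain W] [Field Y] [Algebra W Y]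

/-- `c` lies in the integral closure `C` of the Gauss ring `W[x]_(π)`: some polynomial multiplier
`p(x)` with `p ∉ π W[X]` carries `c` into the integral closure of `W[x]`. -/
def InC (π : W) (x c : Y) : Prop := ∃ p : W[X], ¬ C π ∣ p ∧ IsInt W x (aeval x p * c)

namespace InC

variable {π : W} {x c d : Y}

theorem of_isInt (hπ : Prime π) (h : IsInt W x c) : InC π x c :=
  ⟨1, (prime_C_iff.mpr hπ).not_dvd_one, by rwa [map_one, one_mul]⟩

theorem add (hπ : Prime π) (hc : InC π x c) (hd : InC π x d) : InC π x (c + d) := by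
  obtain ⟨p, hp, hpc⟩ := hc
  obtain ⟨q, hq, hqd⟩ := hd
  refine ⟨p * q, fun h => ?_, ?_⟩
  · rcases (prime_C_iff.mpr hπ).dvd_or_dvd h with h | h
    exacts [hp h, hq h]
  · have : aeval x (p * q) * (c + d) =
        aeval x q * (aeval x p * c) + aeval x p * (aeval x q * d) := by
      rw [map_mul]; ring
    rw [this]
    exact ((IsInt.ev q).mul hpc).add ((IsInt.ev p).mul hqd)

theorem mul (hπ : Prime π) (hc : InC π x c) (hd : InC π x d) : InC π x (c * d) := by
  obtain ⟨p, hp, hpc⟩ := hc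
  obtain ⟨q, hq, hqd⟩ := hd
  refine ⟨p * q, fun h => ?_, ?_⟩
  · rcases (prime_C_iff.mpr hπ).dvd_or_dvd h with h | h
    exacts [hp h, hq h]
  · have : aeval x (p * q) * (c * d) = (aeval x p * c) * (aeval x q * d) := by
      rw [map_mul]; ring
    rw [this]
    exact hpc.mul hqd

theorem neg (hc : InC π x c) : InC π x (-c) := by
  obtain ⟨p, hp, hpc⟩ := hc
  exact ⟨p, hp, by rw [mul_neg]; exact hpc.neg⟩

theorem sub (hπ : Prime π) (hc : InC π x c) (hd : InC π x d) : InC π x (c - d) := by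
  rw [sub_eq_add_neg]; exact hc.add hπ hd.neg

theorem const (hπ : Prime π) (a : W) : InC π x (algebraMap W Y a) := of_isInt hπ (IsInt.const a)

theorem one (hπ : Prime π) : InC π x 1 := of_isInt hπ IsInt.one

theorem zero (hπ : Prime π) : InC π x 0 := of_isInt hπ IsInt.zero

theorem self (hπ : Prime π) : InC π x x := of_isInt hπ IsInt.self

theorem pow (hπ : Prime π) (hc : InC π x c) (n : ℕ) : InC π x (c ^ n) := by
  induction n with
  | zero => rw [pow_zero]; exact one hπ
  | succ n ih => rw [pow_succ]; exact ih.mul hπ hc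

theorem sum (hπ : Prime π) {ι : Type*} (s : Finset ι) (f : ι → Y) (h : ∀ i ∈ s, InC π x (f i)) :
    InC π x (∑ i ∈ s, f i) := by
  classical
  induction s using Finset.induction_on with
  | empty => rw [Finset.sum_empty]; exact zero hπ
  | insert a s ha ih =>
    rw [Finset.sum_insert ha]
    exact (h a (Finset.mem_insert_self a s)).add hπ
      (ih fun i hi => h i (Finset.mem_insert_of_mem hi))

theorem of_pow {n : ℕ} (hn : 0 < n) (h : InC π x (c ^ n)) : InC π x c := by
  obtain ⟨p, hp, hpc⟩ := h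
  refine ⟨p, hp, IsInt.of_pow hn ?_⟩
  obtain ⟨m, rfl⟩ : ∃ m, n = m + 1 := ⟨n - 1, by omega⟩
  have : (aeval x p * c) ^ (m + 1) = aeval x p ^ m * (aeval x p * c ^ (m + 1)) := by ring
  rw [this]
  exact ((IsInt.ev p).pow m).mul hpc

theorem map (σ : Y →+* Y) (hσx : σ x = x) (hσW : ∀ a : W, σ (algebraMap W Y a) =
    algebraMap W Y a) (hc : InC π x c) : InC π x (σ c) := by
  obtain ⟨p, hp, hpc⟩ := hc
  refine ⟨p, hp, ?_⟩
  have h1 : σ (aeval x p) = aeval x p := by
    have hcomp : σ.comp (ev W x) = ev W x := by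
      apply Polynomial.ringHom_ext
      · intro a
        rw [RingHom.comp_apply, ev_C, hσW]
      · rw [RingHom.comp_apply, ev_X, hσx]
    have := congrArg (fun f : W[X] →+* Y => f p) hcomp
    simpa [ev_apply] using this
  have := IsInt.map σ hσx hσW hpc
  rwa [map_mul, h1] at this

end InC

variable [UniqueFactorizationMonoid W]

/-- `π B = B ∩ π C` for the chart `B` = integral closure of `W[x]`. -/
theorem isInt_of_inC {π : W} (hπ : Prime π) {x : Y} (hx : Transcendental W x) {c : Y}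
    (h1 : IsInt W x (algebraMap W Y π * c)) (h2 : InC π x c) : IsInt W x c := by
  obtain ⟨p, hp, hpc⟩ := h2
  have hinj : Function.Injective (ev W x) := transcendental_iff_injective.mp hx
  let _ : Algebra W[X] Y := (ev W x).toAlgebra
  haveI : FaithfulSMul W[X] Y := (faithfulSMul_iff_algebraMap_injective W[X] Y).mpr hinj
  have h1' : IsIntegral W[X] ((C π : W[X]) • c) := by
    rw [Algebra.smul_def]
    show (ev W x).IsIntegralElem (ev W x (C π) * c)
    rw [ev_C]; exact h1
  have h2' : IsIntegral W[X] (p • c) := by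
    rw [Algebra.smul_def]; exact hpc
  exact isIntegral_of_smul_of_smul (prime_C_iff.mpr hπ) hp h1' h2'

/-- `1 ∉ π C`. -/
theorem not_inC_of_one_eq {π : W} (hπ : Prime π) {x : Y} (hx : Transcendental W x) {c : Y}
    (hc : InC π x c) (h : 1 = algebraMap W Y π * c) : False := by
  obtain ⟨p, hp, hpc⟩ := hc
  have hinj : Function.Injective (ev W x) := transcendental_iff_injective.mp hx
  let _ : Algebra W[X] Y := (ev W x).toAlgebra
  haveI : FaithfulSMul W[X] Y := (faithfulSMul_iff_algebraMap_injective W[X] Y).mpr hinj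
  have hpc' : IsIntegral W[X] (aeval x p * c) := hpc
  have h3 : algebraMap W[X] Y p = algebraMap W[X] Y (C π) * (aeval x p * c) := by
    show ev W x p = ev W x (C π) * (aeval x p * c)
    rw [ev_C, ev_apply]
    linear_combination (aeval x p) * h
  exact hp (dvd_of_isIntegral_of_algebraMap_eq (C_ne_zero.mpr hπ.ne_zero) hpc' h3)

end Gauss


/-! ### Change of chart `W[x] ↔ W[x⁻¹]` -/

section ChartChange

variable {W Y : Type*} [CommRing W] [IsDomain W] [Field Y] [Algebra W Y]

theorem aeval_reflect {x : Y} (hx : x ≠ 0) (N : ℕ) (q : W[X]) (hq : q.natDegree ≤ N) :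
    aeval x (reflect N q) = x ^ N * aeval x⁻¹ q := by
  letI : Invertible x⁻¹ := invertibleOfNonzero (inv_ne_zero hx)
  have h := eval₂_reflect_mul_pow (algebraMap W Y) x⁻¹ N q hq
  rw [invOf_eq_inv, inv_inv] at h
  rw [aeval_def, aeval_def, ← h, inv_pow, mul_comm, mul_assoc, inv_mul_cancel₀ (pow_ne_zero N hx),
    mul_one]

theorem not_C_dvd_reflect {π : W} {q : W[X]} (hq : ¬ C π ∣ q) (N : ℕ) : ¬ C π ∣ reflect N q := by
  intro h
  apply hq
  rw [C_dvd_iff_dvd_coeff] at h ⊢
  intro i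
  have := h (revAt N i)
  rwa [coeff_reflect, revAt_invol] at this

/-- an element integral over `W[x⁻¹]` becomes integral over `W[x]` after multiplication by a
power of `x` -/
theorem isInt_pow_mul_of_isInt_inv {x : Y} (hx : x ≠ 0) {y : Y} (h : IsInt W x⁻¹ y) :
    ∃ D : ℕ, IsInt W x (x ^ D * y) := by
  obtain ⟨P, hP, hPy⟩ := h
  obtain ⟨n, hn⟩ : ∃ n, n = P.natDegree := ⟨_, rfl⟩
  obtain ⟨D, hD⟩ : ∃ D : ℕ, ∀ i, (P.coeff i).natDegree ≤ D := by
    refine ⟨(Finset.range (n + 1)).sup fun i => (P.coeff i).natDegree, fun i => ?_⟩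
    by_cases hi : i < n + 1
    · exact Finset.le_sup (f := fun i => (P.coeff i).natDegree) (Finset.mem_range.mpr hi)
    · rw [coeff_eq_zero_of_natDegree_lt (by omega), natDegree_zero]
      exact Nat.zero_le _
  have hPYmon : (P.map (ev W x⁻¹)).Monic := hP.map _
  have hPYn : (P.map (ev W x⁻¹)).natDegree = n := by rw [hP.natDegree_map, hn]
  have hroot : eval y (P.map (ev W x⁻¹)) = 0 := by rw [eval_map]; exact hPy
  have hSmon : (scaleRoots (P.map (ev W x⁻¹)) (x ^ D)).Monic :=
    (monic_scaleRoots_iff _).mpr hPYmon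
  have hSroot : eval (x ^ D * y) (scaleRoots (P.map (ev W x⁻¹)) (x ^ D)) = 0 := by
    have := scaleRoots_eval₂_eq_zero (RingHom.id Y) (p := P.map (ev W x⁻¹)) (s := x ^ D) (r := y)
      (by rwa [eval₂_id])
    rwa [eval₂_id, RingHom.id_apply] at this
  have hSlifts : scaleRoots (P.map (ev W x⁻¹)) (x ^ D) ∈ lifts (ev W x) := by
    rw [lifts_iff_coeff_lifts]
    intro i
    rw [coeff_scaleRoots, hPYn, coeff_map]
    rcases lt_trichotomy i n with hi | hi | hi
    · refine ⟨reflect D (P.coeff i) * X ^ (D * (n - i - 1)), ?_⟩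
      rw [map_mul, ev_apply, aeval_reflect hx D _ (hD i), map_pow, ev_X, ev_apply]
      have e : n - i = (n - i - 1) + 1 := by omega
      rw [e, Nat.add_sub_cancel, pow_succ, ← pow_mul]
      ring
    · subst hi
      refine ⟨1, ?_⟩
      rw [hn, hP.coeff_natDegree, map_one, Nat.sub_self, pow_zero, map_one, mul_one]
    · refine ⟨0, ?_⟩
      rw [coeff_eq_zero_of_natDegree_lt (by omega), map_zero, map_zero, zero_mul]
  obtain ⟨Q, hQmap, -, hQmon⟩ := lifts_and_natDegree_eq_and_monic hSlifts hSmon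
  exact ⟨D, Q, hQmon, by rw [← eval_map, hQmap]; exact hSroot⟩

theorem isInt_inv_pow_mul_of_isInt {x : Y} (hx : x ≠ 0) {y : Y} (h : IsInt W x y) :
    ∃ D : ℕ, IsInt W x⁻¹ (x⁻¹ ^ D * y) := by
  have h' : IsInt W (x⁻¹)⁻¹ y := by rwa [inv_inv]
  exact isInt_pow_mul_of_isInt_inv (inv_ne_zero hx) h'

theorem InC.of_inv {π : W} {x c : Y} (hx : x ≠ 0) (h : InC π x⁻¹ c) : InC π x c := by
  obtain ⟨q, hq, hint⟩ := h
  obtain ⟨D, hD⟩ := isInt_pow_mul_of_isInt_inv hx hint
  refine ⟨reflect (D + q.natDegree) q, not_C_dvd_reflect hq _, ?_⟩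
  rw [aeval_reflect hx _ q (Nat.le_add_left _ _)]
  have : x ^ (D + q.natDegree) * aeval x⁻¹ q * c =
      x ^ q.natDegree * (x ^ D * (aeval x⁻¹ q * c)) := by
    rw [pow_add]; ring
  rw [this]
  exact (IsInt.self.pow _).mul hD

theorem InC.to_inv {π : W} {x c : Y} (hx : x ≠ 0) (h : InC π x c) : InC π x⁻¹ c := by
  have h' : InC π (x⁻¹)⁻¹ c := by rwa [inv_inv]
  exact InC.of_inv (inv_ne_zero hx) h'

theorem transcendental_inv {x : Y} (hx : Transcendental W x) : Transcendental W x⁻¹ := by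
  have hx0 : x ≠ 0 := by
    rintro rfl
    exact hx ⟨X, X_ne_zero, by simp⟩
  intro ⟨q, hq0, hq⟩
  refine hx ⟨reflect q.natDegree q, ?_, ?_⟩
  · rwa [Ne, reflect_eq_zero_iff]
  · rw [aeval_reflect hx0 _ q le_rfl, hq, mul_zero]

end ChartChange


/-! ### Integral over both charts implies integral over `W` -/

section BothCharts

variable {W Y : Type*} [CommRing W] [IsDomain W] [Field Y] [Algebra W Y]

theorem ne_zero_of_transcendental {x : Y} (hx : Transcendental W x) : x ≠ 0 := by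
  rintro rfl
  exact hx ⟨X, X_ne_zero, by simp⟩

theorem exists_minpoly_dvd {R : Type*} [CommRing R] [IsDomain R] [IsIntegrallyClosed R]
    (φ : R →+* Y) (hφ : Function.Injective φ) {y : Y} (hy : φ.IsIntegralElem y) :
    ∃ P : R[X], P.Monic ∧ eval₂ φ y P = 0 ∧ ∀ Q : R[X], eval₂ φ y Q = 0 → P ∣ Q := by
  let _ : Algebra R Y := φ.toAlgebra
  haveI : FaithfulSMul R Y := (faithfulSMul_iff_algebraMap_injective R Y).mpr hφ
  have hy' : IsIntegral R y := hy
  exact ⟨minpoly R y, minpoly.monic hy', minpoly.aeval R y,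
    fun Q hQ => minpoly.isIntegrallyClosed_dvd hy' hQ⟩

theorem const_of_aeval_eq_aeval_inv {x : Y} (hx : Transcendental W x) (p q : W[X])
    (h : aeval x p = aeval x⁻¹ q) : ∃ a : W, aeval x p = algebraMap W Y a := by
  have hx0 : x ≠ 0 := ne_zero_of_transcendental hx
  have hinj : Function.Injective (aeval x : W[X] →ₐ[W] Y) := transcendental_iff_injective.mp hx
  have e : reflect q.natDegree q = X ^ q.natDegree * p := by
    apply hinj
    rw [aeval_reflect hx0 _ q le_rfl, map_mul, map_pow, aeval_X, h]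
  have hp : p = C (p.coeff 0) := by
    ext k
    rcases Nat.eq_zero_or_pos k with rfl | hk
    · simp
    · rw [coeff_C, if_neg hk.ne']
      have h1 := congrArg (fun f => f.coeff (k + q.natDegree)) e
      simp only [coeff_X_pow_mul, coeff_reflect] at h1
      rw [revAt_eq_self_of_lt (by omega), coeff_eq_zero_of_natDegree_lt (by omega)] at h1
      exact h1.symm
  refine ⟨p.coeff 0, ?_⟩
  conv_lhs => rw [hp]
  rw [aeval_C]

theorem exists_natDegree_coeff_le (P : W[X][X]) : ∃ D : ℕ, ∀ i, (P.coeff i).natDegree ≤ D := by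
  refine ⟨(Finset.range (P.natDegree + 1)).sup fun i => (P.coeff i).natDegree, fun i => ?_⟩
  by_cases hi : i < P.natDegree + 1
  · exact Finset.le_sup (f := fun i => (P.coeff i).natDegree) (Finset.mem_range.mpr hi)
  · rw [coeff_eq_zero_of_natDegree_lt (by omega), natDegree_zero]
    exact Nat.zero_le _

theorem map_dvd_map_of_charts {x : Y} (hx0 : x ≠ 0) {y : Y} (P₁ P₂ : W[X][X])
    (h₁ : ∀ Q : W[X][X], eval₂ (ev W x) y Q = 0 → P₁ ∣ Q) (h₂ : eval₂ (ev W x⁻¹) y P₂ = 0) :
    P₁.map (ev W x) ∣ P₂.map (ev W x⁻¹) := by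
  classical
  obtain ⟨D, hD⟩ := exists_natDegree_coeff_le P₂
  obtain ⟨Q, hQ⟩ : ∃ Q : W[X][X], Q = ∑ i ∈ P₂.support, monomial i (reflect D (P₂.coeff i)) :=
    ⟨_, rfl⟩
  have hQcoeff : ∀ i, Q.coeff i = reflect D (P₂.coeff i) := by
    intro i
    rw [hQ, finsetSum_coeff]
    simp only [coeff_monomial]
    rw [Finset.sum_ite_eq']
    split_ifs with hi
    · rfl
    · rw [notMem_support_iff.mp hi, reflect_zero]
  have hQmap : Q.map (ev W x) = C (x ^ D) * P₂.map (ev W x⁻¹) := by
    ext i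
    rw [coeff_map, hQcoeff, coeff_C_mul, coeff_map, ev_apply, aeval_reflect hx0 D _ (hD i),
      ev_apply]
  have hQroot : eval₂ (ev W x) y Q = 0 := by
    rw [eval₂_eq_eval_map, hQmap, eval_mul, eval_C, eval_map, h₂, mul_zero]
  obtain ⟨R, hR⟩ := h₁ Q hQroot
  have h3 : P₁.map (ev W x) ∣ C (x ^ D) * P₂.map (ev W x⁻¹) := by
    rw [← hQmap, hR, Polynomial.map_mul]; exact dvd_mul_right _ _
  exact (IsUnit.dvd_mul_left (isUnit_C.mpr (IsUnit.mk0 _ (pow_ne_zero D hx0)))).mp h3

/-- **`W[x] ∩ W[x⁻¹] = W` for integral closures**: an element integral over both charts is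
integral over `W`. -/
theorem isIntegral_of_isInt_of_isInt_inv [UniqueFactorizationMonoid W] {x : Y}
    (hx : Transcendental W x) {y : Y} (h1 : IsInt W x y) (h2 : IsInt W x⁻¹ y) :
    IsIntegral W y := by
  have hx0 : x ≠ 0 := ne_zero_of_transcendental hx
  have hinj₁ : Function.Injective (ev W x) := transcendental_iff_injective.mp hx
  have hinj₂ : Function.Injective (ev W x⁻¹) :=
    transcendental_iff_injective.mp (transcendental_inv hx)
  obtain ⟨P₁, hP₁m, hP₁y, hP₁d⟩ := exists_minpoly_dvd (ev W x) hinj₁ h1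
  obtain ⟨P₂, hP₂m, hP₂y, hP₂d⟩ := exists_minpoly_dvd (ev W x⁻¹) hinj₂ h2
  have d12 : P₁.map (ev W x) ∣ P₂.map (ev W x⁻¹) := map_dvd_map_of_charts hx0 P₁ P₂ hP₁d hP₂y
  have d21 : P₂.map (ev W x⁻¹) ∣ P₁.map (ev W x) := by
    have := map_dvd_map_of_charts (inv_ne_zero hx0) P₂ P₁ hP₂d (by rwa [inv_inv])
    rwa [inv_inv] at this
  have heq : P₁.map (ev W x) = P₂.map (ev W x⁻¹) :=
    eq_of_monic_of_associated (hP₁m.map _) (hP₂m.map _) (associated_of_dvd_dvd d12 d21)
  have hlifts : P₁.map (ev W x) ∈ lifts (algebraMap W Y) := by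
    rw [lifts_iff_coeff_lifts]
    intro i
    have h3 := congrArg (fun f => f.coeff i) heq
    simp only [coeff_map, ev_apply] at h3
    obtain ⟨a, ha⟩ := const_of_aeval_eq_aeval_inv hx _ _ h3
    exact ⟨a, by rw [coeff_map, ev_apply, ha]⟩
  obtain ⟨M, hMmap, -, hMmon⟩ := lifts_and_natDegree_eq_and_monic hlifts (hP₁m.map _)
  refine ⟨M, hMmon, ?_⟩
  rw [eval₂_eq_eval_map, hMmap, eval_map]; exact hP₁y

end BothCharts


/-! ### The common lift (two-chart lemma) -/

section CommonLift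

/-- the chart: the integral closure of `W[x]` in `Y`, as a `W`-subalgebra -/
def chart (W : Type*) {Y : Type*} [CommRing W] [Field Y] [Algebra W Y] (x : Y) :
    Subalgebra W Y where
  carrier := {y | IsInt W x y}
  mul_mem' := fun h1 h2 => IsInt.mul h1 h2
  one_mem' := IsInt.one
  add_mem' := fun h1 h2 => IsInt.add h1 h2
  zero_mem' := IsInt.zero
  algebraMap_mem' := fun a => IsInt.const a

/-- the overlap of the two charts: `B₁[1/x]` -/
def overlap (W : Type*) {Y : Type*} [CommRing W] [Field Y] [Algebra W Y] (x : Y) :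
    Subalgebra W Y where
  carrier := {y | ∃ n : ℕ, IsInt W x (x ^ n * y)}
  mul_mem' := by
    rintro a b ⟨n, hn⟩ ⟨m, hm⟩
    refine ⟨n + m, ?_⟩
    have : x ^ (n + m) * (a * b) = (x ^ n * a) * (x ^ m * b) := by rw [pow_add]; ring
    rw [this]; exact hn.mul hm
  one_mem' := ⟨0, by rw [pow_zero, one_mul]; exact IsInt.one⟩
  add_mem' := by
    rintro a b ⟨n, hn⟩ ⟨m, hm⟩
    refine ⟨n + m, ?_⟩
    have : x ^ (n + m) * (a + b) = x ^ m * (x ^ n * a) + x ^ n * (x ^ m * b) := by
      rw [pow_add]; ring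
    rw [this]; exact ((IsInt.self.pow m).mul hn).add ((IsInt.self.pow n).mul hm)
  zero_mem' := ⟨0, by rw [mul_zero]; exact IsInt.zero⟩
  algebraMap_mem' := fun a => ⟨0, by rw [pow_zero, one_mul]; exact IsInt.const a⟩

variable {W Y : Type*} [CommRing W] [IsDomain W] [Field Y] [Algebra W Y]

theorem idem_aux {π : W} (hπ : Prime π) {x ε e c cε : Y} (hεC : InC π x ε) (hc : InC π x c)
    (hcε : InC π x cε) (h : ε - e = algebraMap W Y π * c)
    (hε : ε ^ 2 - ε = algebraMap W Y π * cε) :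
    ∃ a, InC π x a ∧ e ^ 2 - e = algebraMap W Y π * a := by
  refine ⟨cε - ε * c - ε * c + algebraMap W Y π * c ^ 2 + c, ?_, ?_⟩
  · exact ((((hcε.sub hπ (hεC.mul hπ hc)).sub hπ (hεC.mul hπ hc)).add hπ
      ((InC.const hπ π).mul hπ (hc.pow hπ 2))).add hπ hc)
  · have he : e = ε - algebraMap W Y π * c := by linear_combination -h
    rw [he]
    linear_combination hε

variable [IsNoetherianRing W] [UniqueFactorizationMonoid W]

/-- **Common lift.**  Two chart lifts `e₁ ∈ B₁`, `e₂ ∈ B₂` of an idempotent `ε` of `C / π C` are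
induced by a single element of `B₁ ∩ B₂`. -/
theorem exists_common_lift {π : W} (hπ : Prime π) {x : Y} (hx : Transcendental W x)
    {n : ℕ} (b : Fin n → Y) (hb : ∀ i, IsInt W x (b i))
    (hspan : ∀ y, IsInt W x y → ∃ p : Fin n → W[X], y = ∑ i, aeval x (p i) * b i)
    (ε e₁ e₂ : Y)
    (hε : ∃ c, InC π x c ∧ ε ^ 2 - ε = algebraMap W Y π * c)
    (he₁ : IsInt W x e₁) (he₂ : IsInt W x⁻¹ e₂)
    (h₁ : ∃ c, InC π x c ∧ ε - e₁ = algebraMap W Y π * c)
    (h₂ : ∃ c, InC π x c ∧ ε - e₂ = algebraMap W Y π * c) :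
    ∃ c, IsInt W x c ∧ IsInt W x⁻¹ c ∧ ∃ d, InC π x d ∧ c - ε = algebraMap W Y π * d := by
  have hx0 := ne_zero_of_transcendental hx
  have hxi : Transcendental W x⁻¹ := transcendental_inv hx
  obtain ⟨cε, hcε, hε'⟩ := hε
  obtain ⟨c₁, hc₁, h₁'⟩ := h₁
  obtain ⟨c₂, hc₂, h₂'⟩ := h₂
  have hεC : InC π x ε := by
    have : ε = e₁ + algebraMap W Y π * c₁ := by linear_combination h₁'
    rw [this]; exact (InC.of_isInt hπ he₁).add hπ ((InC.const hπ π).mul hπ hc₁)
  -- idempotency of the lifts modulo `π`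
  have hid1 : ∃ a ∈ chart W x, e₁ ^ 2 - e₁ = π • a := by
    obtain ⟨a, haC, ha⟩ := idem_aux hπ hεC hc₁ hcε h₁' hε'
    refine ⟨a, isInt_of_inC hπ hx ?_ haC, by rw [Algebra.smul_def]; exact ha⟩
    rw [← ha]; exact (he₁.pow 2).sub he₁
  have hid2 : ∃ a ∈ chart W x⁻¹, e₂ ^ 2 - e₂ = π • a := by
    obtain ⟨a, haC, ha⟩ := idem_aux hπ (hεC.to_inv hx0) (hc₂.to_inv hx0) (hcε.to_inv hx0) h₂' hε'
    refine ⟨a, isInt_of_inC hπ hxi ?_ haC, by rw [Algebra.smul_def]; exact ha⟩
    rw [← ha]; exact (he₂.pow 2).sub he₂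
  -- agreement on the overlap
  have h12 : ∃ d ∈ overlap W x, e₁ - e₂ = π • d := by
    refine ⟨c₂ - c₁, ?_, by rw [Algebra.smul_def]; linear_combination h₂' - h₁'⟩
    obtain ⟨D, hD⟩ := isInt_pow_mul_of_isInt_inv hx0 he₂
    refine ⟨D, isInt_of_inC hπ hx ?_ (((InC.self hπ).pow hπ D).mul hπ (hc₂.sub hπ hc₁))⟩
    have : algebraMap W Y π * (x ^ D * (c₂ - c₁)) = x ^ D * e₁ - x ^ D * e₂ := by
      linear_combination x ^ D * h₁' - x ^ D * h₂'
    rw [this]
    exact ((IsInt.self.pow D).mul he₁).sub hD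
  -- the cover
  have hd : ∃ d : ℕ, ∀ i, x⁻¹ ^ d * b i ∈ chart W x⁻¹ := by
    choose D hD using fun i => isInt_inv_pow_mul_of_isInt hx0 (hb i)
    refine ⟨Finset.univ.sup D, fun i => ?_⟩
    have hle : D i ≤ Finset.univ.sup D := Finset.le_sup (Finset.mem_univ i)
    obtain ⟨k, hk⟩ := Nat.exists_eq_add_of_le hle
    have : x⁻¹ ^ (Finset.univ.sup D) * b i = x⁻¹ ^ k * (x⁻¹ ^ D i * b i) := by
      rw [hk, pow_add]; ring
    rw [this]
    exact (IsInt.self.pow k).mul (hD i)
  obtain ⟨d, hd⟩ := hd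
  have h1 : chart W x ≤ overlap W x := fun y hy => ⟨0, by rw [pow_zero, one_mul]; exact hy⟩
  have h2 : chart W x⁻¹ ≤ overlap W x := fun y hy => isInt_pow_mul_of_isInt_inv hx0 hy
  have hcover := TwoChart.cover_of_generators (chart W x) (chart W x⁻¹) (overlap W x) x x⁻¹
    IsInt.self IsInt.self (mul_inv_cancel₀ hx0) (fun y hy => hy) b hb
    (fun y hy => hspan y hy) d hd
  obtain ⟨c, hcB1, hcB2, ⟨a, haB1, hca⟩, -⟩ := TwoChart.exists_common_lift_of_fg W (chart W x)
    (chart W x⁻¹) (overlap W x) h1 h2 _ (TwoChart.fg_span_generators b x⁻¹ d) hcover π e₁ e₂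
    he₁ he₂ hid1 hid2 h12
  refine ⟨c, hcB1, hcB2, a - c₁, (InC.of_isInt hπ haB1).sub hπ hc₁, ?_⟩
  rw [Algebra.smul_def] at hca
  linear_combination hca - h₁'

/-- **Sheet idempotent** (K2): `ε = (1/s) ∑ uⁱ` is an idempotent modulo `π C` when
`u ^ s ≡ 1`. -/
theorem sheet_idem {π : W} (hπ : Prime π) {x u : Y} {s : ℕ} (hs : 0 < s) (sW : W)
    (hsW : (s : W) * sW = 1)
    (hw : ∃ c₀, InC π x c₀ ∧ u ^ s - 1 = algebraMap W Y π * c₀) :
    ∃ c, InC π x c ∧ (algebraMap W Y sW * ∑ i ∈ Finset.range s, u ^ i) ^ 2 -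
      algebraMap W Y sW * ∑ i ∈ Finset.range s, u ^ i = algebraMap W Y π * c := by
  obtain ⟨c₀, hc₀, hw'⟩ := hw
  have huC : InC π x u := by
    refine InC.of_pow hs ?_
    have : u ^ s = 1 + algebraMap W Y π * c₀ := by linear_combination hw'
    rw [this]
    exact (InC.one hπ).add hπ ((InC.const hπ π).mul hπ hc₀)
  have hS : (∑ i ∈ Finset.range s, u ^ i) * (u - 1) = u ^ s - 1 := geom_sum_mul u s
  have hT : (∑ i ∈ Finset.range s, u ^ i) - (s : Y) =
      (∑ i ∈ Finset.range s, ∑ k ∈ Finset.range i, u ^ k) * (u - 1) := by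
    rw [Finset.sum_mul]
    have : ∀ i ∈ Finset.range s, (∑ k ∈ Finset.range i, u ^ k) * (u - 1) = u ^ i - 1 :=
      fun i _ => geom_sum_mul u i
    rw [Finset.sum_congr rfl this, Finset.sum_sub_distrib, Finset.sum_const, Finset.card_range,
      nsmul_eq_mul, mul_one]
  have hsY : algebraMap W Y sW * (s : Y) = 1 := by
    have := congrArg (algebraMap W Y) hsW
    rw [map_mul, map_natCast, map_one] at this
    rw [mul_comm]; exact this
  refine ⟨algebraMap W Y sW * c₀ *
    (algebraMap W Y sW * ∑ i ∈ Finset.range s, ∑ k ∈ Finset.range i, u ^ k), ?_, ?_⟩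
  · refine ((InC.const hπ sW).mul hπ hc₀).mul hπ ((InC.const hπ sW).mul hπ ?_)
    exact InC.sum hπ _ _ fun i _ => InC.sum hπ _ _ fun k _ => huC.pow hπ k
  · linear_combination (algebraMap W Y sW ^ 2 * ∑ i ∈ Finset.range s, u ^ i) * hT +
      (algebraMap W Y sW * ∑ i ∈ Finset.range s, u ^ i) * hsY +
      (algebraMap W Y sW ^ 2 * ∑ i ∈ Finset.range s, ∑ k ∈ Finset.range i, u ^ k) * hS +
      (algebraMap W Y sW ^ 2 * ∑ i ∈ Finset.range s, ∑ k ∈ Finset.range i, u ^ k) * hw'

end CommonLift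


/-! ### The Kummer projector -/

section Projector

variable {W Y : Type*} [CommRing W] [IsDomain W] [Field Y] [Algebra W Y]

theorem kummer_sum {s : ℕ} (hs : 2 ≤ s) (sW ζ : W) (hsW : (s : W) * sW = 1)
    (hζ : IsPrimitiveRoot ζ s) (i : ℕ) (hi : i < s) :
    sW * ∑ k ∈ Finset.range s, ζ ^ (k * (s - 1)) * (ζ ^ k) ^ i = if i = 1 then 1 else 0 := by
  have hterm : ∀ k ∈ Finset.range s, ζ ^ (k * (s - 1)) * (ζ ^ k) ^ i = (ζ ^ (s - 1 + i)) ^ k := by
    intro k _
    rw [← pow_mul, ← pow_add, ← pow_mul]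
    congr 1; ring
  rw [Finset.sum_congr rfl hterm]
  split_ifs with h1
  · subst h1
    have : ζ ^ (s - 1 + 1) = 1 := by rw [Nat.sub_add_cancel (by omega)]; exact hζ.pow_eq_one
    rw [this]
    simp only [one_pow, Finset.sum_const, Finset.card_range, nsmul_eq_mul, mul_one]
    rw [mul_comm]; exact hsW
  · have hne : ζ ^ (s - 1 + i) ≠ 1 := by
      intro h
      have hdvd := (hζ.pow_eq_one_iff_dvd _).mp h
      have := Nat.eq_of_dvd_of_lt_two_mul (by omega) hdvd (by omega)
      omega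
    have hpow : (ζ ^ (s - 1 + i)) ^ s = 1 := by
      rw [← pow_mul, mul_comm, pow_mul, hζ.pow_eq_one, one_pow]
    have hgeo := geom_sum_mul (ζ ^ (s - 1 + i)) s
    rw [hpow, sub_self] at hgeo
    rcases mul_eq_zero.mp hgeo with h | h
    · rw [h, mul_zero]
    · exact absurd (sub_eq_zero.mp h) hne

/-- the Kummer projector onto the `ζ`-eigenspace of `u ↦ ζ u` -/
noncomputable def proj (s : ℕ) (sW ζ : W) (τ : ℕ → Y →+* Y) (y : Y) : Y :=
  algebraMap W Y sW * ∑ k ∈ Finset.range s, algebraMap W Y (ζ ^ (k * (s - 1))) * τ k y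

theorem proj_sub (s : ℕ) (sW ζ : W) (τ : ℕ → Y →+* Y) (y z : Y) :
    proj s sW ζ τ (y - z) = proj s sW ζ τ y - proj s sW ζ τ z := by
  unfold proj
  rw [← mul_sub, ← Finset.sum_sub_distrib]
  congr 1
  refine Finset.sum_congr rfl fun k _ => ?_
  rw [map_sub, mul_sub]

theorem proj_const_mul (s : ℕ) (sW ζ : W) (τ : ℕ → Y →+* Y)
    (hτW : ∀ k (a : W), τ k (algebraMap W Y a) = algebraMap W Y a) (a : W) (y : Y) :
    proj s sW ζ τ (algebraMap W Y a * y) = algebraMap W Y a * proj s sW ζ τ y := by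
  unfold proj
  rw [Finset.mul_sum, Finset.mul_sum, Finset.mul_sum]
  refine Finset.sum_congr rfl fun k _ => ?_
  rw [map_mul, hτW]; ring

theorem proj_isInt {x : Y} (s : ℕ) (sW ζ : W) (τ : ℕ → Y →+* Y) (hτx : ∀ k, τ k x = x)
    (hτW : ∀ k (a : W), τ k (algebraMap W Y a) = algebraMap W Y a) {y : Y} (hy : IsInt W x y) :
    IsInt W x (proj s sW ζ τ y) := by
  unfold proj
  exact (IsInt.const sW).mul (IsInt.sum _ _ fun k _ =>
    (IsInt.const _).mul (IsInt.map (τ k) (hτx k) (hτW k) hy))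

theorem proj_inC {π : W} (hπ : Prime π) {x : Y} (s : ℕ) (sW ζ : W) (τ : ℕ → Y →+* Y)
    (hτx : ∀ k, τ k x = x)
    (hτW : ∀ k (a : W), τ k (algebraMap W Y a) = algebraMap W Y a) {y : Y} (hy : InC π x y) :
    InC π x (proj s sW ζ τ y) := by
  unfold proj
  exact (InC.const hπ sW).mul hπ (InC.sum hπ _ _ fun k _ =>
    (InC.const hπ _).mul hπ (InC.map (τ k) (hτx k) (hτW k) hy))

theorem proj_sum {s : ℕ} (hs : 2 ≤ s) (sW ζ : W) (hsW : (s : W) * sW = 1)
    (hζ : IsPrimitiveRoot ζ s) (τ : ℕ → Y →+* Y) (u : Y)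
    (hτu : ∀ k, τ k u = algebraMap W Y (ζ ^ k) * u)
    (a : ℕ → Y) (hτa : ∀ k i, τ k (a i) = a i) :
    proj s sW ζ τ (∑ i ∈ Finset.range s, a i * u ^ i) = a 1 * u := by
  unfold proj
  have h1 : ∀ k, τ k (∑ i ∈ Finset.range s, a i * u ^ i) =
      ∑ i ∈ Finset.range s, a i * (algebraMap W Y ((ζ ^ k) ^ i) * u ^ i) := by
    intro k
    rw [map_sum]
    refine Finset.sum_congr rfl fun i _ => ?_
    rw [map_mul, map_pow, hτa, hτu, mul_pow, ← map_pow]
  simp_rw [h1]
  rw [Finset.mul_sum]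
  simp_rw [Finset.mul_sum]
  rw [Finset.sum_comm]
  have h2 : ∀ i ∈ Finset.range s, ∑ k ∈ Finset.range s, algebraMap W Y sW *
      (algebraMap W Y (ζ ^ (k * (s - 1))) * (a i * (algebraMap W Y ((ζ ^ k) ^ i) * u ^ i))) =
      a i * u ^ i * algebraMap W Y (if i = 1 then 1 else 0) := by
    intro i hi
    rw [← kummer_sum hs sW ζ hsW hζ i (Finset.mem_range.mp hi), map_mul, map_sum,
      Finset.mul_sum, Finset.mul_sum]
    refine Finset.sum_congr rfl fun k _ => ?_
    rw [map_mul]; ring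
  rw [Finset.sum_congr rfl h2, Finset.sum_eq_single 1]
  · rw [if_pos rfl, map_one, mul_one, pow_one]
  · intro i _ hi; rw [if_neg hi, map_zero, mul_zero]
  · intro h; exact absurd (Finset.mem_range.mpr (by omega)) h

/-- **Projector step.**  The `ζ`-component `a₁ u` of a common lift `c = ∑ aᵢ uⁱ` of the sheet
idempotent is a nonzero element of both charts. -/
theorem projector_main [UniqueFactorizationMonoid W] {π : W} (hπ : Prime π) {x : Y}
    (hx : Transcendental W x) {s : ℕ} (hs : 2 ≤ s)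
    (sW ζ : W) (hsW : (s : W) * sW = 1) (hζ : IsPrimitiveRoot ζ s) (u : Y)
    (hw : ∃ c₀, InC π x c₀ ∧ u ^ s - 1 = algebraMap W Y π * c₀)
    (τ : ℕ → Y →+* Y) (hτx : ∀ k, τ k x = x)
    (hτW : ∀ k (a : W), τ k (algebraMap W Y a) = algebraMap W Y a)
    (hτu : ∀ k, τ k u = algebraMap W Y (ζ ^ k) * u)
    (a : ℕ → Y) (hτa : ∀ k i, τ k (a i) = a i)
    (hc₁ : IsInt W x (∑ i ∈ Finset.range s, a i * u ^ i))
    (hc₂ : IsInt W x⁻¹ (∑ i ∈ Finset.range s, a i * u ^ i))
    (hcε : ∃ d, InC π x d ∧ (∑ i ∈ Finset.range s, a i * u ^ i) -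
      algebraMap W Y sW * ∑ i ∈ Finset.range s, u ^ i = algebraMap W Y π * d) :
    a 1 * u ≠ 0 ∧ IsInt W x (a 1 * u) ∧ IsInt W x⁻¹ (a 1 * u) := by
  have hP1 := proj_sum hs sW ζ hsW hζ τ u hτu a hτa
  have hP2 : proj s sW ζ τ (algebraMap W Y sW * ∑ i ∈ Finset.range s, u ^ i) =
      algebraMap W Y sW * u := by
    have := proj_sum hs sW ζ hsW hζ τ u hτu (fun _ => algebraMap W Y sW) (fun k _ => hτW k sW)
    rwa [← Finset.mul_sum] at this
  have hτxi : ∀ k, τ k x⁻¹ = x⁻¹ := fun k => by rw [map_inv₀, hτx]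
  refine ⟨?_, ?_, ?_⟩
  · intro h0
    obtain ⟨d, hd, hcd⟩ := hcε
    obtain ⟨c₀, hc₀, hw'⟩ := hw
    have h3 := congrArg (proj s sW ζ τ) hcd
    rw [proj_sub, hP1, hP2, h0, proj_const_mul s sW ζ τ hτW] at h3
    have hsY : (s : Y) * algebraMap W Y sW = 1 := by
      have := congrArg (algebraMap W Y) hsW
      rwa [map_mul, map_natCast, map_one] at this
    have hu : u = algebraMap W Y π * (-(algebraMap W Y (s : W)) * proj s sW ζ τ d) := by
      rw [map_natCast]
      linear_combination (-(s : Y)) * h3 - u * hsY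
    have hdC : InC π x (-(algebraMap W Y (s : W)) * proj s sW ζ τ d) :=
      ((InC.const hπ (s : W)).neg).mul hπ (proj_inC hπ s sW ζ τ hτx hτW hd)
    have hpow : u ^ s = algebraMap W Y π * (algebraMap W Y π ^ (s - 1) *
        (-(algebraMap W Y (s : W)) * proj s sW ζ τ d) ^ s) := by
      have e : algebraMap W Y π * algebraMap W Y π ^ (s - 1) = algebraMap W Y π ^ s := by
        rw [← pow_succ', Nat.sub_add_cancel (by omega)]
      rw [← mul_assoc, e, ← mul_pow, ← hu]
    refine not_inC_of_one_eq hπ hx (c := algebraMap W Y π ^ (s - 1) *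
        (-(algebraMap W Y (s : W)) * proj s sW ζ τ d) ^ s - c₀) ?_ ?_
    · exact (((InC.const hπ π).pow hπ (s - 1)).mul hπ (hdC.pow hπ s)).sub hπ hc₀
    · linear_combination hpow - hw'
  · rw [← hP1]; exact proj_isInt s sW ζ τ hτx hτW hc₁
  · rw [← hP1]; exact proj_isInt s sW ζ τ hτxi hτW hc₂

end Projector


/-! ### Statement-level currency and the main theorem -/

section Main

variable {W F Y : Type*} [CommRing W] [Field F] [Algebra W F] [Field Y] [Algebra W Y]
  [Algebra F Y] [IsScalarTower W F Y]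

/-- `IsInt` is integrality over the subalgebra `W[j] ⊆ F`. -/
theorem isInt_iff_isIntegral_adjoin (j : F) (y : Y) :
    IsInt W (algebraMap F Y j) y ↔ IsIntegral (Algebra.adjoin W {j}) y := by
  let g : W[X] →+* (Algebra.adjoin W {j}) :=
    (((aeval j : W[X] →ₐ[W] F).codRestrict (Algebra.adjoin W {j})
      (fun p => aeval_mem_adjoin_singleton W j) : W[X] →ₐ[W] (Algebra.adjoin W {j})) :
        W[X] →+* (Algebra.adjoin W {j}))
  have hg : ∀ p : W[X], ((g p : Algebra.adjoin W {j}) : F) = aeval j p := fun p => rfl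
  have hcomp : (algebraMap (Algebra.adjoin W {j}) Y).comp g = ev W (algebraMap F Y j) := by
    ext p
    · rw [RingHom.comp_apply, RingHom.comp_apply, RingHom.comp_apply, ev_C]
      show algebraMap F Y ((g (C p) : Algebra.adjoin W {j}) : F) = _
      rw [hg, aeval_C, ← IsScalarTower.algebraMap_apply]
    · rw [RingHom.comp_apply, ev_X]
      show algebraMap F Y ((g X : Algebra.adjoin W {j}) : F) = _
      rw [hg, aeval_X]
  have hsurj : Function.Surjective g := by
    rintro ⟨z, hz⟩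
    rw [Algebra.adjoin_singleton_eq_range_aeval] at hz
    obtain ⟨p, rfl⟩ := hz
    exact ⟨p, Subtype.ext (hg p)⟩
  constructor
  · intro h
    have h' : ((algebraMap (Algebra.adjoin W {j}) Y).comp g).IsIntegralElem y := by
      rw [hcomp]; exact h
    exact RingHom.IsIntegralElem.of_comp h'
  · rintro ⟨Q, hQmon, hQy⟩
    have hlifts : Q ∈ lifts g := (lifts_iff_coeff_lifts Q).mpr fun n => hsurj _
    obtain ⟨P, hPmap, -, hPmon⟩ := lifts_and_natDegree_eq_and_monic hlifts hQmon
    refine ⟨P, hPmon, ?_⟩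
    rw [← hcomp, ← eval₂_map, hPmap]
    exact hQy

theorem smul_eq_aeval_mul (j : F) (p : W[X]) (z : Y) :
    aeval j p • z = aeval (algebraMap F Y j) p * z := by
  rw [Algebra.smul_def, aeval_algebraMap_apply]


/-- translation of the multiplier currency: `p(j) • z = π • b` with `b` integral over `W[j]`
gives `z ∈ π C`. -/
theorem inC_of_multiplier [IsDomain W] {π : W} (hπY : algebraMap W Y π ≠ 0) (j : F) {z : Y}
    (h : ∃ p : W[X], ¬ C π ∣ p ∧ ∃ b : Y, IsIntegral (Algebra.adjoin W {j}) b ∧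
      aeval j p • z = π • b) :
    ∃ c, InC π (algebraMap F Y j) c ∧ z = algebraMap W Y π * c := by
  obtain ⟨p, hp, b, hb, hpb⟩ := h
  rw [smul_eq_aeval_mul, Algebra.smul_def] at hpb
  refine ⟨z / algebraMap W Y π, ⟨p, hp, ?_⟩, by field_simp⟩
  have : aeval (algebraMap F Y j) p * (z / algebraMap W Y π) = b := by
    rw [← mul_div_assoc, hpb, mul_div_cancel_left₀ _ hπY]
  rw [this]
  exact (isInt_iff_isIntegral_adjoin j b).mpr hb

/-- **Endgame of S18 (step 6), abstract form.**

`W` a DVR (any noetherian UFD) with prime element `π`, `F` a field over `W`, `j ∈ F` transcendental,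
`Y = F(u)` with `u ^ s = w`, `s` a prime invertible in `W`, `ζ ∈ W` a primitive `s`-th root of
unity, `w ≡ 1` modulo `π` in the integral closure of the Gauss ring `W[j]_(π)`.  If the sheet
idempotent `ε = (1/s) ∑ uⁱ` of the special fibre lifts to both charts (integral closures of `W[j]`
and of `W[1/j]` in `Y`), then `w = a hˢ` with `a ∈ F` nonzero and integral over `W`. -/
theorem endgame [IsDomain W] [IsNoetherianRing W] [UniqueFactorizationMonoid W]
    (π : W) (hπ : Prime π) (j : F) (hj : Transcendental W j)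
    (s : ℕ) (hs : s.Prime) (hsW : IsUnit (s : W)) (ζ : W) (hζ : IsPrimitiveRoot ζ s)
    (w : F) (pb : PowerBasis F Y) (hdim : pb.dim = s) (hgen : pb.gen ^ s = algebraMap F Y w)
    (hw : ∃ p : W[X], ¬ C π ∣ p ∧ ∃ ω : F, IsIntegral (Algebra.adjoin W {j}) ω ∧
        aeval j p * (w - 1) = algebraMap W F π * ω)
    (hfin : Module.Finite (Algebra.adjoin W {j}) (integralClosure (Algebra.adjoin W {j}) Y))
    (e₁ e₂ : Y) (he₁ : IsIntegral (Algebra.adjoin W {j}) e₁)
    (he₂ : IsIntegral (Algebra.adjoin W {j⁻¹}) e₂)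
    (h₁ : ∃ p : W[X], ¬ C π ∣ p ∧ ∃ b : Y, IsIntegral (Algebra.adjoin W {j}) b ∧
        aeval j p • ((s : Y)⁻¹ * ∑ i ∈ Finset.range s, pb.gen ^ i - e₁) = π • b)
    (h₂ : ∃ p : W[X], ¬ C π ∣ p ∧ ∃ b : Y, IsIntegral (Algebra.adjoin W {j⁻¹}) b ∧
        aeval j⁻¹ p • ((s : Y)⁻¹ * ∑ i ∈ Finset.range s, pb.gen ^ i - e₂) = π • b) :
    ∃ a h : F, a ≠ 0 ∧ IsIntegral W a ∧ w = a * h ^ s := by
  classical
  have hinjFY : Function.Injective (algebraMap F Y) := (algebraMap F Y).injective
  have hx : Transcendental W (algebraMap F Y j) := by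
    intro ⟨p, hp0, hp⟩
    refine hj ⟨p, hp0, hinjFY ?_⟩
    rw [map_zero, ← aeval_algebraMap_apply]; exact hp
  have hx0 := ne_zero_of_transcendental hx
  have hxinv : (algebraMap F Y j)⁻¹ = algebraMap F Y j⁻¹ := (map_inv₀ _ _).symm
  have hinjWY : Function.Injective (algebraMap W Y) := by
    intro a b hab
    have h1 : aeval (algebraMap F Y j) (C a : W[X]) = aeval (algebraMap F Y j) (C b : W[X]) := by
      rw [aeval_C, aeval_C, hab]
    exact C_injective (transcendental_iff_injective.mp hx h1)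
  have hπY : algebraMap W Y π ≠ 0 := by
    rw [Ne, ← map_zero (algebraMap W Y)]
    exact fun h => hπ.ne_zero (hinjWY h)
  obtain ⟨sW, hsW'⟩ := hsW.exists_right_inv
  have hs2 : 2 ≤ s := hs.two_le
  have hsY : (s : Y)⁻¹ = algebraMap W Y sW := by
    have h1 : (s : Y) * algebraMap W Y sW = 1 := by
      have := congrArg (algebraMap W Y) hsW'
      rwa [map_mul, map_natCast, map_one] at this
    exact inv_eq_of_mul_eq_one_right h1
  rw [hsY] at h₁ h₂
  -- `w ≡ 1`
  have hw' : ∃ c₀, InC π (algebraMap F Y j) c₀ ∧ pb.gen ^ s - 1 = algebraMap W Y π * c₀ := by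
    obtain ⟨p, hp, ω, hω, hpω⟩ := hw
    rw [hgen, ← map_one (algebraMap F Y), ← map_sub]
    refine inC_of_multiplier hπY j ⟨p, hp, algebraMap F Y ω, hω.algebraMap, ?_⟩
    rw [Algebra.smul_def, Algebra.smul_def, ← map_mul, hpω, map_mul,
      ← IsScalarTower.algebraMap_apply]
  -- finiteness of the first chart
  obtain ⟨n, b, hbspan⟩ := Module.Finite.exists_fin (R := Algebra.adjoin W {j})
    (M := integralClosure (Algebra.adjoin W {j}) Y)
  have hb : ∀ i, IsInt W (algebraMap F Y j) (b i : Y) :=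
    fun i => (isInt_iff_isIntegral_adjoin j _).mpr (b i).2
  have hspan : ∀ y, IsInt W (algebraMap F Y j) y →
      ∃ p : Fin n → W[X], y = ∑ i, aeval (algebraMap F Y j) (p i) * (b i : Y) := by
    intro y hy
    have hy' : IsIntegral (Algebra.adjoin W {j}) y := (isInt_iff_isIntegral_adjoin j y).mp hy
    have hmem : (⟨y, hy'⟩ : integralClosure (Algebra.adjoin W {j}) Y) ∈
        Submodule.span (Algebra.adjoin W {j}) (Set.range b) := by rw [hbspan]; trivial
    obtain ⟨r, hr⟩ := (Submodule.mem_span_range_iff_exists_fun _).mp hmem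
    have hrp : ∀ i, ∃ p : W[X], aeval j p = (r i : F) := fun i => by
      have h' : (r i : F) ∈ (aeval j : W[X] →ₐ[W] F).range := by
        rw [← Algebra.adjoin_singleton_eq_range_aeval]; exact (r i).2
      exact h'
    choose p hp using hrp
    refine ⟨p, ?_⟩
    have h3 := congrArg (fun z : integralClosure (Algebra.adjoin W {j}) Y => (z : Y)) hr
    simp only [AddSubmonoidClass.coe_finsetSum] at h3
    rw [← h3]
    refine Finset.sum_congr rfl fun i _ => ?_
    rw [aeval_algebraMap_apply, hp i, Subalgebra.coe_smul, Algebra.smul_def]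
    rfl
  -- the two lifts
  have he₁' : IsInt W (algebraMap F Y j) e₁ := (isInt_iff_isIntegral_adjoin j e₁).mpr he₁
  have he₂' : IsInt W (algebraMap F Y j)⁻¹ e₂ := by
    rw [hxinv]; exact (isInt_iff_isIntegral_adjoin j⁻¹ e₂).mpr he₂
  have h₁' := inC_of_multiplier hπY j h₁
  have h₂' : ∃ c, InC π (algebraMap F Y j) c ∧
      algebraMap W Y sW * ∑ i ∈ Finset.range s, pb.gen ^ i - e₂ = algebraMap W Y π * c := by
    obtain ⟨c, hc, hc'⟩ := inC_of_multiplier hπY j⁻¹ h₂
    rw [← hxinv] at hc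
    exact ⟨c, hc.of_inv hx0, hc'⟩
  have hε := sheet_idem hπ hs.pos sW hsW' hw'
  obtain ⟨c, hc1, hc2, hcε⟩ := exists_common_lift hπ hx (fun i => (b i : Y)) hb hspan _ e₁ e₂ hε
    he₁' he₂' h₁' h₂'
  -- expansion of `c` in the power basis
  obtain ⟨f, hfdeg, hcf⟩ := pb.exists_eq_aeval c
  have hcsum : c = ∑ i ∈ Finset.range s, algebraMap F Y (f.coeff i) * pb.gen ^ i := by
    rw [hcf, aeval_eq_sum_range' (hdim ▸ hfdeg)]
    exact Finset.sum_congr rfl fun i _ => Algebra.smul_def _ _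
  -- the automorphisms `u ↦ ζ ^ k u`
  have hmin : minpoly F pb.gen = X ^ s - C w := by
    have hdvd : minpoly F pb.gen ∣ X ^ s - C w := by
      refine minpoly.dvd F pb.gen ?_
      rw [map_sub, map_pow, aeval_X, aeval_C, hgen, sub_self]
    refine (eq_of_monic_of_dvd_of_natDegree_le (minpoly.monic pb.isIntegral_gen)
      (monic_X_pow_sub_C w hs.ne_zero) hdvd ?_).symm
    rw [natDegree_X_pow_sub_C, pb.natDegree_minpoly, hdim]
  have hroot : ∀ k : ℕ, aeval (algebraMap W Y (ζ ^ k) * pb.gen) (minpoly F pb.gen) = 0 := by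
    intro k
    rw [hmin, map_sub, map_pow, aeval_X, aeval_C, mul_pow, hgen, ← map_pow, ← pow_mul, mul_comm k,
      pow_mul, hζ.pow_eq_one, one_pow, map_one, one_mul, sub_self]
  obtain ⟨τ, hτ⟩ : ∃ τ : ℕ → Y →+* Y, ∀ k, τ k = ((pb.lift _ (hroot k) : Y →ₐ[F] Y) : Y →+* Y) :=
    ⟨_, fun k => rfl⟩
  have hτF : ∀ k (z : F), τ k (algebraMap F Y z) = algebraMap F Y z := by
    intro k z
    rw [hτ k]
    exact AlgHom.commutes (pb.lift _ (hroot k)) z
  have hτW : ∀ k (a : W), τ k (algebraMap W Y a) = algebraMap W Y a := by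
    intro k a
    rw [IsScalarTower.algebraMap_apply W F Y, hτF]
  have hτu : ∀ k, τ k pb.gen = algebraMap W Y (ζ ^ k) * pb.gen := by
    intro k
    rw [hτ k]
    exact pb.lift_gen _ (hroot k)
  rw [hcsum] at hc1 hc2 hcε
  obtain ⟨hg0, hg1, hg2⟩ := projector_main hπ hx hs2 sW ζ hsW' hζ pb.gen hw' τ
    (fun k => hτF k j) hτW hτu (fun i => algebraMap F Y (f.coeff i)) (fun k i => hτF k _)
    hc1 hc2 hcε
  -- conclusion
  have hgs : (algebraMap F Y (f.coeff 1) * pb.gen) ^ s = algebraMap F Y (f.coeff 1 ^ s * w) := by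
    rw [mul_pow, hgen, map_mul, map_pow]
  have hint : IsIntegral W (algebraMap F Y (f.coeff 1 ^ s * w)) := by
    rw [← hgs]
    exact isIntegral_of_isInt_of_isInt_inv hx (hg1.pow s) (hg2.pow s)
  have ha0 : f.coeff 1 ^ s * w ≠ 0 := by
    intro h
    have h2 := pow_ne_zero s hg0
    rw [hgs, h, map_zero] at h2
    exact h2 rfl
  have hf1 : f.coeff 1 ≠ 0 := by
    intro h
    apply ha0
    rw [h, zero_pow hs.ne_zero, zero_mul]
  refine ⟨f.coeff 1 ^ s * w, (f.coeff 1)⁻¹, ha0, (isIntegral_algebraMap_iff hinjFY).mp hint, ?_⟩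
  rw [inv_pow, mul_comm (f.coeff 1 ^ s) w, mul_assoc, mul_inv_cancel₀ (pow_ne_zero s hf1), mul_one]

end Main

end Fermat.Agent.S18.Endgame
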