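/-
S18 (helper2): the two-chart step of the endgame in "saturated subalgebra" currency.

`two_chart_idem`: `B1 ∋ v`, `B2 ∋ v⁻¹` two charts (subalgebras of a commutative ring `Y` over a
noetherian ring `W`) with `B2 ⊆ B1[1/v]`, `B1 ⊆ B2[v]`, `B1` generated over `W[v]` by finitely many
elements; `C ⊇ B1, B2` a subring ("Gauss-integral elements") in which both charts are
`π`-saturated.  Then every `ε ∈ C` which is idempotent modulo `π C` and which lifts modulo `π C`
to both charts is congruent modulo `π C` to an element of `B1 ∩ B2`.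

`exists_pow_mul_isIntegralElem`: change of chart for integrality, instance-free.
-/
import Mathlib
import Fermat.Agent.S18.TwoChart

set_option autoImplicit false

namespace Fermat.Agent.S18.TwoChartIdem

open Polynomial

section Scale

variable {D₁ D₂ Y : Type*} [CommRing D₁] [CommRing D₂] [CommRing Y] [Nontrivial Y]

/-- Change of chart for integrality: if every element of the image of `D₂` is carried into the
image of `D₁` by a power of `v` (and `v` lies in the image of `D₁`), then every element integral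
over `D₂` becomes integral over `D₁` after multiplication by a power of `v`. -/
theorem exists_pow_mul_isIntegralElem (φ₁ : D₁ →+* Y) (φ₂ : D₂ →+* Y) (v : Y)
    (hv : v ∈ φ₁.range) (h : ∀ a : D₂, ∃ n : ℕ, v ^ n * φ₂ a ∈ φ₁.range)
    (x : Y) (hx : φ₂.IsIntegralElem x) : ∃ n : ℕ, φ₁.IsIntegralElem (v ^ n * x) := by
  classical
  obtain ⟨P, hP, hPx⟩ := hx
  choose N hN using fun i : ℕ => h (P.coeff i)
  set n := ∑ i ∈ Finset.range P.natDegree, N i with hn
  have hpow : ∀ m : ℕ, v ^ m ∈ φ₁.range := fun m => φ₁.range.pow_mem hv m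
  have hmon : (P.map φ₂).Monic := hP.map _
  have hdeg : (P.map φ₂).natDegree = P.natDegree := hP.natDegree_map _
  have hPx' : eval x (P.map φ₂) = 0 := by rw [eval_map]; exact hPx
  set Q := scaleRoots (P.map φ₂) (v ^ n) with hQ
  have hQmon : Q.Monic := by
    rw [hQ, monic_scaleRoots_iff]
    exact hmon
  have hQx : eval (v ^ n * x) Q = 0 := by
    have := scaleRoots_eval₂_mul (f := RingHom.id Y) (p := P.map φ₂) (r := x) (s := v ^ n)
    simp only [eval₂_id, RingHom.id_apply] at this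
    rw [hQ, this, hPx', mul_zero]
  have hlift : Q ∈ lifts φ₁ := by
    rw [lifts_iff_coeff_lifts]
    intro i
    rw [hQ, coeff_scaleRoots, hdeg, coeff_map]
    rcases lt_trichotomy i P.natDegree with hi | hi | hi
    · have hle : N i ≤ n := by
        rw [hn]
        exact Finset.single_le_sum (f := N) (fun _ _ => Nat.zero_le _) (Finset.mem_range.mpr hi)
      have h1 : (v ^ n) ^ (P.natDegree - i) = v ^ (n * (P.natDegree - i) - N i) * v ^ N i := by
        rw [← pow_mul, ← pow_add]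
        congr 1
        have : N i ≤ n * (P.natDegree - i) := by
          calc N i ≤ n := hle
            _ = n * 1 := (mul_one n).symm
            _ ≤ n * (P.natDegree - i) := Nat.mul_le_mul_left n (by omega)
        omega
      have h3 : φ₂ (P.coeff i) * (v ^ n) ^ (P.natDegree - i)
          = v ^ (n * (P.natDegree - i) - N i) * (v ^ N i * φ₂ (P.coeff i)) := by
        rw [h1]; ring
      rw [h3]
      exact φ₁.range.mul_mem (hpow _) (hN i)
    · subst hi
      have : P.coeff P.natDegree = 1 := hP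
      rw [this]
      exact ⟨1, by simp⟩
    · rw [coeff_eq_zero_of_natDegree_lt hi]
      exact ⟨0, by simp⟩
  obtain ⟨q, hq, -, hqmon⟩ := lifts_and_natDegree_eq_and_monic hlift hQmon
  refine ⟨n, q, hqmon, ?_⟩
  rw [← eval_map, hq]
  exact hQx

end Scale

section Main

variable {W Y : Type*} [CommRing W] [IsNoetherianRing W] [CommRing Y] [Algebra W Y]

/-- The localisation `B[1/v]` of a subalgebra at an element `v ∈ B`, inside `Y`. -/
def awayCl (B : Subalgebra W Y) (v : Y) (hv : v ∈ B) : Subalgebra W Y where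
  carrier := {x | ∃ n : ℕ, v ^ n * x ∈ B}
  mul_mem' := by
    rintro x y ⟨n, hn⟩ ⟨m, hm⟩
    refine ⟨n + m, ?_⟩
    have h : v ^ (n + m) * (x * y) = (v ^ n * x) * (v ^ m * y) := by ring
    rw [h]
    exact B.mul_mem hn hm
  add_mem' := by
    rintro x y ⟨n, hn⟩ ⟨m, hm⟩
    refine ⟨n + m, ?_⟩
    have h : v ^ (n + m) * (x + y) = v ^ m * (v ^ n * x) + v ^ n * (v ^ m * y) := by ring
    rw [h]
    exact B.add_mem (B.mul_mem (B.pow_mem hv m) hn) (B.mul_mem (B.pow_mem hv n) hm)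
  algebraMap_mem' := fun r => ⟨0, by
    rw [pow_zero, one_mul]
    exact B.algebraMap_mem r⟩

/-- **Two-chart step of the endgame.** -/
theorem two_chart_idem (π : W) (v vinv : Y) (hvv : v * vinv = 1)
    (B1 B2 : Subalgebra W Y) (hv1 : v ∈ B1) (hv2 : vinv ∈ B2)
    (h₂₁ : ∀ x ∈ B2, ∃ n : ℕ, v ^ n * x ∈ B1)
    (h₁₂ : ∀ x ∈ B1, ∃ n : ℕ, vinv ^ n * x ∈ B2)
    (C : Subring Y) (hB1C : ∀ x ∈ B1, x ∈ C)
    (hsat1 : ∀ x ∈ C, π • x ∈ B1 → x ∈ B1) (hsat2 : ∀ x ∈ C, π • x ∈ B2 → x ∈ B2)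
    (hfin : ∃ (n : ℕ) (g : Fin n → Y), (∀ i, g i ∈ B1) ∧
        ∀ y ∈ B1, ∃ p : Fin n → Polynomial W, y = ∑ i, Polynomial.aeval v (p i) * g i)
    (ε : Y) (hε : ε ∈ C) (hεε : ∃ d ∈ C, ε ^ 2 - ε = π • d)
    (e₁ e₂ : Y) (he₁ : e₁ ∈ B1) (he₂ : e₂ ∈ B2)
    (h₁ : ∃ d ∈ C, e₁ - ε = π • d) (h₂ : ∃ d ∈ C, e₂ - ε = π • d) :
    ∃ c : Y, c ∈ B1 ∧ c ∈ B2 ∧ ∃ d ∈ C, c - ε = π • d := by
  classical
  have hπC : algebraMap W Y π ∈ C := hB1C _ (B1.algebraMap_mem π)
  set B12 : Subalgebra W Y := awayCl B1 v hv1 with hB12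
  have h1 : B1 ≤ B12 := fun x hx => ⟨0, by rw [pow_zero, one_mul]; exact hx⟩
  have h2 : B2 ≤ B12 := fun x hx => h₂₁ x hx
  -- idempotency modulo `π` inside the charts
  have hid : ∀ (B : Subalgebra W Y), (∀ x ∈ C, π • x ∈ B → x ∈ B) → ∀ e ∈ B,
      (∃ d ∈ C, e - ε = π • d) → ∃ a ∈ B, e ^ 2 - e = π • a := by
    intro B hsat e he ⟨d, hd, hed⟩
    obtain ⟨d', hd', hεd⟩ := hεε
    have hx : d' + d * (2 * ε - 1) + algebraMap W Y π * d ^ 2 ∈ C :=
      C.add_mem (C.add_mem hd' (C.mul_mem hd (C.sub_mem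
        (C.mul_mem (C.add_mem C.one_mem C.one_mem |> fun h => by
          have : (2 : Y) = 1 + 1 := by norm_num
          rw [this]; exact h) hε) C.one_mem))) (C.mul_mem hπC (C.pow_mem hd 2))
    have heq : e ^ 2 - e = π • (d' + d * (2 * ε - 1) + algebraMap W Y π * d ^ 2) := by
      rw [Algebra.smul_def] at hed hεd ⊢
      linear_combination hεd + (e + ε - 1 + algebraMap W Y π * d) * hed
    refine ⟨_, hsat _ hx ?_, heq⟩
    rw [← heq]
    exact B.sub_mem (B.pow_mem he 2) he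
  obtain ⟨a₁, ha₁, hid1⟩ := hid B1 hsat1 e₁ he₁ h₁
  obtain ⟨a₂, ha₂, hid2⟩ := hid B2 hsat2 e₂ he₂ h₂
  -- agreement on the overlap
  obtain ⟨d₁, hd₁, hed₁⟩ := h₁
  obtain ⟨d₂, hd₂, hed₂⟩ := h₂
  have h12 : ∃ d ∈ B12, e₁ - e₂ = π • d := by
    refine ⟨d₁ - d₂, ?_, by rw [smul_sub, ← hed₁, ← hed₂]; ring⟩
    have hmem : π • (d₁ - d₂) ∈ B12 := by
      have : π • (d₁ - d₂) = e₁ - e₂ := by rw [smul_sub, ← hed₁, ← hed₂]; ring
      rw [this]
      exact B12.sub_mem (h1 he₁) (h2 he₂)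
    obtain ⟨n, hn⟩ := hmem
    refine ⟨n, hsat1 _ (C.mul_mem (C.pow_mem (hB1C v hv1) n) (C.sub_mem hd₁ hd₂)) ?_⟩
    have : π • (v ^ n * (d₁ - d₂)) = v ^ n * π • (d₁ - d₂) := by
      rw [mul_smul_comm]
    rw [this]
    exact hn
  -- finiteness of `H¹`
  obtain ⟨n, g, hg, hgen⟩ := hfin
  choose D hD using fun i => h₁₂ (g i) (hg i)
  set d : ℕ := ∑ i, D i with hd
  have hdB : ∀ i, vinv ^ d * g i ∈ B2 := by
    intro i
    have hle : D i ≤ d := by
      rw [hd]
      exact Finset.single_le_sum (f := D) (fun _ _ => Nat.zero_le _) (Finset.mem_univ i)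
    have e : vinv ^ d * g i = vinv ^ (d - D i) * (vinv ^ D i * g i) := by
      rw [← mul_assoc, ← pow_add]
      congr 2
      omega
    rw [e]
    exact B2.mul_mem (B2.pow_mem hv2 _) (hD i)
  have hcover := TwoChart.cover_of_generators B1 B2 B12 v vinv hv1 hv2 hvv
    (fun x hx => hx) g hg hgen d hdB
  obtain ⟨c, hcB1, hcB2, ⟨a, haB1, hca⟩, -⟩ :=
    TwoChart.exists_common_lift_of_fg W B1 B2 B12 h1 h2 _
      (TwoChart.fg_span_generators g vinv d) hcover π e₁ e₂ he₁ he₂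
      ⟨a₁, ha₁, hid1⟩ ⟨a₂, ha₂, hid2⟩ h12
  refine ⟨c, hcB1, hcB2, a + d₁, C.add_mem (hB1C a haB1) hd₁, ?_⟩
  rw [smul_add, ← hca, ← hed₁]
  ring

end Main

end Fermat.Agent.S18.TwoChartIdem
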