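/-
S18 (helper2), link 8 of the v3 chain: TWO CHARTS ⇒ a constant.

The two charts of the `j`-line over `W` are `W[j]` and `W[t, 1/(1 - 1728 t)]`, `t = 1/j`
(the cusp chart).  If the sheet idempotent `ε` (idempotent modulo `π` in the integral closure `C`
of the Gauss ring `W[j]_(π)`) lifts modulo `π C` to an element integral over the first chart and
to an element integral over the second chart, then it is congruent modulo `π C` to an element
which is integral over `W` (a "constant").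

* `two_chart_hom`  : the core, in the polynomial-multiplier currency of `Endgame` (`IsInt`, `InC`).

The finiteness input (generators of the first chart over `W[j]`) and the translations to the
other currencies are in `TwoChartsGlue`.
-/
import Mathlib
import Fermat.Agent.S18.Endgame
import Fermat.Agent.S18.TwoChartIdem
import Fermat.Agent.S18.ChartAlg
import Fermat.Agent.S18.ChartConst

set_option autoImplicit false
set_option linter.unusedSectionVars false
set_option linter.style.haveILetI false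

namespace Fermat.Agent.S18.TwoChartsC

open Polynomial
open Fermat.Agent.S18.Endgame (IsInt InC)

section Core

variable {W Y : Type*} [CommRing W] [Field Y] [Algebra W Y]

theorem ofNat_eq_algebraMap : (1728 : Y) = algebraMap W Y 1728 :=
  (map_ofNat (algebraMap W Y) 1728).symm

/-- `1 - 1728 t` is integral over `W[t]`. -/
theorem isInt_cuspG (t : Y) : IsInt W t (1 - 1728 * t) := by
  rw [ofNat_eq_algebraMap (W := W)]
  exact IsInt.one.sub ((IsInt.const 1728).mul IsInt.self)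

/-- The second (cusp) chart: the integral closure of `W[1/j, 1/(1 - 1728/j)]` in `Y`, in
multiplier currency. -/
def chart2 (W : Type*) {Y : Type*} [CommRing W] [Field Y] [Algebra W Y] (j : Y) :
    Subalgebra W Y where
  carrier := {y | ∃ m : ℕ, IsInt W j⁻¹ ((1 - 1728 * j⁻¹) ^ m * y)}
  mul_mem' := by
    rintro a b ⟨n, hn⟩ ⟨m, hm⟩
    refine ⟨n + m, ?_⟩
    have : (1 - 1728 * j⁻¹) ^ (n + m) * (a * b) =
        ((1 - 1728 * j⁻¹) ^ n * a) * ((1 - 1728 * j⁻¹) ^ m * b) := by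
      rw [pow_add]; ring
    rw [this]; exact hn.mul hm
  one_mem' := ⟨0, by rw [pow_zero, one_mul]; exact IsInt.one⟩
  add_mem' := by
    rintro a b ⟨n, hn⟩ ⟨m, hm⟩
    refine ⟨n + m, ?_⟩
    have : (1 - 1728 * j⁻¹) ^ (n + m) * (a + b) =
        (1 - 1728 * j⁻¹) ^ m * ((1 - 1728 * j⁻¹) ^ n * a) +
          (1 - 1728 * j⁻¹) ^ n * ((1 - 1728 * j⁻¹) ^ m * b) := by
      rw [pow_add]; ring
    rw [this]
    exact (((isInt_cuspG j⁻¹).pow m).mul hn).add (((isInt_cuspG j⁻¹).pow n).mul hm)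
  zero_mem' := ⟨0, by rw [mul_zero]; exact IsInt.zero⟩
  algebraMap_mem' := fun a => ⟨0, by rw [pow_zero, one_mul]; exact IsInt.const a⟩

theorem mem_chart2 {j y : Y} :
    y ∈ chart2 W j ↔ ∃ m : ℕ, IsInt W j⁻¹ ((1 - 1728 * j⁻¹) ^ m * y) := Iff.rfl

theorem mem_chart {j y : Y} : y ∈ Endgame.chart W j ↔ IsInt W j y := Iff.rfl

variable [IsDomain W]

/-- The integral closure of the Gauss ring as a subring. -/
def gaussSubring {π : W} (hπ : Prime π) (j : Y) : Subring Y where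
  carrier := {c | InC π j c}
  mul_mem' := fun h1 h2 => InC.mul hπ h1 h2
  one_mem' := InC.one hπ
  add_mem' := fun h1 h2 => InC.add hπ h1 h2
  zero_mem' := InC.zero hπ
  neg_mem' := fun h => h.neg

theorem mem_gaussSubring {π : W} (hπ : Prime π) {j c : Y} :
    c ∈ gaussSubring hπ j ↔ InC π j c := Iff.rfl

theorem sub_ne_zero_of_transcendental {j : Y} (hj : Transcendental W j) : j - 1728 ≠ 0 := by
  intro h
  refine hj ⟨X - C 1728, X_sub_C_ne_zero 1728, ?_⟩
  rw [map_sub, aeval_X, aeval_C, ← ofNat_eq_algebraMap (W := W)]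
  exact h

/-- An element of the second chart is integral over the subalgebra `W[1/j, 1/(1 - 1728/j)]`. -/
theorem isIntegral_adjoin_of_mem_chart2 {j c : Y} (hg0 : (1 - 1728 * j⁻¹ : Y) ≠ 0)
    (hc : c ∈ chart2 W j) :
    IsIntegral (Algebra.adjoin W {j⁻¹, (1 - 1728 * j⁻¹)⁻¹}) c := by
  obtain ⟨m, P, hP, hPy⟩ := hc
  set S := Algebra.adjoin W {j⁻¹, (1 - 1728 * j⁻¹)⁻¹} with hS
  have ht : j⁻¹ ∈ S := Algebra.subset_adjoin (by simp)
  have hg : (1 - 1728 * j⁻¹)⁻¹ ∈ S := Algebra.subset_adjoin (by simp)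
  let ψ : W[X] →+* S := ((aeval (⟨j⁻¹, ht⟩ : S) : W[X] →ₐ[W] S) : W[X] →+* S)
  have hψ : (algebraMap S Y).comp ψ = Endgame.ev W j⁻¹ := by
    apply Polynomial.ringHom_ext
    · intro a
      rw [RingHom.comp_apply, Endgame.ev_C]
      show algebraMap S Y (aeval (⟨j⁻¹, ht⟩ : S) (C a)) = _
      rw [aeval_C]; rfl
    · rw [RingHom.comp_apply, Endgame.ev_X]
      show algebraMap S Y (aeval (⟨j⁻¹, ht⟩ : S) X) = _
      rw [aeval_X]; rfl
  have h1 : IsIntegral S ((1 - 1728 * j⁻¹) ^ m * c) :=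
    ⟨P.map ψ, hP.map ψ, by rw [eval₂_map, hψ]; exact hPy⟩
  have h2 : IsIntegral S (algebraMap S Y (⟨(1 - 1728 * j⁻¹)⁻¹, hg⟩ ^ m) *
      ((1 - 1728 * j⁻¹) ^ m * c)) := isIntegral_algebraMap.mul h1
  have e : algebraMap S Y (⟨(1 - 1728 * j⁻¹)⁻¹, hg⟩ ^ m) * ((1 - 1728 * j⁻¹) ^ m * c) = c := by
    rw [map_pow]
    show ((1 - 1728 * j⁻¹)⁻¹) ^ m * ((1 - 1728 * j⁻¹) ^ m * c) = c
    rw [← mul_assoc, ← mul_pow, inv_mul_cancel₀ hg0, one_pow, one_mul]
  rwa [e] at h2

/-- Every element of `W[1/j, 1/(1 - 1728/j)]` is a polynomial in `1/j` divided by a power of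
`1 - 1728/j`. -/
theorem exists_mul_pow_eq_aeval {j : Y} (hg0 : (1 - 1728 * j⁻¹ : Y) ≠ 0) {a : Y}
    (ha : a ∈ Algebra.adjoin W {j⁻¹, (1 - 1728 * j⁻¹)⁻¹}) :
    ∃ (p : W[X]) (m : ℕ), a * (aeval j⁻¹ (1 - C 1728 * X : W[X])) ^ m = aeval j⁻¹ p := by
  have hf : aeval j⁻¹ (1 - C 1728 * X : W[X]) = 1 - 1728 * j⁻¹ := by
    rw [map_sub, map_one, map_mul, aeval_C, aeval_X, ← ofNat_eq_algebraMap (W := W)]
  rw [hf]
  induction ha using Algebra.adjoin_induction with
  | mem y hy =>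
    rcases hy with rfl | rfl
    · exact ⟨X, 0, by rw [pow_zero, mul_one, aeval_X]⟩
    · exact ⟨1, 1, by rw [pow_one, inv_mul_cancel₀ hg0, map_one]⟩
  | algebraMap r => exact ⟨C r, 0, by rw [pow_zero, mul_one, aeval_C]⟩
  | add y z _ _ hy hz =>
    obtain ⟨p, m, hp⟩ := hy
    obtain ⟨q, n, hq⟩ := hz
    refine ⟨p * (1 - C 1728 * X) ^ n + q * (1 - C 1728 * X) ^ m, m + n, ?_⟩
    rw [map_add, map_mul, map_mul, map_pow, map_pow, hf, ← hp, ← hq, pow_add]
    ring
  | mul y z _ _ hy hz =>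
    obtain ⟨p, m, hp⟩ := hy
    obtain ⟨q, n, hq⟩ := hz
    refine ⟨p * q, m + n, ?_⟩
    rw [map_mul, ← hp, ← hq, pow_add]
    ring

variable [IsNoetherianRing W] [UniqueFactorizationMonoid W]

/-- **Two charts ⇒ a constant** (link 8), multiplier currency.

`b` generates the first chart (the integral closure of `W[j]` in `Y`) over `W[j]`; `ε` is an
idempotent modulo `π C`; `e₁` is integral over `W[j]`, `e₂` is integral over
`W[1/j, 1/(1 - 1728/j)]` (multiplier form), and both are congruent to `ε` modulo `π C`.  Then `ε`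
is congruent modulo `π C` to an element `c` which lies in both charts, hence is integral over
`W`. -/
theorem two_chart_hom {π : W} (hπ : Prime π) {j : Y} (hj : Transcendental W j)
    {n : ℕ} (b : Fin n → Y) (hb : ∀ i, IsInt W j (b i))
    (hspan : ∀ y, IsInt W j y → ∃ p : Fin n → W[X], y = ∑ i, aeval j (p i) * b i)
    (ε e₁ e₂ : Y)
    (hε : ∃ c, InC π j c ∧ ε ^ 2 - ε = algebraMap W Y π * c)
    (he₁ : IsInt W j e₁) (he₂ : ∃ m : ℕ, IsInt W j⁻¹ ((1 - 1728 * j⁻¹) ^ m * e₂))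
    (h₁ : ∃ c, InC π j c ∧ e₁ - ε = algebraMap W Y π * c)
    (h₂ : ∃ c, InC π j c ∧ e₂ - ε = algebraMap W Y π * c) :
    ∃ c, IsIntegral W c ∧ IsInt W j c ∧ (∃ m : ℕ, IsInt W j⁻¹ ((1 - 1728 * j⁻¹) ^ m * c)) ∧
      ∃ d, InC π j d ∧ c - ε = algebraMap W Y π * d := by
  have hj0 : j ≠ 0 := Endgame.ne_zero_of_transcendental hj
  have hj1 : j - 1728 ≠ 0 := sub_ne_zero_of_transcendental hj
  have hji : Transcendental W j⁻¹ := Endgame.transcendental_inv hj
  have hg0 : (1 - 1728 * j⁻¹ : Y) ≠ 0 := by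
    have : (1 - 1728 * j⁻¹ : Y) = (j - 1728) * j⁻¹ := by field_simp
    rw [this]
    exact mul_ne_zero hj1 (inv_ne_zero hj0)
  have hv0 : j * (j - 1728) ≠ 0 := mul_ne_zero hj0 hj1
  -- the basic identities
  have id1 : (1 - 1728 * j⁻¹) * (j * (j - 1728))⁻¹ = j⁻¹ ^ 2 := by field_simp
  have id2 : (1 - 1728 * j⁻¹) * j = j - 1728 := by field_simp
  obtain ⟨c₁, hc₁, h₁'⟩ := h₁
  obtain ⟨c₂, hc₂, h₂'⟩ := h₂
  obtain ⟨cε, hcε, hε'⟩ := hε
  have hεC : InC π j ε := by
    have : ε = e₁ - algebraMap W Y π * c₁ := by linear_combination -h₁'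
    rw [this]
    exact (InC.of_isInt hπ he₁).sub hπ ((InC.const hπ π).mul hπ hc₁)
  have hfin := ChartAlg.exists_gens_over_v (Endgame.chart W j) j
    (Endgame.IsInt.self : IsInt W j j) ⟨n, b, hb, hspan⟩
  obtain ⟨c, hc1, hc2, d, hd, hcd⟩ := TwoChartIdem.two_chart_idem π (j * (j - 1728))
    (j * (j - 1728))⁻¹ (mul_inv_cancel₀ hv0) (Endgame.chart W j) (chart2 W j)
    (by
      show IsInt W j (j * (j - 1728))
      rw [ofNat_eq_algebraMap (W := W)]
      exact IsInt.self.mul (IsInt.self.sub (IsInt.const 1728)))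
    (by
      refine ⟨1, ?_⟩
      rw [pow_one, id1]
      exact IsInt.self.pow 2)
    (by
      rintro x ⟨m, hm⟩
      obtain ⟨D, hD⟩ := Endgame.isInt_pow_mul_of_isInt_inv hj0 hm
      refine ⟨D + m, ?_⟩
      show IsInt W j ((j * (j - 1728)) ^ (D + m) * x)
      have e : (j * (j - 1728)) ^ (D + m) * x =
          (j ^ m * j ^ m * (j - 1728) ^ D) * (j ^ D * ((1 - 1728 * j⁻¹) ^ m * x)) := by
        have : (j - 1728) ^ m = (1 - 1728 * j⁻¹) ^ m * j ^ m := by rw [← mul_pow, id2]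
        rw [mul_pow, pow_add, pow_add, this]
        ring
      rw [e]
      refine (((IsInt.self.pow m).mul (IsInt.self.pow m)).mul ?_).mul hD
      rw [ofNat_eq_algebraMap (W := W)]
      exact (IsInt.self.sub (IsInt.const 1728)).pow D)
    (by
      intro x hx
      obtain ⟨D, hD⟩ := Endgame.isInt_inv_pow_mul_of_isInt hj0 (mem_chart.mp hx)
      refine ⟨D, D, ?_⟩
      have e : (1 - 1728 * j⁻¹) ^ D * ((j * (j - 1728))⁻¹ ^ D * x) =
          j⁻¹ ^ D * (j⁻¹ ^ D * x) := by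
        rw [← mul_assoc, ← mul_pow, id1]
        ring
      rw [e]
      exact (IsInt.self.pow D).mul hD)
    (gaussSubring hπ j) (fun x hx => InC.of_isInt hπ hx)
    (by
      intro x hx hπx
      rw [Algebra.smul_def] at hπx
      exact Endgame.isInt_of_inC hπ hj hπx hx)
    (by
      rintro x hx ⟨m, hm⟩
      refine ⟨m, ?_⟩
      rw [Algebra.smul_def] at hm
      refine Endgame.isInt_of_inC hπ hji ?_
        ((InC.of_isInt hπ ((isInt_cuspG j⁻¹).pow m)).mul hπ (InC.to_inv hj0 hx))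
      have e : algebraMap W Y π * ((1 - 1728 * j⁻¹) ^ m * x) =
          (1 - 1728 * j⁻¹) ^ m * (algebraMap W Y π * x) := by ring
      rw [e]; exact hm)
    hfin ε hεC ⟨cε, hcε, by rw [Algebra.smul_def]; exact hε'⟩ e₁ e₂ he₁ he₂
    ⟨c₁, hc₁, by rw [Algebra.smul_def]; exact h₁'⟩
    ⟨c₂, hc₂, by rw [Algebra.smul_def]; exact h₂'⟩
  refine ⟨c, ?_, hc1, hc2, d, hd, by rw [← Algebra.smul_def]; exact hcd⟩
  -- integrality over `W`: `H⁰` of the `j`-line
  haveI : IsIntegrallyClosed W := inferInstance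
  have hc2' := isIntegral_adjoin_of_mem_chart2 hg0 hc2
  refine ChartConst.isIntegral_of_isIntegralElem_charts hj (Endgame.ev W j)
    (algebraMap (Algebra.adjoin W {j⁻¹, (1 - 1728 * j⁻¹)⁻¹}) Y) (fun a => ⟨a, rfl⟩)
    (1 - C 1728 * X) ?_ (fun a => exists_mul_pow_eq_aeval hg0 a.2) c hc1 hc2'
  rw [coeff_sub, coeff_one_zero, mul_coeff_zero, coeff_X_zero, mul_zero, sub_zero]
  exact one_ne_zero

end Core

end Fermat.Agent.S18.TwoChartsC
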