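/-
S18, package K0 (assembly): from the two chart contracts to the DVR-level core.

All algebra-instance handling for the Kummer extension `F2 = F(u)` is confined to this file.

* `exists_kummer_field`   : the field `F2 = F(u)`, `u ^ s = w`, of degree `s`;
* `exists_chart_gens`     : finiteness of the first chart (generators of the integral closure
                            of `W[j]` in `F2`);
* `endgame_of_charts`     : from lifts of the sheet idempotent to the two charts to an `s`-th
                            root of `w` over `ℚ̄`;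
* `dvrCore_of_contracts`  : `Top.DvrCore` from the two chart contracts;
* `result_of_contracts`   : the frozen statement from the two chart contracts.
-/
import Mathlib
import Fermat.Prelude.Def_ModularCurve_ReductionModL
import Fermat.Agent.S24.CoeffBC
import Fermat.Agent.S18.Contracts
import Fermat.Agent.S18.GaussVal
import Fermat.Agent.S18.GaussDegree
import Fermat.Agent.S18.FunctionFieldKit
import Fermat.Agent.S18.TwoChartsC
import Fermat.Agent.S18.KummerDescentGauss
import Fermat.Agent.S18.Top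

set_option autoImplicit false
set_option linter.unusedSectionVars false
set_option linter.style.haveILetI false

namespace Fermat.Agent.S18

open ModularCurve AlgebraicCurve Polynomial

namespace GeoEnd

open Contracts

local notation "Qb" => AlgebraicClosure ℚ

/-! ### The Kummer extension -/

/-- A field extension of degree `s` generated by an `s`-th root of a non-`s`-th-power. -/
theorem exists_kummer_field {F : Type} [Field F] (s : ℕ) (hs : s.Prime) (w : F)
    (hw : ¬ ∃ a : F, a ^ s = w) :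
    ∃ (F2 : Type) (_ : Field F2) (_ : Algebra F F2) (u : F2),
      u ^ s = algebraMap F F2 w ∧ Module.finrank F F2 = s := by
  have hirr : Irreducible (X ^ s - C w : F[X]) :=
    X_pow_sub_C_irreducible_of_prime hs (fun b hb => hw ⟨b, hb⟩)
  have : Fact (Irreducible (X ^ s - C w : F[X])) := ⟨hirr⟩
  refine ⟨AdjoinRoot (X ^ s - C w : F[X]), inferInstance, inferInstance,
    AdjoinRoot.root _, ?_, ?_⟩
  · have h := AdjoinRoot.eval₂_root (X ^ s - C w : F[X])
    rw [eval₂_sub, eval₂_pow, eval₂_X, eval₂_C, sub_eq_zero] at h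
    exact h
  · rw [(AdjoinRoot.powerBasis hirr.ne_zero).finrank, AdjoinRoot.powerBasis_dim,
      natDegree_X_pow_sub_C]

/-! ### The concrete vocabulary -/

section Setup

variable {L : Type} [Field L] [Algebra ℚ L] (W : ValuationSubring L) (N : ℕ) [NeZero N]
variable (F2 : Type) [Field F2] [Algebra (S24.FF L N) F2]

theorem toF2_apply (a : ↥W) :
    toF2 W N F2 a = algebraMap (S24.FF L N) F2 (algebraMap L (S24.FF L N) (a : L)) := rfl

theorem toF2_self (a : ↥W) :
    toF2 W N (S24.FF L N) a = algebraMap L (S24.FF L N) (a : L) := rfl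

variable {F2}

theorem evAt_C (x : F2) (a : ↥W) : evAt W N x (C a) = toF2 W N F2 a :=
  Polynomial.eval₂_C _ _

theorem evAt_X (x : F2) : evAt W N x X = x := Polynomial.eval₂_X _ _

/-- Evaluation at the image of an element of `F`. -/
theorem evAt_algebraMap (y : S24.FF L N) (p : (↥W)[X]) :
    evAt W N (algebraMap (S24.FF L N) F2 y) p =
      algebraMap (S24.FF L N) F2 (evAt W N (F2 := S24.FF L N) y p) := by
  show Polynomial.eval₂ _ _ p = algebraMap (S24.FF L N) F2 (Polynomial.eval₂ _ _ p)
  rw [Polynomial.hom_eval₂]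
  rfl

variable (F2)

theorem jF2_self : jF2 L N (S24.FF L N) = S24.jBC L N := rfl

theorem jF2_eq : jF2 L N F2 = algebraMap (S24.FF L N) F2 (jF2 L N (S24.FF L N)) := rfl

/-- Evaluation at `j` in `F` is helper22's `evF`. -/
theorem evAt_self_eq_evF : evAt W N (F2 := S24.FF L N) (jF2 L N (S24.FF L N)) = Gauss.evF W N :=
  Polynomial.ringHom_ext
    (fun a => (evAt_C W N _ a).trans (Gauss.evF_C W N a).symm)
    ((evAt_X W N _).trans (Gauss.evF_X W N).symm)

theorem evAt_self_injective :
    Function.Injective (evAt W N (F2 := S24.FF L N) (jF2 L N (S24.FF L N))) := by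
  rw [evAt_self_eq_evF]
  exact Gauss.evF_injective W N

theorem evAt_jF2_injective : Function.Injective (evAt W N (jF2 L N F2)) := by
  intro p q hpq
  rw [jF2_eq, evAt_algebraMap, evAt_algebraMap] at hpq
  exact evAt_self_injective W N ((algebraMap (S24.FF L N) F2).injective hpq)

variable {F2}

/-- Integrality is preserved by `F → F2`. -/
theorem isIntegralElem_map {y z : S24.FF L N}
    (hz : (evAt W N (F2 := S24.FF L N) y).IsIntegralElem z) :
    (evAt W N (algebraMap (S24.FF L N) F2 y)).IsIntegralElem (algebraMap (S24.FF L N) F2 z) := by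
  obtain ⟨P, hP, hroot⟩ := hz
  refine ⟨P, hP, ?_⟩
  have hcomp : evAt W N (algebraMap (S24.FF L N) F2 y) =
      (algebraMap (S24.FF L N) F2).comp (evAt W N (F2 := S24.FF L N) y) :=
    RingHom.ext fun p => evAt_algebraMap W N y p
  rw [hcomp, ← Polynomial.hom_eval₂, hroot, map_zero]

/-- Gauss integrality is preserved by `F → F2`. -/
theorem isGaussJ_map {π : ↥W} {d : S24.FF L N} (hd : IsGaussJ W N π d) :
    IsGaussJ W N π (algebraMap (S24.FF L N) F2 d) := by
  obtain ⟨p, hp, hint⟩ := hd
  refine ⟨p, hp, ?_⟩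
  have := isIntegralElem_map W N (F2 := F2) hint
  rwa [map_mul, ← evAt_algebraMap] at this

end Setup

/-! ### Consequences of the DVR-level data -/

section Data

variable {ℓ : ℕ} {L : Type} [Field L] [Algebra ℚ L] {ι : L →+* Qb} {W : ValuationSubring L}
  {N : ℕ} [NeZero N] {s : ℕ} {Z1 Z2 : LaurentSeries ↥W}

/-- `s` is a unit of `W`. -/
theorem exists_natCast_mul_eq_one (h : KData ℓ ι W N s Z1 Z2) : ∃ t : ↥W, (s : ↥W) * t = 1 := by
  haveI := h.dvr
  haveI := h.char
  have hne : (IsLocalRing.residue ↥W) (s : ↥W) ≠ 0 := by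
    rw [map_natCast]
    intro h0
    have hdvd := (CharP.cast_eq_zero_iff (IsLocalRing.ResidueField ↥W) ℓ s).mp h0
    exact h.ne ((Nat.prime_dvd_prime_iff_eq h.prime_l h.prime_s).mp hdvd).symm
  have hu : IsUnit (s : ↥W) := by
    by_contra hnu
    exact hne ((IsLocalRing.residue_eq_zero_iff _).mpr
      ((IsLocalRing.mem_maximalIdeal _).mpr hnu))
  obtain ⟨t, ht⟩ := hu.exists_right_inv
  exact ⟨t, ht⟩

/-- **(G)**: `w - 1` is `π` times a Gauss-integral element of `F`. -/
theorem exists_w_sub_one (h : KData ℓ ι W N s Z1 Z2) (π : ↥W) (hπ : Irreducible π) :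
    ∃ d : S24.FF L N, IsGaussJ W N π d ∧ h.w - 1 = toF2 W N (S24.FF L N) π * d := by
  haveI := h.dvr
  haveI : Fact ℓ.Prime := ⟨h.prime_l⟩
  haveI := h.char
  haveI := h.closed
  obtain ⟨ω, hω, hw⟩ := Gauss.exists_sub_one_eq W N hπ Z1 Z2 h.g1 h.g2 h.red h.red_ne
  obtain ⟨S, hS, hint⟩ := Gauss.isGaussInt_of_mem W N ℓ h.not_dvd ω hω
  refine ⟨ω, ⟨S, ?_, ?_⟩, hw⟩
  · intro hdvd
    exact hS ((Gauss.map_residue_eq_zero_iff_C_dvd W hπ S).mpr hdvd)
  · rw [evAt_self_eq_evF]
    exact hint

end Data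

/-! ### Dictionaries to the currencies of the landed pieces -/

section Conv

variable {L : Type} [Field L] [Algebra ℚ L] (W : ValuationSubring L) (N : ℕ) [NeZero N]
variable (F2 : Type) [Field F2] [Algebra (S24.FF L N) F2]

/-- The `W`-algebra structure on `F2`. -/
@[reducible] noncomputable def algW : Algebra ↥W F2 := (toF2 W N F2).toAlgebra

/-- The `W[X]`-algebra structure on `F2` (`X ↦ j`). -/
@[reducible] noncomputable def algWX : Algebra (↥W)[X] F2 := (evAt W N (jF2 L N F2)).toAlgebra

/-- The `L`-algebra structure on `F2`. -/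
@[reducible] noncomputable def algL : Algebra L F2 :=
  ((algebraMap (S24.FF L N) F2).comp (algebraMap L (S24.FF L N))).toAlgebra

variable {F2}

theorem ev_eq_evAt (x : F2) :
    letI := algW W N F2
    Endgame.ev ↥W x = evAt W N x := by
  letI := algW W N F2
  exact RingHom.ext fun p => Polynomial.aeval_def x p

theorem isInt_iff (x y : F2) :
    letI := algW W N F2
    Endgame.IsInt ↥W x y ↔ (evAt W N x).IsIntegralElem y := by
  letI := algW W N F2
  rw [Endgame.IsInt, ev_eq_evAt]

theorem inC_iff (π : ↥W) (x c : F2) :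
    letI := algW W N F2
    Endgame.InC π x c ↔
      ∃ p : (↥W)[X], ¬ C π ∣ p ∧ (evAt W N x).IsIntegralElem (evAt W N x p * c) := by
  letI := algW W N F2
  refine exists_congr fun p => and_congr Iff.rfl ?_
  rw [isInt_iff]
  have : (Polynomial.aeval x p : F2) = evAt W N x p := Polynomial.aeval_def x p
  rw [this]

theorem inC_iff_isGaussJ (π : ↥W) (c : F2) :
    letI := algW W N F2
    Endgame.InC π (jF2 L N F2) c ↔ IsGaussJ W N π c :=
  inC_iff W N π (jF2 L N F2) c

theorem isGaussInt_iff_isGaussJ (π : ↥W) (c : F2) :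
    letI := algWX W N F2
    IsGaussInt (↥W)[X] (C π) c ↔ IsGaussJ W N π c := by
  letI := algWX W N F2
  exact Iff.rfl

end Conv

/-! ### Finiteness of the first chart -/

section Finite

/-- Generators of the integral closure of a noetherian integrally closed domain of
characteristic zero in a finite extension of its fraction field. -/
theorem exists_gens_of_finite {R E : Type*} [CommRing R] [IsDomain R] [IsNoetherianRing R]
    [IsIntegrallyClosed R] [CharZero R] [Field E] (f : R →+* E) (hf : Function.Injective f)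
    (hfin : letI := FFKit.fracAlgebra (FractionRing R) f hf
      FiniteDimensional (FractionRing R) E) :
    ∃ (n : ℕ) (b : Fin n → E), (∀ i, f.IsIntegralElem (b i)) ∧
      ∀ y, f.IsIntegralElem y → ∃ p : Fin n → R, y = ∑ i, f (p i) * b i := by
  letI := f.toAlgebra
  letI := FFKit.fracAlgebra (FractionRing R) f hf
  haveI := FFKit.fracAlgebra_isScalarTower (FractionRing R) f hf
  haveI : FiniteDimensional (FractionRing R) E := hfin
  haveI : CharZero (FractionRing R) :=
    charZero_of_injective_algebraMap (IsFractionRing.injective R (FractionRing R))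
  haveI : Module.Finite R (integralClosure R E) :=
    IsIntegralClosure.finite R (FractionRing R) E (integralClosure R E)
  obtain ⟨n, g, hg⟩ := Module.Finite.exists_fin (R := R) (M := integralClosure R E)
  refine ⟨n, fun i => (g i : E), fun i => (g i).2, fun y hy => ?_⟩
  have hmem : (⟨y, hy⟩ : integralClosure R E) ∈ Submodule.span R (Set.range g) := by
    rw [hg]; exact Submodule.mem_top
  obtain ⟨c, hc⟩ := (Submodule.mem_span_range_iff_exists_fun R).mp hmem
  refine ⟨c, ?_⟩
  have h2 := congrArg (integralClosure R E).val hc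
  rw [map_sum] at h2
  rw [show y = (integralClosure R E).val ⟨y, hy⟩ from rfl, ← h2]
  refine Finset.sum_congr rfl fun i _ => ?_
  rw [map_smul, Algebra.smul_def]
  rfl

variable {L : Type} [Field L] [Algebra ℚ L] (W : ValuationSubring L) (N : ℕ) [NeZero N]

/-- `F` is finite over the fraction field of `W[X]` (`X ↦ j`). -/
theorem finite_frac_self :
    letI := FFKit.fracAlgebra (FractionRing (↥W)[X])
      (evAt W N (F2 := S24.FF L N) (jF2 L N (S24.FF L N))) (evAt_self_injective W N)
    FiniteDimensional (FractionRing (↥W)[X]) (S24.FF L N) := by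
  have hg := evAt_self_injective W N
  letI := FFKit.fracAlgebra (FractionRing (↥W)[X])
    (evAt W N (F2 := S24.FF L N) (jF2 L N (S24.FF L N))) hg
  have hle : (IntermediateField.adjoin L {S24.jBC L N}).toSubfield ≤
      (algebraMap (FractionRing (↥W)[X]) (S24.FF L N)).fieldRange := by
    rw [IntermediateField.adjoin_toSubfield, Subfield.closure_le]
    rintro x (⟨a, rfl⟩ | hx)
    · obtain ⟨w1, w2, -, rfl⟩ := IsFractionRing.div_surjective (A := ↥W) a
      refine ⟨algebraMap (↥W)[X] (FractionRing (↥W)[X]) (C w1) /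
        algebraMap (↥W)[X] (FractionRing (↥W)[X]) (C w2), ?_⟩
      rw [map_div₀, FFKit.fracAlgebra_algebraMap, FFKit.fracAlgebra_algebraMap, evAt_C, evAt_C,
        map_div₀]
      rfl
    · rw [Set.mem_singleton_iff] at hx
      subst hx
      exact ⟨algebraMap (↥W)[X] (FractionRing (↥W)[X]) X, by
        rw [FFKit.fracAlgebra_algebraMap, evAt_X]; rfl⟩
  haveI : Module.Finite ↥(IntermediateField.adjoin L {S24.jBC L N}).toSubfield (S24.FF L N) :=
    (Gauss.finrank_FF_le L N).1
  exact FFKit.fracAlgebra_finite (FractionRing (↥W)[X]) _ hg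
    (IntermediateField.adjoin L {S24.jBC L N}).toSubfield (fun x hx => by
      obtain ⟨k, hk⟩ := hle hx
      obtain ⟨a, b, hb, hab⟩ := FFKit.fracAlgebra_exists_div (FractionRing (↥W)[X]) _ hg k
      exact ⟨a, b, fun h0 => hb (hg (h0.trans (map_zero _).symm)), by rw [← hk, hab]⟩)

/-- A finite extension `F2` of `F` is finite over the fraction field of `W[X]` (`X ↦ j`). -/
theorem finite_frac (F2 : Type) [Field F2] [Algebra (S24.FF L N) F2]
    [FiniteDimensional (S24.FF L N) F2] :
    letI := FFKit.fracAlgebra (FractionRing (↥W)[X]) (evAt W N (jF2 L N F2))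
      (evAt_jF2_injective W N F2)
    FiniteDimensional (FractionRing (↥W)[X]) F2 := by
  letI a1 := FFKit.fracAlgebra (FractionRing (↥W)[X])
    (evAt W N (F2 := S24.FF L N) (jF2 L N (S24.FF L N))) (evAt_self_injective W N)
  letI a2 := FFKit.fracAlgebra (FractionRing (↥W)[X]) (evAt W N (jF2 L N F2))
    (evAt_jF2_injective W N F2)
  haveI : IsScalarTower (FractionRing (↥W)[X]) (S24.FF L N) F2 :=
    FFKit.fracAlgebra_isScalarTower_of_comp (FractionRing (↥W)[X]) _ (evAt_self_injective W N) _
      (evAt_jF2_injective W N F2) (fun p => evAt_algebraMap W N _ p)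
  haveI : FiniteDimensional (FractionRing (↥W)[X]) (S24.FF L N) := finite_frac_self W N
  exact Module.Finite.trans (S24.FF L N) F2

/-- **Finiteness of the first chart** (generator form): the integral closure of `W[j]` in a
finite extension `F2` of `F` is generated by finitely many elements as a `W[j]`-module. -/
theorem exists_chart_gens [IsDiscreteValuationRing ↥W] (F2 : Type) [Field F2]
    [Algebra (S24.FF L N) F2] [FiniteDimensional (S24.FF L N) F2] :
    ∃ (n : ℕ) (b : Fin n → F2),
      (∀ i, (evAt W N (jF2 L N F2)).IsIntegralElem (b i)) ∧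
      ∀ y, (evAt W N (jF2 L N F2)).IsIntegralElem y →
        ∃ p : Fin n → (↥W)[X], y = ∑ i, evAt W N (jF2 L N F2) (p i) * b i := by
  haveI : CharZero L := charZero_of_injective_algebraMap (algebraMap ℚ L).injective
  haveI : CharZero ↥W := ⟨fun a b hab => Nat.cast_injective (R := L) (by
    have := congrArg W.subtype hab
    rwa [map_natCast, map_natCast] at this)⟩
  exact exists_gens_of_finite (evAt W N (jF2 L N F2)) (evAt_jF2_injective W N F2)
    (finite_frac W N F2)

end Finite

/-! ### The endgame -/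

section Endgame

variable {ℓ : ℕ} {L : Type} [Field L] [Algebra ℚ L] {ι : L →+* Qb} {W : ValuationSubring L}
  {N : ℕ} [NeZero N] {s : ℕ} {Z1 Z2 : LaurentSeries ↥W}

/-- **The endgame.**  If the sheet idempotent of `F2 = F(u)`, `u ^ s = w`, lifts (modulo `π` times
Gauss-integral elements) to both charts of the `j`-line over `W`, then `w` is an `s`-th power
over `ℚ̄`. -/
theorem endgame_of_charts (h : KData ℓ ι W N s Z1 Z2) (π : ↥W) (hπ : Irreducible π)
    (F2 : Type) [Field F2] [Algebra (S24.FF L N) F2] (u : F2)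
    (hu : u ^ s = algebraMap (S24.FF L N) F2 h.w)
    (hdeg : Module.finrank (S24.FF L N) F2 = s)
    (h₁ : ∃ e : F2, (evAt W N (jF2 L N F2)).IsIntegralElem e ∧
      ∃ d : F2, IsGaussJ W N π d ∧ e - Kummer.eps s u = toF2 W N F2 π * d)
    (h₂ : ∃ e : F2,
      (∃ m : ℕ, (evAt W N (jF2 L N F2)⁻¹).IsIntegralElem
        ((1 - 1728 * (jF2 L N F2)⁻¹) ^ m * e)) ∧
      ∃ d : F2, IsGaussJ W N π d ∧ e - Kummer.eps s u = toF2 W N F2 π * d) :
    ∃ b : modularFunctionFieldBar N,
      b ^ s = S24.CoeffBC.bc ι (modularFunctionFieldFull N) h.w := by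
  by_contra hcon
  have hpow : ∀ b : modularFunctionFieldBar N,
      b ^ s ≠ S24.CoeffBC.bc ι (modularFunctionFieldFull N) h.w := fun b hb => hcon ⟨b, hb⟩
  haveI := h.dvr
  have hπp : Prime π := hπ.prime
  obtain ⟨d₀, hd₀, hwd₀⟩ := exists_w_sub_one h π hπ
  obtain ⟨sW, hsW⟩ := exists_natCast_mul_eq_one h
  haveI : FiniteDimensional (S24.FF L N) F2 :=
    Module.finite_of_finrank_pos (by rw [hdeg]; exact h.prime_s.pos)
  obtain ⟨n, b, hb, hspan⟩ := exists_chart_gens W N F2
  obtain ⟨e₁, he₁, c₁, hc₁, h₁'⟩ := h₁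
  obtain ⟨e₂, he₂, c₂, hc₂, h₂'⟩ := h₂
  -- the `W`-structure and the two-chart step
  letI aW : Algebra ↥W F2 := algW W N F2
  have hj : Transcendental ↥W (jF2 L N F2) := by
    rw [transcendental_iff_injective]
    intro p q hpq
    exact evAt_jF2_injective W N F2
      (((Polynomial.aeval_def (jF2 L N F2) p).symm.trans hpq).trans
        (Polynomial.aeval_def (jF2 L N F2) q))
  have hsY : (s : F2)⁻¹ = algebraMap ↥W F2 sW := by
    have h1 : (s : F2) * algebraMap ↥W F2 sW = 1 := by
      rw [← map_natCast (algebraMap ↥W F2), ← map_mul, hsW, map_one]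
    exact (eq_inv_of_mul_eq_one_right h1).symm
  have hwY : ∃ c₀, Endgame.InC π (jF2 L N F2) c₀ ∧ u ^ s - 1 = algebraMap ↥W F2 π * c₀ := by
    refine ⟨algebraMap (S24.FF L N) F2 d₀, (inC_iff_isGaussJ W N π _).mpr (isGaussJ_map W N hd₀), ?_⟩
    rw [hu, ← map_one (algebraMap (S24.FF L N) F2), ← map_sub, hwd₀, map_mul]
    rfl
  have hε : ∃ c, Endgame.InC π (jF2 L N F2) c ∧
      Kummer.eps s u ^ 2 - Kummer.eps s u = algebraMap ↥W F2 π * c := by
    have := Endgame.sheet_idem hπp (x := jF2 L N F2) (u := u) h.prime_s.pos sW hsW hwY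
    rw [← hsY] at this
    exact this
  obtain ⟨c, hcW, -, -, d, hd, hcd⟩ := TwoChartsC.two_chart_hom hπp hj b
    (fun i => (isInt_iff W N _ _).mpr (hb i))
    (fun y hy => by
      obtain ⟨p, hp⟩ := hspan y ((isInt_iff W N _ _).mp hy)
      refine ⟨p, hp.trans (Finset.sum_congr rfl fun i _ => ?_)⟩
      rw [show (Polynomial.aeval (jF2 L N F2) (p i) : F2) = evAt W N (jF2 L N F2) (p i) from
        Polynomial.aeval_def _ _])
    (Kummer.eps s u) e₁ e₂ hε ((isInt_iff W N _ _).mpr he₁)
    (by
      obtain ⟨m, hm⟩ := he₂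
      exact ⟨m, (isInt_iff W N _ _).mpr hm⟩)
    ⟨c₁, (inC_iff_isGaussJ W N π _).mpr hc₁, h₁'⟩
    ⟨c₂, (inC_iff_isGaussJ W N π _).mpr hc₂, h₂'⟩
  have hdJ : IsGaussJ W N π d := (inC_iff_isGaussJ W N π d).mp hd
  have hc : ∃ P : L[X], P ≠ 0 ∧
      Polynomial.eval₂ ((algebraMap (S24.FF L N) F2).comp (algebraMap L (S24.FF L N))) c P = 0 := by
    obtain ⟨P, hP, hroot⟩ := hcW
    refine ⟨P.map W.subtype, (hP.map _).ne_zero, ?_⟩
    rw [Polynomial.eval₂_map]
    exact hroot
  -- the `W[X]`- and `L`-structures and the descent step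
  letI aDF : Algebra (↥W)[X] (S24.FF L N) := algWX W N (S24.FF L N)
  letI aDY : Algebra (↥W)[X] F2 := algWX W N F2
  haveI tD : IsScalarTower (↥W)[X] (S24.FF L N) F2 :=
    IsScalarTower.of_algebraMap_eq (fun p => evAt_algebraMap W N _ p)
  letI aLY : Algebra L F2 := algL N F2
  haveI tL : IsScalarTower L (S24.FF L N) F2 := IsScalarTower.of_algebraMap_eq (fun _ => rfl)
  have hCπ : Prime (C π : (↥W)[X]) := Polynomial.prime_C_iff.mpr hπp
  have hπF : ¬ IsGaussInt (↥W)[X] (C π) ((algebraMap (↥W)[X] (S24.FF L N) (C π))⁻¹) :=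
    KummerDescentGauss.not_isGaussInt_inv_algebraMap (evAt_self_injective W N) hCπ
  have hsinv : ((s : ℕ) : (↥W)[X]) * C sW = 1 := by
    rw [← map_natCast (C : ↥W →+* (↥W)[X]), ← map_mul, hsW, map_one]
  refine KummerDescentGauss.no_constant_descent_gauss (L := L) (Ω := Qb) (F := S24.FF L N)
    (Fb := modularFunctionFieldBar N) (Y := F2) (D := (↥W)[X])
    (S24.CoeffBC.bc ι (modularFunctionFieldFull N)) (algebraMap Qb (modularFunctionFieldBar N)) ι
    (fun a => S24.CoeffBC.bc_algebraMap ι _ a) (C π) hCπ hπF s h.prime_s (C sW) hsinv u h.w hu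
    hdeg hpow ⟨d₀, (isGaussInt_iff_isGaussJ W N π d₀).mpr hd₀, ?_⟩ c (-d) ?_ ?_ ?_
  · rw [hwd₀]
    show _ = evAt W N (F2 := S24.FF L N) (jF2 L N (S24.FF L N)) (C π) * d₀
    rw [evAt_C]
  · obtain ⟨P, hP0, hP⟩ := hc
    exact ⟨P, hP0, hP⟩
  · exact KummerGauss.gaussInt_neg ((isGaussInt_iff_isGaussJ W N π d).mpr hdJ)
  · show _ = evAt W N (jF2 L N F2) (C π) * (-d)
    rw [evAt_C]
    have hcd' : c - Kummer.eps s u = toF2 W N F2 π * d := hcd
    linear_combination -hcd'

end Endgame

/-! ### The DVR-level core from the chart contracts -/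

/-- **The DVR-level core of S18 from the two chart contracts.** -/
theorem dvrCore_of_contracts (N : ℕ) [NeZero N] {ℓ : ℕ} (hℓ : ℓ.Prime) (hℓN : ¬ ℓ ∣ N)
    (A : ValuationSubring Qb)
    (hfin : FiniteChartLift N ℓ) (hcusp : CuspChartLift N ℓ) : Top.DvrCore N ℓ A := by
  intro s hs hsl Y1 Y2 h1 h2 _ _ _ hnp
  refine ⟨∅, ?_⟩
  intro L _ _ ι _ hroots hdvr hclosed hchar Z1 Z2 g1 g2 _ _ b1 b2 hr hn n1 n2 H1 H1' H2
  have hK : KData ℓ ι (A.comap ι) N s Z1 Z2 :=
    ⟨hℓ, hℓN, hdvr, hclosed, hchar, hroots, hs, hsl, g1, g2, hr, hn, n1, n2, H1, H1', H2⟩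
  obtain ⟨π, hπ⟩ := IsDiscreteValuationRing.exists_irreducible ↥(A.comap ι)
  obtain ⟨F2, _, _, u, hu, hdeg⟩ := exists_kummer_field s hs hK.w H2
  obtain ⟨b, hb⟩ := endgame_of_charts hK π hπ F2 u hu hdeg
    (hfin L ι (A.comap ι) s Z1 Z2 hK π hπ F2 u hu hdeg)
    (hcusp L ι (A.comap ι) s Z1 Z2 hK π hπ F2 u hu hdeg)
  apply hnp
  refine ⟨b, ?_⟩
  rw [hb]
  show S24.CoeffBC.bc ι (modularFunctionFieldFull N) ((⟨_, g1⟩ : S24.FF L N) / ⟨_, g2⟩) = _
  rw [map_div₀, b1, b2]

/-- **S18 from the two chart contracts** (the frozen statement plus the two contracts). -/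
theorem result_of_contracts (N : ℕ) [NeZero N] {ℓ : ℕ} [Fact ℓ.Prime] (hℓN : ¬ ℓ ∣ N)
    (A : ValuationSubring (AlgebraicClosure ℚ)) (hA : A.LiesOverPrime ℓ)
    (hfin : FiniteChartLift N ℓ) (hcusp : CuspChartLift N ℓ)
    (h : ModularCurve.ReductionInputsModL A N) (m : ℕ) (hm : ¬ ℓ ∣ m) (z : ModularCurve.JZero N)
    (hmz : m • z = 0) (hz : ModularCurve.reductionModL A N z = 0) : z = 0 :=
  Top.result_of_dvrCore N A hA (dvrCore_of_contracts N Fact.out hℓN A hfin hcusp) h m hm z hmz hz

end GeoEnd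

end Fermat.Agent.S18
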