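/-
S18: the geometric (Kummer) core as a named library theorem, from the two chart contracts.

`KummerCore A (residue A) N ℓ` is what `WitnessCore.result_of_core` (S18) and the S37
torsion-freeness step consume.
-/
import Mathlib
import Fermat.Agent.S18.GeoEnd

set_option autoImplicit false

namespace Fermat.Agent.S18

namespace GeoCore

/-- **The Kummer core of S18 from the two chart contracts.** -/
theorem kummerCore_of_contracts (N : ℕ) [NeZero N] {ℓ : ℕ} (hℓ : ℓ.Prime) (hℓN : ¬ ℓ ∣ N)
    (A : ValuationSubring (AlgebraicClosure ℚ)) (hA : A.LiesOverPrime ℓ)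
    (hfin : Contracts.FiniteChartLift N ℓ) (hcusp : Contracts.CuspChartLift N ℓ) :
    WitnessCore.KummerCore A (IsLocalRing.residue A) N ℓ :=
  Top.kummerCore_of_dvrCore N hℓ A hA (GeoEnd.dvrCore_of_contracts N hℓ hℓN A hfin hcusp)

end GeoCore

end Fermat.Agent.S18
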