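import Mathlib
import Fermat.Agent.S18.AwayPoly

/-!
# S18: chart tower facts (function field of a chart `W[X][1/f]`)

Chart-generic field facts for a chart ring `R0 = W[X][1/f]` with fraction field `M`:

* `adjoin_chartX_eq_top`: `M` is generated by the coordinate `x` over any subfield `K` containing
  the constants (`K = Frac L[X]` with `X ↦ j` in the applications).
* `finiteDimensional_of_adjoin_eq_top`: `M = K(x)` with `x` algebraic is finite over `K`.
* `adjoin_range_eq_top`: `Y' = F2(x0)` and `x0` in the image of `M` give `Y' = F2 · M`.
* `isIntegralClosure_of_isIntegral`: an integrally closed domain integral over `A` is the integral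
  closure of `A` in its fraction field.
-/

set_option autoImplicit false
set_option linter.style.haveILetI false
set_option linter.unusedSectionVars false

namespace Fermat.Agent.S18.ChartTower

open Polynomial

section Adjoin

variable {W : Type*} [CommRing W] [IsDomain W] (f : W[X])
  {K M : Type*} [Field K] [Field M] [Algebra K M]
  [Algebra (Localization.Away f) M] [IsFractionRing (Localization.Away f) M]

/-- The image in `M = Frac R0` of a polynomial lies in `K(x)` as soon as the constants do. -/
theorem algebraMap_poly_mem_adjoin
    (hW : ∀ a : W, algebraMap (Localization.Away f) M (algebraMap W[X] (Localization.Away f) (C a))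
      ∈ (algebraMap K M).range) (P : W[X]) :
    algebraMap (Localization.Away f) M (algebraMap W[X] (Localization.Away f) P) ∈
      IntermediateField.adjoin K
        {algebraMap (Localization.Away f) M (algebraMap W[X] (Localization.Away f) X)} := by
  induction P using Polynomial.induction_on with
  | C a =>
    obtain ⟨k, hk⟩ := hW a
    rw [← hk]
    exact IntermediateField.algebraMap_mem _ k
  | add p q hp hq =>
    rw [map_add, map_add]
    exact add_mem hp hq
  | monomial n a ih =>
    rw [pow_succ, ← mul_assoc, map_mul, map_mul]
    exact mul_mem ih (IntermediateField.mem_adjoin_simple_self K _)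

/-- **`M = K(x)`**: the fraction field of the chart `W[X][1/f]` is generated by the coordinate
over any subfield containing the constants. -/
theorem adjoin_chartX_eq_top
    (hW : ∀ a : W, algebraMap (Localization.Away f) M (algebraMap W[X] (Localization.Away f) (C a))
      ∈ (algebraMap K M).range) :
    IntermediateField.adjoin K
      {algebraMap (Localization.Away f) M (algebraMap W[X] (Localization.Away f) X)} = ⊤ := by
  rw [eq_top_iff]
  intro m _
  have hR : ∀ r : Localization.Away f, algebraMap (Localization.Away f) M r ∈
      IntermediateField.adjoin K
        {algebraMap (Localization.Away f) M (algebraMap W[X] (Localization.Away f) X)} := by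
    intro r
    obtain ⟨n, P, hP⟩ := IsLocalization.Away.surj f r
    have hu : IsUnit (algebraMap W[X] (Localization.Away f) f ^ n) :=
      (IsLocalization.Away.algebraMap_isUnit f).pow n
    have hne : algebraMap (Localization.Away f) M (algebraMap W[X] (Localization.Away f) f ^ n)
        ≠ 0 := (hu.map (algebraMap (Localization.Away f) M)).ne_zero
    have h1 : algebraMap (Localization.Away f) M r =
        algebraMap (Localization.Away f) M (algebraMap W[X] (Localization.Away f) P) /
          algebraMap (Localization.Away f) M (algebraMap W[X] (Localization.Away f) f ^ n) := by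
      rw [eq_div_iff hne, ← map_mul, hP]
    rw [h1, ← map_pow]
    exact div_mem (algebraMap_poly_mem_adjoin f hW P) (algebraMap_poly_mem_adjoin f hW (f ^ n))
  obtain ⟨r, s, -, rfl⟩ := IsFractionRing.div_surjective (A := Localization.Away f) m
  exact div_mem (hR r) (hR s)

end Adjoin

section Fields

/-- A field generated by one algebraic element is finite-dimensional. -/
theorem finiteDimensional_of_adjoin_eq_top {K M : Type*} [Field K] [Field M] [Algebra K M]
    (x : M) (hx : IsIntegral K x) (h : IntermediateField.adjoin K {x} = ⊤) :
    FiniteDimensional K M := by
  haveI : FiniteDimensional K (IntermediateField.adjoin K {x}) :=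
    IntermediateField.adjoin.finiteDimensional hx
  haveI : FiniteDimensional K (⊤ : IntermediateField K M) := h ▸ inferInstance
  exact (IntermediateField.topEquiv (F := K) (E := M)).toLinearEquiv.finiteDimensional

/-- `Y' = F2(x0)` with `x0` in the image of `M` gives `Y' = F2 · M`. -/
theorem adjoin_range_eq_top {F2 M Y' : Type*} [Field F2] [Field M] [Field Y'] [Algebra F2 Y']
    [Algebra M Y'] (x : M) (h : IntermediateField.adjoin F2 {algebraMap M Y' x} = ⊤) :
    IntermediateField.adjoin F2 (Set.range (algebraMap M Y')) = ⊤ := by
  rw [eq_top_iff, ← h]
  exact IntermediateField.adjoin.mono F2 _ _ (Set.singleton_subset_iff.mpr ⟨x, rfl⟩)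

/-- An integrally closed domain `BM`, integral over `A`, is the integral closure of `A` in its
fraction field `M`. -/
theorem isIntegralClosure_of_isIntegral {A BM M : Type*} [CommRing A] [CommRing BM]
    [IsIntegrallyClosed BM] [Field M] [Algebra A BM] [Algebra BM M] [Algebra A M]
    [IsScalarTower A BM M] [IsFractionRing BM M] [Algebra.IsIntegral A BM] :
    IsIntegralClosure BM A M :=
  IsIntegralClosure.of_isIntegrallyClosed BM A M

end Fields

end Fermat.Agent.S18.ChartTower
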