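import Mathlib
import Fermat.Prelude.Def_AlgebraicCurve_DivisorClassGroup
import Fermat.Agent.S18.TSD
import Fermat.Agent.S18.Descent

/-!
# S18: local Kummer data at the primes of a chart

The Kummer layer (`KummerLayer.traceNondeg_kummer`, `Kummer.trace_nondegenerate`) asks, at each
prime `𝔮` of the integral closure `B` of a chart in a field `E ⊇ F`, for a presentation
`w * n₂ = n₁ * g ^ s` with `n₁, n₂ ∈ B ∖ 𝔮`.  This file produces it

* at the **horizontal** primes (height one, constants are units), from the divisibility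
  `∀ v : Place K F, (s : ℤ) ∣ v.ord w` of the divisor of `w` over the constant field `K`
  (`Descent.exists_descent_full`, (H1)): `exists_kummer_datum_of_height_one`;
* at the **vertical** primes, from Gauss-integrality of `w` and `w⁻¹`:
  `exists_kummer_datum_vertical`;
* at the zero ideal: `exists_kummer_datum_bot`.

Tools: the restriction of a principal valuation ring to a subfield is principal
(`isPrincipalIdealRing_comap`); an integrally closed noetherian domain localised at a prime of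
height at most one is a principal valuation ring (`isPrincipalIdealRing_atPrime`); primes over a
prime of height at most one in an integral extension have height at most one
(`height_le_one_of_isIntegral`).
-/

set_option autoImplicit false

namespace Fermat.Agent.S18.KummerBridge

open AlgebraicCurve

/-! ## Restriction of a principal valuation ring -/

section Comap

variable {F E : Type*} [Field F] [Field E]

/-- the restriction of a principal valuation ring of `E` to a subfield `F` is principal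
(a discrete valuation ring of `F`, or `F` itself) -/
theorem isPrincipalIdealRing_comap (f : F →+* E) (V : ValuationSubring E)
    [IsPrincipalIdealRing V] : IsPrincipalIdealRing (V.comap f) := by
  have hwf : WfDvdMonoid V := inferInstance
  have hwfO : WfDvdMonoid (V.comap f) := by
    refine ⟨Subrelation.wf (r := InvImage (DvdNotUnit : V → V → Prop) (Descent.inclComap f V))
      ?_ (InvImage.wf _ hwf.wf)⟩
    rintro a b ⟨ha, x, hx, rfl⟩
    refine ⟨fun h0 => ha (Descent.inclComap_injective f V (by rw [h0, map_zero])),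
      Descent.inclComap f V x, fun hu => hx (isUnit_of_map_unit (Descent.inclComap f V) x hu),
      map_mul _ _ _⟩
  exact ((IsBezout.TFAE (R := V.comap f)).out 3 1).mp hwfO

end Comap

/-! ## Units of a principal valuation ring with fraction field `E ⊇ F` -/

section Unit

variable {K F E : Type*} [Field K] [Field F] [Field E] [Algebra K F] [Algebra F E]

/-- **Horizontal Kummer datum, valuation-ring form.**  `Rp` a principal valuation ring with
fraction field `E ⊇ F` containing the constants `K` of `F`; if all orders of `w ∈ F` at the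
places of `F` over `K` are divisible by `s`, then `w g ^ s` is a unit of `Rp` for some
`g ∈ F`. -/
theorem exists_pow_mul_unit (Rp : Type*) [CommRing Rp] [IsDomain Rp] [ValuationRing Rp]
    [IsPrincipalIdealRing Rp] [Algebra Rp E] [IsFractionRing Rp E]
    (hK : ∀ a : K, ∃ r : Rp, algebraMap Rp E r = algebraMap F E (algebraMap K F a))
    {w : F} (hw : w ≠ 0) {s : ℕ} (hdiv : ∀ v : Place K F, (s : ℤ) ∣ v.ord w) :
    ∃ (g : F) (u : Rpˣ), g ≠ 0 ∧ algebraMap F E (w * g ^ s) = algebraMap Rp E (u : Rp) := by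
  let O : ValuationSubring E := (ValuationRing.valuation Rp E).valuationSubring
  have hmem : ∀ x : E, x ∈ O ↔ ∃ r : Rp, algebraMap Rp E r = x := fun x =>
    ValuationRing.mem_integer_iff Rp E x
  let φ : Rp →+* O :=
    (algebraMap Rp E).codRestrict O.toSubring (fun r => (hmem _).mpr ⟨r, rfl⟩)
  have hφs : Function.Surjective φ := by
    intro x
    obtain ⟨r, hr⟩ := (hmem _).mp x.2
    exact ⟨r, Subtype.ext hr⟩
  have hPIR : IsPrincipalIdealRing O := IsPrincipalIdealRing.of_surjective φ hφs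
  have hPIR' : IsPrincipalIdealRing (O.comap (algebraMap F E)) :=
    isPrincipalIdealRing_comap (algebraMap F E) O
  obtain ⟨g, hg, h1, h2⟩ := Descent.exists_pow_mul_mem_of_isPrincipalIdealRing hw hdiv
    (O.comap (algebraMap F E)) (fun a => (hmem _).mpr (hK a)) hPIR'
  obtain ⟨r, hr⟩ := (hmem _).mp h1
  obtain ⟨r', hr'⟩ := (hmem _).mp h2
  have hrr' : r * r' = 1 := by
    apply IsFractionRing.injective Rp E
    rw [map_mul, hr, hr', map_one, ← map_mul]
    rw [mul_inv_cancel₀ (mul_ne_zero hw (pow_ne_zero _ hg)), map_one]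
  exact ⟨g, Units.mkOfMulEqOne r r' hrr', hg, hr.symm⟩

/-- the same, as a presentation `w * n₂ = n₁ * g ^ s` over a ring `B` of which `Rp` is the
localisation at `𝔮` (only the description of the units of `Rp` is used) -/
theorem exists_kummer_datum {B : Type*} [CommRing B] [Algebra B E] (𝔮 : Ideal B)
    (Rp : Type*) [CommRing Rp] [IsDomain Rp] [ValuationRing Rp]
    [IsPrincipalIdealRing Rp] [Algebra Rp E] [IsFractionRing Rp E]
    (hloc : ∀ u : Rpˣ, ∃ n d : B, n ∉ 𝔮 ∧ d ∉ 𝔮 ∧
      algebraMap Rp E (u : Rp) * algebraMap B E d = algebraMap B E n)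
    (hK : ∀ a : K, ∃ r : Rp, algebraMap Rp E r = algebraMap F E (algebraMap K F a))
    {w : F} (hw : w ≠ 0) {s : ℕ} (hdiv : ∀ v : Place K F, (s : ℤ) ∣ v.ord w) :
    ∃ n₁ n₂ : B, n₁ ∉ 𝔮 ∧ n₂ ∉ 𝔮 ∧ ∃ g : E, g ≠ 0 ∧
      algebraMap F E w * algebraMap B E n₂ = algebraMap B E n₁ * g ^ s := by
  obtain ⟨g, u, hg, hu⟩ := exists_pow_mul_unit Rp hK hw hdiv
  obtain ⟨n, d, hn, hd, hnd⟩ := hloc u
  have hg' : algebraMap F E g ≠ 0 := by simpa using hg
  refine ⟨n, d, hn, hd, (algebraMap F E g)⁻¹, inv_ne_zero hg', ?_⟩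
  rw [← hnd, ← hu, map_mul, map_pow, inv_pow]
  field_simp

end Unit

/-! ## Localisation at a prime of height at most one -/

section AtPrime

variable {B : Type*} [CommRing B] [IsDomain B]

/-- an integrally closed noetherian domain localised at a prime of height at most one is a
principal ideal ring -/
theorem isPrincipalIdealRing_atPrime [IsNoetherianRing B] [IsIntegrallyClosed B]
    (𝔮 : Ideal B) [𝔮.IsPrime]
    (hht : ∀ 𝔮' : Ideal B, 𝔮'.IsPrime → 𝔮' ≤ 𝔮 → 𝔮' = ⊥ ∨ 𝔮' = 𝔮) :
    IsPrincipalIdealRing (Localization.AtPrime 𝔮) := by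
  have hint : IsIntegrallyClosed (Localization.AtPrime 𝔮) :=
    isIntegrallyClosed_of_isLocalization (Localization.AtPrime 𝔮) 𝔮.primeCompl
      𝔮.primeCompl_le_nonZeroDivisors
  have htfae := tfae_of_isNoetherianRing_of_isLocalRing_of_isDomain (Localization.AtPrime 𝔮)
  have h41 : (IsIntegrallyClosed (Localization.AtPrime 𝔮) ∧
      ∀ P : Ideal (Localization.AtPrime 𝔮), P ≠ ⊥ → P.IsPrime →
        P = IsLocalRing.maximalIdeal (Localization.AtPrime 𝔮)) →
      IsPrincipalIdealRing (Localization.AtPrime 𝔮) := (htfae.out 3 0).mp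
  apply h41
  refine ⟨hint, fun P hP0 hP => ?_⟩
  have hdisj : Disjoint (𝔮.primeCompl : Set B) (P.comap (algebraMap B (Localization.AtPrime 𝔮))) :=
    ((IsLocalization.isPrime_iff_isPrime_disjoint 𝔮.primeCompl (Localization.AtPrime 𝔮) P).mp
      hP).2
  have hle : P.comap (algebraMap B (Localization.AtPrime 𝔮)) ≤ 𝔮 := by
    intro x hx
    by_contra hxq
    exact Set.disjoint_left.mp hdisj hxq hx
  have hmc : (P.comap (algebraMap B (Localization.AtPrime 𝔮))).map
      (algebraMap B (Localization.AtPrime 𝔮)) = P :=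
    IsLocalization.map_under 𝔮.primeCompl (Localization.AtPrime 𝔮) P
  rcases hht _ (Ideal.comap_isPrime _ P) hle with h0 | h1
  · exfalso
    apply hP0
    rw [← hmc, h0, Ideal.map_bot]
  · rw [← hmc, h1]
    exact Localization.AtPrime.map_eq_maximalIdeal

/-- primes over a prime of height at most one in an integral extension of domains have height
at most one -/
theorem height_le_one_of_isIntegral {R : Type*} [CommRing R] [Algebra R B]
    [Algebra.IsIntegral R B] [FaithfulSMul R B] (𝔭 : Ideal R)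
    (hht : ∀ 𝔭' : Ideal R, 𝔭'.IsPrime → 𝔭' ≤ 𝔭 → 𝔭' = ⊥ ∨ 𝔭' = 𝔭)
    (𝔮 : Ideal B) (h𝔮 : 𝔮.comap (algebraMap R B) = 𝔭) :
    ∀ 𝔮' : Ideal B, 𝔮'.IsPrime → 𝔮' ≤ 𝔮 → 𝔮' = ⊥ ∨ 𝔮' = 𝔮 := by
  intro 𝔮' h𝔮' hle
  have hinj : Function.Injective (algebraMap R B) := FaithfulSMul.algebraMap_injective R B
  have : Nontrivial R := (algebraMap R B).domain_nontrivial
  rcases hht (𝔮'.comap (algebraMap R B)) (Ideal.comap_isPrime _ 𝔮')
    (h𝔮 ▸ Ideal.comap_mono hle) with h0 | h1
  · left
    exact Ideal.eq_bot_of_comap_eq_bot h0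
  · right
    by_contra hne
    have hlt : 𝔮' < 𝔮 := lt_of_le_of_ne hle hne
    obtain ⟨x, hx, hx'⟩ := SetLike.exists_of_lt hlt
    have h2 := Ideal.comap_lt_comap_of_integral_mem_sdiff hle ⟨hx, hx'⟩
      (Algebra.IsIntegral.isIntegral (R := R) x)
    rw [h1, h𝔮] at h2
    exact lt_irrefl _ h2

end AtPrime

/-! ## The Kummer datum at the primes of a chart -/

section Datum

variable {K F E B : Type*} [Field K] [Field F] [Field E] [Algebra K F] [Algebra F E]
  [CommRing B] [Algebra B E]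

/-- **Horizontal primes.**  `B` an integrally closed noetherian domain with fraction field
`E ⊇ F`, `𝔮` a prime of height at most one such that the constants `K` of `F` are fractions
with denominators outside `𝔮`.  If all orders of `w ∈ F` at the places of `F` over `K` are
divisible by `s`, then `w = (n₁ / n₂) g ^ s` with `n₁, n₂ ∈ B ∖ 𝔮`. -/
theorem exists_kummer_datum_of_height_one [IsDomain B] [IsNoetherianRing B]
    [IsIntegrallyClosed B] [IsFractionRing B E] (𝔮 : Ideal B) [𝔮.IsPrime]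
    (hht : ∀ 𝔮' : Ideal B, 𝔮'.IsPrime → 𝔮' ≤ 𝔮 → 𝔮' = ⊥ ∨ 𝔮' = 𝔮)
    (hK : ∀ a : K, ∃ n d : B, d ∉ 𝔮 ∧
      algebraMap F E (algebraMap K F a) * algebraMap B E d = algebraMap B E n)
    {w : F} (hw : w ≠ 0) {s : ℕ} (hdiv : ∀ v : Place K F, (s : ℤ) ∣ v.ord w) :
    ∃ n₁ n₂ : B, n₁ ∉ 𝔮 ∧ n₂ ∉ 𝔮 ∧ ∃ g : E, g ≠ 0 ∧
      algebraMap F E w * algebraMap B E n₂ = algebraMap B E n₁ * g ^ s := by
  classical
  have hPIR : IsPrincipalIdealRing (Localization.AtPrime 𝔮) := isPrincipalIdealRing_atPrime 𝔮 hht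
  have hVR : ValuationRing (Localization.AtPrime 𝔮) :=
    ((tfae_of_isNoetherianRing_of_isLocalRing_of_isDomain (Localization.AtPrime 𝔮)).out 0 1).mp
      hPIR
  have hne : ∀ y : B, y ∉ 𝔮 → algebraMap B E y ≠ 0 := by
    intro y hy h0
    rw [IsFractionRing.to_map_eq_zero_iff] at h0
    exact hy (h0 ▸ 𝔮.zero_mem)
  have hunits : ∀ y : 𝔮.primeCompl, IsUnit (algebraMap B E (y : B)) := fun y =>
    IsUnit.mk0 _ (hne y y.2)
  let _i1 : Algebra (Localization.AtPrime 𝔮) E :=
    (IsLocalization.lift (M := 𝔮.primeCompl) (g := algebraMap B E) hunits).toAlgebra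
  have _i2 : IsScalarTower B (Localization.AtPrime 𝔮) E :=
    IsScalarTower.of_algebraMap_eq fun x => (IsLocalization.lift_eq hunits x).symm
  have _i3 : IsFractionRing (Localization.AtPrime 𝔮) E :=
    IsFractionRing.isFractionRing_of_isDomain_of_isLocalization 𝔮.primeCompl
      (Localization.AtPrime 𝔮) E
  refine exists_kummer_datum 𝔮 (Localization.AtPrime 𝔮) ?_ ?_ hw hdiv
  · intro u
    obtain ⟨⟨n, d⟩, hnd⟩ := IsLocalization.surj 𝔮.primeCompl
      ((u : (Localization.AtPrime 𝔮)ˣ) : Localization.AtPrime 𝔮)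
    have hnd' : ((u : (Localization.AtPrime 𝔮)ˣ) : Localization.AtPrime 𝔮) *
        algebraMap B (Localization.AtPrime 𝔮) (d : B) =
        algebraMap B (Localization.AtPrime 𝔮) n := hnd
    refine ⟨n, (d : B), ?_, d.2, ?_⟩
    · have hunit : IsUnit (algebraMap B (Localization.AtPrime 𝔮) n) := by
        rw [← hnd']
        exact u.isUnit.mul (IsLocalization.map_units (Localization.AtPrime 𝔮) d)
      exact (IsLocalization.AtPrime.isUnit_to_map_iff (Localization.AtPrime 𝔮) 𝔮 n).mp hunit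
    · have h1 := congrArg (algebraMap (Localization.AtPrime 𝔮) E) hnd'
      rw [map_mul, ← IsScalarTower.algebraMap_apply, ← IsScalarTower.algebraMap_apply] at h1
      exact h1
  · intro a
    obtain ⟨n, d, hd, hnd⟩ := hK a
    refine ⟨IsLocalization.mk' (Localization.AtPrime 𝔮) n (⟨d, hd⟩ : 𝔮.primeCompl), ?_⟩
    have hd0 : algebraMap B E d ≠ 0 := hne d hd
    apply mul_right_cancel₀ hd0
    rw [hnd, IsScalarTower.algebraMap_apply B (Localization.AtPrime 𝔮) E d, ← map_mul,
      IsScalarTower.algebraMap_apply B (Localization.AtPrime 𝔮) E n]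
    congr 1
    exact IsLocalization.mk'_spec (Localization.AtPrime 𝔮) n (⟨d, hd⟩ : 𝔮.primeCompl)

/-- **Vertical primes.**  `D` the chart ring of the `j`-line, `π` prime in `D`, `B ⊆ E`
containing every element of `E` integral over `D`, `𝔮` a prime of `B` containing no element
of `D ∖ πD`.  If `w` and `w⁻¹` are Gauss-integral over `D`, then `w = n₁ / n₂` with
`n₁, n₂ ∈ B ∖ 𝔮` (so `g = 1`). -/
theorem exists_kummer_datum_vertical {D : Type*} [CommRing D] [Algebra D B] [Algebra D E]
    [IsScalarTower D B E] (hinj : Function.Injective (algebraMap B E))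
    (hB : ∀ x : E, IsIntegral D x → ∃ b : B, algebraMap B E b = x)
    (𝔮 : Ideal B) [𝔮.IsPrime] (π : D) (hπ : Prime π)
    (h𝔮 : ∀ p : D, ¬ π ∣ p → algebraMap D B p ∉ 𝔮)
    (w : E) (hw0 : w ≠ 0) (hw : IsGaussInt D π w) (hw' : IsGaussInt D π w⁻¹) (s : ℕ) :
    ∃ n₁ n₂ : B, n₁ ∉ 𝔮 ∧ n₂ ∉ 𝔮 ∧ ∃ g : E, g ≠ 0 ∧
      w * algebraMap B E n₂ = algebraMap B E n₁ * g ^ s := by
  obtain ⟨p₁, hp₁, hi₁⟩ := hw
  obtain ⟨p₂, hp₂, hi₂⟩ := hw'
  obtain ⟨b₁, hb₁⟩ := hB _ hi₁
  obtain ⟨b₂, hb₂⟩ := hB _ hi₂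
  have hprod : b₁ * b₂ = algebraMap D B (p₁ * p₂) := by
    apply hinj
    rw [map_mul, hb₁, hb₂, ← IsScalarTower.algebraMap_apply, Algebra.smul_def, Algebra.smul_def,
      map_mul]
    field_simp
  have hb₁𝔮 : b₁ ∉ 𝔮 := by
    intro hmem
    have h1 : algebraMap D B (p₁ * p₂) ∈ 𝔮 := hprod ▸ 𝔮.mul_mem_right b₂ hmem
    exact h𝔮 (p₁ * p₂) (fun hdvd => (hπ.dvd_or_dvd hdvd).elim hp₁ hp₂) h1
  refine ⟨b₁, algebraMap D B p₁, hb₁𝔮, h𝔮 p₁ hp₁, 1, one_ne_zero, ?_⟩
  rw [one_pow, mul_one, hb₁, ← IsScalarTower.algebraMap_apply, Algebra.smul_def, mul_comm]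

/-- **The zero ideal.** -/
theorem exists_kummer_datum_bot [IsDomain B] [IsFractionRing B E] (w : E) (hw0 : w ≠ 0)
    (s : ℕ) :
    ∃ n₁ n₂ : B, n₁ ∉ (⊥ : Ideal B) ∧ n₂ ∉ (⊥ : Ideal B) ∧ ∃ g : E, g ≠ 0 ∧
      w * algebraMap B E n₂ = algebraMap B E n₁ * g ^ s := by
  obtain ⟨n, d, hd, hnd⟩ := IsFractionRing.div_surjective (A := B) w
  have hd0 : algebraMap B E d ≠ 0 := by
    rw [Ne, IsFractionRing.to_map_eq_zero_iff]
    exact nonZeroDivisors.ne_zero hd
  have hn0 : n ≠ 0 := by
    rintro rfl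
    rw [map_zero, zero_div] at hnd
    exact hw0 hnd.symm
  refine ⟨n, d, fun h => hn0 (Ideal.mem_bot.mp h),
    fun h => nonZeroDivisors.ne_zero hd (Ideal.mem_bot.mp h), 1, one_ne_zero, ?_⟩
  rw [one_pow, mul_one, ← hnd, div_mul_cancel₀ _ hd0]

end Datum

end Fermat.Agent.S18.KummerBridge
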