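import Mathlib
import Fermat.Agent.S18.Kummer
import Fermat.Agent.S18.TowerUnram

/-!
# S18: the Kummer layer in the trace-form currency `hU` of purity

Tower `K ⊆ Y₁ ⊆ Y₂ = Y₁(u)`, `u ^ s = w ∈ Y₁`, `s` prime, `μ_s ⊆ Y₁`; `R` an integrally closed
noetherian domain with fraction field `K`, `B₁`, `B₂` the integral closures of `R` in `Y₁`, `Y₂`.

* `finrank_eq_one_or_irreducible` : either `Y₂ = Y₁`, or `X ^ s - w` is irreducible over `Y₁` and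
  `[Y₂ : Y₁] = s`  (no ramification argument: `w` may well become an `s`-th power in `Y₁`).
* `traceNondeg_of_finrank_eq_one` : the trivial layer is trace-nondegenerate at every prime.
* `traceNondeg_layer` : the layer `B₂ / B₁` is trace-nondegenerate at every prime `𝔮` of `B₁`
  with `s ∉ 𝔮` at which `w = (n₁ / n₂) g ^ s`, `n₁, n₂ ∉ 𝔮`.
* `traceNondeg_kummer` : **`hU` for the compositum from `hU` for the bottom layer**: if `B₁ / R`
  is trace-nondegenerate at `𝔭` and `w` is locally a unit times an `s`-th power at every prime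
  of `B₁` over `𝔭`, then `B₂ / R` is trace-nondegenerate at `𝔭`.
-/

set_option autoImplicit false

namespace Fermat.Agent.S18.KummerLayer

open Polynomial TowerUnram

section Field

variable {Y₁ Y₂ : Type*} [Field Y₁] [Field Y₂] [Algebra Y₁ Y₂]

/-- **Dichotomy for the Kummer layer.**  If `Y₂ = Y₁(u)` with `u ^ s = w ∈ Y₁`, `s` prime and
`Y₁` contains a primitive `s`-th root of unity, then either `Y₂ = Y₁`, or `X ^ s - w` is
irreducible over `Y₁` and `[Y₂ : Y₁] = s`. -/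
theorem finrank_eq_one_or_irreducible (s : ℕ) (hs : s.Prime) (ζ : Y₁) (hζ : IsPrimitiveRoot ζ s)
    (u : Y₂) (w : Y₁) (huw : u ^ s = algebraMap Y₁ Y₂ w)
    (hgen : IntermediateField.adjoin Y₁ {u} = ⊤) :
    Module.finrank Y₁ Y₂ = 1 ∨
      (Irreducible (X ^ s - C w : Y₁[X]) ∧ Module.finrank Y₁ Y₂ = s) := by
  have : NeZero s := ⟨hs.ne_zero⟩
  by_cases h : ∃ b : Y₁, b ^ s = w
  · left
    obtain ⟨b, hb⟩ := h
    have hu : u ∈ (⊥ : IntermediateField Y₁ Y₂) := by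
      rw [IntermediateField.mem_bot]
      rcases eq_or_ne u 0 with hu0 | hu0
      · exact ⟨0, by rw [hu0, map_zero]⟩
      have hb0 : algebraMap Y₁ Y₂ b ≠ 0 := by
        intro h0
        have h1 : u ^ s = 0 := by rw [huw, ← hb, map_pow, h0, zero_pow hs.ne_zero]
        exact hu0 (eq_zero_of_pow_eq_zero h1)
      have hpow : (u / algebraMap Y₁ Y₂ b) ^ s = 1 := by
        rw [div_pow, huw, ← hb, map_pow]
        exact div_self (pow_ne_zero _ hb0)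
      have hζ' : IsPrimitiveRoot (algebraMap Y₁ Y₂ ζ) s :=
        hζ.map_of_injective (algebraMap Y₁ Y₂).injective
      obtain ⟨i, -, hi⟩ := hζ'.eq_pow_of_pow_eq_one hpow
      refine ⟨ζ ^ i * b, ?_⟩
      rw [map_mul, map_pow, hi, div_mul_cancel₀ _ hb0]
    have hbot : (⊥ : IntermediateField Y₁ Y₂) = ⊤ := by
      rw [← hgen, eq_comm, IntermediateField.adjoin_eq_bot_iff]
      intro x hx
      rw [Set.mem_singleton_iff] at hx
      rw [hx]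
      exact hu
    exact IntermediateField.bot_eq_top_iff_finrank_eq_one.mp hbot
  · right
    have hne : ∀ b : Y₁, b ^ s ≠ w := fun b hb => h ⟨b, hb⟩
    have hirr : Irreducible (X ^ s - C w : Y₁[X]) := X_pow_sub_C_irreducible_of_prime hs hne
    refine ⟨hirr, ?_⟩
    have hroot : aeval u (X ^ s - C w : Y₁[X]) = 0 := by
      rw [map_sub, map_pow, aeval_X, aeval_C, huw, sub_self]
    have hmonic : (X ^ s - C w : Y₁[X]).Monic := monic_X_pow_sub_C w hs.ne_zero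
    have hint : IsIntegral Y₁ u := ⟨_, hmonic, by rw [← aeval_def]; exact hroot⟩
    have hmin : minpoly Y₁ u = X ^ s - C w :=
      (minpoly.eq_of_irreducible_of_monic hirr hroot hmonic).symm
    have h1 := IntermediateField.adjoin.finrank hint
    rw [hmin, natDegree_X_pow_sub_C] at h1
    rw [← h1, hgen, IntermediateField.finrank_top']

end Field

section Layer

variable {B₁ Y₁ Y₂ B₂ : Type*} [CommRing B₁] [Field Y₁] [Algebra B₁ Y₁] [IsFractionRing B₁ Y₁]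
  [Field Y₂] [Algebra Y₁ Y₂] [Algebra B₁ Y₂] [IsScalarTower B₁ Y₁ Y₂]
  [CommRing B₂] [Algebra B₁ B₂] [Algebra B₂ Y₂] [IsScalarTower B₁ B₂ Y₂]
  [IsIntegralClosure B₂ B₁ Y₂]

omit [IsFractionRing B₁ Y₁] in
/-- the trivial layer `Y₂ = Y₁` is trace-nondegenerate at every proper ideal -/
theorem traceNondeg_of_finrank_eq_one (h : Module.finrank Y₁ Y₂ = 1) (𝔮 : Ideal B₁)
    (h𝔮 : 𝔮 ≠ ⊤) : TraceNondeg B₁ Y₁ Y₂ B₂ 𝔮 := by
  intro x hx
  obtain ⟨a, ha, hae⟩ := hx 1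
  rw [mul_one] at hae
  have hbt : (⊥ : Subalgebra Y₁ Y₂) = ⊤ := Subalgebra.bot_eq_top_of_finrank_eq_one h
  have hxbot : algebraMap B₂ Y₂ x ∈ (⊥ : Subalgebra Y₁ Y₂) := by
    rw [hbt]
    exact Algebra.mem_top
  obtain ⟨c, hc⟩ := Algebra.mem_bot.mp hxbot
  have htr : Algebra.trace Y₁ Y₂ (algebraMap B₂ Y₂ x) = c := by
    rw [← hc, Algebra.trace_algebraMap, h, one_smul]
  have hca : c = algebraMap B₁ Y₁ a := by rw [← htr, hae]
  have hxa : x = algebraMap B₁ B₂ a := by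
    apply IsIntegralClosure.algebraMap_injective B₂ B₁ Y₂
    rw [← hc, hca, ← IsScalarTower.algebraMap_apply B₁ Y₁ Y₂,
      ← IsScalarTower.algebraMap_apply B₁ B₂ Y₂]
  refine ⟨1, fun h1 => h𝔮 ((Ideal.eq_top_iff_one 𝔮).mpr h1), ?_⟩
  rw [one_smul, hxa, Algebra.algebraMap_eq_smul_one]
  exact Submodule.smul_mem_smul ha Submodule.mem_top

/-- **The Kummer layer, one prime.**  `Y₂ = Y₁(u)`, `u ^ s = w`, `s` prime, `ζ_s ∈ Y₁`.  At a
prime `𝔮` of `B₁` with `s ∉ 𝔮` where `w = (n₁ / n₂) g ^ s` with `n₁, n₂ ∉ 𝔮`, the layer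
`B₂ / B₁` is trace-nondegenerate. -/
theorem traceNondeg_layer (s : ℕ) (hs : s.Prime) (ζ : Y₁) (hζ : IsPrimitiveRoot ζ s)
    (u : Y₂) (w : Y₁) (huw : u ^ s = algebraMap Y₁ Y₂ w)
    (hgen : IntermediateField.adjoin Y₁ {u} = ⊤)
    (𝔮 : Ideal B₁) (h𝔮 : 𝔮.IsPrime) (hs𝔮 : (s : B₁) ∉ 𝔮)
    (n₁ n₂ : B₁) (hn₁ : n₁ ∉ 𝔮) (hn₂ : n₂ ∉ 𝔮) (g : Y₁) (hg : g ≠ 0)
    (hw : w * algebraMap B₁ Y₁ n₂ = algebraMap B₁ Y₁ n₁ * g ^ s) :
    TraceNondeg B₁ Y₁ Y₂ B₂ 𝔮 := by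
  rcases finrank_eq_one_or_irreducible s hs ζ hζ u w huw hgen with h1 | ⟨hirr, hdeg⟩
  · exact traceNondeg_of_finrank_eq_one h1 𝔮 h𝔮.ne_top
  · intro x hx
    exact Kummer.trace_nondegenerate s hs.two_le u w huw hirr hdeg 𝔮 h𝔮 hs𝔮 n₁ n₂ hn₁ hn₂ g hg
      hw x hx

end Layer

section Tower

variable {R K Y₁ Y₂ B₁ B₂ : Type*} [CommRing R] [IsDomain R] [IsIntegrallyClosed R]
  [IsNoetherianRing R]
  [Field K] [Algebra R K] [IsFractionRing R K]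
  [Field Y₁] [Algebra K Y₁] [Algebra R Y₁] [IsScalarTower R K Y₁] [FiniteDimensional K Y₁]
  [Algebra.IsSeparable K Y₁]
  [Field Y₂] [Algebra K Y₂] [Algebra Y₁ Y₂] [IsScalarTower K Y₁ Y₂] [Algebra R Y₂]
  [IsScalarTower R K Y₂] [FiniteDimensional Y₁ Y₂]
  [CommRing B₁] [Algebra R B₁] [Algebra B₁ Y₁] [IsScalarTower R B₁ Y₁] [IsIntegralClosure B₁ R Y₁]
  [CommRing B₂] [Algebra R B₂] [Algebra B₂ Y₂] [IsScalarTower R B₂ Y₂] [IsIntegralClosure B₂ R Y₂]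
  [Algebra B₁ B₂] [IsScalarTower R B₁ B₂]

/-- **`hU` for the compositum from `hU` for the bottom layer.**  Tower `K ⊆ Y₁ ⊆ Y₂ = Y₁(u)`,
`u ^ s = w ∈ Y₁`, `s` prime, `ζ_s ∈ Y₁`.  If `B₁ / R` is trace-nondegenerate at `𝔭` and at
every prime `𝔮` of `B₁` over `𝔭` we have `s ∉ 𝔮` and `w = (n₁ / n₂) g ^ s` with
`n₁, n₂ ∈ B₁ ∖ 𝔮`, then `B₂ / R` is trace-nondegenerate at `𝔭`. -/
theorem traceNondeg_kummer (s : ℕ) (hs : s.Prime) (ζ : Y₁) (hζ : IsPrimitiveRoot ζ s)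
    (u : Y₂) (w : Y₁) (huw : u ^ s = algebraMap Y₁ Y₂ w)
    (hgen : IntermediateField.adjoin Y₁ {u} = ⊤)
    (hcompat : ∀ z : B₁, algebraMap B₂ Y₂ (algebraMap B₁ B₂ z) =
      algebraMap Y₁ Y₂ (algebraMap B₁ Y₁ z))
    (𝔭 : Ideal R) [𝔭.IsPrime] (h1 : TraceNondeg R K Y₁ B₁ 𝔭)
    (hloc : ∀ 𝔮 : Ideal B₁, 𝔮.IsPrime → 𝔮.comap (algebraMap R B₁) = 𝔭 →
      (s : B₁) ∉ 𝔮 ∧ ∃ n₁ n₂ : B₁, n₁ ∉ 𝔮 ∧ n₂ ∉ 𝔮 ∧ ∃ g : Y₁, g ≠ 0 ∧
        w * algebraMap B₁ Y₁ n₂ = algebraMap B₁ Y₁ n₁ * g ^ s) :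
    TraceNondeg R K Y₂ B₂ 𝔭 := by
  refine traceNondeg_tower 𝔭 hcompat h1 fun 𝔮 h𝔮 h𝔮𝔭 => ?_
  obtain ⟨hs𝔮, n₁, n₂, hn₁, hn₂, g, hg, hw⟩ := hloc 𝔮 h𝔮 h𝔮𝔭
  -- the instances of the top layer
  let _i1 : Algebra B₁ Y₂ := ((algebraMap Y₁ Y₂).comp (algebraMap B₁ Y₁)).toAlgebra
  have _i2 : IsScalarTower B₁ Y₁ Y₂ := IsScalarTower.of_algebraMap_eq fun _ => rfl
  have _i3 : IsScalarTower B₁ B₂ Y₂ := IsScalarTower.of_algebraMap_eq fun z => (hcompat z).symm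
  have _i4 : IsDomain B₁ :=
    (IsIntegralClosure.algebraMap_injective B₁ R Y₁).isDomain (algebraMap B₁ Y₁)
  have _i5 : IsFractionRing B₁ Y₁ := IsIntegralClosure.isFractionRing_of_finite_extension R K Y₁ B₁
  have _i6 : IsScalarTower R B₁ Y₂ := IsScalarTower.of_algebraMap_eq fun r => by
    rw [IsScalarTower.algebraMap_apply R B₂ Y₂, IsScalarTower.algebraMap_apply R B₁ B₂, hcompat]
    rfl
  have _i7 : Algebra.IsIntegral R B₁ := IsIntegralClosure.isIntegral_algebra R Y₁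
  have _i8 : IsIntegralClosure B₂ B₁ Y₂ := IsIntegralClosure.tower_top (R := R)
  exact traceNondeg_layer s hs ζ hζ u w huw hgen 𝔮 h𝔮 hs𝔮 n₁ n₂ hn₁ hn₂ g hg hw

end Tower

end Fermat.Agent.S18.KummerLayer
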