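import Fermat.Agent.S18.EtaleGauss

set_option autoImplicit false

/-!
# S18: the vertical prime of a chart `R ⊇ W[j]`

Instance of `EtaleGauss.hU_vertical_of_separable` for a chart ring `R` receiving `W[X]`
(`X ↦ j`): if `θ` is a primitive element of `Y / Frac R` killed by a monic polynomial `P` with
coefficients in `W[j]` whose reduction is separable over `k(j)` (`k` the residue field of `W`),
and `j` stays transcendental in `R/π`, then the trace form of the integral closure of `R` in `Y`
is nondegenerate modulo `π`.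
-/

namespace Fermat.Agent.S18.VerticalChart

open Polynomial

section

variable {R : Type*} [CommRing R]

/-- `κ = Frac (R/π)` has kernel `(π)`. -/
theorem ker_fractionRing_quot (π : R) [(Ideal.span {π}).IsPrime] (r : R)
    (h : algebraMap (R ⧸ Ideal.span {π}) (FractionRing (R ⧸ Ideal.span {π}))
      (Ideal.Quotient.mk _ r) = 0) : π ∣ r := by
  rw [map_eq_zero_iff _ (IsFractionRing.injective _ _), Ideal.Quotient.eq_zero_iff_mem] at h
  exact Ideal.mem_span_singleton.mp h

/-- `κ = Frac (R/π)` is generated by fractions with denominators outside `(π)`. -/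
theorem frac_fractionRing_quot (π : R) [(Ideal.span {π}).IsPrime]
    (x : FractionRing (R ⧸ Ideal.span {π})) :
    ∃ s : R, ¬ π ∣ s ∧ ∃ r : R,
      algebraMap (R ⧸ Ideal.span {π}) (FractionRing (R ⧸ Ideal.span {π}))
        (Ideal.Quotient.mk _ s) * x =
      algebraMap (R ⧸ Ideal.span {π}) (FractionRing (R ⧸ Ideal.span {π}))
        (Ideal.Quotient.mk _ r) := by
  obtain ⟨a, b, hb, rfl⟩ := IsFractionRing.div_surjective (A := R ⧸ Ideal.span {π}) x
  obtain ⟨r, rfl⟩ := Ideal.Quotient.mk_surjective a
  obtain ⟨s, rfl⟩ := Ideal.Quotient.mk_surjective b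
  have hb0 : algebraMap (R ⧸ Ideal.span {π}) (FractionRing (R ⧸ Ideal.span {π}))
      (Ideal.Quotient.mk _ s) ≠ 0 := by
    rw [Ne, map_eq_zero_iff _ (IsFractionRing.injective _ _)]
    exact nonZeroDivisors.ne_zero hb
  refine ⟨s, fun hd => ?_, r, ?_⟩
  · apply nonZeroDivisors.ne_zero hb
    rw [Ideal.Quotient.eq_zero_iff_mem]
    exact Ideal.mem_span_singleton.mpr hd
  · field_simp

end

section Main

variable {W k R K Y B : Type*} [CommRing W] [Field k] [CommRing R] [IsDomain R]
  [IsIntegrallyClosed R] [Field K] [Algebra R K] [IsFractionRing R K] [Field Y] [Algebra K Y]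
  [Algebra R Y] [IsScalarTower R K Y] [FiniteDimensional K Y] [Algebra.IsSeparable K Y]
  [CommRing B] [Algebra R B] [Algebra B Y] [IsScalarTower R B Y] [IsIntegralClosure B R Y]

/-- **Vertical prime of a chart, `ψ`-form.**  `ι : W[X] →+* R` is the structure map of the chart
(`X ↦ j`), `ψ : k[X] →+* R/π` its reduction, assumed injective (`j` transcendental modulo `π`).
If `θ` generates `Y` over `K = Frac R`, `P ∈ W[X][T]` is monic with `P(j, θ) = 0` and the
reduction of `P` is separable over `κ₀ = k(X)` (any fraction field of `k[X]`), then `hU` of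
purity holds at `(π)`. -/
theorem hU_vertical_chart (κ₀ : Type*) [Field κ₀] [Algebra k[X] κ₀] [IsFractionRing k[X] κ₀]
    (res : W →+* k) (π : R) (hπ : Prime π) (ι : W[X] →+* R)
    (ψ : k[X] →+* R ⧸ Ideal.span {π}) (hψ : Function.Injective ψ)
    (hsq : ∀ f : W[X], ψ (f.map res) = Ideal.Quotient.mk _ (ι f))
    (θ : Y) (hθ : Algebra.adjoin K {θ} = ⊤)
    (P : (W[X])[X]) (hP : P.Monic) (hPθ : aeval θ (P.map ι) = 0)
    (hsep : ((P.map (mapRingHom res)).map (algebraMap k[X] κ₀)).Separable)
    (x : B)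
    (hx : ∀ y : B, ∃ a ∈ Ideal.span {π},
      Algebra.trace K Y (algebraMap B Y (x * y)) = algebraMap R K a) :
    ∃ s : R, s ∉ Ideal.span {π} ∧ s • x ∈ Ideal.span {π} • (⊤ : Submodule R B) := by
  have hprime : (Ideal.span {π}).IsPrime := (Ideal.span_singleton_prime hπ.ne_zero).mpr hπ
  let κ := FractionRing (R ⧸ Ideal.span {π})
  let _ : Algebra R κ :=
    ((algebraMap (R ⧸ Ideal.span {π}) κ).comp (Ideal.Quotient.mk (Ideal.span {π}))).toAlgebra
  have hmap : ∀ r : R, algebraMap R κ r =
      algebraMap (R ⧸ Ideal.span {π}) κ (Ideal.Quotient.mk _ r) := fun r => rfl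
  have hg : Function.Injective ((algebraMap (R ⧸ Ideal.span {π}) κ).comp ψ) :=
    (IsFractionRing.injective _ _).comp hψ
  let φ : κ₀ →+* κ := IsFractionRing.lift hg
  have hφ : ∀ p : k[X], φ (algebraMap k[X] κ₀ p) =
      algebraMap (R ⧸ Ideal.span {π}) κ (ψ p) := fun p => IsFractionRing.lift_algebraMap hg p
  have hsep' : ((P.map ι).map (algebraMap R κ)).Separable := by
    have h1 : (P.map ι).map (algebraMap R κ) =
        ((P.map (mapRingHom res)).map (algebraMap k[X] κ₀)).map φ := by
      rw [Polynomial.map_map, Polynomial.map_map, Polynomial.map_map]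
      congr 1
      refine RingHom.ext fun f => ?_
      simp only [RingHom.comp_apply, coe_mapRingHom]
      rw [hφ, hsq, hmap]
    rw [h1]
    exact hsep.map
  exact EtaleGauss.hU_vertical_of_separable (K := K) π hπ (κ := κ)
    (fun r hr => ker_fractionRing_quot π r (by rw [← hmap]; exact hr))
    (fun y => by
      obtain ⟨s, hs, r, hr⟩ := frac_fractionRing_quot π y
      exact ⟨s, hs, r, by rw [hmap, hmap]; exact hr⟩)
    θ hθ (P.map ι) (hP.map ι) hPθ hsep' x hx

/-- **Vertical prime of a chart, elementwise form.**  Same as `hU_vertical_chart`, with the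
compatibility of `ι : W[X] →+* R` with reduction stated elementwise:
`π ∣ ι f ↔ f ≡ 0` modulo the maximal ideal of `W` (for surjective `res : W →+* k`). -/
theorem hU_vertical_chart' (κ₀ : Type*) [Field κ₀] [Algebra k[X] κ₀] [IsFractionRing k[X] κ₀]
    (res : W →+* k) (hres : Function.Surjective res) (π : R)
    (hπ : Prime π) (ι : W[X] →+* R)
    (hι : ∀ f : W[X], π ∣ ι f ↔ f.map res = 0)
    (θ : Y) (hθ : Algebra.adjoin K {θ} = ⊤)
    (P : (W[X])[X]) (hP : P.Monic) (hPθ : aeval θ (P.map ι) = 0)
    (hsep : ((P.map (mapRingHom res)).map (algebraMap k[X] κ₀)).Separable)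
    (x : B)
    (hx : ∀ y : B, ∃ a ∈ Ideal.span {π},
      Algebra.trace K Y (algebraMap B Y (x * y)) = algebraMap R K a) :
    ∃ s : R, s ∉ Ideal.span {π} ∧ s • x ∈ Ideal.span {π} • (⊤ : Submodule R B) := by
  have hsurj : Function.Surjective (mapRingHom res) := Polynomial.map_surjective res hres
  have hker : RingHom.ker (mapRingHom res) ≤
      RingHom.ker ((Ideal.Quotient.mk (Ideal.span {π})).comp ι) := by
    intro f hf
    rw [RingHom.mem_ker, coe_mapRingHom] at hf
    rw [RingHom.mem_ker, RingHom.comp_apply, Ideal.Quotient.eq_zero_iff_mem,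
      Ideal.mem_span_singleton]
    exact (hι f).mpr hf
  let ψ : k[X] →+* R ⧸ Ideal.span {π} :=
    RingHom.liftOfSurjective (mapRingHom res) hsurj ⟨_, hker⟩
  have hsq : ∀ f : W[X], ψ (f.map res) = Ideal.Quotient.mk _ (ι f) := fun f =>
    RingHom.liftOfSurjective_comp_apply (mapRingHom res) hsurj ⟨_, hker⟩ f
  have hψ : Function.Injective ψ := by
    rw [injective_iff_map_eq_zero]
    intro p hp
    obtain ⟨f, rfl⟩ := hsurj p
    rw [coe_mapRingHom, hsq, Ideal.Quotient.eq_zero_iff_mem, Ideal.mem_span_singleton] at hp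
    rw [coe_mapRingHom]
    exact (hι f).mp hp
  exact hU_vertical_chart (K := K) κ₀ res π hπ ι ψ hψ hsq θ hθ P hP hPθ hsep x hx

end Main

end Fermat.Agent.S18.VerticalChart
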