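import Mathlib
import Fermat.Agent.S18.AbhyankarCharts
import Fermat.Agent.S18.UnramBridge
import Fermat.Agent.S18.TowerUnram
import Fermat.Agent.S18.ChartHU
import Fermat.Agent.S18.VerticalChart
import Fermat.Agent.S18.KummerLayer
import Fermat.Agent.S18.KummerBridge

set_option autoImplicit false
set_option linter.style.haveILetI false

/-!
# S18: the generic finite chart (Legendre / Hesse), abstract core

All rings and fields of the chart are abstract types with instance arguments:

* `L[X]` (`X ↦ j`) the Dedekind base of the `j`-line, `K` its fraction field;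
* `F` a finite extension of `K` (the function field), `F2 = F(u)` its Kummer cover;
* `BM` the Dedekind chart of the auxiliary line (integral closure of `L[X]` in `K'`), `K'` its
  fraction field, Galois over `K`;
* `R0` the two-dimensional regular chart with `BM = R0[1/ϖ]`;
* `Y' = F2 · K'`.

Main statements:

* `traceNondeg_horizontal`: the trace form of the integral closure of `R0` in `Y'` is
  nondegenerate at every prime of `R0` not containing `ϖ` (Abhyankar + the bridge to the
  trace-form currency).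
* `traceNondeg_vertical`: the same at the vertical prime `(ϖ)`, for `Y' = K'(θ, u)`, from the
  monogenic separable datum `(θ, P)` and the Kummer datum `(u, w)`.
* `finite_chart_lift`: the sheet idempotent lifts to an element integral over the chart `W[X]`
  of the `j`-line.
-/

namespace Fermat.Agent.S18.FiniteChartCore

open Polynomial

section Horizontal

/-- **Horizontal primes of a finite chart.** -/
theorem traceNondeg_horizontal
    {L F2 K' Y' BF2 BM R0 B' : Type*} (K : Type*) [Field L] [Algebra ℚ L]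
    [Field K] [Algebra L[X] K] [IsFractionRing L[X] K]
    [Field F2] [Algebra K F2] [FiniteDimensional K F2] [Algebra L[X] F2] [IsScalarTower L[X] K F2]
    [Field K'] [Algebra K K'] [FiniteDimensional K K'] [IsGalois K K'] [Algebra L[X] K']
    [IsScalarTower L[X] K K']
    [Field Y'] [Algebra K Y'] [Algebra F2 Y'] [Algebra K' Y'] [IsScalarTower K F2 Y']
    [IsScalarTower K K' Y']
    [CommRing BF2] [Algebra L[X] BF2] [Algebra BF2 F2] [IsScalarTower L[X] BF2 F2]
    [IsIntegralClosure BF2 L[X] F2]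
    [CommRing BM] [Algebra L[X] BM] [Algebra BM K'] [IsScalarTower L[X] BM K']
    [IsIntegralClosure BM L[X] K'] [Algebra BM Y'] [IsScalarTower BM K' Y']
    [CommRing R0] [IsDomain R0] [Algebra R0 K'] [IsFractionRing R0 K'] [Algebra R0 BM]
    [IsScalarTower R0 BM K'] [Algebra R0 Y'] [IsScalarTower R0 K' Y']
    [CommRing B'] [Algebra R0 B'] [Algebra B' Y'] [IsScalarTower R0 B' Y']
    [IsIntegralClosure B' R0 Y']
    (hFM : IntermediateField.adjoin F2 (Set.range (algebraMap K' Y')) = ⊤)
    (hF : ∀ P : Ideal BF2, P.IsPrime → P ≠ ⊥ →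
      (X ∈ P.under L[X] → P.ramificationIdx L[X] ∣ 3) ∧
      (X - C 1728 ∈ P.under L[X] → P.ramificationIdx L[X] ∣ 2) ∧
      (X ∉ P.under L[X] → X - C 1728 ∉ P.under L[X] → P.ramificationIdx L[X] = 1))
    (u₀ g₀ u₁ g₁ : BM) (hu₀ : IsUnit u₀) (h₀ : algebraMap L[X] BM X = u₀ * g₀ ^ 3)
    (hu₁ : IsUnit u₁) (h₁ : algebraMap L[X] BM (X - C 1728) = u₁ * g₁ ^ 2)
    (ϖ : R0) [IsLocalization.Away ϖ BM]
    (𝔭 : Ideal R0) [h𝔭p : 𝔭.IsPrime] (h𝔭 : ϖ ∉ 𝔭) : TowerUnram.TraceNondeg R0 K' Y' B' 𝔭 := by
  classical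
  -- characteristic zero, finiteness, separability
  haveI : CharZero L := algebraRat.charZero L
  have hinjLK : Function.Injective (algebraMap L[X] K) := IsFractionRing.injective L[X] K
  haveI : CharZero L[X] := charZero_of_injective_algebraMap (C_injective (R := L))
  haveI : CharZero K := charZero_of_injective_algebraMap hinjLK
  haveI : CharZero K' := charZero_of_injective_algebraMap (algebraMap K K').injective
  haveI : IsGalois F2 Y' := Abhyankar.isGalois_of_adjoin_eq_top (K := K) hFM
  haveI : FiniteDimensional F2 Y' := Abhyankar.finiteDimensional_of_adjoin_eq_top (K := K) hFM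
  haveI : FiniteDimensional K Y' := FiniteDimensional.trans K F2 Y'
  haveI : FiniteDimensional K' Y' := FiniteDimensional.right K K' Y'
  haveI : Algebra.IsSeparable K' Y' := inferInstance
  -- the Dedekind rings
  haveI : IsDomain BM := (IsIntegralClosure.algebraMap_injective BM L[X] K').isDomain _
  haveI : IsDedekindDomain BM := IsIntegralClosure.isDedekindDomain L[X] K K' BM
  haveI : IsFractionRing BM K' :=
    IsIntegralClosure.isFractionRing_of_finite_extension L[X] K K' BM
  haveI : IsDedekindDomain (integralClosure BM Y') :=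
    IsIntegralClosure.isDedekindDomain BM K' Y' (integralClosure BM Y')
  intro x hx
  by_cases hbot : 𝔭 = ⊥
  · subst hbot
    exact UnramBridge.hU_bot x hx
  · have hinjR0BM : Function.Injective (algebraMap R0 BM) := by
      have h1 : Function.Injective (algebraMap R0 K') := IsFractionRing.injective R0 K'
      rw [IsScalarTower.algebraMap_eq R0 BM K'] at h1
      exact Function.Injective.of_comp h1
    have hdisj : Disjoint (Submonoid.powers ϖ : Set R0) (𝔭 : Set R0) := by
      rw [Set.disjoint_left]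
      rintro a ⟨n, rfl⟩ ha
      exact h𝔭 (h𝔭p.mem_of_pow_mem n ha)
    haveI hpp : (𝔭.map (algebraMap R0 BM)).IsPrime :=
      IsLocalization.isPrime_of_isPrime_disjoint (Submonoid.powers ϖ) BM 𝔭 h𝔭p hdisj
    have hp𝔭 : (𝔭.map (algebraMap R0 BM)).comap (algebraMap R0 BM) = 𝔭 :=
      IsLocalization.under_map_of_isPrime_disjoint (Submonoid.powers ϖ) BM h𝔭p hdisj
    have hp0 : 𝔭.map (algebraMap R0 BM) ≠ ⊥ := by
      intro h0
      apply hbot
      rw [← hp𝔭, h0]
      exact (RingHom.injective_iff_ker_eq_bot _).mp hinjR0BM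
    have hA : ∀ a : BM, ∃ t : R0, t ∉ 𝔭 ∧ ∃ r : R0,
        algebraMap R0 BM r = algebraMap R0 BM t * a := by
      intro a
      obtain ⟨⟨r, ⟨t, ⟨n, rfl⟩⟩⟩, h⟩ := IsLocalization.surj (Submonoid.powers ϖ) a
      refine ⟨ϖ ^ n, fun hmem => h𝔭 (h𝔭p.mem_of_pow_mem n hmem), r, ?_⟩
      rw [mul_comm]
      exact h.symm
    have hinjBMBY : Function.Injective (algebraMap BM (integralClosure BM Y')) := by
      have h1 : Function.Injective (algebraMap BM Y') := by
        rw [IsScalarTower.algebraMap_eq BM K' Y']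
        exact (algebraMap K' Y').injective.comp (IsFractionRing.injective BM K')
      rw [IsScalarTower.algebraMap_eq BM (integralClosure BM Y') Y', RingHom.coe_comp] at h1
      exact Function.Injective.of_comp h1
    refine UnramBridge.hU_of_isUnramifiedAt (A := BM) (BA := integralClosure BM Y') 𝔭
      (𝔭.map (algebraMap R0 BM)) hp0 hp𝔭 hA (fun P _ hP => ?_) x hx
    have hP0 : P ≠ ⊥ := by
      intro h0
      rw [h0, le_bot_iff, Ideal.map_eq_bot_iff_of_injective hinjBMBY] at hP
      exact hp0 hP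
    exact Abhyankar.isUnramifiedAt_finite_chart (K := K) (F := F2) (BF := BF2) hFM hF
      u₀ g₀ u₁ g₁ hu₀ h₀ hu₁ h₁ P hP0

end Horizontal

section Vertical

/-- **Vertical prime of a chart, tower form.** -/
theorem traceNondeg_vertical
    {W k R0 K' Y' B' : Type*} [CommRing W] [Field k]
    [CommRing R0] [IsDomain R0] [IsIntegrallyClosed R0] [IsNoetherianRing R0]
    [Field K'] [CharZero K'] [Algebra R0 K'] [IsFractionRing R0 K']
    [Field Y'] [Algebra K' Y'] [Algebra R0 Y'] [IsScalarTower R0 K' Y'] [FiniteDimensional K' Y']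
    [CommRing B'] [Algebra R0 B'] [Algebra B' Y'] [IsScalarTower R0 B' Y']
    [IsIntegralClosure B' R0 Y']
    (κ₀ : Type*) [Field κ₀] [Algebra k[X] κ₀] [IsFractionRing k[X] κ₀]
    (res : W →+* k) (hres : Function.Surjective res)
    (ι : W[X] →+* R0) (ϖ : R0) (hϖ : Prime ϖ)
    (hι : ∀ f : W[X], ϖ ∣ ι f ↔ f.map res = 0)
    (θ : Y') (P : (W[X])[X]) (hP : P.Monic)
    (hPθ : eval₂ ((algebraMap R0 Y').comp ι) θ P = 0)
    (hsep : ((P.map (mapRingHom res)).map (algebraMap k[X] κ₀)).Separable)
    (s : ℕ) (hs : s.Prime) (hsϖ : ¬ ϖ ∣ (s : R0))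
    (ζ : K') (hζ : IsPrimitiveRoot ζ s)
    (u w : Y') (hw0 : w ≠ 0) (huw : u ^ s = w)
    (hwθ : w ∈ IntermediateField.adjoin K' {θ})
    (hgen : IntermediateField.adjoin K' {θ, u} = ⊤)
    (hw : IsGaussInt R0 ϖ w) (hw' : IsGaussInt R0 ϖ w⁻¹) :
    TowerUnram.TraceNondeg R0 K' Y' B' (Ideal.span {ϖ}) := by
  classical
  haveI hprime : (Ideal.span {ϖ}).IsPrime := (Ideal.span_singleton_prime hϖ.ne_zero).mpr hϖ
  let Y1 : IntermediateField K' Y' := IntermediateField.adjoin K' {θ}
  haveI : FiniteDimensional K' Y1 := IntermediateField.finiteDimensional_left Y1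
  haveI : FiniteDimensional Y1 Y' := IntermediateField.finiteDimensional_right Y1
  haveI : Algebra.IsSeparable K' Y1 := inferInstance
  haveI : IsScalarTower R0 Y1 Y' := IsScalarTower.of_algebraMap_eq (fun r => by
    rw [IsScalarTower.algebraMap_apply R0 K' Y', IsScalarTower.algebraMap_apply R0 K' Y1]
    rfl)
  -- the generator of the bottom layer
  let θ₁ : Y1 := ⟨θ, IntermediateField.mem_adjoin_simple_self K' θ⟩
  have hθint : IsIntegral K' θ := IsIntegral.of_finite K' θ
  have hθ₁ : Algebra.adjoin K' {θ₁} = ⊤ :=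
    (IntermediateField.adjoin.powerBasis hθint).adjoin_gen_eq_top
  have hPθ₁ : aeval θ₁ (P.map ι) = 0 := by
    apply (algebraMap Y1 Y').injective
    rw [map_zero, aeval_def, eval₂_map, hom_eval₂]
    have : (algebraMap Y1 Y').comp ((algebraMap R0 Y1).comp ι) = (algebraMap R0 Y').comp ι := by
      rw [← RingHom.comp_assoc, ← IsScalarTower.algebraMap_eq R0 Y1 Y']
    rw [this]
    exact hPθ
  -- the bottom layer
  let B1 : Subalgebra R0 Y1 := integralClosure R0 Y1
  have h1 : TowerUnram.TraceNondeg R0 K' Y1 B1 (Ideal.span {ϖ}) := fun x hx =>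
    VerticalChart.hU_vertical_chart' (K := K') κ₀ res hres ϖ hϖ ι hι θ₁ hθ₁ P hP hPθ₁ hsep x hx
  -- the map `B1 → B'`
  haveI : IsScalarTower R0 B1 Y' := IsScalarTower.of_algebraMap_eq (fun r => by
    change algebraMap R0 Y' r = algebraMap Y1 Y' (algebraMap B1 Y1 (algebraMap R0 B1 r))
    rw [← IsScalarTower.algebraMap_apply R0 B1 Y1, ← IsScalarTower.algebraMap_apply R0 Y1 Y'])
  haveI : Algebra.IsIntegral R0 B1 := inferInstance
  let φ : B1 →ₐ[R0] B' := IsIntegralClosure.lift R0 B' Y'
  have hφ : ∀ z : B1, algebraMap B' Y' (φ z) = algebraMap Y1 Y' (algebraMap B1 Y1 z) := fun z =>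
    IsIntegralClosure.algebraMap_lift (R := R0) B' Y' z
  letI : Algebra B1 B' := φ.toRingHom.toAlgebra
  haveI : IsScalarTower R0 B1 B' := IsScalarTower.of_algebraMap_eq (fun r => (φ.commutes r).symm)
  -- the Kummer data
  let w₁ : Y1 := ⟨w, hwθ⟩
  have hw₁0 : w₁ ≠ 0 := fun h => hw0 (congrArg Subtype.val h)
  have hgen₁ : IntermediateField.adjoin Y1 {u} = ⊤ := by
    apply IntermediateField.restrictScalars_injective K'
    rw [IntermediateField.adjoin_adjoin_left, IntermediateField.restrictScalars_top]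
    rw [Set.singleton_union]
    exact hgen
  have hζ₁ : IsPrimitiveRoot (algebraMap K' Y1 ζ) s :=
    hζ.map_of_injective (algebraMap K' Y1).injective
  have gauss_down : ∀ z : Y1, IsGaussInt R0 ϖ (z : Y') → IsGaussInt R0 ϖ z := by
    rintro z ⟨t, ht, hi⟩
    refine ⟨t, ht, ?_⟩
    have h2 : (IsScalarTower.toAlgHom R0 Y1 Y') (t • z) = t • (z : Y') := by
      rw [map_smul]; rfl
    rw [← h2] at hi
    exact (isIntegral_algHom_iff (IsScalarTower.toAlgHom R0 Y1 Y')
      (algebraMap Y1 Y').injective).mp hi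
  have hw₁ : IsGaussInt R0 ϖ w₁ := gauss_down w₁ hw
  have hw₁' : IsGaussInt R0 ϖ w₁⁻¹ := gauss_down w₁⁻¹ hw'
  refine KummerLayer.traceNondeg_kummer (R := R0) (K := K') (Y₁ := Y1) (Y₂ := Y') (B₁ := B1)
    (B₂ := B') s hs (algebraMap K' Y1 ζ) hζ₁ u w₁ huw hgen₁ hφ (Ideal.span {ϖ}) h1 ?_
  intro 𝔮 h𝔮 h𝔮c
  haveI := h𝔮
  have hout : ∀ p : R0, ¬ ϖ ∣ p → algebraMap R0 B1 p ∉ 𝔮 := by
    intro p hp hmem
    apply hp
    have : p ∈ 𝔮.comap (algebraMap R0 B1) := hmem
    rw [h𝔮c] at this
    exact Ideal.mem_span_singleton.mp this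
  refine ⟨?_, ?_⟩
  · have := hout (s : R0) hsϖ
    rwa [map_natCast] at this
  · exact KummerBridge.exists_kummer_datum_vertical (E := Y1) (B := B1) (D := R0)
      Subtype.val_injective (fun x hx => ⟨⟨x, hx⟩, rfl⟩) 𝔮 ϖ hϖ hout w₁ hw₁0 hw₁ hw₁' s

end Vertical

section Generation

/-- `Y' = K'(θ, u)` as soon as `F = K(θ)`, `F2 = F(u)` and `Y' = F2 · K'`. -/
theorem adjoin_pair_eq_top {K F F2 K' Y' : Type*} [Field K] [Field F] [Field F2] [Field K']
    [Field Y'] [Algebra K F] [Algebra K F2] [Algebra F F2] [IsScalarTower K F F2]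
    [Algebra K K'] [Algebra K Y'] [Algebra F2 Y'] [Algebra K' Y'] [IsScalarTower K F2 Y']
    [IsScalarTower K K' Y']
    (hFM : IntermediateField.adjoin F2 (Set.range (algebraMap K' Y')) = ⊤)
    (θ : F) (hθ : IntermediateField.adjoin K {θ} = ⊤)
    (u : F2) (hu : IntermediateField.adjoin F {u} = ⊤) :
    (∀ x : F, algebraMap F2 Y' (algebraMap F F2 x) ∈
        IntermediateField.adjoin K' {algebraMap F2 Y' (algebraMap F F2 θ)}) ∧
      IntermediateField.adjoin K' {algebraMap F2 Y' (algebraMap F F2 θ), algebraMap F2 Y' u} =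
        ⊤ := by
  set θ' : Y' := algebraMap F2 Y' (algebraMap F F2 θ) with hθ'
  set u' : Y' := algebraMap F2 Y' u with hu'
  have hK : ∀ x : K, algebraMap F2 Y' (algebraMap F F2 (algebraMap K F x)) =
      algebraMap K' Y' (algebraMap K K' x) := fun x => by
    rw [← IsScalarTower.algebraMap_apply K F F2, ← IsScalarTower.algebraMap_apply K F2 Y',
      ← IsScalarTower.algebraMap_apply K K' Y']
  -- the image of `F` lies in `K'(θ')`
  have hA : ∀ x : F, algebraMap F2 Y' (algebraMap F F2 x) ∈ IntermediateField.adjoin K' {θ'} := by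
    let T : IntermediateField K F :=
      ((IntermediateField.adjoin K' {θ'}).toSubfield.comap
        ((algebraMap F2 Y').comp (algebraMap F F2))).toIntermediateField (fun x => by
          change algebraMap F2 Y' (algebraMap F F2 (algebraMap K F x)) ∈
            IntermediateField.adjoin K' {θ'}
          rw [hK]
          exact (IntermediateField.adjoin K' {θ'}).algebraMap_mem _)
    have hT : IntermediateField.adjoin K {θ} ≤ T := by
      rw [IntermediateField.adjoin_le_iff, Set.singleton_subset_iff]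
      exact IntermediateField.mem_adjoin_simple_self K' θ'
    intro x
    have : x ∈ T := hT (by rw [hθ]; trivial)
    exact this
  refine ⟨hA, ?_⟩
  set S : IntermediateField K' Y' := IntermediateField.adjoin K' {θ', u'} with hS
  have hS0 : IntermediateField.adjoin K' {θ'} ≤ S :=
    IntermediateField.adjoin.mono K' _ _ (by simp)
  -- the image of `F2` lies in `S`
  have hB : ∀ x : F2, algebraMap F2 Y' x ∈ S := by
    let T2 : IntermediateField F F2 :=
      (S.toSubfield.comap (algebraMap F2 Y')).toIntermediateField (fun x => hS0 (hA x))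
    have hT2 : IntermediateField.adjoin F {u} ≤ T2 := by
      rw [IntermediateField.adjoin_le_iff, Set.singleton_subset_iff]
      change u' ∈ S
      exact IntermediateField.subset_adjoin K' _ (by simp)
    intro x
    have : x ∈ T2 := hT2 (by rw [hu]; trivial)
    exact this
  let T3 : IntermediateField F2 Y' := S.toSubfield.toIntermediateField hB
  have hT3 : IntermediateField.adjoin F2 (Set.range (algebraMap K' Y')) ≤ T3 := by
    rw [IntermediateField.adjoin_le_iff]
    rintro _ ⟨x, rfl⟩
    exact S.algebraMap_mem x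
  rw [eq_top_iff]
  intro y _
  have : y ∈ T3 := hT3 (by rw [hFM]; trivial)
  exact this

end Generation

section Main

/-- **The generic finite chart.**  `W[X]` (`X ↦ j`) is the chart of the `j`-line, `R0` the
regular chart of the auxiliary line, `BM = R0[1/π]` its generic fibre, a Dedekind domain with
fraction field `K'` Galois over `K = Frac L[X]`; `F = K(θ)`, `F2 = F(u)`, `Y' = F2 · K'`.
Inputs: the branch behaviour of `F2` and of `BM` over the `j`-line (horizontal primes), the
monogenic separable datum `(θ, P)` and the Kummer datum `(u, w)` with `w` a Gauss unit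
(vertical prime).  Output: the idempotent `ε` modulo `π` lifts to an element of `F2` integral
over `W[X]`. -/
theorem finite_chart_lift
    {W k L K F F2 R0 BM K' Y' : Type*} [CommRing W] [Field k] [Field L] [Algebra ℚ L]
    [Field K] [Algebra L[X] K] [IsFractionRing L[X] K]
    [Field F] [Algebra K F]
    [Field F2] [Algebra K F2] [Algebra F F2] [IsScalarTower K F F2] [FiniteDimensional K F2]
    [Algebra L[X] F2] [IsScalarTower L[X] K F2] [Algebra W[X] F2]
    [CommRing R0] [IsDomain R0] [IsNoetherianRing R0] [IsIntegrallyClosed R0]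
    [Algebra W[X] R0] [Algebra.IsIntegral W[X] R0]
    [Field K'] [Algebra R0 K'] [IsFractionRing R0 K']
    [Algebra K K'] [FiniteDimensional K K'] [IsGalois K K'] [Algebra L[X] K']
    [IsScalarTower L[X] K K']
    [Field Y'] [Algebra K Y'] [Algebra F2 Y'] [Algebra K' Y'] [IsScalarTower K F2 Y']
    [IsScalarTower K K' Y']
    [Algebra R0 Y'] [IsScalarTower R0 K' Y'] [Algebra W[X] Y'] [IsScalarTower W[X] R0 Y']
    [IsScalarTower W[X] F2 Y']
    (hFM : IntermediateField.adjoin F2 (Set.range (algebraMap K' Y')) = ⊤)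
    [CommRing BM] [Algebra L[X] BM] [Algebra BM K'] [IsScalarTower L[X] BM K']
    [IsIntegralClosure BM L[X] K'] [Algebra BM Y'] [IsScalarTower BM K' Y']
    [Algebra R0 BM] [IsScalarTower R0 BM K']
    (π : W) [IsLocalization.Away (algebraMap W[X] R0 (C π)) BM]
    (hπ : Prime (algebraMap W[X] R0 (C π)))
    (hDed : IsDedekindDomain (R0 ⧸ Ideal.span {algebraMap W[X] R0 (C π)}))
    (hcompat : ∀ a : W[X], algebraMap W[X] R0 (C π) ∣ algebraMap W[X] R0 a → C π ∣ a)
    -- horizontal primes: branch data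
    (hF : ∀ P : Ideal (integralClosure L[X] F2), P.IsPrime → P ≠ ⊥ →
      (X ∈ P.under L[X] → P.ramificationIdx L[X] ∣ 3) ∧
      (X - C 1728 ∈ P.under L[X] → P.ramificationIdx L[X] ∣ 2) ∧
      (X ∉ P.under L[X] → X - C 1728 ∉ P.under L[X] → P.ramificationIdx L[X] = 1))
    (u₀ g₀ u₁ g₁ : BM) (hu₀ : IsUnit u₀) (h₀ : algebraMap L[X] BM X = u₀ * g₀ ^ 3)
    (hu₁ : IsUnit u₁) (h₁ : algebraMap L[X] BM (X - C 1728) = u₁ * g₁ ^ 2)
    -- vertical prime: the monogenic separable datum
    (κ₀ : Type*) [Field κ₀] [Algebra k[X] κ₀] [IsFractionRing k[X] κ₀]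
    (res : W →+* k) (hres : Function.Surjective res)
    (hι : ∀ f : W[X], algebraMap W[X] R0 (C π) ∣ algebraMap W[X] R0 f ↔ f.map res = 0)
    (θ : F) (hθ : IntermediateField.adjoin K {θ} = ⊤)
    (P : (W[X])[X]) (hP : P.Monic)
    (hPθ : eval₂ (algebraMap W[X] F2) (algebraMap F F2 θ) P = 0)
    (hsep : ((P.map (mapRingHom res)).map (algebraMap k[X] κ₀)).Separable)
    -- vertical prime: the Kummer datum
    (s : ℕ) (hs : s.Prime) (hsπ : ¬ algebraMap W[X] R0 (C π) ∣ (s : R0))
    (ζ : K') (hζ : IsPrimitiveRoot ζ s)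
    (u : F2) (hu : IntermediateField.adjoin F {u} = ⊤)
    (w : F) (hw0 : w ≠ 0) (huw : u ^ s = algebraMap F F2 w)
    (hw : IsGaussInt W[X] (C π) (algebraMap F F2 w))
    (hw' : IsGaussInt W[X] (C π) (algebraMap F F2 w)⁻¹)
    -- the idempotent
    (ε : F2) (hε : IsGaussInt W[X] (C π) ε)
    (hεε : ∃ d : F2, IsGaussInt W[X] (C π) d ∧ ε ^ 2 - ε = (C π : W[X]) • d) :
    ∃ e : F2, IsIntegral W[X] e ∧ ∃ d : F2, IsGaussInt W[X] (C π) d ∧
      e - ε = (C π : W[X]) • d := by
  classical
  -- characteristic zero, finiteness, separability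
  haveI : CharZero L := algebraRat.charZero L
  haveI : CharZero L[X] := charZero_of_injective_algebraMap (C_injective (R := L))
  haveI : CharZero K := charZero_of_injective_algebraMap (IsFractionRing.injective L[X] K)
  haveI : CharZero K' := charZero_of_injective_algebraMap (algebraMap K K').injective
  haveI : IsGalois F2 Y' := Abhyankar.isGalois_of_adjoin_eq_top (K := K) hFM
  haveI : FiniteDimensional F2 Y' := Abhyankar.finiteDimensional_of_adjoin_eq_top (K := K) hFM
  haveI : FiniteDimensional K Y' := FiniteDimensional.trans K F2 Y'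
  haveI : FiniteDimensional K' Y' := FiniteDimensional.right K K' Y'
  haveI : Algebra.IsSeparable K' Y' := inferInstance
  set ϖ : R0 := algebraMap W[X] R0 (C π) with hϖ
  -- transport of Gauss integrality from `F2` over `W[X]` to `Y'` over `R0`
  have gauss_up : ∀ z : F2, IsGaussInt W[X] (C π) z → IsGaussInt R0 ϖ (algebraMap F2 Y' z) := by
    rintro z ⟨t, ht, hi⟩
    refine ⟨algebraMap W[X] R0 t, fun hd => ht (hcompat t hd), ?_⟩
    have h2 : algebraMap W[X] R0 t • algebraMap F2 Y' z =
        (IsScalarTower.toAlgHom W[X] F2 Y') (t • z) := by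
      rw [map_smul, algebraMap_smul]; rfl
    rw [h2]
    exact (hi.map (IsScalarTower.toAlgHom W[X] F2 Y')).tower_top
  obtain ⟨hA, hgen⟩ := adjoin_pair_eq_top (K := K) hFM θ hθ u hu
  have hPθ' : eval₂ ((algebraMap R0 Y').comp (algebraMap W[X] R0))
      (algebraMap F2 Y' (algebraMap F F2 θ)) P = 0 := by
    rw [← IsScalarTower.algebraMap_eq W[X] R0 Y', IsScalarTower.algebraMap_eq W[X] F2 Y',
      ← hom_eval₂, hPθ, map_zero]
  have hw0' : algebraMap F2 Y' (algebraMap F F2 w) ≠ 0 := by
    rw [Ne, map_eq_zero, map_eq_zero]; exact hw0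
  have hV : TowerUnram.TraceNondeg R0 K' Y' (integralClosure R0 Y') (Ideal.span {ϖ}) :=
    traceNondeg_vertical κ₀ res hres (algebraMap W[X] R0) ϖ hπ hι
      (algebraMap F2 Y' (algebraMap F F2 θ)) P hP hPθ' hsep s hs hsπ ζ hζ
      (algebraMap F2 Y' u) (algebraMap F2 Y' (algebraMap F F2 w)) hw0'
      (by rw [← map_pow, huw]) (hA w) hgen (gauss_up _ hw)
      (by rw [← map_inv₀]; exact gauss_up _ hw')
  refine ChartHU.chart_lift_hU_integralClosure (K' := K') (Y' := Y') (C π) hπ hDed hcompat
    (fun 𝔭 h𝔭 hcase => ?_) ε hε hεε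
  haveI := h𝔭
  rcases hcase with rfl | hcase
  · exact hV
  · exact traceNondeg_horizontal K (BF2 := integralClosure L[X] F2) hFM hF u₀ g₀ u₁ g₁ hu₀ h₀
      hu₁ h₁ ϖ 𝔭 hcase

end Main

end Fermat.Agent.S18.FiniteChartCore
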