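import Mathlib
import Fermat.Agent.S18.RamJ

/-!
# S18, package P4a (ideal currency)

The per-place statements of `Fermat.Agent.S18.RamJ` restated for `Ideal.ramificationIdx`:
for a Dedekind chart `BF` of `FF L N` over `L[X]` (`X ↦ j`), a nonzero prime `P` of `BF` has
ramification index dividing `3` over `(X)`, dividing `2` over `(X - 1728)`, and `1` otherwise.
-/

set_option autoImplicit false

namespace Fermat.Agent.S18.RamJ

open AlgebraicCurve ModularCurve Polynomial IsDedekindDomain
open Fermat.Agent.S24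

/-! ### bridge to the ideal currency -/

section IdealBridge

variable {K F : Type*} [Field K] [Field F] [Algebra K F]
variable {A B : Type*} [CommRing A] [CommRing B] [IsDedekindDomain B] [Algebra A B]
  [Algebra B F] [IsFractionRing B F]

/-- the ramification index of a prime `P` of a Dedekind domain `B` over a principal prime
`(g)` of `A` is the order of `g` at the place of `Frac B` attached to `P` -/
theorem ramificationIdx_eq_ord (hK : ∀ a : K, algebraMap K F a ∈ (algebraMap B F).range)
    (P : Ideal B) [hPp : P.IsPrime] (hP : P ≠ ⊥) (g : A) (hg : algebraMap A B g ≠ 0)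
    (hPg : P.under A = Ideal.span {g}) :
    ((P.ramificationIdx A : ℕ) : ℤ) =
      (PrimeBridge.placeOfPrime B hK ⟨P, hPp, hP⟩).ord (algebraMap B F (algebraMap A B g)) := by
  set 𝔮 : HeightOneSpectrum B := ⟨P, hPp, hP⟩ with h𝔮
  set b : B := algebraMap A B g with hb
  have hmap : (P.under A).map (algebraMap A B) = Ideal.span {b} := by
    rw [hPg, Ideal.map_span, Set.image_singleton]
  have hmap0 : (P.under A).map (algebraMap A B) ≠ ⊥ := by
    rw [hmap, Ne, Ideal.span_singleton_eq_bot]
    exact hg
  have hval0 : 𝔮.intValuation b ≠ 0 := 𝔮.intValuation_ne_zero b hg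
  have hord : (PrimeBridge.placeOfPrime B hK 𝔮).ord (algebraMap B F b) =
      -(WithZero.log (𝔮.intValuation b)) := by
    rw [PrimeBridge.placeOfPrime_ord, HeightOneSpectrum.valuation_of_algebraMap]
  have hle1 : WithZero.log (𝔮.intValuation b) ≤ 0 := by
    rw [← WithZero.log_one, WithZero.log_le_log hval0 one_ne_zero]
    exact 𝔮.intValuation_le_one b
  obtain ⟨n, hn⟩ := Int.eq_ofNat_of_zero_le (neg_nonneg.mpr hle1)
  have hvaln : 𝔮.intValuation b = WithZero.exp (-(n : ℤ)) := by
    rw [← hn, neg_neg, WithZero.exp_log hval0]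
  rw [hord, hn]
  have h1 : (P.under A).ramificationIdx' P = n := by
    apply Ideal.ramificationIdx'_spec
    · rw [hmap, Ideal.span_singleton_le_iff_mem]
      exact (𝔮.intValuation_le_pow_iff_mem b n).mp hvaln.le
    · rw [hmap, Ideal.span_singleton_le_iff_mem]
      intro hmem
      have h2 := (𝔮.intValuation_le_pow_iff_mem b (n + 1)).mpr hmem
      rw [hvaln, WithZero.exp_le_exp] at h2
      push_cast at h2
      omega
  rw [← Ideal.ramificationIdx'_eq_ramificationIdx' (P.under A) P hmap0, h1]

end IdealBridge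

section IdealFF

variable {L : Type*} [Field L] [Algebra ℚ L]

/-- `j` is transcendental over every coefficient field inside `ℚ̄` -/
theorem transcendental_jBC (ι : L →+* AlgebraicClosure ℚ) (N : ℕ) [NeZero N] :
    Transcendental L (jBC L N) := by
  rintro ⟨p, hp0, hp⟩
  have h1 := congrArg (CoeffBC.bc ι (modularFunctionFieldFull N)) hp
  rw [bc_aeval, map_zero] at h1
  have h2 : p.map ι ≠ 0 := by
    rw [Ne, Polynomial.map_eq_zero_iff ι.injective]
    exact hp0
  exact (bar_transcendental N).1 ⟨p.map ι, h2, h1⟩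

/-- **P4a in ideal currency**: `BF` a Dedekind domain with fraction field `FF L N`, an algebra
over `L[X]` (with `X ↦ j`).  For a nonzero prime `P` of `BF` (lying over a nonzero prime of
`L[X]`), the ramification index over `L[X]` divides `3` if `P` lies over `(X)`, divides `2` if
`P` lies over `(X - 1728)`, and is `1` otherwise. -/
theorem ramificationIdx_of_hom (ι : L →+* AlgebraicClosure ℚ) (N : ℕ) [NeZero N]
    [Algebra L[X] (FF L N)] [IsScalarTower L L[X] (FF L N)]
    (hX : algebraMap L[X] (FF L N) X = jBC L N)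
    {BF : Type*} [CommRing BF] [IsDedekindDomain BF] [Algebra L[X] BF] [Algebra BF (FF L N)]
    [IsScalarTower L[X] BF (FF L N)] [IsFractionRing BF (FF L N)]
    (P : Ideal BF) [hPp : P.IsPrime] (hP : P ≠ ⊥) (hP' : P.under L[X] ≠ ⊥) :
    (X ∈ P.under L[X] → P.ramificationIdx L[X] ∣ 3) ∧
    (X - C 1728 ∈ P.under L[X] → P.ramificationIdx L[X] ∣ 2) ∧
    (X ∉ P.under L[X] → X - C 1728 ∉ P.under L[X] → P.ramificationIdx L[X] = 1) := by
  have hK : ∀ a : L, algebraMap L (FF L N) a ∈ (algebraMap BF (FF L N)).range := fun a =>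
    ⟨algebraMap L[X] BF (C a), by
      rw [← IsScalarTower.algebraMap_apply L[X] BF (FF L N), ← Polynomial.algebraMap_eq,
        ← IsScalarTower.algebraMap_apply L L[X] (FF L N)]⟩
  have haev : ∀ p : L[X], algebraMap L[X] (FF L N) p = aeval (jBC L N) p := by
    intro p
    rw [← hX, Polynomial.aeval_algebraMap_apply, Polynomial.aeval_X_left_apply]
  have htr := transcendental_jBC ι N
  have hne : ∀ g : L[X], g ≠ 0 → algebraMap L[X] BF g ≠ 0 := by
    intro g hg h0
    have h1 : algebraMap L[X] (FF L N) g = 0 := by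
      rw [IsScalarTower.algebraMap_apply L[X] BF (FF L N), h0, map_zero]
    rw [haev] at h1
    exact htr ⟨g, hg, h1⟩
  set v := PrimeBridge.placeOfPrime BF hK ⟨P, hPp, hP⟩ with hv
  have hprime : (P.under L[X]).IsPrime := Ideal.comap_isPrime _ _
  have key : ∀ g : L[X], g ≠ 0 → P.under L[X] = Ideal.span {g} →
      ((P.ramificationIdx L[X] : ℕ) : ℤ) = v.ord (aeval (jBC L N) g) ∧
        0 < v.ord (aeval (jBC L N) g) := by
    intro g hg hPg
    have h1 := ramificationIdx_eq_ord hK P hP g (hne g hg) hPg
    rw [← IsScalarTower.algebraMap_apply L[X] BF (FF L N), haev] at h1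
    refine ⟨h1, ?_⟩
    have hmem : algebraMap L[X] BF g ∈ P := by
      have : g ∈ P.under L[X] := by rw [hPg]; exact Ideal.mem_span_singleton_self g
      exact this
    have h2 := (PrimeBridge.placeOfPrime_ord_pos_iff BF hK ⟨P, hPp, hP⟩ _ (hne g hg)).mpr hmem
    rw [← IsScalarTower.algebraMap_apply L[X] BF (FF L N), haev] at h2
    exact h2
  have hmax : ∀ g : L[X], Irreducible g → g ∈ P.under L[X] → P.under L[X] = Ideal.span {g} := by
    intro g hg hmem
    have hm : (Ideal.span {g}).IsMaximal := PrincipalIdealRing.isMaximal_of_irreducible hg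
    exact (hm.eq_of_le hprime.ne_top ((Ideal.span_singleton_le_iff_mem _).mpr hmem)).symm
  refine ⟨fun hXmem => ?_, fun hXmem => ?_, fun hX0 hX1 => ?_⟩
  · obtain ⟨h1, h2⟩ := key X Polynomial.X_ne_zero (hmax X Polynomial.irreducible_X hXmem)
    have h3 := (ramJ_of_hom ι N v X Polynomial.irreducible_X h2).1 rfl
    rw [← h1] at h3
    exact_mod_cast h3
  · have hirr := Polynomial.irreducible_X_sub_C (1728 : L)
    obtain ⟨h1, h2⟩ := key (X - C 1728) hirr.ne_zero (hmax _ hirr hXmem)
    have h3 := (ramJ_of_hom ι N v (X - C 1728) hirr h2).2.1 rfl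
    rw [← h1] at h3
    exact_mod_cast h3
  · obtain ⟨g, hg⟩ : ∃ g : L[X], P.under L[X] = Ideal.span {g} :=
      ⟨_, (Ideal.span_singleton_generator _).symm⟩
    have hg0 : g ≠ 0 := by
      rintro rfl
      apply hP'
      rw [hg, Ideal.span_singleton_eq_bot]
    have hgirr : Irreducible g := by
      have h1 : (Ideal.span {g}).IsPrime := hg ▸ hprime
      exact ((Ideal.span_singleton_prime hg0).mp h1).irreducible
    obtain ⟨h1, h2⟩ := key g hg0 hg
    have hnX : ¬ Associated g X := by
      intro h
      apply hX0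
      rw [hg, Ideal.span_singleton_eq_span_singleton.mpr h]
      exact Ideal.mem_span_singleton_self X
    have hnX' : ¬ Associated g (X - C 1728) := by
      intro h
      apply hX1
      rw [hg, Ideal.span_singleton_eq_span_singleton.mpr h]
      exact Ideal.mem_span_singleton_self _
    have h3 := (ramJ_of_hom ι N v g hgirr h2).2.2 hnX hnX'
    rw [← h1] at h3
    exact_mod_cast h3

/-- `ramificationIdx_of_hom` for an integral closure: the hypothesis `P.under L[X] ≠ ⊥` is
automatic -/
theorem ramificationIdx_of_hom' (ι : L →+* AlgebraicClosure ℚ) (N : ℕ) [NeZero N]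
    [Algebra L[X] (FF L N)] [IsScalarTower L L[X] (FF L N)]
    (hX : algebraMap L[X] (FF L N) X = jBC L N)
    {BF : Type*} [CommRing BF] [IsDedekindDomain BF] [Algebra L[X] BF] [Algebra BF (FF L N)]
    [IsScalarTower L[X] BF (FF L N)] [IsFractionRing BF (FF L N)] [Algebra.IsIntegral L[X] BF]
    (P : Ideal BF) [hPp : P.IsPrime] (hP : P ≠ ⊥) :
    (X ∈ P.under L[X] → P.ramificationIdx L[X] ∣ 3) ∧
    (X - C 1728 ∈ P.under L[X] → P.ramificationIdx L[X] ∣ 2) ∧
    (X ∉ P.under L[X] → X - C 1728 ∉ P.under L[X] → P.ramificationIdx L[X] = 1) := by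
  refine ramificationIdx_of_hom ι N hX P hP ?_
  obtain ⟨b, hb, hb0⟩ := Submodule.exists_mem_ne_zero_of_ne_bot hP
  exact Ideal.comap_ne_bot_of_integral_mem hb0 hb (Algebra.IsIntegral.isIntegral b)

end IdealFF

end Fermat.Agent.S18.RamJ
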