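import Mathlib
import Fermat.Agent.S18.RamJIdeal
import Fermat.Agent.S18.KummerRamPlace

/-!
# S18 (plan v2, row D''): ramification of `F2 = F(u)` over the `j`-line

The statement of `RamJ.ramificationIdx_of_hom'` with the Kummer extension `F2 = FF L N (u)`,
`u ^ s = w`, in place of `FF L N`, under the divisor hypothesis `(H1)`
(`∀ v : Place L (FF L N), (s : ℤ) ∣ v.ord w`): a nonzero prime `P2` of the integral closure of
`L[X]` (`X ↦ j`) in `F2` has ramification index dividing `3` over `(X)`, dividing `2` over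
`(X - 1728)`, and `1` otherwise.
-/

set_option autoImplicit false

namespace Fermat.Agent.S18.KummerRamJ

open AlgebraicCurve ModularCurve Polynomial
open Fermat.Agent.S24

variable {L : Type*} [Field L] [Algebra ℚ L]

/-- **Row D'' on the `j`-chart.** -/
theorem ramificationIdx_kummer_of_hom (ι : L →+* AlgebraicClosure ℚ) (N : ℕ) [NeZero N]
    [Algebra L[X] (FF L N)] [IsScalarTower L L[X] (FF L N)]
    (hX : algebraMap L[X] (FF L N) X = jBC L N)
    {K : Type*} [Field K] [Algebra L[X] K] [IsFractionRing L[X] K] [Algebra K (FF L N)]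
    [IsScalarTower L[X] K (FF L N)] [FiniteDimensional K (FF L N)]
    {F2 : Type*} [Field F2] [Algebra K F2] [Algebra L[X] F2] [IsScalarTower L[X] K F2]
    [FiniteDimensional K F2] [Algebra (FF L N) F2] [IsScalarTower K (FF L N) F2]
    {BF2 : Type*} [CommRing BF2] [Algebra L[X] BF2] [Algebra BF2 F2] [IsScalarTower L[X] BF2 F2]
    [IsIntegralClosure BF2 L[X] F2]
    (s : ℕ) (hs : 0 < s) (u : F2) (w : FF L N) (huw : u ^ s = algebraMap (FF L N) F2 w)
    (hirr : Irreducible (X ^ s - C w : (FF L N)[X])) (hdeg : Module.finrank (FF L N) F2 = s)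
    (hw0 : w ≠ 0) (hdiv : ∀ v : Place L (FF L N), (s : ℤ) ∣ v.ord w)
    (P2 : Ideal BF2) [P2.IsPrime] (hP2 : P2 ≠ ⊥) :
    (X ∈ P2.under L[X] → P2.ramificationIdx L[X] ∣ 3) ∧
    (X - C 1728 ∈ P2.under L[X] → P2.ramificationIdx L[X] ∣ 2) ∧
    (X ∉ P2.under L[X] → X - C 1728 ∉ P2.under L[X] → P2.ramificationIdx L[X] = 1) := by
  classical
  have hL : ∀ a : L, ∃ r : L[X], algebraMap L[X] (FF L N) r = algebraMap L (FF L N) a := by
    intro a
    refine ⟨C a, ?_⟩
    rw [IsScalarTower.algebraMap_apply L L[X] (FF L N), Polynomial.algebraMap_apply,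
      Algebra.algebraMap_self, RingHom.id_apply]
  obtain ⟨P, hPp, hP0, hunder, he⟩ :=
    KummerRamPlace.exists_prime_ramificationIdx_eq_of_places (L₀ := L) (A := L[X]) (K := K)
      (F := FF L N) (BF := integralClosure L[X] (FF L N)) hL s hs u w huw hirr hdeg hw0 hdiv
      P2 hP2
  have : CharZero L[X] := algebraRat.charZero L[X]
  have : CharZero K := charZero_of_injective_algebraMap (IsFractionRing.injective L[X] K)
  have : Algebra.IsSeparable K (FF L N) := inferInstance
  have : IsDedekindDomain (integralClosure L[X] (FF L N)) :=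
    IsIntegralClosure.isDedekindDomain L[X] K (FF L N) _
  have : IsFractionRing (integralClosure L[X] (FF L N)) (FF L N) :=
    IsIntegralClosure.isFractionRing_of_finite_extension L[X] K (FF L N) _
  have : Algebra.IsIntegral L[X] (integralClosure L[X] (FF L N)) :=
    IsIntegralClosure.isIntegral_algebra L[X] (FF L N)
  have key := RamJ.ramificationIdx_of_hom' ι N hX P hP0
  rw [hunder, ← he] at key
  exact key

end Fermat.Agent.S18.KummerRamJ
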