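import Mathlib
import Fermat.Agent.S18.FunctionFieldKit
import Fermat.Agent.S18.KummerRamJ
import Fermat.Agent.S18.GaussDegree

set_option autoImplicit false
set_option linter.style.haveILetI false

/-!
# S18: the `j`-line structures on `FF L N` and on `F2 = FF L N (u)`; ramification input for `F2`

One-call form of the hypothesis `hF` of `Abhyankar.isUnramifiedAt_finite_chart` /
`HorizU.hU_of_branch` for `F := F2`: no `K`-structure is asked from the caller.
-/

namespace Fermat.Agent.S18.FFKit

open Polynomial AlgebraicCurve ModularCurve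
open Fermat.Agent.S24

variable {L : Type*} [Field L] [Algebra ℚ L]

/-- `FF L N` is finite over `K = Frac L[X]` for the structure `X ↦ j`. -/
theorem finiteDimensional_FF (ι : L →+* AlgebraicClosure ℚ) (N : ℕ) [NeZero N]
    (K : Type*) [Field K] [Algebra L[X] K] [IsFractionRing L[X] K] :
    letI := ratAlgebra K (jBC L N) (RamJ.transcendental_jBC ι N)
    FiniteDimensional K (FF L N) := by
  haveI := (Gauss.finrank_FF_le L N).1
  exact ratAlgebra_finite K (jBC L N) (RamJ.transcendental_jBC ι N)

/-- **Ramification of `F2 = FF L N (u)`, `u ^ s = w`, over the `j`-line, one call.**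
`BF2` is any integral closure of `L[X]` in `F2` for an `L[X]`-structure on `F2` with `X ↦ j`
(hypothesis `hA`).  Conclusion = the hypothesis `hF` of
`Abhyankar.isUnramifiedAt_finite_chart` with `F := F2`. -/
theorem ramificationIdx_F2 (ι : L →+* AlgebraicClosure ℚ) (N : ℕ) [NeZero N]
    {F2 : Type*} [Field F2] [Algebra (FF L N) F2]
    (s : ℕ) (hs : 0 < s) (u : F2) (w : FF L N) (huw : u ^ s = algebraMap (FF L N) F2 w)
    (hirr : Irreducible (X ^ s - C w : (FF L N)[X])) (hdeg : Module.finrank (FF L N) F2 = s)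
    (hw0 : w ≠ 0) (hdiv : ∀ v : Place L (FF L N), (s : ℤ) ∣ v.ord w)
    {BF2 : Type*} [CommRing BF2] [Algebra L[X] BF2] [Algebra BF2 F2] [Algebra L[X] F2]
    [IsScalarTower L[X] BF2 F2] [IsIntegralClosure BF2 L[X] F2]
    (hA : ∀ p : L[X], algebraMap L[X] F2 p = algebraMap (FF L N) F2 (aeval (jBC L N) p)) :
    ∀ P : Ideal BF2, P.IsPrime → P ≠ ⊥ →
      (X ∈ P.under L[X] → P.ramificationIdx L[X] ∣ 3) ∧
      (X - C 1728 ∈ P.under L[X] → P.ramificationIdx L[X] ∣ 2) ∧
      (X ∉ P.under L[X] → X - C 1728 ∉ P.under L[X] → P.ramificationIdx L[X] = 1) := by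
  intro P hP hP0
  have htr : Transcendental L (jBC L N) := RamJ.transcendental_jBC ι N
  let K := FractionRing L[X]
  -- structures on `FF L N`
  letI : Algebra L[X] (FF L N) := polyAlgebra (jBC L N)
  haveI : IsScalarTower L L[X] (FF L N) := polyAlgebra_isScalarTower (jBC L N)
  have hX : algebraMap L[X] (FF L N) X = jBC L N := polyAlgebra_X (jBC L N)
  letI : Algebra K (FF L N) := ratAlgebra K (jBC L N) htr
  haveI : IsScalarTower L[X] K (FF L N) := ratAlgebra_isScalarTower K (jBC L N) htr
  haveI : FiniteDimensional K (FF L N) := finiteDimensional_FF ι N K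
  -- structures on `F2`
  letI : Algebra L F2 := ((algebraMap (FF L N) F2).comp (algebraMap L (FF L N))).toAlgebra
  haveI : IsScalarTower L (FF L N) F2 := IsScalarTower.of_algebraMap_eq (fun _ => rfl)
  have htr2 : Transcendental L (algebraMap (FF L N) F2 (jBC L N)) := transcendental_algebraMap htr
  letI : Algebra K F2 := ratAlgebra K (algebraMap (FF L N) F2 (jBC L N)) htr2
  haveI : IsScalarTower K (FF L N) F2 :=
    ratAlgebra_isScalarTower_of_map K (jBC L N) htr _ htr2 rfl
  haveI : IsScalarTower L[X] K F2 := IsScalarTower.of_algebraMap_eq (fun p => by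
    rw [hA, ratAlgebra_algebraMap, Polynomial.aeval_algebraMap_apply])
  haveI : FiniteDimensional (FF L N) F2 := by
    apply Module.finite_of_finrank_pos
    rw [hdeg]; exact hs
  haveI : FiniteDimensional K F2 := FiniteDimensional.trans K (FF L N) F2
  haveI := hP
  exact KummerRamJ.ramificationIdx_kummer_of_hom ι N hX (K := K) s hs u w huw hirr hdeg hw0 hdiv
    P hP0

end Fermat.Agent.S18.FFKit
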