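import Mathlib

set_option autoImplicit false

namespace Fermat.Agent.S18

open Polynomial

namespace AuxCover

/-- The Legendre polynomial `256 (X² - X + 1)³ - t X² (X - 1)²`. -/
noncomputable def legendrePoly {R : Type*} [CommRing R] (t : R) : R[X] :=
  C 256 * (X ^ 2 - X + 1) ^ 3 - C t * (X ^ 2 * (X - 1) ^ 2)

/-- The Hesse polynomial `27 X³ (X³ + 8)³ - t (X³ - 1)³`. -/
noncomputable def hessePoly {R : Type*} [CommRing R] (t : R) : R[X] :=
  C 27 * (X ^ 3 * (X ^ 3 + 8) ^ 3) - C t * (X ^ 3 - 1) ^ 3

theorem derivative_legendrePoly {R : Type*} [CommRing R] (t : R) :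
    derivative (legendrePoly t) =
      (2 * X - 1) * (C 768 * (X ^ 2 - X + 1) ^ 2 - C (2 * t) * (X * (X - 1))) := by
  unfold legendrePoly
  simp only [derivative_sub, derivative_mul, derivative_C, derivative_pow, derivative_add,
    derivative_X, derivative_one, map_mul, map_ofNat, derivative_ofNat]
  simp only [Nat.cast_ofNat, map_ofNat, Nat.reduceSub]
  ring

theorem derivative_hessePoly {R : Type*} [CommRing R] (t : R) :
    derivative (hessePoly t) =
      3 * X ^ 2 * (C 108 * ((X ^ 3 + 8) ^ 2 * (X ^ 3 + 2)) - C (3 * t) * (X ^ 3 - 1) ^ 2) := by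
  unfold hessePoly
  simp only [derivative_sub, derivative_mul, derivative_C, derivative_pow, derivative_add,
    derivative_X, derivative_one, map_mul, map_ofNat, derivative_ofNat]
  simp only [Nat.cast_ofNat, map_ofNat, Nat.reduceSub]
  ring

theorem aeval_legendrePoly {R S : Type*} [CommRing R] [CommRing S] [Algebra R S] (t : R) (a : S) :
    aeval a (legendrePoly t) =
      256 * (a ^ 2 - a + 1) ^ 3 - algebraMap R S t * (a ^ 2 * (a - 1) ^ 2) := by
  simp only [legendrePoly, map_sub, map_mul, map_pow, map_add, aeval_C, aeval_X, map_one,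
    map_ofNat]

theorem aeval_hessePoly {R S : Type*} [CommRing R] [CommRing S] [Algebra R S] (t : R) (a : S) :
    aeval a (hessePoly t) =
      27 * (a ^ 3 * (a ^ 3 + 8) ^ 3) - algebraMap R S t * (a ^ 3 - 1) ^ 3 := by
  simp only [hessePoly, map_sub, map_mul, map_pow, map_add, aeval_C, aeval_X, map_one,
    map_ofNat]

theorem aeval_derivative_legendrePoly {R S : Type*} [CommRing R] [CommRing S] [Algebra R S]
    (t : R) (a : S) :
    aeval a (derivative (legendrePoly t)) =
      (2 * a - 1) * (768 * (a ^ 2 - a + 1) ^ 2 - 2 * algebraMap R S t * (a * (a - 1))) := by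
  rw [derivative_legendrePoly]
  simp only [map_sub, map_mul, map_pow, map_add, aeval_C, aeval_X, map_one, map_ofNat]

theorem aeval_derivative_hessePoly {R S : Type*} [CommRing R] [CommRing S] [Algebra R S]
    (t : R) (a : S) :
    aeval a (derivative (hessePoly t)) =
      3 * a ^ 2 *
        (108 * ((a ^ 3 + 8) ^ 2 * (a ^ 3 + 2)) - 3 * algebraMap R S t * (a ^ 3 - 1) ^ 2) := by
  rw [derivative_hessePoly]
  simp only [map_sub, map_mul, map_pow, map_add, aeval_C, aeval_X, map_one, map_ofNat]

/-- Core algebra of the Legendre family: a common root of the polynomial and its derivative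
forces `t = 0` or `t = 1728` (when `2` is invertible). -/
theorem legendre_core {F : Type*} [Field F] (h2 : (2 : F) ≠ 0) (T a : F)
    (e1 : 256 * (a ^ 2 - a + 1) ^ 3 - T * (a ^ 2 * (a - 1) ^ 2) = 0)
    (e2 : (2 * a - 1) * (768 * (a ^ 2 - a + 1) ^ 2 - 2 * T * (a * (a - 1))) = 0) :
    T = 0 ∨ T = 1728 := by
  have h256 : (256 : F) ≠ 0 := by
    have : (256 : F) = 2 ^ 8 := by norm_num
    rw [this]; exact pow_ne_zero _ h2
  rcases mul_eq_zero.mp e2 with h | h
  · -- a = 1/2
    right
    linear_combination (-16 : F) * e1 +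
      (2048 * a ^ 5 - 5120 * a ^ 4 + 9728 * a ^ 3 - 9472 * a ^ 2 + 7552 * a - 2368
        - T * (8 * a ^ 3 - 12 * a ^ 2 + 2 * a + 1)) * h
  · -- u = a^2 - a + 1, w = a (a - 1) = u - 1 ; 384 u^2 = T w ; 256 u^3 = T w^2
    have key : 256 * ((a ^ 2 - a + 1) ^ 2 * ((a ^ 2 - a + 1) - 3)) = 0 := by
      linear_combination (-2 : F) * e1 + (a * (a - 1)) * h
    rcases mul_eq_zero.mp ((mul_eq_zero.mp key).resolve_left h256) with hu | hu
    · left
      have hu0 : a ^ 2 - a + 1 = 0 := by simpa using hu
      have hw : a * (a - 1) = -1 := by linear_combination hu0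
      have : 2 * T = 0 := by
        have := h
        rw [hu0, hw] at this
        linear_combination this
      exact (mul_eq_zero.mp this).resolve_left h2
    · right
      have hu3 : a ^ 2 - a + 1 = 3 := by linear_combination hu
      have hw : a * (a - 1) = 2 := by linear_combination hu3
      have : 4 * T = 4 * 1728 := by
        have := h
        rw [hu3, hw] at this
        linear_combination -this
      have h4 : (4 : F) ≠ 0 := by
        have : (4 : F) = 2 ^ 2 := by norm_num
        rw [this]; exact pow_ne_zero _ h2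
      exact mul_left_cancel₀ h4 this

/-- Core algebra of the Hesse family: a common root of the polynomial and its derivative
forces `t = 0` or `t = 1728` (when `3` is invertible). -/
theorem hesse_core {F : Type*} [Field F] (h3 : (3 : F) ≠ 0) (T a : F)
    (e1 : 27 * (a ^ 3 * (a ^ 3 + 8) ^ 3) - T * (a ^ 3 - 1) ^ 3 = 0)
    (e2 : 3 * a ^ 2 *
        (108 * ((a ^ 3 + 8) ^ 2 * (a ^ 3 + 2)) - 3 * T * (a ^ 3 - 1) ^ 2) = 0) :
    T = 0 ∨ T = 1728 := by
  have h27 : (27 : F) ≠ 0 := by
    have : (27 : F) = 3 ^ 3 := by norm_num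
    rw [this]; exact pow_ne_zero _ h3
  have h729 : (729 : F) ≠ 0 := by
    have : (729 : F) = 3 ^ 6 := by norm_num
    rw [this]; exact pow_ne_zero _ h3
  rcases mul_eq_zero.mp e2 with h | h
  · -- a = 0
    left
    have ha : a = 0 := by
      rcases mul_eq_zero.mp h with h' | h'
      · exact absurd h' h3
      · exact pow_eq_zero_iff (two_ne_zero) |>.mp h'
    rw [ha] at e1
    linear_combination e1
  · set y : F := a ^ 3 with hy
    have key : 27 * ((y + 8) ^ 2 * (y ^ 2 - 20 * y - 8)) = 0 := by
      linear_combination (y - 1) * h - 3 * e1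
    rcases mul_eq_zero.mp ((mul_eq_zero.mp key).resolve_left h27) with hu | hu
    · left
      have hy8 : y = -8 := by
        have : y + 8 = 0 := by simpa using hu
        linear_combination this
      rw [hy8] at e1
      have : 729 * T = 0 := by linear_combination e1
      exact (mul_eq_zero.mp this).resolve_left h729
    · right
      have h1 : (T - 1728) * (y - 1) ^ 3 = 0 := by
        linear_combination (-1 : F) * e1 + 27 * (y ^ 2 - 20 * y - 8) * hu
      rcases mul_eq_zero.mp h1 with h' | h'
      · linear_combination h'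
      · exfalso
        have hy1 : y = 1 := by
          have : y - 1 = 0 := by simpa using h'
          linear_combination this
        rw [hy1] at hu
        apply h27
        linear_combination -hu

theorem legendrePoly_separable {K : Type*} [Field K] (h2 : (2 : K) ≠ 0) (t : K) (ht0 : t ≠ 0)
    (ht : t ≠ 1728) : (legendrePoly t).Separable := by
  rw [separable_def, Polynomial.isCoprime_iff_aeval_ne_zero_of_isAlgClosed K (AlgebraicClosure K)]
  intro a
  by_contra hcon
  push Not at hcon
  obtain ⟨h1, h1'⟩ := hcon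
  rw [aeval_legendrePoly] at h1
  rw [aeval_derivative_legendrePoly] at h1'
  have h2' : (2 : AlgebraicClosure K) ≠ 0 := by
    have := (map_ne_zero (algebraMap K (AlgebraicClosure K))).mpr h2
    rwa [map_ofNat] at this
  rcases legendre_core h2' _ a h1 h1' with h | h
  · exact ht0 ((map_eq_zero _).mp h)
  · apply ht
    apply (algebraMap K (AlgebraicClosure K)).injective
    rw [h, map_ofNat]

theorem hessePoly_separable {K : Type*} [Field K] (h3 : (3 : K) ≠ 0) (t : K) (ht0 : t ≠ 0)
    (ht : t ≠ 1728) : (hessePoly t).Separable := by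
  rw [separable_def, Polynomial.isCoprime_iff_aeval_ne_zero_of_isAlgClosed K (AlgebraicClosure K)]
  intro a
  by_contra hcon
  push Not at hcon
  obtain ⟨h1, h1'⟩ := hcon
  rw [aeval_hessePoly] at h1
  rw [aeval_derivative_hessePoly] at h1'
  have h3' : (3 : AlgebraicClosure K) ≠ 0 := by
    have := (map_ne_zero (algebraMap K (AlgebraicClosure K))).mpr h3
    rwa [map_ofNat] at this
  rcases hesse_core h3' _ a h1 h1' with h | h
  · exact ht0 ((map_eq_zero _).mp h)
  · apply ht
    apply (algebraMap K (AlgebraicClosure K)).injective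
    rw [h, map_ofNat]

end AuxCover

end Fermat.Agent.S18
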