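import Mathlib
import Fermat.Agent.S18.AuxCover
import Fermat.Agent.S18.AwayPoly

set_option autoImplicit false
set_option linter.style.haveILetI false
set_option linter.unusedSimpArgs false

namespace Fermat.Agent.S18

open Polynomial

namespace Hesse

open AuxCover

section Identities

variable {S : Type*} [CommRing S]

/-- The `j`-invariant of the Hesse pencil as a function of the parameter `x`, with
`z = 1/(x³ - 1)`: `27 x³ (x³+8)³ / (x³-1)³`. -/
def hesJ (x z : S) : S := 27 * x ^ 3 * (x ^ 3 + 8) ^ 3 * z ^ 3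

/-- The cube root of `hesJ`: `3 x (x³+8)/(x³-1)` (first Kummer step). -/
def hesG (x z : S) : S := 3 * x * (x ^ 3 + 8) * z

theorem hesG_pow_three (x z : S) : hesG x z ^ 3 = hesJ x z := by
  unfold hesG hesJ; ring

theorem hesJ_mul (x z : S) (hz : (x ^ 3 - 1) * z = 1) :
    hesJ x z * (x ^ 3 - 1) ^ 3 = 27 * (x ^ 3 * (x ^ 3 + 8) ^ 3) := by
  unfold hesJ
  linear_combination
    (27 * x ^ 3 * (x ^ 3 + 8) ^ 3 * (((x ^ 3 - 1) * z) ^ 2 + (x ^ 3 - 1) * z + 1)) * hz

theorem cube_eq_one_of_root {w : S} (hw : w ^ 2 + w + 1 = 0) : w ^ 3 = 1 := by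
  linear_combination (w - 1) * hw

/-- `hesG - 12 v` is (a unit times) a square, for every cube root of unity `v`. -/
theorem hesG_sub (x z v : S) (hz : (x ^ 3 - 1) * z = 1) (hv : v ^ 3 = 1) :
    hesG x z - 12 * v = 3 * v * (v * x ^ 2 - 2 * v ^ 2 * x - 2) ^ 2 * z := by
  unfold hesG
  linear_combination 12 * v * hz
    - 3 * z * (x ^ 4 - 4 * v * x ^ 3 + 4 * v ^ 2 * x ^ 2 + 8 * x) * hv

theorem hesG_sub_twelve (x z : S) (hz : (x ^ 3 - 1) * z = 1) :
    hesG x z - 12 = 3 * (x ^ 2 - 2 * x - 2) ^ 2 * z := by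
  unfold hesG
  linear_combination 12 * hz

theorem hesJ_sub (x z : S) (hz : (x ^ 3 - 1) * z = 1) :
    hesJ x z - 1728 = 27 * (x ^ 6 - 20 * x ^ 3 - 8) ^ 2 * z ^ 3 := by
  unfold hesJ
  linear_combination 1728 * (((x ^ 3 - 1) * z) ^ 2 + (x ^ 3 - 1) * z + 1) * hz

/-- `(a - b)(a - w b)(a - w² b) = a³ - b³` for a primitive cube root of unity `w`. -/
theorem cube_sub_cube (a b w : S) (hw : w ^ 2 + w + 1 = 0) :
    (a - b) * (a - w * b) * (a - w ^ 2 * b) = a ^ 3 - b ^ 3 := by
  linear_combination (-a ^ 2 * b + w * a * b ^ 2 - (w - 1) * b ^ 3) * hw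

theorem hesJ_sub_factor (x z w : S) (hw : w ^ 2 + w + 1 = 0) :
    (hesG x z - 12) * (hesG x z - w * 12) * (hesG x z - w ^ 2 * 12) = hesJ x z - 1728 := by
  rw [cube_sub_cube _ _ _ hw, hesG_pow_three]; norm_num


/-! ### The twelve conjugates -/

/-- `1/(x - 1)`, written with `z = 1/(x³ - 1)`. -/
def hesI0 (x z : S) : S := z * (x ^ 2 + x + 1)

/-- `1/(w x - 1)`, written with `z = 1/(x³ - 1)`. -/
def hesI1 (x z w : S) : S := z * ((x - 1) * (w ^ 2 * x - 1))

/-- `1/(w² x - 1)`, written with `z = 1/(x³ - 1)`. -/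
def hesI2 (x z w : S) : S := z * ((x - 1) * (w * x - 1))

theorem hesI0_mul (x z : S) (hz : (x ^ 3 - 1) * z = 1) : hesI0 x z * (x - 1) = 1 := by
  unfold hesI0; linear_combination hz

theorem hesI1_mul (x z w : S) (hz : (x ^ 3 - 1) * z = 1) (hw : w ^ 2 + w + 1 = 0) :
    hesI1 x z w * (w * x - 1) = 1 := by
  unfold hesI1; linear_combination hz + z * (x - 1) * ((w - 1) * x ^ 2 - x) * hw

theorem hesI2_mul (x z w : S) (hz : (x ^ 3 - 1) * z = 1) (hw : w ^ 2 + w + 1 = 0) :
    hesI2 x z w * (w ^ 2 * x - 1) = 1 := by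
  unfold hesI2; linear_combination hz + z * (x - 1) * ((w - 1) * x ^ 2 - x) * hw

/-- The conjugate `(x + 2)/(x - 1)`. -/
def hesC0 (x z : S) : S := (x + 2) * hesI0 x z

/-- The conjugate `(w x + 2)/(w x - 1)`. -/
def hesC1 (x z w : S) : S := (w * x + 2) * hesI1 x z w

/-- The conjugate `(w² x + 2)/(w² x - 1)`. -/
def hesC2 (x z w : S) : S := (w ^ 2 * x + 2) * hesI2 x z w

/-- `(X - a)(X - w a)(X - w² a) = X³ - a³` in `S[X]`. -/
theorem X_sub_C_cube (a w : S) (hw : w ^ 2 + w + 1 = 0) :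
    (X - C a) * (X - C (w * a)) * (X - C (w ^ 2 * a)) = X ^ 3 - C (a ^ 3) := by
  have hw' : (C w : S[X]) ^ 2 + C w + 1 = 0 := by
    have := congrArg (C : S → S[X]) hw
    simpa using this
  simp only [map_mul, map_pow]
  exact cube_sub_cube X (C a) (C w) hw'

/-- The circulant identity. -/
theorem circulant (a b c w : S) (hw : w ^ 2 + w + 1 = 0) :
    (a + b + c) * (a + b * w + c * w ^ 2) * (a + b * w ^ 2 + c * w) =
      a ^ 3 + b ^ 3 + c ^ 3 - 3 * a * b * c := by
  linear_combination (a + b + c) *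
    ((b ^ 2 + c ^ 2) * (w - 1) + a * b + a * c + b * c * (w ^ 2 - w + 1)) * hw

/-- The norm form of the cubic `p(u) = (u - 1)³ Y - (u + 2)³` over `u ∈ {x, w x, w² x}`. -/
theorem norm_cubic (Y x w : S) (hw : w ^ 2 + w + 1 = 0) :
    (Y - x ^ 3) * (((x - 1) ^ 3 * Y - (x + 2) ^ 3) * ((w * x - 1) ^ 3 * Y - (w * x + 2) ^ 3) *
      ((w ^ 2 * x - 1) ^ 3 * Y - (w ^ 2 * x + 2) ^ 3)) =
      Y * (Y + 8) ^ 3 * (x ^ 3 - 1) ^ 3 - x ^ 3 * (x ^ 3 + 8) ^ 3 * (Y - 1) ^ 3 := by
  have hw3 : w ^ 3 = 1 := cube_eq_one_of_root hw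
  set α : S := (Y - 1) * x ^ 3 - (Y + 8) with hα
  set β : S := (3 * Y - 12) * x with hβ
  set γ : S := -(3 * Y + 6) * x ^ 2 with hγ
  have h0 : (x - 1) ^ 3 * Y - (x + 2) ^ 3 = α + β + γ := by rw [hα, hβ, hγ]; ring
  have h1 : (w * x - 1) ^ 3 * Y - (w * x + 2) ^ 3 = α + β * w + γ * w ^ 2 := by
    rw [hα, hβ, hγ]; linear_combination ((Y - 1) * x ^ 3) * hw3
  have h2 : (w ^ 2 * x - 1) ^ 3 * Y - (w ^ 2 * x + 2) ^ 3 = α + β * w ^ 2 + γ * w := by
    rw [hα, hβ, hγ]
    linear_combination ((Y - 1) * (w ^ 3 + 1) * x ^ 3 + (-(3 * Y + 6) * x ^ 2) * w) * hw3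
  rw [h0, h1, h2, circulant α β γ w hw, hα, hβ, hγ]
  ring

/-- Clearing the denominator of a conjugate. -/
theorem X_cube_sub_conj (u v : S) (hv : v * (u - 1) = 1) :
    (X ^ 3 - C (((u + 2) * v) ^ 3) : S[X]) =
      C (v ^ 3) * (C ((u - 1) ^ 3) * X ^ 3 - C ((u + 2) ^ 3)) := by
  have h3 : v ^ 3 * (u - 1) ^ 3 = 1 := by
    linear_combination ((v * (u - 1)) ^ 2 + v * (u - 1) + 1) * hv
  have : (C (v ^ 3) * (C ((u - 1) ^ 3) * X ^ 3 - C ((u + 2) ^ 3)) : S[X]) =
      C (v ^ 3 * (u - 1) ^ 3) * X ^ 3 - C (((u + 2) * v) ^ 3) := by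
    simp only [map_mul, map_pow]; ring
  rw [this, h3, C_1, one_mul]

/-- The Hesse polynomial of `hesJ x z` as a product of four cubics. -/
theorem hessePoly_hesJ_cubics (x z w : S) (hz : (x ^ 3 - 1) * z = 1)
    (hw : w ^ 2 + w + 1 = 0) :
    hessePoly (hesJ x z) = C 27 * ((X ^ 3 - C (x ^ 3)) * ((X ^ 3 - C (hesC0 x z ^ 3)) *
      (X ^ 3 - C (hesC1 x z w ^ 3)) * (X ^ 3 - C (hesC2 x z w ^ 3)))) := by
  have e0 := X_cube_sub_conj x (hesI0 x z) (hesI0_mul x z hz)
  have e1 := X_cube_sub_conj (w * x) (hesI1 x z w) (hesI1_mul x z w hz hw)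
  have e2 := X_cube_sub_conj (w ^ 2 * x) (hesI2 x z w) (hesI2_mul x z w hz hw)
  have hw' : (C w : S[X]) ^ 2 + C w + 1 = 0 := by
    have := congrArg (C : S → S[X]) hw
    simpa using this
  have hN := norm_cubic (X ^ 3 : S[X]) (C x) (C w) hw'
  have hprod : hesI0 x z ^ 3 * hesI1 x z w ^ 3 * hesI2 x z w ^ 3 = z ^ 3 := by
    have hw3 : w ^ 3 = 1 := cube_eq_one_of_root hw
    have h0 := hesI0_mul x z hz
    have h1 := hesI1_mul x z w hz hw
    have h2 := hesI2_mul x z w hz hw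
    have hfac : (x - 1) * (w * x - 1) * (w ^ 2 * x - 1) = x ^ 3 - 1 := by
      linear_combination (x ^ 3 - x ^ 2) * hw3 + (-(x ^ 2) + x) * hw
    have hall : (hesI0 x z * hesI1 x z w * hesI2 x z w) * (x ^ 3 - 1) = 1 := by
      rw [← hfac]
      calc hesI0 x z * hesI1 x z w * hesI2 x z w * ((x - 1) * (w * x - 1) * (w ^ 2 * x - 1))
          = (hesI0 x z * (x - 1)) * (hesI1 x z w * (w * x - 1)) *
              (hesI2 x z w * (w ^ 2 * x - 1)) := by ring
        _ = 1 := by rw [h0, h1, h2]; ring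
    have hq : hesI0 x z * hesI1 x z w * hesI2 x z w = z := by
      calc hesI0 x z * hesI1 x z w * hesI2 x z w
          = hesI0 x z * hesI1 x z w * hesI2 x z w * ((x ^ 3 - 1) * z) := by rw [hz, mul_one]
        _ = (hesI0 x z * hesI1 x z w * hesI2 x z w * (x ^ 3 - 1)) * z := by ring
        _ = z := by rw [hall, one_mul]
    calc hesI0 x z ^ 3 * hesI1 x z w ^ 3 * hesI2 x z w ^ 3
        = (hesI0 x z * hesI1 x z w * hesI2 x z w) ^ 3 := by ring
      _ = z ^ 3 := by rw [hq]
  have hz3 : z ^ 3 * (x ^ 3 - 1) ^ 3 = 1 := by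
    linear_combination (((x ^ 3 - 1) * z) ^ 2 + (x ^ 3 - 1) * z + 1) * hz
  have hJ : hesJ x z = 27 * (x ^ 3 * (x ^ 3 + 8) ^ 3) * z ^ 3 := by unfold hesJ; ring
  unfold hesC0 hesC1 hesC2
  rw [e0, e1, e2]
  have step : (C 27 * ((X ^ 3 - C (x ^ 3)) *
      (C (hesI0 x z ^ 3) * (C ((x - 1) ^ 3) * X ^ 3 - C ((x + 2) ^ 3)) *
        (C (hesI1 x z w ^ 3) * (C ((w * x - 1) ^ 3) * X ^ 3 - C ((w * x + 2) ^ 3))) *
        (C (hesI2 x z w ^ 3) * (C ((w ^ 2 * x - 1) ^ 3) * X ^ 3 - C ((w ^ 2 * x + 2) ^ 3))))) :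
        S[X]) =
      C 27 * C (hesI0 x z ^ 3 * hesI1 x z w ^ 3 * hesI2 x z w ^ 3) *
        ((X ^ 3 - C x ^ 3) * (((C x - 1) ^ 3 * X ^ 3 - (C x + 2) ^ 3) *
          ((C w * C x - 1) ^ 3 * X ^ 3 - (C w * C x + 2) ^ 3) *
          ((C w ^ 2 * C x - 1) ^ 3 * X ^ 3 - (C w ^ 2 * C x + 2) ^ 3))) := by
    simp only [map_mul, map_pow, map_sub, map_add, map_one, map_ofNat]
    ring
  rw [step, hN, hprod, hessePoly, hJ]
  have hz3' : (C z : S[X]) ^ 3 * (C x ^ 3 - 1) ^ 3 = 1 := by
    have := congrArg (C : S → S[X]) hz3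
    simpa using this
  simp only [map_mul, map_pow, map_add, map_ofNat]
  linear_combination (-(27 * (X ^ 3 * (X ^ 3 + 8) ^ 3)) : S[X]) * hz3'

/-- **The twelve-root factorisation** of the Hesse polynomial of `hesJ x z`: the roots are
`wⁱ x` and `wⁱ (wᵏ x + 2)/(wᵏ x - 1)`. -/
theorem hessePoly_hesJ (x z w : S) (hz : (x ^ 3 - 1) * z = 1) (hw : w ^ 2 + w + 1 = 0) :
    hessePoly (hesJ x z) = C 27 *
      (((X - C x) * (X - C (w * x)) * (X - C (w ^ 2 * x))) *
       (((X - C (hesC0 x z)) * (X - C (w * hesC0 x z)) * (X - C (w ^ 2 * hesC0 x z))) *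
        ((X - C (hesC1 x z w)) * (X - C (w * hesC1 x z w)) * (X - C (w ^ 2 * hesC1 x z w))) *
        ((X - C (hesC2 x z w)) * (X - C (w * hesC2 x z w)) *
          (X - C (w ^ 2 * hesC2 x z w))))) := by
  rw [X_sub_C_cube x w hw, X_sub_C_cube _ w hw, X_sub_C_cube _ w hw, X_sub_C_cube _ w hw]
  exact hessePoly_hesJ_cubics x z w hz hw

/-- The list of the twelve conjugates. -/
def hesRoots (x z w : S) : List S :=
  [x, w * x, w ^ 2 * x, hesC0 x z, w * hesC0 x z, w ^ 2 * hesC0 x z,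
   hesC1 x z w, w * hesC1 x z w, w ^ 2 * hesC1 x z w,
   hesC2 x z w, w * hesC2 x z w, w ^ 2 * hesC2 x z w]

theorem hessePoly_hesJ_list (x z w : S) (hz : (x ^ 3 - 1) * z = 1) (hw : w ^ 2 + w + 1 = 0) :
    hessePoly (hesJ x z) = C 27 * ((hesRoots x z w).map (fun r => X - C r)).prod := by
  rw [hessePoly_hesJ x z w hz hw]
  simp only [hesRoots, List.map_cons, List.map_nil, List.prod_cons, List.prod_nil, mul_one,
    mul_assoc]

theorem splits_hessePoly_hesJ (x z w : S) (hz : (x ^ 3 - 1) * z = 1) (hw : w ^ 2 + w + 1 = 0) :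
    (hessePoly (hesJ x z)).Splits := by
  rw [hessePoly_hesJ_list x z w hz hw]
  refine Splits.C_mul (Splits.listProd ?_) _
  intro f hf
  obtain ⟨r, -, rfl⟩ := List.mem_map.mp hf
  exact Splits.X_sub_C r

/-- Every conjugate is a root of the Hesse polynomial. -/
theorem eval_hesRoots (x z w : S) (hz : (x ^ 3 - 1) * z = 1) (hw : w ^ 2 + w + 1 = 0)
    (r : S) (hr : r ∈ hesRoots x z w) : (hessePoly (hesJ x z)).eval r = 0 := by
  rw [hessePoly_hesJ_list x z w hz hw, eval_mul, eval_list_prod]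
  have : (0 : S) ∈ List.map (eval r) (List.map (fun r => X - C r) (hesRoots x z w)) := by
    rw [List.mem_map]
    refine ⟨X - C r, List.mem_map.mpr ⟨r, hr, rfl⟩, ?_⟩
    simp
  rw [List.prod_eq_zero this, mul_zero]

/-- The conjugate `(u + 2)/(u - 1)` again satisfies `c³ - 1 ∈ units` (so the Möbius maps
preserve the chart `W[x, 1/(x³ - 1)]` when `3` is invertible): explicit inverse. -/
theorem conj_cube_sub_one_mul (u v z t : S) (hv : v * (u - 1) = 1) (hz : (u ^ 3 - 1) * z = 1)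
    (ht : 9 * t = 1) :
    (((u + 2) * v) ^ 3 - 1) * (t * (u - 1) ^ 4 * z) = 1 := by
  have h3 : v ^ 3 * (u - 1) ^ 3 = 1 := by
    linear_combination ((v * (u - 1)) ^ 2 + v * (u - 1) + 1) * hv
  linear_combination (t * (u - 1) * z * (u + 2) ^ 3) * h3 + (9 * t) * hz + ht

theorem hesC0_cube_sub_one_mul (x z t : S) (hz : (x ^ 3 - 1) * z = 1) (ht : 9 * t = 1) :
    (hesC0 x z ^ 3 - 1) * (t * (x - 1) ^ 4 * z) = 1 :=
  conj_cube_sub_one_mul x (hesI0 x z) z t (hesI0_mul x z hz) hz ht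

theorem hesC1_cube_sub_one_mul (x z w t : S) (hz : (x ^ 3 - 1) * z = 1)
    (hw : w ^ 2 + w + 1 = 0) (ht : 9 * t = 1) :
    (hesC1 x z w ^ 3 - 1) * (t * (w * x - 1) ^ 4 * z) = 1 := by
  have hw3 : w ^ 3 = 1 := cube_eq_one_of_root hw
  have hz' : ((w * x) ^ 3 - 1) * z = 1 := by
    linear_combination hz + (x ^ 3 * z) * hw3
  exact conj_cube_sub_one_mul (w * x) (hesI1 x z w) z t (hesI1_mul x z w hz hw) hz' ht

theorem hesC2_cube_sub_one_mul (x z w t : S) (hz : (x ^ 3 - 1) * z = 1)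
    (hw : w ^ 2 + w + 1 = 0) (ht : 9 * t = 1) :
    (hesC2 x z w ^ 3 - 1) * (t * (w ^ 2 * x - 1) ^ 4 * z) = 1 := by
  have hw3 : w ^ 3 = 1 := cube_eq_one_of_root hw
  have hz' : ((w ^ 2 * x) ^ 3 - 1) * z = 1 := by
    linear_combination hz + (x ^ 3 * z * (w ^ 3 + 1)) * hw3
  exact conj_cube_sub_one_mul (w ^ 2 * x) (hesI2 x z w) z t (hesI2_mul x z w hz hw) hz' ht

/-- `z = 1/(x³ - 1)` is a root of `27 (1 + T)(1 + 9T)³ - J T` (leading coefficient `3⁹`), so it
is integral over `W[J]` when `3` is a unit. -/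
theorem hesJ_z_equation (x z : S) (hz : (x ^ 3 - 1) * z = 1) :
    27 * ((1 + z) * (1 + 9 * z) ^ 3) - hesJ x z * z = 0 := by
  unfold hesJ
  have h1 : x ^ 3 * z = 1 + z := by linear_combination hz
  have h2 : (x ^ 3 + 8) * z = 1 + 9 * z := by linear_combination hz
  have : 27 * x ^ 3 * (x ^ 3 + 8) ^ 3 * z ^ 3 * z = 27 * ((x ^ 3 * z) * ((x ^ 3 + 8) * z) ^ 3) := by
    ring
  rw [this, h1, h2]; ring

end Identities

section Poly

variable {R : Type*} [CommRing R]

theorem hessePoly_zero : hessePoly (0 : R) = C 27 * (X * (X ^ 3 + 8)) ^ 3 := by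
  unfold hessePoly; rw [C_0]; ring

theorem hessePoly_1728 : hessePoly (1728 : R) = C 27 * (X ^ 6 - 20 * X ^ 3 - 8) ^ 2 := by
  unfold hessePoly
  have h1 : (C (1728 : R) : R[X]) = 1728 := map_ofNat C 1728
  have h2 : (C (27 : R) : R[X]) = 27 := map_ofNat C 27
  rw [h1, h2]; ring

theorem hessePoly_map {R' : Type*} [CommRing R'] (f : R →+* R') (t : R) :
    (hessePoly t).map f = hessePoly (f t) := by
  unfold hessePoly
  simp only [Polynomial.map_sub, Polynomial.map_mul, Polynomial.map_pow, Polynomial.map_add,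
    Polynomial.map_C, Polynomial.map_X, Polynomial.map_one, map_ofNat, Polynomial.map_ofNat]

theorem natDegree_hessePoly_le (t : R) : (hessePoly t).natDegree ≤ 12 := by
  unfold hessePoly
  compute_degree

theorem hessePoly_eq_sum (t : R) : hessePoly t =
    C 27 * X ^ 12 + C (648 - t) * X ^ 9 + C (5184 + 3 * t) * X ^ 6 + C (13824 - 3 * t) * X ^ 3
      + C t * X ^ 0 := by
  unfold hessePoly
  simp only [map_sub, map_add, map_mul, map_ofNat]
  ring

theorem coeff_hessePoly_twelve (t : R) : (hessePoly t).coeff 12 = 27 := by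
  rw [hessePoly_eq_sum]
  simp only [coeff_add, coeff_C_mul_X_pow]
  norm_num

theorem hessePoly_mul_C_monic (t u : R) (hu : 27 * u = 1) : (hessePoly t * C u).Monic := by
  have hdeg : (hessePoly t * C u).natDegree ≤ 12 :=
    (natDegree_mul_C_le _ _).trans (natDegree_hessePoly_le t)
  have hc : (hessePoly t * C u).coeff 12 = 1 := by
    rw [coeff_mul_C, coeff_hessePoly_twelve, hu]
  rcases subsingleton_or_nontrivial R with h | h
  · exact Subsingleton.elim _ _
  have hdeg' : (hessePoly t * C u).natDegree = 12 :=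
    le_antisymm hdeg (le_natDegree_of_ne_zero (by rw [hc]; exact one_ne_zero))
  rw [Monic, leadingCoeff, hdeg', hc]

/-- Every root of a Hesse polynomial is integral, if `27` is invertible in the base. -/
theorem isIntegral_of_aeval_hessePoly {A : Type*} [CommRing A] [Algebra R A] (t u : R)
    (hu : 27 * u = 1) (a : A) (ha : aeval a (hessePoly t) = 0) : IsIntegral R a :=
  ⟨hessePoly t * C u, hessePoly_mul_C_monic t u hu, by
    rw [← aeval_def, map_mul, ha, zero_mul]⟩

end Poly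

section Field

variable {F Y : Type*} [Field F] [Field Y] [Algebra F Y]

/-- A root `x0` of a Hesse polynomial in a field with `3 ≠ 0` satisfies `x0³ ≠ 1`. -/
theorem root_cube_sub_one_ne_zero (h3 : (3 : Y) ≠ 0) (t x0 : Y)
    (hx0 : (hessePoly t).eval x0 = 0) : x0 ^ 3 - 1 ≠ 0 := by
  intro h
  have h1 : x0 ^ 3 = 1 := by linear_combination h
  unfold hessePoly at hx0
  simp only [eval_sub, eval_mul, eval_C, eval_pow, eval_X, eval_add, eval_ofNat, eval_one] at hx0
  rw [h1] at hx0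
  have : (3 : Y) ^ 9 = 0 := by linear_combination hx0
  exact h3 (pow_eq_zero_iff (by norm_num) |>.mp this)

/-- A Hesse polynomial with a root `x0` is the Hesse polynomial of `hesJ x0 (1/(x0³-1))`. -/
theorem eq_hesJ_of_root (h3 : (3 : Y) ≠ 0) (t x0 : Y) (hx0 : (hessePoly t).eval x0 = 0) :
    t = hesJ x0 (x0 ^ 3 - 1)⁻¹ := by
  have hne := root_cube_sub_one_ne_zero h3 t x0 hx0
  have hz : (x0 ^ 3 - 1) * (x0 ^ 3 - 1)⁻¹ = 1 := mul_inv_cancel₀ hne
  have hJ := hesJ_mul x0 (x0 ^ 3 - 1)⁻¹ hz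
  unfold hessePoly at hx0
  simp only [eval_sub, eval_mul, eval_C, eval_pow, eval_X, eval_add, eval_ofNat, eval_one] at hx0
  have h3' : (x0 ^ 3 - 1) ^ 3 ≠ 0 := pow_ne_zero _ hne
  apply mul_right_cancel₀ h3'
  rw [hJ]; linear_combination -hx0

/-- If a Hesse polynomial has one root in a field containing a primitive cube root of unity
(and `3 ≠ 0`), then it splits there. -/
theorem splits_hessePoly_of_root (h3 : (3 : Y) ≠ 0) (w : Y) (hw : w ^ 2 + w + 1 = 0) (t x0 : Y)
    (hx0 : (hessePoly t).eval x0 = 0) : (hessePoly t).Splits := by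
  have hne := root_cube_sub_one_ne_zero h3 t x0 hx0
  rw [eq_hesJ_of_root h3 t x0 hx0]
  exact splits_hessePoly_hesJ x0 _ w (mul_inv_cancel₀ hne) hw

/-- All roots of a Hesse polynomial are among the twelve conjugates of one root. -/
theorem mem_hesRoots_of_root (h3 : (3 : Y) ≠ 0) (w : Y) (hw : w ^ 2 + w + 1 = 0) (t x0 : Y)
    (hx0 : (hessePoly t).eval x0 = 0) (r : Y) (hr : (hessePoly t).eval r = 0) :
    r ∈ hesRoots x0 (x0 ^ 3 - 1)⁻¹ w := by
  have hne := root_cube_sub_one_ne_zero h3 t x0 hx0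
  rw [eq_hesJ_of_root h3 t x0 hx0,
    hessePoly_hesJ_list x0 _ w (mul_inv_cancel₀ hne) hw, eval_mul, eval_C, eval_list_prod] at hr
  have h27 : (27 : Y) ≠ 0 := by
    have : (27 : Y) = 3 ^ 3 := by norm_num
    rw [this]; exact pow_ne_zero _ h3
  have h0 := (mul_eq_zero.mp hr).resolve_left h27
  rw [List.prod_eq_zero_iff, List.mem_map] at h0
  obtain ⟨f, hf, hf0⟩ := h0
  obtain ⟨r', hr', rfl⟩ := List.mem_map.mp hf
  have : r = r' := by
    simp only [eval_sub, eval_X, eval_C] at hf0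
    linear_combination hf0
  rw [this]; exact hr'

/-- Version over a base field: if `hessePoly t` (`t : F`) has a root `x0` in an extension `Y`
containing a primitive cube root of unity, then it splits in `Y`. -/
theorem splits_map_hessePoly_of_root (h3 : (3 : Y) ≠ 0) (w : Y) (hw : w ^ 2 + w + 1 = 0) (t : F)
    (x0 : Y) (hx0 : aeval x0 (hessePoly t) = 0) :
    ((hessePoly t).map (algebraMap F Y)).Splits := by
  rw [hessePoly_map]
  refine splits_hessePoly_of_root h3 w hw _ x0 ?_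
  rw [← hessePoly_map, eval_map_algebraMap]; exact hx0

end Field

section Integrality

variable {W S : Type*} [CommRing W] [CommRing S] [Algebra W S]

/-- A root of the Hesse polynomial of `t` is integral over `W[t]` when `3` is a unit. -/
theorem isIntegral_of_hesse_eq (h3 : IsUnit (3 : W)) (t a : S)
    (ha : 27 * (a ^ 3 * (a ^ 3 + 8) ^ 3) - t * (a ^ 3 - 1) ^ 3 = 0) :
    IsIntegral (Algebra.adjoin W {t}) a := by
  obtain ⟨v, hv⟩ := h3
  have htm : t ∈ Algebra.adjoin W {t} := Algebra.subset_adjoin rfl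
  refine ⟨X ^ 3 * (X ^ 3 + 8) ^ 3 - C (algebraMap W (Algebra.adjoin W {t}) ((↑v⁻¹ : W) ^ 3) *
    (⟨t, htm⟩ : Algebra.adjoin W {t})) * (X ^ 3 - 1) ^ 3, ?_, ?_⟩
  · nontriviality (Algebra.adjoin W {t})
    monicity!
  · have hu : algebraMap W S ((↑v⁻¹ : W) ^ 3) * 27 = 1 := by
      have h3' : ((↑v⁻¹ : W) ^ 3) * 27 = 1 := by
        have : ((↑v⁻¹ : W) ^ 3) * 27 = ((↑v⁻¹ : W) * 3) ^ 3 := by ring
        rw [this, ← hv, Units.inv_mul, one_pow]
      have := congrArg (algebraMap W S) h3'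
      rwa [map_mul, map_ofNat, map_one] at this
    have h1 : algebraMap (Algebra.adjoin W {t}) S
        (algebraMap W (Algebra.adjoin W {t}) (↑v⁻¹ : W)) =
        algebraMap W S (↑v⁻¹ : W) := by
      rw [← IsScalarTower.algebraMap_apply W (Algebra.adjoin W {t}) S]
    have ht' : algebraMap (Algebra.adjoin W {t}) S (⟨t, htm⟩ : Algebra.adjoin W {t}) = t := rfl
    rw [← aeval_def]
    simp only [map_sub, map_mul, map_pow, map_add, aeval_C, aeval_X, map_one, map_ofNat]
    rw [h1, ht']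
    rw [map_pow] at hu
    linear_combination (algebraMap W S (↑v⁻¹ : W) ^ 3) * ha - (a ^ 3 * (a ^ 3 + 8) ^ 3) * hu

/-- `1/(x³ - 1)` is integral over `W[j]` when `3` is a unit. -/
theorem isIntegral_of_hesse_z_eq (h3 : IsUnit (3 : W)) (t a : S)
    (ha : 27 * ((1 + a) * (1 + 9 * a) ^ 3) - t * a = 0) :
    IsIntegral (Algebra.adjoin W {t}) a := by
  obtain ⟨v, hv⟩ := h3
  have htm : t ∈ Algebra.adjoin W {t} := Algebra.subset_adjoin rfl
  refine ⟨(X + 1) * (X + C (algebraMap W (Algebra.adjoin W {t}) ((↑v⁻¹ : W) ^ 2))) ^ 3 -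
    C (algebraMap W (Algebra.adjoin W {t}) ((↑v⁻¹ : W) ^ 9) *
      (⟨t, htm⟩ : Algebra.adjoin W {t})) * X, ?_, ?_⟩
  · nontriviality (Algebra.adjoin W {t})
    monicity!
  · have hu : algebraMap W S (↑v⁻¹ : W) * 3 = 1 := by
      have h3' : (↑v⁻¹ : W) * 3 = 1 := by rw [← hv, Units.inv_mul]
      have := congrArg (algebraMap W S) h3'
      rwa [map_mul, map_ofNat, map_one] at this
    have h1 : algebraMap (Algebra.adjoin W {t}) S
        (algebraMap W (Algebra.adjoin W {t}) (↑v⁻¹ : W)) =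
        algebraMap W S (↑v⁻¹ : W) := by
      rw [← IsScalarTower.algebraMap_apply W (Algebra.adjoin W {t}) S]
    have ht' : algebraMap (Algebra.adjoin W {t}) S (⟨t, htm⟩ : Algebra.adjoin W {t}) = t := rfl
    rw [← aeval_def]
    simp only [map_sub, map_mul, map_pow, map_add, aeval_C, aeval_X, map_one]
    rw [h1, ht']
    set u : S := algebraMap W S (↑v⁻¹ : W) with hu_def
    have hu2 : u ^ 2 * 9 = 1 := by linear_combination (u * 3 + 1) * hu
    have hu9 : u ^ 9 * 19683 = 1 := by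
      linear_combination
        ((u * 3) ^ 8 + (u * 3) ^ 7 + (u * 3) ^ 6 + (u * 3) ^ 5 + (u * 3) ^ 4 + (u * 3) ^ 3 +
          (u * 3) ^ 2 + u * 3 + 1) * hu
    have e1 : (a + u ^ 2) * 9 = 1 + 9 * a := by linear_combination hu2
    have key : ((a + 1) * (a + u ^ 2) ^ 3 - u ^ 9 * t * a) * 19683 =
        (27 * ((1 + a) * (1 + 9 * a) ^ 3) - t * a) + (t * a) * (1 - u ^ 9 * 19683) := by
      have : (a + 1) * (a + u ^ 2) ^ 3 * 19683 = 27 * ((1 + a) * ((a + u ^ 2) * 9) ^ 3) := by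
        ring
      rw [sub_mul, this, e1]; ring
    rw [ha, hu9] at key
    have key' : ((a + 1) * (a + u ^ 2) ^ 3 - u ^ 9 * t * a) * 19683 = 0 := by
      rw [key]; ring
    calc (a + 1) * (a + u ^ 2) ^ 3 - u ^ 9 * t * a
        = ((a + 1) * (a + u ^ 2) ^ 3 - u ^ 9 * t * a) * (u ^ 9 * 19683) := by rw [hu9, mul_one]
      _ = (((a + 1) * (a + u ^ 2) ^ 3 - u ^ 9 * t * a) * 19683) * u ^ 9 := by ring
      _ = 0 := by rw [key', zero_mul]

theorem isIntegral_hesse (h3 : IsUnit (3 : W)) {x z : S} (hz : (x ^ 3 - 1) * z = 1) :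
    IsIntegral (Algebra.adjoin W {hesJ x z}) x ∧ IsIntegral (Algebra.adjoin W {hesJ x z}) z := by
  refine ⟨isIntegral_of_hesse_eq h3 _ x ?_, isIntegral_of_hesse_z_eq h3 _ z (hesJ_z_equation x z hz)⟩
  linear_combination -(hesJ_mul x z hz)

/-- `W[x, 1/(x³-1)]` is integral over `W[j]` when `3` is a unit. -/
theorem isIntegral_of_mem_adjoin (h3 : IsUnit (3 : W)) {x z : S} (hz : (x ^ 3 - 1) * z = 1)
    (s : S) (hs : s ∈ Algebra.adjoin W {x, z}) :
    IsIntegral (Algebra.adjoin W {hesJ x z}) s := by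
  obtain ⟨hx, hz'⟩ := isIntegral_hesse (W := W) h3 hz
  have hle : Algebra.adjoin W {x, z} ≤
      (integralClosure (Algebra.adjoin W {hesJ x z}) S).restrictScalars W := by
    apply Algebra.adjoin_le
    intro a ha
    rcases ha with rfl | rfl
    · exact hx
    · exact hz'
  exact hle hs

end Integrality

section Chart

variable (W : Type*) [CommRing W]

/-- The polynomial `X³ - 1` inverted on the Hesse chart. -/
noncomputable def hesF : W[X] := X ^ 3 - 1

/-- The Hesse chart `W[x, 1/(x³ - 1)]`. -/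
abbrev HesRing := Localization.Away (hesF W)

/-- The coordinate `x` of the Hesse chart. -/
noncomputable def chartX : HesRing W := algebraMap W[X] (HesRing W) X

/-- `1 / (x³ - 1)` on the Hesse chart. -/
noncomputable def chartZ : HesRing W := IsLocalization.Away.invSelf (hesF W)

theorem chartX_mul_chartZ : (chartX W ^ 3 - 1) * chartZ W = 1 := by
  have := IsLocalization.Away.mul_invSelf (S := HesRing W) (hesF W)
  simpa [hesF, chartX, chartZ] using this

/-- The function `j` on the Hesse chart. -/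
noncomputable def chartJ : HesRing W := hesJ (chartX W) (chartZ W)

theorem hesF_monic : (hesF W).Monic := by
  unfold hesF
  nontriviality W
  monicity!

theorem not_C_dvd_hesF {p : W} (hp : ¬ IsUnit p) : ¬ C p ∣ hesF W := by
  intro h
  rw [Polynomial.C_dvd_iff_dvd_coeff] at h
  have h1 := h (hesF W).natDegree
  rw [coeff_natDegree, (hesF_monic W).leadingCoeff] at h1
  exact hp (isUnit_of_dvd_one h1)

theorem aeval_chartX (P : W[X]) : aeval (chartX W) P = algebraMap W[X] (HesRing W) P := by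
  have := aeval_algHom_apply (IsScalarTower.toAlgHom W W[X] (HesRing W)) X P
  rw [aeval_X_left_apply] at this
  exact this

theorem adjoin_chart_eq_top : Algebra.adjoin W {chartX W, chartZ W} = ⊤ := by
  rw [eq_top_iff]
  rintro s -
  obtain ⟨n, a, ha⟩ := IsLocalization.Away.surj (hesF W) s
  have h1 : algebraMap W[X] (HesRing W) (hesF W) * chartZ W = 1 :=
    IsLocalization.Away.mul_invSelf _
  have hs : s = algebraMap W[X] (HesRing W) a * (chartZ W) ^ n := by
    calc s = s * (algebraMap W[X] (HesRing W) (hesF W) * chartZ W) ^ n := by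
          rw [h1, one_pow, mul_one]
      _ = (s * algebraMap W[X] (HesRing W) (hesF W) ^ n) * chartZ W ^ n := by ring
      _ = _ := by rw [ha]
  rw [hs]
  apply Subalgebra.mul_mem
  · rw [← aeval_chartX]
    exact Algebra.adjoin_mono (by simp) (Polynomial.aeval_mem_adjoin_singleton W (chartX W))
  · apply Subalgebra.pow_mem
    exact Algebra.subset_adjoin (by simp)

/-- The Hesse chart is integral over `W[j]` when `3` is a unit. -/
theorem chart_isIntegral (h3 : IsUnit (3 : W)) (s : HesRing W) :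
    IsIntegral (Algebra.adjoin W {chartJ W}) s :=
  isIntegral_of_mem_adjoin h3 (chartX_mul_chartZ W) s
    (by rw [adjoin_chart_eq_top]; trivial)

/-- `(p) R₀ ∩ W[j] = p W[j]` on the Hesse chart: the reduction of `j` modulo a prime `p` with
`3` invertible is transcendental over the residue field. -/
theorem chart_dvd [IsDomain W] (h3 : IsUnit (3 : W)) {p : W} (hp : Prime p)
    (hmax : (Ideal.span {p}).IsMaximal) (Q : W[X])
    (h : algebraMap W[X] (HesRing W) (C p) ∣ aeval (chartJ W) Q) : C p ∣ Q := by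
  classical
  letI : Field (W ⧸ Ideal.span {p}) := Ideal.Quotient.field _
  have hf : ¬ C p ∣ hesF W := not_C_dvd_hesF W hp.not_isUnit
  have hprime : (Ideal.span {algebraMap W[X] (HesRing W) (C p)}).IsPrime :=
    AwayPoly.away_span_isPrime (hesF W) hp hf
  let ψ : (W ⧸ Ideal.span {p}) →+*
      (HesRing W ⧸ Ideal.span {algebraMap W[X] (HesRing W) (C p)}) :=
    Ideal.Quotient.lift (Ideal.span {p})
      ((Ideal.Quotient.mk (Ideal.span {algebraMap W[X] (HesRing W) (C p)})).comp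
        (algebraMap W (HesRing W))) (by
      intro a ha
      obtain ⟨b, rfl⟩ := Ideal.mem_span_singleton.mp ha
      rw [RingHom.comp_apply, Ideal.Quotient.eq_zero_iff_mem, map_mul,
        AwayPoly.away_algebraMap_base]
      exact Ideal.mul_mem_right _ _ (Ideal.subset_span rfl))
  letI : Algebra (W ⧸ Ideal.span {p})
      (HesRing W ⧸ Ideal.span {algebraMap W[X] (HesRing W) (C p)}) := ψ.toAlgebra
  haveI : IsScalarTower W (W ⧸ Ideal.span {p})
      (HesRing W ⧸ Ideal.span {algebraMap W[X] (HesRing W) (C p)}) :=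
    IsScalarTower.of_algebraMap_eq (fun a => rfl)
  let mk0 := Ideal.Quotient.mk (Ideal.span {algebraMap W[X] (HesRing W) (C p)})
  have hzb : (mk0 (chartX W) ^ 3 - 1) * mk0 (chartZ W) = 1 := by
    rw [← map_one mk0, ← map_pow, ← map_sub, ← map_mul, chartX_mul_chartZ, map_one]
  have hjb : hesJ (mk0 (chartX W)) (mk0 (chartZ W)) = mk0 (chartJ W) := by
    simp only [hesJ, chartJ, map_mul, map_pow, map_add, map_sub, map_one, map_ofNat]
  have compat : ∀ (s : HesRing W) (P : W[X]),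
      aeval (mk0 s) (P.map (algebraMap W (W ⧸ Ideal.span {p}))) = mk0 (aeval s P) := by
    intro s P
    rw [aeval_map_algebraMap]
    exact aeval_algHom_apply (Ideal.Quotient.mkₐ W _) s P
  have hzero : ∀ P : W[X], mk0 (algebraMap W[X] (HesRing W) P) = 0 → C p ∣ P := by
    intro P hP
    rw [Ideal.Quotient.eq_zero_iff_mem, Ideal.mem_span_singleton] at hP
    exact AwayPoly.dvd_of_algebraMap_dvd (hesF W) hp hf P hP
  have hmap0 : ∀ P : W[X], C p ∣ P → P.map (algebraMap W (W ⧸ Ideal.span {p})) = 0 := by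
    rintro P ⟨P', rfl⟩
    rw [Polynomial.map_mul, Polynomial.map_C]
    have : algebraMap W (W ⧸ Ideal.span {p}) p = 0 :=
      Ideal.Quotient.eq_zero_iff_mem.mpr (Ideal.subset_span rfl)
    rw [this, C_0, zero_mul]
  have htr : Transcendental (W ⧸ Ideal.span {p}) (mk0 (chartX W)) := by
    rw [transcendental_iff_injective, injective_iff_map_eq_zero]
    intro Pb hPb
    obtain ⟨P, rfl⟩ := Polynomial.map_surjective _ Ideal.Quotient.mk_surjective Pb
    have h1 := compat (chartX W) P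
    rw [aeval_chartX] at h1
    exact hmap0 P (hzero P (h1 ▸ hPb))
  have htrj : Transcendental (W ⧸ Ideal.span {p})
      (hesJ (mk0 (chartX W)) (mk0 (chartZ W))) := by
    intro halg
    apply htr
    have hint : IsIntegral (W ⧸ Ideal.span {p})
        (hesJ (mk0 (chartX W)) (mk0 (chartZ W))) :=
      isAlgebraic_iff_isIntegral.mp halg
    haveI : Algebra.IsIntegral (W ⧸ Ideal.span {p})
        (Algebra.adjoin (W ⧸ Ideal.span {p})
          {hesJ (mk0 (chartX W)) (mk0 (chartZ W))}) :=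
      Algebra.IsIntegral.adjoin (by
        intro a ha
        rw [Set.mem_singleton_iff] at ha
        rw [ha]; exact hint)
    have h3k : IsUnit (3 : W ⧸ Ideal.span {p}) := by
      have := h3.map (algebraMap W (W ⧸ Ideal.span {p}))
      rwa [map_ofNat] at this
    have := (isIntegral_hesse (W := W ⧸ Ideal.span {p}) h3k hzb).1
    exact isAlgebraic_iff_isIntegral.mpr (isIntegral_trans _ this)
  have hQ : aeval (hesJ (mk0 (chartX W)) (mk0 (chartZ W)))
      (Q.map (algebraMap W (W ⧸ Ideal.span {p}))) = 0 := by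
    rw [hjb, compat, Ideal.Quotient.eq_zero_iff_mem, Ideal.mem_span_singleton]
    exact h
  have hQ0 : Q.map (algebraMap W (W ⧸ Ideal.span {p})) = 0 :=
    (transcendental_iff_injective.mp htrj) (by rw [hQ, map_zero])
  rw [Polynomial.C_dvd_iff_dvd_coeff]
  intro i
  have h4 := congrArg (fun q => q.coeff i) hQ0
  simp only [coeff_map, coeff_zero] at h4
  exact Ideal.mem_span_singleton.mp (Ideal.Quotient.eq_zero_iff_mem.mp h4)

end Chart

section ChartStructure

variable (W : Type*) [CommRing W] [IsDomain W]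

theorem hesF_ne_zero : hesF W ≠ 0 := (hesF_monic W).ne_zero

theorem hesRing_isDomain : IsDomain (HesRing W) :=
  AwayPoly.away_isDomain (hesF W) (hesF_ne_zero W)

theorem hesRing_isNoetherianRing [IsNoetherianRing W] : IsNoetherianRing (HesRing W) :=
  AwayPoly.away_isNoetherianRing (hesF W)

theorem hesRing_isIntegrallyClosed [IsIntegrallyClosed W] : IsIntegrallyClosed (HesRing W) :=
  AwayPoly.away_isIntegrallyClosed (hesF W) (hesF_ne_zero W)

theorem hesRing_span_isPrime {p : W} (hp : Prime p) :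
    (Ideal.span {algebraMap W (HesRing W) p}).IsPrime := by
  rw [AwayPoly.away_algebraMap_base]
  exact AwayPoly.away_span_isPrime (hesF W) hp (not_C_dvd_hesF W hp.not_isUnit)

theorem hesRing_quotient_isDedekindDomain {p : W} (hp : Prime p)
    (hmax : (Ideal.span {p}).IsMaximal) :
    IsDedekindDomain (HesRing W ⧸ Ideal.span {algebraMap W (HesRing W) p}) := by
  rw [AwayPoly.away_algebraMap_base]
  exact AwayPoly.away_quotient_isDedekindDomain (hesF W) hp hmax (not_C_dvd_hesF W hp.not_isUnit)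

/-- `(p) R₀ ∩ W[j] = p W[j]`, stated with `algebraMap W (HesRing W) p`. -/
theorem chart_dvd' (h3 : IsUnit (3 : W)) {p : W} (hp : Prime p)
    (hmax : (Ideal.span {p}).IsMaximal) (Q : W[X])
    (h : algebraMap W (HesRing W) p ∣ aeval (chartJ W) Q) : C p ∣ Q := by
  rw [AwayPoly.away_algebraMap_base] at h
  exact chart_dvd W h3 hp hmax Q h

variable {Y : Type*} [Field Y] [Algebra W Y]

omit [IsDomain W] in
theorem aeval_hesF_ne_zero {x0 : Y} (h1 : x0 ^ 3 ≠ 1) : aeval x0 (hesF W) ≠ 0 := by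
  simp only [hesF, map_sub, map_pow, aeval_X, map_one]
  exact sub_ne_zero.mpr h1

/-- The map from the Hesse chart to a field `Y` sending `x` to `x0` with `x0³ ≠ 1`. -/
noncomputable def chartLift (x0 : Y) (h1 : x0 ^ 3 ≠ 1) : HesRing W →ₐ[W] Y :=
  AwayPoly.awayLift (hesF W) x0 (aeval_hesF_ne_zero W h1)

variable {W}

theorem chartLift_chartX (x0 : Y) (h1 : x0 ^ 3 ≠ 1) :
    chartLift W x0 h1 (chartX W) = x0 := by
  rw [chartLift, chartX, AwayPoly.awayLift_algebraMap, aeval_X]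

theorem chartLift_chartZ (x0 : Y) (h1 : x0 ^ 3 ≠ 1) :
    chartLift W x0 h1 (chartZ W) = (x0 ^ 3 - 1)⁻¹ := by
  have h := congrArg (chartLift W x0 h1) (chartX_mul_chartZ W)
  rw [map_mul, map_one, map_sub, map_pow, map_one, chartLift_chartX] at h
  exact eq_inv_of_mul_eq_one_right h

theorem chartLift_chartJ (x0 : Y) (h1 : x0 ^ 3 ≠ 1) :
    chartLift W x0 h1 (chartJ W) = hesJ x0 (x0 ^ 3 - 1)⁻¹ := by
  simp only [chartJ, hesJ, map_mul, map_pow, map_add, map_sub, map_one, map_ofNat,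
    chartLift_chartX, chartLift_chartZ]

theorem chartLift_injective (x0 : Y) (h1 : x0 ^ 3 ≠ 1) (htr : Transcendental W x0) :
    Function.Injective (chartLift W x0 h1) :=
  AwayPoly.awayLift_injective (hesF W) x0 _ htr

end ChartStructure

section Galois

variable {F Y : Type*} [Field F] [Field Y] [Algebra F Y]

theorem map_hessePoly {R S : Type*} [CommRing R] [CommRing S] (f : R →+* S) (t : R) :
    (hessePoly t).map f = hessePoly (f t) := hessePoly_map f t

/-- A root `x0` of the Hesse polynomial of `j` (in a field where `3 ≠ 0`) satisfies `x0³ ≠ 1`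
and `j = 27 x0³ (x0³ + 8)³ / (x0³ - 1)³`. -/
theorem hesJ_of_root (h3 : (3 : F) ≠ 0) (j : F) (x0 : Y)
    (hx : aeval x0 (hessePoly j) = 0) :
    x0 ^ 3 ≠ 1 ∧ hesJ x0 (x0 ^ 3 - 1)⁻¹ = algebraMap F Y j := by
  have h3' : (3 : Y) ≠ 0 := by
    have := (map_ne_zero (algebraMap F Y)).mpr h3
    rwa [map_ofNat] at this
  have hx' : (hessePoly (algebraMap F Y j)).eval x0 = 0 := by
    rw [← hessePoly_map, eval_map_algebraMap]; exact hx
  exact ⟨fun h => root_cube_sub_one_ne_zero h3' _ x0 hx' (by rw [h, sub_self]),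
    (eq_hesJ_of_root h3' _ x0 hx').symm⟩

/-- The field generated over `F` by one root of the Hesse polynomial of `j` contains all
roots, as soon as it contains a primitive cube root of unity: it is Galois over `F`
(for `3 ≠ 0`, `j ≠ 0, 1728`). -/
theorem isGalois_of_root (h3 : (3 : F) ≠ 0) (w : Y) (hw : w ^ 2 + w + 1 = 0) (j : F)
    (hj0 : j ≠ 0) (hj : j ≠ 1728) (x0 : Y)
    (hx : aeval x0 (hessePoly j) = 0) (hgen : IntermediateField.adjoin F {x0} = ⊤) :
    IsGalois F Y := by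
  have h3' : (3 : Y) ≠ 0 := by
    have := (map_ne_zero (algebraMap F Y)).mpr h3
    rwa [map_ofNat] at this
  have hsep : (hessePoly j).Separable := hessePoly_separable h3 j hj0 hj
  have hne : hessePoly j ≠ 0 := hsep.ne_zero
  have hint : IsIntegral F x0 := ⟨(hessePoly j) * C (hessePoly j).leadingCoeff⁻¹,
    monic_mul_leadingCoeff_inv hne, by
      rw [← aeval_def, map_mul, hx, zero_mul]⟩
  haveI : (hessePoly j).IsSplittingField F Y := by
    refine ⟨splits_map_hessePoly_of_root h3' w hw j x0 hx, ?_⟩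
    rw [eq_top_iff]
    have h4 : Algebra.adjoin F {x0} = ⊤ := by
      have := IntermediateField.adjoin_simple_toSubalgebra_of_isAlgebraic hint.isAlgebraic
      rw [hgen] at this
      rw [← this]; rfl
    rw [← h4]
    apply Algebra.adjoin_mono
    rw [Set.singleton_subset_iff, mem_rootSet]
    exact ⟨hne, hx⟩
  exact IsGalois.of_separable_splitting_field hsep

end Galois

end Hesse

end Fermat.Agent.S18
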