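import Mathlib
import Fermat.Agent.S18.Hesse

/-!
# The Hesse chart as a `W[j]`-algebra

`HesRing W = W[x, 1/(x³-1)]` carries the canonical `W[X]`-algebra structure `X ↦ x`.  The chart
theorem needs the structure `X ↦ j`; to avoid an instance diamond we put it on a type synonym
`HesJ W`.
-/

set_option autoImplicit false

namespace Fermat.Agent.S18

namespace Hesse

open Polynomial AuxCover

set_option linter.unusedSectionVars false
set_option linter.style.haveILetI false
set_option linter.unusedSimpArgs false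

section Generic

variable {W S : Type*} [CommRing W] [CommRing S] [Algebra W S]

/-- Integrality over `W[t]` (a subalgebra) gives integrality along `aeval t`. -/
theorem isIntegralElem_aeval_of_adjoin (t s : S) (h : IsIntegral (Algebra.adjoin W {t}) s) :
    (aeval (R := W) t).toRingHom.IsIntegralElem s := by
  obtain ⟨p, hp, hps⟩ := h
  rcases subsingleton_or_nontrivial S with hS | hS
  · exact ⟨1, monic_one, Subsingleton.elim _ _⟩
  haveI : Nontrivial (Algebra.adjoin W {t}) :=
    ⟨⟨0, 1, fun h01 => zero_ne_one (α := S) (congrArg Subtype.val h01)⟩⟩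
  let f : W[X] →+* Algebra.adjoin W {t} :=
    ((aeval (R := W) t).codRestrict (Algebra.adjoin W {t})
      (fun q => aeval_mem_adjoin_singleton W t)).toRingHom
  have hf : Function.Surjective f := by
    rintro ⟨y, hy⟩
    rw [Algebra.adjoin_singleton_eq_range_aeval] at hy
    obtain ⟨q, rfl⟩ := hy
    exact ⟨q, rfl⟩
  obtain ⟨q, hq, -, hqm⟩ := lifts_and_degree_eq_and_monic (p := p)
    ((mem_lifts (f := f) p).mpr (map_surjective f hf p)) hp
  refine ⟨q, hqm, ?_⟩
  rw [← hq, eval₂_map] at hps
  exact hps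

end Generic

section Synonym

variable (W : Type*) [CommRing W]

/-- The Hesse chart ring, as a type synonym carrying the `W[X]`-algebra structure `X ↦ j`
(and **not** the canonical one `X ↦ x` of `HesRing W = Localization.Away (X³ - 1)`). -/
def HesJ : Type _ := HesRing W

noncomputable instance : CommRing (HesJ W) := inferInstanceAs (CommRing (HesRing W))

noncomputable instance : Algebra W (HesJ W) := inferInstanceAs (Algebra W (HesRing W))

/-- The identity `HesRing W → HesJ W`. -/
noncomputable def toJ : HesRing W ≃+* HesJ W := RingEquiv.refl _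

/-- The function `j` on the chart, as an element of `HesJ W`. -/
noncomputable def jJ : HesJ W := toJ W (chartJ W)

noncomputable instance : Algebra W[X] (HesJ W) := (aeval (R := W) (jJ W)).toRingHom.toAlgebra

theorem algebraMap_hesJ (P : W[X]) : algebraMap W[X] (HesJ W) P = aeval (jJ W) P := rfl

theorem algebraMap_hesJ_X : algebraMap W[X] (HesJ W) X = jJ W := by
  rw [algebraMap_hesJ, aeval_X]

theorem algebraMap_hesJ_C (a : W) : algebraMap W[X] (HesJ W) (C a) = algebraMap W (HesJ W) a := by
  rw [algebraMap_hesJ, aeval_C]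

instance : IsScalarTower W W[X] (HesJ W) :=
  IsScalarTower.of_algebraMap_eq fun a => (algebraMap_hesJ_C W a).symm

theorem toJ_algebraMap (a : W) : toJ W (algebraMap W (HesRing W) a) = algebraMap W (HesJ W) a :=
  rfl

theorem toJ_aeval (s : HesRing W) (P : W[X]) : toJ W (aeval s P) = aeval (toJ W s) P := rfl

instance [IsDomain W] : IsDomain (HesJ W) := hesRing_isDomain W

instance [IsDomain W] [IsNoetherianRing W] : IsNoetherianRing (HesJ W) :=
  hesRing_isNoetherianRing W

instance [IsDomain W] [IsIntegrallyClosed W] : IsIntegrallyClosed (HesJ W) :=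
  hesRing_isIntegrallyClosed W

/-- The Hesse chart is integral over `W[j]` when `3` is a unit. -/
theorem hesJ_isIntegral (h3 : IsUnit (3 : W)) : Algebra.IsIntegral W[X] (HesJ W) :=
  ⟨fun s => isIntegralElem_aeval_of_adjoin (chartJ W) s (chart_isIntegral W h3 s)⟩

variable [IsDomain W]

theorem algebraMap_hesJ_base_injective : Function.Injective (algebraMap W (HesJ W)) := by
  intro a b h
  have h' : algebraMap W[X] (HesRing W) (C a) = algebraMap W[X] (HesRing W) (C b) := by
    rw [← AwayPoly.away_algebraMap_base, ← AwayPoly.away_algebraMap_base]; exact h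
  exact C_injective (AwayPoly.away_algebraMap_injective (hesF W) (hesF_ne_zero W) h')

/-- A prime `p` of `W` stays prime on the chart. -/
theorem hesJ_prime {p : W} (hp : Prime p) : Prime (algebraMap W[X] (HesJ W) (C p)) := by
  rw [algebraMap_hesJ_C]
  have h0 : algebraMap W (HesJ W) p ≠ 0 := fun h =>
    hp.ne_zero (algebraMap_hesJ_base_injective W (by rw [h, map_zero]))
  exact (Ideal.span_singleton_prime h0).mp (hesRing_span_isPrime W hp)

/-- `(p) R₀ ∩ W[j] = p W[j]`. -/
theorem hesJ_compat (h3 : IsUnit (3 : W)) {p : W} (hp : Prime p)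
    (hmax : (Ideal.span {p}).IsMaximal) (a : W[X])
    (h : algebraMap W[X] (HesJ W) (C p) ∣ algebraMap W[X] (HesJ W) a) : C p ∣ a := by
  rw [algebraMap_hesJ_C] at h
  exact chart_dvd' W h3 hp hmax a h

theorem hesJ_quotient_isDedekindDomain {p : W} (hp : Prime p)
    (hmax : (Ideal.span {p}).IsMaximal) :
    IsDedekindDomain (HesJ W ⧸ Ideal.span {algebraMap W[X] (HesJ W) (C p)}) := by
  rw [algebraMap_hesJ_C]
  exact hesRing_quotient_isDedekindDomain W hp hmax

/-- The input `hι` of `VerticalChart.hU_vertical_chart'`. -/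
theorem hesJ_dvd_iff (h3 : IsUnit (3 : W)) {p : W} (hp : Prime p)
    (hmax : (Ideal.span {p}).IsMaximal) {k : Type*} [Field k] (res : W →+* k)
    (hker : RingHom.ker res = Ideal.span {p}) (f : W[X]) :
    algebraMap W[X] (HesJ W) (C p) ∣ algebraMap W[X] (HesJ W) f ↔ f.map res = 0 := by
  have hp0 : res p = 0 := by
    rw [← RingHom.mem_ker, hker]; exact Ideal.subset_span rfl
  constructor
  · intro h
    obtain ⟨g, rfl⟩ := hesJ_compat W h3 hp hmax f h
    rw [Polynomial.map_mul, Polynomial.map_C, hp0, C_0, zero_mul]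
  · intro h
    have hd : C p ∣ f := by
      rw [Polynomial.C_dvd_iff_dvd_coeff]
      intro i
      have h4 := congrArg (fun q => q.coeff i) h
      simp only [coeff_map, coeff_zero] at h4
      rw [← RingHom.mem_ker, hker] at h4
      exact Ideal.mem_span_singleton.mp h4
    exact map_dvd _ hd

end Synonym

section Coordinates

variable (W : Type*) [CommRing W]

/-- The coordinate `x` as an element of `HesJ W`. -/
noncomputable def xJ : HesJ W := toJ W (chartX W)

/-- `1 / (x³ - 1)` as an element of `HesJ W`. -/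
noncomputable def zJ : HesJ W := toJ W (chartZ W)

theorem xJ_mul_zJ : (xJ W ^ 3 - 1) * zJ W = 1 := chartX_mul_chartZ W

theorem jJ_eq : jJ W = hesJ (xJ W) (zJ W) := rfl

theorem isUnit_zJ : IsUnit (zJ W) :=
  IsUnit.of_mul_eq_one _ (by rw [mul_comm]; exact xJ_mul_zJ W)

/-- Every element of the chart is `P(x) · z ^ n`. -/
theorem exists_eq_aeval_mul_pow (s : HesJ W) :
    ∃ (P : W[X]) (n : ℕ), s = aeval (xJ W) P * zJ W ^ n := by
  obtain ⟨n, a, ha⟩ := IsLocalization.Away.surj (hesF W) ((toJ W).symm s)
  have h1 : algebraMap W[X] (HesRing W) (hesF W) * chartZ W = 1 :=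
    IsLocalization.Away.mul_invSelf _
  refine ⟨a, n, ?_⟩
  have hs : (toJ W).symm s = algebraMap W[X] (HesRing W) a * (chartZ W) ^ n := by
    calc (toJ W).symm s
        = (toJ W).symm s * (algebraMap W[X] (HesRing W) (hesF W) * chartZ W) ^ n := by
          rw [h1, one_pow, mul_one]
      _ = ((toJ W).symm s * algebraMap W[X] (HesRing W) (hesF W) ^ n) * chartZ W ^ n := by ring
      _ = _ := by rw [ha]
  rw [← aeval_chartX] at hs
  exact hs

end Coordinates

section Lift

variable (W : Type*) [CommRing W] [IsDomain W] {Y : Type*} [Field Y] [Algebra W Y]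

/-- The map from the Hesse chart (as a `W[j]`-algebra) to a field `Y` sending `x` to `x0`. -/
noncomputable def hesJLift (x0 : Y) (h1 : x0 ^ 3 ≠ 1) : HesJ W →ₐ[W] Y := chartLift W x0 h1

variable {W}

theorem hesJLift_xJ (x0 : Y) (h1 : x0 ^ 3 ≠ 1) : hesJLift W x0 h1 (xJ W) = x0 :=
  chartLift_chartX x0 h1

theorem hesJLift_zJ (x0 : Y) (h1 : x0 ^ 3 ≠ 1) : hesJLift W x0 h1 (zJ W) = (x0 ^ 3 - 1)⁻¹ :=
  chartLift_chartZ x0 h1

theorem hesJLift_jJ (x0 : Y) (h1 : x0 ^ 3 ≠ 1) :
    hesJLift W x0 h1 (jJ W) = hesJ x0 (x0 ^ 3 - 1)⁻¹ :=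
  chartLift_chartJ x0 h1

theorem hesJLift_algebraMap (x0 : Y) (h1 : x0 ^ 3 ≠ 1) (P : W[X]) :
    hesJLift W x0 h1 (algebraMap W[X] (HesJ W) P) = aeval (hesJ x0 (x0 ^ 3 - 1)⁻¹) P := by
  rw [algebraMap_hesJ, ← aeval_algHom_apply, hesJLift_jJ]

theorem hesJLift_injective (x0 : Y) (h1 : x0 ^ 3 ≠ 1) (htr : Transcendental W x0) :
    Function.Injective (hesJLift W x0 h1) :=
  chartLift_injective x0 h1 htr

end Lift

section BaseChange

variable (W L : Type*) [CommRing W] [CommRing L] [Algebra W L]

theorem map_hesF : (hesF W).map (algebraMap W L) = hesF L := by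
  simp [hesF]

/-- Base change of the Hesse chart along `W → L` (`x ↦ x`), on `HesRing`. -/
noncomputable def hesBC' : HesRing W →+* HesRing L :=
  IsLocalization.Away.lift (hesF W)
    (g := (algebraMap L[X] (HesRing L)).comp (mapRingHom (algebraMap W L))) (by
      rw [RingHom.comp_apply, coe_mapRingHom, map_hesF]
      exact IsLocalization.Away.algebraMap_isUnit (hesF L))

theorem hesBC'_algebraMap (P : W[X]) :
    hesBC' W L (algebraMap W[X] (HesRing W) P) =
      algebraMap L[X] (HesRing L) (P.map (algebraMap W L)) :=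
  IsLocalization.Away.lift_eq (hesF W) _ P

/-- Base change of the Hesse chart along `W → L` (`x ↦ x`). -/
noncomputable def hesBC : HesJ W →+* HesJ L := hesBC' W L

theorem hesBC_algebraMap' (P : W[X]) :
    hesBC W L (toJ W (algebraMap W[X] (HesRing W) P)) =
      toJ L (algebraMap L[X] (HesRing L) (P.map (algebraMap W L))) :=
  hesBC'_algebraMap W L P

theorem hesBC_xJ : hesBC W L (xJ W) = xJ L := by
  have := hesBC_algebraMap' W L X
  rwa [Polynomial.map_X] at this

theorem hesBC_zJ : hesBC W L (zJ W) = zJ L := by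
  have h1 := congrArg (hesBC W L) (xJ_mul_zJ W)
  rw [map_mul, map_sub, map_pow, map_one, hesBC_xJ] at h1
  have h2 := xJ_mul_zJ L
  calc hesBC W L (zJ W) = ((xJ L ^ 3 - 1) * zJ L) * hesBC W L (zJ W) := by rw [h2, one_mul]
    _ = ((xJ L ^ 3 - 1) * hesBC W L (zJ W)) * zJ L := by ring
    _ = zJ L := by rw [h1, one_mul]

theorem hesBC_jJ : hesBC W L (jJ W) = jJ L := by
  simp only [jJ_eq, hesJ, map_mul, map_pow, map_add, map_ofNat, hesBC_xJ, hesBC_zJ]

theorem hesBC_base (a : W) :
    hesBC W L (algebraMap W (HesJ W) a) = algebraMap L (HesJ L) (algebraMap W L a) := by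
  have h := hesBC_algebraMap' W L (C a)
  rw [Polynomial.map_C] at h
  have e1 : toJ W (algebraMap W[X] (HesRing W) (C a)) = algebraMap W (HesJ W) a := by
    rw [← toJ_algebraMap, IsScalarTower.algebraMap_apply W W[X] (HesRing W) a]
    rfl
  have e2 : toJ L (algebraMap L[X] (HesRing L) (C (algebraMap W L a))) =
      algebraMap L (HesJ L) (algebraMap W L a) := by
    rw [← toJ_algebraMap, IsScalarTower.algebraMap_apply L L[X] (HesRing L)]
    rfl
  rw [← e1, ← e2]
  exact h

theorem hesBC_aeval (s : HesJ W) (P : W[X]) :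
    hesBC W L (aeval s P) = aeval (hesBC W L s) (P.map (algebraMap W L)) := by
  rw [aeval_def, aeval_def, eval₂_map, hom_eval₂]
  congr 1
  exact RingHom.ext fun a => hesBC_base W L a

/-- The base change is compatible with the `j`-structures. -/
theorem hesBC_algebraMap (P : W[X]) :
    hesBC W L (algebraMap W[X] (HesJ W) P) =
      algebraMap L[X] (HesJ L) (P.map (algebraMap W L)) := by
  rw [algebraMap_hesJ, algebraMap_hesJ, hesBC_aeval, hesBC_jJ]

noncomputable instance hesJAlgebraBC : Algebra (HesJ W) (HesJ L) := (hesBC W L).toAlgebra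

theorem algebraMap_hesJ_hesJ (s : HesJ W) : algebraMap (HesJ W) (HesJ L) s = hesBC W L s := rfl

end BaseChange

section BaseChangeLoc

variable (W L : Type*) [CommRing W] [IsDomain W] [Field L] [Algebra W L]

theorem aeval_xJ_injective : Function.Injective (aeval (R := W) (xJ W)) := by
  intro P Q h
  have h' : algebraMap W[X] (HesRing W) P = algebraMap W[X] (HesRing W) Q := by
    rw [← aeval_chartX, ← aeval_chartX]; exact h
  exact AwayPoly.away_algebraMap_injective (hesF W) (hesF_ne_zero W) h'

theorem hesBC_injective (hinj : Function.Injective (algebraMap W L)) :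
    Function.Injective (hesBC W L) := by
  rw [injective_iff_map_eq_zero]
  intro s hs
  obtain ⟨P, n, rfl⟩ := exists_eq_aeval_mul_pow W s
  rw [map_mul, map_pow, hesBC_zJ, hesBC_aeval, hesBC_xJ] at hs
  have h1 : aeval (xJ L) (P.map (algebraMap W L)) = 0 := by
    rcases mul_eq_zero.mp hs with h | h
    · exact h
    · have hu := (isUnit_zJ L).pow n
      rw [h] at hu
      exact absurd hu not_isUnit_zero
  have h2 : P.map (algebraMap W L) = 0 := aeval_xJ_injective L (by rw [h1, map_zero])
  have h3 : P = 0 := Polynomial.map_injective _ hinj (by rw [h2, Polynomial.map_zero])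
  rw [h3, map_zero, zero_mul]

/-- `L[x, 1/(x³-1)]` is `W[x, 1/(x³-1)][1/π]` when `L = W[1/π]`. -/
theorem hesBC_isLocalization (π : W) [IsLocalization.Away π L]
    (hinj : Function.Injective (algebraMap W L)) :
    IsLocalization.Away (algebraMap W[X] (HesJ W) (C π)) (HesJ L) := by
  have hπ : algebraMap (HesJ W) (HesJ L) (algebraMap W[X] (HesJ W) (C π)) =
      algebraMap L (HesJ L) (algebraMap W L π) := by
    rw [algebraMap_hesJ_C, algebraMap_hesJ_hesJ, hesBC_base]
  have hunit : IsUnit (algebraMap (HesJ W) (HesJ L) (algebraMap W[X] (HesJ W) (C π))) := by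
    rw [hπ]
    exact (IsLocalization.Away.algebraMap_isUnit (S := L) π).map _
  have hden : ∀ a : HesJ L, ∃ n : ℕ, ∃ r : HesJ W, algebraMap (HesJ W) (HesJ L) r =
      algebraMap (HesJ W) (HesJ L) (algebraMap W[X] (HesJ W) (C π)) ^ n * a := by
    intro a
    obtain ⟨P, k, rfl⟩ := exists_eq_aeval_mul_pow L a
    obtain ⟨b, ⟨n, rfl⟩, hb⟩ :=
      IsLocalization.integerNormalization_spec (Submonoid.powers π) P
    refine ⟨n, aeval (xJ W) (IsLocalization.integerNormalization (Submonoid.powers π) P) *
      zJ W ^ k, ?_⟩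
    have hb' : (IsLocalization.integerNormalization (Submonoid.powers π) P).map
        (algebraMap W L) = C (algebraMap W L π ^ n) * P := by
      rw [hb]
      ext i
      simp [coeff_smul, Algebra.smul_def]
    rw [algebraMap_hesJ_hesJ, map_mul, map_pow, hesBC_zJ, hesBC_aeval, hesBC_xJ, hb', map_mul,
      aeval_C, hπ, map_pow]
    ring
  exact
    { map_units := by
        rintro ⟨_, n, rfl⟩
        rw [map_pow]
        exact hunit.pow n
      surj := by
        intro a
        obtain ⟨n, r, hr⟩ := hden a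
        refine ⟨⟨r, ⟨_, n, rfl⟩⟩, ?_⟩
        rw [hr, map_pow]
        ring
      exists_of_eq := by
        intro x y hxy
        exact ⟨1, by rw [hesBC_injective W L hinj hxy]⟩ }

end BaseChangeLoc

section Transcendence

variable (W : Type*) [CommRing W] [IsDomain W]

theorem transcendental_xJ : Transcendental W (xJ W) :=
  (transcendental_iff_injective).mpr (aeval_xJ_injective W)

/-- `j` is transcendental over `W` on the Hesse chart (when `3` is a unit). -/
theorem transcendental_jJ (h3 : IsUnit (3 : W)) : Transcendental W (jJ W) := by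
  intro halg
  apply transcendental_xJ W
  haveI : Algebra.IsAlgebraic W (Algebra.adjoin W {chartJ W}) :=
    (Subalgebra.isAlgebraic_iff _).mp (Algebra.isAlgebraic_adjoin_singleton_iff.mpr halg)
  exact (chart_isIntegral W h3 (chartX W)).trans_isAlgebraic W

theorem algebraMap_hesJ_injective (h3 : IsUnit (3 : W)) :
    Function.Injective (algebraMap W[X] (HesJ W)) :=
  (transcendental_iff_injective).mp (transcendental_jJ W h3)

theorem hesJ_faithfulSMul (h3 : IsUnit (3 : W)) : FaithfulSMul W[X] (HesJ W) :=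
  (faithfulSMul_iff_algebraMap_injective _ _).mpr (algebraMap_hesJ_injective W h3)

end Transcendence

section GenericFibre

variable (L : Type*) [Field L]

instance : IsDedekindDomain (HesJ L) :=
  haveI := hesRing_isDomain L
  IsLocalization.isDedekindDomain L[X] (AwayPoly.powers_le (hesF L) (hesF_ne_zero L)) (HesRing L)

theorem isUnit_algebraMap_hesJ {a : L} (ha : a ≠ 0) : IsUnit (algebraMap L (HesJ L) a) :=
  (IsUnit.mk0 a ha).map _

theorem isUnit_twentyseven (h3 : (3 : L) ≠ 0) : IsUnit (27 : HesJ L) := by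
  have h27 : (27 : L) ≠ 0 := by
    have : (27 : L) = 3 ^ 3 := by norm_num
    rw [this]; exact pow_ne_zero 3 h3
  have := isUnit_algebraMap_hesJ L h27
  rwa [map_ofNat] at this

/-- `j = 27 · (x (x³ + 8) z)³` on the Hesse chart. -/
theorem algebraMap_hesJ_X_eq :
    algebraMap L[X] (HesJ L) X = 27 * (xJ L * (xJ L ^ 3 + 8) * zJ L) ^ 3 := by
  rw [algebraMap_hesJ_X, jJ_eq, hesJ]; ring

/-- `j - 1728 = (27 z³) · (x⁶ - 20 x³ - 8)²` on the Hesse chart. -/
theorem algebraMap_hesJ_X_sub_eq :
    algebraMap L[X] (HesJ L) (X - C 1728) =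
      (27 * zJ L ^ 3) * (xJ L ^ 6 - 20 * xJ L ^ 3 - 8) ^ 2 := by
  rw [map_sub, algebraMap_hesJ_X, algebraMap_hesJ_C, jJ_eq, map_ofNat,
    hesJ_sub _ _ (xJ_mul_zJ L)]
  ring

theorem hesJ_branch_zero (h3 : (3 : L) ≠ 0) :
    ∃ u g : HesJ L, IsUnit u ∧ algebraMap L[X] (HesJ L) X = u * g ^ 3 :=
  ⟨27, xJ L * (xJ L ^ 3 + 8) * zJ L, isUnit_twentyseven L h3, algebraMap_hesJ_X_eq L⟩

theorem hesJ_branch_1728 (h3 : (3 : L) ≠ 0) :
    ∃ u g : HesJ L, IsUnit u ∧ algebraMap L[X] (HesJ L) (X - C 1728) = u * g ^ 2 :=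
  ⟨27 * zJ L ^ 3, xJ L ^ 6 - 20 * xJ L ^ 3 - 8,
    (isUnit_twentyseven L h3).mul ((isUnit_zJ L).pow 3), algebraMap_hesJ_X_sub_eq L⟩

/-- The branch data `hM` of `Abhyankar.isUnramifiedAt_of_branch` / `HorizU.hU_of_branch`. -/
theorem hesJ_hM (h3 : (3 : L) ≠ 0) :
    ∀ i : Fin 2, ∃ u g : HesJ L, IsUnit u ∧
      algebraMap L[X] (HesJ L) ((![X, X - C 1728] : Fin 2 → L[X]) i) =
        u * g ^ ((![3, 2] : Fin 2 → ℕ) i) := by
  intro i
  fin_cases i
  · exact hesJ_branch_zero L h3
  · exact hesJ_branch_1728 L h3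

/-- The Hesse chart over a field is the integral closure of `L[j]` in its fraction field. -/
theorem hesJ_isIntegralClosure (h3 : (3 : L) ≠ 0) (M : Type*) [Field M] [Algebra (HesJ L) M]
    [IsFractionRing (HesJ L) M] [Algebra L[X] M] [IsScalarTower L[X] (HesJ L) M] :
    IsIntegralClosure (HesJ L) L[X] M :=
  haveI := hesJ_isIntegral L (IsUnit.mk0 3 h3)
  IsIntegralClosure.of_isIntegrallyClosed (HesJ L) L[X] M

end GenericFibre

section GenericGalois

variable {L : Type*} [Field L] (K M : Type*) [Field K] [Algebra L[X] K] [IsFractionRing L[X] K]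
  [Field M] [Algebra (HesJ L) M] [IsFractionRing (HesJ L) M] [Algebra L[X] M]
  [IsScalarTower L[X] (HesJ L) M] [Algebra K M] [IsScalarTower L[X] K M]

/-- `x` is a root of the Hesse polynomial of `j`. -/
theorem aeval_xJ_hessePoly :
    aeval (algebraMap (HesJ L) M (xJ L)) (hessePoly (algebraMap L[X] K X)) = 0 := by
  rw [aeval_hessePoly, ← IsScalarTower.algebraMap_apply L[X] K M,
    IsScalarTower.algebraMap_apply L[X] (HesJ L) M, algebraMap_hesJ_X, jJ_eq]
  have h := congrArg (algebraMap (HesJ L) M) (hesJ_mul (xJ L) (zJ L) (xJ_mul_zJ L))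
  simp only [map_mul, map_pow, map_sub, map_add, map_one, map_ofNat] at h
  linear_combination -h

/-- The function field of the Hesse chart is generated by `x` over `L(j)`. -/
theorem adjoin_xJ_eq_top :
    IntermediateField.adjoin K {algebraMap (HesJ L) M (xJ L)} = ⊤ := by
  set x0 := algebraMap (HesJ L) M (xJ L) with hx0
  have hmem : ∀ s : HesJ L, algebraMap (HesJ L) M s ∈ IntermediateField.adjoin K {x0} := by
    intro s
    obtain ⟨P, n, rfl⟩ := exists_eq_aeval_mul_pow L s
    rw [map_mul, map_pow]
    refine mul_mem ?_ (pow_mem ?_ n)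
    · rw [aeval_def, hom_eval₂, eval₂_eq_sum_range]
      refine sum_mem fun i _ =>
        mul_mem ?_ (pow_mem (IntermediateField.mem_adjoin_simple_self K x0) i)
      rw [RingHom.comp_apply, ← algebraMap_hesJ_C,
        ← IsScalarTower.algebraMap_apply L[X] (HesJ L) M, IsScalarTower.algebraMap_apply L[X] K M]
      exact IntermediateField.algebraMap_mem _ _
    · have hz : algebraMap (HesJ L) M (zJ L) = (x0 ^ 3 - 1)⁻¹ := by
        have h := congrArg (algebraMap (HesJ L) M) (xJ_mul_zJ L)
        rw [map_mul, map_sub, map_pow, map_one] at h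
        exact eq_inv_of_mul_eq_one_right h
      rw [hz]
      exact inv_mem (sub_mem (pow_mem (IntermediateField.mem_adjoin_simple_self K x0) 3)
        (one_mem _))
  rw [eq_top_iff]
  rintro m -
  obtain ⟨a, b, hb, rfl⟩ := IsFractionRing.div_surjective (A := HesJ L) m
  exact div_mem (hmem a) (hmem b)

include L in
theorem three_ne_zero_of_fraction (h3 : (3 : L) ≠ 0) : (3 : K) ≠ 0 := by
  have h1 : algebraMap L[X] K (C 3) ≠ 0 := by
    rw [Ne, map_eq_zero_iff _ (IsFractionRing.injective L[X] K), C_eq_zero]; exact h3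
  rwa [map_ofNat C, map_ofNat] at h1

theorem hesJ_finiteDimensional (h3 : (3 : L) ≠ 0) : FiniteDimensional K M := by
  have h3K : (3 : K) ≠ 0 := three_ne_zero_of_fraction (L := L) K h3
  have hne : hessePoly (algebraMap L[X] K X) ≠ 0 := by
    intro h0
    have := coeff_hessePoly_twelve (algebraMap L[X] K X)
    rw [h0, coeff_zero] at this
    have h27 : (27 : K) = 3 ^ 3 := by norm_num
    rw [h27] at this
    exact pow_ne_zero 3 h3K this.symm
  have hint : IsIntegral K (algebraMap (HesJ L) M (xJ L)) :=
    ⟨hessePoly (algebraMap L[X] K X) * C (hessePoly (algebraMap L[X] K X)).leadingCoeff⁻¹,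
      monic_mul_leadingCoeff_inv hne, by
        rw [← aeval_def, map_mul, aeval_xJ_hessePoly K M, zero_mul]⟩
  have h1 : FiniteDimensional K (IntermediateField.adjoin K {algebraMap (HesJ L) M (xJ L)}) :=
    IntermediateField.adjoin.finiteDimensional hint
  rw [adjoin_xJ_eq_top K M] at h1
  exact (IntermediateField.topEquiv (F := K) (E := M)).toLinearEquiv.finiteDimensional

/-- The function field of the Hesse chart is Galois over `L(j)` when `L` contains a primitive
cube root of unity. -/
theorem hesJ_isGalois (h3 : (3 : L) ≠ 0) (ω : L) (hω : ω ^ 2 + ω + 1 = 0) : IsGalois K M := by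
  have h3K : (3 : K) ≠ 0 := three_ne_zero_of_fraction (L := L) K h3
  refine isGalois_of_root h3K (algebraMap (HesJ L) M (algebraMap L (HesJ L) ω)) ?_
    (algebraMap L[X] K X) ?_ ?_ (algebraMap (HesJ L) M (xJ L)) (aeval_xJ_hessePoly K M)
    (adjoin_xJ_eq_top K M)
  · have := congrArg (fun t => algebraMap (HesJ L) M (algebraMap L (HesJ L) t)) hω
    simpa using this
  · rw [Ne, map_eq_zero_iff _ (IsFractionRing.injective L[X] K)]
    exact X_ne_zero
  · intro h
    have h1 : algebraMap L[X] K X = algebraMap L[X] K (C 1728) := by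
      rw [h, map_ofNat C, map_ofNat]
    have h2 := IsFractionRing.injective L[X] K h1
    exact X_ne_C _ h2

end GenericGalois

section FunctionField

/-- The function field of the Hesse chart (the fraction field of `HesJ L`). -/
abbrev HesK (L : Type*) [Field L] := FractionRing (HesJ L)

variable (W L : Type*) [CommRing W] [IsDomain W] [Field L] [Algebra W L]

theorem algebraMap_hesJ_hesK_injective (hinj : Function.Injective (algebraMap W L)) :
    Function.Injective (algebraMap (HesJ W) (HesK L)) := by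
  rw [IsScalarTower.algebraMap_eq (HesJ W) (HesJ L) (HesK L)]
  exact (IsFractionRing.injective (HesJ L) (HesK L)).comp (hesBC_injective W L hinj)

theorem hesK_faithfulSMul (hinj : Function.Injective (algebraMap W L)) :
    FaithfulSMul (HesJ W) (HesK L) :=
  (faithfulSMul_iff_algebraMap_injective _ _).mpr (algebraMap_hesJ_hesK_injective W L hinj)

/-- `L(x)` is also the fraction field of `W[x, 1/(x³-1)]` when `L = W[1/π]`. -/
theorem hesK_isFractionRing (π : W) [IsLocalization.Away π L]
    (hinj : Function.Injective (algebraMap W L)) : IsFractionRing (HesJ W) (HesK L) := by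
  haveI hloc := hesBC_isLocalization W L π hinj
  haveI := hesK_faithfulSMul W L hinj
  refine IsFractionRing.of_field (R := HesJ W) (K := HesK L) fun z => ?_
  obtain ⟨a, b, hb, rfl⟩ := IsFractionRing.div_surjective (A := HesJ L) z
  obtain ⟨⟨a', ⟨_, n, rfl⟩⟩, ha⟩ :=
    IsLocalization.surj (Submonoid.powers (algebraMap W[X] (HesJ W) (C π))) a
  obtain ⟨⟨b', ⟨_, m, rfl⟩⟩, hb'⟩ :=
    IsLocalization.surj (Submonoid.powers (algebraMap W[X] (HesJ W) (C π))) b
  simp only at ha hb'
  set p := algebraMap W[X] (HesJ W) (C π) with hp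
  have hpu : IsUnit (algebraMap (HesJ W) (HesJ L) p) :=
    IsLocalization.Away.algebraMap_isUnit p
  have hp0 : algebraMap (HesJ L) (HesK L) (algebraMap (HesJ W) (HesJ L) p) ≠ 0 :=
    (hpu.map _).ne_zero
  have hb0 : algebraMap (HesJ L) (HesK L) b ≠ 0 := by
    rw [Ne, map_eq_zero_iff _ (IsFractionRing.injective (HesJ L) (HesK L))]
    exact nonZeroDivisors.ne_zero hb
  refine ⟨a' * p ^ m, b' * p ^ n, ?_⟩
  rw [IsScalarTower.algebraMap_apply (HesJ W) (HesJ L) (HesK L),
    IsScalarTower.algebraMap_apply (HesJ W) (HesJ L) (HesK L) (b' * p ^ n),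
    map_mul (algebraMap (HesJ W) (HesJ L)), map_mul (algebraMap (HesJ W) (HesJ L)), ← ha, ← hb']
  simp only [map_mul, map_pow]
  field_simp

end FunctionField

section FieldSide

variable {F2 : Type*} [Field F2] (j : F2)

/-- An irreducible factor of the Hesse polynomial of `j`. -/
noncomputable def hesFactor : F2[X] := (hessePoly j).factor

instance hesFactor_irreducible : Fact (Irreducible (hesFactor j)) := ⟨irreducible_factor _⟩

/-- The field `F2(x0)`, `x0` a root of the Hesse polynomial of `j`. -/
abbrev HesY := AdjoinRoot (hesFactor j)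

/-- The root `x0`. -/
noncomputable def hesY_root : HesY j := AdjoinRoot.root (hesFactor j)

variable [CharZero F2]

theorem hessePoly_ne_zero' : hessePoly j ≠ 0 := by
  intro h0
  have := coeff_hessePoly_twelve j
  rw [h0, coeff_zero] at this
  norm_num at this

theorem natDegree_hessePoly : (hessePoly j).natDegree = 12 := by
  refine le_antisymm (natDegree_hessePoly_le j) (le_natDegree_of_ne_zero ?_)
  rw [coeff_hessePoly_twelve]
  norm_num

theorem hesFactor_dvd : hesFactor j ∣ hessePoly j :=
  factor_dvd_of_natDegree_ne_zero (by rw [natDegree_hessePoly]; norm_num)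

theorem aeval_hesY_root : aeval (hesY_root j) (hessePoly j) = 0 := by
  obtain ⟨g, hg⟩ := hesFactor_dvd j
  rw [hg, map_mul, hesY_root, AdjoinRoot.aeval_eq, AdjoinRoot.mk_self, zero_mul]

theorem adjoin_hesY_root : IntermediateField.adjoin F2 {hesY_root j} = ⊤ := by
  have hint : IsIntegral F2 (hesY_root j) :=
    ⟨hessePoly j * C (hessePoly j).leadingCoeff⁻¹,
      monic_mul_leadingCoeff_inv (hessePoly_ne_zero' j), by
        rw [← aeval_def, map_mul, aeval_hesY_root, zero_mul]⟩
  apply IntermediateField.toSubalgebra_injective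
  rw [IntermediateField.adjoin_simple_toSubalgebra_of_isAlgebraic hint.isAlgebraic]
  exact AdjoinRoot.adjoinRoot_eq_top

instance hesY_finiteDimensional : FiniteDimensional F2 (HesY j) :=
  (AdjoinRoot.powerBasis (hesFactor_irreducible j).out.ne_zero).finite

theorem hesY_root_cube_ne_one : hesY_root j ^ 3 ≠ 1 :=
  (hesJ_of_root (by norm_num) j _ (aeval_hesY_root j)).1

theorem hesJ_hesY_root :
    hesJ (hesY_root j) (hesY_root j ^ 3 - 1)⁻¹ = algebraMap F2 (HesY j) j :=
  (hesJ_of_root (by norm_num) j _ (aeval_hesY_root j)).2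

/-- `F2(x0)` is Galois over `F2` as soon as `F2` contains a primitive cube root of unity. -/
theorem hesY_isGalois (ω : F2) (hω : ω ^ 2 + ω + 1 = 0) (hj0 : j ≠ 0) (hj : j ≠ 1728) :
    IsGalois F2 (HesY j) := by
  refine isGalois_of_root (by norm_num) (algebraMap F2 (HesY j) ω) ?_ j hj0 hj (hesY_root j)
    (aeval_hesY_root j) (adjoin_hesY_root j)
  have := congrArg (algebraMap F2 (HesY j)) hω
  simpa using this

end FieldSide

section ChartToField

variable {F2 : Type*} [Field F2] [CharZero F2] (j : F2)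
variable (W : Type*) [CommRing W] [IsDomain W] [Algebra W F2]

/-- The chart ring maps to `F2(x0)` by `x ↦ x0`. -/
noncomputable instance hesYAlgebra : Algebra (HesJ W) (HesY j) :=
  (hesJLift W (hesY_root j) (hesY_root_cube_ne_one j)).toRingHom.toAlgebra

variable {W}

theorem algebraMap_hesJ_hesY (s : HesJ W) :
    algebraMap (HesJ W) (HesY j) s = hesJLift W (hesY_root j) (hesY_root_cube_ne_one j) s := rfl

theorem algebraMap_hesY_xJ : algebraMap (HesJ W) (HesY j) (xJ W) = hesY_root j := by
  rw [algebraMap_hesJ_hesY, hesJLift_xJ]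

theorem algebraMap_hesY_jJ : algebraMap (HesJ W) (HesY j) (jJ W) = algebraMap F2 (HesY j) j := by
  rw [algebraMap_hesJ_hesY, hesJLift_jJ, hesJ_hesY_root]

theorem algebraMap_hesY_aeval (P : W[X]) :
    algebraMap (HesJ W) (HesY j) (aeval (xJ W) P) = aeval (hesY_root j) P := by
  rw [algebraMap_hesJ_hesY, ← aeval_algHom_apply, hesJLift_xJ]

theorem algebraMap_hesY_zJ :
    algebraMap (HesJ W) (HesY j) (zJ W) = (hesY_root j ^ 3 - 1)⁻¹ := by
  rw [algebraMap_hesJ_hesY, hesJLift_zJ]

instance hesY_isScalarTower_base : IsScalarTower W (HesJ W) (HesY j) :=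
  IsScalarTower.of_algebraMap_eq fun a =>
    ((hesJLift W (hesY_root j) (hesY_root_cube_ne_one j)).commutes a).symm

/-- Compatibility of the chart map with the `j`-structures. -/
theorem hesY_isScalarTower_poly [Algebra W[X] F2] [IsScalarTower W W[X] F2]
    (hj : algebraMap W[X] F2 X = j) : IsScalarTower W[X] (HesJ W) (HesY j) := by
  refine IsScalarTower.of_algebraMap_eq fun P => ?_
  rw [algebraMap_hesJ_hesY, hesJLift_algebraMap, hesJ_hesY_root,
    IsScalarTower.algebraMap_apply W[X] F2 (HesY j)]
  have h1 : algebraMap W[X] F2 P = aeval j P := by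
    rw [← hj, aeval_algebraMap_apply, aeval_X_left_apply]
  rw [h1, ← aeval_algebraMap_apply]

theorem transcendental_hesY_root (htr : Transcendental W j) :
    Transcendental W (hesY_root j) := by
  intro halg
  apply htr
  have h1 : IsAlgebraic W (hesY_root j ^ 3) := halg.pow 3
  have h27 : IsAlgebraic W (27 : HesY j) := by
    have := isAlgebraic_algebraMap (R := W) (A := HesY j) (27 : W)
    rwa [map_ofNat] at this
  have h8 : IsAlgebraic W (8 : HesY j) := by
    have := isAlgebraic_algebraMap (R := W) (A := HesY j) (8 : W)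
    rwa [map_ofNat] at this
  have hone : IsAlgebraic W (1 : HesY j) := isAlgebraic_one
  have hz : IsAlgebraic W (hesY_root j ^ 3 - 1)⁻¹ :=
    IsAlgebraic.inv_iff.mpr (h1.sub hone)
  have hJ : IsAlgebraic W (hesJ (hesY_root j) (hesY_root j ^ 3 - 1)⁻¹) := by
    unfold hesJ
    exact ((h27.mul h1).mul ((h1.add h8).pow 3)).mul (hz.pow 3)
  rw [hesJ_hesY_root] at hJ
  exact (isAlgebraic_algebraMap_iff (algebraMap F2 (HesY j)).injective).mp hJ

theorem algebraMap_hesJ_hesY_injective (htr : Transcendental W j) :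
    Function.Injective (algebraMap (HesJ W) (HesY j)) :=
  hesJLift_injective _ _ (transcendental_hesY_root j htr)

theorem hesY_faithfulSMul (htr : Transcendental W j) : FaithfulSMul (HesJ W) (HesY j) :=
  (faithfulSMul_iff_algebraMap_injective _ _).mpr (algebraMap_hesJ_hesY_injective j htr)

/-- The chart maps over `W` and over `L` are compatible with base change. -/
instance hesY_isScalarTower_bc {L : Type*} [Field L] [Algebra W L] [Algebra L F2]
    [IsScalarTower W L F2] : IsScalarTower (HesJ W) (HesJ L) (HesY j) := by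
  refine IsScalarTower.of_algebraMap_eq fun s => ?_
  obtain ⟨P, n, rfl⟩ := exists_eq_aeval_mul_pow W s
  rw [algebraMap_hesJ_hesJ, map_mul, map_mul, map_mul, map_pow, map_pow, map_pow, hesBC_zJ,
    hesBC_aeval, hesBC_xJ, algebraMap_hesY_aeval, algebraMap_hesY_aeval, algebraMap_hesY_zJ,
    algebraMap_hesY_zJ, aeval_map_algebraMap]

end ChartToField

section FunctionFieldToField

variable {F2 : Type*} [Field F2] [CharZero F2] (j : F2)
variable {L : Type*} [Field L] [Algebra L F2] [htr : Fact (Transcendental L j)]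

/-- `L(x) → F2(x0)`. -/
noncomputable instance hesKYAlgebra : Algebra (HesK L) (HesY j) :=
  (IsFractionRing.lift (K := HesK L) (g := algebraMap (HesJ L) (HesY j))
    (algebraMap_hesJ_hesY_injective j htr.out)).toAlgebra

instance hesKY_isScalarTower : IsScalarTower (HesJ L) (HesK L) (HesY j) :=
  IsScalarTower.of_algebraMap_eq fun s =>
    (IsFractionRing.lift_algebraMap (K := HesK L) (algebraMap_hesJ_hesY_injective j htr.out) s).symm

instance hesKY_isScalarTower_bc {W : Type*} [CommRing W] [IsDomain W] [Algebra W L]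
    [Algebra W F2] [IsScalarTower W L F2] : IsScalarTower (HesJ W) (HesK L) (HesY j) := by
  refine IsScalarTower.of_algebraMap_eq fun s => ?_
  rw [IsScalarTower.algebraMap_apply (HesJ W) (HesJ L) (HesK L),
    ← IsScalarTower.algebraMap_apply (HesJ L) (HesK L) (HesY j),
    ← IsScalarTower.algebraMap_apply (HesJ W) (HesJ L) (HesY j)]

end FunctionFieldToField

end Hesse

end Fermat.Agent.S18
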