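import Mathlib
import Fermat.Agent.S18.HesseJ
import Fermat.Agent.S18.PGOut
import Fermat.Agent.S18.ContractsEps
import Fermat.Agent.S18.FunctionFieldKitFF
import Fermat.Agent.S18.ChartBasics
import Fermat.Agent.S18.ChartTower
import Fermat.Agent.S18.FiniteChartCore
import Fermat.Agent.S18.TopReduction

set_option autoImplicit false
set_option linter.style.haveILetI false

/-!
# S18: the Hesse chart (residue characteristic `2`)

* `hesse_chart_lift`: the instance of `FiniteChartCore.finite_chart_lift` for the Hesse cover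
  `x ↦ j = 27 x³ (x³ + 8)³ / (x³ - 1)³` of the `j`-line: `R0 = W[x, 1/(x³ - 1)]` (`HesJ W`),
  `BM = L[x, 1/(x³ - 1)]`, `K' = L(x)`, `Y' = F2(x0)`.  Abstract base: `W` a regular base ring
  with `3` invertible and `L = W[1/π]` containing a primitive cube root of unity.
* `hesse_chartLift : Contracts.FiniteChartLift N 2`: the finite chart contract for `ℓ = 2`.
-/

namespace Fermat.Agent.S18.HesseLift

open Polynomial ModularCurve AlgebraicCurve
open Fermat.Agent.S18.Contracts Fermat.Agent.S18.Hesse Fermat.Agent.S18.FFKit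

local notation "Qb" => AlgebraicClosure ℚ

/-- **The Hesse chart, abstract form.** -/
theorem hesse_chart_lift
    {W k L F F2 : Type*} [CommRing W] [IsDomain W] [IsNoetherianRing W] [IsIntegrallyClosed W]
    [Field k] [Field L] [Algebra ℚ L] [Algebra W L]
    [Field F] [Field F2] [Algebra F F2] [Algebra L F2]
    [Algebra W F2] [IsScalarTower W L F2]
    [Algebra W[X] F2] [IsScalarTower W W[X] F2]
    [Algebra L[X] F2] [IsScalarTower L L[X] F2]
    (K : Type*) [Field K] [Algebra L[X] K] [IsFractionRing L[X] K]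
    [Algebra K F] [Algebra K F2] [IsScalarTower K F F2] [IsScalarTower L[X] K F2]
    [FiniteDimensional K F2]
    (j : F2) (hjW : algebraMap W[X] F2 X = j) (hjL : algebraMap L[X] F2 X = j)
    (htr : Transcendental L j)
    (hinjW : Function.Injective (algebraMap W L))
    (π : W) (hπ : Prime π) (hmax : (Ideal.span {π}).IsMaximal) [IsLocalization.Away π L]
    (h3 : IsUnit (3 : W)) (ω : L) (hω : ω ^ 2 + ω + 1 = 0)
    (hF : ∀ P : Ideal (integralClosure L[X] F2), P.IsPrime → P ≠ ⊥ →
      (X ∈ P.under L[X] → P.ramificationIdx L[X] ∣ 3) ∧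
      (X - C 1728 ∈ P.under L[X] → P.ramificationIdx L[X] ∣ 2) ∧
      (X ∉ P.under L[X] → X - C 1728 ∉ P.under L[X] → P.ramificationIdx L[X] = 1))
    (res : W →+* k) (hres : Function.Surjective res) (hker : RingHom.ker res = Ideal.span {π})
    (θ : F) (hθ : IntermediateField.adjoin K {θ} = ⊤)
    (P : (W[X])[X]) (hP : P.Monic)
    (hPθ : eval₂ (algebraMap W[X] F2) (algebraMap F F2 θ) P = 0)
    (hsep : ((P.map (mapRingHom res)).map (algebraMap k[X] (FractionRing k[X]))).Separable)
    (s : ℕ) (hs : s.Prime) (hsW : IsUnit (s : W)) (ζ : L) (hζ : IsPrimitiveRoot ζ s)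
    (u : F2) (hu : IntermediateField.adjoin F {u} = ⊤)
    (w : F) (hw0 : w ≠ 0) (huw : u ^ s = algebraMap F F2 w)
    (hw : IsGaussInt W[X] (C π) (algebraMap F F2 w))
    (hw' : IsGaussInt W[X] (C π) (algebraMap F F2 w)⁻¹)
    (ε : F2) (hε : IsGaussInt W[X] (C π) ε)
    (hεε : ∃ d : F2, IsGaussInt W[X] (C π) d ∧ ε ^ 2 - ε = (C π : W[X]) • d) :
    ∃ e : F2, IsIntegral W[X] e ∧ ∃ d : F2, IsGaussInt W[X] (C π) d ∧
      e - ε = (C π : W[X]) • d := by
  classical
  haveI : CharZero L := algebraRat.charZero L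
  haveI : CharZero F2 := charZero_of_injective_algebraMap (algebraMap L F2).injective
  haveI : Fact (Transcendental L j) := ⟨htr⟩
  have h3L : (3 : L) ≠ 0 := by norm_num
  have h3Lu : IsUnit (3 : L) := IsUnit.mk0 _ h3L
  -- the function field of the chart over `K`
  have hinjLK' : Function.Injective (algebraMap L[X] (HesK L)) := by
    rw [IsScalarTower.algebraMap_eq L[X] (HesJ L) (HesK L)]
    exact (IsFractionRing.injective (HesJ L) (HesK L)).comp (algebraMap_hesJ_injective L h3Lu)
  letI : Algebra K (HesK L) := fracAlgebra K (algebraMap L[X] (HesK L)) hinjLK'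
  haveI : IsScalarTower L[X] K (HesK L) := IsScalarTower.of_algebraMap_eq (fun a =>
    (fracAlgebra_algebraMap K (algebraMap L[X] (HesK L)) hinjLK' a).symm)
  haveI : FiniteDimensional K (HesK L) := hesJ_finiteDimensional K (HesK L) h3L
  haveI : IsGalois K (HesK L) := hesJ_isGalois K (HesK L) h3L ω hω
  -- the top field `Y' = F2(x0)`
  haveI : IsScalarTower L[X] (HesJ L) (HesY j) := hesY_isScalarTower_poly (W := L) j hjL
  haveI : IsScalarTower W[X] (HesJ W) (HesY j) := hesY_isScalarTower_poly (W := W) j hjW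
  haveI : IsScalarTower K (HesK L) (HesY j) := by
    refine IsScalarTower.of_algebraMap_eq (fun x => ?_)
    have hhom : (algebraMap K (HesY j)) =
        (algebraMap (HesK L) (HesY j)).comp (algebraMap K (HesK L)) := by
      refine algebraMap_eq_of_comp_eq (A := L[X]) K _ _ (fun p => ?_)
      rw [RingHom.comp_apply, ← IsScalarTower.algebraMap_apply L[X] K (HesK L),
        IsScalarTower.algebraMap_apply L[X] (HesJ L) (HesK L),
        ← IsScalarTower.algebraMap_apply (HesJ L) (HesK L) (HesY j),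
        ← IsScalarTower.algebraMap_apply L[X] (HesJ L) (HesY j),
        IsScalarTower.algebraMap_apply K F2 (HesY j),
        ← IsScalarTower.algebraMap_apply L[X] K F2,
        ← IsScalarTower.algebraMap_apply L[X] F2 (HesY j)]
    rw [hhom]; rfl
  have hFM : IntermediateField.adjoin F2 (Set.range (algebraMap (HesK L) (HesY j))) = ⊤ := by
    refine ChartTower.adjoin_range_eq_top (algebraMap (HesJ L) (HesK L) (xJ L)) ?_
    rw [← IsScalarTower.algebraMap_apply (HesJ L) (HesK L) (HesY j), algebraMap_hesY_xJ]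
    exact adjoin_hesY_root j
  -- the chart rings
  haveI : IsIntegralClosure (HesJ L) L[X] (HesK L) := hesJ_isIntegralClosure L h3L (HesK L)
  haveI : IsLocalization.Away (algebraMap W[X] (HesJ W) (C π)) (HesJ L) :=
    hesBC_isLocalization W L π hinjW
  haveI : IsFractionRing (HesJ W) (HesK L) := hesK_isFractionRing W L π hinjW
  haveI : Algebra.IsIntegral W[X] (HesJ W) := hesJ_isIntegral W h3
  have hπ' : Prime (algebraMap W[X] (HesJ W) (C π)) := hesJ_prime W hπ
  have hsπ : ¬ algebraMap W[X] (HesJ W) (C π) ∣ (s : HesJ W) := by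
    intro hd
    have hu : IsUnit ((s : ℕ) : HesJ W) := by
      have := hsW.map (algebraMap W (HesJ W))
      rwa [map_natCast] at this
    exact hπ'.not_isUnit (isUnit_of_dvd_unit hd hu)
  obtain ⟨u₀, g₀, hu₀, h₀⟩ := hesJ_branch_zero L h3L
  obtain ⟨u₁, g₁, hu₁, h₁⟩ := hesJ_branch_1728 L h3L
  have hζ' : IsPrimitiveRoot (algebraMap L (HesK L) ζ) s :=
    hζ.map_of_injective (algebraMap L (HesK L)).injective
  exact FiniteChartCore.finite_chart_lift (K := K) (F := F) (R0 := HesJ W) (BM := HesJ L)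
    (K' := HesK L) (Y' := HesY j) hFM π hπ' (hesJ_quotient_isDedekindDomain W hπ hmax)
    (hesJ_compat W h3 hπ hmax) hF u₀ g₀ u₁ g₁ hu₀ h₀ hu₁ h₁ (FractionRing k[X]) res hres
    (hesJ_dvd_iff W h3 hπ hmax res hker) θ hθ P hP hPθ hsep s hs hsπ
    (algebraMap L (HesK L) ζ) hζ' u hu w hw0 huw hw hw' ε hε hεε


/-- `F2 = F(u)` when `u ^ s = w`, `X ^ s - w` is irreducible and `[F2 : F] = s`. -/
theorem adjoin_root_eq_top {F F2 : Type*} [Field F] [Field F2] [Algebra F F2] (s : ℕ) (hs : 0 < s)
    (u : F2) (w : F) (huw : u ^ s = algebraMap F F2 w)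
    (hirr : Irreducible (X ^ s - C w : F[X])) (hdeg : Module.finrank F F2 = s) :
    IntermediateField.adjoin F {u} = ⊤ := by
  haveI : FiniteDimensional F F2 := Module.finite_of_finrank_pos (by rw [hdeg]; exact hs)
  rw [Field.primitive_element_iff_minpoly_natDegree_eq, hdeg]
  have hmonic : (X ^ s - C w : F[X]).Monic := monic_X_pow_sub_C w hs.ne'
  have hroot : aeval u (X ^ s - C w : F[X]) = 0 := by
    rw [map_sub, map_pow, aeval_X, aeval_C, huw, sub_self]
  rw [← minpoly.eq_of_irreducible_of_monic hirr hroot hmonic, natDegree_X_pow_sub_C]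

/-- **The finite chart contract for `ℓ = 2`** (Hesse cover of the `j`-line). -/
theorem hesse_chartLift (N : ℕ) [NeZero N] : Contracts.FiniteChartLift N 2 := by
  intro L _ _ ι W s Z1 Z2 h π hπ F2 _ _ u hu hdeg
  classical
  -- the discrete valuation ring
  haveI := h.dvr
  haveI := h.closed
  haveI := h.char
  have hp : Prime π := hπ.prime
  have hmaxeq : IsLocalRing.maximalIdeal ↥W = Ideal.span {π} := hπ.maximalIdeal_eq
  have hmax : (Ideal.span {π} : Ideal ↥W).IsMaximal :=
    hmaxeq ▸ IsLocalRing.maximalIdeal.isMaximal _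
  have hker : RingHom.ker (IsLocalRing.residue ↥W) = Ideal.span {π} := by
    rw [IsLocalRing.ker_residue, hmaxeq]
  have hinjW : Function.Injective (algebraMap ↥W L) := Subtype.val_injective
  haveI : IsLocalization.Away π L := ChartBasics.isLocalization_away_of_irreducible π hπ
  have h3 : IsUnit (3 : ↥W) := by
    rw [← IsLocalRing.residue_ne_zero_iff_isUnit, map_ofNat]
    intro h0
    have h1 : ((3 : ℕ) : IsLocalRing.ResidueField ↥W) = 0 := by exact_mod_cast h0
    have h2 := (CharP.cast_eq_zero_iff (IsLocalRing.ResidueField ↥W) 2 3).mp h1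
    omega
  -- roots of unity
  obtain ⟨ω, hω⟩ : ∃ ω : L, ω ^ 2 + ω + 1 = 0 := by
    obtain ⟨ζ3, hζ3⟩ := TopReduction.exists_isPrimitiveRoot ι h.roots 3 (by norm_num)
      (by norm_num)
    refine ⟨ζ3, ?_⟩
    have h1 : ζ3 ^ 3 = 1 := hζ3.pow_eq_one
    have h2 : ζ3 ≠ 1 := hζ3.ne_one (by norm_num)
    have h4 : (ζ3 - 1) * (ζ3 ^ 2 + ζ3 + 1) = 0 := by linear_combination h1
    exact (mul_eq_zero.mp h4).resolve_left (sub_ne_zero.mpr h2)
  obtain ⟨ζ, hζ⟩ := TopReduction.exists_isPrimitiveRoot ι h.roots s h.prime_s.ne_zero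
    (fun hd => h.ne ((Nat.prime_dvd_prime_iff_eq Nat.prime_two h.prime_s).mp hd).symm)
  -- the structures on `F2`
  have htr : Transcendental L (S24.jBC L N) := RamJ.transcendental_jBC ι N
  letI : Algebra L F2 := ((algebraMap (S24.FF L N) F2).comp (algebraMap L (S24.FF L N))).toAlgebra
  haveI : IsScalarTower L (S24.FF L N) F2 := IsScalarTower.of_algebraMap_eq (fun _ => rfl)
  have htr2 : Transcendental L (jF2 L N F2) := FFKit.transcendental_algebraMap htr
  letI : Algebra ↥W F2 := (toF2 W N F2).toAlgebra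
  haveI : IsScalarTower ↥W L F2 := IsScalarTower.of_algebraMap_eq (fun _ => rfl)
  letI : Algebra (↥W)[X] F2 := (evAt W N (jF2 L N F2)).toAlgebra
  haveI : IsScalarTower ↥W (↥W)[X] F2 := IsScalarTower.of_algebraMap_eq (fun a =>
    (ContractsEps.evAt_C W N F2 (jF2 L N F2) a).symm)
  letI : Algebra L[X] F2 := polyAlgebra (jF2 L N F2)
  haveI : IsScalarTower L L[X] F2 := polyAlgebra_isScalarTower (jF2 L N F2)
  -- the structures over `K = Frac L[X]`
  letI : Algebra (FractionRing L[X]) (S24.FF L N) :=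
    ratAlgebra (FractionRing L[X]) (S24.jBC L N) htr
  haveI : FiniteDimensional (FractionRing L[X]) (S24.FF L N) :=
    FFKit.finiteDimensional_FF ι N (FractionRing L[X])
  letI : Algebra (FractionRing L[X]) F2 := ratAlgebra (FractionRing L[X]) (jF2 L N F2) htr2
  haveI : IsScalarTower L[X] (FractionRing L[X]) F2 :=
    ratAlgebra_isScalarTower (FractionRing L[X]) (jF2 L N F2) htr2
  haveI : IsScalarTower (FractionRing L[X]) (S24.FF L N) F2 :=
    ratAlgebra_isScalarTower_of_map (FractionRing L[X]) (S24.jBC L N) htr (jF2 L N F2) htr2 rfl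
  haveI : FiniteDimensional (S24.FF L N) F2 :=
    Module.finite_of_finrank_pos (by rw [hdeg]; exact h.prime_s.pos)
  haveI : FiniteDimensional (FractionRing L[X]) F2 :=
    FiniteDimensional.trans (FractionRing L[X]) (S24.FF L N) F2
  -- the Kummer data
  have hw0 : h.w ≠ 0 := div_ne_zero h.ne1 h.ne2
  have hirr : Irreducible (X ^ s - C h.w : (S24.FF L N)[X]) :=
    X_pow_sub_C_irreducible_of_prime h.prime_s (fun b hb => h.H2 ⟨b, hb⟩)
  have hF := FFKit.ramificationIdx_F2 ι N s h.prime_s.pos u h.w hu hirr hdeg hw0 h.H1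
    (BF2 := integralClosure L[X] F2) (fun p => by
      show aeval (jF2 L N F2) p = _
      rw [jF2, aeval_algebraMap_apply])
  have hgenu : IntermediateField.adjoin (S24.FF L N) {u} = ⊤ :=
    adjoin_root_eq_top s h.prime_s.pos u h.w hu hirr hdeg
  -- the monogenic separable datum
  obtain ⟨θ, P, hP, hPθ, hsep, hgenθ⟩ := PGOut.exists_theta_F2 h F2
  have hθ : IntermediateField.adjoin (FractionRing L[X]) {θ} = ⊤ := by
    rw [eq_top_iff]
    intro x _
    refine PGOut.map_mem_subfield_of_adjoin_eq_top (RingHom.id (S24.FF L N))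
      (IntermediateField.adjoin (FractionRing L[X]) {θ}).toSubfield _ hgenθ
      (fun a => ?_) (fun t ht => ?_) x
    · have e : algebraMap L (S24.FF L N) a =
          algebraMap (FractionRing L[X]) (S24.FF L N) (algebraMap L[X] (FractionRing L[X]) (C a)) := by
        rw [ratAlgebra_algebraMap, aeval_C]
      rw [RingHom.id_apply, e]
      exact IntermediateField.algebraMap_mem _ _
    · rcases ht with rfl | rfl
      · have e : S24.jBC L N =
            algebraMap (FractionRing L[X]) (S24.FF L N) (algebraMap L[X] (FractionRing L[X]) X) := by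
          rw [ratAlgebra_algebraMap, aeval_X]
        rw [RingHom.id_apply, e]
        exact IntermediateField.algebraMap_mem _ _
      · exact IntermediateField.mem_adjoin_simple_self (FractionRing L[X]) t
  -- Gauss integrality of the Kummer datum and of the sheet idempotent
  obtain ⟨hε, hεε⟩ := ContractsEps.eps_gaussInt F2 h hπ u hu
  have hw := ContractsEps.isGaussJ_w F2 h hπ
  have hw' := ContractsEps.isGaussJ_w_inv F2 h hπ
  obtain ⟨e, he, d, hd, hed⟩ := hesse_chart_lift (W := ↥W) (k := IsLocalRing.ResidueField ↥W)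
    (L := L) (F := S24.FF L N) (F2 := F2) (FractionRing L[X]) (jF2 L N F2)
    (ContractsEps.evAt_X W N F2 (jF2 L N F2)) (polyAlgebra_X (jF2 L N F2)) htr2 hinjW π hp hmax
    h3 ω hω hF (IsLocalRing.residue ↥W) IsLocalRing.residue_surjective hker θ hθ P hP hPθ hsep
    s h.prime_s (ContractsEps.isUnit_natCast h) ζ hζ u hgenu h.w hw0 hu hw hw'
    (Kummer.eps s u) hε hεε
  refine ⟨e, he, d, hd, ?_⟩
  rw [hed]
  show evAt W N (jF2 L N F2) (C π) * d = _
  rw [ContractsEps.evAt_C]

end Fermat.Agent.S18.HesseLift
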