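/-
S18: the chart-independent half of the finite chart instances.

`finite_chart_contract` : for the data `Contracts.KData` and a generic field `F2 = F(u)`, the
conclusion of `Contracts.FiniteChartLift` follows from `FiniteChartCore.finite_chart_lift` as
soon as a chart of the auxiliary line (`R0`, `BM`, `K'`, `Y'` with their structures: Legendre
for `ℓ` odd, Hesse for `ℓ = 2`) is supplied.  All inputs at the level of `F`, `F2`, `K` — the
monogenic separable datum, the Kummer datum, the Gauss integrality of `w`, `w⁻¹` and of the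
sheet idempotent, the ramification of `F2` over the `j`-line, the root of unity — are
discharged here.
-/
import Mathlib
import Fermat.Agent.S18.ContractsEps
import Fermat.Agent.S18.PGOut
import Fermat.Agent.S18.FunctionFieldKitFF
import Fermat.Agent.S18.FiniteChartCore

set_option autoImplicit false
set_option linter.style.haveILetI false
set_option linter.unusedSectionVars false

namespace Fermat.Agent.S18.FiniteChartK

open ModularCurve AlgebraicCurve Polynomial
open Fermat.Agent.S18.Contracts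

local notation "Qb" => AlgebraicClosure ℚ

/-! ### Generic field lemmas -/

/-- `F = L(j, θ)` gives `F = K(θ)` for `K = Frac L[X]` acting through `X ↦ j`. -/
theorem adjoin_eq_top_of_pair {L F K : Type*} [Field L] [Field F] [Algebra L F] [Field K]
    [Algebra L[X] K] [Algebra K F] (j θ : F)
    (hK : ∀ p : L[X], algebraMap K F (algebraMap L[X] K p) = aeval j p)
    (hgen : IntermediateField.adjoin L {j, θ} = ⊤) : IntermediateField.adjoin K {θ} = ⊤ := by
  rw [eq_top_iff]
  intro x _
  have key := PGOut.map_mem_subfield_of_adjoin_eq_top (RingHom.id F)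
    (IntermediateField.adjoin K {θ}).toSubfield {j, θ} hgen (fun a => ?_) (fun t ht => ?_) x
  · exact key
  · show algebraMap L F a ∈ IntermediateField.adjoin K {θ}
    have e : algebraMap L F a = algebraMap K F (algebraMap L[X] K (C a)) := by
      rw [hK, aeval_C]
    rw [e]
    exact IntermediateField.algebraMap_mem _ _
  · show t ∈ IntermediateField.adjoin K {θ}
    rcases ht with rfl | rfl
    · have e : t = algebraMap K F (algebraMap L[X] K X) := by rw [hK, aeval_X]
      rw [e]
      exact IntermediateField.algebraMap_mem _ _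
    · exact IntermediateField.mem_adjoin_simple_self K _

/-- A Kummer extension of prime degree `s` by a non-`s`-th power is generated by the root. -/
theorem adjoin_root_eq_top {F F2 : Type*} [Field F] [Field F2] [Algebra F F2] (s : ℕ)
    (hs : s.Prime) (u : F2) (w : F) (huw : u ^ s = algebraMap F F2 w)
    (hnp : ¬ ∃ a : F, a ^ s = w) (hdeg : Module.finrank F F2 = s) :
    IntermediateField.adjoin F {u} = ⊤ := by
  have hirr : Irreducible (X ^ s - C w : F[X]) :=
    X_pow_sub_C_irreducible_of_prime hs (fun b hb => hnp ⟨b, hb⟩)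
  haveI : FiniteDimensional F F2 := Module.finite_of_finrank_pos (by rw [hdeg]; exact hs.pos)
  rw [Field.primitive_element_iff_minpoly_natDegree_eq,
    Kummer.minpoly_eq s u w hs.ne_zero huw hirr, natDegree_X_pow_sub_C, hdeg]

/-! ### The instance currency for an arbitrary `W[X]`-structure `X ↦ j` on `F2` -/

section Conv

variable {L : Type} [Field L] [Algebra ℚ L] (W : ValuationSubring L) (N : ℕ) [NeZero N]
  (F2 : Type) [Field F2] [Algebra (S24.FF L N) F2] [Algebra (↥W)[X] F2]
  (hW : algebraMap (↥W)[X] F2 = evAt W N (jF2 L N F2))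

include hW

theorem isIntegral_iff (z : F2) :
    IsIntegral (↥W)[X] z ↔ (evAt W N (jF2 L N F2)).IsIntegralElem z := by
  have e : IsIntegral (↥W)[X] z ↔ (algebraMap (↥W)[X] F2).IsIntegralElem z := Iff.rfl
  rw [e, hW]

theorem isGaussInt_iff (π : W) (z : F2) :
    IsGaussInt (↥W)[X] (C π) z ↔ IsGaussJ W N π z := by
  constructor
  · rintro ⟨t, ht, hi⟩
    refine ⟨t, ht, ?_⟩
    rw [Algebra.smul_def, hW] at hi
    exact (isIntegral_iff W N F2 hW _).mp hi
  · rintro ⟨t, ht, hi⟩
    refine ⟨t, ht, ?_⟩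
    rw [Algebra.smul_def, hW]
    exact (isIntegral_iff W N F2 hW _).mpr hi

theorem C_smul_eq (π : W) (d : F2) : (C π : (↥W)[X]) • d = toF2 W N F2 π * d := by
  rw [Algebra.smul_def, hW, ContractsEps.evAt_C]

end Conv

/-! ### Inputs from `KData` -/

section Data

variable {ℓ : ℕ} {L : Type} [Field L] [Algebra ℚ L] {ι : L →+* Qb} {W : ValuationSubring L}
  {N : ℕ} [NeZero N] {s : ℕ} {Z1 Z2 : LaurentSeries ↥W}

/-- A primitive `s`-th root of unity in `L`. -/
theorem exists_primitiveRoot (h : KData ℓ ι W N s Z1 Z2) : ∃ ζ : L, IsPrimitiveRoot ζ s := by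
  have hs0 : s ≠ 0 := h.prime_s.ne_zero
  have hℓs : ¬ ℓ ∣ s := fun hd =>
    h.ne ((Nat.prime_dvd_prime_iff_eq h.prime_l h.prime_s).mp hd).symm
  haveI : NeZero s := ⟨hs0⟩
  obtain ⟨ξ, hξ⟩ := HasEnoughRootsOfUnity.exists_primitiveRoot Qb s
  obtain ⟨b, hb⟩ := h.roots ξ ⟨s, hℓs, hξ.pow_eq_one⟩
  refine ⟨b, IsPrimitiveRoot.of_map_of_injective (f := ι) ?_ ι.injective⟩
  rw [hb]
  exact hξ

theorem w_ne_zero (h : KData ℓ ι W N s Z1 Z2) : h.w ≠ 0 := div_ne_zero h.ne1 h.ne2

theorem irreducible_w (h : KData ℓ ι W N s Z1 Z2) :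
    Irreducible (X ^ s - C h.w : (S24.FF L N)[X]) :=
  X_pow_sub_C_irreducible_of_prime h.prime_s (fun b hb => h.H2 ⟨b, hb⟩)

/-- `s` is a unit in any `W[X]`-algebra. -/
theorem isUnit_natCast_algebra (h : KData ℓ ι W N s Z1 Z2) (R0 : Type*) [CommRing R0]
    [Algebra (↥W)[X] R0] : IsUnit ((s : ℕ) : R0) := by
  obtain ⟨sinv, hsinv⟩ := ContractsEps.exists_natCast_inv h
  have e := congrArg (algebraMap (↥W)[X] R0) hsinv
  rw [map_mul, map_natCast, map_one] at e
  exact IsUnit.of_mul_eq_one _ e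

end Data

/-! ### The finite chart contract from an abstract chart of the auxiliary line -/

section Main

variable {ℓ : ℕ} {L : Type} [Field L] [Algebra ℚ L] {ι : L →+* Qb} {W : ValuationSubring L}
  {N : ℕ} [NeZero N] {s : ℕ} {Z1 Z2 : LaurentSeries ↥W}

/-- **The finite chart contract, chart-independent half.**  `K = Frac L[X]` acts on `F2` through
`X ↦ j` (hypotheses `hA`, `hW` pin the `L[X]`- and `W[X]`-structures of `F2`); `R0`, `BM`, `K'`,
`Y'` are the chart of the auxiliary line with the structures and properties asked by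
`FiniteChartCore.finite_chart_lift`.  The conclusion is the conclusion of
`Contracts.FiniteChartLift`. -/
theorem finite_chart_contract
    (h : KData ℓ ι W N s Z1 Z2) (π : ↥W) (hπ0 : Irreducible π)
    (F2 : Type) [Field F2] [Algebra (S24.FF L N) F2] (u : F2)
    (hu : u ^ s = algebraMap (S24.FF L N) F2 h.w)
    (hdeg : Module.finrank (S24.FF L N) F2 = s)
    {K R0 BM K' Y' : Type*}
    [Field K] [Algebra L[X] K] [IsFractionRing L[X] K]
    [Algebra K F2] [Algebra L[X] F2] [IsScalarTower L[X] K F2] [Algebra (↥W)[X] F2]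
    (hA : ∀ p : L[X], algebraMap L[X] F2 p =
      algebraMap (S24.FF L N) F2 (aeval (S24.jBC L N) p))
    (hW : algebraMap (↥W)[X] F2 = evAt W N (jF2 L N F2))
    [CommRing R0] [IsDomain R0] [IsNoetherianRing R0] [IsIntegrallyClosed R0]
    [Algebra (↥W)[X] R0] [Algebra.IsIntegral (↥W)[X] R0]
    [Field K'] [Algebra R0 K'] [IsFractionRing R0 K']
    [Algebra K K'] [FiniteDimensional K K'] [IsGalois K K'] [Algebra L[X] K']
    [IsScalarTower L[X] K K']
    [Field Y'] [Algebra K Y'] [Algebra F2 Y'] [Algebra K' Y'] [IsScalarTower K F2 Y']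
    [IsScalarTower K K' Y']
    [Algebra R0 Y'] [IsScalarTower R0 K' Y'] [Algebra (↥W)[X] Y'] [IsScalarTower (↥W)[X] R0 Y']
    [IsScalarTower (↥W)[X] F2 Y']
    (hFM : IntermediateField.adjoin F2 (Set.range (algebraMap K' Y')) = ⊤)
    [CommRing BM] [Algebra L[X] BM] [Algebra BM K'] [IsScalarTower L[X] BM K']
    [IsIntegralClosure BM L[X] K'] [Algebra BM Y'] [IsScalarTower BM K' Y']
    [Algebra R0 BM] [IsScalarTower R0 BM K']
    [IsLocalization.Away (algebraMap (↥W)[X] R0 (C π)) BM]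
    (hπ : Prime (algebraMap (↥W)[X] R0 (C π)))
    (hDed : IsDedekindDomain (R0 ⧸ Ideal.span {algebraMap (↥W)[X] R0 (C π)}))
    (hcompat : ∀ a : (↥W)[X], algebraMap (↥W)[X] R0 (C π) ∣ algebraMap (↥W)[X] R0 a → C π ∣ a)
    (u₀ g₀ u₁ g₁ : BM) (hu₀ : IsUnit u₀) (h₀ : algebraMap L[X] BM X = u₀ * g₀ ^ 3)
    (hu₁ : IsUnit u₁) (h₁ : algebraMap L[X] BM (X - C 1728) = u₁ * g₁ ^ 2)
    (hι : ∀ f : (↥W)[X], algebraMap (↥W)[X] R0 (C π) ∣ algebraMap (↥W)[X] R0 f ↔
      f.map (IsLocalRing.residue ↥W) = 0) :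
    ∃ e : F2, (evAt W N (jF2 L N F2)).IsIntegralElem e ∧
      ∃ d : F2, IsGaussJ W N π d ∧ e - Kummer.eps s u = toF2 W N F2 π * d := by
  classical
  haveI := h.dvr
  have htr : Transcendental L (S24.jBC L N) := RamJ.transcendental_jBC ι N
  -- the `K`-structure on `F`
  letI : Algebra K (S24.FF L N) := FFKit.ratAlgebra K (S24.jBC L N) htr
  have hKF : ∀ p : L[X], algebraMap K (S24.FF L N) (algebraMap L[X] K p) =
      aeval (S24.jBC L N) p := FFKit.ratAlgebra_algebraMap K (S24.jBC L N) htr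
  haveI : IsScalarTower K (S24.FF L N) F2 := by
    refine IsScalarTower.of_algebraMap_eq' ?_
    refine FFKit.algebraMap_eq_of_comp_eq (A := L[X]) K _ _ (fun p => ?_)
    rw [← IsScalarTower.algebraMap_apply L[X] K F2, hA, RingHom.comp_apply, hKF]
  haveI : FiniteDimensional K (S24.FF L N) := FFKit.finiteDimensional_FF ι N K
  haveI : FiniteDimensional (S24.FF L N) F2 :=
    Module.finite_of_finrank_pos (by rw [hdeg]; exact h.prime_s.pos)
  haveI : FiniteDimensional K F2 := FiniteDimensional.trans K (S24.FF L N) F2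
  -- the monogenic separable datum
  obtain ⟨θ, P, hP, hPθ, hsep, hgen⟩ := PGOut.exists_theta_F2 h F2
  have hθ : IntermediateField.adjoin K {θ} = ⊤ :=
    adjoin_eq_top_of_pair (S24.jBC L N) θ hKF hgen
  rw [← hW] at hPθ
  -- the Kummer datum
  have hw0 : h.w ≠ 0 := w_ne_zero h
  have huF : IntermediateField.adjoin (S24.FF L N) {u} = ⊤ :=
    adjoin_root_eq_top s h.prime_s u h.w hu h.H2 hdeg
  have hF := FFKit.ramificationIdx_F2 ι N s h.prime_s.pos u h.w hu (irreducible_w h) hdeg hw0
    h.H1 (BF2 := integralClosure L[X] F2) hA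
  -- the root of unity
  obtain ⟨ζL, hζL⟩ := exists_primitiveRoot h
  let toK' : L →+* K' := (algebraMap K K').comp ((algebraMap L[X] K).comp C)
  have hζ : IsPrimitiveRoot (toK' ζL) s := hζL.map_of_injective toK'.injective
  -- `s` is prime to the vertical prime
  have hsπ : ¬ algebraMap (↥W)[X] R0 (C π) ∣ ((s : ℕ) : R0) := fun hd =>
    hπ.not_isUnit (isUnit_of_dvd_unit hd (isUnit_natCast_algebra h R0))
  -- Gauss integrality
  have hw : IsGaussInt (↥W)[X] (C π) (algebraMap (S24.FF L N) F2 h.w) :=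
    (isGaussInt_iff W N F2 hW π _).mpr (ContractsEps.isGaussJ_w F2 h hπ0)
  have hw' : IsGaussInt (↥W)[X] (C π) (algebraMap (S24.FF L N) F2 h.w)⁻¹ :=
    (isGaussInt_iff W N F2 hW π _).mpr (ContractsEps.isGaussJ_w_inv F2 h hπ0)
  have hε : IsGaussInt (↥W)[X] (C π) (Kummer.eps s u) :=
    (isGaussInt_iff W N F2 hW π _).mpr (ContractsEps.isGaussJ_eps F2 h hπ0 u hu)
  have hεε : ∃ d : F2, IsGaussInt (↥W)[X] (C π) d ∧
      Kummer.eps s u ^ 2 - Kummer.eps s u = (C π : (↥W)[X]) • d := by
    obtain ⟨d, hd, e⟩ := ContractsEps.exists_eps_idem F2 h hπ0 u hu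
    exact ⟨d, (isGaussInt_iff W N F2 hW π d).mpr hd, by rw [e, C_smul_eq W N F2 hW]⟩
  obtain ⟨e, he, d, hd, hed⟩ := FiniteChartCore.finite_chart_lift (W := ↥W)
    (k := IsLocalRing.ResidueField ↥W) (L := L) (K := K) (F := S24.FF L N) (F2 := F2)
    (R0 := R0) (BM := BM) (K' := K') (Y' := Y') hFM π hπ hDed hcompat hF u₀ g₀ u₁ g₁ hu₀ h₀
    hu₁ h₁ (FractionRing (IsLocalRing.ResidueField ↥W)[X]) (IsLocalRing.residue ↥W)
    IsLocalRing.residue_surjective hι θ hθ P hP hPθ hsep s h.prime_s hsπ (toK' ζL) hζ u huF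
    h.w hw0 hu hw hw' (Kummer.eps s u) hε hεε
  exact ⟨e, (isIntegral_iff W N F2 hW e).mp he, d, (isGaussInt_iff W N F2 hW π d).mp hd,
    by rw [hed, C_smul_eq W N F2 hW]⟩

end Main

end Fermat.Agent.S18.FiniteChartK
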