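/-
S18: the arithmetic facts that every chart instance and the final assembly extract from
`Contracts.KData` (units and roots of unity of the discrete valuation ring `W`, the Kummer datum
`w`, transcendence of `j` and finiteness over `L(j)` for the generic field `F2`).
-/
import Mathlib
import Fermat.Agent.S18.Contracts
import Fermat.Agent.S18.RamJIdeal
import Fermat.Agent.S18.GaussDegree
import Fermat.Agent.S18.FunctionFieldKit

set_option autoImplicit false
set_option linter.style.haveILetI false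

namespace Fermat.Agent.S18.KSetup

open ModularCurve AlgebraicCurve Polynomial
open Fermat.Agent.S18.Contracts

local notation "Qb" => AlgebraicClosure ℚ

section DVR

variable {L : Type} [Field L] [Algebra ℚ L] {ι : L →+* Qb} {W : ValuationSubring L}
  {N : ℕ} [NeZero N] {ℓ s : ℕ} {Z1 Z2 : LaurentSeries ↥W}

/-- A uniformiser of `W` is a prime element. -/
theorem prime_pi (h : KData ℓ ι W N s Z1 Z2) {π : ↥W} (hπ : Irreducible π) : Prime π := by
  haveI := h.dvr
  exact hπ.prime

/-- The residue characteristic is `ℓ`: a natural number prime to `ℓ` is a unit of `W`. -/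
theorem natCast_isUnit (h : KData ℓ ι W N s Z1 Z2) (n : ℕ) (hn : ¬ ℓ ∣ n) :
    IsUnit ((n : ℕ) : ↥W) := by
  haveI := h.char
  by_contra hu
  have h1 : IsLocalRing.residue ↥W ((n : ℕ) : ↥W) = 0 := by
    rw [IsLocalRing.residue_eq_zero_iff]
    exact (IsLocalRing.mem_maximalIdeal _).mpr hu
  rw [map_natCast, CharP.cast_eq_zero_iff (IsLocalRing.ResidueField ↥W) ℓ] at h1
  exact hn h1

/-- `ℓ` lies in the maximal ideal of `W`. -/
theorem dvd_natCast_l (h : KData ℓ ι W N s Z1 Z2) {π : ↥W} (hπ : Irreducible π) :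
    π ∣ ((ℓ : ℕ) : ↥W) := by
  haveI := h.dvr
  haveI := h.char
  have h1 : IsLocalRing.residue ↥W ((ℓ : ℕ) : ↥W) = 0 := by
    rw [map_natCast, CharP.cast_eq_zero]
  rw [IsLocalRing.residue_eq_zero_iff, hπ.maximalIdeal_eq, Ideal.mem_span_singleton] at h1
  exact h1

/-- A uniformiser does not divide a natural number prime to `ℓ`. -/
theorem not_dvd_natCast (h : KData ℓ ι W N s Z1 Z2) {π : ↥W} (hπ : Irreducible π) (n : ℕ)
    (hn : ¬ ℓ ∣ n) : ¬ π ∣ ((n : ℕ) : ↥W) := fun hd =>
  hπ.not_isUnit (isUnit_of_dvd_unit hd (natCast_isUnit h n hn))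

theorem isUnit_s (h : KData ℓ ι W N s Z1 Z2) : IsUnit ((s : ℕ) : ↥W) :=
  natCast_isUnit h s (fun hd => h.ne ((Nat.prime_dvd_prime_iff_eq h.prime_l h.prime_s).mp hd).symm)

theorem not_dvd_s (h : KData ℓ ι W N s Z1 Z2) {π : ↥W} (hπ : Irreducible π) :
    ¬ π ∣ ((s : ℕ) : ↥W) := fun hd => hπ.not_isUnit (isUnit_of_dvd_unit hd (isUnit_s h))

theorem isUnit_N (h : KData ℓ ι W N s Z1 Z2) : IsUnit ((N : ℕ) : ↥W) :=
  natCast_isUnit h N h.not_dvd

theorem isUnit_two (h : KData ℓ ι W N s Z1 Z2) (hℓ : ℓ ≠ 2) : IsUnit (2 : ↥W) := by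
  have := natCast_isUnit h 2
    (fun hd => hℓ ((Nat.prime_dvd_prime_iff_eq h.prime_l Nat.prime_two).mp hd))
  simpa using this

theorem isUnit_three (h : KData ℓ ι W N s Z1 Z2) (hℓ : ℓ ≠ 3) : IsUnit (3 : ↥W) := by
  have := natCast_isUnit h 3
    (fun hd => hℓ ((Nat.prime_dvd_prime_iff_eq h.prime_l Nat.prime_three).mp hd))
  simpa using this

omit [Algebra ℚ L] in
/-- An element of `L` a power of which is `1` lies in `W`. -/
theorem mem_of_pow_eq_one (W : ValuationSubring L) {b : L} {n : ℕ} (hn : n ≠ 0)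
    (hb : b ^ n = 1) : b ∈ W := by
  rcases W.mem_or_inv_mem b with hb' | hb'
  · exact hb'
  · have h1 : b = b⁻¹ ^ (n - 1) := by
      have hb0 : b ≠ 0 := by
        rintro rfl
        rw [zero_pow hn] at hb
        exact zero_ne_one hb
      have h2 : b ^ (n - 1) * b = 1 := by
        rw [← pow_succ, Nat.sub_add_cancel (Nat.pos_of_ne_zero hn), hb]
      rw [inv_pow]
      exact (eq_inv_of_mul_eq_one_right h2)
    rw [h1]
    exact pow_mem hb' _

/-- **Roots of unity**: `W` contains a primitive `n`-th root of unity for every `n` prime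
to `ℓ`. -/
theorem exists_primitiveRoot (h : KData ℓ ι W N s Z1 Z2) (n : ℕ) (hn0 : n ≠ 0) (hn : ¬ ℓ ∣ n) :
    ∃ ζ : ↥W, IsPrimitiveRoot ζ n := by
  haveI : NeZero n := ⟨hn0⟩
  obtain ⟨ζ₀, hζ₀⟩ := HasEnoughRootsOfUnity.exists_primitiveRoot Qb n
  obtain ⟨b, hb⟩ := h.roots ζ₀ ⟨n, hn, hζ₀.pow_eq_one⟩
  have hbp : IsPrimitiveRoot b n := by
    rw [← hb] at hζ₀
    exact IsPrimitiveRoot.of_map_of_injective (f := ι) hζ₀ ι.injective
  have hbW : b ∈ W := mem_of_pow_eq_one W hn0 hbp.pow_eq_one
  refine ⟨⟨b, hbW⟩, ?_⟩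
  exact IsPrimitiveRoot.of_map_of_injective (f := W.subtype) hbp W.subtype_injective

/-- The primitive root in `L`. -/
theorem exists_primitiveRoot_L (h : KData ℓ ι W N s Z1 Z2) (n : ℕ) (hn0 : n ≠ 0)
    (hn : ¬ ℓ ∣ n) : ∃ ζ : L, ζ ∈ W ∧ IsPrimitiveRoot ζ n := by
  obtain ⟨ζ, hζ⟩ := exists_primitiveRoot h n hn0 hn
  exact ⟨ζ, ζ.2, hζ.map_of_injective (f := W.subtype) W.subtype_injective⟩

/-- A primitive `s`-th root of unity in `W`. -/
theorem exists_primitiveRoot_s (h : KData ℓ ι W N s Z1 Z2) : ∃ ζ : ↥W, IsPrimitiveRoot ζ s :=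
  exists_primitiveRoot h s h.prime_s.ne_zero
    (fun hd => h.ne ((Nat.prime_dvd_prime_iff_eq h.prime_l h.prime_s).mp hd).symm)

/-- A primitive `N`-th root of unity in `W`. -/
theorem exists_primitiveRoot_N (h : KData ℓ ι W N s Z1 Z2) : ∃ ζ : ↥W, IsPrimitiveRoot ζ N :=
  exists_primitiveRoot h N (NeZero.ne N) h.not_dvd

end DVR

section Kummer

variable {L : Type} [Field L] [Algebra ℚ L] {ι : L →+* Qb} {W : ValuationSubring L}
  {N : ℕ} [NeZero N] {ℓ s : ℕ} {Z1 Z2 : LaurentSeries ↥W}

/-- The Kummer datum is nonzero. -/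
theorem w_ne_zero (h : KData ℓ ι W N s Z1 Z2) : h.w ≠ 0 := div_ne_zero h.ne1 h.ne2

/-- `X ^ s - w` is irreducible over `F_L` (`w` is not an `s`-th power, `s` prime). -/
theorem irreducible_w (h : KData ℓ ι W N s Z1 Z2) :
    Irreducible (X ^ s - C h.w : (S24.FF L N)[X]) :=
  X_pow_sub_C_irreducible_of_prime h.prime_s (fun b hb => h.H2 ⟨b, hb⟩)

/-- All orders of the Kummer datum are divisible by `s`. -/
theorem s_dvd_ord_w (h : KData ℓ ι W N s Z1 Z2) (v : Place L (S24.FF L N)) :
    (s : ℤ) ∣ v.ord h.w := h.H1 v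

/-- A primitive `s`-th root of unity in `F_L`. -/
theorem exists_primitiveRoot_FF (h : KData ℓ ι W N s Z1 Z2) :
    ∃ ζ : S24.FF L N, IsPrimitiveRoot ζ s := by
  obtain ⟨ζ, -, hζ⟩ := exists_primitiveRoot_L h s h.prime_s.ne_zero
    (fun hd => h.ne ((Nat.prime_dvd_prime_iff_eq h.prime_l h.prime_s).mp hd).symm)
  exact ⟨algebraMap L (S24.FF L N) ζ,
    hζ.map_of_injective (algebraMap L (S24.FF L N)).injective⟩

variable (F2 : Type) [Field F2] [Algebra (S24.FF L N) F2]

instance charZero_FF (L : Type) [Field L] [Algebra ℚ L] (N : ℕ) : CharZero (S24.FF L N) :=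
  haveI : CharZero L := algebraRat.charZero L
  charZero_of_injective_algebraMap (algebraMap L (S24.FF L N)).injective

omit [NeZero N] in
include L N in
/-- `F2` has characteristic zero. -/
theorem charZero_F2 : CharZero F2 :=
  charZero_of_injective_algebraMap (algebraMap (S24.FF L N) F2).injective

variable {F2}

omit [NeZero N] in
include L N in
theorem natCast_ne_zero_F2 {n : ℕ} (hn : n ≠ 0) : ((n : ℕ) : F2) ≠ 0 := by
  haveI := charZero_F2 (L := L) (N := N) F2
  exact Nat.cast_ne_zero.mpr hn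

theorem u_ne_zero (h : KData ℓ ι W N s Z1 Z2) {u : F2}
    (hu : u ^ s = algebraMap (S24.FF L N) F2 h.w) : u ≠ 0 := by
  rintro rfl
  rw [zero_pow h.prime_s.ne_zero] at hu
  exact w_ne_zero h ((algebraMap (S24.FF L N) F2).injective (by rw [← hu, map_zero]))

include ℓ ι W Z1 Z2 in
/-- `F2` is finite over `F_L`. -/
theorem finiteDimensional_F2 (h : KData ℓ ι W N s Z1 Z2)
    (hdeg : Module.finrank (S24.FF L N) F2 = s) : FiniteDimensional (S24.FF L N) F2 := by
  apply Module.finite_of_finrank_pos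
  rw [hdeg]
  exact h.prime_s.pos

/-- The minimal polynomial of `u` over `F_L`. -/
theorem minpoly_u (h : KData ℓ ι W N s Z1 Z2) {u : F2}
    (hu : u ^ s = algebraMap (S24.FF L N) F2 h.w) :
    minpoly (S24.FF L N) u = X ^ s - C h.w := by
  symm
  refine minpoly.eq_of_irreducible_of_monic (irreducible_w h) ?_
    (monic_X_pow_sub_C _ h.prime_s.ne_zero)
  simp [hu]

/-- `F2 = F_L(u)`. -/
theorem adjoin_u_eq_top (h : KData ℓ ι W N s Z1 Z2) {u : F2}
    (hu : u ^ s = algebraMap (S24.FF L N) F2 h.w)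
    (hdeg : Module.finrank (S24.FF L N) F2 = s) :
    IntermediateField.adjoin (S24.FF L N) {u} = ⊤ := by
  haveI := finiteDimensional_F2 h hdeg
  rw [Field.primitive_element_iff_minpoly_natDegree_eq, minpoly_u h hu, hdeg,
    natDegree_X_pow_sub_C]

/-- `F2 / F_L` is Galois (cyclic of degree `s`). -/
theorem isGalois_F2 (h : KData ℓ ι W N s Z1 Z2) {u : F2}
    (hu : u ^ s = algebraMap (S24.FF L N) F2 h.w)
    (hdeg : Module.finrank (S24.FF L N) F2 = s) : IsGalois (S24.FF L N) F2 := by
  obtain ⟨ζ, hζ⟩ := exists_primitiveRoot_FF h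
  have hζ' : (primitiveRoots s (S24.FF L N)).Nonempty :=
    ⟨ζ, (mem_primitiveRoots h.prime_s.pos).mpr hζ⟩
  haveI := finiteDimensional_F2 h hdeg
  have htop := adjoin_u_eq_top h hu hdeg
  have hirr := irreducible_w h
  generalize h.w = w at hu htop hirr
  subst hdeg
  haveI := isSplittingField_X_pow_sub_C_of_root_adjoin_eq_top hζ' hu htop
  exact isGalois_of_isSplittingField_X_pow_sub_C hζ' hirr F2

end Kummer

section JSide

variable {L : Type} [Field L] [Algebra ℚ L] (ι : L →+* Qb) (W : ValuationSubring L)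
  (N : ℕ) [NeZero N] (F2 : Type) [Field F2] [Algebra (S24.FF L N) F2]

include ι in
/-- `j` is transcendental over `L` in `F2`. -/
theorem transcendental_jF2 [Algebra L F2] [IsScalarTower L (S24.FF L N) F2] :
    Transcendental L (jF2 L N F2) :=
  FFKit.transcendental_algebraMap (RamJ.transcendental_jBC ι N)

/-- `evAt` at `j` in terms of `aeval` in `F_L`. -/
theorem evAt_jF2_eq (p : (↥W)[X]) :
    evAt W N (jF2 L N F2) p =
      algebraMap (S24.FF L N) F2 (aeval (S24.jBC L N) (p.map W.subtype)) := by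
  rw [aeval_def, eval₂_map, hom_eval₂]
  rfl

include ι in
/-- Polynomials in `j` over `W` embed into `F2`. -/
theorem evAt_jF2_injective : Function.Injective (evAt W N (jF2 L N F2)) := by
  intro p q hpq
  rw [evAt_jF2_eq, evAt_jF2_eq] at hpq
  have h1 := (algebraMap (S24.FF L N) F2).injective hpq
  have h2 := (transcendental_iff_injective.mp (RamJ.transcendental_jBC ι N)) h1
  exact Polynomial.map_injective _ W.subtype_injective h2

/-- `evAt` at `1 / j` in terms of `aeval` in `F_L`. -/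
theorem evAt_jF2_inv_eq (p : (↥W)[X]) :
    evAt W N (jF2 L N F2)⁻¹ p =
      algebraMap (S24.FF L N) F2 (aeval (S24.jBC L N)⁻¹ (p.map W.subtype)) := by
  rw [aeval_def, eval₂_map, hom_eval₂, map_inv₀]
  rfl

/-- Finiteness over `L(x)` passes to a finite extension (with the image of `x`). -/
theorem finiteDimensional_adjoin_map {L E E' : Type*} [Field L] [Field E] [Field E']
    [Algebra L E] [Algebra L E'] [Algebra E E'] [IsScalarTower L E E'] (x : E)
    [FiniteDimensional (IntermediateField.adjoin L {x}) E] [FiniteDimensional E E'] :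
    FiniteDimensional (IntermediateField.adjoin L {algebraMap E E' x}) E' := by
  let f : E →ₐ[L] E' := IsScalarTower.toAlgHom L E E'
  let S := IntermediateField.adjoin L {x}
  have hmap : S.map f = IntermediateField.adjoin L {algebraMap E E' x} := by
    rw [IntermediateField.adjoin_map, Set.image_singleton]
    rfl
  let e₁ : S ≃+* IntermediateField.adjoin L {algebraMap E E' x} :=
    (S.equivMap f).toRingEquiv.trans (IntermediateField.equivOfEq hmap).toRingEquiv
  haveI : Module.Finite S E' := Module.Finite.trans E E'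
  refine Module.Finite.of_equiv_equiv e₁ (RingEquiv.refl E') ?_
  ext y
  rfl

/-- `F2` is finite over `L(j)` (intermediate-field currency). -/
theorem finiteDimensional_adjoin_jF2 [Algebra L F2] [IsScalarTower L (S24.FF L N) F2]
    [FiniteDimensional (S24.FF L N) F2] :
    FiniteDimensional (IntermediateField.adjoin L {jF2 L N F2}) F2 := by
  haveI := (Gauss.finrank_FF_le L N).1
  exact finiteDimensional_adjoin_map (S24.jBC L N)

/-- `F2` is finite over `K = Frac L[X]` for the structure `X ↦ j` (kit currency). -/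
theorem finiteDimensional_rat_F2 [Algebra L F2] [IsScalarTower L (S24.FF L N) F2]
    [FiniteDimensional (S24.FF L N) F2]
    (K : Type*) [Field K] [Algebra L[X] K] [IsFractionRing L[X] K] :
    letI := FFKit.ratAlgebra K (jF2 L N F2) (transcendental_jF2 ι N F2)
    FiniteDimensional K F2 := by
  haveI := finiteDimensional_adjoin_jF2 (L := L) N F2
  exact FFKit.ratAlgebra_finite K (jF2 L N F2) (transcendental_jF2 ι N F2)

end JSide

end Fermat.Agent.S18.KSetup
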