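/-
S18: more arithmetic of the discrete valuation ring `W` of `Contracts.KData`
(residue map, maximality of `(π)`, `L = W[1/π]`, cube roots of unity).
-/
import Mathlib
import Fermat.Agent.S18.KSetup
import Fermat.Agent.S18.ChartBasics

set_option autoImplicit false
set_option linter.style.haveILetI false

namespace Fermat.Agent.S18.KSetup

open ModularCurve AlgebraicCurve Polynomial
open Fermat.Agent.S18.Contracts

local notation "Qb" => AlgebraicClosure ℚ

variable {L : Type} [Field L] [Algebra ℚ L] {ι : L →+* Qb} {W : ValuationSubring L}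
  {N : ℕ} [NeZero N] {ℓ s : ℕ} {Z1 Z2 : LaurentSeries ↥W}

omit [Algebra ℚ L] in
/-- A uniformiser is nonzero. -/
theorem pi_ne_zero {π : ↥W} (hπ : Irreducible π) : π ≠ 0 := hπ.ne_zero

/-- The maximal ideal of `W` is `(π)`. -/
theorem maximalIdeal_eq (h : KData ℓ ι W N s Z1 Z2) {π : ↥W} (hπ : Irreducible π) :
    IsLocalRing.maximalIdeal ↥W = Ideal.span {π} := by
  haveI := h.dvr
  exact hπ.maximalIdeal_eq

/-- `(π)` is a maximal ideal of `W`. -/
theorem isMaximal_span (h : KData ℓ ι W N s Z1 Z2) {π : ↥W} (hπ : Irreducible π) :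
    (Ideal.span {π}).IsMaximal := by
  rw [← maximalIdeal_eq h hπ]
  exact IsLocalRing.maximalIdeal.isMaximal ↥W

/-- The kernel of the residue map is `(π)`. -/
theorem ker_residue (h : KData ℓ ι W N s Z1 Z2) {π : ↥W} (hπ : Irreducible π) :
    RingHom.ker (IsLocalRing.residue ↥W) = Ideal.span {π} := by
  rw [IsLocalRing.ker_residue, maximalIdeal_eq h hπ]

/-- The residue of `a` vanishes iff `π ∣ a`. -/
theorem residue_eq_zero_iff (h : KData ℓ ι W N s Z1 Z2) {π : ↥W} (hπ : Irreducible π) (a : ↥W) :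
    IsLocalRing.residue ↥W a = 0 ↔ π ∣ a := by
  rw [← RingHom.mem_ker, ker_residue h hπ, Ideal.mem_span_singleton]

omit [Algebra ℚ L] in
/-- The residue map is surjective. -/
theorem residue_surjective (W : ValuationSubring L) :
    Function.Surjective (IsLocalRing.residue ↥W) := IsLocalRing.residue_surjective

/-- `L = W[1/π]`. -/
theorem isLocalization_away (h : KData ℓ ι W N s Z1 Z2) {π : ↥W} (hπ : Irreducible π) :
    IsLocalization.Away π L := by
  haveI := h.dvr
  exact ChartBasics.isLocalization_away_of_irreducible π hπ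

/-- The residue field has characteristic exactly `ℓ`: `ℓ` is prime (as a `Fact`). -/
theorem fact_prime_l (h : KData ℓ ι W N s Z1 Z2) : Fact ℓ.Prime := ⟨h.prime_l⟩

/-- A primitive cube root of unity in `W` (for `ℓ ≠ 3`), as a root of `X² + X + 1`. -/
theorem exists_omega (h : KData ℓ ι W N s Z1 Z2) (hℓ : ℓ ≠ 3) :
    ∃ ω : ↥W, ω ^ 2 + ω + 1 = 0 := by
  obtain ⟨ω, hω⟩ := exists_primitiveRoot h 3 (by norm_num)
    (fun hd => hℓ ((Nat.prime_dvd_prime_iff_eq h.prime_l Nat.prime_three).mp hd))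
  refine ⟨ω, ?_⟩
  have h1 : ω ^ 3 = 1 := hω.pow_eq_one
  have h2 : ω ≠ 1 := hω.ne_one (by norm_num)
  have h3 : (ω - 1) * (ω ^ 2 + ω + 1) = 0 := by linear_combination h1
  rcases mul_eq_zero.mp h3 with h4 | h4
  · exact absurd (sub_eq_zero.mp h4) h2
  · exact h4

/-- A primitive cube root of unity in `L` (for `ℓ ≠ 3`). -/
theorem exists_omega_L (h : KData ℓ ι W N s Z1 Z2) (hℓ : ℓ ≠ 3) :
    ∃ ω : L, ω ∈ W ∧ ω ^ 2 + ω + 1 = 0 := by
  obtain ⟨ω, hω⟩ := exists_omega h hℓ
  refine ⟨ω, ω.2, ?_⟩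
  have := congrArg W.subtype hω
  simpa using this

/-- A primitive `s`-th root of unity in `L`. -/
theorem exists_primitiveRoot_s_L (h : KData ℓ ι W N s Z1 Z2) :
    ∃ ζ : L, ζ ∈ W ∧ IsPrimitiveRoot ζ s :=
  exists_primitiveRoot_L h s h.prime_s.ne_zero
    (fun hd => h.ne ((Nat.prime_dvd_prime_iff_eq h.prime_l h.prime_s).mp hd).symm)

/-- `3` is invertible in `L` (characteristic zero). -/
theorem three_ne_zero_L (L : Type) [Field L] [Algebra ℚ L] : (3 : L) ≠ 0 := by
  haveI : CharZero L := algebraRat.charZero L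
  exact three_ne_zero

/-- `2` is invertible in `L` (characteristic zero). -/
theorem two_ne_zero_L (L : Type) [Field L] [Algebra ℚ L] : (2 : L) ≠ 0 := by
  haveI : CharZero L := algebraRat.charZero L
  exact two_ne_zero

end Fermat.Agent.S18.KSetup
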