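import Fermat.Agent.S18.AuxCover
import Fermat.Agent.S18.AwayPoly

/-!
# S18, package P3 (Legendre half): the auxiliary cover `x ↦ j = 256 (x² - x + 1)³ / (x² (x - 1)²)`

* identities valid in any commutative ring with `x`, `1/x`, `1/(x-1)`;
* integrality of `W[x, 1/x, 1/(x-1)]` over `W[j]` when `2` is a unit;
* the concrete chart `LegRing W = W[X][1/(X (X - 1))]` and its reduction modulo a prime;
* Galois property of the field generated by a root of the Legendre polynomial.
-/

set_option autoImplicit false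
set_option linter.style.haveILetI false

namespace Fermat.Agent.S18.Legendre

open Polynomial Fermat.Agent.S18.AuxCover

section Identities

variable {S : Type*} [CommRing S]

/-- The `j`-invariant of the Legendre family, `256 (x² - x + 1)³ / (x² (x - 1)²)`, written with
explicit inverses `y = 1/x`, `z = 1/(x - 1)`. -/
def legJ (x y z : S) : S := 256 * (x ^ 2 - x + 1) ^ 3 * y ^ 2 * z ^ 2

/-- A square root of `j - 1728` on the Legendre chart: `8 (x + 1) (x - 2) (2 x - 1) / (x (x - 1))`. -/
def legR (x y z : S) : S := 8 * (x + 1) * (x - 2) * (2 * x - 1) * y * z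

variable {x y z : S}

theorem legUnit (hy : x * y = 1) (hz : (x - 1) * z = 1) :
    (x ^ 2 * (x - 1) ^ 2) * (y ^ 2 * z ^ 2) = 1 := by
  have : (x ^ 2 * (x - 1) ^ 2) * (y ^ 2 * z ^ 2) = (x * y) ^ 2 * ((x - 1) * z) ^ 2 := by ring
  rw [this, hy, hz]; ring

theorem legJ_mul (hy : x * y = 1) (hz : (x - 1) * z = 1) :
    legJ x y z * (x ^ 2 * (x - 1) ^ 2) = 256 * (x ^ 2 - x + 1) ^ 3 := by
  have h := legUnit hy hz
  unfold legJ
  linear_combination (256 * (x ^ 2 - x + 1) ^ 3) * h

theorem legR_mul (hy : x * y = 1) (hz : (x - 1) * z = 1) :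
    legR x y z * (x * (x - 1)) = 8 * (x + 1) * (x - 2) * (2 * x - 1) := by
  have : legR x y z * (x * (x - 1)) =
      8 * (x + 1) * (x - 2) * (2 * x - 1) * ((x * y) * ((x - 1) * z)) := by
    unfold legR; ring
  rw [this, hy, hz]; ring

/-- First Kummer step of the Legendre cover: `r² = j - 1728`. -/
theorem legR_sq (hy : x * y = 1) (hz : (x - 1) * z = 1) :
    legR x y z ^ 2 = legJ x y z - 1728 := by
  have h := legUnit hy hz
  have h1 := legJ_mul hy hz
  have h2 := legR_mul hy hz
  have key : (legR x y z ^ 2 - (legJ x y z - 1728)) * (x ^ 2 * (x - 1) ^ 2) = 0 := by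
    have e : (legR x y z ^ 2 - (legJ x y z - 1728)) * (x ^ 2 * (x - 1) ^ 2) =
        (legR x y z * (x * (x - 1))) ^ 2 - legJ x y z * (x ^ 2 * (x - 1) ^ 2)
          + 1728 * (x ^ 2 * (x - 1) ^ 2) := by ring
    rw [e, h1, h2]; ring
  have : legR x y z ^ 2 - (legJ x y z - 1728) =
      (legR x y z ^ 2 - (legJ x y z - 1728)) * (x ^ 2 * (x - 1) ^ 2) * (y ^ 2 * z ^ 2) := by
    rw [mul_assoc, h, mul_one]
  rw [key, zero_mul] at this
  linear_combination this

/-- All six conjugates of `x` are roots of the Legendre polynomial of `j(x)`, and there are no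
others: the Legendre polynomial splits over `ℤ[x, 1/x, 1/(x-1)]`. -/
theorem legendrePoly_legJ (hy : x * y = 1) (hz : (x - 1) * z = 1) :
    legendrePoly (legJ x y z) =
      C 256 * ((X - C x) * (X - C (1 - x)) * (X - C y) * (X - C (1 - y)) *
        (X - C (-z)) * (X - C (1 + z))) := by
  have h := legUnit hy hz
  have h1 := legJ_mul hy hz
  have f1 : C x * (X - C y) = C x * X - 1 := by rw [mul_sub, ← C_mul, hy, C_1]
  have f2 : C x * (X - C (1 - y)) = C x * X - C x + 1 := by
    rw [mul_sub, ← C_mul, mul_sub, mul_one, hy, C_sub, C_1]; ring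
  have f3 : C (x - 1) * (X - C (-z)) = C (x - 1) * X + 1 := by
    rw [mul_sub, ← C_mul, mul_neg, hz, C_neg, C_1]; ring
  have f4 : C (x - 1) * (X - C (1 + z)) = C (x - 1) * X - C x := by
    rw [mul_sub, ← C_mul, mul_add, mul_one, hz]
    simp only [C_add, C_sub, C_1]; ring
  have key : C (x ^ 2 * (x - 1) ^ 2) * legendrePoly (legJ x y z) =
      C (x ^ 2 * (x - 1) ^ 2) * (C 256 * ((X - C x) * (X - C (1 - x)) * (X - C y) *
        (X - C (1 - y)) * (X - C (-z)) * (X - C (1 + z)))) := by
    have e1 : C (x ^ 2 * (x - 1) ^ 2) * legendrePoly (legJ x y z) =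
        C (x ^ 2 * (x - 1) ^ 2) * (C 256 * (X ^ 2 - X + 1) ^ 3) -
          C (legJ x y z * (x ^ 2 * (x - 1) ^ 2)) * (X ^ 2 * (X - 1) ^ 2) := by
      unfold legendrePoly
      rw [C_mul (a := legJ x y z)]; ring
    have e2 : C (x ^ 2 * (x - 1) ^ 2) * (C 256 * ((X - C x) * (X - C (1 - x)) * (X - C y) *
        (X - C (1 - y)) * (X - C (-z)) * (X - C (1 + z)))) =
        C 256 * ((X - C x) * (X - C (1 - x)) * (C x * (X - C y)) * (C x * (X - C (1 - y))) *
          (C (x - 1) * (X - C (-z))) * (C (x - 1) * (X - C (1 + z)))) := by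
      simp only [C_mul, C_pow]; ring
    rw [e1, e2, h1, f1, f2, f3, f4]
    simp only [C_mul, C_pow, C_sub, C_add, C_1, C_ofNat]
    ring
  have hu : C (y ^ 2 * z ^ 2) * C (x ^ 2 * (x - 1) ^ 2) = (1 : S[X]) := by
    rw [← C_mul, mul_comm, h, C_1]
  calc legendrePoly (legJ x y z)
      = C (y ^ 2 * z ^ 2) * (C (x ^ 2 * (x - 1) ^ 2) * legendrePoly (legJ x y z)) := by
        rw [← mul_assoc, hu, one_mul]
    _ = C (y ^ 2 * z ^ 2) * (C (x ^ 2 * (x - 1) ^ 2) * (C 256 * ((X - C x) * (X - C (1 - x)) *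
          (X - C y) * (X - C (1 - y)) * (X - C (-z)) * (X - C (1 + z))))) := by rw [key]
    _ = _ := by rw [← mul_assoc, hu, one_mul]

/-- Second Kummer step of the Legendre cover: with `w` a primitive cube root of unity and
`c = -24 (2 w + 1)` (so `c² = -1728`), `((x + w)/(x + w²))³ = (r - c)/(r + c)`. -/
theorem legR_kummer (hy : x * y = 1) (hz : (x - 1) * z = 1) (w : S) (hw : w ^ 2 + w + 1 = 0) :
    (x + w) ^ 3 * (legR x y z + (-24) * (2 * w + 1)) =
      (x + w ^ 2) ^ 3 * (legR x y z - (-24) * (2 * w + 1)) := by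
  have h2 := legR_mul hy hz
  have hu : (x * (x - 1)) * (y * z) = 1 := by
    have : (x * (x - 1)) * (y * z) = (x * y) * ((x - 1) * z) := by ring
    rw [this, hy, hz]; ring
  have key : ((x + w) ^ 3 * (legR x y z + (-24) * (2 * w + 1)) -
      (x + w ^ 2) ^ 3 * (legR x y z - (-24) * (2 * w + 1))) * (x * (x - 1)) = 0 := by
    have e : ((x + w) ^ 3 * (legR x y z + (-24) * (2 * w + 1)) -
        (x + w ^ 2) ^ 3 * (legR x y z - (-24) * (2 * w + 1))) * (x * (x - 1)) =
        (x + w) ^ 3 * (legR x y z * (x * (x - 1)) + (-24) * (2 * w + 1) * (x * (x - 1))) -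
        (x + w ^ 2) ^ 3 * (legR x y z * (x * (x - 1)) - (-24) * (2 * w + 1) * (x * (x - 1))) := by
      ring
    rw [e, h2]
    linear_combination ((-48) * x ^ 5 + (-48) * x ^ 4 * w ^ 2 + (-96) * x ^ 4 * w + (48) * x ^ 4 + (-16) * x ^ 3 * w ^ 4 + (-128) * x ^ 3 * w ^ 3 + (144) * x ^ 3 * w ^ 2 + (-48) * x ^ 2 * w ^ 5 + (48) * x ^ 2 * w ^ 4 + (144) * x ^ 2 * w ^ 3 + (-96) * x ^ 2 * w ^ 2 + (48) * x ^ 2 * w + (48) * x * w ^ 5 + (-48) * x * w ^ 3 + (48) * x * w ^ 2 + (-16) * w ^ 4 + (16) * w ^ 3) * hw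
  have : (x + w) ^ 3 * (legR x y z + (-24) * (2 * w + 1)) -
      (x + w ^ 2) ^ 3 * (legR x y z - (-24) * (2 * w + 1)) =
      ((x + w) ^ 3 * (legR x y z + (-24) * (2 * w + 1)) -
      (x + w ^ 2) ^ 3 * (legR x y z - (-24) * (2 * w + 1))) * (x * (x - 1)) * (y * z) := by
    rw [mul_assoc, hu, mul_one]
  rw [key, zero_mul] at this
  linear_combination this

/-- `(r - c) (r + c) = j` for `c = -24 (2 w + 1)`: the two places over `j = 0` of the `r`-line. -/
theorem legR_sub_mul_add (hy : x * y = 1) (hz : (x - 1) * z = 1) (w : S)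
    (hw : w ^ 2 + w + 1 = 0) :
    (legR x y z - (-24) * (2 * w + 1)) * (legR x y z + (-24) * (2 * w + 1)) = legJ x y z := by
  have h := legR_sq hy hz
  linear_combination h - 2304 * hw

/-- `(x + w) (x + w²) = x² - x + 1`. -/
theorem add_mul_add_eq (x w : S) (hw : w ^ 2 + w + 1 = 0) :
    (x + w) * (x + w ^ 2) = x ^ 2 - x + 1 := by
  linear_combination (x + w - 1) * hw

end Identities

section Integrality

variable {W S : Type*} [CommRing W] [CommRing S] [Algebra W S]

/-- A root of the Legendre polynomial of `t` is integral over `W[t]` when `2` is a unit. -/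
theorem isIntegral_of_legendre_eq (h2 : IsUnit (2 : W)) (t a : S)
    (ha : 256 * (a ^ 2 - a + 1) ^ 3 - t * (a ^ 2 * (a - 1) ^ 2) = 0) :
    IsIntegral (Algebra.adjoin W {t}) a := by
  obtain ⟨v, hv⟩ := h2
  have htm : t ∈ Algebra.adjoin W {t} := Algebra.subset_adjoin rfl
  refine ⟨(X ^ 2 - X + 1) ^ 3 - C (algebraMap W (Algebra.adjoin W {t}) ((↑v⁻¹ : W) ^ 8) *
    (⟨t, htm⟩ : Algebra.adjoin W {t})) * (X ^ 2 * (X - 1) ^ 2), ?_, ?_⟩
  · nontriviality (Algebra.adjoin W {t})
    monicity!
  · have hu : algebraMap W S ((↑v⁻¹ : W) ^ 8) * 256 = 1 := by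
      have h3 : ((↑v⁻¹ : W) ^ 8) * 256 = 1 := by
        have : ((↑v⁻¹ : W) ^ 8) * 256 = ((↑v⁻¹ : W) * 2) ^ 8 := by ring
        rw [this, ← hv, Units.inv_mul, one_pow]
      have := congrArg (algebraMap W S) h3
      rwa [map_mul, map_ofNat, map_one] at this
    have h1 : algebraMap (Algebra.adjoin W {t}) S
        (algebraMap W (Algebra.adjoin W {t}) (↑v⁻¹ : W)) =
        algebraMap W S (↑v⁻¹ : W) := by
      rw [← IsScalarTower.algebraMap_apply W (Algebra.adjoin W {t}) S]
    have ht' : algebraMap (Algebra.adjoin W {t}) S (⟨t, htm⟩ : Algebra.adjoin W {t}) = t := rfl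
    rw [← aeval_def]
    simp only [map_sub, map_mul, map_pow, map_add, aeval_C, aeval_X, map_one]
    rw [h1, ht']
    rw [map_pow] at hu
    linear_combination (algebraMap W S (↑v⁻¹ : W) ^ 8) * ha - ((a ^ 2 - a + 1) ^ 3) * hu

theorem isIntegral_legendre (h2 : IsUnit (2 : W)) {x y z : S} (hy : x * y = 1)
    (hz : (x - 1) * z = 1) :
    IsIntegral (Algebra.adjoin W {legJ x y z}) x ∧ IsIntegral (Algebra.adjoin W {legJ x y z}) y ∧
      IsIntegral (Algebra.adjoin W {legJ x y z}) z := by
  have key := legendrePoly_legJ hy hz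
  have root : ∀ a : S, (a - x) * (a - (1 - x)) * (a - y) * (a - (1 - y)) * (a - (-z)) *
      (a - (1 + z)) = 0 → IsIntegral (Algebra.adjoin W {legJ x y z}) a := by
    intro a h0
    apply isIntegral_of_legendre_eq h2
    have h1 := congrArg (aeval a) key
    rw [aeval_legendrePoly] at h1
    simp only [Algebra.algebraMap_self, RingHom.id_apply, map_mul, map_sub, aeval_C, aeval_X,
      map_ofNat] at h1
    rw [h1, h0, mul_zero]
  refine ⟨root x (by ring), root y (by ring), ?_⟩
  have := root (-z) (by ring)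
  simpa using this.neg

/-- `W[x, 1/x, 1/(x-1)]` is integral over `W[j]` when `2` is a unit. -/
theorem isIntegral_of_mem_adjoin (h2 : IsUnit (2 : W)) {x y z : S} (hy : x * y = 1)
    (hz : (x - 1) * z = 1) (s : S) (hs : s ∈ Algebra.adjoin W {x, y, z}) :
    IsIntegral (Algebra.adjoin W {legJ x y z}) s := by
  obtain ⟨hx, hy', hz'⟩ := isIntegral_legendre (W := W) h2 hy hz
  have hle : Algebra.adjoin W {x, y, z} ≤
      (integralClosure (Algebra.adjoin W {legJ x y z}) S).restrictScalars W := by
    apply Algebra.adjoin_le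
    intro a ha
    rcases ha with rfl | rfl | rfl
    · exact hx
    · exact hy'
    · exact hz'
  exact hle hs

end Integrality

section Chart

variable (W : Type*) [CommRing W]

/-- The polynomial `X (X - 1)` inverted on the Legendre chart. -/
noncomputable def legF : W[X] := X * (X - 1)

/-- The Legendre chart `W[x, 1/(x (x - 1))]`. -/
abbrev LegRing := Localization.Away (legF W)

/-- The coordinate `x` of the Legendre chart. -/
noncomputable def chartX : LegRing W := algebraMap W[X] (LegRing W) X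

/-- `1 / (x (x - 1))` on the Legendre chart. -/
noncomputable def chartInv : LegRing W := IsLocalization.Away.invSelf (legF W)

/-- `1 / x` on the Legendre chart. -/
noncomputable def chartY : LegRing W := (chartX W - 1) * chartInv W

/-- `1 / (x - 1)` on the Legendre chart. -/
noncomputable def chartZ : LegRing W := chartX W * chartInv W

theorem chartX_mul_chartInv : chartX W * (chartX W - 1) * chartInv W = 1 := by
  have := IsLocalization.Away.mul_invSelf (S := LegRing W) (legF W)
  simpa [legF, chartX, chartInv] using this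

theorem chartX_mul_chartY : chartX W * chartY W = 1 := by
  unfold chartY; linear_combination chartX_mul_chartInv W

theorem chartX_sub_one_mul_chartZ : (chartX W - 1) * chartZ W = 1 := by
  unfold chartZ; linear_combination chartX_mul_chartInv W

/-- The function `j` on the Legendre chart. -/
noncomputable def chartJ : LegRing W := legJ (chartX W) (chartY W) (chartZ W)

theorem legF_monic : (legF W).Monic := by
  unfold legF
  nontriviality W
  monicity!

theorem not_C_dvd_legF {p : W} (hp : ¬ IsUnit p) : ¬ C p ∣ legF W := by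
  intro h
  rw [Polynomial.C_dvd_iff_dvd_coeff] at h
  have h1 := h (legF W).natDegree
  rw [coeff_natDegree, (legF_monic W).leadingCoeff] at h1
  exact hp (isUnit_of_dvd_one h1)

theorem aeval_chartX (P : W[X]) : aeval (chartX W) P = algebraMap W[X] (LegRing W) P := by
  have := aeval_algHom_apply (IsScalarTower.toAlgHom W W[X] (LegRing W)) X P
  rw [aeval_X_left_apply] at this
  exact this

theorem adjoin_chart_eq_top : Algebra.adjoin W {chartX W, chartY W, chartZ W} = ⊤ := by
  rw [eq_top_iff]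
  rintro s -
  obtain ⟨n, a, ha⟩ := IsLocalization.Away.surj (legF W) s
  have h1 : algebraMap W[X] (LegRing W) (legF W) * chartInv W = 1 :=
    IsLocalization.Away.mul_invSelf _
  have hs : s = algebraMap W[X] (LegRing W) a * (chartInv W) ^ n := by
    calc s = s * (algebraMap W[X] (LegRing W) (legF W) * chartInv W) ^ n := by
          rw [h1, one_pow, mul_one]
      _ = (s * algebraMap W[X] (LegRing W) (legF W) ^ n) * chartInv W ^ n := by ring
      _ = _ := by rw [ha]
  rw [hs]
  apply Subalgebra.mul_mem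
  · rw [← aeval_chartX]
    exact Algebra.adjoin_mono (by simp) (Polynomial.aeval_mem_adjoin_singleton W (chartX W))
  · apply Subalgebra.pow_mem
    have : chartInv W = chartY W * chartZ W := by
      unfold chartY chartZ
      linear_combination (-(chartInv W)) * chartX_mul_chartInv W
    rw [this]
    exact Subalgebra.mul_mem _ (Algebra.subset_adjoin (by simp)) (Algebra.subset_adjoin (by simp))

/-- The Legendre chart is integral over `W[j]` when `2` is a unit. -/
theorem chart_isIntegral (h2 : IsUnit (2 : W)) (s : LegRing W) :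
    IsIntegral (Algebra.adjoin W {chartJ W}) s :=
  isIntegral_of_mem_adjoin h2 (chartX_mul_chartY W) (chartX_sub_one_mul_chartZ W) s
    (by rw [adjoin_chart_eq_top]; trivial)

/-- `(p) R₀ ∩ W[j] = p W[j]` on the Legendre chart: the reduction of `j` modulo a prime `p` with
`2` invertible is transcendental over the residue field. -/
theorem chart_dvd [IsDomain W] (h2 : IsUnit (2 : W)) {p : W} (hp : Prime p)
    (hmax : (Ideal.span {p}).IsMaximal) (Q : W[X])
    (h : algebraMap W[X] (LegRing W) (C p) ∣ aeval (chartJ W) Q) : C p ∣ Q := by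
  classical
  letI : Field (W ⧸ Ideal.span {p}) := Ideal.Quotient.field _
  have hf : ¬ C p ∣ legF W := not_C_dvd_legF W hp.not_isUnit
  have hprime : (Ideal.span {algebraMap W[X] (LegRing W) (C p)}).IsPrime :=
    AwayPoly.away_span_isPrime (legF W) hp hf
  let ψ : (W ⧸ Ideal.span {p}) →+*
      (LegRing W ⧸ Ideal.span {algebraMap W[X] (LegRing W) (C p)}) :=
    Ideal.Quotient.lift (Ideal.span {p})
      ((Ideal.Quotient.mk (Ideal.span {algebraMap W[X] (LegRing W) (C p)})).comp
        (algebraMap W (LegRing W))) (by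
      intro a ha
      obtain ⟨b, rfl⟩ := Ideal.mem_span_singleton.mp ha
      rw [RingHom.comp_apply, Ideal.Quotient.eq_zero_iff_mem, map_mul,
        AwayPoly.away_algebraMap_base]
      exact Ideal.mul_mem_right _ _ (Ideal.subset_span rfl))
  letI : Algebra (W ⧸ Ideal.span {p})
      (LegRing W ⧸ Ideal.span {algebraMap W[X] (LegRing W) (C p)}) := ψ.toAlgebra
  haveI : IsScalarTower W (W ⧸ Ideal.span {p})
      (LegRing W ⧸ Ideal.span {algebraMap W[X] (LegRing W) (C p)}) :=
    IsScalarTower.of_algebraMap_eq (fun a => rfl)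
  let mk0 := Ideal.Quotient.mk (Ideal.span {algebraMap W[X] (LegRing W) (C p)})
  have hyb : mk0 (chartX W) * mk0 (chartY W) = 1 := by
    rw [← map_mul, chartX_mul_chartY, map_one]
  have hzb : (mk0 (chartX W) - 1) * mk0 (chartZ W) = 1 := by
    rw [← map_one mk0, ← map_sub, ← map_mul, chartX_sub_one_mul_chartZ, map_one]
  have hjb : legJ (mk0 (chartX W)) (mk0 (chartY W)) (mk0 (chartZ W)) = mk0 (chartJ W) := by
    simp only [legJ, chartJ, map_mul, map_pow, map_add, map_sub, map_one, map_ofNat]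
  have compat : ∀ (s : LegRing W) (P : W[X]),
      aeval (mk0 s) (P.map (algebraMap W (W ⧸ Ideal.span {p}))) = mk0 (aeval s P) := by
    intro s P
    rw [aeval_map_algebraMap]
    exact aeval_algHom_apply (Ideal.Quotient.mkₐ W _) s P
  have hzero : ∀ P : W[X], mk0 (algebraMap W[X] (LegRing W) P) = 0 → C p ∣ P := by
    intro P hP
    rw [Ideal.Quotient.eq_zero_iff_mem, Ideal.mem_span_singleton] at hP
    exact AwayPoly.dvd_of_algebraMap_dvd (legF W) hp hf P hP
  have hmap0 : ∀ P : W[X], C p ∣ P → P.map (algebraMap W (W ⧸ Ideal.span {p})) = 0 := by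
    rintro P ⟨P', rfl⟩
    rw [Polynomial.map_mul, Polynomial.map_C]
    have : algebraMap W (W ⧸ Ideal.span {p}) p = 0 :=
      Ideal.Quotient.eq_zero_iff_mem.mpr (Ideal.subset_span rfl)
    rw [this, C_0, zero_mul]
  have htr : Transcendental (W ⧸ Ideal.span {p}) (mk0 (chartX W)) := by
    rw [transcendental_iff_injective, injective_iff_map_eq_zero]
    intro Pb hPb
    obtain ⟨P, rfl⟩ := Polynomial.map_surjective _ Ideal.Quotient.mk_surjective Pb
    have h1 := compat (chartX W) P
    rw [aeval_chartX] at h1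
    exact hmap0 P (hzero P (h1 ▸ hPb))
  have htrj : Transcendental (W ⧸ Ideal.span {p})
      (legJ (mk0 (chartX W)) (mk0 (chartY W)) (mk0 (chartZ W))) := by
    intro halg
    apply htr
    have hint : IsIntegral (W ⧸ Ideal.span {p})
        (legJ (mk0 (chartX W)) (mk0 (chartY W)) (mk0 (chartZ W))) :=
      isAlgebraic_iff_isIntegral.mp halg
    haveI : Algebra.IsIntegral (W ⧸ Ideal.span {p})
        (Algebra.adjoin (W ⧸ Ideal.span {p})
          {legJ (mk0 (chartX W)) (mk0 (chartY W)) (mk0 (chartZ W))}) :=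
      Algebra.IsIntegral.adjoin (by
        intro a ha
        rw [Set.mem_singleton_iff] at ha
        rw [ha]; exact hint)
    have h2k : IsUnit (2 : W ⧸ Ideal.span {p}) := by
      have := h2.map (algebraMap W (W ⧸ Ideal.span {p}))
      rwa [map_ofNat] at this
    have := (isIntegral_legendre (W := W ⧸ Ideal.span {p}) h2k hyb hzb).1
    exact isAlgebraic_iff_isIntegral.mpr (isIntegral_trans _ this)
  have hQ : aeval (legJ (mk0 (chartX W)) (mk0 (chartY W)) (mk0 (chartZ W)))
      (Q.map (algebraMap W (W ⧸ Ideal.span {p}))) = 0 := by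
    rw [hjb, compat, Ideal.Quotient.eq_zero_iff_mem, Ideal.mem_span_singleton]
    exact h
  have hQ0 : Q.map (algebraMap W (W ⧸ Ideal.span {p})) = 0 :=
    (transcendental_iff_injective.mp htrj) (by rw [hQ, map_zero])
  rw [Polynomial.C_dvd_iff_dvd_coeff]
  intro i
  have h3 := congrArg (fun q => q.coeff i) hQ0
  simp only [coeff_map, coeff_zero] at h3
  exact Ideal.mem_span_singleton.mp (Ideal.Quotient.eq_zero_iff_mem.mp h3)

end Chart


section ChartStructure

variable (W : Type*) [CommRing W] [IsDomain W]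

theorem legF_ne_zero : legF W ≠ 0 := (legF_monic W).ne_zero

theorem legRing_isDomain : IsDomain (LegRing W) :=
  AwayPoly.away_isDomain (legF W) (legF_ne_zero W)

theorem legRing_isNoetherianRing [IsNoetherianRing W] : IsNoetherianRing (LegRing W) :=
  AwayPoly.away_isNoetherianRing (legF W)

theorem legRing_isIntegrallyClosed [IsIntegrallyClosed W] : IsIntegrallyClosed (LegRing W) :=
  AwayPoly.away_isIntegrallyClosed (legF W) (legF_ne_zero W)

theorem legRing_span_isPrime {p : W} (hp : Prime p) :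
    (Ideal.span {algebraMap W (LegRing W) p}).IsPrime := by
  rw [AwayPoly.away_algebraMap_base]
  exact AwayPoly.away_span_isPrime (legF W) hp (not_C_dvd_legF W hp.not_isUnit)

theorem legRing_quotient_isDedekindDomain {p : W} (hp : Prime p)
    (hmax : (Ideal.span {p}).IsMaximal) :
    IsDedekindDomain (LegRing W ⧸ Ideal.span {algebraMap W (LegRing W) p}) := by
  rw [AwayPoly.away_algebraMap_base]
  exact AwayPoly.away_quotient_isDedekindDomain (legF W) hp hmax (not_C_dvd_legF W hp.not_isUnit)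

/-- `(p) R₀ ∩ W[j] = p W[j]`, stated with `algebraMap W (LegRing W) p`. -/
theorem chart_dvd' (h2 : IsUnit (2 : W)) {p : W} (hp : Prime p)
    (hmax : (Ideal.span {p}).IsMaximal) (Q : W[X])
    (h : algebraMap W (LegRing W) p ∣ aeval (chartJ W) Q) : C p ∣ Q := by
  rw [AwayPoly.away_algebraMap_base] at h
  exact chart_dvd W h2 hp hmax Q h

variable {Y : Type*} [Field Y] [Algebra W Y]

omit [IsDomain W] in
theorem aeval_legF_ne_zero {x0 : Y} (h0 : x0 ≠ 0) (h1 : x0 ≠ 1) : aeval x0 (legF W) ≠ 0 := by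
  simp only [legF, map_mul, map_sub, aeval_X, map_one]
  exact mul_ne_zero h0 (sub_ne_zero.mpr h1)

/-- The map from the Legendre chart to a field `Y` sending `x` to `x0 ≠ 0, 1`. -/
noncomputable def chartLift (x0 : Y) (h0 : x0 ≠ 0) (h1 : x0 ≠ 1) : LegRing W →ₐ[W] Y :=
  AwayPoly.awayLift (legF W) x0 (aeval_legF_ne_zero W h0 h1)

variable {W}

theorem chartLift_chartX (x0 : Y) (h0 : x0 ≠ 0) (h1 : x0 ≠ 1) :
    chartLift W x0 h0 h1 (chartX W) = x0 := by
  rw [chartLift, chartX, AwayPoly.awayLift_algebraMap, aeval_X]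

theorem chartLift_chartY (x0 : Y) (h0 : x0 ≠ 0) (h1 : x0 ≠ 1) :
    chartLift W x0 h0 h1 (chartY W) = x0⁻¹ := by
  have h := congrArg (chartLift W x0 h0 h1) (chartX_mul_chartY W)
  rw [map_mul, map_one, chartLift_chartX] at h
  exact eq_inv_of_mul_eq_one_right h

theorem chartLift_chartZ (x0 : Y) (h0 : x0 ≠ 0) (h1 : x0 ≠ 1) :
    chartLift W x0 h0 h1 (chartZ W) = (x0 - 1)⁻¹ := by
  have h := congrArg (chartLift W x0 h0 h1) (chartX_sub_one_mul_chartZ W)
  rw [map_mul, map_one, map_sub, map_one, chartLift_chartX] at h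
  exact eq_inv_of_mul_eq_one_right h

theorem chartLift_chartJ (x0 : Y) (h0 : x0 ≠ 0) (h1 : x0 ≠ 1) :
    chartLift W x0 h0 h1 (chartJ W) = legJ x0 x0⁻¹ (x0 - 1)⁻¹ := by
  simp only [chartJ, legJ, map_mul, map_pow, map_add, map_sub, map_one, map_ofNat,
    chartLift_chartX, chartLift_chartY, chartLift_chartZ]

theorem chartLift_injective (x0 : Y) (h0 : x0 ≠ 0) (h1 : x0 ≠ 1) (htr : Transcendental W x0) :
    Function.Injective (chartLift W x0 h0 h1) :=
  AwayPoly.awayLift_injective (legF W) x0 _ htr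

end ChartStructure

section Galois

variable {F Y : Type*} [Field F] [Field Y] [Algebra F Y]

theorem map_legendrePoly {R S : Type*} [CommRing R] [CommRing S] (f : R →+* S) (t : R) :
    (legendrePoly t).map f = legendrePoly (f t) := by
  simp only [legendrePoly, Polynomial.map_sub, Polynomial.map_mul, Polynomial.map_pow,
    Polynomial.map_add, Polynomial.map_C, Polynomial.map_X, Polynomial.map_one]
  rw [map_ofNat]

/-- A root `x0` of the Legendre polynomial of `j` (in a field where `2 ≠ 0`) is `≠ 0, 1` and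
satisfies `j = 256 (x0² - x0 + 1)³ / (x0² (x0 - 1)²)`. -/
theorem legJ_of_root (h2 : (2 : F) ≠ 0) (j : F) (x0 : Y)
    (hx : aeval x0 (legendrePoly j) = 0) :
    x0 ≠ 0 ∧ x0 ≠ 1 ∧ legJ x0 x0⁻¹ (x0 - 1)⁻¹ = algebraMap F Y j := by
  rw [aeval_legendrePoly] at hx
  have h256 : (256 : Y) ≠ 0 := by
    have h2' : (2 : Y) ≠ 0 := by
      have := (map_ne_zero (algebraMap F Y)).mpr h2
      rwa [map_ofNat] at this
    have : (256 : Y) = 2 ^ 8 := by norm_num
    rw [this]; exact pow_ne_zero _ h2'
  have h0 : x0 ≠ 0 := by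
    rintro rfl
    apply h256
    linear_combination hx
  have h1 : x0 ≠ 1 := by
    rintro rfl
    apply h256
    linear_combination hx
  refine ⟨h0, h1, ?_⟩
  have h1' : x0 - 1 ≠ 0 := sub_ne_zero.mpr h1
  unfold legJ
  field_simp
  linear_combination hx

/-- The field generated over `F` by one root of the Legendre polynomial of `j` contains all
roots: it is Galois over `F` (for `2 ≠ 0`, `j ≠ 0, 1728`). -/
theorem isGalois_of_root (h2 : (2 : F) ≠ 0) (j : F) (hj0 : j ≠ 0) (hj : j ≠ 1728) (x0 : Y)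
    (hx : aeval x0 (legendrePoly j) = 0) (hgen : IntermediateField.adjoin F {x0} = ⊤) :
    IsGalois F Y := by
  obtain ⟨h0, h1, hjx⟩ := legJ_of_root h2 j x0 hx
  have hy : x0 * x0⁻¹ = 1 := mul_inv_cancel₀ h0
  have hz : (x0 - 1) * (x0 - 1)⁻¹ = 1 := mul_inv_cancel₀ (sub_ne_zero.mpr h1)
  have hsep : (legendrePoly j).Separable := legendrePoly_separable h2 j hj0 hj
  have hne : legendrePoly j ≠ 0 := hsep.ne_zero
  have hfac : (legendrePoly j).map (algebraMap F Y) =
      C 256 * ((X - C x0) * (X - C (1 - x0)) * (X - C x0⁻¹) * (X - C (1 - x0⁻¹)) *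
        (X - C (-(x0 - 1)⁻¹)) * (X - C (1 + (x0 - 1)⁻¹))) := by
    rw [map_legendrePoly, ← hjx, legendrePoly_legJ hy hz]
  have hint : IsIntegral F x0 := ⟨(legendrePoly j) * C (legendrePoly j).leadingCoeff⁻¹,
    monic_mul_leadingCoeff_inv hne, by
      rw [← aeval_def, map_mul, hx, zero_mul]⟩
  haveI : (legendrePoly j).IsSplittingField F Y := by
    refine ⟨?_, ?_⟩
    · rw [hfac]
      refine Splits.mul (Splits.C _) ?_
      refine Splits.mul (Splits.mul (Splits.mul (Splits.mul (Splits.mul ?_ ?_) ?_) ?_) ?_) ?_ <;>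
        exact Splits.X_sub_C _
    · rw [eq_top_iff]
      have h3 : Algebra.adjoin F {x0} = ⊤ := by
        have := IntermediateField.adjoin_simple_toSubalgebra_of_isAlgebraic hint.isAlgebraic
        rw [hgen] at this
        rw [← this]; rfl
      rw [← h3]
      apply Algebra.adjoin_mono
      rw [Set.singleton_subset_iff, mem_rootSet]
      exact ⟨hne, hx⟩
  exact IsGalois.of_separable_splitting_field hsep

end Galois

end Fermat.Agent.S18.Legendre
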