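import Mathlib
import Fermat.Agent.S18.Legendre
import Fermat.Agent.S18.HorizU

/-!
# S18 : the Legendre chart as a chart over the `j`-line

`LegJ W` is a type synonym of `Legendre.LegRing W = W[x, 1/x, 1/(x-1)]` carrying the
`W[X]`-algebra structure `X ↦ j = 256 (x² - x + 1)³ / (x² (x-1)²)` (and not the localisation
structure `X ↦ x`).  This file provides, in the shapes consumed by `ChartHU.chart_lift_hU`,
`HorizU.hU_of_branch`, `VerticalChart.hU_vertical_chart'`:

* ring structure: domain, noetherian, integrally closed, integral over `W[X]` (`2` a unit),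
  `Prime (algebraMap W[X] (LegJ W) (C p))`, `(p) ∩ W[X] = p W[X]`, Dedekind quotient,
  the reduction criterion `dvd_iff_map_eq_zero`;
* base change `LegJ W → LegJ L` and `LegJ L = (LegJ W)[1/π]` for a discrete valuation ring `W`;
* over a field `L` of characteristic zero: `LegJ L` is a Dedekind domain, the integral closure of
  `L[j]` in its fraction field, the branch data `j = unit · cube`, `j - 1728 = square`, and
  `Frac (LegJ L)` is finite Galois over `Frac L[j]`;
* lifts to a field containing a point `x0 ≠ 0, 1`.
-/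

set_option autoImplicit false
set_option linter.unusedSectionVars false
set_option linter.style.haveILetI false

namespace Fermat.Agent.S18.LegendreJ

open Polynomial Fermat.Agent.S18.Legendre Fermat.Agent.S18.AuxCover

section Synonym

variable (W : Type*) [CommRing W]

/-- The Legendre chart `W[x, 1/x, 1/(x-1)]`, as a type synonym carrying the `W[X]`-algebra
structure `X ↦ j` (and *not* the localisation structure `X ↦ x`). -/
def LegJ : Type _ := LegRing W

noncomputable instance : CommRing (LegJ W) := inferInstanceAs (CommRing (LegRing W))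

noncomputable instance : Algebra W (LegJ W) := inferInstanceAs (Algebra W (LegRing W))

/-- The coordinate `x` of the chart. -/
noncomputable def jX : LegJ W := chartX W
/-- `1/x`. -/
noncomputable def jY : LegJ W := chartY W
/-- `1/(x-1)`. -/
noncomputable def jZ : LegJ W := chartZ W
/-- The function `j = 256 (x² - x + 1)³ / (x² (x-1)²)`. -/
noncomputable def jJ : LegJ W := legJ (jX W) (jY W) (jZ W)

theorem jX_mul_jY : jX W * jY W = 1 := chartX_mul_chartY W

theorem jX_sub_one_mul_jZ : (jX W - 1) * jZ W = 1 := chartX_sub_one_mul_chartZ W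

noncomputable instance : Algebra W[X] (LegJ W) :=
  (aeval (jJ W) : W[X] →ₐ[W] LegJ W).toRingHom.toAlgebra

theorem algebraMap_poly (p : W[X]) : algebraMap W[X] (LegJ W) p = aeval (jJ W) p := rfl

theorem algebraMap_poly_X : algebraMap W[X] (LegJ W) X = jJ W := by
  rw [algebraMap_poly, aeval_X]

theorem algebraMap_poly_C (a : W) : algebraMap W[X] (LegJ W) (C a) = algebraMap W (LegJ W) a := by
  rw [algebraMap_poly, aeval_C]

instance : IsScalarTower W W[X] (LegJ W) :=
  IsScalarTower.of_algebraMap_eq fun a => by
    rw [algebraMap_poly, Polynomial.algebraMap_apply, Algebra.algebraMap_self, RingHom.id_apply,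
      aeval_C]

theorem adjoin_eq_top : Algebra.adjoin W {jX W, jY W, jZ W} = ⊤ := adjoin_chart_eq_top W

/-- Integrality over `W[t]` (subalgebra form) gives integrality along `aeval t`. -/
theorem isIntegralElem_of_adjoin {S : Type*} [CommRing S] [Algebra W S] (t s : S)
    (h : IsIntegral (Algebra.adjoin W {t}) s) :
    (aeval t : W[X] →ₐ[W] S).toRingHom.IsIntegralElem s := by
  classical
  obtain ⟨p, hp, hps⟩ := h
  let φ : W[X] →ₐ[W] Algebra.adjoin W {t} := (aeval t).codRestrict _ (fun q => by
    rw [Algebra.adjoin_singleton_eq_range_aeval]; exact ⟨q, rfl⟩)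
  have hφ : Function.Surjective φ := by
    rintro ⟨y, hy⟩
    rw [Algebra.adjoin_singleton_eq_range_aeval] at hy
    obtain ⟨q, rfl⟩ := hy
    exact ⟨q, rfl⟩
  rcases subsingleton_or_nontrivial (Algebra.adjoin W {t}) with hsub | hnt
  · have h10 : (1 : S) = 0 := by
      have := congrArg (Subtype.val) (Subsingleton.elim (1 : Algebra.adjoin W {t}) 0)
      simpa using this
    haveI : Subsingleton S := subsingleton_of_zero_eq_one h10.symm
    exact ⟨1, monic_one, Subsingleton.elim _ _⟩
  obtain ⟨P, hPmap, -, hPmonic⟩ := Polynomial.lifts_and_degree_eq_and_monic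
    ((Polynomial.mem_lifts p).mpr (Polynomial.map_surjective φ.toRingHom hφ p)) hp
  refine ⟨P, hPmonic, ?_⟩
  rw [← hPmap, eval₂_map] at hps
  exact hps

/-- The chart is integral over `W[j]` when `2` is a unit. -/
theorem isIntegral_poly (h2 : IsUnit (2 : W)) : Algebra.IsIntegral W[X] (LegJ W) :=
  ⟨fun s => isIntegralElem_of_adjoin W (jJ W) s (chart_isIntegral W h2 s)⟩

end Synonym

section Structure

variable (W : Type*) [CommRing W] [IsDomain W]

instance : IsDomain (LegJ W) := legRing_isDomain W

instance [IsNoetherianRing W] : IsNoetherianRing (LegJ W) := legRing_isNoetherianRing W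

instance [IsIntegrallyClosed W] : IsIntegrallyClosed (LegJ W) := legRing_isIntegrallyClosed W

theorem algebraMap_base_injective : Function.Injective (algebraMap W (LegJ W)) := by
  intro a b hab
  have h : algebraMap W[X] (LegRing W) (C a) = algebraMap W[X] (LegRing W) (C b) := by
    rw [← AwayPoly.away_algebraMap_base, ← AwayPoly.away_algebraMap_base]; exact hab
  exact C_injective (AwayPoly.away_algebraMap_injective (legF W) (legF_ne_zero W) h)

theorem jX_transcendental : Transcendental W (jX W) := by
  have h : Transcendental W (algebraMap W[X] (LegRing W) X) :=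
    (transcendental_algebraMap_iff
      (AwayPoly.away_algebraMap_injective (legF W) (legF_ne_zero W))).mpr
      (Polynomial.transcendental_X W)
  exact h

variable {W}

theorem prime_poly_C {p : W} (hp : Prime p) : Prime (algebraMap W[X] (LegJ W) (C p)) := by
  rw [algebraMap_poly_C]
  have h := legRing_span_isPrime W hp
  have hne : algebraMap W (LegJ W) p ≠ 0 := by
    rw [Ne, ← map_zero (algebraMap W (LegJ W))]
    exact fun h0 => hp.ne_zero (algebraMap_base_injective W h0)
  exact (Ideal.span_singleton_prime hne).mp h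

theorem dvd_of_algebraMap_dvd (h2 : IsUnit (2 : W)) {p : W} (hp : Prime p)
    (hmax : (Ideal.span {p}).IsMaximal) (a : W[X])
    (h : algebraMap W[X] (LegJ W) (C p) ∣ algebraMap W[X] (LegJ W) a) : C p ∣ a := by
  rw [algebraMap_poly_C] at h
  exact chart_dvd' W h2 hp hmax a h

theorem quotient_isDedekindDomain {p : W} (hp : Prime p) (hmax : (Ideal.span {p}).IsMaximal) :
    IsDedekindDomain (LegJ W ⧸ Ideal.span {algebraMap W[X] (LegJ W) (C p)}) := by
  rw [algebraMap_poly_C]
  exact legRing_quotient_isDedekindDomain W hp hmax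

/-- The input `hι` of `VerticalChart.hU_vertical_chart'`. -/
theorem dvd_iff_map_eq_zero (h2 : IsUnit (2 : W)) {p : W} (hp : Prime p)
    (hmax : (Ideal.span {p}).IsMaximal) {k : Type*} [Field k] (res : W →+* k)
    (hres : RingHom.ker res = Ideal.span {p}) (f : W[X]) :
    algebraMap W[X] (LegJ W) (C p) ∣ algebraMap W[X] (LegJ W) f ↔ f.map res = 0 := by
  have key : C p ∣ f ↔ f.map res = 0 := by
    rw [Polynomial.C_dvd_iff_dvd_coeff]
    constructor
    · intro h
      ext n
      rw [coeff_map, coeff_zero, ← RingHom.mem_ker, hres, Ideal.mem_span_singleton]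
      exact h n
    · intro h n
      have := congrArg (fun q => q.coeff n) h
      simp only [coeff_map, coeff_zero] at this
      rw [← Ideal.mem_span_singleton, ← hres, RingHom.mem_ker]
      exact this
  rw [← key]
  exact ⟨dvd_of_algebraMap_dvd h2 hp hmax f, fun h => map_dvd _ h⟩

end Structure

section BaseChange

variable (W L : Type*) [CommRing W] [CommRing L] [Algebra W L]

theorem legF_map : (legF W).map (algebraMap W L) = legF L := by
  simp [legF]

/-- The base change map of Legendre charts (on the underlying localisations). -/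
noncomputable def legMapAux : LegRing W →+* LegRing L :=
  IsLocalization.Away.lift (legF W)
    (g := (algebraMap L[X] (LegRing L)).comp (mapRingHom (algebraMap W L)))
    (by
      rw [RingHom.comp_apply, coe_mapRingHom, legF_map]
      exact IsLocalization.Away.algebraMap_isUnit (legF L))

theorem legMapAux_algebraMap (P : W[X]) :
    legMapAux W L (algebraMap W[X] (LegRing W) P) =
      algebraMap L[X] (LegRing L) (P.map (algebraMap W L)) := by
  rw [legMapAux, IsLocalization.Away.lift_eq]
  rfl

theorem legMapAux_chartInv : legMapAux W L (chartInv W) = chartInv L := by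
  have h1 : legMapAux W L (algebraMap W[X] (LegRing W) (legF W)) * legMapAux W L (chartInv W)
      = 1 := by
    rw [← map_mul, chartInv, IsLocalization.Away.mul_invSelf, map_one]
  have h2 : algebraMap L[X] (LegRing L) (legF L) * chartInv L = 1 :=
    IsLocalization.Away.mul_invSelf (legF L)
  rw [legMapAux_algebraMap, legF_map] at h1
  calc legMapAux W L (chartInv W)
      = (algebraMap L[X] (LegRing L) (legF L) * chartInv L) * legMapAux W L (chartInv W) := by
        rw [h2, one_mul]
    _ = chartInv L * (algebraMap L[X] (LegRing L) (legF L) * legMapAux W L (chartInv W)) := by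
        ring
    _ = chartInv L := by rw [h1, mul_one]

theorem legMapAux_chartX : legMapAux W L (chartX W) = chartX L := by
  rw [chartX, legMapAux_algebraMap, Polynomial.map_X, chartX]

/-- The base change map `W[x,1/x,1/(x-1)] → L[x,1/x,1/(x-1)]`. -/
noncomputable def legMap : LegJ W →+* LegJ L := legMapAux W L

theorem legMap_jX : legMap W L (jX W) = jX L := legMapAux_chartX W L

theorem legMap_jY : legMap W L (jY W) = jY L := by
  change legMapAux W L (chartY W) = chartY L
  rw [chartY, map_mul, map_sub, map_one, legMapAux_chartX, legMapAux_chartInv, chartY]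

theorem legMap_jZ : legMap W L (jZ W) = jZ L := by
  change legMapAux W L (chartZ W) = chartZ L
  rw [chartZ, map_mul, legMapAux_chartX, legMapAux_chartInv, chartZ]

theorem legMap_jJ : legMap W L (jJ W) = jJ L := by
  simp only [jJ, legJ, map_mul, map_pow, map_add, map_sub, map_one, map_ofNat, legMap_jX,
    legMap_jY, legMap_jZ]

theorem legMap_algebraMap (a : W) :
    legMap W L (algebraMap W (LegJ W) a) = algebraMap L (LegJ L) (algebraMap W L a) := by
  change legMapAux W L (algebraMap W (LegRing W) a) = algebraMap L (LegRing L) (algebraMap W L a)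
  rw [IsScalarTower.algebraMap_apply W W[X] (LegRing W),
    IsScalarTower.algebraMap_apply L L[X] (LegRing L), legMapAux_algebraMap,
    Polynomial.algebraMap_apply, Polynomial.algebraMap_apply, Algebra.algebraMap_self,
    Algebra.algebraMap_self, RingHom.id_apply, RingHom.id_apply, Polynomial.map_C]

theorem legMapAux_injective [IsDomain W] [IsDomain L]
    (hinj : Function.Injective (algebraMap W L)) : Function.Injective (legMapAux W L) := by
  rw [injective_iff_map_eq_zero]
  intro z hz
  obtain ⟨n, a, ha⟩ := IsLocalization.Away.surj (legF W) z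
  have h1 : algebraMap L[X] (LegRing L) (a.map (algebraMap W L)) = 0 := by
    rw [← legMapAux_algebraMap, ← ha, map_mul, hz, zero_mul]
  have h2 : a.map (algebraMap W L) = 0 := by
    apply AwayPoly.away_algebraMap_injective (legF L) (legF_ne_zero L)
    rw [h1, map_zero]
  have h3 : a = 0 := by
    apply Polynomial.map_injective _ hinj
    rw [h2, Polynomial.map_zero]
  rw [h3, map_zero] at ha
  haveI : IsDomain (LegRing W) := legRing_isDomain W
  rcases mul_eq_zero.mp ha with h | h
  · exact h
  · exfalso
    have hf : algebraMap W[X] (LegRing W) (legF W) ≠ 0 := by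
      rw [Ne, ← map_zero (algebraMap W[X] (LegRing W))]
      exact fun h0 => legF_ne_zero W
        (AwayPoly.away_algebraMap_injective (legF W) (legF_ne_zero W) h0)
    exact pow_ne_zero n hf h

theorem legMap_injective [IsDomain W] [IsDomain L] (hinj : Function.Injective (algebraMap W L)) :
    Function.Injective (legMap W L) := legMapAux_injective W L hinj

noncomputable instance (priority := 50) : Algebra (LegJ W) (LegJ L) := (legMap W L).toAlgebra

theorem algebraMap_leg (z : LegJ W) : algebraMap (LegJ W) (LegJ L) z = legMap W L z := rfl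

end BaseChange

section Localization

variable {W L : Type*} [CommRing W] [IsDomain W] [IsDiscreteValuationRing W] [Field L]
  [Algebra W L] [IsFractionRing W L]

/-- For a discrete valuation ring `W` with uniformiser `π`, the fraction field is `W[1/π]`. -/
theorem isLocalization_away_of_irreducible {π : W} (hπ : Irreducible π) :
    IsLocalization.Away π L := by
  refine HorizU.isLocalization_away_of_forall π (IsFractionRing.injective W L) ?_ ?_
  · exact IsUnit.mk0 _ ((map_ne_zero_iff _ (IsFractionRing.injective W L)).mpr hπ.ne_zero)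
  · intro a
    obtain ⟨x, y, hy, rfl⟩ := IsFractionRing.div_surjective (A := W) a
    have hy0 : y ≠ 0 := nonZeroDivisors.ne_zero hy
    obtain ⟨n, hn⟩ := IsDiscreteValuationRing.associated_pow_irreducible hy0 hπ
    obtain ⟨u, hu⟩ := hn.symm
    refine ⟨n, x * ((u⁻¹ : Wˣ) : W), ?_⟩
    have hy' : algebraMap W L y ≠ 0 :=
      (map_ne_zero_iff _ (IsFractionRing.injective W L)).mpr hy0
    rw [← hu] at hy' ⊢
    simp only [map_mul, map_pow] at hy' ⊢
    have hu' : algebraMap W L (u : W) * algebraMap W L ((u⁻¹ : Wˣ) : W) = 1 := by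
      rw [← map_mul, Units.mul_inv, map_one]
    have hu0 : algebraMap W L (u : W) ≠ 0 := right_ne_zero_of_mul hy'
    have hp0 : algebraMap W L π ^ n ≠ 0 := left_ne_zero_of_mul hy'
    field_simp
    linear_combination (algebraMap W L x) * hu'

theorem legMapAux_surj_pow {π : W} (hπ : Irreducible π) (a : LegRing L) :
    ∃ n : ℕ, ∃ r : LegRing W,
      legMapAux W L r = (algebraMap L (LegRing L) (algebraMap W L π)) ^ n * a := by
  haveI : IsLocalization (Submonoid.powers π) L := isLocalization_away_of_irreducible hπ
  obtain ⟨k, b, hb⟩ := IsLocalization.Away.surj (legF L) a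
  obtain ⟨m, ⟨n, rfl⟩, hm⟩ := IsLocalization.integerNormalization_spec
    (Submonoid.powers π) b
  refine ⟨n, algebraMap W[X] (LegRing W)
    (IsLocalization.integerNormalization (Submonoid.powers π) b) * chartInv W ^ k, ?_⟩
  rw [map_mul, map_pow, legMapAux_algebraMap, legMapAux_chartInv, hm]
  have h3 : algebraMap L[X] (LegRing L) (legF L) * chartInv L = 1 :=
    IsLocalization.Away.mul_invSelf (legF L)
  have h4 : algebraMap L[X] (LegRing L) ((π ^ n : W) • b) =
      (algebraMap L (LegRing L) (algebraMap W L π)) ^ n * algebraMap L[X] (LegRing L) b := by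
    rw [IsScalarTower.algebraMap_apply L L[X] (LegRing L), ← map_pow, ← map_mul]
    congr 1
    rw [Algebra.smul_def, Polynomial.algebraMap_apply, Polynomial.algebraMap_apply,
      Algebra.algebraMap_self, RingHom.id_apply, map_pow, map_pow]
  rw [h4, ← hb]
  calc algebraMap L (LegRing L) (algebraMap W L π) ^ n *
        (a * algebraMap L[X] (LegRing L) (legF L) ^ k) * chartInv L ^ k
      = algebraMap L (LegRing L) (algebraMap W L π) ^ n * a *
        (algebraMap L[X] (LegRing L) (legF L) * chartInv L) ^ k := by ring
    _ = _ := by rw [h3, one_pow, mul_one]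

theorem legMap_surj_pow {π : W} (hπ : Irreducible π) (a : LegJ L) :
    ∃ n : ℕ, ∃ r : LegJ W,
      legMap W L r = (algebraMap L (LegJ L) (algebraMap W L π)) ^ n * a :=
  legMapAux_surj_pow hπ a

/-- `L[x,1/x,1/(x-1)]` is the localisation of `W[x,1/x,1/(x-1)]` away from the uniformiser. -/
theorem isLocalization_away {π : W} (hπ : Irreducible π) :
    IsLocalization.Away (algebraMap W (LegJ W) π) (LegJ L) := by
  have hπL : algebraMap W L π ≠ 0 :=
    (map_ne_zero_iff _ (IsFractionRing.injective W L)).mpr hπ.ne_zero
  refine HorizU.isLocalization_away_of_forall _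
    (legMap_injective W L (IsFractionRing.injective W L)) ?_ ?_
  · rw [algebraMap_leg, legMap_algebraMap]
    exact (IsUnit.mk0 _ hπL).map _
  · intro a
    obtain ⟨n, r, hr⟩ := legMap_surj_pow hπ a
    refine ⟨n, r, ?_⟩
    rw [algebraMap_leg, algebraMap_leg, legMap_algebraMap]
    exact hr

end Localization

section Field

variable (L : Type*) [Field L] [CharZero L]

theorem isUnit_two : IsUnit (2 : L) := IsUnit.mk0 _ two_ne_zero

theorem isDedekindDomain : IsDedekindDomain (LegJ L) := by
  haveI : IsDomain (LegRing L) := legRing_isDomain L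
  exact IsLocalization.isDedekindDomain L[X] (AwayPoly.powers_le (legF L) (legF_ne_zero L))
    (LegRing L)

theorem jJ_transcendental : Transcendental L (jJ L) := by
  intro halg
  have hint : IsIntegral L (jJ L) := halg.isIntegral
  haveI : Algebra.IsIntegral L (Algebra.adjoin L {jJ L}) :=
    Algebra.IsIntegral.adjoin (by
      intro x hx
      rw [Set.mem_singleton_iff] at hx
      rw [hx]; exact hint)
  have hx : IsIntegral (Algebra.adjoin L {jJ L}) (jX L) := chart_isIntegral L (isUnit_two L) _
  have hx' : IsIntegral L (jX L) := isIntegral_trans _ hx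
  exact jX_transcendental L hx'.isAlgebraic

theorem algebraMap_poly_injective : Function.Injective (algebraMap L[X] (LegJ L)) :=
  transcendental_iff_injective.mp (jJ_transcendental L)

instance : FaithfulSMul L[X] (LegJ L) :=
  (faithfulSMul_iff_algebraMap_injective _ _).mpr (algebraMap_poly_injective L)

theorem isUnit_jY : IsUnit (jY L) := IsUnit.of_mul_eq_one _ (by rw [mul_comm]; exact jX_mul_jY L)

theorem isUnit_jZ : IsUnit (jZ L) :=
  IsUnit.of_mul_eq_one _ (by rw [mul_comm]; exact jX_sub_one_mul_jZ L)

theorem branch_X : ∃ u g : LegJ L, IsUnit u ∧ algebraMap L[X] (LegJ L) X = u * g ^ 3 := by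
  refine ⟨256 * jY L ^ 2 * jZ L ^ 2, jX L ^ 2 - jX L + 1, ?_, ?_⟩
  · have h256 : IsUnit (256 : LegJ L) := by
      have : (256 : LegJ L) = algebraMap L (LegJ L) 256 := (map_ofNat _ 256).symm
      rw [this]
      exact (IsUnit.mk0 (256 : L) (by norm_num)).map _
    exact (h256.mul ((isUnit_jY L).pow 2)).mul ((isUnit_jZ L).pow 2)
  · rw [algebraMap_poly_X, jJ, legJ]; ring

theorem branch_X_sub : ∃ u g : LegJ L, IsUnit u ∧
    algebraMap L[X] (LegJ L) (X - C 1728) = u * g ^ 2 := by
  refine ⟨1, legR (jX L) (jY L) (jZ L), isUnit_one, ?_⟩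
  rw [one_mul, legR_sq (jX_mul_jY L) (jX_sub_one_mul_jZ L), map_sub, algebraMap_poly_X,
    algebraMap_poly_C, map_ofNat, jJ]

/-- The branch data `hM` of `Abhyankar.isUnramifiedAt_of_branch` / `HorizU.hU_of_branch`. -/
theorem branch_hM : ∀ i : Fin 2, ∃ u g : LegJ L, IsUnit u ∧
    algebraMap L[X] (LegJ L) ((![X, X - C 1728] : Fin 2 → L[X]) i) =
      u * g ^ ((![3, 2] : Fin 2 → ℕ) i) := by
  intro i
  fin_cases i
  · exact branch_X L
  · exact branch_X_sub L

theorem branch_prime : ∀ i : Fin 2, Prime ((![X, X - C 1728] : Fin 2 → L[X]) i) := by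
  intro i
  fin_cases i
  · exact Polynomial.prime_X
  · exact Polynomial.prime_X_sub_C 1728

end Field

section Frac

variable (L : Type*) [Field L] [CharZero L]
  (K M : Type*) [Field K] [Algebra L[X] K] [IsFractionRing L[X] K]
  [Field M] [Algebra (LegJ L) M] [IsFractionRing (LegJ L) M]
  [Algebra L[X] M] [IsScalarTower L[X] (LegJ L) M] [Algebra K M] [IsScalarTower L[X] K M]

omit [CharZero L] [IsFractionRing L[X] K] [IsFractionRing (LegJ L) M] in
theorem algebraMap_K_X :
    algebraMap K M (algebraMap L[X] K X) = algebraMap (LegJ L) M (jJ L) := by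
  rw [← IsScalarTower.algebraMap_apply L[X] K M, IsScalarTower.algebraMap_apply L[X] (LegJ L) M,
    algebraMap_poly_X]

/-- `L[x,1/x,1/(x-1)]` is the integral closure of `L[j]` in its fraction field. -/
theorem isIntegralClosure : IsIntegralClosure (LegJ L) L[X] M := by
  haveI := isIntegral_poly L (isUnit_two L)
  exact IsIntegralClosure.of_isIntegrallyClosed (LegJ L) L[X] M

omit [CharZero L] [IsFractionRing L[X] K] [IsFractionRing (LegJ L) M] in
theorem aeval_jX_legendrePoly :
    aeval (algebraMap (LegJ L) M (jX L)) (legendrePoly (algebraMap L[X] K X)) = 0 := by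
  rw [aeval_legendrePoly, algebraMap_K_X L K M]
  have h := legJ_mul (jX_mul_jY L) (jX_sub_one_mul_jZ L)
  have h' := congrArg (algebraMap (LegJ L) M) h
  simp only [map_mul, map_pow, map_sub, map_add, map_one, map_ofNat] at h'
  rw [jJ]
  linear_combination -h'

omit [CharZero L] [IsFractionRing L[X] K] in
/-- The fraction field of the Legendre chart is generated by `x` over `L(j)`. -/
theorem adjoin_jX_eq_top :
    IntermediateField.adjoin K {algebraMap (LegJ L) M (jX L)} = ⊤ := by
  set x : M := algebraMap (LegJ L) M (jX L) with hx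
  have hxmem : x ∈ IntermediateField.adjoin K {x} :=
    IntermediateField.subset_adjoin K {x} (Set.mem_singleton x)
  have hy : algebraMap (LegJ L) M (jY L) = x⁻¹ := by
    have h := congrArg (algebraMap (LegJ L) M) (jX_mul_jY L)
    rw [map_mul, map_one] at h
    exact eq_inv_of_mul_eq_one_right h
  have hz : algebraMap (LegJ L) M (jZ L) = (x - 1)⁻¹ := by
    have h := congrArg (algebraMap (LegJ L) M) (jX_sub_one_mul_jZ L)
    rw [map_mul, map_one, map_sub, map_one] at h
    exact eq_inv_of_mul_eq_one_right h
  have key : ∀ a : LegJ L, algebraMap (LegJ L) M a ∈ IntermediateField.adjoin K {x} := by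
    intro a
    have ha : a ∈ Algebra.adjoin L {jX L, jY L, jZ L} := by rw [adjoin_eq_top]; trivial
    induction ha using Algebra.adjoin_induction with
    | mem b hb =>
      rcases hb with rfl | rfl | rfl
      · exact hxmem
      · rw [hy]; exact inv_mem hxmem
      · rw [hz]; exact inv_mem (sub_mem hxmem (one_mem _))
    | algebraMap c =>
      have : algebraMap (LegJ L) M (algebraMap L (LegJ L) c) =
          algebraMap K M (algebraMap L[X] K (C c)) := by
        rw [← IsScalarTower.algebraMap_apply L[X] K M,
          IsScalarTower.algebraMap_apply L[X] (LegJ L) M, algebraMap_poly_C]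
      rw [this]
      exact IntermediateField.algebraMap_mem _ _
    | add b c _ _ hb hc => rw [map_add]; exact add_mem hb hc
    | mul b c _ _ hb hc => rw [map_mul]; exact mul_mem hb hc
  rw [eq_top_iff]
  intro z _
  obtain ⟨a, b, _, rfl⟩ := IsFractionRing.div_surjective (A := LegJ L) z
  exact div_mem (key a) (key b)

omit [IsFractionRing (LegJ L) M] [IsScalarTower L[X] (LegJ L) M] [IsScalarTower L[X] K M]
  [Algebra (LegJ L) M] [Algebra L[X] M] [Algebra K M] in
include L in
theorem charZero_frac : CharZero K :=
  charZero_of_injective_algebraMap (IsFractionRing.injective L[X] K)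

omit [IsFractionRing (LegJ L) M] [IsScalarTower L[X] (LegJ L) M] [IsScalarTower L[X] K M]
  [Algebra (LegJ L) M] [Algebra L[X] M] [Algebra K M] in
theorem algebraMap_X_ne_zero : algebraMap L[X] K X ≠ 0 := by
  rw [Ne, map_eq_zero_iff _ (IsFractionRing.injective L[X] K)]; exact X_ne_zero

omit [IsFractionRing (LegJ L) M] [IsScalarTower L[X] (LegJ L) M] [IsScalarTower L[X] K M]
  [Algebra (LegJ L) M] [Algebra L[X] M] [Algebra K M] in
theorem algebraMap_X_ne : algebraMap L[X] K X ≠ 1728 := by
  intro h
  have h' : algebraMap L[X] K X = algebraMap L[X] K (C 1728) := by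
    rw [h, map_ofNat C, map_ofNat]
  exact X_ne_C _ (IsFractionRing.injective L[X] K h')

include L in
theorem isIntegral_jX : IsIntegral K (algebraMap (LegJ L) M (jX L)) := by
  haveI : CharZero K := charZero_frac L K
  have hsep := legendrePoly_separable (two_ne_zero' K) (algebraMap L[X] K X)
    (algebraMap_X_ne_zero L K) (algebraMap_X_ne L K)
  have hne : legendrePoly (algebraMap L[X] K X) ≠ 0 := hsep.ne_zero
  exact ⟨legendrePoly (algebraMap L[X] K X) * C (legendrePoly (algebraMap L[X] K X)).leadingCoeff⁻¹,
    monic_mul_leadingCoeff_inv hne, by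
      rw [← aeval_def, map_mul, aeval_jX_legendrePoly L K M, zero_mul]⟩

include L in
theorem finiteDimensional : FiniteDimensional K M := by
  haveI : FiniteDimensional K
      (IntermediateField.adjoin K {algebraMap (LegJ L) M (jX L)}) :=
    IntermediateField.adjoin.finiteDimensional (isIntegral_jX L K M)
  rw [adjoin_jX_eq_top L K M] at this
  exact Module.Finite.equiv (IntermediateField.topEquiv (F := K) (E := M)).toLinearEquiv

include L in
/-- `L(x)` is Galois over `L(j)`. -/
theorem isGalois : IsGalois K M := by
  haveI : CharZero K := charZero_frac L K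
  exact isGalois_of_root (two_ne_zero' K) (algebraMap L[X] K X)
    (algebraMap_X_ne_zero L K) (algebraMap_X_ne L K) (algebraMap (LegJ L) M (jX L))
    (aeval_jX_legendrePoly L K M) (adjoin_jX_eq_top L K M)

end Frac

section Lift

variable (W : Type*) [CommRing W] [IsDomain W] {Y : Type*} [Field Y] [Algebra W Y]

/-- The map from the Legendre chart to a field `Y` sending `x` to `x0 ≠ 0, 1`. -/
noncomputable def legLift (x0 : Y) (h0 : x0 ≠ 0) (h1 : x0 ≠ 1) : LegJ W →ₐ[W] Y :=
  chartLift W x0 h0 h1

variable {W}

theorem legLift_jX (x0 : Y) (h0 : x0 ≠ 0) (h1 : x0 ≠ 1) : legLift W x0 h0 h1 (jX W) = x0 :=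
  chartLift_chartX x0 h0 h1

theorem legLift_jY (x0 : Y) (h0 : x0 ≠ 0) (h1 : x0 ≠ 1) : legLift W x0 h0 h1 (jY W) = x0⁻¹ :=
  chartLift_chartY x0 h0 h1

theorem legLift_jZ (x0 : Y) (h0 : x0 ≠ 0) (h1 : x0 ≠ 1) :
    legLift W x0 h0 h1 (jZ W) = (x0 - 1)⁻¹ :=
  chartLift_chartZ x0 h0 h1

theorem legLift_jJ (x0 : Y) (h0 : x0 ≠ 0) (h1 : x0 ≠ 1) :
    legLift W x0 h0 h1 (jJ W) = legJ x0 x0⁻¹ (x0 - 1)⁻¹ :=
  chartLift_chartJ x0 h0 h1

theorem legLift_algebraMap_poly (x0 : Y) (h0 : x0 ≠ 0) (h1 : x0 ≠ 1) (p : W[X]) :
    legLift W x0 h0 h1 (algebraMap W[X] (LegJ W) p) = aeval (legJ x0 x0⁻¹ (x0 - 1)⁻¹) p := by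
  rw [algebraMap_poly, ← legLift_jJ (W := W) x0 h0 h1]
  exact (aeval_algHom_apply (legLift W x0 h0 h1) (jJ W) p).symm

theorem legLift_injective (x0 : Y) (h0 : x0 ≠ 0) (h1 : x0 ≠ 1) (htr : Transcendental W x0) :
    Function.Injective (legLift W x0 h0 h1) :=
  chartLift_injective x0 h0 h1 htr

/-- Compatibility of the lifts with base change. -/
theorem legLift_legMap {L : Type*} [CommRing L] [IsDomain L] [Algebra W L] [Algebra L Y]
    [IsScalarTower W L Y] (x0 : Y) (h0 : x0 ≠ 0) (h1 : x0 ≠ 1) (r : LegJ W) :
    legLift L x0 h0 h1 (legMap W L r) = legLift W x0 h0 h1 r := by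
  have key : ((chartLift L x0 h0 h1 : LegRing L →+* Y).comp (legMapAux W L)) =
      (chartLift W x0 h0 h1 : LegRing W →+* Y) := by
    apply IsLocalization.ringHom_ext (Submonoid.powers (legF W))
    ext P
    · simp only [RingHom.comp_apply, RingHom.coe_coe]
      rw [legMapAux_algebraMap, chartLift, chartLift, AwayPoly.awayLift_algebraMap,
        AwayPoly.awayLift_algebraMap, Polynomial.map_C, aeval_C, aeval_C,
        ← IsScalarTower.algebraMap_apply W L Y]
    · simp only [RingHom.comp_apply, RingHom.coe_coe]
      rw [legMapAux_algebraMap, chartLift, chartLift, AwayPoly.awayLift_algebraMap,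
        AwayPoly.awayLift_algebraMap, Polynomial.map_X, aeval_X, aeval_X]
  exact congrArg (fun f : LegRing W →+* Y => f r) key

end Lift

end Fermat.Agent.S18.LegendreJ
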