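import Mathlib
import Fermat.Agent.S18.LegendreJ

/-!
# S18 : the Legendre chart, field side

* `LegK L = Frac (LegJ L)`, the function field `L(x)` of the Legendre chart, which is also the
  fraction field of `LegJ W` when `L = Frac W`, `W` a discrete valuation ring;
* `LegY j = F2(x0)`, `x0` a root of the Legendre polynomial of `j ∈ F2`, with the chart maps
  `LegJ W → LegY j`, `LegK L → LegY j` and the scalar towers.
-/

set_option autoImplicit false
set_option linter.unusedSectionVars false
set_option linter.style.haveILetI false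

namespace Fermat.Agent.S18.LegendreJ

open Polynomial Fermat.Agent.S18.Legendre Fermat.Agent.S18.AuxCover

section FunctionField

/-- The function field of the Legendre chart (the fraction field of `LegJ L`). -/
abbrev LegK (L : Type*) [Field L] := FractionRing (LegJ L)

variable (W L : Type*) [CommRing W] [IsDomain W] [Field L] [Algebra W L]

theorem algebraMap_legJ_legK_injective (hinj : Function.Injective (algebraMap W L)) :
    Function.Injective (algebraMap (LegJ W) (LegK L)) := by
  rw [IsScalarTower.algebraMap_eq (LegJ W) (LegJ L) (LegK L)]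
  exact (IsFractionRing.injective (LegJ L) (LegK L)).comp (legMap_injective W L hinj)

theorem legK_faithfulSMul (hinj : Function.Injective (algebraMap W L)) :
    FaithfulSMul (LegJ W) (LegK L) :=
  (faithfulSMul_iff_algebraMap_injective _ _).mpr (algebraMap_legJ_legK_injective W L hinj)

/-- `L(x)` is also the fraction field of `W[x, 1/x, 1/(x-1)]` when `L = W[1/π]`. -/
theorem legK_isFractionRing (p : LegJ W) [IsLocalization.Away p (LegJ L)]
    (hinj : Function.Injective (algebraMap W L)) : IsFractionRing (LegJ W) (LegK L) := by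
  haveI := legK_faithfulSMul W L hinj
  refine IsFractionRing.of_field (R := LegJ W) (K := LegK L) fun z => ?_
  obtain ⟨a, b, hb, rfl⟩ := IsFractionRing.div_surjective (A := LegJ L) z
  obtain ⟨⟨a', ⟨_, n, rfl⟩⟩, ha⟩ := IsLocalization.surj (Submonoid.powers p) a
  obtain ⟨⟨b', ⟨_, m, rfl⟩⟩, hb'⟩ := IsLocalization.surj (Submonoid.powers p) b
  simp only at ha hb'
  have hpu : IsUnit (algebraMap (LegJ W) (LegJ L) p) :=
    IsLocalization.Away.algebraMap_isUnit p
  have hp0 : algebraMap (LegJ L) (LegK L) (algebraMap (LegJ W) (LegJ L) p) ≠ 0 :=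
    (hpu.map _).ne_zero
  have hb0 : algebraMap (LegJ L) (LegK L) b ≠ 0 := by
    rw [Ne, map_eq_zero_iff _ (IsFractionRing.injective (LegJ L) (LegK L))]
    exact nonZeroDivisors.ne_zero hb
  refine ⟨a' * p ^ m, b' * p ^ n, ?_⟩
  rw [IsScalarTower.algebraMap_apply (LegJ W) (LegJ L) (LegK L),
    IsScalarTower.algebraMap_apply (LegJ W) (LegJ L) (LegK L) (b' * p ^ n),
    map_mul (algebraMap (LegJ W) (LegJ L)), map_mul (algebraMap (LegJ W) (LegJ L)), ← ha, ← hb']
  simp only [map_mul, map_pow]
  field_simp

end FunctionField

section PolyCoeff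

variable {R : Type*} [CommRing R]

theorem legendrePoly_eq_sum (t : R) : legendrePoly t =
    C 256 * X ^ 6 + C (-768) * X ^ 5 + C (1536 - t) * X ^ 4 + C (2 * t - 1792) * X ^ 3
      + C (1536 - t) * X ^ 2 + C (-768) * X ^ 1 + C 256 * X ^ 0 := by
  unfold legendrePoly
  simp only [map_sub, map_mul, map_neg, map_ofNat]
  ring

theorem coeff_legendrePoly_six (t : R) : (legendrePoly t).coeff 6 = 256 := by
  rw [legendrePoly_eq_sum]
  simp only [coeff_add, coeff_C_mul_X_pow]
  norm_num

end PolyCoeff

section FieldSide

variable {F2 : Type*} [Field F2] (j : F2)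

/-- An irreducible factor of the Legendre polynomial of `j`. -/
noncomputable def legFactor : F2[X] := (legendrePoly j).factor

instance legFactor_irreducible : Fact (Irreducible (legFactor j)) := ⟨irreducible_factor _⟩

/-- The field `F2(x0)`, `x0` a root of the Legendre polynomial of `j`. -/
abbrev LegY := AdjoinRoot (legFactor j)

/-- The root `x0`. -/
noncomputable def legY_root : LegY j := AdjoinRoot.root (legFactor j)

variable [CharZero F2]

theorem legendrePoly_ne_zero' : legendrePoly j ≠ 0 := by
  intro h0
  have := coeff_legendrePoly_six j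
  rw [h0, coeff_zero] at this
  norm_num at this

theorem legFactor_dvd : legFactor j ∣ legendrePoly j := by
  refine factor_dvd_of_natDegree_ne_zero ?_
  have h6 : 6 ≤ (legendrePoly j).natDegree :=
    le_natDegree_of_ne_zero (by rw [coeff_legendrePoly_six]; norm_num)
  omega

theorem aeval_legY_root : aeval (legY_root j) (legendrePoly j) = 0 := by
  obtain ⟨g, hg⟩ := legFactor_dvd j
  rw [hg, map_mul, legY_root, AdjoinRoot.aeval_eq, AdjoinRoot.mk_self, zero_mul]

theorem adjoin_legY_root : IntermediateField.adjoin F2 {legY_root j} = ⊤ := by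
  have hint : IsIntegral F2 (legY_root j) :=
    ⟨legendrePoly j * C (legendrePoly j).leadingCoeff⁻¹,
      monic_mul_leadingCoeff_inv (legendrePoly_ne_zero' j), by
        rw [← aeval_def, map_mul, aeval_legY_root, zero_mul]⟩
  apply IntermediateField.toSubalgebra_injective
  rw [IntermediateField.adjoin_simple_toSubalgebra_of_isAlgebraic hint.isAlgebraic]
  exact AdjoinRoot.adjoinRoot_eq_top

instance legY_finiteDimensional : FiniteDimensional F2 (LegY j) :=
  (AdjoinRoot.powerBasis (legFactor_irreducible j).out.ne_zero).finite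

theorem legY_root_ne_zero : legY_root j ≠ 0 :=
  (legJ_of_root (by norm_num) j _ (aeval_legY_root j)).1

theorem legY_root_ne_one : legY_root j ≠ 1 :=
  (legJ_of_root (by norm_num) j _ (aeval_legY_root j)).2.1

theorem legJ_legY_root :
    legJ (legY_root j) (legY_root j)⁻¹ (legY_root j - 1)⁻¹ = algebraMap F2 (LegY j) j :=
  (legJ_of_root (by norm_num) j _ (aeval_legY_root j)).2.2

/-- `F2(x0)` is Galois over `F2`. -/
theorem legY_isGalois (hj0 : j ≠ 0) (hj : j ≠ 1728) : IsGalois F2 (LegY j) :=
  isGalois_of_root (by norm_num) j hj0 hj (legY_root j) (aeval_legY_root j) (adjoin_legY_root j)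

end FieldSide

section ChartToField

variable {F2 : Type*} [Field F2] [CharZero F2] (j : F2)
variable (W : Type*) [CommRing W] [IsDomain W] [Algebra W F2]

/-- The chart ring maps to `F2(x0)` by `x ↦ x0`. -/
noncomputable instance legYAlgebra : Algebra (LegJ W) (LegY j) :=
  (legLift W (legY_root j) (legY_root_ne_zero j) (legY_root_ne_one j)).toRingHom.toAlgebra

variable {W}

theorem algebraMap_legJ_legY (s : LegJ W) :
    algebraMap (LegJ W) (LegY j) s =
      legLift W (legY_root j) (legY_root_ne_zero j) (legY_root_ne_one j) s := rfl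

theorem algebraMap_legY_jX : algebraMap (LegJ W) (LegY j) (jX W) = legY_root j := by
  rw [algebraMap_legJ_legY, legLift_jX]

theorem algebraMap_legY_jJ : algebraMap (LegJ W) (LegY j) (jJ W) = algebraMap F2 (LegY j) j := by
  rw [algebraMap_legJ_legY, legLift_jJ, legJ_legY_root]

instance legY_isScalarTower_base : IsScalarTower W (LegJ W) (LegY j) :=
  IsScalarTower.of_algebraMap_eq fun a =>
    ((legLift W (legY_root j) (legY_root_ne_zero j) (legY_root_ne_one j)).commutes a).symm

/-- Compatibility of the chart map with the `j`-structures. -/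
theorem legY_isScalarTower_poly [Algebra W[X] F2] [IsScalarTower W W[X] F2]
    (hj : algebraMap W[X] F2 X = j) : IsScalarTower W[X] (LegJ W) (LegY j) := by
  refine IsScalarTower.of_algebraMap_eq fun P => ?_
  rw [algebraMap_legJ_legY, legLift_algebraMap_poly, legJ_legY_root,
    IsScalarTower.algebraMap_apply W[X] F2 (LegY j)]
  have h1 : algebraMap W[X] F2 P = aeval j P := by
    rw [← hj, aeval_algebraMap_apply, aeval_X_left_apply]
  rw [h1, ← aeval_algebraMap_apply]

theorem transcendental_legY_root (htr : Transcendental W j) :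
    Transcendental W (legY_root j) := by
  intro halg
  apply htr
  have hn : ∀ n : ℕ, IsAlgebraic W ((n : ℕ) : LegY j) := fun n => by
    have := isAlgebraic_algebraMap (R := W) (A := LegY j) (n : W)
    rwa [map_natCast] at this
  have hone : IsAlgebraic W (1 : LegY j) := isAlgebraic_one
  have hy : IsAlgebraic W (legY_root j)⁻¹ := IsAlgebraic.inv_iff.mpr halg
  have hz : IsAlgebraic W (legY_root j - 1)⁻¹ := IsAlgebraic.inv_iff.mpr (halg.sub hone)
  have hJ : IsAlgebraic W (legJ (legY_root j) (legY_root j)⁻¹ (legY_root j - 1)⁻¹) := by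
    unfold legJ
    have h256 : IsAlgebraic W (256 : LegY j) := by
      have := hn 256
      rwa [Nat.cast_ofNat] at this
    exact ((h256.mul ((((halg.pow 2).sub halg).add hone).pow 3)).mul (hy.pow 2)).mul (hz.pow 2)
  rw [legJ_legY_root] at hJ
  exact (isAlgebraic_algebraMap_iff (algebraMap F2 (LegY j)).injective).mp hJ

theorem algebraMap_legJ_legY_injective (htr : Transcendental W j) :
    Function.Injective (algebraMap (LegJ W) (LegY j)) :=
  legLift_injective _ _ _ (transcendental_legY_root j htr)

theorem legY_faithfulSMul (htr : Transcendental W j) : FaithfulSMul (LegJ W) (LegY j) :=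
  (faithfulSMul_iff_algebraMap_injective _ _).mpr (algebraMap_legJ_legY_injective j htr)

/-- The chart maps over `W` and over `L` are compatible with base change. -/
instance legY_isScalarTower_bc {L : Type*} [Field L] [Algebra W L] [Algebra L F2]
    [IsScalarTower W L F2] : IsScalarTower (LegJ W) (LegJ L) (LegY j) := by
  refine IsScalarTower.of_algebraMap_eq fun s => ?_
  rw [algebraMap_leg, algebraMap_legJ_legY, algebraMap_legJ_legY, legLift_legMap]

end ChartToField

section FunctionFieldToField

variable {F2 : Type*} [Field F2] [CharZero F2] (j : F2)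
variable {L : Type*} [Field L] [Algebra L F2] [htr : Fact (Transcendental L j)]

/-- `L(x) → F2(x0)`. -/
noncomputable instance legKYAlgebra : Algebra (LegK L) (LegY j) :=
  (IsFractionRing.lift (K := LegK L) (g := algebraMap (LegJ L) (LegY j))
    (algebraMap_legJ_legY_injective j htr.out)).toAlgebra

instance legKY_isScalarTower : IsScalarTower (LegJ L) (LegK L) (LegY j) :=
  IsScalarTower.of_algebraMap_eq fun s =>
    (IsFractionRing.lift_algebraMap (K := LegK L) (algebraMap_legJ_legY_injective j htr.out) s).symm

instance legKY_isScalarTower_bc {W : Type*} [CommRing W] [IsDomain W] [Algebra W L]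
    [Algebra W F2] [IsScalarTower W L F2] : IsScalarTower (LegJ W) (LegK L) (LegY j) := by
  refine IsScalarTower.of_algebraMap_eq fun s => ?_
  rw [IsScalarTower.algebraMap_apply (LegJ W) (LegJ L) (LegK L),
    ← IsScalarTower.algebraMap_apply (LegJ L) (LegK L) (LegY j),
    ← IsScalarTower.algebraMap_apply (LegJ W) (LegJ L) (LegY j)]

end FunctionFieldToField

end Fermat.Agent.S18.LegendreJ
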