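import Mathlib
import Fermat.Agent.S18.LegendreY
import Fermat.Agent.S18.FiniteChartCore
import Fermat.Agent.S18.ChartTower

/-!
# S18 : the Legendre chart, the finite chart theorem instantiated

`legendre_finite_chart_lift` = `FiniteChartCore.finite_chart_lift` at `R0 = LegJ W`,
`BM = LegJ L`, `K' = LegK L`, `Y' = LegY j = F2(x0)`.  The statement is the one of
`Hesse.hesse_finite_chart_lift` with `3` replaced by `2` (and no cube root of unity).
-/

set_option autoImplicit false
set_option linter.unusedSectionVars false
set_option linter.style.haveILetI false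

namespace Fermat.Agent.S18.LegendreJ

open Polynomial Fermat.Agent.S18.Legendre Fermat.Agent.S18.AuxCover

section Localization

variable {W L : Type*} [CommRing W] [IsDomain W] [Field L] [Algebra W L]

theorem legMapAux_surj_pow_of_away (π : W) [IsLocalization.Away π L] (a : LegRing L) :
    ∃ n : ℕ, ∃ r : LegRing W,
      legMapAux W L r = (algebraMap L (LegRing L) (algebraMap W L π)) ^ n * a := by
  obtain ⟨k, b, hb⟩ := IsLocalization.Away.surj (legF L) a
  obtain ⟨m, ⟨n, rfl⟩, hm⟩ := IsLocalization.integerNormalization_spec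
    (Submonoid.powers π) b
  refine ⟨n, algebraMap W[X] (LegRing W)
    (IsLocalization.integerNormalization (Submonoid.powers π) b) * chartInv W ^ k, ?_⟩
  rw [map_mul, map_pow, legMapAux_algebraMap, legMapAux_chartInv, hm]
  have h3 : algebraMap L[X] (LegRing L) (legF L) * chartInv L = 1 :=
    IsLocalization.Away.mul_invSelf (legF L)
  have h4 : algebraMap L[X] (LegRing L) ((π ^ n : W) • b) =
      (algebraMap L (LegRing L) (algebraMap W L π)) ^ n * algebraMap L[X] (LegRing L) b := by
    rw [IsScalarTower.algebraMap_apply L L[X] (LegRing L), ← map_pow, ← map_mul]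
    congr 1
    rw [Algebra.smul_def, Polynomial.algebraMap_apply, Polynomial.algebraMap_apply,
      Algebra.algebraMap_self, RingHom.id_apply, map_pow, map_pow]
  rw [h4, ← hb]
  calc algebraMap L (LegRing L) (algebraMap W L π) ^ n *
        (a * algebraMap L[X] (LegRing L) (legF L) ^ k) * chartInv L ^ k
      = algebraMap L (LegRing L) (algebraMap W L π) ^ n * a *
        (algebraMap L[X] (LegRing L) (legF L) * chartInv L) ^ k := by ring
    _ = _ := by rw [h3, one_pow, mul_one]

theorem legMap_surj_pow_of_away (π : W) [IsLocalization.Away π L] (a : LegJ L) :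
    ∃ n : ℕ, ∃ r : LegJ W,
      legMap W L r = (algebraMap L (LegJ L) (algebraMap W L π)) ^ n * a :=
  legMapAux_surj_pow_of_away π a

/-- `L[x,1/x,1/(x-1)]` is the localisation of `W[x,1/x,1/(x-1)]` away from `π` when
`L = W[1/π]`. -/
theorem isLocalization_away_of_away (π : W) [IsLocalization.Away π L]
    (hinj : Function.Injective (algebraMap W L)) :
    IsLocalization.Away (algebraMap W[X] (LegJ W) (C π)) (LegJ L) := by
  rw [algebraMap_poly_C]
  have hπL : IsUnit (algebraMap W L π) := IsLocalization.Away.algebraMap_isUnit π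
  refine HorizU.isLocalization_away_of_forall _ (legMap_injective W L hinj) ?_ ?_
  · rw [algebraMap_leg, legMap_algebraMap]
    exact hπL.map _
  · intro a
    obtain ⟨n, r, hr⟩ := legMap_surj_pow_of_away π a
    refine ⟨n, r, ?_⟩
    rw [algebraMap_leg, algebraMap_leg, legMap_algebraMap]
    exact hr

end Localization

section KStructure

variable (L : Type*) [Field L] [CharZero L] (K : Type*) [Field K] [Algebra L[X] K]
  [IsFractionRing L[X] K]

theorem algebraMap_poly_legK_injective : Function.Injective (algebraMap L[X] (LegK L)) := by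
  rw [IsScalarTower.algebraMap_eq L[X] (LegJ L) (LegK L)]
  exact (IsFractionRing.injective (LegJ L) (LegK L)).comp (algebraMap_poly_injective L)

/-- The `K`-algebra structure on the function field `L(x)` of the Legendre chart, for
`K = Frac L[j]` (a reducible def: install with `letI`). -/
@[reducible] noncomputable def legKAlgebra : Algebra K (LegK L) :=
  (IsFractionRing.lift (algebraMap_poly_legK_injective L) : K →+* LegK L).toAlgebra

theorem legKAlgebra_isScalarTower :
    letI := legKAlgebra L K
    IsScalarTower L[X] K (LegK L) := by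
  letI := legKAlgebra L K
  exact IsScalarTower.of_algebraMap_eq fun a =>
    (IsFractionRing.lift_algebraMap (algebraMap_poly_legK_injective L) a).symm

theorem legKAlgebra_finiteDimensional :
    letI := legKAlgebra L K
    FiniteDimensional K (LegK L) := by
  letI := legKAlgebra L K
  haveI := legKAlgebra_isScalarTower L K
  exact finiteDimensional L K (LegK L)

theorem legKAlgebra_isGalois :
    letI := legKAlgebra L K
    IsGalois K (LegK L) := by
  letI := legKAlgebra L K
  haveI := legKAlgebra_isScalarTower L K
  exact isGalois L K (LegK L)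

end KStructure

section Towers

variable {F2 : Type*} [Field F2] [CharZero F2] (j : F2)
variable (L : Type*) [Field L] [CharZero L] [Algebra L F2] [htr : Fact (Transcendental L j)]

/-- `Y' = F2 · M`. -/
theorem legY_adjoin_range :
    IntermediateField.adjoin F2 (Set.range (algebraMap (LegK L) (LegY j))) = ⊤ := by
  refine ChartTower.adjoin_range_eq_top (algebraMap (LegJ L) (LegK L) (jX L)) ?_
  rw [← IsScalarTower.algebraMap_apply (LegJ L) (LegK L) (LegY j), algebraMap_legY_jX]
  exact adjoin_legY_root j

variable {L}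
variable {K : Type*} [Field K] [Algebra L[X] K] [IsFractionRing L[X] K]
  [Algebra K F2] [Algebra L[X] F2] [IsScalarTower L[X] K F2] [IsScalarTower L L[X] F2]

/-- The square `K → F2 → Y'`, `K → M → Y'` commutes. -/
theorem legKY_isScalarTower_frac (hjL : algebraMap L[X] F2 X = j) :
    letI := legKAlgebra L K
    IsScalarTower K (LegK L) (LegY j) := by
  letI := legKAlgebra L K
  haveI := legKAlgebra_isScalarTower L K
  haveI tL : IsScalarTower L[X] (LegJ L) (LegY j) := legY_isScalarTower_poly j hjL
  refine IsScalarTower.of_algebraMap_eq fun x => ?_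
  have key : (algebraMap K (LegY j)) =
      (algebraMap (LegK L) (LegY j)).comp (algebraMap K (LegK L)) := by
    apply IsLocalization.ringHom_ext (nonZeroDivisors L[X])
    ext p
    · simp only [RingHom.comp_apply]
      rw [← IsScalarTower.algebraMap_apply L[X] K (LegY j),
        ← IsScalarTower.algebraMap_apply L[X] K (LegK L),
        IsScalarTower.algebraMap_apply L[X] (LegJ L) (LegK L),
        ← IsScalarTower.algebraMap_apply (LegJ L) (LegK L) (LegY j),
        ← IsScalarTower.algebraMap_apply L[X] (LegJ L) (LegY j)]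
    · simp only [RingHom.comp_apply]
      rw [← IsScalarTower.algebraMap_apply L[X] K (LegY j),
        ← IsScalarTower.algebraMap_apply L[X] K (LegK L),
        IsScalarTower.algebraMap_apply L[X] (LegJ L) (LegK L),
        ← IsScalarTower.algebraMap_apply (LegJ L) (LegK L) (LegY j),
        ← IsScalarTower.algebraMap_apply L[X] (LegJ L) (LegY j)]
  exact congrArg (fun f : K →+* LegY j => f x) key

end Towers

/-- **The finite chart theorem for the Legendre cover** (residue characteristic prime to `2`,
i.e. `ℓ` odd). -/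
theorem legendre_finite_chart_lift
    {W k L K F F2 : Type*} [CommRing W] [IsDomain W] [IsNoetherianRing W] [IsIntegrallyClosed W]
    [Field k] [Field L] [CharZero L] [Algebra W L]
    [Field K] [Algebra L[X] K] [IsFractionRing L[X] K]
    [Field F] [Algebra K F]
    [Field F2] [CharZero F2] [Algebra K F2] [Algebra F F2] [IsScalarTower K F F2]
    [FiniteDimensional K F2]
    [Algebra L[X] F2] [IsScalarTower L[X] K F2] [Algebra W[X] F2]
    [Algebra W F2] [Algebra L F2] [IsScalarTower W L F2] [IsScalarTower L L[X] F2]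
    [IsScalarTower W W[X] F2]
    (j : F2) (hjL : algebraMap L[X] F2 X = j) (hjW : algebraMap W[X] F2 X = j)
    (htr : Transcendental L j)
    (π : W) (hπ : Prime π) (hmax : (Ideal.span {π}).IsMaximal) (h2 : IsUnit (2 : W))
    [IsLocalization.Away π L] (hinj : Function.Injective (algebraMap W L))
    -- horizontal primes: branch data of `F2` over the `j`-line
    (hF : ∀ P : Ideal (integralClosure L[X] F2), P.IsPrime → P ≠ ⊥ →
      (X ∈ P.under L[X] → P.ramificationIdx L[X] ∣ 3) ∧
      (X - C 1728 ∈ P.under L[X] → P.ramificationIdx L[X] ∣ 2) ∧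
      (X ∉ P.under L[X] → X - C 1728 ∉ P.under L[X] → P.ramificationIdx L[X] = 1))
    -- vertical prime: the monogenic separable datum
    (κ₀ : Type*) [Field κ₀] [Algebra k[X] κ₀] [IsFractionRing k[X] κ₀]
    (res : W →+* k) (hres : Function.Surjective res) (hker : RingHom.ker res = Ideal.span {π})
    (θ : F) (hθ : IntermediateField.adjoin K {θ} = ⊤)
    (P : (W[X])[X]) (hP : P.Monic)
    (hPθ : eval₂ (algebraMap W[X] F2) (algebraMap F F2 θ) P = 0)
    (hsep : ((P.map (mapRingHom res)).map (algebraMap k[X] κ₀)).Separable)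
    -- vertical prime: the Kummer datum
    (s : ℕ) (hs : s.Prime) (hsπ : ¬ π ∣ (s : W))
    (ζ : L) (hζ : IsPrimitiveRoot ζ s)
    (u : F2) (hu : IntermediateField.adjoin F {u} = ⊤)
    (w : F) (hw0 : w ≠ 0) (huw : u ^ s = algebraMap F F2 w)
    (hw : IsGaussInt W[X] (C π) (algebraMap F F2 w))
    (hw' : IsGaussInt W[X] (C π) (algebraMap F F2 w)⁻¹)
    -- the idempotent
    (ε : F2) (hε : IsGaussInt W[X] (C π) ε)
    (hεε : ∃ d : F2, IsGaussInt W[X] (C π) d ∧ ε ^ 2 - ε = (C π : W[X]) • d) :
    ∃ e : F2, IsIntegral W[X] e ∧ ∃ d : F2, IsGaussInt W[X] (C π) d ∧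
      e - ε = (C π : W[X]) • d := by
  haveI : Fact (Transcendental L j) := ⟨htr⟩
  haveI : Algebra.IsIntegral W[X] (LegJ W) := isIntegral_poly W h2
  letI := legKAlgebra L K
  haveI := legKAlgebra_isScalarTower L K
  haveI := legKY_isScalarTower_frac (K := K) j hjL
  haveI : FiniteDimensional K (LegK L) := legKAlgebra_finiteDimensional L K
  haveI : IsGalois K (LegK L) := legKAlgebra_isGalois L K
  haveI : IsIntegralClosure (LegJ L) L[X] (LegK L) := isIntegralClosure L (LegK L)
  haveI hloc : IsLocalization.Away (algebraMap W[X] (LegJ W) (C π)) (LegJ L) :=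
    isLocalization_away_of_away π hinj
  haveI : IsFractionRing (LegJ W) (LegK L) :=
    legK_isFractionRing W L (algebraMap W[X] (LegJ W) (C π)) hinj
  haveI : IsScalarTower W[X] (LegJ W) (LegY j) := legY_isScalarTower_poly (W := W) j hjW
  obtain ⟨u₀, g₀, hu₀, h₀⟩ := branch_X L
  obtain ⟨u₁, g₁, hu₁, h₁⟩ := branch_X_sub L
  have hcompat := dvd_of_algebraMap_dvd h2 hπ hmax
  have hsπ' : ¬ algebraMap W[X] (LegJ W) (C π) ∣ ((s : ℕ) : LegJ W) := by
    intro hdvd
    apply hsπ
    have h1 : ((s : ℕ) : LegJ W) = algebraMap W[X] (LegJ W) (C (s : W)) := by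
      rw [algebraMap_poly_C, map_natCast]
    rw [h1] at hdvd
    have h3 := (Polynomial.C_dvd_iff_dvd_coeff _ _).mp (hcompat _ hdvd) 0
    rwa [coeff_C_zero] at h3
  have hζ' : IsPrimitiveRoot (algebraMap (LegJ L) (LegK L) (algebraMap L (LegJ L) ζ)) s := by
    have hinj' : Function.Injective
        ((algebraMap (LegJ L) (LegK L)).comp (algebraMap L (LegJ L))) :=
      (IsFractionRing.injective (LegJ L) (LegK L)).comp (algebraMap L (LegJ L)).injective
    exact hζ.map_of_injective hinj'
  exact FiniteChartCore.finite_chart_lift (K := K) (F := F) (R0 := LegJ W) (BM := LegJ L)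
    (K' := LegK L) (Y' := LegY j) (legY_adjoin_range j L) π (prime_poly_C hπ)
    (quotient_isDedekindDomain hπ hmax) hcompat hF
    u₀ g₀ u₁ g₁ hu₀ h₀ hu₁ h₁ κ₀ res hres (dvd_iff_map_eq_zero h2 hπ hmax res hker)
    θ hθ P hP hPθ hsep s hs hsπ' _ hζ' u hu w hw0 huw hw hw' ε hε hεε

end Fermat.Agent.S18.LegendreJ
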