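/-
S18: the finite chart contract for odd `ℓ` (Legendre cover).
-/
import Mathlib
import Fermat.Agent.S18.FiniteChartK
import Fermat.Agent.S18.LegendreChart
import Fermat.Agent.S18.KSetupDVR

set_option autoImplicit false
set_option linter.style.haveILetI false
set_option linter.unusedSectionVars false

namespace Fermat.Agent.S18.LegendreFinal

open ModularCurve AlgebraicCurve Polynomial
open Fermat.Agent.S18.Contracts Fermat.Agent.S18.LegendreJ

local notation "Qb" => AlgebraicClosure ℚ

/-- **The finite chart contract for an odd residue characteristic `ℓ`**, through the Legendre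
cover. -/
theorem legendre_chartLift (N : ℕ) [NeZero N] (ℓ : ℕ) (hℓ : ℓ ≠ 2) :
    Contracts.FiniteChartLift N ℓ := by
  intro L _ _ ι W s Z1 Z2 h π hπ F2 _ _ u hu hdeg
  haveI := h.dvr
  haveI : CharZero L := algebraRat.charZero L
  -- structures on `F2`
  letI : Algebra L F2 := ((algebraMap (S24.FF L N) F2).comp (algebraMap L (S24.FF L N))).toAlgebra
  haveI : IsScalarTower L (S24.FF L N) F2 := IsScalarTower.of_algebraMap_eq (fun _ => rfl)
  letI : Algebra ↥W F2 := (toF2 W N F2).toAlgebra
  haveI : IsScalarTower ↥W L F2 := IsScalarTower.of_algebraMap_eq (fun _ => rfl)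
  letI : Algebra (↥W)[X] F2 := (evAt W N (jF2 L N F2)).toAlgebra
  haveI : IsScalarTower ↥W (↥W)[X] F2 := IsScalarTower.of_algebraMap_eq (fun a => by
    show toF2 W N F2 a = evAt W N (jF2 L N F2) (C a)
    rw [ContractsEps.evAt_C])
  letI : Algebra L[X] F2 := FFKit.polyAlgebra (jF2 L N F2)
  haveI : IsScalarTower L L[X] F2 := FFKit.polyAlgebra_isScalarTower (jF2 L N F2)
  have htr : Transcendental L (jF2 L N F2) := KSetup.transcendental_jF2 ι N F2
  letI : Algebra (FractionRing L[X]) F2 := FFKit.ratAlgebra (FractionRing L[X]) (jF2 L N F2) htr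
  haveI : IsScalarTower L[X] (FractionRing L[X]) F2 :=
    FFKit.ratAlgebra_isScalarTower (FractionRing L[X]) (jF2 L N F2) htr
  haveI : CharZero F2 := charZero_of_injective_algebraMap (algebraMap L F2).injective
  haveI : Fact (Transcendental L (jF2 L N F2)) := ⟨htr⟩
  have hjL : algebraMap L[X] F2 X = jF2 L N F2 := FFKit.polyAlgebra_X (jF2 L N F2)
  have hjW : algebraMap (↥W)[X] F2 X = jF2 L N F2 := ContractsEps.evAt_X W N F2 (jF2 L N F2)
  have hA : ∀ p : L[X], algebraMap L[X] F2 p =
      algebraMap (S24.FF L N) F2 (aeval (S24.jBC L N) p) := fun p => by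
    show aeval (jF2 L N F2) p = _
    rw [jF2, aeval_algebraMap_apply]
  -- arithmetic of `W`
  have hπp : Prime π := KSetup.prime_pi h hπ
  have hmax : (Ideal.span {π}).IsMaximal := KSetup.isMaximal_span h hπ
  have h2 : IsUnit (2 : ↥W) := KSetup.isUnit_two h hℓ
  haveI : IsLocalization.Away π L := KSetup.isLocalization_away h hπ
  have hinj : Function.Injective (algebraMap ↥W L) := Subtype.val_injective
  -- the chart instances
  haveI : Algebra.IsIntegral (↥W)[X] (LegJ ↥W) := isIntegral_poly ↥W h2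
  letI := legKAlgebra L (FractionRing L[X])
  haveI := legKAlgebra_isScalarTower L (FractionRing L[X])
  haveI := legKY_isScalarTower_frac (K := FractionRing L[X]) (jF2 L N F2) hjL
  haveI : FiniteDimensional (FractionRing L[X]) (LegK L) :=
    legKAlgebra_finiteDimensional L (FractionRing L[X])
  haveI : IsGalois (FractionRing L[X]) (LegK L) := legKAlgebra_isGalois L (FractionRing L[X])
  haveI : IsIntegralClosure (LegJ L) L[X] (LegK L) := isIntegralClosure L (LegK L)
  haveI hloc : IsLocalization.Away (algebraMap (↥W)[X] (LegJ ↥W) (C π)) (LegJ L) :=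
    isLocalization_away_of_away π hinj
  haveI : IsFractionRing (LegJ ↥W) (LegK L) :=
    legK_isFractionRing ↥W L (algebraMap (↥W)[X] (LegJ ↥W) (C π)) hinj
  haveI : IsScalarTower (↥W)[X] (LegJ ↥W) (LegY (jF2 L N F2)) :=
    legY_isScalarTower_poly (W := ↥W) (jF2 L N F2) hjW
  obtain ⟨u₀, g₀, hu₀, h₀⟩ := branch_X L
  obtain ⟨u₁, g₁, hu₁, h₁⟩ := branch_X_sub L
  exact FiniteChartK.finite_chart_contract h π hπ F2 u hu hdeg (K := FractionRing L[X])
    (R0 := LegJ ↥W) (BM := LegJ L) (K' := LegK L) (Y' := LegY (jF2 L N F2)) hA rfl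
    (legY_adjoin_range (jF2 L N F2) L) (prime_poly_C hπp)
    (quotient_isDedekindDomain hπp hmax) (dvd_of_algebraMap_dvd h2 hπp hmax)
    u₀ g₀ u₁ g₁ hu₀ h₀ hu₁ h₁
    (dvd_iff_map_eq_zero h2 hπp hmax (IsLocalRing.residue ↥W) (KSetup.ker_residue h hπ))

end Fermat.Agent.S18.LegendreFinal
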