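/-
S18: the finite chart contract for every residue characteristic (Hesse cover for `ℓ = 2`,
Legendre cover for `ℓ ≠ 2`), and the statement reduced to the cusp chart contract alone.
-/
import Mathlib
import Fermat.Agent.S18.GeoCore
import Fermat.Agent.S18.HesseLift
import Fermat.Agent.S18.LegendreFinal

set_option autoImplicit false

namespace Fermat.Agent.S18

namespace FiniteAll

/-- **The finite chart contract**, for every `ℓ`. -/
theorem finiteChartLift (N : ℕ) [NeZero N] (ℓ : ℕ) : Contracts.FiniteChartLift N ℓ := by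
  rcases eq_or_ne ℓ 2 with rfl | h2
  · exact HesseLift.hesse_chartLift N
  · exact LegendreFinal.legendre_chartLift N ℓ h2

/-- **The Kummer core of S18 from the cusp chart contract.** -/
theorem kummerCore_of_cusp (N : ℕ) [NeZero N] {ℓ : ℕ} (hℓ : ℓ.Prime) (hℓN : ¬ ℓ ∣ N)
    (A : ValuationSubring (AlgebraicClosure ℚ)) (hA : A.LiesOverPrime ℓ)
    (hcusp : Contracts.CuspChartLift N ℓ) :
    WitnessCore.KummerCore A (IsLocalRing.residue A) N ℓ :=
  GeoCore.kummerCore_of_contracts N hℓ hℓN A hA (finiteChartLift N ℓ) hcusp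

/-- **S18 from the cusp chart contract** (the frozen statement plus the cusp contract). -/
theorem result_of_cusp (N : ℕ) [NeZero N] {ℓ : ℕ} [Fact ℓ.Prime] (hℓN : ¬ ℓ ∣ N)
    (A : ValuationSubring (AlgebraicClosure ℚ)) (hA : A.LiesOverPrime ℓ)
    (hcusp : Contracts.CuspChartLift N ℓ)
    (h : ModularCurve.ReductionInputsModL A N) (m : ℕ) (hm : ¬ ℓ ∣ m) (z : ModularCurve.JZero N)
    (hmz : m • z = 0) (hz : ModularCurve.reductionModL A N z = 0) : z = 0 :=
  GeoEnd.result_of_contracts N hℓN A hA (finiteChartLift N ℓ) hcusp h m hm z hmz hz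

end FiniteAll

end Fermat.Agent.S18
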