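import Mathlib

/-!
# S18, package P4 (abstract core): a completion-free, Galois-free Abhyankar lemma

Everything here is about discrete valuation rings over a field `K` of characteristic zero whose
residue fields are `K`.

* `irreducible_of_subring`: the uniformiser criterion.
* `irreducible_sub_of_kummer`: the generic rational-base Abhyankar lemma in DVR form.
-/

set_option autoImplicit false

namespace Fermat.Agent.S18.AbhyankarCore

open Polynomial IsLocalRing

section Criterion

variable {O : Type*} [CommRing O] [IsDomain O] [IsDiscreteValuationRing O]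

/-- **Uniformiser criterion.**  Let `S` be a subring of a discrete valuation ring `O` whose
fractions exhaust `O`, and let `t ≠ 0` lie in the maximal ideal.  If every element of `S` in the
maximal ideal is `t * a / b` with `a, b ∈ S` and `b` a unit of `O`, then `t` is a uniformiser. -/
theorem irreducible_of_subring (S : Subring O)
    (hfrac : ∀ y : O, ∃ a ∈ S, ∃ b ∈ S, b ≠ 0 ∧ y * b = a)
    (t : O) (ht0 : t ≠ 0) (htm : t ∈ maximalIdeal O)
    (hdiv : ∀ y ∈ S, y ∈ maximalIdeal O →
      ∃ a ∈ S, ∃ b ∈ S, b ∉ maximalIdeal O ∧ y * b = t * a) :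
    Irreducible t := by
  obtain ⟨ϖ, hϖ⟩ := IsDiscreteValuationRing.exists_irreducible O
  obtain ⟨nT, uT, hT⟩ := IsDiscreteValuationRing.eq_unit_mul_pow_irreducible ht0 hϖ
  have hϖm : ϖ ∈ maximalIdeal O := by
    rw [mem_maximalIdeal, mem_nonunits_iff]
    exact hϖ.not_isUnit
  -- every nonzero element of `S` has valuation divisible by `nT`
  have key : ∀ k : ℕ, ∀ y ∈ S, ∀ u : Oˣ, y = u * ϖ ^ k → nT ∣ k := by
    intro k
    induction k using Nat.strong_induction_on with
    | _ k ih =>
      intro y hyS u hy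
      rcases Nat.eq_zero_or_pos k with hk | hk
      · rw [hk]
        exact dvd_zero _
      · have hym : y ∈ maximalIdeal O := by
          rw [hy]
          apply Ideal.mul_mem_left
          exact Ideal.pow_mem_of_mem _ hϖm k hk
        obtain ⟨a, haS, b, hbS, hbm, hab⟩ := hdiv y hyS hym
        have hbu : IsUnit b := by
          by_contra hb
          exact hbm ((mem_maximalIdeal b).mpr hb)
        have hy0 : y ≠ 0 := by
          rw [hy]
          exact mul_ne_zero u.ne_zero (pow_ne_zero _ hϖ.ne_zero)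
        have ha0 : a ≠ 0 := by
          rintro rfl
          rw [mul_zero] at hab
          rcases mul_eq_zero.mp hab with h | h
          · exact hy0 h
          · exact hbu.ne_zero h
        obtain ⟨ka, ua, hua⟩ := IsDiscreteValuationRing.eq_unit_mul_pow_irreducible ha0 hϖ
        obtain ⟨ub, rfl⟩ := hbu
        have heq : ((u * ub : Oˣ) : O) * ϖ ^ k = ((uT * ua : Oˣ) : O) * ϖ ^ (nT + ka) := by
          rw [hy, hT, hua] at hab
          rw [Units.val_mul, Units.val_mul, pow_add]
          linear_combination hab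
        have hk' : k = nT + ka :=
          IsDiscreteValuationRing.unit_mul_pow_congr_pow hϖ hϖ _ _ _ _ heq
        have hnT : 0 < nT := by
          rcases Nat.eq_zero_or_pos nT with h | h
          · exfalso
            rw [h, pow_zero, mul_one] at hT
            rw [hT, mem_maximalIdeal, mem_nonunits_iff] at htm
            exact htm uT.isUnit
          · exact h
        have hlt : ka < k := by omega
        have := ih ka hlt a haS ua hua
        rw [hk']
        exact (Nat.dvd_add_right (dvd_refl nT)).mpr this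
  obtain ⟨a, haS, b, hbS, hb0, hab⟩ := hfrac ϖ
  have ha0 : a ≠ 0 := by
    rw [← hab]
    exact mul_ne_zero hϖ.ne_zero hb0
  obtain ⟨ka, ua, hua⟩ := IsDiscreteValuationRing.eq_unit_mul_pow_irreducible ha0 hϖ
  obtain ⟨kb, ub, hub⟩ := IsDiscreteValuationRing.eq_unit_mul_pow_irreducible hb0 hϖ
  have h1 := key ka a haS ua hua
  have h2 := key kb b hbS ub hub
  have heq : ((ub : Oˣ) : O) * ϖ ^ (kb + 1) = ((ua : Oˣ) : O) * ϖ ^ ka := by
    rw [hua, hub] at hab
    rw [pow_succ]
    linear_combination hab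
  have hk : kb + 1 = ka := IsDiscreteValuationRing.unit_mul_pow_congr_pow hϖ hϖ _ _ _ _ heq
  have hnT1 : nT = 1 := by
    have : nT ∣ 1 := by
      have h3 : nT ∣ kb + 1 := hk ▸ h1
      exact (Nat.dvd_add_right h2).mp h3
    exact Nat.dvd_one.mp this
  rw [hnT1, pow_one] at hT
  rw [hT]
  exact (irreducible_units_mul uT).mpr hϖ  

end Criterion

section Kummer

variable {K O Ov : Type*} [Field K] [CharZero K]
  [CommRing O] [IsDomain O] [IsDiscreteValuationRing O] [Algebra K O]
  [CommRing Ov] [IsDomain Ov] [IsDiscreteValuationRing Ov] [Algebra K Ov]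

omit [CharZero K] [IsDomain O] [IsDiscreteValuationRing O] in
/-- Taylor expansion to first order of a polynomial in `lam` around `c`. -/
theorem aeval_eq_add (lam : O) (c : K) (Q : K[X]) :
    ∃ q : K[X], aeval lam Q =
      algebraMap K O (Q.eval c) + (lam - algebraMap K O c) * aeval lam q := by
  obtain ⟨q, hq⟩ := Polynomial.X_sub_C_dvd_sub_C_eval (p := Q) (a := c)
  refine ⟨q, ?_⟩
  have h := congrArg (aeval lam) hq
  simp only [map_sub, map_mul, aeval_X, aeval_C] at h
  linear_combination h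

omit [CharZero K] in
/-- A polynomial in `lam` not vanishing at the residue `c` of `lam` is a unit. -/
theorem isUnit_aeval (lam : O) (c : K) (hc : lam - algebraMap K O c ∈ maximalIdeal O)
    (Q : K[X]) (hQ : Q.eval c ≠ 0) : IsUnit (aeval lam Q) := by
  obtain ⟨q, hq⟩ := aeval_eq_add lam c Q
  by_contra h
  have hm : aeval lam Q ∈ maximalIdeal O := (mem_maximalIdeal _).mpr h
  have h2 : algebraMap K O (Q.eval c) ∈ maximalIdeal O := by
    have h3 : algebraMap K O (Q.eval c) =
        aeval lam Q - (lam - algebraMap K O c) * aeval lam q := by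
      rw [hq]
      ring
    rw [h3]
    exact Ideal.sub_mem _ hm (Ideal.mul_mem_right _ _ hc)
  exact (mem_maximalIdeal _).mp h2 ((isUnit_iff_ne_zero.mpr hQ).map (algebraMap K O))

omit [CharZero K] [IsDomain O] [IsDiscreteValuationRing O] in
/-- Polynomials in `lam` lie in any subring containing the constants and `lam`. -/
theorem aeval_mem_subring (S : Subring O) (hK : ∀ a : K, algebraMap K O a ∈ S) (lam : O)
    (hlam : lam ∈ S) (Q : K[X]) : aeval lam Q ∈ S := by
  induction Q using Polynomial.induction_on' with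
  | add p q hp hq =>
    rw [map_add]
    exact S.add_mem hp hq
  | monomial n a =>
    rw [aeval_monomial]
    exact S.mul_mem (hK a) (S.pow_mem hlam n)

/-- **Generic rational-base Abhyankar lemma, DVR form.**  `ψ : Ov → O` is a `K`-algebra map of
discrete valuation rings with residue field `K` (characteristic zero), `O` is generated (up to
fractions) by `K`, `lam` and the image of `ψ`; `x ∈ Ov` and `lam` are related by
`ψ x * E(lam) = (lam - c)^m * D(lam)` with `D(c), E(c) ≠ 0`; and `x = u * s^e1` with `s` a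
uniformiser of `Ov`, `m = e1 * n`.  Then `lam - c` is a uniformiser of `O`. -/
theorem irreducible_sub_of_kummer
    (ψ : Ov →ₐ[K] O)
    (hresO : ∀ y : O, ∃ a : K, y - algebraMap K O a ∈ maximalIdeal O)
    (hresOv : ∀ y : Ov, ∃ a : K, y - algebraMap K Ov a ∈ maximalIdeal Ov)
    (lam : O) (c : K) (hc : lam - algebraMap K O c ∈ maximalIdeal O)
    (hgen : ∀ y : O,
      ∃ a ∈ Subring.closure (Set.range (algebraMap K O) ∪ {lam} ∪ Set.range ψ),
      ∃ b ∈ Subring.closure (Set.range (algebraMap K O) ∪ {lam} ∪ Set.range ψ),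
        b ≠ 0 ∧ y * b = a)
    (x : Ov) (hx0 : ψ x ≠ 0)
    (D E : K[X]) (hD : D.eval c ≠ 0) (hE : E.eval c ≠ 0) (m : ℕ)
    (hrel : ψ x * aeval lam E = (lam - algebraMap K O c) ^ m * aeval lam D)
    (s : Ov) (hs : Irreducible s) (u : Ovˣ) (e1 n : ℕ) (hxs : x = u * s ^ e1)
    (hm : m = e1 * n) (he1 : 0 < e1) (hn : 0 < n) :
    Irreducible (lam - algebraMap K O c) := by
  set t : O := lam - algebraMap K O c with ht
  have hDu : IsUnit (aeval lam D) := isUnit_aeval lam c hc D hD
  have hEu : IsUnit (aeval lam E) := isUnit_aeval lam c hc E hE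
  have hm0 : m ≠ 0 := by
    rw [hm]
    exact (Nat.mul_pos he1 hn).ne'
  have ht0 : t ≠ 0 := by
    intro h0
    rw [h0, zero_pow hm0, zero_mul] at hrel
    exact hx0 ((mul_eq_zero.mp hrel).resolve_right hEu.ne_zero)
  have hψs0 : ψ s ≠ 0 := by
    intro h0
    apply hx0
    rw [hxs, map_mul, map_pow, h0, zero_pow he1.ne', mul_zero]
  let uψ : Oˣ := Units.map (ψ : Ov →* O) u
  have huψ : (uψ : O) = ψ (u : Ov) := rfl
  have hx1 : ψ x = (uψ : O) * (ψ s) ^ e1 := by
    rw [hxs, map_mul, map_pow, huψ]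
  have hpow : t ^ m = (t ^ n) ^ e1 := by
    rw [hm, mul_comm, pow_mul]
  -- Step B: `t ^ n` and `ψ s` are associated
  obtain ⟨ϖ, hϖ⟩ := IsDiscreteValuationRing.exists_irreducible O
  obtain ⟨a1, v1, hv1⟩ := IsDiscreteValuationRing.eq_unit_mul_pow_irreducible hψs0 hϖ
  obtain ⟨b1, v2, hv2⟩ :=
    IsDiscreteValuationRing.eq_unit_mul_pow_irreducible (pow_ne_zero n ht0) hϖ
  obtain ⟨uD, huD⟩ := hDu
  obtain ⟨uE, huE⟩ := hEu
  have hab : a1 * e1 = b1 * e1 := by
    have heq : ((uψ * v1 ^ e1 * uE : Oˣ) : O) * ϖ ^ (a1 * e1) =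
        ((v2 ^ e1 * uD : Oˣ) : O) * ϖ ^ (b1 * e1) := by
      have h := hrel
      rw [hx1, hpow, hv1, hv2, ← huD, ← huE] at h
      simp only [Units.val_mul, Units.val_pow_eq_pow_val, pow_mul]
      linear_combination h
    exact IsDiscreteValuationRing.unit_mul_pow_congr_pow hϖ hϖ _ _ _ _ heq
  have hab' : a1 = b1 := Nat.eq_of_mul_eq_mul_right he1 hab
  let ρ : Oˣ := v2 * v1⁻¹
  have hρ : t ^ n = (ρ : O) * ψ s := by
    rw [hv2, hv1, hab']
    simp only [ρ, Units.val_mul]
    rw [mul_assoc, ← mul_assoc ((v1⁻¹ : Oˣ) : O), Units.inv_mul, one_mul]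
  have hρi : ψ s = ((ρ⁻¹ : Oˣ) : O) * t ^ n := by
    rw [hρ, Units.inv_mul_cancel_left]
  have hstar : (uψ : O) * aeval lam E = (ρ : O) ^ e1 * aeval lam D := by
    have h := hrel
    rw [hx1, hpow, hρ] at h
    have h3 : (ψ s) ^ e1 ≠ 0 := pow_ne_zero _ hψs0
    apply mul_left_cancel₀ h3
    linear_combination h
  -- Step C: the subring
  set S : Subring O := Subring.closure
    (Set.range (algebraMap K O) ∪ {lam} ∪ Set.range ψ ∪ {(ρ : O), ((ρ⁻¹ : Oˣ) : O)}) with hS
  have hKS : ∀ a : K, algebraMap K O a ∈ S := fun a =>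
    Subring.subset_closure (Or.inl (Or.inl (Or.inl ⟨a, rfl⟩)))
  have hlamS : lam ∈ S := Subring.subset_closure (Or.inl (Or.inl (Or.inr rfl)))
  have hψS : ∀ f : Ov, ψ f ∈ S := fun f => Subring.subset_closure (Or.inl (Or.inr ⟨f, rfl⟩))
  have hρS : (ρ : O) ∈ S := Subring.subset_closure (Or.inr (Or.inl rfl))
  have hρiS : ((ρ⁻¹ : Oˣ) : O) ∈ S := Subring.subset_closure (Or.inr (Or.inr rfl))
  have htS : t ∈ S := S.sub_mem hlamS (hKS c)
  have hpolyS : ∀ Q : K[X], aeval lam Q ∈ S := aeval_mem_subring S hKS lam hlamS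
  have one_nm : (1 : O) ∉ maximalIdeal O := fun h => (mem_maximalIdeal _).mp h isUnit_one
  have mul_nm : ∀ {b1 b2 : O}, b1 ∉ maximalIdeal O → b2 ∉ maximalIdeal O →
      b1 * b2 ∉ maximalIdeal O := fun h1 h2 h =>
    ((maximalIdeal.isMaximal O).isPrime.mem_or_mem h).elim h1 h2
  have const_nm : ∀ a : K, a ≠ 0 → algebraMap K O a ∉ maximalIdeal O := fun a ha h =>
    (mem_maximalIdeal _).mp h ((isUnit_iff_ne_zero.mpr ha).map (algebraMap K O))
  -- elements of the image of `ψ` are constants modulo `t`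
  have good_psi : ∀ f : Ov, ∃ a ∈ S, ∃ κ : K, ψ f - algebraMap K O κ = t * a := by
    intro f
    obtain ⟨κ, hκ⟩ := hresOv f
    rw [hs.maximalIdeal_eq] at hκ
    obtain ⟨f', hf'⟩ := Ideal.mem_span_singleton'.mp hκ
    refine ⟨ψ f' * ((ρ⁻¹ : Oˣ) : O) * t ^ (n - 1), ?_, κ, ?_⟩
    · exact S.mul_mem (S.mul_mem (hψS f') hρiS) (S.pow_mem htS _)
    · have h1 : ψ f - algebraMap K O κ = ψ f' * ψ s := by
        rw [← map_mul, hf', map_sub, AlgHom.commutes]
      have h2 : t ^ n = t * t ^ (n - 1) := by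
        rw [← pow_succ', Nat.sub_add_cancel hn]
      rw [h1, hρi, h2]
      ring
  -- the residue field has characteristic zero
  have hres_inj : Function.Injective (algebraMap K (ResidueField O)) :=
    (algebraMap K (ResidueField O)).injective
  have : CharZero (ResidueField O) := charZero_of_injective_algebraMap hres_inj
  -- the element `ρ`
  obtain ⟨ρ0, hρ0⟩ := hresO (ρ : O)
  have hρ0ne : ρ0 ≠ 0 := by
    rintro rfl
    rw [map_zero, sub_zero] at hρ0
    exact (mem_maximalIdeal _).mp hρ0 ρ.isUnit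
  obtain ⟨Au, hAuS, a0, hAu⟩ := good_psi (u : Ov)
  obtain ⟨E1, hE1⟩ := aeval_eq_add lam c E
  obtain ⟨D1, hD1⟩ := aeval_eq_add lam c D
  set G : O := ∑ i ∈ Finset.range e1, (ρ : O) ^ i * (algebraMap K O ρ0) ^ (e1 - 1 - i) with hG
  have hGmul : G * ((ρ : O) - algebraMap K O ρ0) = (ρ : O) ^ e1 - (algebraMap K O ρ0) ^ e1 :=
    geom_sum₂_mul _ _ _
  have hGS : G ∈ S :=
    Subring.sum_mem _ (fun i _ => S.mul_mem (S.pow_mem hρS _) (S.pow_mem (hKS ρ0) _))
  set B : O := Au * algebraMap K O (E.eval c) + algebraMap K O a0 * aeval lam E1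
    + t * Au * aeval lam E1 - (ρ : O) ^ e1 * aeval lam D1 with hB
  have hBS : B ∈ S := by
    refine S.sub_mem (S.add_mem (S.add_mem (S.mul_mem hAuS (hKS _)) (S.mul_mem (hKS _) (hpolyS _)))
      (S.mul_mem (S.mul_mem htS hAuS) (hpolyS _))) (S.mul_mem (S.pow_mem hρS _) (hpolyS _))
  have hmain : ((ρ : O) - algebraMap K O ρ0) * (G * algebraMap K O (D.eval c)) =
      algebraMap K O (a0 * E.eval c - ρ0 ^ e1 * D.eval c) + t * B := by
    have h1 : (uψ : O) = algebraMap K O a0 + t * Au := by
      rw [huψ]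
      linear_combination hAu
    have h := hstar
    rw [h1, hE1, hD1] at h
    simp only [hB, map_sub, map_mul, map_pow]
    linear_combination (algebraMap K O (D.eval c)) * hGmul - h
  have hγ : a0 * E.eval c - ρ0 ^ e1 * D.eval c = 0 := by
    by_contra hne
    apply const_nm _ hne
    have h3 : algebraMap K O (a0 * E.eval c - ρ0 ^ e1 * D.eval c) =
        ((ρ : O) - algebraMap K O ρ0) * (G * algebraMap K O (D.eval c)) - t * B := by
      rw [hmain]
      ring
    rw [h3]
    exact Ideal.sub_mem _ (Ideal.mul_mem_right _ _ hρ0) (Ideal.mul_mem_right _ _ hc)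
  rw [hγ, map_zero, zero_add] at hmain
  have hGnm : G ∉ maximalIdeal O := by
    intro hGm
    have h0 : residue O G = 0 := (residue_eq_zero_iff G).mpr hGm
    have hr : residue O (ρ : O) = residue O (algebraMap K O ρ0) := by
      rw [← sub_eq_zero, ← map_sub]
      exact (residue_eq_zero_iff _).mpr hρ0
    have hr0 : residue O (algebraMap K O ρ0) ≠ 0 := by
      rw [← hr]
      intro h
      exact (mem_maximalIdeal _).mp ((residue_eq_zero_iff _).mp h) ρ.isUnit
    rw [hG, map_sum] at h0
    have hterm : ∀ i ∈ Finset.range e1,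
        residue O ((ρ : O) ^ i * (algebraMap K O ρ0) ^ (e1 - 1 - i)) =
          (residue O (algebraMap K O ρ0)) ^ (e1 - 1) := by
      intro i hi
      rw [map_mul, map_pow, map_pow, hr, ← pow_add]
      congr 1
      have := Finset.mem_range.mp hi
      omega
    rw [Finset.sum_congr rfl hterm, Finset.sum_const, Finset.card_range, nsmul_eq_mul] at h0
    rcases mul_eq_zero.mp h0 with h | h
    · exact he1.ne' (Nat.cast_eq_zero.mp h)
    · exact pow_ne_zero _ hr0 h
  have hbnm : G * algebraMap K O (D.eval c) ∉ maximalIdeal O := mul_nm hGnm (const_nm _ hD)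
  have hbS : G * algebraMap K O (D.eval c) ∈ S := S.mul_mem hGS (hKS _)
  -- all elements of `S` are constants modulo `t`
  have good_all : ∀ y ∈ S, ∃ κ : K, ∃ a ∈ S, ∃ b ∈ S, b ∉ maximalIdeal O ∧
      (y - algebraMap K O κ) * b = t * a := by
    intro y hy
    induction hy using Subring.closure_induction with
    | mem y hy =>
      rcases hy with (((⟨κ0, rfl⟩ | hlam') | ⟨f, rfl⟩) | hρ')
      · exact ⟨κ0, 0, S.zero_mem, 1, S.one_mem, one_nm, by ring⟩
      · rw [Set.mem_singleton_iff] at hlam'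
        subst hlam'
        exact ⟨c, 1, S.one_mem, 1, S.one_mem, one_nm, by ring⟩
      · obtain ⟨a, haS, κ, ha⟩ := good_psi f
        exact ⟨κ, a, haS, 1, S.one_mem, one_nm, by rw [mul_one, ha]⟩
      · rcases hρ' with rfl | hρi'
        · exact ⟨ρ0, B, hBS, _, hbS, hbnm, hmain⟩
        · rw [Set.mem_singleton_iff] at hρi'
          subst hρi'
          refine ⟨ρ0⁻¹, -(B * ((ρ⁻¹ : Oˣ) : O) * algebraMap K O ρ0⁻¹), ?_, _, hbS, hbnm, ?_⟩
          · exact S.neg_mem (S.mul_mem (S.mul_mem hBS hρiS) (hKS _))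
          · have e1' : (ρ : O) * ((ρ⁻¹ : Oˣ) : O) = 1 := Units.mul_inv ρ
            have e2 : algebraMap K O ρ0 * algebraMap K O ρ0⁻¹ = 1 := by
              rw [← map_mul, mul_inv_cancel₀ hρ0ne, map_one]
            linear_combination
              (-(((ρ⁻¹ : Oˣ) : O) * algebraMap K O ρ0⁻¹)) * hmain
                + (G * algebraMap K O (D.eval c) * algebraMap K O ρ0⁻¹) * e1'
                - (G * algebraMap K O (D.eval c) * ((ρ⁻¹ : Oˣ) : O)) * e2
    | zero => exact ⟨0, 0, S.zero_mem, 1, S.one_mem, one_nm, by simp⟩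
    | one => exact ⟨1, 0, S.zero_mem, 1, S.one_mem, one_nm, by simp⟩
    | add y1 y2 h1 h2 ih1 ih2 =>
      obtain ⟨κ1, a1', ha1, b1', hb1, hb1m, e1'⟩ := ih1
      obtain ⟨κ2, a2', ha2, b2', hb2, hb2m, e2'⟩ := ih2
      refine ⟨κ1 + κ2, a1' * b2' + a2' * b1', ?_, b1' * b2', S.mul_mem hb1 hb2,
        mul_nm hb1m hb2m, ?_⟩
      · exact S.add_mem (S.mul_mem ha1 hb2) (S.mul_mem ha2 hb1)
      · rw [map_add]
        linear_combination b2' * e1' + b1' * e2'
    | neg y h ih =>
      obtain ⟨κ1, a1', ha1, b1', hb1, hb1m, e1'⟩ := ih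
      refine ⟨-κ1, -a1', S.neg_mem ha1, b1', hb1, hb1m, ?_⟩
      rw [map_neg]
      linear_combination -e1'
    | mul y1 y2 h1 h2 ih1 ih2 =>
      obtain ⟨κ1, a1', ha1, b1', hb1, hb1m, e1'⟩ := ih1
      obtain ⟨κ2, a2', ha2, b2', hb2, hb2m, e2'⟩ := ih2
      refine ⟨κ1 * κ2, a1' * b2' * y2 + algebraMap K O κ1 * a2' * b1', ?_, b1' * b2',
        S.mul_mem hb1 hb2, mul_nm hb1m hb2m, ?_⟩
      · exact S.add_mem (S.mul_mem (S.mul_mem ha1 hb2) h2) (S.mul_mem (S.mul_mem (hKS _) ha2) hb1)
      · rw [map_mul]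
        linear_combination (b2' * y2) * e1' + (algebraMap K O κ1 * b1') * e2'
  -- conclusion
  have hle : Subring.closure (Set.range (algebraMap K O) ∪ {lam} ∪ Set.range ψ) ≤ S :=
    Subring.closure_mono Set.subset_union_left
  refine irreducible_of_subring S ?_ t ht0 hc ?_
  · intro y
    obtain ⟨a, ha, b, hb, hb0, hab⟩ := hgen y
    exact ⟨a, hle ha, b, hle hb, hb0, hab⟩
  · intro y hyS hym
    obtain ⟨κ, a, haS, b, hbS', hbm, hab⟩ := good_all y hyS
    have hκ : κ = 0 := by
      by_contra hne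
      apply const_nm κ hne
      have h3 : algebraMap K O κ * b ∈ maximalIdeal O := by
        have h4 : algebraMap K O κ * b = y * b - t * a := by
          rw [← hab]
          ring
        rw [h4]
        exact Ideal.sub_mem _ (Ideal.mul_mem_right _ _ hym) (Ideal.mul_mem_right _ _ hc)
      exact ((maximalIdeal.isMaximal O).isPrime.mem_or_mem h3).resolve_right hbm
    rw [hκ, map_zero, sub_zero] at hab
    exact ⟨a, haS, b, hbS', hbm, hab⟩

end Kummer

end Fermat.Agent.S18.AbhyankarCore
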