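import Mathlib
import Fermat.Prelude.Def_AlgebraicCurve_DivisorClassGroup
import Fermat.Agent.S24.Places
import Fermat.Agent.S18.AbhyankarCore

/-!
# S18, package P4: Abhyankar's lemma for a rational base, in the `Place` currency

`ord_sub_eq_one`: let `Y = φ(F)(lam)` with `Num(lam) = φ(j) * Den(lam)`, let `w` be a place of `Y`
over the place `v` of `F`, with `lam ≡ c` at `w` and `Den(c) ≠ 0`, `j0 = Num(c)/Den(c)`.  If
`ord_v (j - j0)` divides the multiplicity of `c` as a root of `Num - j0 * Den`, then
`lam - c` is a uniformiser at `w`.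
-/

set_option autoImplicit false

namespace Fermat.Agent.S18.AbhyankarPlace

open Polynomial IsLocalRing AlgebraicCurve Fermat.Agent.S24

variable {K F Y : Type*} [Field K] [CharZero K] [Field F] [Algebra K F] [Field Y] [Algebra K Y]

omit [CharZero K] in
/-- positive order means membership in the maximal ideal -/
theorem mem_maximalIdeal_of_ord_pos (w : Place K Y) (y : w.toValuationSubring)
    (h : (y : Y) = 0 ∨ 0 < w.ord (y : Y)) : y ∈ maximalIdeal w.toValuationSubring := by
  by_cases hy : y = 0
  · rw [hy]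
    exact Ideal.zero_mem _
  · rcases h with h | h
    · exact absurd (Subtype.ext h) hy
    · exact (Places.ord_pos_iff_mem_maximalIdeal w y hy).mp h

omit [CharZero K] in
/-- positive order implies membership in the valuation ring -/
theorem mem_of_ord_pos (w : Place K Y) {y : Y} (h : 0 < w.ord y) : y ∈ w.toValuationSubring := by
  have hy : y ≠ 0 := by
    rintro rfl
    rw [w.ord_zero] at h
    exact lt_irrefl _ h
  exact (Places.ord_nonneg_iff_mem w hy).mp h.le

/-- **Abhyankar's lemma for a rational base.** -/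
theorem ord_sub_eq_one
    (φ : F →ₐ[K] Y) (w : Place K Y) (v : Place K F)
    (hv : ∀ f : F, f ∈ v.toValuationSubring ↔ φ f ∈ w.toValuationSubring)
    (hresw : ∀ y ∈ w.toValuationSubring,
      ∃ a : K, y = algebraMap K Y a ∨ 0 < w.ord (y - algebraMap K Y a))
    (hresv : ∀ f ∈ v.toValuationSubring,
      ∃ a : K, f = algebraMap K F a ∨ 0 < v.ord (f - algebraMap K F a))
    (lam : Y) (hgen : Subfield.closure (Set.range φ ∪ {lam}) = ⊤)
    (jF : F) (Num Den : K[X]) (hrel : aeval lam Num = φ jF * aeval lam Den)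
    (c : K) (hc : 0 < w.ord (lam - algebraMap K Y c)) (hden : Den.eval c ≠ 0)
    (hj : jF ≠ algebraMap K F (Num.eval c / Den.eval c))
    (hdvd : v.ord (jF - algebraMap K F (Num.eval c / Den.eval c)) ∣
      ((Num - C (Num.eval c / Den.eval c) * Den).rootMultiplicity c : ℤ)) :
    w.ord (lam - algebraMap K Y c) = 1 := by
  classical
  set j0 : K := Num.eval c / Den.eval c with hj0
  -- the two discrete valuation rings
  let O := w.toValuationSubring
  let Ov := v.toValuationSubring
  -- the map between them
  let ψr : Ov →+* O :=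
    { toFun := fun f => ⟨φ (f : F), (hv f).mp f.2⟩
      map_one' := Subtype.ext (by simp)
      map_mul' := fun a b => Subtype.ext (by simp)
      map_zero' := Subtype.ext (by simp)
      map_add' := fun a b => Subtype.ext (by simp) }
  let ψ : Ov →ₐ[K] O :=
    { ψr with
      commutes' := fun a => Subtype.ext (by
        show φ ((algebraMap K Ov a : Ov) : F) = ((algebraMap K O a : O) : Y)
        rw [Place.coe_algebraMap, Place.coe_algebraMap, AlgHom.commutes]) }
  have hψcoe : ∀ f : Ov, ((ψ f : O) : Y) = φ (f : F) := fun f => rfl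
  have hψinj : Function.Injective ψ := by
    intro a b hab
    have h := congrArg (fun z : O => (z : Y)) hab
    simp only [hψcoe] at h
    exact Subtype.ext (φ.injective h)
  -- `lam` as an element of `O`
  have htmem : lam - algebraMap K Y c ∈ w.toValuationSubring := mem_of_ord_pos w hc
  have hlam : lam ∈ w.toValuationSubring := by
    have h := add_mem htmem (w.algebraMap_mem' c)
    simpa using h
  let lamO : O := ⟨lam, hlam⟩
  have hcO : lamO - algebraMap K O c ∈ maximalIdeal O := by
    apply mem_maximalIdeal_of_ord_pos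
    right
    exact hc
  -- evaluation of polynomials
  have haeval : ∀ Q : K[X], ((aeval lamO Q : O) : Y) = aeval lam Q := by
    intro Q
    have h := Polynomial.aeval_algHom_apply (IsScalarTower.toAlgHom K O Y) lamO Q
    exact h.symm
  -- residues
  have hresO : ∀ y : O, ∃ a : K, y - algebraMap K O a ∈ maximalIdeal O := by
    intro y
    obtain ⟨a, ha⟩ := hresw (y : Y) y.2
    refine ⟨a, ?_⟩
    apply mem_maximalIdeal_of_ord_pos
    rcases ha with ha | ha
    · left
      show (y : Y) - ((algebraMap K O a : O) : Y) = 0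
      rw [Place.coe_algebraMap, ha, sub_self]
    · right
      exact ha
  have hresOv : ∀ y : Ov, ∃ a : K, y - algebraMap K Ov a ∈ maximalIdeal Ov := by
    intro y
    obtain ⟨a, ha⟩ := hresv (y : F) y.2
    refine ⟨a, ?_⟩
    apply mem_maximalIdeal_of_ord_pos
    rcases ha with ha | ha
    · left
      show (y : F) - ((algebraMap K Ov a : Ov) : F) = 0
      rw [Place.coe_algebraMap, ha, sub_self]
    · right
      exact ha
  -- the polynomial `P = Num - j0 * Den`
  set P : K[X] := Num - C j0 * Den with hP
  have hDenU : IsUnit (aeval lamO Den) := AbhyankarCore.isUnit_aeval lamO c hcO Den hden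
  have hDen0 : aeval lam Den ≠ 0 := by
    rw [← haeval]
    intro h
    exact hDenU.ne_zero (Subtype.ext h)
  have hPval : aeval lam P = φ (jF - algebraMap K F j0) * aeval lam Den := by
    rw [hP, map_sub, map_mul, aeval_C, hrel, map_sub, AlgHom.commutes]
    ring
  have hjsub : jF - algebraMap K F j0 ≠ 0 := sub_ne_zero.mpr hj
  have hP0 : P ≠ 0 := by
    intro h0
    rw [h0, map_zero] at hPval
    rcases mul_eq_zero.mp hPval.symm with h | h
    · exact hjsub ((map_eq_zero φ).mp h)
    · exact hDen0 h
  have hProot : P.IsRoot c := by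
    rw [IsRoot, hP, eval_sub, eval_mul, eval_C, hj0]
    field_simp
    ring
  set m : ℕ := P.rootMultiplicity c with hmdef
  have hmpos : 0 < m := (rootMultiplicity_pos hP0).mpr hProot
  obtain ⟨D, hPD, hDdvd⟩ := exists_eq_pow_rootMultiplicity_mul_and_not_dvd P hP0 c
  have hDc : D.eval c ≠ 0 := fun h => hDdvd (dvd_iff_isRoot.mpr h)
  -- `x = jF - j0` as an element of `Ov`
  have hrelY : φ (jF - algebraMap K F j0) * aeval lam Den =
      (lam - algebraMap K Y c) ^ m * aeval lam D := by
    rw [← hPval, hPD, map_mul, map_pow, map_sub, aeval_X, aeval_C]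
  obtain ⟨uDen, huDen⟩ := hDenU
  have hxmem : φ (jF - algebraMap K F j0) ∈ w.toValuationSubring := by
    have h1 : φ (jF - algebraMap K F j0) =
        (((lamO - algebraMap K O c) ^ m * aeval lamO D * ((uDen⁻¹ : Oˣ) : O) : O) : Y) := by
      have h2 : ((((uDen⁻¹ : Oˣ) : O) : Y)) * aeval lam Den = 1 := by
        rw [← haeval, ← huDen]
        exact congrArg Subtype.val (Units.inv_mul uDen)
      have h4 : (((lamO - algebraMap K O c) ^ m * aeval lamO D * ((uDen⁻¹ : Oˣ) : O) : O) : Y)
          = (lam - algebraMap K Y c) ^ m * aeval lam D * (((uDen⁻¹ : Oˣ) : O) : Y) := by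
        rw [← haeval]
        rfl
      rw [h4, ← hrelY]
      rw [mul_assoc, mul_comm (aeval lam Den), h2, mul_one]
    rw [h1]
    exact Subtype.mem _
  let x : Ov := ⟨jF - algebraMap K F j0, (hv _).mpr hxmem⟩
  have hx0 : x ≠ 0 := fun h => hjsub (congrArg Subtype.val h)
  have hrelO : ψ x * aeval lamO Den = (lamO - algebraMap K O c) ^ m * aeval lamO D := by
    apply Subtype.ext
    show φ (jF - algebraMap K F j0) * ((aeval lamO Den : O) : Y) =
      (((lamO - algebraMap K O c) ^ m * aeval lamO D : O) : Y)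
    rw [haeval, hrelY, ← haeval D]
    rfl
  -- uniformiser of `Ov`
  obtain ⟨s, hs⟩ := IsDiscreteValuationRing.exists_irreducible Ov
  obtain ⟨e1, u, hxs⟩ := IsDiscreteValuationRing.eq_unit_mul_pow_irreducible hx0 hs
  have hord : v.ord (jF - algebraMap K F j0) = e1 := by
    have h := v.ord_unit_smul_zpow u hs (e1 : ℤ)
    rw [zpow_natCast] at h
    rw [← h]
    congr 1
    exact congrArg Subtype.val hxs
  rw [hord] at hdvd
  have hdvd' : e1 ∣ m := Int.natCast_dvd_natCast.mp hdvd
  obtain ⟨n, hn⟩ := hdvd'
  have he1 : 0 < e1 := by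
    rcases Nat.eq_zero_or_pos e1 with h | h
    · exfalso
      rw [h, pow_zero, mul_one] at hxs
      have hunit : IsUnit (ψ x) := by
        rw [hxs]
        exact u.isUnit.map ψ
      have h1 : ψ x * aeval lamO Den ∈ maximalIdeal O := by
        rw [hrelO]
        exact Ideal.mul_mem_right _ _ (Ideal.pow_mem_of_mem _ hcO m hmpos)
      rw [← huDen] at h1
      exact (mem_maximalIdeal _).mp h1 (hunit.mul uDen.isUnit)
    · exact h
  have hnpos : 0 < n := by
    rcases Nat.eq_zero_or_pos n with h | h
    · rw [h, mul_zero] at hn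
      omega
    · exact h
  -- generation
  have hgenO : ∀ y : O,
      ∃ a ∈ Subring.closure (Set.range (algebraMap K O) ∪ {lamO} ∪ Set.range ψ),
      ∃ b ∈ Subring.closure (Set.range (algebraMap K O) ∪ {lamO} ∪ Set.range ψ),
        b ≠ 0 ∧ y * b = a := by
    set S0 : Subring O :=
      Subring.closure (Set.range (algebraMap K O) ∪ {lamO} ∪ Set.range ψ) with hS0
    have hψS0 : ∀ f : Ov, ψ f ∈ S0 := fun f => Subring.subset_closure (Or.inr ⟨f, rfl⟩)
    have hlamS0 : lamO ∈ S0 := Subring.subset_closure (Or.inl (Or.inr rfl))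
    have hall : ∀ y : Y, ∃ a ∈ S0, ∃ b ∈ S0, b ≠ 0 ∧ y * (b : Y) = (a : Y) := by
      intro y
      have hy : y ∈ Subfield.closure (Set.range φ ∪ {lam}) := by
        rw [hgen]
        trivial
      induction hy using Subfield.closure_induction with
      | mem y hy =>
        rcases hy with ⟨f, rfl⟩ | hy
        · by_cases hf : f ∈ v.toValuationSubring
          · exact ⟨ψ ⟨f, hf⟩, hψS0 _, 1, S0.one_mem, one_ne_zero, by simp [hψcoe]⟩
          · have hf0 : f ≠ 0 := by
              rintro rfl
              exact hf (zero_mem _)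
            have hfi : f⁻¹ ∈ v.toValuationSubring :=
              (v.toValuationSubring.mem_or_inv_mem f).resolve_left hf
            refine ⟨1, S0.one_mem, ψ ⟨f⁻¹, hfi⟩, hψS0 _, ?_, ?_⟩
            · intro h
              have h' := congrArg (fun z : O => (z : Y)) h
              simp only [hψcoe] at h'
              have : f⁻¹ = 0 := (map_eq_zero φ).mp h'
              exact hf0 (inv_eq_zero.mp this)
            · rw [hψcoe]
              show φ f * φ f⁻¹ = ((1 : O) : Y)
              rw [← map_mul, mul_inv_cancel₀ hf0, map_one]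
              rfl
        · rw [Set.mem_singleton_iff] at hy
          subst hy
          exact ⟨lamO, hlamS0, 1, S0.one_mem, one_ne_zero, by simp [lamO]⟩
      | one => exact ⟨1, S0.one_mem, 1, S0.one_mem, one_ne_zero, by simp⟩
      | add y1 y2 _ _ ih1 ih2 =>
        obtain ⟨a1, ha1, b1, hb1, hb10, e1'⟩ := ih1
        obtain ⟨a2, ha2, b2, hb2, hb20, e2'⟩ := ih2
        refine ⟨a1 * b2 + a2 * b1, S0.add_mem (S0.mul_mem ha1 hb2) (S0.mul_mem ha2 hb1),
          b1 * b2, S0.mul_mem hb1 hb2, mul_ne_zero hb10 hb20, ?_⟩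
        push_cast
        linear_combination (b2 : Y) * e1' + (b1 : Y) * e2'
      | neg y _ ih =>
        obtain ⟨a1, ha1, b1, hb1, hb10, e1'⟩ := ih
        refine ⟨-a1, S0.neg_mem ha1, b1, hb1, hb10, ?_⟩
        push_cast
        linear_combination -e1'
      | inv y _ ih =>
        obtain ⟨a1, ha1, b1, hb1, hb10, e1'⟩ := ih
        by_cases ha0 : a1 = 0
        · have hy0 : y = 0 := by
            rw [ha0] at e1'
            have hb : (b1 : Y) ≠ 0 := fun h => hb10 (Subtype.ext h)
            simpa [hb] using e1'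
          rw [hy0, inv_zero]
          exact ⟨0, S0.zero_mem, 1, S0.one_mem, one_ne_zero, by simp⟩
        · refine ⟨b1, hb1, a1, ha1, ha0, ?_⟩
          have hb : (b1 : Y) ≠ 0 := fun h => hb10 (Subtype.ext h)
          have hy0 : y ≠ 0 := by
            rintro rfl
            rw [zero_mul] at e1'
            exact ha0 (Subtype.ext e1'.symm)
          rw [← e1']
          field_simp
      | mul y1 y2 _ _ ih1 ih2 =>
        obtain ⟨a1, ha1, b1, hb1, hb10, e1'⟩ := ih1
        obtain ⟨a2, ha2, b2, hb2, hb20, e2'⟩ := ih2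
        refine ⟨a1 * a2, S0.mul_mem ha1 ha2, b1 * b2, S0.mul_mem hb1 hb2,
          mul_ne_zero hb10 hb20, ?_⟩
        push_cast
        linear_combination (y2 * (b2 : Y)) * e1' + (a1 : Y) * e2'
    intro y
    obtain ⟨a, ha, b, hb, hb0, hab⟩ := hall (y : Y)
    exact ⟨a, ha, b, hb, hb0, Subtype.ext hab⟩
  have hirr := AbhyankarCore.irreducible_sub_of_kummer ψ hresO hresOv lamO c hcO hgenO x
    (fun h => hx0 (hψinj (by rw [h, map_zero]))) D Den hDc hden m hrelO s hs u e1 n hxs hn he1 hnpos
  have h := w.ord_coe_irreducible hirr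
  exact h

omit [CharZero K] in
/-- the root multiplicity of a power -/
theorem dvd_rootMultiplicity_pow (a : K) (Q : K[X]) (k : ℕ) (c : K) (h0 : C a * Q ^ k ≠ 0) :
    k ∣ (C a * Q ^ k).rootMultiplicity c := by
  have ha : a ≠ 0 := by
    rintro rfl
    simp at h0
  by_cases hQ : Q = 0
  · rcases Nat.eq_zero_or_pos k with hk | hk
    · rw [hk]
      simp [rootMultiplicity_C]
    · exfalso
      apply h0
      rw [hQ, zero_pow hk.ne', mul_zero]
  · have h1 : ∀ i : ℕ, (C a * Q ^ i).rootMultiplicity c = i * Q.rootMultiplicity c := by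
      intro i
      induction i with
      | zero => simp [rootMultiplicity_C]
      | succ i ihi =>
        have hne : C a * Q ^ i * Q ≠ 0 :=
          mul_ne_zero (mul_ne_zero (C_ne_zero.mpr ha) (pow_ne_zero _ hQ)) hQ
        rw [pow_succ, ← mul_assoc, rootMultiplicity_mul hne, ihi]
        ring
    rw [h1]
    exact dvd_mul_right _ _

/-- **Abhyankar, special value form**: if `Num - j0 * Den = a * Q ^ k` and `ord_v (j - j0) ∣ k`,
then `lam - c` is a uniformiser at `w`. -/
theorem ord_sub_eq_one_of_pow
    (φ : F →ₐ[K] Y) (w : Place K Y) (v : Place K F)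
    (hv : ∀ f : F, f ∈ v.toValuationSubring ↔ φ f ∈ w.toValuationSubring)
    (hresw : ∀ y ∈ w.toValuationSubring,
      ∃ a : K, y = algebraMap K Y a ∨ 0 < w.ord (y - algebraMap K Y a))
    (hresv : ∀ f ∈ v.toValuationSubring,
      ∃ a : K, f = algebraMap K F a ∨ 0 < v.ord (f - algebraMap K F a))
    (lam : Y) (hgen : Subfield.closure (Set.range φ ∪ {lam}) = ⊤)
    (jF : F) (Num Den : K[X]) (hrel : aeval lam Num = φ jF * aeval lam Den)
    (c : K) (hc : 0 < w.ord (lam - algebraMap K Y c)) (hden : Den.eval c ≠ 0)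
    (hj : jF ≠ algebraMap K F (Num.eval c / Den.eval c))
    (a : K) (Q : K[X]) (k : ℕ)
    (hpow : Num - C (Num.eval c / Den.eval c) * Den = C a * Q ^ k)
    (hdvd : v.ord (jF - algebraMap K F (Num.eval c / Den.eval c)) ∣ (k : ℤ)) :
    w.ord (lam - algebraMap K Y c) = 1 := by
  refine ord_sub_eq_one φ w v hv hresw hresv lam hgen jF Num Den hrel c hc hden hj ?_
  refine hdvd.trans (Int.natCast_dvd_natCast.mpr ?_)
  rw [hpow]
  apply dvd_rootMultiplicity_pow
  rw [← hpow]
  -- `Num - j0 * Den ≠ 0` because `jF` is not the constant `j0`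
  intro h0
  have hlamO : lam ∈ w.toValuationSubring := by
    have h := add_mem (mem_of_ord_pos w hc) (w.algebraMap_mem' c)
    simpa using h
  have hcO : (⟨lam, hlamO⟩ : w.toValuationSubring) - algebraMap K w.toValuationSubring c ∈
      maximalIdeal w.toValuationSubring := by
    apply mem_maximalIdeal_of_ord_pos
    right
    exact hc
  have hU := AbhyankarCore.isUnit_aeval (⟨lam, hlamO⟩ : w.toValuationSubring) c hcO Den hden
  have hcoe : ((aeval (⟨lam, hlamO⟩ : w.toValuationSubring) Den : w.toValuationSubring) : Y) =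
      aeval lam Den :=
    (Polynomial.aeval_algHom_apply (IsScalarTower.toAlgHom K w.toValuationSubring Y)
      (⟨lam, hlamO⟩ : w.toValuationSubring) Den).symm
  have hDen0 : aeval lam Den ≠ 0 := by
    rw [← hcoe]
    intro h
    exact hU.ne_zero (Subtype.ext h)
  have h1 := congrArg (aeval lam) h0
  rw [map_sub, map_mul, aeval_C, hrel, map_zero] at h1
  have h2 : (φ jF - algebraMap K Y (Num.eval c / Den.eval c)) * aeval lam Den = 0 := by
    linear_combination h1
  rcases mul_eq_zero.mp h2 with h | h
  · apply hj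
    have h3 : φ jF = φ (algebraMap K F (Num.eval c / Den.eval c)) := by
      rw [AlgHom.commutes]
      exact sub_eq_zero.mp h
    exact φ.injective h3
  · exact hDen0 h

/-- **Abhyankar, unramified base form**: if `ord_v (j - j0) = 1`, then `lam - c` is a
uniformiser at `w` (compositum with an unramified place). -/
theorem ord_sub_eq_one_of_ord_eq_one
    (φ : F →ₐ[K] Y) (w : Place K Y) (v : Place K F)
    (hv : ∀ f : F, f ∈ v.toValuationSubring ↔ φ f ∈ w.toValuationSubring)
    (hresw : ∀ y ∈ w.toValuationSubring,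
      ∃ a : K, y = algebraMap K Y a ∨ 0 < w.ord (y - algebraMap K Y a))
    (hresv : ∀ f ∈ v.toValuationSubring,
      ∃ a : K, f = algebraMap K F a ∨ 0 < v.ord (f - algebraMap K F a))
    (lam : Y) (hgen : Subfield.closure (Set.range φ ∪ {lam}) = ⊤)
    (jF : F) (Num Den : K[X]) (hrel : aeval lam Num = φ jF * aeval lam Den)
    (c : K) (hc : 0 < w.ord (lam - algebraMap K Y c)) (hden : Den.eval c ≠ 0)
    (hj : jF ≠ algebraMap K F (Num.eval c / Den.eval c))
    (h1 : v.ord (jF - algebraMap K F (Num.eval c / Den.eval c)) = 1) :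
    w.ord (lam - algebraMap K Y c) = 1 := by
  refine ord_sub_eq_one φ w v hv hresw hresv lam hgen jF Num Den hrel c hc hden hj ?_
  rw [h1]
  exact one_dvd _

end Fermat.Agent.S18.AbhyankarPlace
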