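import Mathlib
import Fermat.Prelude.Def_FLTPrelim_Ramification
import Fermat.Agent.S13.ValQbar

set_option autoImplicit false

/-!
# S18, package P0 (support library): the base DVR

`A` is a valuation subring of `Qbar = AlgebraicClosure ℚ` lying over a prime `ℓ`.

* `residueField_isAlgClosed`: the residue field of `A` is algebraically closed.
* `exists_isUnif`: the restriction of `A` to a number field has a uniformiser.
* `core_unramified`, `ord_adjoin_root`: adjoining a root of unity of order prime to `ℓ`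
  does not change the value group.
* `exists_isUnif_baseField`: the field generated by a finite set and all roots of unity of
  order prime to `ℓ` has a uniformiser.
* `isDiscreteValuationRing_of_isUnif`: hence the restriction of `A` to it is a DVR.
* `exists_restr_sub_mem_nonunits`: and its residue field is the residue field of `A`.
-/

namespace Fermat.Agent.S18.BaseDVRCore

open Fermat.Agent.S05 Fermat.Agent.S13 Polynomial

/-- The residue field of a valuation subring of an algebraically closed field is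
algebraically closed. -/
theorem residueField_isAlgClosed {K : Type*} [Field K] [IsAlgClosed K] (A : ValuationSubring K) :
    IsAlgClosed (IsLocalRing.ResidueField A) := by
  refine IsAlgClosed.of_exists_root _ fun p hp hirr => ?_
  have hlift : p ∈ Polynomial.lifts (IsLocalRing.residue A) :=
    (Polynomial.mem_lifts _).mpr (Polynomial.map_surjective _ IsLocalRing.residue_surjective p)
  obtain ⟨P, hPmap, hPdeg, hPmon⟩ := Polynomial.lifts_and_natDegree_eq_and_monic hlift hp
  have hdeg : (P.map (algebraMap A K)).degree ≠ 0 := by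
    have h1 : (P.map (algebraMap A K)).natDegree ≠ 0 := by
      rw [hPmon.natDegree_map, hPdeg]
      exact (Polynomial.natDegree_pos_iff_degree_pos.mpr
        (Polynomial.degree_pos_of_irreducible hirr)).ne'
    exact_mod_cast Polynomial.degree_ne_of_natDegree_ne h1
  obtain ⟨x, hx⟩ := IsAlgClosed.exists_root (P.map (algebraMap A K)) hdeg
  have hint : IsIntegral A x := ⟨P, hPmon, by rwa [Polynomial.IsRoot.def, Polynomial.eval_map] at hx⟩
  obtain ⟨y, rfl⟩ := IsIntegrallyClosed.isIntegral_iff.mp hint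
  refine ⟨IsLocalRing.residue A y, ?_⟩
  rw [← hPmap, Polynomial.eval_map, Polynomial.eval₂_at_apply]
  have h0 : P.eval y = 0 := by
    rw [Polynomial.IsRoot.def, Polynomial.eval_map, Polynomial.eval₂_at_apply] at hx
    exact (FaithfulSMul.algebraMap_injective A K) (by rw [hx, map_zero])
  rw [h0, map_zero]

/-- Abstract core of "adjoining a root of unity of order prime to the residue characteristic is
unramified": if `V → A` is a local homomorphism of local rings, the maximal ideal of `V` is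
generated by `π`, `ζ ∈ A` is an `n`-th root of unity with `n ∈ Aˣ`, then every element `B(ζ)` of
`V[ζ]` lying in the maximal ideal of `A` is, up to a unit `E(ζ)` of `A` lying in `V[ζ]`, a
multiple of `π` inside `V[ζ]`. -/
theorem core_unramified {V A : Type*} [CommRing V] [IsLocalRing V] [CommRing A] [IsLocalRing A]
    (φ : V →+* A) [IsLocalHom φ] (π : V)
    (hπ : ∀ y : V, y ∈ IsLocalRing.maximalIdeal V → π ∣ y)
    (ζ : A) (n : ℕ) (hζ : ζ ^ n = 1) (hn : IsUnit (n : A)) (B : V[X])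
    (hB : B.eval₂ φ ζ ∈ IsLocalRing.maximalIdeal A) :
    ∃ E R : V[X], IsUnit (E.eval₂ φ ζ) ∧ B.eval₂ φ ζ * E.eval₂ φ ζ = φ π * R.eval₂ φ ζ := by
  classical
  have hψ : ∀ y : V, IsLocalRing.ResidueField.map φ (IsLocalRing.residue V y) =
      IsLocalRing.residue A (φ y) := fun y => IsLocalRing.ResidueField.map_residue φ y
  have hev : ∀ P : V[X], IsLocalRing.residue A (P.eval₂ φ ζ) =
      (P.map (IsLocalRing.residue V)).eval₂ (IsLocalRing.ResidueField.map φ)
        (IsLocalRing.residue A ζ) := by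
    intro P
    rw [Polynomial.eval₂_map, Polynomial.hom_eval₂]
    congr 1
  have hn0 : n ≠ 0 := by
    rintro rfl
    rw [Nat.cast_zero] at hn
    exact not_isUnit_zero hn
  have hζ' : (IsLocalRing.residue A ζ) ^ n = 1 := by rw [← map_pow, hζ, map_one]
  have hζ0 : IsLocalRing.residue A ζ ≠ 0 := by
    intro h0
    rw [h0, zero_pow hn0] at hζ'
    exact zero_ne_one hζ'
  obtain ⟨c, hc⟩ : EuclideanDomain.gcd (B.map (IsLocalRing.residue V))
      (X ^ n - 1 : (IsLocalRing.ResidueField V)[X]) ∣ B.map (IsLocalRing.residue V) :=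
    EuclideanDomain.gcd_dvd_left _ _
  obtain ⟨e, he⟩ : EuclideanDomain.gcd (B.map (IsLocalRing.residue V))
      (X ^ n - 1 : (IsLocalRing.ResidueField V)[X]) ∣ (X ^ n - 1) :=
    EuclideanDomain.gcd_dvd_right _ _
  have hbez := EuclideanDomain.gcd_eq_gcd_ab (B.map (IsLocalRing.residue V))
      (X ^ n - 1 : (IsLocalRing.ResidueField V)[X])
  set d := EuclideanDomain.gcd (B.map (IsLocalRing.residue V))
      (X ^ n - 1 : (IsLocalRing.ResidueField V)[X]) with hd
  obtain ⟨C', hC'⟩ := Polynomial.map_surjective (IsLocalRing.residue V)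
    IsLocalRing.residue_surjective c
  obtain ⟨E, hE⟩ := Polynomial.map_surjective (IsLocalRing.residue V)
    IsLocalRing.residue_surjective e
  have hP : (B * E - C' * (X ^ n - 1)).map (IsLocalRing.residue V) = 0 := by
    rw [Polynomial.map_sub, Polynomial.map_mul, Polynomial.map_mul, Polynomial.map_sub,
      Polynomial.map_pow, Polynomial.map_X, Polynomial.map_one, hC', hE]
    rw [he]
    nth_rewrite 1 [hc]
    ring
  have hdiv : Polynomial.C π ∣ B * E - C' * (X ^ n - 1) := by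
    rw [Polynomial.C_dvd_iff_dvd_coeff]
    intro i
    apply hπ
    have := congrArg (fun p => p.coeff i) hP
    simp only [Polynomial.coeff_map, Polynomial.coeff_zero] at this
    exact (IsLocalRing.residue_eq_zero_iff _).mp this
  obtain ⟨R, hR⟩ := hdiv
  refine ⟨E, R, ?_, ?_⟩
  · by_contra hnu
    have hEm : E.eval₂ φ ζ ∈ IsLocalRing.maximalIdeal A := hnu
    have he0 : e.eval₂ (IsLocalRing.ResidueField.map φ) (IsLocalRing.residue A ζ) = 0 := by
      rw [← hE, ← hev]
      exact (IsLocalRing.residue_eq_zero_iff _).mpr hEm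
    have hb0 : (B.map (IsLocalRing.residue V)).eval₂ (IsLocalRing.ResidueField.map φ)
        (IsLocalRing.residue A ζ) = 0 := by
      rw [← hev]
      exact (IsLocalRing.residue_eq_zero_iff _).mpr hB
    have hT0 : (X ^ n - 1 : (IsLocalRing.ResidueField V)[X]).eval₂
        (IsLocalRing.ResidueField.map φ) (IsLocalRing.residue A ζ) = 0 := by
      rw [Polynomial.eval₂_sub, Polynomial.eval₂_pow, Polynomial.eval₂_X, Polynomial.eval₂_one,
        hζ', sub_self]
    have hd0 : d.eval₂ (IsLocalRing.ResidueField.map φ) (IsLocalRing.residue A ζ) = 0 := by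
      rw [hbez, Polynomial.eval₂_add, Polynomial.eval₂_mul, Polynomial.eval₂_mul, hb0, hT0,
        zero_mul, zero_mul, add_zero]
    have hder : (Polynomial.derivative (X ^ n - 1 : (IsLocalRing.ResidueField V)[X])).eval₂
        (IsLocalRing.ResidueField.map φ) (IsLocalRing.residue A ζ) = 0 := by
      rw [he, Polynomial.derivative_mul, Polynomial.eval₂_add, Polynomial.eval₂_mul,
        Polynomial.eval₂_mul, he0, hd0, mul_zero, zero_mul, add_zero]
    rw [Polynomial.derivative_sub, Polynomial.derivative_one, sub_zero,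
      Polynomial.derivative_X_pow, Polynomial.eval₂_mul, Polynomial.eval₂_pow,
      Polynomial.eval₂_X, Polynomial.eval₂_C, map_natCast] at hder
    have hnk : ((n : ℕ) : IsLocalRing.ResidueField A) ≠ 0 := by
      have h1 : IsUnit (IsLocalRing.residue A (n : A)) := hn.map _
      rw [map_natCast] at h1
      exact h1.ne_zero
    exact (mul_ne_zero hnk (pow_ne_zero _ hζ0)) hder
  · have := congrArg (Polynomial.eval₂ φ ζ) hR
    simp only [Polynomial.eval₂_sub, Polynomial.eval₂_mul, Polynomial.eval₂_pow,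
      Polynomial.eval₂_X, Polynomial.eval₂_one, Polynomial.eval₂_C, hζ, sub_self, mul_zero,
      sub_zero] at this
    exact this

section QbarSec

variable (A : ValuationSubring (AlgebraicClosure ℚ)) {ℓ : ℕ}

/-- The order of every nonzero algebraic number is commensurable with `ord ℓ`. -/
lemma exists_zsmul_ord (hℓ : ℓ.Prime) (hA : A.LiesOverPrime ℓ) (x : AlgebraicClosure ℚ)
    (hx : x ≠ 0) (f : Polynomial ℚ) (hf : f ≠ 0) (hfx : Polynomial.aeval x f = 0) :
    ∃ n : ℕ, 1 ≤ n ∧ n ≤ f.natDegree ∧ ∃ m : ℤ,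
      (n : ℤ) • (ordOfSubring A).ord x = m • (ordOfSubring A).ord (ℓ : AlgebraicClosure ℚ) := by
  obtain ⟨n, hn1, hn2, m, hm⟩ := Fermat.Agent.S13.exists_nsmul_ord_eq A ℓ hℓ hA x hx f hf hfx
  exact ⟨n, hn1, hn2, m, by rw [natCast_zsmul]; exact hm⟩

lemma exists_zsmul_ord' (hℓ : ℓ.Prime) (hA : A.LiesOverPrime ℓ) (x : AlgebraicClosure ℚ)
    (hx : x ≠ 0) :
    ∃ n : ℕ, 1 ≤ n ∧ ∃ m : ℤ,
      (n : ℤ) • (ordOfSubring A).ord x = m • (ordOfSubring A).ord (ℓ : AlgebraicClosure ℚ) := by
  obtain ⟨f, hf, hfx⟩ := (AlgebraicClosure.isAlgebraic ℚ).isAlgebraic x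
  obtain ⟨n, hn1, -, m, hm⟩ := exists_zsmul_ord A hℓ hA x hx f hf hfx
  exact ⟨n, hn1, m, hm⟩

/-- Archimedean property of the value group of `A` on `Qbar`. -/
lemma exists_ord_lt_nsmul (hℓ : ℓ.Prime) (hA : A.LiesOverPrime ℓ) (x π : AlgebraicClosure ℚ)
    (hx : x ≠ 0) (hπ : π ≠ 0) (hπpos : 0 < (ordOfSubring A).ord π) :
    ∃ k : ℕ, (ordOfSubring A).ord x < (k : ℤ) • (ordOfSubring A).ord π := by
  obtain ⟨n, hn1, m, hm⟩ := exists_zsmul_ord' A hℓ hA x hx
  obtain ⟨n', hn1', m', hm'⟩ := exists_zsmul_ord' A hℓ hA π hπ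
  have hℓpos := (Fermat.Agent.S13.ord_prime_pos A ℓ hℓ hA).2
  set g := (ordOfSubring A).ord (ℓ : AlgebraicClosure ℚ) with hg
  set a := (ordOfSubring A).ord x with ha
  set b := (ordOfSubring A).ord π with hb
  have hn0 : (0 : ℤ) < n := by exact_mod_cast hn1
  have hn0' : (0 : ℤ) < n' := by exact_mod_cast hn1'
  have hm'pos : 0 < m' := by
    have h1 : (n' : ℤ) • (0 : Additive (A.ValueGroup)ˣ) < (n' : ℤ) • b :=
      (zsmul_lt_zsmul_iff_right hn0').mpr hπpos
    rw [smul_zero, hm', ← zero_smul ℤ g] at h1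
    exact (zsmul_lt_zsmul_iff_left hℓpos).mp h1
  refine ⟨(n' * m).toNat + 1, ?_⟩
  have hN : (0 : ℤ) < n * n' := mul_pos hn0 hn0'
  rw [← zsmul_lt_zsmul_iff_right hN]
  have e1 : ((n : ℤ) * n') • a = (n' * m) • g := by
    rw [mul_comm, mul_smul, hm, ← mul_smul]
  have e2 : ((n : ℤ) * n') • ((((n' * m).toNat + 1 : ℕ) : ℤ) • b) =
      (n * (((n' * m).toNat + 1 : ℕ) : ℤ) * m') • g := by
    rw [← mul_smul, show (n : ℤ) * n' * (((n' * m).toNat + 1 : ℕ) : ℤ) =
      n * (((n' * m).toNat + 1 : ℕ) : ℤ) * n' by ring, mul_smul, hm', ← mul_smul]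
  rw [e1, e2, zsmul_lt_zsmul_iff_left hℓpos]
  have h4 : (n' : ℤ) * m < (((n' * m).toNat + 1 : ℕ) : ℤ) := by
    push_cast
    have := Int.self_le_toNat ((n' : ℤ) * m)
    omega
  have hk : (0 : ℤ) ≤ (((n' * m).toNat + 1 : ℕ) : ℤ) := by positivity
  have h5 : (((n' * m).toNat + 1 : ℕ) : ℤ) ≤ (n : ℤ) * (((n' * m).toNat + 1 : ℕ) : ℤ) * m' := by
    have hn : (1 : ℤ) ≤ n := by exact_mod_cast hn1
    nlinarith [mul_nonneg hk (sub_nonneg.mpr hn), mul_nonneg (mul_nonneg (Int.natCast_nonneg n) hk)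
      (sub_nonneg.mpr (Int.add_one_le_iff.mpr hm'pos))]
  omega

/-- `IsUnif A K π`: `π ∈ K` has positive order and the orders of the nonzero elements of `K`
are the integer multiples of `ord π`. -/
def IsUnif (K : Set (AlgebraicClosure ℚ)) (π : AlgebraicClosure ℚ) : Prop :=
  π ∈ K ∧ π ≠ 0 ∧ 0 < (ordOfSubring A).ord π ∧
    ∀ x ∈ K, x ≠ 0 → ∃ a : ℤ, (ordOfSubring A).ord x = a • (ordOfSubring A).ord π

/-- Step 1: a number field inside `Qbar` has a uniformiser for the restriction of `A`. -/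
theorem exists_isUnif (hℓ : ℓ.Prime) (hA : A.LiesOverPrime ℓ)
    (K : IntermediateField ℚ (AlgebraicClosure ℚ)) [FiniteDimensional ℚ K] :
    ∃ π, IsUnif A (K : Set (AlgebraicClosure ℚ)) π := by
  classical
  have hℓpos := (Fermat.Agent.S13.ord_prime_pos A ℓ hℓ hA).2
  have hℓ0 := (Fermat.Agent.S13.ord_prime_pos A ℓ hℓ hA).1
  set g := (ordOfSubring A).ord (ℓ : AlgebraicClosure ℚ) with hg
  set M : ℕ := (Module.finrank ℚ K).factorial with hM
  have hMpos : (0 : ℤ) < M := by exact_mod_cast Nat.factorial_pos _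
  -- every order is `M`-commensurable with `g`
  have key : ∀ x ∈ K, x ≠ 0 → ∃ m : ℤ, (M : ℤ) • (ordOfSubring A).ord x = m • g := by
    intro x hxK hx
    have hint : IsIntegral ℚ (⟨x, hxK⟩ : K) := IsIntegral.of_finite ℚ _
    have hf0 : minpoly ℚ (⟨x, hxK⟩ : K) ≠ 0 := minpoly.ne_zero hint
    have hfx : Polynomial.aeval x (minpoly ℚ (⟨x, hxK⟩ : K)) = 0 := by
      have h1 := minpoly.aeval ℚ (⟨x, hxK⟩ : K)
      have h2 := Polynomial.aeval_algHom_apply K.val (⟨x, hxK⟩ : K) (minpoly ℚ (⟨x, hxK⟩ : K))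
      rw [h1, map_zero] at h2
      exact h2
    obtain ⟨n, hn1, hn2, m, hm⟩ := exists_zsmul_ord A hℓ hA x hx _ hf0 hfx
    have hn3 : n ≤ Module.finrank ℚ K := hn2.trans (minpoly.natDegree_le _)
    obtain ⟨c, hc⟩ : n ∣ M := Nat.dvd_factorial (by omega) hn3
    refine ⟨c * m, ?_⟩
    rw [hc, Nat.cast_mul, mul_comm, mul_smul, hm, ← mul_smul]
  -- minimal positive value
  have hex : ∃ m : ℕ, 0 < m ∧ ∃ x ∈ K, x ≠ 0 ∧ (M : ℤ) • (ordOfSubring A).ord x = (m : ℤ) • g :=
    ⟨M, Nat.factorial_pos _, (ℓ : AlgebraicClosure ℚ), natCast_mem K ℓ, hℓ0, rfl⟩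
  obtain ⟨hg0, π, hπK, hπ0, hπ⟩ := Nat.find_spec hex
  set g₀ := Nat.find hex with hg₀
  have hmin : ∀ m : ℕ, m < g₀ → ¬ (0 < m ∧ ∃ x ∈ K, x ≠ 0 ∧
      (M : ℤ) • (ordOfSubring A).ord x = (m : ℤ) • g) := fun m hm => Nat.find_min hex hm
  have hg0' : (0 : ℤ) < g₀ := by exact_mod_cast hg0
  have hπpos : 0 < (ordOfSubring A).ord π := by
    rw [← zsmul_lt_zsmul_iff_right hMpos, smul_zero, hπ, ← zero_smul ℤ g,
      zsmul_lt_zsmul_iff_left hℓpos]
    exact hg0'
  refine ⟨π, hπK, hπ0, hπpos, fun x hxK hx => ?_⟩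
  obtain ⟨m, hm⟩ := key x hxK hx
  refine ⟨m / g₀, ?_⟩
  have hy0 : x / π ^ (m / (g₀ : ℤ)) ≠ 0 := div_ne_zero hx (zpow_ne_zero _ hπ0)
  have hyK : x / π ^ (m / (g₀ : ℤ)) ∈ K := div_mem hxK (zpow_mem hπK _)
  have hy : (M : ℤ) • (ordOfSubring A).ord (x / π ^ (m / (g₀ : ℤ))) = (m % (g₀ : ℤ)) • g := by
    rw [(ordOfSubring A).ord_div hx (zpow_ne_zero _ hπ0), (ordOfSubring A).ord_zpow hπ0,
      smul_sub, hm, smul_comm, hπ, ← mul_smul, ← sub_smul]
    congr 1
    have := Int.emod_add_mul_ediv m g₀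
    linarith
  have hr0 : m % (g₀ : ℤ) = 0 := by
    by_contra hne
    have hr1 : 0 ≤ m % (g₀ : ℤ) := Int.emod_nonneg _ hg0'.ne'
    have hr2 : m % (g₀ : ℤ) < g₀ := Int.emod_lt_of_pos _ hg0'
    refine hmin (m % (g₀ : ℤ)).toNat (by omega) ⟨by omega, _, hyK, hy0, ?_⟩
    rw [hy, Int.toNat_of_nonneg hr1]
  rw [hr0, zero_smul] at hy
  have hy' : (ordOfSubring A).ord (x / π ^ (m / (g₀ : ℤ))) = 0 := by
    by_contra hne
    rcases lt_or_gt_of_ne hne with h | h
    · have := (zsmul_lt_zsmul_iff_right hMpos).mpr h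
      rw [hy, smul_zero] at this
      exact lt_irrefl _ this
    · have := (zsmul_lt_zsmul_iff_right hMpos).mpr h
      rw [hy, smul_zero] at this
      exact lt_irrefl _ this
  rw [(ordOfSubring A).ord_div hx (zpow_ne_zero _ hπ0), (ordOfSubring A).ord_zpow hπ0,
    sub_eq_zero] at hy'
  exact hy'

lemma isUnit_iff_ord (y : A) (hy : (y : AlgebraicClosure ℚ) ≠ 0) :
    IsUnit y ↔ (ordOfSubring A).ord (y : AlgebraicClosure ℚ) = 0 := by
  rw [A.valuation_eq_one_iff]
  exact (OfSubring.ordFun_eq_zero_iff A hy).symm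

lemma ord_nonneg (y : A) (hy : (y : AlgebraicClosure ℚ) ≠ 0) :
    0 ≤ (ordOfSubring A).ord (y : AlgebraicClosure ℚ) :=
  ((ordOfSubring_ge_iff A _).mpr y.2).le hy

lemma mem_of_ord_nonneg {x : AlgebraicClosure ℚ} (h : 0 ≤ (ordOfSubring A).ord x) : x ∈ A :=
  (ordOfSubring_ge_iff A x).mp (Or.inr h)

variable (K : IntermediateField ℚ (AlgebraicClosure ℚ))

/-- The restriction of `A` to the subfield `K`. -/
noncomputable abbrev restr : ValuationSubring K := A.comap (algebraMap K (AlgebraicClosure ℚ))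

/-- The inclusion of `A ∩ K` into `A`. -/
noncomputable def incl : restr A K →+* A where
  toFun x := ⟨((x : K) : AlgebraicClosure ℚ), x.2⟩
  map_one' := rfl
  map_mul' _ _ := rfl
  map_zero' := rfl
  map_add' _ _ := rfl

@[simp] lemma incl_coe (x : restr A K) :
    ((incl A K x : A) : AlgebraicClosure ℚ) = ((x : K) : AlgebraicClosure ℚ) := rfl

instance incl_isLocalHom : IsLocalHom (incl A K) where
  map_nonunit := by
    intro y hy
    obtain ⟨w, hw⟩ := hy.exists_right_inv
    have hw' : ((y : K) : AlgebraicClosure ℚ) * (w : AlgebraicClosure ℚ) = 1 := by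
      have := congrArg (fun t : A => (t : AlgebraicClosure ℚ)) hw
      simpa using this
    have hy0 : (y : K) ≠ 0 := by
      intro h0
      rw [h0] at hw'
      simp at hw'
    have hmem : (y : K)⁻¹ ∈ restr A K := by
      change (((y : K)⁻¹ : K) : AlgebraicClosure ℚ) ∈ A
      have : (((y : K)⁻¹ : K) : AlgebraicClosure ℚ) = (w : AlgebraicClosure ℚ) := by
        rw [IntermediateField.coe_inv]
        exact (eq_inv_of_mul_eq_one_right hw').symm
      rw [this]
      exact w.2
    refine IsUnit.of_mul_eq_one (⟨(y : K)⁻¹, hmem⟩ : restr A K) ?_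
    apply Subtype.ext
    change (y : K) * (y : K)⁻¹ = 1
    exact mul_inv_cancel₀ hy0

/-- Lemma U: adjoining a root of unity of order prime to `ℓ` does not change the value group. -/
theorem ord_adjoin_root (hℓ : ℓ.Prime) (hA : A.LiesOverPrime ℓ) (π : AlgebraicClosure ℚ)
    (hπ : IsUnif A (K : Set (AlgebraicClosure ℚ)) π)
    (ζ : AlgebraicClosure ℚ) (n : ℕ) (hn : ¬ ℓ ∣ n) (hζ : ζ ^ n = 1) (x : AlgebraicClosure ℚ)
    (hx : x ∈ IntermediateField.adjoin K ({ζ} : Set (AlgebraicClosure ℚ))) (hx0 : x ≠ 0) :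
    ∃ a : ℤ, (ordOfSubring A).ord x = a • (ordOfSubring A).ord π := by
  classical
  obtain ⟨hπK, hπ0, hπpos, hπall⟩ := hπ
  have hn0 : n ≠ 0 := by
    rintro rfl
    exact hn (dvd_zero _)
  have hζ0 : ζ ≠ 0 := by
    intro h0
    rw [h0, zero_pow hn0] at hζ
    exact zero_ne_one hζ
  -- `ζ ∈ A`
  have hζord : (ordOfSubring A).ord ζ = 0 := by
    have h1 := (ordOfSubring A).ord_pow hζ0 n
    rw [hζ, (ordOfSubring A).ord_one] at h1
    exact OrdData.nsmul_eq_zero_imp hn0 h1.symm
  have hζA : ζ ∈ A := mem_of_ord_nonneg A hζord.ge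
  -- `π ∈ A ∩ K`
  have hπA : π ∈ A := mem_of_ord_nonneg A hπpos.le
  let πV : restr A K := ⟨⟨π, hπK⟩, hπA⟩
  let ζA : A := ⟨ζ, hζA⟩
  have hζA' : ζA ^ n = 1 := Subtype.ext (by simpa using hζ)
  -- `n` is a unit of `A`
  have hnA : IsUnit ((n : ℕ) : A) := by
    have h1 := ordOfSubring_intCast_unit A hℓ hA (n := (n : ℤ)) (by exact_mod_cast hn)
    have h2 : (((n : ℕ) : A) : AlgebraicClosure ℚ) = ((n : ℤ) : AlgebraicClosure ℚ) := by
      push_cast; rfl
    rw [isUnit_iff_ord A _ (by rw [h2]; exact h1.1), h2]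
    exact h1.2
  -- the maximal ideal of `A ∩ K` is generated by `π`
  have hπdiv : ∀ y : restr A K, y ∈ IsLocalRing.maximalIdeal (restr A K) → πV ∣ y := by
    intro y hy
    by_cases hy0 : (y : K) = 0
    · have : y = 0 := Subtype.ext hy0
      rw [this]
      exact dvd_zero _
    have hy0' : ((y : K) : AlgebraicClosure ℚ) ≠ 0 := by
      intro h
      exact hy0 (by exact_mod_cast h)
    have hnu : ¬ IsUnit (incl A K y) := fun h => hy (isUnit_of_map_unit (incl A K) y h)
    have hpos : 0 < (ordOfSubring A).ord ((y : K) : AlgebraicClosure ℚ) := by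
      have h1 := ord_nonneg A (incl A K y) hy0'
      rcases h1.lt_or_eq with h | h
      · exact h
      · exact absurd ((isUnit_iff_ord A (incl A K y) hy0').mpr h.symm) hnu
    obtain ⟨a, ha⟩ := hπall _ (y : K).2 hy0'
    have ha1 : 1 ≤ a := by
      by_contra hlt
      push Not at hlt
      have : a • (ordOfSubring A).ord π ≤ 0 • (ordOfSubring A).ord π :=
        (zsmul_le_zsmul_iff_left hπpos).mpr (show a ≤ 0 by omega)
      rw [zero_smul, ← ha] at this
      exact absurd hpos (not_lt.mpr this)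
    have hq : 0 ≤ (ordOfSubring A).ord (((y : K) : AlgebraicClosure ℚ) / π) := by
      rw [(ordOfSubring A).ord_div hy0' hπ0, ha, sub_nonneg]
      calc (ordOfSubring A).ord π = (1 : ℤ) • (ordOfSubring A).ord π := (one_smul _ _).symm
        _ ≤ a • (ordOfSubring A).ord π := (zsmul_le_zsmul_iff_left hπpos).mpr ha1
    have hqA : ((y : K) : AlgebraicClosure ℚ) / π ∈ A := mem_of_ord_nonneg A hq
    refine ⟨⟨(y : K) / ⟨π, hπK⟩, ?_⟩, ?_⟩
    · change (((y : K) / (⟨π, hπK⟩ : K) : K) : AlgebraicClosure ℚ) ∈ A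
      rw [IntermediateField.coe_div]
      exact hqA
    · apply Subtype.ext
      change (y : K) = (⟨π, hπK⟩ : K) * ((y : K) / ⟨π, hπK⟩)
      have hπK0 : (⟨π, hπK⟩ : K) ≠ 0 := by
        intro h
        exact hπ0 (congrArg Subtype.val h)
      field_simp
  -- Claim 1: orders of the nonzero elements `B(ζ)`, `B ∈ (A ∩ K)[X]`
  have claim1 : ∀ k : ℕ, ∀ B : (restr A K)[X],
      ((B.eval₂ (incl A K) ζA : A) : AlgebraicClosure ℚ) ≠ 0 →
      (ordOfSubring A).ord ((B.eval₂ (incl A K) ζA : A) : AlgebraicClosure ℚ) <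
        (k : ℤ) • (ordOfSubring A).ord π →
      ∃ a : ℤ, (ordOfSubring A).ord ((B.eval₂ (incl A K) ζA : A) : AlgebraicClosure ℚ) =
        a • (ordOfSubring A).ord π := by
    intro k
    induction k with
    | zero =>
      intro B hB0 hlt
      rw [Nat.cast_zero, zero_smul] at hlt
      exact absurd (ord_nonneg A _ hB0) (not_le.mpr hlt)
    | succ k ih =>
      intro B hB0 hlt
      by_cases hu : IsUnit (B.eval₂ (incl A K) ζA)
      · exact ⟨0, by rw [zero_smul]; exact (isUnit_iff_ord A _ hB0).mp hu⟩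
      · obtain ⟨E, R, hEu, hEq⟩ := core_unramified (incl A K) πV hπdiv ζA n hζA' hnA B hu
        have hEq' : ((B.eval₂ (incl A K) ζA : A) : AlgebraicClosure ℚ) *
            ((E.eval₂ (incl A K) ζA : A) : AlgebraicClosure ℚ) =
            π * ((R.eval₂ (incl A K) ζA : A) : AlgebraicClosure ℚ) := by
          have := congrArg (fun t : A => (t : AlgebraicClosure ℚ)) hEq
          simpa using this
        have hE0 : ((E.eval₂ (incl A K) ζA : A) : AlgebraicClosure ℚ) ≠ 0 := by
          intro h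
          have : E.eval₂ (incl A K) ζA = 0 := Subtype.ext h
          rw [this] at hEu
          exact not_isUnit_zero hEu
        have hR0 : ((R.eval₂ (incl A K) ζA : A) : AlgebraicClosure ℚ) ≠ 0 := by
          intro h
          rw [h, mul_zero] at hEq'
          exact (mul_ne_zero hB0 hE0) hEq'
        have hEord := (isUnit_iff_ord A _ hE0).mp hEu
        have hords := congrArg (ordOfSubring A).ord hEq'
        rw [(ordOfSubring A).ord_mul _ _ hB0 hE0, (ordOfSubring A).ord_mul _ _ hπ0 hR0, hEord,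
          add_zero] at hords
        have hlt' : (ordOfSubring A).ord ((R.eval₂ (incl A K) ζA : A) : AlgebraicClosure ℚ) <
            (k : ℤ) • (ordOfSubring A).ord π := by
          rw [hords, Nat.cast_succ, add_smul, one_smul, add_comm] at hlt
          exact lt_of_add_lt_add_right hlt
        obtain ⟨a, ha⟩ := ih R hR0 hlt'
        refine ⟨a + 1, ?_⟩
        rw [hords, ha, add_smul, one_smul, add_comm]
  -- Claim 2: clearing denominators
  have claim2 : ∀ b : K[X], ∃ c : restr A K, (c : K) ≠ 0 ∧ ∃ B : (restr A K)[X],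
      ((c : K) : AlgebraicClosure ℚ) * Polynomial.aeval ζ b =
        ((B.eval₂ (incl A K) ζA : A) : AlgebraicClosure ℚ) := by
    intro b
    induction b using Polynomial.induction_on' with
    | add p q hp hq =>
      obtain ⟨c₁, hc₁, B₁, h₁⟩ := hp
      obtain ⟨c₂, hc₂, B₂, h₂⟩ := hq
      refine ⟨c₁ * c₂, mul_ne_zero hc₁ hc₂, Polynomial.C c₂ * B₁ + Polynomial.C c₁ * B₂, ?_⟩
      rw [Polynomial.eval₂_add, Polynomial.eval₂_mul, Polynomial.eval₂_mul, Polynomial.eval₂_C,
        Polynomial.eval₂_C, map_add]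
      push_cast
      rw [incl_coe, incl_coe, ← h₁, ← h₂]
      ring
    | monomial i a =>
      by_cases haA : ((a : K) : AlgebraicClosure ℚ) ∈ A
      · refine ⟨1, one_ne_zero, Polynomial.monomial i (⟨a, haA⟩ : restr A K), ?_⟩
        rw [Polynomial.eval₂_monomial, Polynomial.aeval_monomial]
        push_cast
        rw [incl_coe]
        simp only [one_mul]
        rfl
      · have ha0 : a ≠ 0 := by
          rintro rfl
          exact haA (by simp)
        have ha0' : ((a : K) : AlgebraicClosure ℚ) ≠ 0 := by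
          intro h
          exact ha0 (by exact_mod_cast h)
        have hinv : ((a⁻¹ : K) : AlgebraicClosure ℚ) ∈ A := by
          rw [IntermediateField.coe_inv]
          exact (A.mem_or_inv_mem _).resolve_left haA
        refine ⟨⟨a⁻¹, hinv⟩, inv_ne_zero ha0, Polynomial.X ^ i, ?_⟩
        rw [Polynomial.eval₂_pow, Polynomial.eval₂_X, Polynomial.aeval_monomial]
        push_cast
        change (a : AlgebraicClosure ℚ)⁻¹ * ((a : AlgebraicClosure ℚ) * ζ ^ i) = ζ ^ i
        field_simp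
  -- `x` is a polynomial in `ζ`
  have halg : IsAlgebraic K ζ := by
    refine ⟨Polynomial.X ^ n - 1, ?_, by simp [hζ]⟩
    exact Polynomial.X_pow_sub_C_ne_zero (Nat.pos_of_ne_zero hn0) (1 : K)
  have hx' : x ∈ Algebra.adjoin K {ζ} := by
    rw [← IntermediateField.adjoin_simple_toSubalgebra_of_isAlgebraic halg]
    exact hx
  rw [Algebra.adjoin_singleton_eq_range_aeval] at hx'
  obtain ⟨b, hb⟩ := hx'
  have hb' : Polynomial.aeval ζ b = x := hb
  obtain ⟨c, hc0, B, hB⟩ := claim2 b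
  rw [hb'] at hB
  have hc0' : ((c : K) : AlgebraicClosure ℚ) ≠ 0 := by
    intro h
    exact hc0 (by exact_mod_cast h)
  have hB0 : ((B.eval₂ (incl A K) ζA : A) : AlgebraicClosure ℚ) ≠ 0 := by
    rw [← hB]
    exact mul_ne_zero hc0' hx0
  obtain ⟨k, hk⟩ := exists_ord_lt_nsmul A hℓ hA _ π hB0 hπ0 hπpos
  obtain ⟨a, ha⟩ := claim1 k B hB0 hk
  obtain ⟨a', ha'⟩ := hπall _ (c : K).2 hc0'
  refine ⟨a - a', ?_⟩
  have hords := congrArg (ordOfSubring A).ord hB
  rw [(ordOfSubring A).ord_mul _ _ hc0' hx0, ha, ha'] at hords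
  rw [sub_smul, ← hords]
  abel

/-- The residue field of `A` has characteristic `ℓ`. -/
theorem residueField_charP (hℓ : ℓ.Prime) (hA : A.LiesOverPrime ℓ) :
    CharP (IsLocalRing.ResidueField A) ℓ := by
  rw [CharP.charP_iff_prime_eq_zero hℓ]
  have h1 : ((ℓ : ℕ) : A) ∈ IsLocalRing.maximalIdeal A := by
    have h2 : (ℓ : AlgebraicClosure ℚ) ∈ A.nonunits := hA
    obtain ⟨hmem, h3⟩ := A.mem_nonunits_iff_exists_mem_maximalIdeal.mp h2
    exact h3
  have := (IsLocalRing.residue_eq_zero_iff _).mpr h1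
  rwa [map_natCast] at this

/-- Every element of the residue field of `A` is algebraic over the prime field: concretely,
every unit of the residue field is a root of unity of order prime to `ℓ`. -/
theorem exists_pow_eq_one_residue (hℓ : ℓ.Prime) (hA : A.LiesOverPrime ℓ) (x : A)
    (hx : IsUnit x) : ∃ n : ℕ, ¬ ℓ ∣ n ∧ (IsLocalRing.residue A x) ^ n = 1 := by
  classical
  have := residueField_charP A hℓ hA
  have : Fact ℓ.Prime := ⟨hℓ⟩
  let _ : Algebra (ZMod ℓ) (IsLocalRing.ResidueField A) := ZMod.algebra _ ℓ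
  -- an integer polynomial, nonzero mod ℓ, killing `x`
  have halg : IsAlgebraic ℤ (x : AlgebraicClosure ℚ) :=
    (IsFractionRing.isAlgebraic_iff ℤ ℚ (AlgebraicClosure ℚ)).mpr
      ((AlgebraicClosure.isAlgebraic ℚ).isAlgebraic _)
  obtain ⟨f, hf0, hfx⟩ := halg
  have hprim : f.primPart.IsPrimitive := f.isPrimitive_primPart
  have hpx : Polynomial.aeval (x : AlgebraicClosure ℚ) f.primPart = 0 := by
    have h1 := f.eq_C_content_mul_primPart
    rw [h1, map_mul, Polynomial.aeval_C] at hfx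
    rcases mul_eq_zero.mp hfx with h | h
    · exfalso
      have hc : f.content ≠ 0 := Polynomial.content_eq_zero_iff.not.mpr hf0
      rw [eq_intCast] at h
      exact hc (by exact_mod_cast h)
    · exact h
  set g := f.primPart with hg
  have hgbar : g.map (Int.castRingHom (ZMod ℓ)) ≠ 0 := by
    intro h0
    have hdvd : Polynomial.C (ℓ : ℤ) ∣ g := by
      rw [Polynomial.C_dvd_iff_dvd_coeff]
      intro i
      have := congrArg (fun p => p.coeff i) h0
      simp only [Polynomial.coeff_map, Polynomial.coeff_zero, eq_intCast] at this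
      exact (ZMod.intCast_zmod_eq_zero_iff_dvd _ _).mp this
    have hu := Polynomial.isPrimitive_iff_isUnit_of_C_dvd.mp hprim _ hdvd
    rw [Int.isUnit_iff] at hu
    have h2 := hℓ.two_le
    omega
  -- `g(x) = 0` in `A`, hence mod the maximal ideal
  have hgxA : g.eval₂ (Int.castRingHom A) x = 0 := by
    apply Subtype.ext
    have h1 : ((g.eval₂ (Int.castRingHom A) x : A) : AlgebraicClosure ℚ) =
        Polynomial.aeval (x : AlgebraicClosure ℚ) g := by
      have h2 := Polynomial.hom_eval₂ g (Int.castRingHom A) A.subtype x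
      have h3 : A.subtype.comp (Int.castRingHom A) = algebraMap ℤ (AlgebraicClosure ℚ) :=
        RingHom.ext_int _ _
      rw [h3] at h2
      rw [Polynomial.aeval_def]
      exact h2
    rw [h1, hpx]
    rfl
  have hres : (g.map (Int.castRingHom (ZMod ℓ))).eval₂
      (algebraMap (ZMod ℓ) (IsLocalRing.ResidueField A)) (IsLocalRing.residue A x) = 0 := by
    rw [Polynomial.eval₂_map]
    have h1 := congrArg (IsLocalRing.residue A) hgxA
    rw [Polynomial.hom_eval₂, map_zero] at h1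
    rw [← h1]
    congr 1
    exact RingHom.ext_int _ _
  have halg' : IsAlgebraic (ZMod ℓ) (IsLocalRing.residue A x) :=
    ⟨_, hgbar, by rw [Polynomial.aeval_def]; exact hres⟩
  have hint : IsIntegral (ZMod ℓ) (IsLocalRing.residue A x) := halg'.isIntegral
  have : FiniteDimensional (ZMod ℓ)
      (IntermediateField.adjoin (ZMod ℓ) ({IsLocalRing.residue A x} : Set _)) :=
    IntermediateField.adjoin.finiteDimensional hint
  have : Finite (IntermediateField.adjoin (ZMod ℓ) ({IsLocalRing.residue A x} : Set _)) :=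
    Module.finite_of_finite (ZMod ℓ)
  let _ : Fintype (IntermediateField.adjoin (ZMod ℓ) ({IsLocalRing.residue A x} : Set _)) :=
    Fintype.ofFinite _
  have hx0 : IsLocalRing.residue A x ≠ 0 := (hx.map (IsLocalRing.residue A)).ne_zero
  have hmem : IsLocalRing.residue A x ∈
      IntermediateField.adjoin (ZMod ℓ) ({IsLocalRing.residue A x} : Set _) :=
    IntermediateField.mem_adjoin_simple_self _ _
  have h1 := FiniteField.pow_card_sub_one_eq_one
    (⟨IsLocalRing.residue A x, hmem⟩ :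
      IntermediateField.adjoin (ZMod ℓ) ({IsLocalRing.residue A x} : Set _))
    (fun h => hx0 (congrArg Subtype.val h))
  obtain ⟨d, -, hd⟩ := FiniteField.card
    (IntermediateField.adjoin (ZMod ℓ) ({IsLocalRing.residue A x} : Set _)) ℓ
  refine ⟨ℓ ^ (d : ℕ) - 1, ?_, ?_⟩
  · intro hdvd
    have hpos : 0 < ℓ ^ (d : ℕ) := pow_pos hℓ.pos _
    have h2 : ℓ ∣ ℓ ^ (d : ℕ) := dvd_pow_self ℓ d.ne_zero
    have h3 : ℓ ∣ 1 := by
      have := (Nat.dvd_sub h2 hdvd)
      rwa [Nat.sub_sub_self hpos] at this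
    exact hℓ.one_lt.ne' (Nat.dvd_one.mp h3)
  · rw [hd] at h1
    have := congrArg Subtype.val h1
    simpa using this

lemma ord_eq_zero_of_pow_eq_one {ζ : AlgebraicClosure ℚ} {n : ℕ} (hn : n ≠ 0) (hζ : ζ ^ n = 1) :
    (ordOfSubring A).ord ζ = 0 := by
  have hζ0 : ζ ≠ 0 := by
    intro h0
    rw [h0, zero_pow hn] at hζ
    exact zero_ne_one hζ
  have h1 := (ordOfSubring A).ord_pow hζ0 n
  rw [hζ, (ordOfSubring A).ord_one] at h1
  exact OrdData.nsmul_eq_zero_imp hn h1.symm

lemma mem_of_pow_eq_one {ζ : AlgebraicClosure ℚ} {n : ℕ} (hn : n ≠ 0) (hζ : ζ ^ n = 1) : ζ ∈ A :=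
  mem_of_ord_nonneg A (ord_eq_zero_of_pow_eq_one A hn hζ).ge

/-- Every unit of `A` is congruent modulo the maximal ideal to a root of unity of order prime
to `ℓ`. -/
theorem exists_rootOfUnity_residue (hℓ : ℓ.Prime) (hA : A.LiesOverPrime ℓ) (x : A)
    (hx : IsUnit x) :
    ∃ (n : ℕ) (ζ : AlgebraicClosure ℚ), ¬ ℓ ∣ n ∧ ζ ^ n = 1 ∧
      (x : AlgebraicClosure ℚ) - ζ ∈ A.nonunits := by
  classical
  obtain ⟨n, hn, hxn⟩ := exists_pow_eq_one_residue A hℓ hA x hx
  have hn0 : n ≠ 0 := by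
    rintro rfl
    exact hn (dvd_zero _)
  have : NeZero ((n : ℕ) : AlgebraicClosure ℚ) := ⟨Nat.cast_ne_zero.mpr hn0⟩
  obtain ⟨ω, hω⟩ := HasEnoughRootsOfUnity.exists_primitiveRoot (AlgebraicClosure ℚ) n
  have hprod := Polynomial.X_pow_sub_one_eq_prod (Nat.pos_of_ne_zero hn0) hω
  have hev : (x : AlgebraicClosure ℚ) ^ n - 1 =
      ∏ ζ ∈ Polynomial.nthRootsFinset n (1 : AlgebraicClosure ℚ),
        ((x : AlgebraicClosure ℚ) - ζ) := by
    have := congrArg (Polynomial.eval (x : AlgebraicClosure ℚ)) hprod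
    simpa [Polynomial.eval_prod] using this
  have hmem : (x : AlgebraicClosure ℚ) ^ n - 1 ∈ A.nonunits := by
    rw [A.mem_nonunits_iff_exists_mem_maximalIdeal]
    refine ⟨A.sub_mem (A.pow_mem x.2 n) A.one_mem, ?_⟩
    rw [← IsLocalRing.residue_eq_zero_iff]
    have h1 : (⟨(x : AlgebraicClosure ℚ) ^ n - 1, A.sub_mem (A.pow_mem x.2 n) A.one_mem⟩ : A) =
        x ^ n - 1 := rfl
    rw [h1, map_sub, map_pow, map_one, hxn, sub_self]
  by_contra hcon
  push Not at hcon
  have hall : ∀ ζ ∈ Polynomial.nthRootsFinset n (1 : AlgebraicClosure ℚ),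
      A.valuation ((x : AlgebraicClosure ℚ) - ζ) = 1 := by
    intro ζ hζ
    have hζn : ζ ^ n = 1 := (Polynomial.mem_nthRootsFinset (Nat.pos_of_ne_zero hn0) _).mp hζ
    have hζA : ζ ∈ A := mem_of_pow_eq_one A hn0 hζn
    have h1 : A.valuation ((x : AlgebraicClosure ℚ) - ζ) ≤ 1 :=
      (A.valuation_le_one_iff _).mpr (A.sub_mem x.2 hζA)
    have h2 : ¬ A.valuation ((x : AlgebraicClosure ℚ) - ζ) < 1 :=
      fun h => hcon n ζ hn hζn (A.mem_nonunits_iff.mpr h)
    exact le_antisymm h1 (not_lt.mp h2)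
  have h3 : A.valuation ((x : AlgebraicClosure ℚ) ^ n - 1) = 1 := by
    rw [hev, map_prod]
    exact Finset.prod_eq_one hall
  have h4 := A.mem_nonunits_iff.mp hmem
  rw [h3] at h4
  exact lt_irrefl _ h4

/-- Step 3: the field generated by a finite set and all roots of unity of order prime to `ℓ`
has a uniformiser for the restriction of `A`. -/
theorem exists_isUnif_baseField (hℓ : ℓ.Prime) (hA : A.LiesOverPrime ℓ)
    (S : Set (AlgebraicClosure ℚ)) (hS : S.Finite) :
    ∃ π, IsUnif A (↑(IntermediateField.adjoin ℚ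
      ({ζ : AlgebraicClosure ℚ | ∃ n : ℕ, ¬ ℓ ∣ n ∧ ζ ^ n = 1} ∪ S))) π := by
  classical
  have : Finite S := hS.to_subtype
  have : FiniteDimensional ℚ (IntermediateField.adjoin ℚ S) :=
    IntermediateField.finiteDimensional_adjoin
      (fun x _ => ((AlgebraicClosure.isAlgebraic ℚ).isAlgebraic x).isIntegral)
  obtain ⟨π, hπ⟩ := exists_isUnif A hℓ hA (IntermediateField.adjoin ℚ S)
  refine ⟨π, ?_, hπ.2.1, hπ.2.2.1, ?_⟩
  · exact IntermediateField.adjoin.mono ℚ _ _ Set.subset_union_right hπ.1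
  · intro x hx hx0
    have hx1 : x ∈ IntermediateField.adjoin (IntermediateField.adjoin ℚ S)
        {ζ : AlgebraicClosure ℚ | ∃ n : ℕ, ¬ ℓ ∣ n ∧ ζ ^ n = 1} := by
      have h1 := IntermediateField.adjoin_adjoin_left ℚ (S := S)
        {ζ : AlgebraicClosure ℚ | ∃ n : ℕ, ¬ ℓ ∣ n ∧ ζ ^ n = 1}
      have h2 : x ∈ IntermediateField.adjoin ℚ
          (S ∪ {ζ : AlgebraicClosure ℚ | ∃ n : ℕ, ¬ ℓ ∣ n ∧ ζ ^ n = 1}) := by
        rw [Set.union_comm]
        exact hx
      rw [← h1] at h2
      exact h2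
    obtain ⟨T₀, hT₀, hx2⟩ := IntermediateField.exists_finset_of_mem_adjoin hx1
    obtain ⟨N, hN, hNall⟩ : ∃ N : ℕ, ¬ ℓ ∣ N ∧ ∀ ζ ∈ T₀, ζ ^ N = 1 := by
      clear hx2
      induction T₀ using Finset.induction_on with
      | empty => exact ⟨1, by simpa using hℓ.one_lt.ne', by simp⟩
      | insert ζ T₁ hζ ih =>
        obtain ⟨N, hN, hNall⟩ := ih (fun y hy => hT₀ (by simp [Finset.mem_coe.mp hy]))
        obtain ⟨n, hn, hζn⟩ := hT₀ (by simp : ζ ∈ ((insert ζ T₁ : Finset _) : Set _))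
        refine ⟨n * N, ?_, ?_⟩
        · intro h
          rcases (Nat.Prime.dvd_mul hℓ).mp h with h | h
          · exact hn h
          · exact hN h
        · intro y hy
          rcases Finset.mem_insert.mp hy with rfl | hy
          · rw [pow_mul, hζn, one_pow]
          · rw [mul_comm, pow_mul, hNall y hy, one_pow]
    have hN0 : N ≠ 0 := by
      rintro rfl
      exact hN (dvd_zero _)
    have : NeZero N := ⟨hN0⟩
    have : NeZero ((N : ℕ) : AlgebraicClosure ℚ) := ⟨Nat.cast_ne_zero.mpr hN0⟩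
    obtain ⟨ω, hω⟩ := HasEnoughRootsOfUnity.exists_primitiveRoot (AlgebraicClosure ℚ) N
    have hle : IntermediateField.adjoin (IntermediateField.adjoin ℚ S)
        (T₀ : Set (AlgebraicClosure ℚ)) ≤
        IntermediateField.adjoin (IntermediateField.adjoin ℚ S)
          ({ω} : Set (AlgebraicClosure ℚ)) := by
      rw [IntermediateField.adjoin_le_iff]
      intro ζ hζ
      obtain ⟨i, -, rfl⟩ := hω.eq_pow_of_pow_eq_one (hNall ζ hζ)
      exact pow_mem (IntermediateField.mem_adjoin_simple_self _ ω) i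
    exact ord_adjoin_root A (IntermediateField.adjoin ℚ S) hℓ hA π hπ ω N hN hω.pow_eq_one x
      (hle hx2) hx0

/-- A subfield of `Qbar` with a uniformiser: the restriction of `A` is a discrete valuation
ring. -/
theorem isDiscreteValuationRing_of_isUnif (L : IntermediateField ℚ (AlgebraicClosure ℚ))
    (π : AlgebraicClosure ℚ) (hπ : IsUnif A (L : Set (AlgebraicClosure ℚ)) π) :
    IsDiscreteValuationRing (restr A L) := by
  classical
  obtain ⟨hπL, hπ0, hπpos, hπall⟩ := hπ
  have hπA : π ∈ A := mem_of_ord_nonneg A hπpos.le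
  have hcoe0 : ∀ y : restr A L, y ≠ 0 → ((y : L) : AlgebraicClosure ℚ) ≠ 0 := by
    intro y hy h
    exact hy (Subtype.ext (by exact_mod_cast h))
  have hunit : ∀ y : restr A L, ((y : L) : AlgebraicClosure ℚ) ≠ 0 →
      (ordOfSubring A).ord ((y : L) : AlgebraicClosure ℚ) = 0 → IsUnit y := by
    intro y hy0 hy
    have h1 : IsUnit (incl A L y) := (isUnit_iff_ord A _ hy0).mpr hy
    exact isUnit_of_map_unit (incl A L) y h1
  have hordunit : ∀ y : restr A L, IsUnit y →
      (ordOfSubring A).ord ((y : L) : AlgebraicClosure ℚ) = 0 := by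
    intro y hy
    have h1 : IsUnit (incl A L y) := hy.map _
    have hy0 : ((y : L) : AlgebraicClosure ℚ) ≠ 0 := by
      intro h
      have h2 : incl A L y = 0 := Subtype.ext h
      rw [h2] at h1
      exact not_isUnit_zero h1
    exact (isUnit_iff_ord A _ hy0).mp h1
  have hnonneg : ∀ y : restr A L, y ≠ 0 → ∃ m : ℤ, 0 ≤ m ∧
      (ordOfSubring A).ord ((y : L) : AlgebraicClosure ℚ) = m • (ordOfSubring A).ord π := by
    intro y hy
    obtain ⟨m, hm⟩ := hπall _ (y : L).2 (hcoe0 y hy)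
    refine ⟨m, ?_, hm⟩
    have h1 := ord_nonneg A (incl A L y) (hcoe0 y hy)
    rw [incl_coe, hm, ← zero_smul ℤ ((ordOfSubring A).ord π)] at h1
    exact (zsmul_le_zsmul_iff_left hπpos).mp h1
  apply IsDiscreteValuationRing.ofHasUnitMulPowIrreducibleFactorization
  refine ⟨(⟨⟨π, hπL⟩, hπA⟩ : restr A L), ?_, ?_⟩
  · rw [irreducible_iff]
    refine ⟨fun hu => hπpos.ne' (hordunit _ hu), fun a b hab => ?_⟩
    have hab' : π = ((a : L) : AlgebraicClosure ℚ) * ((b : L) : AlgebraicClosure ℚ) := by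
      have := congrArg (fun t : restr A L => ((t : L) : AlgebraicClosure ℚ)) hab
      simpa using this
    have ha0 : a ≠ 0 := by
      rintro rfl
      apply hπ0
      rw [hab']
      simp
    have hb0 : b ≠ 0 := by
      rintro rfl
      apply hπ0
      rw [hab']
      simp
    obtain ⟨m, hm0, hm⟩ := hnonneg a ha0
    obtain ⟨m', hm0', hm'⟩ := hnonneg b hb0
    have hsum := congrArg (ordOfSubring A).ord hab'
    rw [(ordOfSubring A).ord_mul _ _ (hcoe0 a ha0) (hcoe0 b hb0), hm, hm', ← add_smul] at hsum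
    have h1 : (1 : ℤ) = m + m' := by
      have h2 : (1 : ℤ) • (ordOfSubring A).ord π = (m + m') • (ordOfSubring A).ord π := by
        rw [one_smul]
        exact hsum
      exact (zsmul_left_inj hπpos).mp h2
    rcases (show m = 0 ∨ m' = 0 by omega) with h | h
    · left
      exact hunit a (hcoe0 a ha0) (by rw [hm, h, zero_smul])
    · right
      exact hunit b (hcoe0 b hb0) (by rw [hm', h, zero_smul])
  · intro x hx
    obtain ⟨m, hm0, hm⟩ := hnonneg x hx
    have hπL0 : (⟨π, hπL⟩ : L) ≠ 0 := fun h => hπ0 (congrArg Subtype.val h)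
    have hqord : (ordOfSubring A).ord ((((x : L) / (⟨π, hπL⟩ : L) ^ m.toNat : L)) :
        AlgebraicClosure ℚ) = 0 := by
      rw [IntermediateField.coe_div, IntermediateField.coe_pow,
        (ordOfSubring A).ord_div (hcoe0 x hx) (pow_ne_zero _ hπ0), (ordOfSubring A).ord_pow hπ0,
        hm, ← natCast_zsmul, Int.toNat_of_nonneg hm0, sub_self]
    have hqA : ((((x : L) / (⟨π, hπL⟩ : L) ^ m.toNat : L)) : AlgebraicClosure ℚ) ∈ A :=
      mem_of_ord_nonneg A hqord.ge
    have hq0 : ((((x : L) / (⟨π, hπL⟩ : L) ^ m.toNat : L)) : AlgebraicClosure ℚ) ≠ 0 := by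
      rw [IntermediateField.coe_div, IntermediateField.coe_pow]
      exact div_ne_zero (hcoe0 x hx) (pow_ne_zero _ hπ0)
    have hu : IsUnit (⟨(x : L) / (⟨π, hπL⟩ : L) ^ m.toNat, hqA⟩ : restr A L) :=
      hunit _ hq0 hqord
    refine ⟨m.toNat, hu.unit, ?_⟩
    apply Subtype.ext
    change (⟨π, hπL⟩ : L) ^ m.toNat * ((x : L) / (⟨π, hπL⟩ : L) ^ m.toNat) = (x : L)
    field_simp

/-- If `L` contains the roots of unity of order prime to `ℓ`, then the residue field of
`A ∩ L` is the whole residue field of `A`. -/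
theorem exists_restr_sub_mem_nonunits (hℓ : ℓ.Prime) (hA : A.LiesOverPrime ℓ)
    (L : IntermediateField ℚ (AlgebraicClosure ℚ))
    (hL : ∀ (n : ℕ) (ζ : AlgebraicClosure ℚ), ¬ ℓ ∣ n → ζ ^ n = 1 → ζ ∈ L) (x : A) :
    ∃ y : restr A L, ((y : L) : AlgebraicClosure ℚ) - x ∈ A.nonunits := by
  by_cases hx : IsUnit x
  · obtain ⟨n, ζ, hn, hζ, hmem⟩ := exists_rootOfUnity_residue A hℓ hA x hx
    have hn0 : n ≠ 0 := by
      rintro rfl
      exact hn (dvd_zero _)
    refine ⟨⟨⟨ζ, hL n ζ hn hζ⟩, mem_of_pow_eq_one A hn0 hζ⟩, ?_⟩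
    have := A.nonunits.neg_mem hmem
    rwa [neg_sub] at this
  · refine ⟨0, ?_⟩
    have h1 : x ∈ IsLocalRing.maximalIdeal A := hx
    have h2 : (x : AlgebraicClosure ℚ) ∈ A.nonunits :=
      A.mem_nonunits_iff_exists_mem_maximalIdeal.mpr ⟨x.2, h1⟩
    have := A.nonunits.neg_mem h2
    simpa using this

end QbarSec

end Fermat.Agent.S18.BaseDVRCore
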