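import Fermat.Agent.S18.BaseDVR

/-!
# S18 row G (base DVR), generic-field packaging

`exists_base` repackages `BaseDVR.exists_dvr_subfield` (helper27) for consumers that work with a
generic coefficient field `(L : Type) [Field L] [Algebra ℚ L] (ι : L →+* AlgebraicClosure ℚ)`
and `W := A.comap ι` (the shape of `Descent.exists_descent_full`): no `IntermediateField`
coercion appears in the statement, so no instance search through `↥L2` is triggered downstream.
-/

set_option autoImplicit false

namespace Fermat.Agent.S18.BaseDVRGeneric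

open Fermat.Agent.S18.BaseDVR

/-- **Row G.** For every finite set `S ⊆ Qbar` there is a field `L` with `ι : L →+* Qbar`,
containing `S` and all roots of unity of order prime to `ℓ`, such that `W := A.comap ι` is a
discrete valuation ring whose residue field is algebraically closed (hence perfect) of
characteristic `ℓ`, `ℓ` is a non-unit of `W`, and every residue class of `A` is represented
in `L`. -/
theorem exists_base (A : ValuationSubring (AlgebraicClosure ℚ)) {ℓ : ℕ} (hℓ : ℓ.Prime)
    (hA : A.LiesOverPrime ℓ) (S : Finset (AlgebraicClosure ℚ)) :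
    ∃ (L : Type) (_ : Field L) (_ : Algebra ℚ L) (ι : L →+* AlgebraicClosure ℚ),
      (∀ a ∈ S, ∃ b : L, ι b = a) ∧
      (∀ x : AlgebraicClosure ℚ, (∃ n : ℕ, ¬ ℓ ∣ n ∧ x ^ n = 1) → ∃ b : L, ι b = x) ∧
      IsDiscreteValuationRing (A.comap ι) ∧
      IsAlgClosed (IsLocalRing.ResidueField (A.comap ι)) ∧
      PerfectField (IsLocalRing.ResidueField (A.comap ι)) ∧
      CharP (IsLocalRing.ResidueField (A.comap ι)) ℓ ∧
      ((ℓ : L) ∈ (A.comap ι).nonunits) ∧
      ∀ a ∈ A, ∃ b : L, ι b ∈ A ∧ a - ι b ∈ A.nonunits := by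
  obtain ⟨E, hS, hroots, hdvr, halg, hchar, hres⟩ := exists_dvr_subfield A hℓ hA S
  refine ⟨E, inferInstance, inferInstance, algebraMap E (AlgebraicClosure ℚ),
    fun a ha => ⟨⟨a, hS a ha⟩, rfl⟩, fun x hx => ⟨⟨x, hroots x hx⟩, rfl⟩, hdvr, halg, ?_, hchar,
    ?_, fun a ha => ?_⟩
  · have := halg
    infer_instance
  · have hA' : (ℓ : AlgebraicClosure ℚ) ∈ A.nonunits := hA
    rw [ValuationSubring.mem_nonunits_iff_or] at hA' ⊢
    have hℓ0 : (ℓ : AlgebraicClosure ℚ) ≠ 0 := Nat.cast_ne_zero.mpr hℓ.ne_zero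
    refine Or.inr fun hmem => (hA'.resolve_left hℓ0) ?_
    have h := ValuationSubring.mem_comap.mp hmem
    rwa [map_inv₀, map_natCast] at h
  · obtain ⟨b, hb1, hb2⟩ := hres a ha
    exact ⟨b, hb1, hb2⟩

end Fermat.Agent.S18.BaseDVRGeneric
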