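/-
S18 (helper12): small field-generation glue for the chart instances.

* `adjoin_simple_eq_top_of_adjoin_pair`: if `F = L(x, θ)` and the images of `L` and of `x` in `F`
  lie in the image of a field `K`, then `F = K(θ)`.
* `adjoin_theta_eq_top`: the same for the `FFKit.ratAlgebra` structure `K = Frac L[X] → F`
  sending `X` to a transcendental `x`.
-/
import Mathlib
import Fermat.Agent.S18.FunctionFieldKit

namespace Fermat.Agent.S18.ChartFieldGlue

open Polynomial

/-- If `F = L(x, θ)` and `K → F` is a field structure whose image contains the image of `L` and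
the element `x`, then `F = K(θ)`. -/
theorem adjoin_simple_eq_top_of_adjoin_pair {L K F : Type*} [Field L] [Field K] [Field F]
    [Algebra L F] [Algebra K F] (x θ : F)
    (hL : ∀ a : L, ∃ k : K, algebraMap K F k = algebraMap L F a)
    (hx : ∃ k : K, algebraMap K F k = x)
    (h : IntermediateField.adjoin L {x, θ} = ⊤) :
    IntermediateField.adjoin K {θ} = ⊤ := by
  rw [eq_top_iff]
  intro y _
  have hy : y ∈ IntermediateField.adjoin L {x, θ} := by rw [h]; trivial
  have hle : IntermediateField.adjoin L {x, θ} ≤
      (IntermediateField.adjoin K {θ}).toSubfield.toIntermediateField (fun a => by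
        obtain ⟨k, hk⟩ := hL a
        rw [← hk]
        exact (IntermediateField.adjoin K {θ}).algebraMap_mem k) := by
    rw [IntermediateField.adjoin_le_iff]
    intro t ht
    rcases ht with rfl | rfl
    · obtain ⟨k, hk⟩ := hx
      rw [← hk]
      exact (IntermediateField.adjoin K {θ}).algebraMap_mem k
    · exact IntermediateField.mem_adjoin_simple_self K t
  exact hle hy

/-- The same with the compatibility stated on `L[X]`: `K = Frac L[X]`, and `K → F` restricts
on `L[X]` to evaluation at `x`. -/
theorem adjoin_simple_eq_top_of_aeval {L K F : Type*} [Field L] [Field K] [Field F]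
    [Algebra L F] [Algebra L[X] K] [Algebra K F] (x θ : F)
    (hK : ∀ p : L[X], algebraMap K F (algebraMap L[X] K p) = aeval x p)
    (h : IntermediateField.adjoin L {x, θ} = ⊤) :
    IntermediateField.adjoin K {θ} = ⊤ :=
  adjoin_simple_eq_top_of_adjoin_pair x θ
    (fun a => ⟨algebraMap L[X] K (C a), by rw [hK, aeval_C]⟩)
    ⟨algebraMap L[X] K X, by rw [hK, aeval_X]⟩ h

/-- `F = K(θ)` for the `FFKit.ratAlgebra` structure `K = Frac L[X] → F`, `X ↦ x`, as soon as
`F = L(x, θ)`. -/
theorem adjoin_theta_eq_top {L K F : Type*} [Field L] [Field K] [Field F]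
    [Algebra L F] [Algebra L[X] K] [IsFractionRing L[X] K] (x : F) (hx : Transcendental L x)
    (θ : F) (h : IntermediateField.adjoin L {x, θ} = ⊤) :
    letI := FFKit.ratAlgebra K x hx
    IntermediateField.adjoin K {θ} = ⊤ := by
  letI := FFKit.ratAlgebra K x hx
  exact adjoin_simple_eq_top_of_aeval x θ (fun p => FFKit.ratAlgebra_algebraMap K x hx p) h

end Fermat.Agent.S18.ChartFieldGlue
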