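/-
S18 (helper2): the finiteness input of the two-chart step (`hgens`).

For an integrally closed noetherian domain `R` mapping injectively to a field `E` of
characteristic zero which is finite over the field of fractions of the image, the integral closure
of `R` in `E` is generated over `R` by finitely many elements.  Specialised to the chart
`R = W[X]`, `X ↦ j`, inside a finite extension `Y` of a function field `F ⊇ L(j)`.
-/
import Mathlib
import Fermat.Agent.S18.FunctionFieldKit

set_option autoImplicit false
set_option linter.unusedSectionVars false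
set_option linter.style.haveILetI false

namespace Fermat.Agent.S18.ChartGens

open Polynomial

section Generic

variable {R E : Type*} [CommRing R] [IsDomain R] [IsNoetherianRing R] [IsIntegrallyClosed R]
  [Field E] [CharZero E]

/-- Generators of the integral closure, from finiteness over the fraction field. -/
theorem exists_gens_of_finite_frac (f : R →+* E) (hf : Function.Injective f)
    (hfin : letI := FFKit.fracAlgebra (FractionRing R) f hf; Module.Finite (FractionRing R) E) :
    ∃ (n : ℕ) (b : Fin n → E), (∀ i, f.IsIntegralElem (b i)) ∧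
      ∀ y, f.IsIntegralElem y → ∃ p : Fin n → R, y = ∑ i, f (p i) * b i := by
  letI : Algebra R E := f.toAlgebra
  letI : Algebra (FractionRing R) E := FFKit.fracAlgebra (FractionRing R) f hf
  haveI : IsScalarTower R (FractionRing R) E :=
    FFKit.fracAlgebra_isScalarTower (FractionRing R) f hf
  haveI : Module.Finite (FractionRing R) E := hfin
  haveI : CharZero (FractionRing R) := (algebraMap (FractionRing R) E).charZero
  haveI : Module.Finite R (integralClosure R E) :=
    IsIntegralClosure.finite R (FractionRing R) E (integralClosure R E)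
  obtain ⟨n, b, hb⟩ := Module.Finite.exists_fin (R := R) (M := integralClosure R E)
  refine ⟨n, fun i => (b i : E), fun i => (b i).2, fun y hy => ?_⟩
  have hmem : (⟨y, hy⟩ : integralClosure R E) ∈ Submodule.span R (Set.range b) := by
    rw [hb]; trivial
  obtain ⟨r, hr⟩ := (Submodule.mem_span_range_iff_exists_fun _).mp hmem
  refine ⟨r, ?_⟩
  have h3 := congrArg (fun z : integralClosure R E => (z : E)) hr
  simp only [AddSubmonoidClass.coe_finsetSum] at h3
  rw [← h3]
  refine Finset.sum_congr rfl fun i _ => ?_
  rw [Subalgebra.coe_smul, Algebra.smul_def]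
  rfl

/-- Generators of the integral closure, from finiteness over a subfield of fractions
(the shape of `FFKit.fracAlgebra_finite`). -/
theorem exists_gens_of_fracFinite (f : R →+* E) (hf : Function.Injective f) (S : Subfield E)
    (hS : ∀ s ∈ S, ∃ a b : R, f b ≠ 0 ∧ s = f a / f b) [Module.Finite S E] :
    ∃ (n : ℕ) (b : Fin n → E), (∀ i, f.IsIntegralElem (b i)) ∧
      ∀ y, f.IsIntegralElem y → ∃ p : Fin n → R, y = ∑ i, f (p i) * b i :=
  exists_gens_of_finite_frac f hf (FFKit.fracAlgebra_finite (FractionRing R) f hf S hS)

end Generic

section Chart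

variable {W L F Y : Type*} [CommRing W] [IsDomain W] [Field L] [Algebra W L] [IsFractionRing W L]
  [Field F] [Algebra L F]

/-- Clearing the denominators of a polynomial over the fraction field. -/
theorem exists_map_eq_C_mul (r : L[X]) :
    ∃ (c : W) (r' : W[X]), c ≠ 0 ∧ r'.map (algebraMap W L) = C (algebraMap W L c) * r := by
  obtain ⟨b, hbM, hb⟩ := IsLocalization.integerNormalization_spec (nonZeroDivisors W) r
  refine ⟨b, IsLocalization.integerNormalization (nonZeroDivisors W) r,
    nonZeroDivisors.ne_zero hbM, ?_⟩
  rw [hb]
  ext i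
  rw [coeff_smul, coeff_C_mul, Algebra.smul_def]

/-- Evaluation at `j` of a polynomial over `W`, through `W → L → F`. -/
theorem eval₂_comp_eq_aeval_map (j : F) (p : W[X]) :
    eval₂ ((algebraMap L F).comp (algebraMap W L)) j p = aeval j (p.map (algebraMap W L)) := by
  rw [aeval_def, eval₂_map]

theorem eval₂_comp_injective {j : F} (hj : Transcendental L j) :
    Function.Injective (eval₂RingHom ((algebraMap L F).comp (algebraMap W L)) j) := by
  rw [injective_iff_map_eq_zero]
  intro p hp
  rw [coe_eval₂RingHom, eval₂_comp_eq_aeval_map] at hp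
  by_contra hp0
  exact hj ⟨p.map (algebraMap W L),
    (Polynomial.map_ne_zero_iff (IsFractionRing.injective W L)).mpr hp0, hp⟩

/-- Every element of `L(j)` is a quotient of values at `j` of polynomials over `W`. -/
theorem exists_div_of_mem_adjoin {j : F} {s : F}
    (hs : s ∈ IntermediateField.adjoin L {j}) :
    ∃ a b : W[X], eval₂RingHom ((algebraMap L F).comp (algebraMap W L)) j b ≠ 0 ∧
      s = eval₂RingHom ((algebraMap L F).comp (algebraMap W L)) j a /
        eval₂RingHom ((algebraMap L F).comp (algebraMap W L)) j b := by
  obtain ⟨r, q, hrq⟩ := (IntermediateField.mem_adjoin_simple_iff L s).mp hs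
  by_cases hq : aeval j q = 0
  · refine ⟨0, 1, by rw [map_one]; exact one_ne_zero, ?_⟩
    rw [hrq, hq, div_zero, map_zero, zero_div]
  · obtain ⟨cr, r', hcr, hr'⟩ := exists_map_eq_C_mul (W := W) r
    obtain ⟨cq, q', hcq, hq'⟩ := exists_map_eq_C_mul (W := W) q
    have hinj : Function.Injective ((algebraMap L F).comp (algebraMap W L)) :=
      (algebraMap L F).injective.comp (IsFractionRing.injective W L)
    have hcr' : (algebraMap L F) (algebraMap W L cr) ≠ 0 := by
      have := (map_ne_zero_iff _ hinj).mpr hcr
      exact this
    have hcq' : (algebraMap L F) (algebraMap W L cq) ≠ 0 := by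
      have := (map_ne_zero_iff _ hinj).mpr hcq
      exact this
    have er : eval₂ ((algebraMap L F).comp (algebraMap W L)) j r' =
        algebraMap L F (algebraMap W L cr) * aeval j r := by
      rw [eval₂_comp_eq_aeval_map, hr', map_mul, aeval_C]
    have eq : eval₂ ((algebraMap L F).comp (algebraMap W L)) j q' =
        algebraMap L F (algebraMap W L cq) * aeval j q := by
      rw [eval₂_comp_eq_aeval_map, hq', map_mul, aeval_C]
    refine ⟨r' * C cq, q' * C cr, ?_, ?_⟩
    · rw [coe_eval₂RingHom, eval₂_mul, eval₂_C, eq, RingHom.comp_apply]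
      exact mul_ne_zero (mul_ne_zero hcq' hq) hcr'
    · rw [coe_eval₂RingHom, eval₂_mul, eval₂_C, eval₂_mul, eval₂_C, er, eq, hrq,
        RingHom.comp_apply, RingHom.comp_apply]
      field_simp

variable [Field Y] [Algebra F Y]

/-- Transcendence of `j` in the ring-hom currency (the hypothesis `hj` of
`TwoChartsGlue.two_chart_tau`). -/
theorem eval₂_ne_zero_chart (τ : W →+* Y)
    (hτ : ∀ a : W, τ a = algebraMap F Y (algebraMap L F (algebraMap W L a)))
    (j : F) (hj : Transcendental L j) :
    ∀ p : W[X], p ≠ 0 → eval₂ τ (algebraMap F Y j) p ≠ 0 := by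
  intro p hp0 h0
  have hτ' : τ = (algebraMap F Y).comp ((algebraMap L F).comp (algebraMap W L)) :=
    RingHom.ext hτ
  rw [hτ', ← hom_eval₂, map_eq_zero] at h0
  exact hp0 ((injective_iff_map_eq_zero _).mp (eval₂_comp_injective (W := W) hj) p h0)

variable [IsNoetherianRing W] [UniqueFactorizationMonoid W] [CharZero L]

/-- **Generators of the first chart.**  `W` a noetherian UFD with fraction field `L` of
characteristic zero, `F ⊇ L(j)` finite, `Y ⊇ F` finite.  The integral closure of `W[j]` in `Y` is
generated over `W[j]` by finitely many elements (ring-hom currency; this is the hypothesis `hfin`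
of `TwoChartsGlue.two_chart_tau`). -/
theorem exists_gens_chart (τ : W →+* Y)
    (hτ : ∀ a : W, τ a = algebraMap F Y (algebraMap L F (algebraMap W L a)))
    (j : F) (hj : Transcendental L j) [FiniteDimensional (IntermediateField.adjoin L {j}) F]
    [FiniteDimensional F Y] :
    ∃ (n : ℕ) (b : Fin n → Y),
      (∀ i, (eval₂RingHom τ (algebraMap F Y j)).IsIntegralElem (b i)) ∧
      ∀ y, (eval₂RingHom τ (algebraMap F Y j)).IsIntegralElem y →
        ∃ p : Fin n → W[X], y = ∑ i, eval₂RingHom τ (algebraMap F Y j) (p i) * b i := by
  have hτ' : τ = (algebraMap F Y).comp ((algebraMap L F).comp (algebraMap W L)) :=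
    RingHom.ext hτ
  set g : W[X] →+* F := eval₂RingHom ((algebraMap L F).comp (algebraMap W L)) j with hg
  have hginj : Function.Injective g := eval₂_comp_injective hj
  have hcomp : ∀ p : W[X], eval₂RingHom τ (algebraMap F Y j) p = algebraMap F Y (g p) := by
    intro p
    rw [hg, coe_eval₂RingHom, coe_eval₂RingHom, hom_eval₂, hτ']
  have hg'inj : Function.Injective (eval₂RingHom τ (algebraMap F Y j)) := by
    intro p q hpq
    rw [hcomp, hcomp] at hpq
    exact hginj ((algebraMap F Y).injective hpq)
  haveI : CharZero F := charZero_of_injective_algebraMap (algebraMap L F).injective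
  haveI : CharZero Y := charZero_of_injective_algebraMap (algebraMap F Y).injective
  refine exists_gens_of_finite_frac (eval₂RingHom τ (algebraMap F Y j)) hg'inj ?_
  -- finiteness over the fraction field of `W[X]`, in two steps
  letI : Algebra (FractionRing W[X]) F := FFKit.fracAlgebra (FractionRing W[X]) g hginj
  letI : Algebra (FractionRing W[X]) Y :=
    FFKit.fracAlgebra (FractionRing W[X]) (eval₂RingHom τ (algebraMap F Y j)) hg'inj
  haveI : IsScalarTower (FractionRing W[X]) F Y :=
    FFKit.fracAlgebra_isScalarTower_of_comp (FractionRing W[X]) g hginj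
      (eval₂RingHom τ (algebraMap F Y j)) hg'inj hcomp
  have hfinS : Module.Finite (IntermediateField.adjoin L {j}).toSubfield F :=
    (inferInstance : FiniteDimensional (IntermediateField.adjoin L {j}) F)
  haveI : Module.Finite (FractionRing W[X]) F :=
    FFKit.fracAlgebra_finite (FractionRing W[X]) g hginj
      (IntermediateField.adjoin L {j}).toSubfield
      (fun s hs => exists_div_of_mem_adjoin (W := W) hs)
  exact Module.Finite.trans F Y

end Chart

end Fermat.Agent.S18.ChartGens
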