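import Mathlib

/-!
# S18: the chart at infinity for a monogenic Gauss-étale generator

Let `P ∈ W[X][T]` be monic in `T` (coefficients polynomials in `j`), with a root `θ` at `X ↦ j`.
For `m` large, `P_∞(t, T) := t^(m n) P(1/t, T / t^m)` (`n = deg_T P`) is again a monic polynomial
with coefficients polynomials in `t`, it has the root `θ_∞ := t^m θ` at `X ↦ t = 1/j`, and its
reduction is separable over `k(X)` as soon as the reduction of `P` is.

This is the input of the vertical-prime statement on the cusp chart (`X ↦ t = τ^N`).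
-/

set_option autoImplicit false

namespace Fermat.Agent.S18.ChartInf

open Polynomial

section Defs

variable {W : Type*} [CommRing W]

/-- `P_∞(t, T) = t^(m n) P(1/t, T / t^m)`: the `T^i`-coefficient `p_i(X)` is replaced by
`X^(m (n - i)) p_i(1/X)`. -/
noncomputable def reflectPoly (m : ℕ) (P : W[X][X]) : W[X][X] :=
  ∑ i ∈ Finset.range (P.natDegree + 1),
    monomial i (reflect (m * (P.natDegree - i)) (P.coeff i))

theorem coeff_reflectPoly (m : ℕ) (P : W[X][X]) (i : ℕ) :
    (reflectPoly m P).coeff i =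
      if i ≤ P.natDegree then reflect (m * (P.natDegree - i)) (P.coeff i) else 0 := by
  rw [reflectPoly, finset_sum_coeff]
  simp only [coeff_monomial]
  rw [Finset.sum_ite_eq']
  simp only [Finset.mem_range, Nat.lt_succ_iff]

theorem natDegree_reflectPoly_le (m : ℕ) (P : W[X][X]) :
    (reflectPoly m P).natDegree ≤ P.natDegree := by
  rw [natDegree_le_iff_coeff_eq_zero]
  intro N hN
  rw [coeff_reflectPoly, if_neg (not_le.mpr hN)]

theorem coeff_reflectPoly_natDegree (m : ℕ) {P : W[X][X]} (hP : P.Monic) :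
    (reflectPoly m P).coeff P.natDegree = 1 := by
  rw [coeff_reflectPoly, if_pos le_rfl, Nat.sub_self, mul_zero, hP.coeff_natDegree, reflect_one,
    pow_zero]

/-- `P_∞` is monic. -/
theorem reflectPoly_monic (m : ℕ) {P : W[X][X]} (hP : P.Monic) : (reflectPoly m P).Monic :=
  monic_of_natDegree_le_of_coeff_eq_one P.natDegree (natDegree_reflectPoly_le m P)
    (coeff_reflectPoly_natDegree m hP)

theorem natDegree_reflectPoly [Nontrivial W] (m : ℕ) {P : W[X][X]} (hP : P.Monic) :
    (reflectPoly m P).natDegree = P.natDegree := by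
  refine natDegree_eq_of_le_of_coeff_ne_zero (natDegree_reflectPoly_le m P) ?_
  rw [coeff_reflectPoly_natDegree m hP]
  exact one_ne_zero

/-- a uniform bound for the `X`-degrees of the coefficients -/
theorem exists_bound {P : W[X][X]} (hP : P.Monic) :
    ∃ m : ℕ, ∀ i : ℕ, (P.coeff i).natDegree ≤ m * (P.natDegree - i) := by
  refine ⟨(Finset.range (P.natDegree + 1)).sup (fun i => (P.coeff i).natDegree), fun i => ?_⟩
  rcases lt_trichotomy i P.natDegree with h | h | h
  · calc (P.coeff i).natDegree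
        ≤ (Finset.range (P.natDegree + 1)).sup (fun i => (P.coeff i).natDegree) :=
          Finset.le_sup (f := fun i => (P.coeff i).natDegree) (Finset.mem_range.2 (by omega))
      _ = (Finset.range (P.natDegree + 1)).sup (fun i => (P.coeff i).natDegree) * 1 :=
          (mul_one _).symm
      _ ≤ _ := Nat.mul_le_mul_left _ (by omega)
  · subst h
    rw [hP.coeff_natDegree, natDegree_one]
    exact Nat.zero_le _
  · rw [coeff_eq_zero_of_natDegree_lt h, natDegree_zero]
    exact Nat.zero_le _

/-- a bound stays a bound when enlarged -/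
theorem bound_mono {P : W[X][X]} {m m' : ℕ} (hmm : m ≤ m')
    (hm : ∀ i : ℕ, (P.coeff i).natDegree ≤ m * (P.natDegree - i)) :
    ∀ i : ℕ, (P.coeff i).natDegree ≤ m' * (P.natDegree - i) :=
  fun i => (hm i).trans (Nat.mul_le_mul_right _ hmm)

end Defs

/-! ### the root -/

section Root

variable {W : Type*} [CommRing W] {Y : Type*} [CommRing Y]

/-- evaluation of a reflected polynomial at the inverse point -/
theorem map_reflect_eq (φ φ' : W[X] →+* Y) (hC : ∀ c : W, φ' (C c) = φ (C c))
    (hX : φ X * φ' X = 1) (K : ℕ) (p : W[X]) (hp : p.natDegree ≤ K) :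
    φ' (reflect K p) = φ' X ^ K * φ p := by
  have h1 : ∀ q : W[X], φ q = eval₂ (φ.comp C) (φ X) q := fun q => by
    conv_lhs => rw [← eval₂_C_X (p := q)]
    rw [hom_eval₂]
  have h2 : ∀ q : W[X], φ' q = eval₂ (φ.comp C) (φ' X) q := fun q => by
    conv_lhs => rw [← eval₂_C_X (p := q)]
    rw [hom_eval₂]
    congr 1
    exact RingHom.ext hC
  letI : Invertible (φ X) := ⟨φ' X, by rw [mul_comm]; exact hX, hX⟩
  have h3 := eval₂_reflect_mul_pow (φ.comp C) (φ X) K p hp
  have h4 : ⅟(φ X) = φ' X := rfl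
  rw [h4, ← h2, ← h1] at h3
  calc φ' (reflect K p) = φ' (reflect K p) * (φ X ^ K * φ' X ^ K) := by
        rw [← mul_pow, hX, one_pow, mul_one]
    _ = φ' X ^ K * (φ' (reflect K p) * φ X ^ K) := by ring
    _ = φ' X ^ K * φ p := by rw [h3]

/-- **Root at infinity** (value form): `P_∞(t, t^m θ) = t^(m n) P(j, θ)`. -/
theorem eval_reflectPoly_eq (φ φ' : W[X] →+* Y) (hC : ∀ c : W, φ' (C c) = φ (C c))
    (hX : φ X * φ' X = 1) (m : ℕ) (P : W[X][X])
    (hm : ∀ i : ℕ, (P.coeff i).natDegree ≤ m * (P.natDegree - i)) (θ : Y) :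
    ((reflectPoly m P).map φ').eval (φ' X ^ m * θ) =
      φ' X ^ (m * P.natDegree) * (P.map φ).eval θ := by
  have hdeg : (P.map φ).natDegree < P.natDegree + 1 :=
    Nat.lt_succ_of_le natDegree_map_le
  rw [eval_eq_sum_range' hdeg, Finset.mul_sum, reflectPoly, Polynomial.map_sum, eval_finset_sum]
  refine Finset.sum_congr rfl fun i hi => ?_
  have hi' : i ≤ P.natDegree := Nat.lt_succ_iff.mp (Finset.mem_range.mp hi)
  rw [map_monomial, eval_monomial, map_reflect_eq φ φ' hC hX _ _ (hm i), coeff_map, mul_pow,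
    ← pow_mul]
  have h1 : m * P.natDegree = m * (P.natDegree - i) + m * i := by
    rw [← Nat.mul_add, Nat.sub_add_cancel hi']
  rw [h1, pow_add]
  ring

/-- **Root at infinity**: if `P(j, θ) = 0` then `P_∞(t, t^m θ) = 0`. -/
theorem eval_reflectPoly (φ φ' : W[X] →+* Y) (hC : ∀ c : W, φ' (C c) = φ (C c))
    (hX : φ X * φ' X = 1) (m : ℕ) (P : W[X][X])
    (hm : ∀ i : ℕ, (P.coeff i).natDegree ≤ m * (P.natDegree - i)) (θ : Y)
    (hroot : (P.map φ).eval θ = 0) :
    ((reflectPoly m P).map φ').eval (φ' X ^ m * θ) = 0 := by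
  rw [eval_reflectPoly_eq φ φ' hC hX m P hm θ, hroot, mul_zero]

end Root

/-! ### separability -/

section Sep

theorem separable_comp_C_mul_X {K : Type*} [Field K] (q : K[X]) (hq : q.Separable) (a : K)
    (ha : a ≠ 0) : (q.comp (C a * X)).Separable := by
  have h2 : IsCoprime (q.comp (C a * X)) ((derivative q).comp (C a * X)) := by
    have h := IsCoprime.map hq (compRingHom (C a * X : K[X]))
    simpa using h
  have h1 : derivative (C a * X : K[X]) = C a := by
    rw [derivative_C_mul, derivative_X, mul_one]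
  show IsCoprime (q.comp (C a * X)) (derivative (q.comp (C a * X)))
  rw [derivative_comp, h1]
  exact (isCoprime_mul_unit_left_right (isUnit_C.mpr ha.isUnit) _ _).mpr h2

theorem separable_scale {K : Type*} [Field K] (q : K[X]) (hq : q.Separable) (a c : K)
    (ha : a ≠ 0) (hc : c ≠ 0) : (C c * q.comp (C a * X)).Separable :=
  (separable_comp_C_mul_X q hq a ha).unit_mul (isUnit_C.mpr hc.isUnit)

variable {W : Type*} [CommRing W] {k : Type*} [Field k] (res : W →+* k)
  {κ₀ : Type*} [Field κ₀] [Algebra k[X] κ₀] [IsFractionRing k[X] κ₀]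

/-- **Separability at infinity**: if the reduction of `P` is separable over `k(X)`, so is the
reduction of `P_∞`. -/
theorem separable_reflectPoly (m : ℕ) (P : W[X][X])
    (hm : ∀ i : ℕ, (P.coeff i).natDegree ≤ m * (P.natDegree - i))
    (hsep : ((P.map (mapRingHom res)).map (algebraMap k[X] κ₀)).Separable) :
    (((reflectPoly m P).map (mapRingHom res)).map (algebraMap k[X] κ₀)).Separable := by
  set x : κ₀ := algebraMap k[X] κ₀ X with hxdef
  have hinj : Function.Injective (algebraMap k[X] κ₀) := IsFractionRing.injective k[X] κ₀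
  have hx : x ≠ 0 := (map_ne_zero_iff _ hinj).mpr X_ne_zero
  let c : k →+* κ₀ := (algebraMap k[X] κ₀).comp C
  let σ : k[X] →+* κ₀ := eval₂RingHom c x⁻¹
  have hσC : ∀ a : k, algebraMap k[X] κ₀ (C a) = σ (C a) := fun a => by
    show algebraMap k[X] κ₀ (C a) = eval₂ c x⁻¹ (C a)
    rw [eval₂_C]
    rfl
  have hσX : σ X * algebraMap k[X] κ₀ X = 1 := by
    show eval₂ c x⁻¹ X * x = 1
    rw [eval₂_X, inv_mul_cancel₀ hx]
  have hkey : ∀ (K : ℕ) (p : k[X]), p.natDegree ≤ K →
      algebraMap k[X] κ₀ (reflect K p) = x ^ K * σ p := fun K p hp =>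
    map_reflect_eq σ (algebraMap k[X] κ₀) hσC hσX K p hp
  have hσinj : Function.Injective σ := by
    rw [injective_iff_map_eq_zero]
    intro p hp
    have h1 := hkey p.natDegree p le_rfl
    rw [hp, mul_zero] at h1
    exact reflect_eq_zero_iff.mp ((map_eq_zero_iff _ hinj).mp h1)
  have hunit : ∀ y : nonZeroDivisors k[X], IsUnit (σ y) := fun y => by
    rw [isUnit_iff_ne_zero, Ne, map_eq_zero_iff _ hσinj]
    exact nonZeroDivisors.ne_zero y.2
  let σ' : κ₀ →+* κ₀ := IsLocalization.lift (M := nonZeroDivisors k[X]) (g := σ) hunit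
  have hσ' : σ'.comp (algebraMap k[X] κ₀) = σ :=
    RingHom.ext fun q => IsLocalization.lift_eq hunit q
  have hQsep : ((P.map (mapRingHom res)).map σ).Separable := by
    have h := hsep.map (f := σ')
    rwa [Polynomial.map_map, hσ'] at h
  have hid : ((reflectPoly m P).map (mapRingHom res)).map (algebraMap k[X] κ₀) =
      C (x ^ (m * P.natDegree)) * ((P.map (mapRingHom res)).map σ).comp (C (x⁻¹ ^ m) * X) := by
    ext i
    rw [coeff_map, coeff_map, coeff_reflectPoly, coeff_C_mul, comp_C_mul_X_coeff, coeff_map,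
      coeff_map]
    split_ifs with hi
    · rw [coe_mapRingHom, ← reflect_map, hkey _ _ (natDegree_map_le.trans (hm i))]
      have h1 : m * P.natDegree = m * (P.natDegree - i) + m * i := by
        rw [← Nat.mul_add, Nat.sub_add_cancel hi]
      rw [h1, pow_add, ← pow_mul, inv_pow]
      field_simp
    · rw [coeff_eq_zero_of_natDegree_lt (not_le.mp hi)]
      simp
  rw [hid]
  exact separable_scale _ hQsep _ _ (pow_ne_zero _ (inv_ne_zero hx)) (pow_ne_zero _ hx)

end Sep

/-! ### generation -/

theorem adjoin_smul_eq {K Y : Type*} [Field K] [CommRing Y] [Algebra K Y] (a : K) (ha : a ≠ 0)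
    (θ : Y) : Algebra.adjoin K {a • θ} = Algebra.adjoin K {θ} := by
  apply le_antisymm
  · refine Algebra.adjoin_le (Set.singleton_subset_iff.mpr ?_)
    exact (Algebra.adjoin K {θ}).smul_mem (Algebra.self_mem_adjoin_singleton K θ) a
  · refine Algebra.adjoin_le (Set.singleton_subset_iff.mpr ?_)
    have h := (Algebra.adjoin K {a • θ}).smul_mem
      (Algebra.self_mem_adjoin_singleton K (a • θ)) a⁻¹
    rwa [smul_smul, inv_mul_cancel₀ ha, one_smul] at h

/-- generation, in the shape of a chart: `K(t^m θ) = K(θ)` for `t` the image of `r : R` -/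
theorem adjoin_pow_mul_eq_top {R K Y : Type*} [CommRing R] [Field K] [CommRing Y] [Algebra R K]
    [Algebra K Y] [Algebra R Y] [IsScalarTower R K Y] (r : R) (hr : algebraMap R K r ≠ 0) (m : ℕ)
    (θ : Y) (hθ : Algebra.adjoin K {θ} = ⊤) :
    Algebra.adjoin K {algebraMap R Y r ^ m * θ} = ⊤ := by
  have h : algebraMap R Y r ^ m * θ = (algebraMap R K r ^ m) • θ := by
    rw [Algebra.smul_def, map_pow, ← IsScalarTower.algebraMap_apply R K Y]
  rw [h, adjoin_smul_eq _ (pow_ne_zero m hr), hθ]

/-- **Root at infinity**, `aeval` form (the hypothesis `hPθ` of the vertical-prime statement):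
`ι' : W[X] →+* R` the structure map of the chart at infinity (`X ↦ t`), `φ : W[X] →+* Y` the
evaluation at `j`, with `j * t = 1` in `Y`. -/
theorem aeval_reflectPoly {W R Y : Type*} [CommRing W] [CommRing R] [CommRing Y] [Algebra R Y]
    (ι' : W[X] →+* R) (φ : W[X] →+* Y) (hC : ∀ c : W, algebraMap R Y (ι' (C c)) = φ (C c))
    (hX : φ X * algebraMap R Y (ι' X) = 1) (m : ℕ) (P : W[X][X])
    (hm : ∀ i : ℕ, (P.coeff i).natDegree ≤ m * (P.natDegree - i)) (θ : Y)
    (hroot : (P.map φ).eval θ = 0) :
    aeval (algebraMap R Y (ι' X) ^ m * θ) ((reflectPoly m P).map ι') = 0 := by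
  have h := eval_reflectPoly φ ((algebraMap R Y).comp ι') hC hX m P hm θ hroot
  rw [aeval_def, eval₂_map, ← eval_map]
  exact h

end Fermat.Agent.S18.ChartInf
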