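import Mathlib

set_option linter.style.haveILetI false

/-!
# S18, package P5: norm descent (abstract form)

`invariant_mem_range`: let `k` be an algebraically closed field, `E'` a Dedekind domain of finite
type over `k`, `G` a finite group acting faithfully on `E'` by `A0`-algebra automorphisms, where
`A0 → E'` is an injective finite ring map from a noetherian `k`-algebra.  If `A0` contains the
`G`-norm of every element of `E'`, then `A0` is the whole ring of invariants of `G`.
-/

namespace Fermat.Agent.S18.NormDescent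

open scoped Pointwise

section Invariants

variable {A0 E' G : Type*} [CommRing A0] [CommRing E'] [Algebra A0 E']
  [Group G] [MulSemiringAction G E'] [SMulCommClass G A0 E']

theorem mem_inv_iff {x : E'} : x ∈ FixedPoints.subalgebra A0 E' G ↔ ∀ g : G, g • x = x :=
  Iff.rfl

instance instIsInvariantInv : Algebra.IsInvariant (FixedPoints.subalgebra A0 E' G) E' G :=
  ⟨fun x h => ⟨⟨x, h⟩, rfl⟩⟩

instance instIsGaloisGroupInv [FaithfulSMul G E'] :
    IsGaloisGroup G (FixedPoints.subalgebra A0 E' G) E' where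
  faithful := inferInstance
  commutes := inferInstance
  isInvariant := ⟨fun x h => ⟨⟨x, h⟩, rfl⟩⟩

theorem isIntegrallyClosed_inv [IsDomain E'] [IsIntegrallyClosed E'] :
    IsIntegrallyClosed (FixedPoints.subalgebra A0 E' G) := by
  set E := FixedPoints.subalgebra A0 E' G with hE
  let K := FractionRing E
  let L := FractionRing E'
  have hinj : Function.Injective (algebraMap E L) := by
    rw [IsScalarTower.algebraMap_eq E E' L]
    exact (IsFractionRing.injective E' L).comp Subtype.val_injective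
  let φ : K →ₐ[E] L := IsFractionRing.liftAlgHom (K := K) (g := Algebra.ofId E L) hinj
  rw [isIntegrallyClosed_iff K]
  intro x hx
  obtain ⟨a, b, hb, rfl⟩ := IsFractionRing.div_surjective (A := E) x
  have hb0 : (b : E) ≠ 0 := nonZeroDivisors.ne_zero hb
  have hb0' : ((b : E) : E') ≠ 0 := fun h => hb0 (Subtype.ext h)
  have h1 : IsIntegral E (φ (algebraMap E K a / algebraMap E K b)) := hx.map φ
  have h2 : IsIntegral E' (φ (algebraMap E K a / algebraMap E K b)) := h1.tower_top
  obtain ⟨c, hc⟩ := IsIntegrallyClosed.isIntegral_iff.mp h2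
  have hφ : φ (algebraMap E K a / algebraMap E K b) = algebraMap E' L a / algebraMap E' L b := by
    rw [map_div₀, AlgHom.commutes, AlgHom.commutes]
    rfl
  rw [hφ] at hc
  have hbL : algebraMap E' L (b : E') ≠ 0 := by
    rw [Ne, map_eq_zero_iff _ (IsFractionRing.injective E' L)]
    exact hb0'
  have hcb : c * (b : E') = (a : E') := by
    apply IsFractionRing.injective E' L
    rw [map_mul, hc, div_mul_cancel₀ _ hbL]
  have hcinv : ∀ g : G, g • c = c := by
    intro g
    have h3 : (g • c) * (b : E') = c * (b : E') := by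
      have := congrArg (fun y => g • y) hcb
      simp only [smul_mul'] at this
      rw [b.2 g, a.2 g] at this
      rw [this, hcb]
    exact mul_right_cancel₀ hb0' h3
  refine ⟨⟨c, hcinv⟩, ?_⟩
  have hbK : algebraMap E K b ≠ 0 := by
    rw [Ne, map_eq_zero_iff _ (IsFractionRing.injective E K)]
    exact hb0
  rw [eq_div_iff hbK, ← map_mul]
  congr 1
  exact Subtype.ext hcb

theorem isDedekindDomain_inv [IsDedekindDomain E'] [Finite G]
    [IsNoetherianRing (FixedPoints.subalgebra A0 E' G)] :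
    IsDedekindDomain (FixedPoints.subalgebra A0 E' G) := by
  set E := FixedPoints.subalgebra A0 E' G with hE
  haveI : Algebra.IsIntegral E E' := Algebra.IsInvariant.isIntegral E E' G
  haveI : IsIntegrallyClosed E := isIntegrallyClosed_inv
  haveI : Ring.DimensionLEOne E := by
    refine ⟨fun {p} hp0 hp => ?_⟩
    obtain ⟨Q, -, hQp, hQ⟩ := Ideal.exists_ideal_over_prime_of_isIntegral p (⊥ : Ideal E')
      (by
        intro y hy
        rw [Ideal.mem_comap, Ideal.mem_bot] at hy
        have : y = 0 := Subtype.ext hy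
        rw [this]; exact p.zero_mem)
    have hQ0 : Q ≠ ⊥ := by
      rintro rfl
      apply hp0
      rw [← hQ]
      ext y
      rw [Ideal.mem_comap, Ideal.mem_bot, Ideal.mem_bot]
      exact ⟨fun h => Subtype.ext h, fun h => by rw [h]; rfl⟩
    haveI : Q.IsMaximal := hQp.isMaximal hQ0
    rw [← hQ]
    exact Ideal.isMaximal_comap_of_isIntegral_of_isMaximal Q
  exact { }

end Invariants

theorem isAlgClosed_of_surjective {k K : Type*} [Field k] [Field K] [IsAlgClosed k]
    (f : k →+* K) (hf : Function.Surjective f) : IsAlgClosed K := by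
  apply IsAlgClosed.of_exists_root
  intro p _ hp
  obtain ⟨q, rfl⟩ := Polynomial.map_surjective f hf p
  have hq : q.degree ≠ 0 := by
    rw [← Polynomial.degree_map q f]
    exact (Polynomial.degree_pos_of_irreducible hp).ne'
  obtain ⟨x, hx⟩ := IsAlgClosed.exists_root q hq
  exact ⟨f x, by rw [Polynomial.eval_map, Polynomial.eval₂_hom, show q.eval x = 0 from hx,
    map_zero]⟩

theorem val_eq_exp_neg_one {R : Type*} [CommRing R] [IsDedekindDomain R]
    (v : IsDedekindDomain.HeightOneSpectrum R) {x : R} (h1 : x ∈ v.asIdeal)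
    (h2 : x ∉ v.asIdeal ^ 2) :
    v.intValuation x = WithZero.exp (-1 : ℤ) := by
  have hx0 : x ≠ 0 := fun h => h2 (h ▸ Ideal.zero_mem _)
  have hv0 : v.intValuation x ≠ 0 := v.intValuation_ne_zero x hx0
  obtain ⟨m, hm⟩ : ∃ m : ℤ, v.intValuation x = WithZero.exp m :=
    ⟨WithZero.log (v.intValuation x), (WithZero.exp_log hv0).symm⟩
  have h1' := (v.intValuation_le_pow_iff_mem x 1).2 (by simpa using h1)
  have h2' := mt (v.intValuation_le_pow_iff_mem x 2).1 h2
  rw [hm, WithZero.exp_le_exp] at h1'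
  rw [hm, WithZero.exp_le_exp] at h2'
  rw [hm]
  congr 1
  push_cast at h1' h2'
  omega

section Main

variable {k A0 E' G : Type*} [Field k] [IsAlgClosed k]
  [CommRing A0] [IsNoetherianRing A0] [CommRing E'] [IsDedekindDomain E']
  [Algebra k A0] [Algebra k E'] [Algebra A0 E'] [IsScalarTower k A0 E']
  [Algebra.FiniteType k E'] [Module.Finite A0 E']
  [Group G] [Finite G] [MulSemiringAction G E'] [FaithfulSMul G E'] [SMulCommClass G A0 E']

omit [IsNoetherianRing A0] [IsDedekindDomain E'] [Algebra k A0] [Algebra A0 E']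
  [IsScalarTower k A0 E'] [Module.Finite A0 E'] [Group G] [Finite G] [MulSemiringAction G E']
  [FaithfulSMul G E'] [SMulCommClass G A0 E'] in
theorem exists_sub_mem_of_isMaximal (Q : Ideal E') [hQ : Q.IsMaximal] (z : E') :
    ∃ c : k, z - algebraMap k E' c ∈ Q := by
  letI := Ideal.Quotient.field Q
  haveI : Algebra.FiniteType k (E' ⧸ Q) :=
    Algebra.FiniteType.of_surjective (Ideal.Quotient.mkₐ k Q) (Ideal.Quotient.mkₐ_surjective k Q)
  haveI : Module.Finite k (E' ⧸ Q) := finite_of_finite_type_of_isJacobsonRing k (E' ⧸ Q)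
  have hb := IsAlgClosed.algebraMap_bijective_of_isIntegral (k := k) (K := E' ⧸ Q)
  obtain ⟨c, hc⟩ := hb.2 (Ideal.Quotient.mk Q z)
  refine ⟨c, ?_⟩
  rw [← Ideal.Quotient.eq, ← hc]
  rfl

omit [IsAlgClosed k] [Algebra.FiniteType k E'] [Field k] [Algebra k A0] [Algebra k E']
  [IsScalarTower k A0 E'] [IsNoetherianRing A0] [IsDedekindDomain E'] [Module.Finite A0 E']
  [Finite G] [FaithfulSMul G E'] in
theorem comap_smul_eq (g : G) (Q : Ideal E') :
    (g • Q).comap (algebraMap A0 E') = Q.comap (algebraMap A0 E') := by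
  ext a
  rw [Ideal.mem_comap, Ideal.mem_comap, Ideal.mem_pointwise_smul_iff_inv_smul_mem,
    smul_algebraMap]

omit [Algebra.FiniteType k E'] in
theorem under_le_map
    (hinj : Function.Injective (algebraMap A0 E'))
    (hnorm : ∀ x : E', ∃ a : A0, algebraMap A0 E' a = ∏ᶠ g : G, g • x)
    (hres : ∀ (Q : Ideal E') [Q.IsMaximal] (z : E'), ∃ c : k, z - algebraMap k E' c ∈ Q)
    (𝔫 : Ideal A0) [h𝔫max : 𝔫.IsMaximal] (Q : Ideal E') [hQmax : Q.IsMaximal]
    (hQ𝔫 : Q.comap (algebraMap A0 E') = 𝔫) (hQ0 : Q ≠ ⊥) :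
    Q.comap (algebraMap (FixedPoints.subalgebra A0 E' G) E') ≤
      Ideal.map (algebraMap A0 (FixedPoints.subalgebra A0 E' G)) 𝔫 := by
  classical
  haveI : Fintype G := Fintype.ofFinite G
  set E := FixedPoints.subalgebra A0 E' G with hEdef
  haveI : IsNoetherian A0 E' := isNoetherian_of_isNoetherianRing_of_finite A0 E'
  haveI : Module.Finite A0 E := Module.Finite.of_injective E.val.toLinearMap Subtype.val_injective
  haveI : IsNoetherianRing E := isNoetherian_of_tower A0 (inferInstance : IsNoetherian A0 E)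
  haveI : IsDedekindDomain E := isDedekindDomain_inv
  haveI : Module.Finite E E' := Module.Finite.of_restrictScalars_finite A0 E E'
  haveI : Algebra.IsIntegral E E' := inferInstance
  haveI : Algebra.IsIntegral A0 E' := inferInstance
  haveI : Module.Flat E E' := inferInstance
  haveI hQprime : Q.IsPrime := hQmax.isPrime
  set P : Ideal E := Q.under E with hP
  haveI hPmax : P.IsMaximal := Ideal.isMaximal_comap_of_isIntegral_of_isMaximal Q
  haveI : Q.LiesOver P := Ideal.over_under Q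
  -- the finite set of primes over `𝔫`
  have hSfin : (𝔫.primesOver E').Finite := Algebra.QuasiFinite.finite_primesOver 𝔫
  set S : Finset (Ideal E') := hSfin.toFinset with hS
  have hmemS : ∀ 𝔪 : Ideal E', 𝔪 ∈ S ↔ 𝔪.IsPrime ∧ 𝔪.comap (algebraMap A0 E') = 𝔫 := by
    intro 𝔪
    rw [hS, Set.Finite.mem_toFinset, Ideal.primesOver, Set.mem_ofPred_eq, Ideal.liesOver_iff,
      Ideal.under, eq_comm]
  have hQS : Q ∈ S := (hmemS Q).2 ⟨hQprime, hQ𝔫⟩
  haveI : Nontrivial A0 :=
    ⟨⟨0, 1, fun h => h𝔫max.ne_top ((Ideal.eq_top_iff_one _).2 (h ▸ 𝔫.zero_mem))⟩⟩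
  have hSne : ∀ 𝔪 ∈ S, 𝔪 ≠ ⊥ := by
    intro 𝔪 h𝔪 h0
    have h1 : 𝔫 = ⊥ := by
      rw [← ((hmemS 𝔪).1 h𝔪).2, h0]
      ext y
      rw [Ideal.mem_comap, Ideal.mem_bot, Ideal.mem_bot, map_eq_zero_iff _ hinj]
    exact hQ0 (Ideal.eq_bot_of_comap_eq_bot (R := A0) (hQ𝔫.trans h1))
  -- the element `t`
  obtain ⟨t₀, ht₀Q, ht₀Q2⟩ : ∃ t₀ ∈ Q, t₀ ∉ Q ^ 2 := by
    have := Ideal.pow_succ_lt_pow hQ0 1
    obtain ⟨t₀, h1, h2⟩ := SetLike.exists_of_lt this
    exact ⟨t₀, by simpa using h1, by simpa using h2⟩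
  obtain ⟨t, ht⟩ := IsDedekindDomain.exists_forall_sub_mem_ideal (s := S) (fun 𝔪 => 𝔪)
      (fun 𝔪 => if 𝔪 = Q then 2 else 1)
      (fun 𝔪 h𝔪 => Ideal.prime_of_isPrime (hSne 𝔪 h𝔪) ((hmemS 𝔪).1 h𝔪).1)
      (fun 𝔪 _ 𝔪' _ h => h)
      (fun 𝔪 => if (𝔪 : Ideal E') = Q then t₀ else 1)
  have htQ' : t - t₀ ∈ Q ^ 2 := by
    have := ht Q hQS
    simpa using this
  have htQ : t ∈ Q := by
    have h2 : t - t₀ ∈ Q := Ideal.pow_le_self two_ne_zero htQ'
    simpa using Q.add_mem h2 ht₀Q
  have htQ2 : t ∉ Q ^ 2 := fun h => ht₀Q2 (by simpa using (Q ^ 2).sub_mem h htQ')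
  have htS : ∀ 𝔪 ∈ S, 𝔪 ≠ Q → t ∉ 𝔪 := by
    intro 𝔪 h𝔪 hne h
    have h1 : t - 1 ∈ 𝔪 := by
      have := ht 𝔪 h𝔪
      simpa [hne] using this
    exact ((hmemS 𝔪).1 h𝔪).1.ne_top ((Ideal.eq_top_iff_one _).2 (by simpa using 𝔪.sub_mem h h1))
  have ht0 : t ≠ 0 := fun h => htQ2 (h ▸ Ideal.zero_mem _)
  -- the norm `s`
  obtain ⟨a, ha⟩ := hnorm t
  rw [finprod_eq_prod_of_fintype] at ha
  set s : E' := ∏ g : G, g • t with hs
  have hts : t ∣ s := by
    have := Finset.dvd_prod_of_mem (fun g : G => g • t) (Finset.mem_univ (1 : G))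
    simpa using this
  have hsQ : s ∈ Q := Ideal.mem_of_dvd Q hts htQ
  have ha𝔫 : a ∈ 𝔫 := by
    rw [← hQ𝔫, Ideal.mem_comap, ha]
    exact hsQ
  -- valuation of `s`
  let vQ : IsDedekindDomain.HeightOneSpectrum E' := ⟨Q, hQprime, hQ0⟩
  have hval : ∀ g : G, vQ.intValuation (g • t) =
      if g • Q = Q then WithZero.exp (-1 : ℤ) else 1 := by
    intro g
    split_ifs with hg
    · have h1 : g • t ∈ Q := by
        rw [← hg]
        exact Ideal.smul_mem_pointwise_smul g t Q htQ
      have h2 : g • t ∉ Q ^ 2 := by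
        intro h
        have h3 : g • t ∈ g • (Q ^ 2) := by
          rw [smul_pow', hg]
          exact h
        exact htQ2 (Ideal.smul_mem_pointwise_smul_iff.1 h3)
      exact val_eq_exp_neg_one vQ h1 h2
    · have h1 : g • t ∉ Q := by
        intro h
        have h3 : t ∈ g⁻¹ • Q := Ideal.mem_inv_pointwise_smul_iff.2 h
        have h4 : g⁻¹ • Q ∈ S := (hmemS _).2 ⟨inferInstance, by rw [comap_smul_eq]; exact hQ𝔫⟩
        have h5 : g⁻¹ • Q = Q := by
          by_contra hne
          exact htS _ h4 hne h3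
        exact hg (inv_smul_eq_iff.1 h5).symm
      exact IsDedekindDomain.HeightOneSpectrum.intValuation_eq_one_iff.2 h1
  set d : ℕ := Nat.card (MulAction.stabilizer G Q) with hd
  have hvs : vQ.intValuation s = WithZero.exp (-(d : ℤ)) := by
    rw [hs, map_prod]
    simp_rw [hval]
    rw [Finset.prod_ite, Finset.prod_const_one, mul_one, Finset.prod_const, ← WithZero.exp_nsmul]
    congr 1
    rw [hd, Nat.card_eq_fintype_card, Fintype.card_subtype]
    simp [MulAction.mem_stabilizer_iff]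
  have hd1 : 1 ≤ d := Nat.card_pos
  -- ramification index
  have hP0 : P ≠ ⊥ := fun h => hQ0 (Ideal.eq_bot_of_comap_eq_bot (R := E) h)
  have hksurj : ∀ w : E, ∃ c : k, w - algebraMap A0 E (algebraMap k A0 c) ∈ P := by
    intro w
    obtain ⟨c, hc⟩ := hres Q (w : E')
    refine ⟨c, ?_⟩
    rw [hP, Ideal.under, Ideal.mem_comap, map_sub, ← IsScalarTower.algebraMap_apply A0 E E',
      ← IsScalarTower.algebraMap_apply k A0 E']
    exact hc
  letI := Ideal.Quotient.field P
  letI := Ideal.Quotient.field Q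
  haveI : PerfectField P.ResidueField := by
    haveI : IsAlgClosed P.ResidueField := by
      refine isAlgClosed_of_surjective
        ((algebraMap (E ⧸ P) P.ResidueField).comp ((Ideal.Quotient.mk P).comp
          ((algebraMap A0 E).comp (algebraMap k A0)))) ?_
      intro z
      obtain ⟨z', rfl⟩ := (Ideal.bijective_algebraMap_quotient_residueField P).2 z
      obtain ⟨w, rfl⟩ := Ideal.Quotient.mk_surjective z'
      obtain ⟨c, hc⟩ := hksurj w
      refine ⟨c, ?_⟩
      simp only [RingHom.comp_apply]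
      congr 1
      exact (Ideal.Quotient.eq.2 hc).symm
    infer_instance
  have hcard := Ideal.card_stabilizer_eq (G := G) P Q
  rw [Ideal.ramificationIdxIn_eq_ramificationIdx P Q G, Ideal.inertiaDegIn_eq_inertiaDeg P Q G]
    at hcard
  have hf : Q.inertiaDeg E = 1 := by
    rw [Ideal.inertiaDeg_eq_of_isMaximal P Q]
    have hbij : Function.Bijective (Algebra.linearMap (E ⧸ P) (E' ⧸ Q)) := by
      refine ⟨(algebraMap (E ⧸ P) (E' ⧸ Q)).injective, fun z => ?_⟩
      obtain ⟨z', rfl⟩ := Ideal.Quotient.mk_surjective z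
      obtain ⟨c, hc⟩ := hres Q z'
      refine ⟨Ideal.Quotient.mk P (algebraMap A0 E (algebraMap k A0 c)), ?_⟩
      rw [Algebra.linearMap_apply, Ideal.Quotient.algebraMap_mk_of_liesOver]
      rw [← IsScalarTower.algebraMap_apply A0 E E', ← IsScalarTower.algebraMap_apply k A0 E']
      exact (Ideal.Quotient.eq.2 hc).symm
    rw [← (LinearEquiv.ofBijective _ hbij).finrank_eq, Module.finrank_self]
  have he : P.ramificationIdx' Q = Q.ramificationIdx E :=
    Ideal.ramificationIdx'_eq_ramificationIdx P Q hP0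
  have hle : Ideal.map (algebraMap E E') P ≤ Q ^ d := by
    rw [hd, hcard, hf, mul_one, ← he]
    exact Ideal.le_pow_ramificationIdx'
  -- `s` as an element of `E`
  set s' : E := algebraMap A0 E a with hs'
  have hs'val : algebraMap E E' s' = s := by
    rw [hs', ← IsScalarTower.algebraMap_apply A0 E E']
    exact ha
  have hs'P : s' ∈ P := by
    rw [hP, Ideal.under, Ideal.mem_comap, hs'val]
    exact hsQ
  have hs'P2 : s' ∉ P ^ 2 := by
    intro h
    have h1 : algebraMap E E' s' ∈ Ideal.map (algebraMap E E') (P ^ 2) :=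
      Ideal.mem_map_of_mem _ h
    rw [Ideal.map_pow] at h1
    have h2 : algebraMap E E' s' ∈ (Q ^ d) ^ 2 := Ideal.pow_right_mono hle 2 h1
    rw [← pow_mul] at h2
    have h3 := (vQ.intValuation_le_pow_iff_mem _ _).2 h2
    rw [hs'val, hvs, WithZero.exp_le_exp] at h3
    push_cast at h3
    omega
  -- the auxiliary element `b`
  obtain ⟨J, hJ⟩ : P ∣ Ideal.span {s'} := Ideal.dvd_span_singleton.2 hs'P
  have hJP : ¬ J ≤ P := by
    intro h
    apply hs'P2
    have h1 : Ideal.span {s'} ≤ P ^ 2 := by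
      rw [hJ, sq]
      exact Ideal.mul_mono_right h
    exact h1 (Ideal.mem_span_singleton_self s')
  obtain ⟨b, hbJ, hbP⟩ := SetLike.not_le_iff_exists.1 hJP
  have hker : RingHom.ker (algebraMap E E') = ⊥ :=
    (RingHom.injective_iff_ker_eq_bot _).1 Subtype.val_injective
  have htop : Ideal.span {b} ⊔ Ideal.map (algebraMap A0 E) 𝔫 = ⊤ := by
    by_contra hne
    obtain ⟨P₂, hP₂max, hP₂le⟩ := Ideal.exists_le_maximal _ hne
    obtain ⟨𝔪₂, h𝔪₂max, h𝔪₂⟩ := Ideal.exists_ideal_over_maximal_of_isIntegral (S := E') P₂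
      (by rw [hker]; exact bot_le)
    have h𝔪₂𝔫 : 𝔪₂.comap (algebraMap A0 E') = 𝔫 := by
      have h1 : 𝔫 ≤ 𝔪₂.comap (algebraMap A0 E') := by
        intro y hy
        rw [Ideal.mem_comap, IsScalarTower.algebraMap_apply A0 E E', ← Ideal.mem_comap, h𝔪₂]
        exact hP₂le (Ideal.mem_sup_right (Ideal.mem_map_of_mem _ hy))
      exact (h𝔫max.eq_of_le (Ideal.comap_ne_top _ h𝔪₂max.ne_top) h1).symm
    have h𝔪₂S : 𝔪₂ ∈ S := (hmemS 𝔪₂).2 ⟨h𝔪₂max.isPrime, h𝔪₂𝔫⟩
    have hs𝔪₂ : s ∈ 𝔪₂ := by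
      rw [← ha, ← Ideal.mem_comap, h𝔪₂𝔫]
      exact ha𝔫
    obtain ⟨g, -, hg⟩ := (h𝔪₂max.isPrime.prod_mem_iff).1 hs𝔪₂
    have h3 : t ∈ g⁻¹ • 𝔪₂ := Ideal.mem_inv_pointwise_smul_iff.2 hg
    have h4 : g⁻¹ • 𝔪₂ ∈ S :=
      (hmemS _).2 ⟨inferInstance, by rw [comap_smul_eq]; exact h𝔪₂𝔫⟩
    have h5 : g⁻¹ • 𝔪₂ = Q := by
      by_contra hne'
      exact htS _ h4 hne' h3
    have hbP₂ : b ∈ P₂ := hP₂le (Ideal.mem_sup_left (Ideal.mem_span_singleton_self b))
    apply hbP
    rw [hP, Ideal.under, Ideal.mem_comap, ← h5, Ideal.mem_inv_pointwise_smul_iff,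
      show g • (algebraMap E E' b) = algebraMap E E' b from b.2 g, ← Ideal.mem_comap, h𝔪₂]
    exact hbP₂
  obtain ⟨u, n, hn, hun⟩ := Ideal.mem_span_singleton_sup.1
    (show (1 : E) ∈ Ideal.span {b} ⊔ Ideal.map (algebraMap A0 E) 𝔫 from htop ▸ Submodule.mem_top)
  intro y hy
  have hby : b * y ∈ Ideal.span {s'} := by
    rw [hJ, mul_comm b y]
    exact Ideal.mul_mem_mul hy hbJ
  obtain ⟨z, hz⟩ := Ideal.mem_span_singleton'.1 hby
  have hs'𝔫 : s' ∈ Ideal.map (algebraMap A0 E) 𝔫 := Ideal.mem_map_of_mem _ ha𝔫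
  have hy' : y = u * z * s' + n * y := by
    calc y = (u * b + n) * y := by rw [hun, one_mul]
      _ = u * (b * y) + n * y := by ring
      _ = u * (z * s') + n * y := by rw [hz]
      _ = u * z * s' + n * y := by ring
  rw [hy']
  exact Ideal.add_mem _ (Ideal.mul_mem_left _ _ hs'𝔫) (Ideal.mul_mem_right _ _ hn)

end Main

/-- **Norm descent.** If the image of `A0` contains the `G`-norm of every element of the Dedekind
domain `E'`, then every `G`-invariant element of `E'` comes from `A0`. -/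
theorem invariant_mem_range (k : Type*) {A0 E' G : Type*} [Field k] [IsAlgClosed k]
    [CommRing A0] [IsNoetherianRing A0] [CommRing E'] [IsDedekindDomain E']
    [Algebra k A0] [Algebra k E'] [Algebra A0 E'] [IsScalarTower k A0 E']
    [Algebra.FiniteType k E'] [Module.Finite A0 E']
    [Group G] [Finite G] [MulSemiringAction G E'] [FaithfulSMul G E'] [SMulCommClass G A0 E']
    (hinj : Function.Injective (algebraMap A0 E'))
    (hnorm : ∀ x : E', ∃ a : A0, algebraMap A0 E' a = ∏ᶠ g : G, g • x)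
    (x : E') (hx : ∀ g : G, g • x = x) : ∃ a : A0, algebraMap A0 E' a = x := by
  classical
  set E := FixedPoints.subalgebra A0 E' G with hEdef
  haveI : IsNoetherian A0 E' := isNoetherian_of_isNoetherianRing_of_finite A0 E'
  haveI : Module.Finite A0 E := Module.Finite.of_injective E.val.toLinearMap Subtype.val_injective
  haveI : Algebra.IsIntegral A0 E' := inferInstance
  have hres : ∀ (Q : Ideal E') [Q.IsMaximal] (z : E'), ∃ c : k, z - algebraMap k E' c ∈ Q :=
    fun Q _ z => exists_sub_mem_of_isMaximal Q z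
  have key : ∀ 𝔫 : Ideal A0, 𝔫.IsMaximal → ∀ y : E,
      ∃ a : A0, y - algebraMap A0 E a ∈ Ideal.map (algebraMap A0 E) 𝔫 := by
    intro 𝔫 h𝔫 y
    obtain ⟨Q, hQmax, hQ𝔫⟩ := Ideal.exists_ideal_over_maximal_of_isIntegral (S := E') 𝔫
      (by rw [(RingHom.injective_iff_ker_eq_bot _).1 hinj]; exact bot_le)
    obtain ⟨c, hc⟩ := hres Q (y : E')
    refine ⟨algebraMap k A0 c, ?_⟩
    have hc' : algebraMap E E' (y - algebraMap A0 E (algebraMap k A0 c)) ∈ Q := by
      rw [map_sub, ← IsScalarTower.algebraMap_apply A0 E E',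
        ← IsScalarTower.algebraMap_apply k A0 E']
      exact hc
    by_cases hQ0 : Q = ⊥
    · rw [hQ0, Ideal.mem_bot] at hc'
      have h2 : y - algebraMap A0 E (algebraMap k A0 c) = 0 := Subtype.ext hc'
      rw [h2]
      exact Ideal.zero_mem _
    · exact under_le_map (k := k) hinj hnorm hres 𝔫 Q hQ𝔫 hQ0 hc'
  let N₀ : Submodule A0 E := LinearMap.range (Algebra.linearMap A0 E)
  suffices h : N₀ = ⊤ by
    have h1 : (⟨x, hx⟩ : E) ∈ N₀ := h ▸ Submodule.mem_top
    obtain ⟨a, ha⟩ := h1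
    exact ⟨a, congrArg Subtype.val ha⟩
  by_contra hne
  have hann : Module.annihilator A0 (E ⧸ N₀) ≠ ⊤ := by
    intro h
    apply hne
    rw [eq_top_iff]
    intro y _
    have h1 : (1 : A0) ∈ Module.annihilator A0 (E ⧸ N₀) := h ▸ Submodule.mem_top
    have h2 := Module.mem_annihilator.1 h1 (Submodule.Quotient.mk y)
    rw [one_smul, Submodule.Quotient.mk_eq_zero] at h2
    exact h2
  obtain ⟨𝔫, h𝔫max, h𝔫le⟩ := Ideal.exists_le_maximal _ hann
  have hle : (⊤ : Submodule A0 (E ⧸ N₀)) ≤ 𝔫 • ⊤ := by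
    intro m _
    obtain ⟨y, rfl⟩ := Submodule.Quotient.mk_surjective N₀ m
    obtain ⟨a, ha⟩ := key 𝔫 h𝔫max y
    have h1 : y - algebraMap A0 E a ∈ (𝔫 • ⊤ : Submodule A0 E) := by
      rw [Ideal.smul_top_eq_map]
      exact ha
    have h2 : (Submodule.Quotient.mk y : E ⧸ N₀) = N₀.mkQ (y - algebraMap A0 E a) := by
      have h0 : (Submodule.Quotient.mk (algebraMap A0 E a) : E ⧸ N₀) = 0 :=
        (Submodule.Quotient.mk_eq_zero N₀).2 ⟨a, rfl⟩
      rw [Submodule.mkQ_apply, Submodule.Quotient.mk_sub, h0, sub_zero]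
    rw [h2]
    have h3 := Submodule.mem_map_of_mem (f := N₀.mkQ) h1
    rw [Submodule.map_smul''] at h3
    exact Submodule.smul_mono le_rfl le_top h3
  obtain ⟨r, hr1, hr2⟩ := Submodule.exists_sub_one_mem_and_smul_eq_zero_of_fg_of_le_smul 𝔫
    (⊤ : Submodule A0 (E ⧸ N₀)) Module.Finite.fg_top hle
  have hr : r ∈ Module.annihilator A0 (E ⧸ N₀) :=
    Module.mem_annihilator.2 fun m => hr2 m Submodule.mem_top
  have h1 : (1 : A0) ∈ 𝔫 := by
    have := 𝔫.sub_mem (h𝔫le hr) hr1
    simpa using this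
  exact h𝔫max.ne_top ((Ideal.eq_top_iff_one _).2 h1)

/-- Under the hypotheses of `invariant_mem_range`, `A0` is isomorphic to the ring of invariants,
hence is itself a Dedekind domain (in particular integrally closed). -/
theorem isDedekindDomain_of_norms (k : Type*) {A0 E' G : Type*} [Field k] [IsAlgClosed k]
    [CommRing A0] [IsNoetherianRing A0] [CommRing E'] [IsDedekindDomain E']
    [Algebra k A0] [Algebra k E'] [Algebra A0 E'] [IsScalarTower k A0 E']
    [Algebra.FiniteType k E'] [Module.Finite A0 E']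
    [Group G] [Finite G] [MulSemiringAction G E'] [FaithfulSMul G E'] [SMulCommClass G A0 E']
    (hinj : Function.Injective (algebraMap A0 E'))
    (hnorm : ∀ x : E', ∃ a : A0, algebraMap A0 E' a = ∏ᶠ g : G, g • x) :
    IsDedekindDomain A0 := by
  set E := FixedPoints.subalgebra A0 E' G with hEdef
  haveI : IsNoetherian A0 E' := isNoetherian_of_isNoetherianRing_of_finite A0 E'
  haveI : Module.Finite A0 E := Module.Finite.of_injective E.val.toLinearMap Subtype.val_injective
  haveI : IsNoetherianRing E := isNoetherian_of_tower A0 (inferInstance : IsNoetherian A0 E)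
  haveI : IsDedekindDomain E := isDedekindDomain_inv
  have hbij : Function.Bijective (algebraMap A0 E) := by
    refine ⟨fun a b h => hinj ?_, fun y => ?_⟩
    · rw [IsScalarTower.algebraMap_apply A0 E E', h, ← IsScalarTower.algebraMap_apply A0 E E']
    · obtain ⟨a, ha⟩ := invariant_mem_range k hinj hnorm (y : E') y.2
      exact ⟨a, Subtype.ext ha⟩
  haveI : IsDomain A0 := hinj.isDomain (algebraMap A0 E')
  haveI : IsIntegrallyClosed A0 :=
    IsIntegrallyClosed.of_equiv (RingEquiv.ofBijective (algebraMap A0 E) hbij).symm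
  haveI : Algebra.IsIntegral A0 E' := inferInstance
  haveI : Ring.DimensionLEOne A0 := by
    refine ⟨fun {p} hp0 hp => ?_⟩
    obtain ⟨Q, -, hQp, hQ⟩ := Ideal.exists_ideal_over_prime_of_isIntegral p (⊥ : Ideal E')
      (by
        intro y hy
        rw [Ideal.mem_comap, Ideal.mem_bot, map_eq_zero_iff _ hinj] at hy
        rw [hy]; exact p.zero_mem)
    have hQ0 : Q ≠ ⊥ := by
      rintro rfl
      apply hp0
      rw [← hQ]
      ext y
      rw [Ideal.mem_comap, Ideal.mem_bot, Ideal.mem_bot, map_eq_zero_iff _ hinj]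
    haveI : Q.IsMaximal := hQp.isMaximal hQ0
    rw [← hQ]
    exact Ideal.isMaximal_comap_of_isIntegral_of_isMaximal Q
  exact { }

end Fermat.Agent.S18.NormDescent

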