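import Mathlib
import Fermat.Agent.S18.Chart
import Fermat.Agent.S18.NormDescent

/-!
# S18 / S37 : normality of the special fibre, pure algebra

Setting: `D → A → B` commutative rings, `B` integral over `D`, a finite group `G` acting on `B`
with invariants `A`, an element `π : D` and a prime `𝔭` of `A` with `𝔭 ∩ D = π D`.

Hypotheses, in the elementwise currency `InPiC π x` ("`x ∈ π B_(π)`": `s x = π z` for some
`s : D` not divisible by `π`):

* `hRed` : an element lying in all primes of `B` over `𝔭` is in `π B_(π)` (the special fibre of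
  `B` is generically reduced);
* `hPur` : purity -- if `u / g` is integral over `D` modulo `π B_(π)` then `u / g ∈ B + π B_(π)`.

Conclusions: idempotents separating the primes of `B` over `𝔭`, `B ⧸ P` integrally closed for
every prime `P` over `𝔭`, and (with no inertia, an algebraically closed base field and
dimension one) `A ⧸ 𝔭` is a Dedekind domain (`isDedekindDomain_quot`).
-/

set_option autoImplicit false

open Polynomial
open scoped Pointwise

namespace Fermat.Agent.S18.NormalAlg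

section Hom

variable {D : Type*} [CommRing D]

/-- homogenisation of `p` at `(u, g)` : `g ^ deg p * p (u / g)`. -/
noncomputable def hom (p : D[X]) (g : D) {Q : Type*} [CommRing Q] [Algebra D Q] (u : Q) : Q :=
  ∑ i ∈ Finset.range (p.natDegree + 1), (p.coeff i * g ^ (p.natDegree - i)) • u ^ i

theorem map_hom (p : D[X]) (g : D) {Q Q' : Type*} [CommRing Q] [Algebra D Q] [CommRing Q']
    [Algebra D Q'] (f : Q →ₐ[D] Q') (u : Q) : f (hom p g u) = hom p g (f u) := by
  simp only [hom, map_sum, map_smul, map_pow]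

theorem smul_aeval_eq_hom (p : D[X]) (g : D) {Q : Type*} [CommRing Q] [Algebra D Q] (ξ : Q) :
    g ^ p.natDegree • aeval ξ p = hom p g (g • ξ) := by
  rw [aeval_eq_sum_range, Finset.smul_sum, hom]
  refine Finset.sum_congr rfl fun i hi => ?_
  have hi' : i ≤ p.natDegree := Nat.lt_succ_iff.mp (Finset.mem_range.mp hi)
  rw [_root_.smul_pow, smul_smul, smul_smul, mul_assoc (p.coeff i), ← pow_add,
    Nat.sub_add_cancel hi', mul_comm]

theorem hom_X_mul (p : D[X]) (hp : p.Monic) (g : D) {Q : Type*} [CommRing Q] [Algebra D Q]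
    (u : Q) : hom (X * p) g u = u * hom p g u := by
  rcases subsingleton_or_nontrivial D with hD | hD
  · have : Subsingleton Q := Module.subsingleton D Q
    exact Subsingleton.elim _ _
  have hdeg : (X * p).natDegree = p.natDegree + 1 := natDegree_X_mul hp.ne_zero
  rw [hom, hdeg, Finset.sum_range_succ', hom, Finset.mul_sum]
  rw [coeff_X_mul_zero, zero_mul, zero_smul, add_zero]
  refine Finset.sum_congr rfl fun i _ => ?_
  rw [coeff_X_mul, Nat.add_sub_add_right, pow_succ, mul_smul_comm, mul_comm u]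

theorem hom_X_sub_one (g : D) {Q : Type*} [CommRing Q] [Algebra D Q] (u : Q) :
    hom (X - C 1 : D[X]) g u = u - g • 1 := by
  rcases subsingleton_or_nontrivial D with hD | hD
  · have : Subsingleton Q := Module.subsingleton D Q
    exact Subsingleton.elim _ _
  have hdeg : (X - C 1 : D[X]).natDegree = 1 := natDegree_X_sub_C 1
  rw [hom, hdeg, Finset.sum_range_succ, Finset.sum_range_one]
  simp [coeff_X, coeff_one, Algebra.smul_def]
  ring

end Hom

section Main

variable {D A B : Type*} [CommRing D] [CommRing A] [CommRing B] [Algebra D A] [Algebra D B]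
  [Algebra A B] [IsScalarTower D A B]

/-- `x ∈ π B_(π)`, with multipliers from `D`. -/
def InPiC (π : D) (x : B) : Prop := ∃ s : D, ¬ π ∣ s ∧ ∃ z : B, s • x = π • z

variable (π : D) (𝔭 : Ideal A)

omit [IsScalarTower D A B] in
theorem inPiC_zero (hπ : ¬ IsUnit π) : InPiC π (0 : B) :=
  ⟨1, fun h => hπ (isUnit_of_dvd_one h), 0, by simp⟩

theorem algebraMap_mem_of_dvd (hπ𝔭 : algebraMap D A π ∈ 𝔭) {P : Ideal B}
    (hP : P.comap (algebraMap A B) = 𝔭) {s : D} (hs : π ∣ s) : algebraMap D B s ∈ P := by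
  obtain ⟨c, rfl⟩ := hs
  rw [map_mul]
  refine P.mul_mem_right _ ?_
  rw [IsScalarTower.algebraMap_apply D A B, ← Ideal.mem_comap, hP]
  exact hπ𝔭

theorem algebraMap_notMem_of_not_dvd (h𝔭 : ∀ s : D, ¬ π ∣ s → algebraMap D A s ∉ 𝔭) {P : Ideal B}
    (hP : P.comap (algebraMap A B) = 𝔭) {s : D} (hs : ¬ π ∣ s) : algebraMap D B s ∉ P := by
  intro h
  rw [IsScalarTower.algebraMap_apply D A B, ← Ideal.mem_comap, hP] at h
  exact h𝔭 s hs h

theorem mem_of_inPiC (hπ𝔭 : algebraMap D A π ∈ 𝔭)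
    (h𝔭 : ∀ s : D, ¬ π ∣ s → algebraMap D A s ∉ 𝔭) {P : Ideal B} [P.IsPrime]
    (hP : P.comap (algebraMap A B) = 𝔭) {x : B} (hx : InPiC π x) : x ∈ P := by
  obtain ⟨s, hs, z, hz⟩ := hx
  have h1 : algebraMap D B s * x ∈ P := by
    rw [← Algebra.smul_def, hz, Algebra.smul_def]
    exact P.mul_mem_right _ (algebraMap_mem_of_dvd π 𝔭 hπ𝔭 hP dvd_rfl)
  exact (Ideal.IsPrime.mem_or_mem inferInstance h1).resolve_left
    (algebraMap_notMem_of_not_dvd π 𝔭 h𝔭 hP hs)

/-- Modulo a prime over `𝔭`, every element outside it divides an element of `D ∖ π D`. -/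
theorem exists_mul_sub_mem [Algebra.IsIntegral D B] (hπ𝔭 : algebraMap D A π ∈ 𝔭)
    {P : Ideal B} [P.IsPrime] (hP : P.comap (algebraMap A B) = 𝔭) {a : B} (ha : a ∉ P) :
    ∃ (a' : B) (g : D), ¬ π ∣ g ∧ a * a' - algebraMap D B g ∈ P := by
  obtain ⟨Q, hQ, hQa⟩ := Algebra.IsIntegral.isIntegral (R := D) a
  rw [← aeval_def] at hQa
  have hπ0 : algebraMap D (B ⧸ P) π = 0 := by
    rw [← Ideal.Quotient.mk_algebraMap, Ideal.Quotient.eq_zero_iff_mem]
    exact algebraMap_mem_of_dvd π 𝔭 hπ𝔭 hP dvd_rfl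
  have hprime : ∀ x y : B ⧸ P, algebraMap D (B ⧸ P) π ∣ x * y →
      algebraMap D (B ⧸ P) π ∣ x ∨ algebraMap D (B ⧸ P) π ∣ y := by
    intro x y h
    rw [hπ0, zero_dvd_iff] at h
    rw [hπ0, zero_dvd_iff, zero_dvd_iff]
    exact mul_eq_zero.mp h
  have hs : ¬ algebraMap D (B ⧸ P) π ∣ Ideal.Quotient.mk P a := by
    rw [hπ0, zero_dvd_iff, Ideal.Quotient.eq_zero_iff_mem]
    exact ha
  have hdvd : algebraMap D (B ⧸ P) π ∣ aeval (Ideal.Quotient.mk P a) Q := by
    have h2 := aeval_algHom_apply (Ideal.Quotient.mkₐ D P) a Q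
    rw [hQa, map_zero] at h2
    rw [show Ideal.Quotient.mk P a = Ideal.Quotient.mkₐ D P a from rfl, h2]
    exact dvd_zero _
  obtain ⟨s₁, g₀, r, hg₀, h1⟩ := Chart.exists_mul_eq_add_of_monic π hprime
    (Ideal.Quotient.mk P a) hs Q.natDegree Q hQ rfl hdvd
  obtain ⟨a', rfl⟩ := Ideal.Quotient.mk_surjective s₁
  refine ⟨a', g₀, ?_, ?_⟩
  · intro hd
    apply hg₀
    rw [hπ0, zero_dvd_iff, ← Ideal.Quotient.mk_algebraMap, Ideal.Quotient.eq_zero_iff_mem]
    exact algebraMap_mem_of_dvd π 𝔭 hπ𝔭 hP hd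
  · rw [← Ideal.Quotient.eq_zero_iff_mem, map_sub, map_mul, h1, hπ0, zero_mul, add_zero,
      Ideal.Quotient.mk_algebraMap, sub_self]

end Main

section Group

variable {D A B : Type*} [CommRing D] [CommRing A] [CommRing B] [Algebra D A] [Algebra D B]
  [Algebra A B] [IsScalarTower D A B] (G : Type*) [Group G] [Finite G] [MulSemiringAction G B]
  [SMulCommClass G A B] [Algebra.IsInvariant A B G] (π : D) (𝔭 : Ideal A)

include G in
omit [Algebra D A] [Algebra D B] [IsScalarTower D A B] [CommRing D] in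
/-- an element outside `P1` lying in all other primes over `𝔭`. -/
theorem exists_mem_others (P1 : Ideal B) [P1.IsPrime] (hP1 : P1.comap (algebraMap A B) = 𝔭) :
    ∃ a : B, a ∉ P1 ∧
      ∀ P : Ideal B, P.IsPrime → P.comap (algebraMap A B) = 𝔭 → P ≠ P1 → a ∈ P := by
  classical
  obtain ⟨_⟩ := nonempty_fintype G
  let J := Finset.inf {g : G | g • P1 ≠ P1} (fun g ↦ g • P1)
  have h1 : ¬ J ≤ P1 := by
    rw [Ideal.IsPrime.inf_le' inferInstance]
    rintro ⟨g, hg1, hg2⟩
    exact (Finset.mem_filter.mp hg1).2 (smul_eq_of_smul_le hg2)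
  obtain ⟨b, hbJ, hbP⟩ := SetLike.not_le_iff_exists.mp h1
  refine ⟨b, hbP, fun P hPprime hP hne => ?_⟩
  obtain ⟨g, rfl⟩ := Algebra.IsInvariant.exists_smul_of_under_eq A B G P1 P (hP1.trans hP.symm)
  exact (Finset.inf_le (Finset.mem_filter.mpr ⟨Finset.mem_univ g, hne⟩) : J ≤ g • P1) hbJ

include G in
/-- **Idempotents.**  For a prime `P1` of `B` over `𝔭` there is `e : B` with `e ≡ 1` modulo `P1`
and `e ≡ 0` modulo every other prime over `𝔭`. -/
theorem exists_idem [Algebra.IsIntegral D B] (hπ𝔭 : algebraMap D A π ∈ 𝔭)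
    (h𝔭 : ∀ s : D, ¬ π ∣ s → algebraMap D A s ∉ 𝔭)
    (hRed : ∀ x : B, (∀ P : Ideal B, P.IsPrime → P.comap (algebraMap A B) = 𝔭 → x ∈ P) →
      InPiC π x)
    (hPur : ∀ (u : B) (g : D), ¬ π ∣ g → ∀ p : D[X], p.Monic → InPiC π (hom p g u) →
      ∃ b : B, InPiC π (u - g • b))
    (P1 : Ideal B) [P1.IsPrime] (hP1 : P1.comap (algebraMap A B) = 𝔭) :
    ∃ e : B, e - 1 ∈ P1 ∧
      ∀ P : Ideal B, P.IsPrime → P.comap (algebraMap A B) = 𝔭 → P ≠ P1 → e ∈ P := by
  obtain ⟨a, haP1, ha⟩ := exists_mem_others G 𝔭 P1 hP1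
  obtain ⟨a', g, hg, hag⟩ := exists_mul_sub_mem π 𝔭 hπ𝔭 hP1 haP1
  set u := a * a' with hu
  have hx : InPiC π (hom (X * (X - C 1)) g u) := by
    rw [hom_X_mul _ (monic_X_sub_C 1), hom_X_sub_one]
    apply hRed
    intro P hPprime hP
    by_cases hPP : P = P1
    · rw [hPP]
      apply P1.mul_mem_left
      rw [Algebra.smul_def, mul_one]
      exact hag
    · exact P.mul_mem_right _ (P.mul_mem_right _ (ha P hPprime hP hPP))
  obtain ⟨b, hb⟩ := hPur u g hg (X * (X - C 1)) (monic_X.mul (monic_X_sub_C 1)) hx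
  refine ⟨b, ?_, fun P hPprime hP hne => ?_⟩
  · have h1 : u - g • b ∈ P1 := mem_of_inPiC π 𝔭 hπ𝔭 h𝔭 hP1 hb
    have h2 : algebraMap D B g * (b - 1) ∈ P1 := by
      have : algebraMap D B g * (b - 1) = (u - algebraMap D B g) - (u - g • b) := by
        rw [Algebra.smul_def]; ring
      rw [this]
      exact P1.sub_mem hag h1
    exact (Ideal.IsPrime.mem_or_mem inferInstance h2).resolve_left
      (algebraMap_notMem_of_not_dvd π 𝔭 h𝔭 hP1 hg)
  · have := hPprime
    have h1 : u - g • b ∈ P := mem_of_inPiC π 𝔭 hπ𝔭 h𝔭 hP hb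
    have h2 : algebraMap D B g * b ∈ P := by
      have : algebraMap D B g * b = u - (u - g • b) := by
        rw [Algebra.smul_def]; ring
      rw [this]
      exact P.sub_mem (P.mul_mem_right _ (ha P hPprime hP hne)) h1
    exact (hPprime.mem_or_mem h2).resolve_left (algebraMap_notMem_of_not_dvd π 𝔭 h𝔭 hP hg)

include G in
/-- **Normality of the components**: `B ⧸ P1` is integrally closed for every prime `P1` of `B`
over `𝔭`. -/
theorem isIntegrallyClosed_quot [Algebra.IsIntegral D B] (hπ𝔭 : algebraMap D A π ∈ 𝔭)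
    (h𝔭 : ∀ s : D, ¬ π ∣ s → algebraMap D A s ∉ 𝔭)
    (hRed : ∀ x : B, (∀ P : Ideal B, P.IsPrime → P.comap (algebraMap A B) = 𝔭 → x ∈ P) →
      InPiC π x)
    (hPur : ∀ (u : B) (g : D), ¬ π ∣ g → ∀ p : D[X], p.Monic → InPiC π (hom p g u) →
      ∃ b : B, InPiC π (u - g • b))
    (P1 : Ideal B) [P1.IsPrime] (hP1 : P1.comap (algebraMap A B) = 𝔭) :
    IsIntegrallyClosed (B ⧸ P1) := by
  obtain ⟨e, he1, he⟩ := exists_idem G π 𝔭 hπ𝔭 h𝔭 hRed hPur P1 hP1
  rw [isIntegrallyClosed_iff (FractionRing (B ⧸ P1))]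
  intro ξ hξ
  have : Algebra.IsIntegral D (B ⧸ P1) := ⟨fun y => by
    obtain ⟨y, rfl⟩ := Ideal.Quotient.mk_surjective y
    exact (Algebra.IsIntegral.isIntegral (R := D) y).map (Ideal.Quotient.mkₐ D P1)⟩
  have hξD : IsIntegral D ξ := isIntegral_trans ξ hξ
  obtain ⟨p, hp, hpξ⟩ := hξD
  rw [← aeval_def] at hpξ
  obtain ⟨x, y, hy, rfl⟩ := IsFractionRing.div_surjective (A := B ⧸ P1) ξ
  obtain ⟨a, rfl⟩ := Ideal.Quotient.mk_surjective x
  obtain ⟨b, rfl⟩ := Ideal.Quotient.mk_surjective y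
  have hbP1 : b ∉ P1 := fun h =>
    nonZeroDivisors.ne_zero hy (Ideal.Quotient.eq_zero_iff_mem.mpr h)
  obtain ⟨b', g, hg, hbg⟩ := exists_mul_sub_mem π 𝔭 hπ𝔭 hP1 hbP1
  have hb0 : algebraMap (B ⧸ P1)  (FractionRing (B ⧸ P1)) (Ideal.Quotient.mk P1 b) ≠ 0 := fun h =>
    nonZeroDivisors.ne_zero hy (IsFractionRing.injective (B ⧸ P1)  (FractionRing (B ⧸ P1)) (h.trans (map_zero _).symm))
  have h1 : Ideal.Quotient.mk P1 (b * b') = algebraMap D (B ⧸ P1) g := by
    rw [← Ideal.Quotient.mk_algebraMap]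
    exact Ideal.Quotient.eq.mpr hbg
  have hg0 : algebraMap D  (FractionRing (B ⧸ P1)) g ≠ 0 := by
    intro h
    rw [IsScalarTower.algebraMap_apply D (B ⧸ P1) (FractionRing (B ⧸ P1))] at h
    have h' := IsFractionRing.injective (B ⧸ P1)  (FractionRing (B ⧸ P1)) (h.trans (map_zero _).symm)
    rw [← Ideal.Quotient.mk_algebraMap, Ideal.Quotient.eq_zero_iff_mem] at h'
    exact algebraMap_notMem_of_not_dvd π 𝔭 h𝔭 hP1 hg h'
  set ξ := algebraMap (B ⧸ P1)  (FractionRing (B ⧸ P1)) (Ideal.Quotient.mk P1 a) /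
    algebraMap (B ⧸ P1)  (FractionRing (B ⧸ P1)) (Ideal.Quotient.mk P1 b) with hξdef
  have hgξ : g • ξ = algebraMap (B ⧸ P1)  (FractionRing (B ⧸ P1)) (Ideal.Quotient.mk P1 (a * b')) := by
    rw [Algebra.smul_def, IsScalarTower.algebraMap_apply D (B ⧸ P1) (FractionRing (B ⧸ P1)), ← h1,
      map_mul (Ideal.Quotient.mk P1), map_mul (algebraMap _ (FractionRing (B ⧸ P1))), map_mul (Ideal.Quotient.mk P1),
      map_mul (algebraMap _ (FractionRing (B ⧸ P1))), hξdef]
    field_simp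
  have h2 : hom p g (a * b') ∈ P1 := by
    rw [← Ideal.Quotient.eq_zero_iff_mem]
    apply IsFractionRing.injective (B ⧸ P1) (FractionRing (B ⧸ P1))
    rw [map_zero]
    have h3 := smul_aeval_eq_hom p g ξ
    rw [hpξ, smul_zero, hgξ] at h3
    have h4 := map_hom p g
      ((IsScalarTower.toAlgHom D (B ⧸ P1) (FractionRing (B ⧸ P1))).comp (Ideal.Quotient.mkₐ D P1)) (a * b')
    exact h4.trans h3.symm
  have hx : InPiC π (hom (X * p) g (e * (a * b'))) := by
    rw [hom_X_mul _ hp]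
    apply hRed
    intro P hPprime hP
    by_cases hPP : P = P1
    · rw [hPP]
      apply P1.mul_mem_left
      rw [← Ideal.Quotient.eq_zero_iff_mem]
      have h5 := map_hom p g (Ideal.Quotient.mkₐ D P1) (e * (a * b'))
      have h6 := map_hom p g (Ideal.Quotient.mkₐ D P1) (a * b')
      have h7 : Ideal.Quotient.mkₐ D P1 (e * (a * b')) = Ideal.Quotient.mkₐ D P1 (a * b') := by
        apply Ideal.Quotient.eq.mpr
        have : e * (a * b') - a * b' = (e - 1) * (a * b') := by ring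
        rw [this]
        exact P1.mul_mem_right _ he1
      rw [h7, ← h6] at h5
      exact h5.trans (Ideal.Quotient.eq_zero_iff_mem.mpr h2)
    · exact P.mul_mem_right _ (P.mul_mem_right _ (he P hPprime hP hPP))
  obtain ⟨c, hc⟩ := hPur (e * (a * b')) g hg (X * p) (monic_X.mul hp) hx
  have h8 : e * (a * b') - g • c ∈ P1 := mem_of_inPiC π 𝔭 hπ𝔭 h𝔭 hP1 hc
  refine ⟨Ideal.Quotient.mk P1 c, ?_⟩
  have h9 : Ideal.Quotient.mk P1 (a * b') =
      algebraMap D (B ⧸ P1) g * Ideal.Quotient.mk P1 c := by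
    rw [← Ideal.Quotient.mk_algebraMap, ← map_mul]
    apply Ideal.Quotient.eq.mpr
    have : a * b' - algebraMap D B g * c = (e * (a * b') - g • c) - (e - 1) * (a * b') := by
      rw [Algebra.smul_def]; ring
    rw [this]
    exact P1.sub_mem h8 (P1.mul_mem_right _ he1)
  have h10 : algebraMap D  (FractionRing (B ⧸ P1)) g * ξ =
      algebraMap D  (FractionRing (B ⧸ P1)) g * algebraMap (B ⧸ P1)  (FractionRing (B ⧸ P1)) (Ideal.Quotient.mk P1 c) := by
    rw [← Algebra.smul_def, hgξ, h9, map_mul, ← IsScalarTower.algebraMap_apply]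
  exact (mul_left_cancel₀ hg0 h10).symm

end Group

section Dedekind

/-- **Normality descends to the invariants (pure algebra).**  `D → A → B`, `G` finite acting on
`B` with invariants `A` and without inertia at the primes over `𝔭` (`hinert`), `P1` a prime of `B`
over the prime `𝔭` of `A`, `𝔭 ∩ D = π D`.  If the special fibre of `B` is generically reduced
(`hRed`) and pure (`hPur`), `B ⧸ P1` has dimension `≤ 1` and is of finite type over an
algebraically closed field `k`, then `A ⧸ 𝔭` is a Dedekind domain. -/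
theorem isDedekindDomain_quot (k : Type*) [Field k] [IsAlgClosed k]
    {D A B : Type*} [CommRing D] [CommRing A] [IsNoetherianRing A] [CommRing B]
    [IsNoetherianRing B] [Algebra D A] [Algebra D B] [Algebra A B] [IsScalarTower D A B]
    [Algebra.IsIntegral D B] [Module.Finite A B]
    (G : Type*) [Group G] [Finite G] [MulSemiringAction G B] [SMulCommClass G A B]
    [Algebra.IsInvariant A B G]
    (π : D) (𝔭 : Ideal A) [𝔭.IsPrime] (P1 : Ideal B) [P1.IsPrime] [P1.LiesOver 𝔭]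
    [Algebra k (A ⧸ 𝔭)] [Algebra k (B ⧸ P1)] [IsScalarTower k (A ⧸ 𝔭) (B ⧸ P1)]
    [Algebra.FiniteType k (B ⧸ P1)]
    (hπ𝔭 : algebraMap D A π ∈ 𝔭) (h𝔭 : ∀ s : D, ¬ π ∣ s → algebraMap D A s ∉ 𝔭)
    (hdim : Ring.DimensionLEOne (B ⧸ P1))
    (hRed : ∀ x : B, (∀ P : Ideal B, P.IsPrime → P.comap (algebraMap A B) = 𝔭 → x ∈ P) →
      InPiC π x)
    (hPur : ∀ (u : B) (g : D), ¬ π ∣ g → ∀ p : D[X], p.Monic → InPiC π (hom p g u) →
      ∃ b : B, InPiC π (u - g • b))
    (hinert : ∀ σ : G, σ ≠ 1 → ∃ (y r : B) (g : D), ¬ π ∣ g ∧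
      (σ • y - y) * r = algebraMap D B g) :
    IsDedekindDomain (A ⧸ 𝔭) := by
  classical
  have hP1 : P1.comap (algebraMap A B) = 𝔭 := (Ideal.LiesOver.over (P := P1) (p := 𝔭)).symm
  have : IsIntegrallyClosed (B ⧸ P1) := isIntegrallyClosed_quot G π 𝔭 hπ𝔭 h𝔭 hRed hPur P1 hP1
  have : IsDedekindRing (B ⧸ P1) := { hdim with }
  have : IsDedekindDomain (B ⧸ P1) := { }
  have hsurj := Ideal.Quotient.stabilizerHom_surjective G 𝔭 P1
  have hinj : Function.Injective (Ideal.Quotient.stabilizerHom P1 𝔭 G) := by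
    rw [injective_iff_map_eq_one]
    intro σ hσ
    by_contra hne
    have hne' : (σ : G) ≠ 1 := fun h => hne (Subtype.ext h)
    obtain ⟨y, r, g, hg, hyr⟩ := hinert σ hne'
    have h1 : (σ : G) • y - y ∈ P1 := by
      have h2 := congrArg (fun f => f (Ideal.Quotient.mk P1 y)) hσ
      simp only [Ideal.Quotient.stabilizerHom_apply, AlgEquiv.one_apply] at h2
      exact Ideal.Quotient.eq.mp h2
    have h2 : algebraMap D B g ∈ P1 := hyr ▸ P1.mul_mem_right _ h1
    exact algebraMap_notMem_of_not_dvd π 𝔭 h𝔭 hP1 hg h2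
  have : Finite ((B ⧸ P1) ≃ₐ[A ⧸ 𝔭] (B ⧸ P1)) := Finite.of_surjective _ hsurj
  obtain ⟨e, he1, he⟩ := exists_idem G π 𝔭 hπ𝔭 h𝔭 hRed hPur P1 hP1
  refine NormDescent.isDedekindDomain_of_norms k (A0 := A ⧸ 𝔭) (E' := B ⧸ P1)
    (G := (B ⧸ P1) ≃ₐ[A ⧸ 𝔭] (B ⧸ P1)) ?_ ?_
  · exact FaithfulSMul.algebraMap_injective (A ⧸ 𝔭) (B ⧸ P1)
  · intro x
    obtain ⟨x, rfl⟩ := Ideal.Quotient.mk_surjective x
    obtain ⟨_⟩ := nonempty_fintype G
    obtain ⟨_⟩ := nonempty_fintype ((B ⧸ P1) ≃ₐ[A ⧸ 𝔭] (B ⧸ P1))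
    set y := x * e + (1 - e) with hy
    obtain ⟨a, ha⟩ := Algebra.IsInvariant.isInvariant (A := A) (∏ g : G, g • y)
      (Finset.smul_prod_perm y)
    refine ⟨Ideal.Quotient.mk 𝔭 a, ?_⟩
    rw [Ideal.Quotient.algebraMap_mk_of_liesOver, ha, map_prod, finprod_eq_prod_of_fintype]
    have hyx : Ideal.Quotient.mk P1 y = Ideal.Quotient.mk P1 x := by
      apply Ideal.Quotient.eq.mpr
      have : y - x = -((e - 1) * (1 - x)) := by rw [hy]; ring
      rw [this]
      exact P1.neg_mem (P1.mul_mem_right _ he1)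
    -- the factors outside the stabiliser are `1`
    have hout : ∀ g : G, g ∉ MulAction.stabilizer G P1 →
        Ideal.Quotient.mk P1 (g • y) = 1 := by
      intro g hg
      rw [← map_one (Ideal.Quotient.mk P1)]
      apply Ideal.Quotient.eq.mpr
      have h1 : g • (y - 1) ∈ P1 := by
        rw [← Ideal.mem_inv_pointwise_smul_iff]
        have h2 : y - 1 = e * (x - 1) := by rw [hy]; ring
        rw [h2]
        refine Ideal.mul_mem_right _ _ (he (g⁻¹ • P1) (Ideal.IsPrime.smul g⁻¹) ?_ ?_)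
        · exact (Ideal.under_smul A P1 g⁻¹).trans hP1
        · intro h
          apply hg
          rw [MulAction.mem_stabilizer_iff]
          rw [inv_smul_eq_iff] at h
          exact h.symm
      rwa [smul_sub, smul_one] at h1
    rw [← Fintype.prod_subtype_mul_prod_subtype (· ∈ MulAction.stabilizer G P1)
      (fun g => Ideal.Quotient.mk P1 (g • y))]
    rw [Finset.prod_eq_one (s := Finset.univ)
      (f := fun i : {g : G // g ∉ MulAction.stabilizer G P1} =>
        Ideal.Quotient.mk P1 ((i : G) • y)) (fun i _ => hout i i.2), mul_one]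
    refine Fintype.prod_bijective (Ideal.Quotient.stabilizerHom P1 𝔭 G) ⟨hinj, hsurj⟩ _ _ ?_
    intro σ
    rw [AlgEquiv.smul_def, ← hyx]
    rfl

end Dedekind

end Fermat.Agent.S18.NormalAlg
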