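import Mathlib
import Fermat.Agent.S18.NormalAlg
import Fermat.Agent.S18.ChartHU

/-!
# S18 / S37 : normality of the special fibre of a chart (bridge)

`chart_normal_of_closure` : `D` = chart ring of the `j`-line, `R0` = regular auxiliary ring finite
over `D`, `K' = Frac R0`, `Y'` finite separable over `K'` and finite Galois over `F`, `B` the
integral closure of `R0` in `Y'` and `A` the integral closure of `D` in `F`.  If the trace form of
`B` is nondegenerate at `(π)` and at every prime of `R0` not containing `π` (the hypothesis `hU`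
of `ChartHU.chart_lift_hU`), `π` is prime in `A`, the Galois group of `Y'/F` has no inertia at
`π` and the residue field of the base is algebraically closed, then `A ⧸ π A` is a Dedekind
domain.  `chart_normal` is the same statement for the concrete integral closures.
-/

set_option autoImplicit false
set_option linter.style.haveILetI false

open Polynomial

namespace Fermat.Agent.S18.ChartNormal

open Fermat.Agent.S18.NormalAlg

/-- incomparability for integral extensions, elementwise over a principal prime of the base. -/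
theorem eq_of_le_of_over {D S : Type*} [CommRing D] [CommRing S] [Algebra D S]
    [Algebra.IsIntegral D S] (π : D) (I J : Ideal S) [I.IsPrime] (hIJ : I ≤ J)
    (hI : ∀ s : D, π ∣ s → algebraMap D S s ∈ I) (hJ : ∀ s : D, algebraMap D S s ∈ J → π ∣ s) :
    I = J := by
  refine le_antisymm hIJ fun x hxJ => ?_
  by_contra hxI
  have hlt := Ideal.comap_lt_comap_of_integral_mem_sdiff hIJ ⟨hxJ, hxI⟩
    (Algebra.IsIntegral.isIntegral (R := D) x)
  obtain ⟨-, s, hsJ, hsI⟩ := SetLike.lt_iff_le_and_exists.mp hlt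
  exact hsI (hI s (hJ s hsJ))

/-- divisibility in the integral closure descends to an integrally closed base. -/
theorem dvd_of_dvd_closure {R K Y B : Type*} [CommRing R] [IsDomain R] [IsIntegrallyClosed R]
    [Field K] [Algebra R K] [IsFractionRing R K] [Field Y] [Algebra K Y] [Algebra R Y]
    [IsScalarTower R K Y] [CommRing B] [Algebra R B] [Algebra B Y] [IsScalarTower R B Y]
    [IsIntegralClosure B R Y] (π s : R) (hπ : π ≠ 0)
    (h : algebraMap R B π ∣ algebraMap R B s) : π ∣ s := by
  obtain ⟨b, hb⟩ := h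
  have hinjKY := (algebraMap K Y).injective
  have hπK : algebraMap R K π ≠ 0 := fun h0 =>
    hπ (IsFractionRing.injective R K (h0.trans (map_zero _).symm))
  have hπY : algebraMap R Y π ≠ 0 := by
    rw [IsScalarTower.algebraMap_apply R K Y]
    exact fun h0 => hπK (hinjKY (h0.trans (map_zero _).symm))
  have hc : algebraMap K Y (algebraMap R K s / algebraMap R K π) = algebraMap B Y b := by
    have h1 : algebraMap R Y s = algebraMap R Y π * algebraMap B Y b := by
      rw [IsScalarTower.algebraMap_apply R B Y, hb, map_mul,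
        ← IsScalarTower.algebraMap_apply R B Y]
    rw [map_div₀, ← IsScalarTower.algebraMap_apply R K Y, ← IsScalarTower.algebraMap_apply R K Y,
      h1]
    field_simp
  have hint : IsIntegral R (algebraMap R K s / algebraMap R K π) := by
    rw [← isIntegral_algebraMap_iff hinjKY, hc]
    exact (IsIntegralClosure.isIntegral R Y b).algebraMap
  obtain ⟨r, hr⟩ := IsIntegrallyClosed.isIntegral_iff.mp hint
  refine ⟨r, IsFractionRing.injective R K ?_⟩
  rw [map_mul, hr]
  field_simp

/-- **Chart normality** (generic integral closures `A`, `B`). -/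
theorem chart_normal_of_closure {W k D R0 K' F Y' A B : Type*}
    [CommRing W] [Field k] [IsAlgClosed k]
    [CommRing D] [IsNoetherianRing D] [Algebra W D] [Algebra.FiniteType W D]
    [CommRing R0] [IsDomain R0] [IsNoetherianRing R0] [IsIntegrallyClosed R0]
    [Field K'] [Field F] [Field Y']
    [Algebra D R0] [Module.Finite D R0] [Algebra D F] [Algebra R0 K'] [Algebra K' Y']
    [Algebra R0 Y'] [Algebra F Y'] [Algebra D Y']
    [IsScalarTower D R0 Y'] [IsScalarTower D F Y'] [IsScalarTower R0 K' Y']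
    [IsFractionRing R0 K'] [FiniteDimensional K' Y'] [Algebra.IsSeparable K' Y']
    [FiniteDimensional F Y'] [IsGalois F Y']
    [CommRing B] [Algebra R0 B] [Algebra B Y'] [IsScalarTower R0 B Y'] [IsIntegralClosure B R0 Y']
    [Algebra D B] [IsScalarTower D R0 B]
    [CommRing A] [Algebra D A] [Algebra A F] [IsScalarTower D A F] [IsIntegralClosure A D F]
    [Algebra A B] [IsScalarTower D A B] [Algebra A Y'] [IsScalarTower A F Y']
    [IsScalarTower A B Y']
    (res : W →+* k) (hres : Function.Surjective res)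
    (π : D) (hker : ∀ a : W, res a = 0 → π ∣ algebraMap W D a)
    (hinjD : Function.Injective (algebraMap D R0))
    (hπ : Prime (algebraMap D R0 π))
    (hDed : IsDedekindDomain (R0 ⧸ Ideal.span {algebraMap D R0 π}))
    (hcompat : ∀ a : D, algebraMap D R0 π ∣ algebraMap D R0 a → π ∣ a)
    (hU : ∀ 𝔭 : Ideal R0, 𝔭.IsPrime →
      (𝔭 = Ideal.span {algebraMap D R0 π} ∨ algebraMap D R0 π ∉ 𝔭) →
        TowerUnram.TraceNondeg R0 K' Y' B 𝔭)
    (hπF : Prime (algebraMap D A π))
    (hinert : ∀ σ : Y' ≃ₐ[F] Y', σ ≠ 1 → ∃ y r : Y', IsIntegral D y ∧ IsIntegral D r ∧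
      ∃ g : D, ¬ π ∣ g ∧ (σ y - y) * r = algebraMap D Y' g) :
    IsDedekindDomain (A ⧸ Ideal.span {algebraMap D A π}) := by
  classical
  -- injectivity
  have hinjRY : Function.Injective (algebraMap R0 Y') := by
    rw [IsScalarTower.algebraMap_eq R0 K' Y']
    exact (algebraMap K' Y').injective.comp (IsFractionRing.injective R0 K')
  have hinjDY : Function.Injective (algebraMap D Y') := by
    rw [IsScalarTower.algebraMap_eq D R0 Y']
    exact hinjRY.comp hinjD
  have hinjDF : Function.Injective (algebraMap D F) := by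
    intro x y hxy
    apply hinjDY
    rw [IsScalarTower.algebraMap_apply D F Y', hxy, ← IsScalarTower.algebraMap_apply D F Y']
  have hinjBY : Function.Injective (algebraMap B Y') :=
    IsIntegralClosure.algebraMap_injective B R0 Y'
  have hinjAF : Function.Injective (algebraMap A F) :=
    IsIntegralClosure.algebraMap_injective A D F
  haveI : IsDomain B := Function.Injective.isDomain (algebraMap B Y') hinjBY
  haveI : IsDomain A := Function.Injective.isDomain (algebraMap A F) hinjAF
  haveI : Nontrivial D := (algebraMap D R0).domain_nontrivial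
  -- towers
  haveI : IsScalarTower D B Y' := IsScalarTower.of_algebraMap_eq fun x => by
    rw [IsScalarTower.algebraMap_apply D R0 Y', IsScalarTower.algebraMap_apply R0 B Y',
      ← IsScalarTower.algebraMap_apply D R0 B]
  haveI : IsScalarTower D A Y' := IsScalarTower.of_algebraMap_eq fun x => by
    rw [IsScalarTower.algebraMap_apply D F Y', IsScalarTower.algebraMap_apply D A F,
      ← IsScalarTower.algebraMap_apply A F Y']
  have hinjAB : Function.Injective (algebraMap A B) := by
    intro x y hxy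
    apply hinjAF
    apply (algebraMap F Y').injective
    rw [← IsScalarTower.algebraMap_apply A F Y', ← IsScalarTower.algebraMap_apply A F Y',
      IsScalarTower.algebraMap_apply A B Y', hxy, ← IsScalarTower.algebraMap_apply A B Y']
  -- integrality, finiteness
  haveI : Algebra.IsIntegral R0 B := IsIntegralClosure.isIntegral_algebra R0 Y'
  haveI : Algebra.IsIntegral D B := Algebra.IsIntegral.trans R0
  haveI : Algebra.IsIntegral D A := IsIntegralClosure.isIntegral_algebra D F
  haveI : Module.Finite R0 B := IsIntegralClosure.finite R0 K' Y' B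
  haveI : Module.Finite D B := Module.Finite.trans R0 B
  haveI : IsNoetherianRing B := IsNoetherianRing.of_finite D B
  haveI : Module.Finite A B := Module.Finite.of_restrictScalars_finite D A B
  haveI : IsNoetherian D B := isNoetherian_of_isNoetherianRing_of_finite D B
  haveI : Module.Finite D A :=
    Module.Finite.of_injective (IsScalarTower.toAlgHom D A B).toLinearMap hinjAB
  haveI : IsNoetherianRing A := IsNoetherianRing.of_finite D A
  -- the AKLB setup for `A ⊆ B`
  haveI : IsFractionRing B Y' := IsIntegralClosure.isFractionRing_of_finite_extension R0 K' Y' B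
  haveI : Algebra.IsAlgebraic R0 Y' :=
    IsFractionRing.comap_isAlgebraic_iff.mpr (inferInstance : Algebra.IsAlgebraic K' Y')
  haveI : Algebra.IsAlgebraic D Y' := Algebra.IsAlgebraic.trans D R0 Y'
  haveI : Algebra.IsAlgebraic D F := ⟨fun x =>
    (isAlgebraic_algebraMap_iff (algebraMap F Y').injective).mp
      (Algebra.IsAlgebraic.isAlgebraic (algebraMap F Y' x))⟩
  haveI : IsFractionRing A F := IsIntegralClosure.isFractionRing_of_algebraic D A
    (fun x hx => hinjDF (hx.trans (map_zero _).symm))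
  haveI : IsIntegrallyClosed A := (isIntegrallyClosed_iff F).mpr fun {x} hx =>
    IsIntegralClosure.isIntegral_iff.mp (isIntegral_trans (R := D) x hx)
  haveI : IsIntegralClosure B A Y' := ⟨hinjBY, fun {x} =>
    ⟨fun hx => IsIntegralClosure.isIntegral_iff.mp
        ((isIntegral_trans (R := D) x hx).tower_top (A := R0)),
      fun ⟨y, hy⟩ => hy ▸ ((Algebra.IsIntegral.isIntegral (R := D) y).algebraMap
        (B := Y')).tower_top⟩⟩
  -- the group
  haveI : Algebra.IsInvariant A B (B ≃ₐ[A] B) := Algebra.isInvariant_of_isGalois' A F Y' B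
  haveI : Finite (B ≃ₐ[A] B) := Finite.of_equiv _ (galRestrict A F Y' B).toEquiv
  -- smul compatibilities
  have hsmD : ∀ (a : D) (x : B), algebraMap B Y' (a • x) = a • algebraMap B Y' x := fun a x => by
    rw [Algebra.smul_def, map_mul, ← IsScalarTower.algebraMap_apply D B Y', ← Algebra.smul_def]
  have hsmR : ∀ (a : R0) (x : B), algebraMap B Y' (a • x) = a • algebraMap B Y' x := fun a x => by
    rw [Algebra.smul_def, map_mul, ← IsScalarTower.algebraMap_apply R0 B Y', ← Algebra.smul_def]
  -- the primes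
  obtain ⟨π0, hπ0⟩ : ∃ π0 : R0, π0 = algebraMap D R0 π := ⟨_, rfl⟩
  rw [← hπ0] at hπ hDed hcompat hU
  obtain ⟨𝔭, h𝔭def⟩ : ∃ 𝔭 : Ideal A, 𝔭 = Ideal.span {algebraMap D A π} := ⟨_, rfl⟩
  rw [← h𝔭def]
  haveI h𝔭prime : 𝔭.IsPrime := by
    rw [h𝔭def]
    exact (Ideal.span_singleton_prime hπF.ne_zero).mpr hπF
  haveI h𝔭0prime : (Ideal.span {π0} : Ideal R0).IsPrime :=
    (Ideal.span_singleton_prime hπ.ne_zero).mpr hπ
  obtain ⟨P1, hP1prime, hP1⟩ := Ideal.exists_ideal_over_prime_of_isIntegral_of_isDomain (S := B) 𝔭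
    (by rw [(RingHom.injective_iff_ker_eq_bot _).mp hinjAB]; exact bot_le)
  haveI := hP1prime
  haveI : P1.LiesOver 𝔭 := ⟨hP1.symm⟩
  have hπ𝔭 : algebraMap D A π ∈ 𝔭 := by
    rw [h𝔭def]
    exact Ideal.subset_span rfl
  have hπB : algebraMap R0 B π0 = algebraMap D B π := by
    rw [hπ0, ← IsScalarTower.algebraMap_apply D R0 B]
  have h𝔭 : ∀ s : D, ¬ π ∣ s → algebraMap D A s ∉ 𝔭 := by
    intro s hs hmem
    rw [h𝔭def] at hmem
    obtain ⟨a, ha⟩ := Ideal.mem_span_singleton.mp hmem
    apply hs
    apply hcompat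
    apply dvd_of_dvd_closure (K := K') (Y := Y') (B := B) π0 _ hπ.ne_zero
    refine ⟨algebraMap A B a, ?_⟩
    rw [hπB, ← IsScalarTower.algebraMap_apply D R0 B, IsScalarTower.algebraMap_apply D A B, ha,
      map_mul, ← IsScalarTower.algebraMap_apply D A B]
  -- a prime of `B` over `(π0)` lies over `𝔭`
  have hover : ∀ 𝔮 : Ideal B, 𝔮.IsPrime → 𝔮.comap (algebraMap R0 B) = Ideal.span {π0} →
      𝔮.comap (algebraMap A B) = 𝔭 := by
    intro 𝔮 h𝔮 h𝔮0
    haveI := h𝔮
    symm
    apply eq_of_le_of_over (D := D) π 𝔭 (𝔮.comap (algebraMap A B))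
    · rw [h𝔭def, Ideal.span_le, Set.singleton_subset_iff]
      show algebraMap A B (algebraMap D A π) ∈ 𝔮
      rw [← IsScalarTower.algebraMap_apply D A B, ← hπB, ← Ideal.mem_comap, h𝔮0]
      exact Ideal.subset_span rfl
    · intro s hs
      obtain ⟨c, rfl⟩ := hs
      rw [map_mul]
      exact 𝔭.mul_mem_right _ hπ𝔭
    · intro s hs
      apply hcompat
      rw [← Ideal.mem_span_singleton, ← h𝔮0, Ideal.mem_comap,
        ← IsScalarTower.algebraMap_apply D R0 B, IsScalarTower.algebraMap_apply D A B]
      exact hs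
  have hP1R0 : P1.comap (algebraMap R0 B) = Ideal.span {π0} := by
    symm
    apply eq_of_le_of_over (D := D) π (Ideal.span {π0}) (P1.comap (algebraMap R0 B))
    · rw [Ideal.span_le, Set.singleton_subset_iff]
      show algebraMap R0 B π0 ∈ P1
      rw [hπB, IsScalarTower.algebraMap_apply D A B, ← Ideal.mem_comap, hP1]
      exact hπ𝔭
    · intro s hs
      rw [hπ0]
      exact Ideal.mem_span_singleton.mpr (map_dvd (algebraMap D R0) hs)
    · intro s hs
      by_contra hns
      exact NormalAlg.algebraMap_notMem_of_not_dvd π 𝔭 h𝔭 hP1 hns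
        (by rw [IsScalarTower.algebraMap_apply D R0 B]; exact hs)
  -- dimension
  haveI : P1.LiesOver (Ideal.span {π0} : Ideal R0) := ⟨hP1R0.symm⟩
  haveI := hDed
  have hdim : Ring.DimensionLEOne (B ⧸ P1) := ⟨fun {Q} hQ0 hQprime => by
    haveI := hQprime
    exact Ideal.isMaximal_of_isIntegral_of_isMaximal_comap (R := R0 ⧸ Ideal.span {π0}) Q
      (Ideal.IsPrime.isMaximal (Ideal.comap_isPrime _ Q)
        (fun h => hQ0 (Ideal.eq_bot_of_comap_eq_bot h)))⟩
  -- generic reducedness of the special fibre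
  have hnm : ∀ s : D, ¬ π ∣ s → algebraMap D R0 s ∉ Ideal.span {π0} := fun s hs h =>
    hs (hcompat s (Ideal.mem_span_singleton.mp h))
  have hRed : ∀ x : B, (∀ P : Ideal B, P.IsPrime → P.comap (algebraMap A B) = 𝔭 → x ∈ P) →
      InPiC π x := by
    intro x hx
    obtain ⟨s, hs, hsx⟩ := hU (Ideal.span {π0}) h𝔭0prime (Or.inl rfl) x (fun y =>
      TowerUnram.trace_mem_of_mem_primes (K := K') (Y := Y') (Ideal.span {π0}) (x * y)
        (fun 𝔮 h𝔮 h𝔮0 => 𝔮.mul_mem_right _ (hx 𝔮 h𝔮 (hover 𝔮 h𝔮 h𝔮0))))
    rw [Submodule.ideal_span_singleton_smul, Submodule.mem_smul_pointwise_iff_exists] at hsx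
    obtain ⟨z, -, hz⟩ := hsx
    obtain ⟨s', g, hg, hsg⟩ := Chart.gauss_unique (A := D) (A' := R0) π
      (fun a b => by rw [← hπ0]; exact hπ.dvd_or_dvd)
      (by rw [← hπ0]; exact hcompat) s
      (fun h => hs (Ideal.mem_span_singleton.mpr (by rw [hπ0]; exact h)))
    refine ⟨g, hg, s' • z, ?_⟩
    rw [← algebraMap_smul R0 g x, ← hsg, mul_comm, mul_smul, ← hz, smul_comm s' π0 z, hπ0,
      algebraMap_smul]
  -- purity
  have hT : ∀ (x : B) (r : R0), r ∉ Ideal.span {π0} → (∃ z : B, r • x = π0 • z) →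
      ∃ z : B, x = π0 • z := fun x r hr h =>
    EtaleGauss.torsionFree_quot (Y := Y') K' π0 hπ x r hr h
  have hPur : ∀ (u : B) (g : D), ¬ π ∣ g → ∀ p : D[X], p.Monic → InPiC π (hom p g u) →
      ∃ b : B, InPiC π (u - g • b) := by
    rintro u g hg p hp ⟨s, hs, z, hz⟩
    have hg0 : algebraMap D Y' g ≠ 0 := fun h =>
      hg (by rw [hinjDY (h.trans (map_zero _).symm)]; exact dvd_zero π)
    obtain ⟨c, hc⟩ : ∃ c : Y', c = algebraMap B Y' u / algebraMap D Y' g := ⟨_, rfl⟩
    have hgc : g • c = algebraMap B Y' u := by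
      rw [hc, Algebra.smul_def]
      field_simp
    have hc' : ∃ s : R0, s ∉ Ideal.span {π0} ∧ ∃ b : B, s • c = algebraMap B Y' b :=
      ⟨algebraMap D R0 g, hnm g hg, u, by rw [algebraMap_smul]; exact hgc⟩
    have hpc : ∃ s : R0, s ∉ Ideal.span {π0} ∧ ∃ b : B,
        s • aeval c (p.map (algebraMap D R0)) = π0 • algebraMap B Y' b := by
      refine ⟨algebraMap D R0 (s * g ^ p.natDegree), ?_, z, ?_⟩
      · rw [map_mul, map_pow]
        intro h
        rcases Ideal.IsPrime.mem_or_mem h𝔭0prime h with h1 | h1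
        · exact hnm s hs h1
        · exact hnm g hg (h𝔭0prime.mem_of_pow_mem _ h1)
      · rw [aeval_map_algebraMap, algebraMap_smul, mul_smul, smul_aeval_eq_hom, hgc]
        have h4 := map_hom p g (IsScalarTower.toAlgHom D B Y') u
        rw [show hom p g (algebraMap B Y' u) = algebraMap B Y' (hom p g u) from h4.symm,
          ← hsmD, hz, hsmD, hπ0, algebraMap_smul]
    obtain ⟨b, t, ht, b₁, hb⟩ := Purity.purity (K := K') π0 hπ.ne_zero h𝔭0prime hDed hT
      (fun 𝔮 h𝔮 h => hU 𝔮 h𝔮 h) c hc' (p.map (algebraMap D R0)) (hp.map _) hpc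
    obtain ⟨t', g', hg', htg⟩ := Chart.gauss_unique (A := D) (A' := R0) π
      (fun a b => by rw [← hπ0]; exact hπ.dvd_or_dvd)
      (by rw [← hπ0]; exact hcompat) t
      (fun h => ht (Ideal.mem_span_singleton.mpr (by rw [hπ0]; exact h)))
    refine ⟨b, g', hg', t' • (g • b₁), ?_⟩
    apply hinjBY
    rw [hsmD, hsmD, hsmR, hsmD, map_sub, hsmD, ← hgc]
    have hb' : algebraMap R0 Y' t * (c - algebraMap B Y' b) =
        algebraMap R0 Y' π0 * algebraMap B Y' b₁ := by
      rw [← Algebra.smul_def, hb, Algebra.smul_def]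
    have htg' : algebraMap R0 Y' t * algebraMap R0 Y' t' = algebraMap D Y' g' := by
      rw [← map_mul, htg, ← IsScalarTower.algebraMap_apply]
    have hπY : algebraMap R0 Y' π0 = algebraMap D Y' π := by
      rw [hπ0, ← IsScalarTower.algebraMap_apply]
    simp only [Algebra.smul_def]
    linear_combination (-(algebraMap D Y' g * (c - algebraMap B Y' b))) * htg' +
      (algebraMap R0 Y' t' * algebraMap D Y' g) * hb' +
      (algebraMap R0 Y' t' * algebraMap D Y' g * algebraMap B Y' b₁) * hπY
  -- no inertia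
  have hinert' : ∀ σ : B ≃ₐ[A] B, σ ≠ 1 → ∃ (y r : B) (g : D), ¬ π ∣ g ∧
      (σ • y - y) * r = algebraMap D B g := by
    intro σ hσ
    have hσ' : (galRestrict A F Y' B).symm σ ≠ 1 := fun h =>
      hσ (by rw [← (galRestrict A F Y' B).apply_symm_apply σ, h, map_one])
    obtain ⟨y, r, hy, hr, g, hg, h⟩ := hinert ((galRestrict A F Y' B).symm σ) hσ'
    have hy' : IsIntegral R0 y := hy.tower_top
    have hr' : IsIntegral R0 r := hr.tower_top
    refine ⟨IsIntegralClosure.mk' B y hy', IsIntegralClosure.mk' B r hr', g, hg, hinjBY ?_⟩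
    have h5 := algebraMap_galRestrict_apply A ((galRestrict A F Y' B).symm σ)
      (IsIntegralClosure.mk' B y hy')
    rw [IsIntegralClosure.algebraMap_mk', MulEquiv.apply_symm_apply] at h5
    rw [map_mul, map_sub, AlgEquiv.smul_def, h5, IsIntegralClosure.algebraMap_mk',
      IsIntegralClosure.algebraMap_mk', ← IsScalarTower.algebraMap_apply D B Y', ← h]
  -- the residue field structures
  let φA : W →+* A ⧸ 𝔭 := (Ideal.Quotient.mk 𝔭).comp ((algebraMap D A).comp (algebraMap W D))
  have hφA : RingHom.ker res ≤ RingHom.ker φA := by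
    intro a ha
    rw [RingHom.mem_ker] at ha ⊢
    obtain ⟨c, hc⟩ := hker a ha
    show Ideal.Quotient.mk 𝔭 (algebraMap D A (algebraMap W D a)) = 0
    rw [Ideal.Quotient.eq_zero_iff_mem, hc, map_mul]
    exact 𝔭.mul_mem_right _ hπ𝔭
  let ψ : k →+* A ⧸ 𝔭 := RingHom.liftOfSurjective res hres ⟨φA, hφA⟩
  have hψ : ∀ a : W, ψ (res a) = φA a := fun a =>
    RingHom.liftOfRightInverse_comp_apply _ _ _ _ a
  letI : Algebra k (A ⧸ 𝔭) := ψ.toAlgebra
  letI : Algebra k (B ⧸ P1) := ((algebraMap (A ⧸ 𝔭) (B ⧸ P1)).comp ψ).toAlgebra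
  haveI : IsScalarTower k (A ⧸ 𝔭) (B ⧸ P1) := IsScalarTower.of_algebraMap_eq (fun _ => rfl)
  letI : Algebra W B := ((algebraMap D B).comp (algebraMap W D)).toAlgebra
  haveI : IsScalarTower W D B := IsScalarTower.of_algebraMap_eq (fun _ => rfl)
  haveI : Algebra.FiniteType W B := Algebra.FiniteType.trans (S := D) inferInstance inferInstance
  haveI : Algebra.FiniteType W (B ⧸ P1) :=
    Algebra.FiniteType.of_surjective (Ideal.Quotient.mkₐ W P1) (Ideal.Quotient.mkₐ_surjective W P1)
  letI : Algebra W k := res.toAlgebra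
  haveI : IsScalarTower W k (B ⧸ P1) := IsScalarTower.of_algebraMap_eq (fun a => by
    show Ideal.Quotient.mk P1 (algebraMap D B (algebraMap W D a)) =
      algebraMap (A ⧸ 𝔭) (B ⧸ P1) (ψ (res a))
    rw [hψ]
    show _ = algebraMap (A ⧸ 𝔭) (B ⧸ P1)
      (Ideal.Quotient.mk 𝔭 (algebraMap D A (algebraMap W D a)))
    rw [Ideal.Quotient.algebraMap_mk_of_liesOver, ← IsScalarTower.algebraMap_apply D A B])
  haveI : Algebra.FiniteType k (B ⧸ P1) :=
    Algebra.FiniteType.of_restrictScalars_finiteType W k (B ⧸ P1)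
  exact NormalAlg.isDedekindDomain_quot k (B ≃ₐ[A] B) π 𝔭 P1 hπ𝔭 h𝔭 hdim hRed hPur hinert'

/-- **Chart normality** for the concrete integral closures: the special fibre of the integral
closure of `D` in `F` is a Dedekind domain. -/
theorem chart_normal {W k D R0 K' F Y' : Type*}
    [CommRing W] [Field k] [IsAlgClosed k]
    [CommRing D] [IsNoetherianRing D] [Algebra W D] [Algebra.FiniteType W D]
    [CommRing R0] [IsDomain R0] [IsNoetherianRing R0] [IsIntegrallyClosed R0]
    [Field K'] [Field F] [Field Y']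
    [Algebra D R0] [Module.Finite D R0] [Algebra D F] [Algebra R0 K'] [Algebra K' Y']
    [Algebra R0 Y'] [Algebra F Y'] [Algebra D Y']
    [IsScalarTower D R0 Y'] [IsScalarTower D F Y'] [IsScalarTower R0 K' Y']
    [IsFractionRing R0 K'] [FiniteDimensional K' Y'] [Algebra.IsSeparable K' Y']
    [FiniteDimensional F Y'] [IsGalois F Y']
    (res : W →+* k) (hres : Function.Surjective res)
    (π : D) (hker : ∀ a : W, res a = 0 → π ∣ algebraMap W D a)
    (hinjD : Function.Injective (algebraMap D R0))
    (hπ : Prime (algebraMap D R0 π))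
    (hDed : IsDedekindDomain (R0 ⧸ Ideal.span {algebraMap D R0 π}))
    (hcompat : ∀ a : D, algebraMap D R0 π ∣ algebraMap D R0 a → π ∣ a)
    (hU : ∀ 𝔭 : Ideal R0, 𝔭.IsPrime →
      (𝔭 = Ideal.span {algebraMap D R0 π} ∨ algebraMap D R0 π ∉ 𝔭) →
        TowerUnram.TraceNondeg R0 K' Y' (integralClosure R0 Y') 𝔭)
    (hπF : Prime (algebraMap D (integralClosure D F) π))
    (hinert : ∀ σ : Y' ≃ₐ[F] Y', σ ≠ 1 → ∃ y r : Y', IsIntegral D y ∧ IsIntegral D r ∧
      ∃ g : D, ¬ π ∣ g ∧ (σ y - y) * r = algebraMap D Y' g) :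
    IsDedekindDomain
      (integralClosure D F ⧸ Ideal.span {algebraMap D (integralClosure D F) π}) := by
  let f : integralClosure D F →+* integralClosure R0 Y' :=
    ((algebraMap F Y').comp (algebraMap (integralClosure D F) F)).codRestrict
      (integralClosure R0 Y') (fun x => by
        have h1 : IsIntegral D (algebraMap F Y' (x : F)) := (x.2 : IsIntegral D (x : F)).algebraMap
        exact h1.tower_top)
  letI : Algebra (integralClosure D F) (integralClosure R0 Y') := f.toAlgebra
  haveI : IsScalarTower D (integralClosure D F) (integralClosure R0 Y') :=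
    IsScalarTower.of_algebraMap_eq fun x => Subtype.ext (by
      show algebraMap D Y' x = algebraMap F Y' (algebraMap D F x)
      rw [← IsScalarTower.algebraMap_apply D F Y'])
  haveI : IsScalarTower (integralClosure D F) (integralClosure R0 Y') Y' :=
    IsScalarTower.of_algebraMap_eq fun x => rfl
  exact chart_normal_of_closure (K' := K') (F := F) (Y' := Y') (A := integralClosure D F)
    (B := integralClosure R0 Y') res hres π hker hinjD hπ hDed hcompat hU hπF hinert

end Fermat.Agent.S18.ChartNormal
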