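import Mathlib
import Fermat.Agent.S18.ChartHU
import Fermat.Agent.S18.CuspHoriz
import Fermat.Agent.S18.CuspVertHU
import Fermat.Agent.S18.FiniteChartCore

/-!
# S18: the cusp chart, abstract core

The analogue of `FiniteChartCore.finite_chart_lift` for the chart at infinity
`D = Cusp.CuspBase W = W[t, 1/(1 - 1728 t)]` (`t = 1/j`) of the `j`-line, with the regular cover
chart `R0 = Cusp.CuspRing W N = W[τ, 1/(1 - 1728 τ^N)]` (`τ^N = t`).

All fields (`K = Frac (CuspBase L)`, `F`, `F2`, `K' = Frac R0 = Frac (CuspRing L N)`, `Y' = F2·K'`)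
are abstract, with a MINIMAL list of instance arguments and three compatibility equations; every
other algebra structure and scalar tower is built inside.

* `cusp_chart_lift_D`: the sheet idempotent lifts to an element of `F2` integral over `D`
  (= `ChartHU.chart_lift_hU` with `hU` discharged at the vertical prime by
  `CuspVertHU.cusp_hU_vertical_of_j` and at the horizontal primes by
  `CuspHoriz.cusp_hU_horizontal`).
-/

set_option autoImplicit false
set_option linter.style.haveILetI false

namespace Fermat.Agent.S18.CuspChartCore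

open Polynomial Fermat.Agent.S18.Cusp

/-- **The cusp chart, `D`-currency.**  `D = CuspBase W` acts on `F2` (instance argument;
`t ↦ 1/j`), `φ₂ : W[X] →+* F2` is the evaluation at `j`.  Inputs: the branch behaviour of `F2`
over the `t`-line (horizontal primes), the monogenic separable datum `(θ, P)` on the `j`-line and
the Kummer datum `(u, w)` with `w`, `w⁻¹` Gauss-integral over `W[j]` (vertical prime), and the
idempotent `ε` modulo `π` in `D`-currency.  Output: `ε` lifts to an element integral over `D`. -/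
theorem cusp_chart_lift_D
    {W k L K F F2 K' Y' : Type*} [CommRing W] [IsDomain W] [IsIntegrallyClosed W]
    [IsNoetherianRing W] [Field k] [Field L] [Algebra ℚ L] {N : ℕ} (hN : 0 < N)
    -- the `t`-line over `L` and its fraction field
    [Field K] [Algebra (CuspBase L) K] [IsFractionRing (CuspBase L) K]
    -- the function field and its Kummer cover
    [Field F] [Algebra K F]
    [Field F2] [Algebra K F2] [Algebra F F2] [IsScalarTower K F F2] [FiniteDimensional K F2]
    [Algebra (CuspBase L) F2] [IsScalarTower (CuspBase L) K F2]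
    [Algebra (CuspBase W) F2]
    -- the fraction field of the cover chart
    [Field K'] [Algebra (CuspRing W N) K'] [IsFractionRing (CuspRing W N) K']
    [Algebra K K'] [FiniteDimensional K K'] [IsGalois K K']
    [Algebra (CuspRing L N) K'] [IsFractionRing (CuspRing L N) K']
    [Algebra (CuspRing W N) (CuspRing L N)] [IsScalarTower (CuspRing W N) (CuspRing L N) K']
    -- the compositum
    [Field Y'] [Algebra F2 Y'] [Algebra K' Y']
    (hKY : ∀ x : K, algebraMap K' Y' (algebraMap K K' x) = algebraMap F2 Y' (algebraMap K F2 x))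
    (hDY : ∀ a : CuspBase W, algebraMap K' Y' (algebraMap (CuspRing W N) K' (cuspMap W N a)) =
      algebraMap F2 Y' (algebraMap (CuspBase W) F2 a))
    (hBM : ∀ a : CuspBase L, algebraMap (CuspRing L N) K' (cuspMap L N a) =
      algebraMap K K' (algebraMap (CuspBase L) K a))
    (hFM : IntermediateField.adjoin F2 (Set.range (algebraMap K' Y')) = ⊤)
    (π : W) (hπ : Prime π) (hmax : (Ideal.span {π}).IsMaximal)
    [IsLocalization.Away (algebraMap W (CuspRing W N) π) (CuspRing L N)]
    -- horizontal primes: branch data of `F2` over the `t`-line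
    (hF : ∀ P : Ideal (integralClosure (CuspBase L) F2), P.IsPrime → P ≠ ⊥ →
      (baseT L ∈ P.under (CuspBase L) → P.ramificationIdx (CuspBase L) ∣ N) ∧
      (baseT L ∉ P.under (CuspBase L) → P.ramificationIdx (CuspBase L) = 1))
    -- vertical prime: the monogenic separable datum on the `j`-line
    (κ₀ : Type*) [Field κ₀] [Algebra k[X] κ₀] [IsFractionRing k[X] κ₀]
    (res : W →+* k) (hres : Function.Surjective res) (hker : ∀ a : W, res a = 0 ↔ π ∣ a)
    (φ₂ : W[X] →+* F2)
    (hφC : ∀ a : W, φ₂ (C a) = algebraMap (CuspBase W) F2 (algebraMap W (CuspBase W) a))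
    (hφX : φ₂ X * algebraMap (CuspBase W) F2 (baseT W) = 1)
    (θ : F) (hθ : IntermediateField.adjoin K {θ} = ⊤)
    (P : (W[X])[X]) (hP : P.Monic) (hPθ : eval₂ φ₂ (algebraMap F F2 θ) P = 0)
    (hsep : ((P.map (mapRingHom res)).map (algebraMap k[X] κ₀)).Separable)
    -- vertical prime: the Kummer datum
    (s : ℕ) (hs : s.Prime) (hsπ : ¬ π ∣ (s : W)) (ζ : K') (hζ : IsPrimitiveRoot ζ s)
    (u : F2) (hu : IntermediateField.adjoin F {u} = ⊤)
    (w : F) (hw0 : w ≠ 0) (huw : u ^ s = algebraMap F F2 w)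
    (hw : ∃ p : W[X], ¬ C π ∣ p ∧ φ₂.IsIntegralElem (φ₂ p * algebraMap F F2 w))
    (hw' : ∃ p : W[X], ¬ C π ∣ p ∧ φ₂.IsIntegralElem (φ₂ p * (algebraMap F F2 w)⁻¹))
    -- the idempotent
    (ε : F2) (hε : IsGaussInt (CuspBase W) (algebraMap W (CuspBase W) π) ε)
    (hεε : ∃ d : F2, IsGaussInt (CuspBase W) (algebraMap W (CuspBase W) π) d ∧
      ε ^ 2 - ε = (algebraMap W (CuspBase W) π) • d) :
    ∃ e : F2, IsIntegral (CuspBase W) e ∧
      ∃ d : F2, IsGaussInt (CuspBase W) (algebraMap W (CuspBase W) π) d ∧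
        e - ε = (algebraMap W (CuspBase W) π) • d := by
  classical
  -- the algebra structures built from the given ones
  letI : Algebra (CuspBase L) K' :=
    ((algebraMap K K').comp (algebraMap (CuspBase L) K)).toAlgebra
  haveI : IsScalarTower (CuspBase L) K K' := IsScalarTower.of_algebraMap_eq fun _ => rfl
  letI : Algebra K Y' := ((algebraMap F2 Y').comp (algebraMap K F2)).toAlgebra
  haveI : IsScalarTower K F2 Y' := IsScalarTower.of_algebraMap_eq fun _ => rfl
  haveI : IsScalarTower K K' Y' := IsScalarTower.of_algebraMap_eq fun x => (hKY x).symm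
  letI : Algebra (CuspRing W N) Y' :=
    ((algebraMap K' Y').comp (algebraMap (CuspRing W N) K')).toAlgebra
  haveI : IsScalarTower (CuspRing W N) K' Y' := IsScalarTower.of_algebraMap_eq fun _ => rfl
  letI : Algebra (CuspRing L N) Y' :=
    ((algebraMap K' Y').comp (algebraMap (CuspRing L N) K')).toAlgebra
  haveI : IsScalarTower (CuspRing L N) K' Y' := IsScalarTower.of_algebraMap_eq fun _ => rfl
  letI : Algebra (CuspBase W) (CuspRing W N) := cuspAlgebra W N
  letI : Algebra (CuspBase W) Y' :=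
    ((algebraMap F2 Y').comp (algebraMap (CuspBase W) F2)).toAlgebra
  haveI : IsScalarTower (CuspBase W) F2 Y' := IsScalarTower.of_algebraMap_eq fun _ => rfl
  haveI : IsScalarTower (CuspBase W) (CuspRing W N) Y' :=
    IsScalarTower.of_algebraMap_eq fun a => (hDY a).symm
  -- ring-theoretic properties of the cover chart
  haveI : IsDomain (CuspRing W N) := cuspRing_isDomain W hN
  haveI : IsNoetherianRing (CuspRing W N) := cuspRing_isNoetherianRing W N
  haveI : IsIntegrallyClosed (CuspRing W N) := cuspRing_isIntegrallyClosed W hN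
  haveI : Algebra.IsIntegral (CuspBase W) (CuspRing W N) := cuspAlgebra_isIntegral W hN
  -- characteristic zero, finiteness, separability
  haveI : IsDomain (CuspBase L) := cuspBase_isDomain L
  haveI : CharZero L := algebraRat.charZero L
  haveI : CharZero (CuspBase L) :=
    charZero_of_injective_algebraMap (cuspBase_algebraMap_injective L)
  haveI : CharZero K :=
    charZero_of_injective_algebraMap (IsFractionRing.injective (CuspBase L) K)
  haveI : CharZero K' := charZero_of_injective_algebraMap (algebraMap K K').injective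
  haveI : IsGalois F2 Y' := Abhyankar.isGalois_of_adjoin_eq_top (K := K) hFM
  haveI : FiniteDimensional F2 Y' := Abhyankar.finiteDimensional_of_adjoin_eq_top (K := K) hFM
  haveI : FiniteDimensional K Y' := FiniteDimensional.trans K F2 Y'
  haveI : FiniteDimensional K' Y' := FiniteDimensional.right K K' Y'
  haveI : Algebra.IsSeparable K' Y' := inferInstance
  -- the uniformiser in the three rings
  have hπD : algebraMap (CuspBase W) (CuspRing W N) (algebraMap W (CuspBase W) π) =
      algebraMap W (CuspRing W N) π := cuspMap_algebraMap_base W N π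
  have hπ' : Prime (algebraMap (CuspBase W) (CuspRing W N) (algebraMap W (CuspBase W) π)) := by
    rw [hπD]; exact cuspRing_prime W hN hπ
  have hDed : IsDedekindDomain (CuspRing W N ⧸
      Ideal.span {algebraMap (CuspBase W) (CuspRing W N) (algebraMap W (CuspBase W) π)}) := by
    rw [hπD]; exact cuspRing_quotient_isDedekindDomain W hN hπ hmax
  have hcompat : ∀ a : CuspBase W,
      algebraMap (CuspBase W) (CuspRing W N) (algebraMap W (CuspBase W) π) ∣
        algebraMap (CuspBase W) (CuspRing W N) a → algebraMap W (CuspBase W) π ∣ a := by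
    intro a h
    rw [hπD] at h
    exact cusp_dvd W hN hπ a h
  -- the `j`-evaluation in `Y'`
  have hφC' : ∀ a : W, ((algebraMap F2 Y').comp φ₂) (C a) =
      algebraMap (CuspRing W N) Y' (algebraMap W (CuspRing W N) a) := by
    intro a
    rw [RingHom.comp_apply, hφC, ← hDY, cuspMap_algebraMap_base]
    rfl
  have hφX' : ((algebraMap F2 Y').comp φ₂) X *
      algebraMap (CuspRing W N) Y' (chartX W N) ^ N = 1 := by
    have h1 : algebraMap (CuspRing W N) Y' (chartX W N) ^ N =
        algebraMap F2 Y' (algebraMap (CuspBase W) F2 (baseT W)) := by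
      rw [← map_pow, ← cuspMap_baseT, ← hDY]
      rfl
    rw [h1, RingHom.comp_apply, ← map_mul, hφX, map_one]
  -- generation
  obtain ⟨hA, hgen⟩ := FiniteChartCore.adjoin_pair_eq_top (K := K) hFM θ hθ u hu
  have hPθ' : eval₂ ((algebraMap F2 Y').comp φ₂) (algebraMap F2 Y' (algebraMap F F2 θ)) P = 0 := by
    rw [← hom_eval₂, hPθ, map_zero]
  have hw0' : algebraMap F2 Y' (algebraMap F F2 w) ≠ 0 := by
    rw [Ne, map_eq_zero, map_eq_zero]; exact hw0
  have push : ∀ z : F2, (∃ p : W[X], ¬ C π ∣ p ∧ φ₂.IsIntegralElem (φ₂ p * z)) →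
      ∃ p : W[X], ¬ C π ∣ p ∧ ((algebraMap F2 Y').comp φ₂).IsIntegralElem
        (((algebraMap F2 Y').comp φ₂) p * algebraMap F2 Y' z) := by
    rintro z ⟨p, hp, Q, hQ, hQ0⟩
    refine ⟨p, hp, Q, hQ, ?_⟩
    rw [RingHom.comp_apply, ← map_mul, ← hom_eval₂, hQ0, map_zero]
  have hV : TowerUnram.TraceNondeg (CuspRing W N) K' Y' (integralClosure (CuspRing W N) Y')
      (Ideal.span {algebraMap W (CuspRing W N) π}) :=
    CuspVertHU.cusp_hU_vertical_of_j N hN κ₀ res hres π hπ hker ((algebraMap F2 Y').comp φ₂)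
      hφC' hφX' (algebraMap F2 Y' (algebraMap F F2 θ)) P hP hPθ' hsep s hs hsπ ζ hζ
      (algebraMap F2 Y' u) (algebraMap F2 Y' (algebraMap F F2 w)) hw0'
      (by rw [← map_pow, huw]) (hA w) hgen (push _ hw)
      (by rw [← map_inv₀]; exact push _ hw')
  refine ChartHU.chart_lift_hU_integralClosure (D := CuspBase W) (R0 := CuspRing W N) (K' := K')
    (Y' := Y') (algebraMap W (CuspBase W) π) hπ' hDed hcompat (fun 𝔭 h𝔭 hcase => ?_) ε hε hεε
  haveI := h𝔭
  rw [hπD] at hcase
  rcases hcase with rfl | hcase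
  · exact hV
  · intro x hx
    exact CuspHoriz.cusp_hU_horizontal (W := W) (L := L) hN (K := K) (F := F2) (M := K') (Y := Y')
      (BF := integralClosure (CuspBase L) F2) (BY := integralClosure (CuspRing L N) Y')
      (B := integralClosure (CuspRing W N) Y') hFM (fun a => hBM a) hF
      (algebraMap W (CuspRing W N) π) 𝔭 hcase x hx

/-! ### Conversion between the chart currency `D = CuspBase W` and the `j`-line currency -/

section Convert

variable {W F2 : Type*} [CommRing W] [IsDomain W] [Field F2] [Algebra (CuspBase W) F2]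
  (τ : W →+* F2) (j2 : F2)

omit [IsDomain W] in
/-- The structure map `W[X] → CuspBase W → F2` is the evaluation at `t = 1/j`. -/
theorem algebraMap_comp_eq_eval₂
    (hτ : ∀ a : W, algebraMap (CuspBase W) F2 (algebraMap W (CuspBase W) a) = τ a)
    (hj : j2 * algebraMap (CuspBase W) F2 (baseT W) = 1) :
    (algebraMap (CuspBase W) F2).comp (algebraMap W[X] (CuspBase W)) =
      Polynomial.eval₂RingHom τ j2⁻¹ := by
  have ht : algebraMap (CuspBase W) F2 (baseT W) = j2⁻¹ := eq_inv_of_mul_eq_one_right hj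
  refine Polynomial.ringHom_ext (fun a => ?_) ?_
  · rw [RingHom.comp_apply, ← algebraMap_base_eq, hτ, Polynomial.coe_eval₂RingHom,
      Polynomial.eval₂_C]
  · rw [RingHom.comp_apply, Polynomial.coe_eval₂RingHom, Polynomial.eval₂_X]
    exact ht

omit [IsDomain W] in
/-- An element of `F2` integral over the chart `D = W[t, 1/(1 - 1728 t)]` becomes integral over
`W[t]` after multiplication by a power of `1 - 1728 t` (`t = 1/j`). -/
theorem exists_pow_mul_isIntegralElem
    (hτ : ∀ a : W, algebraMap (CuspBase W) F2 (algebraMap W (CuspBase W) a) = τ a)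
    (hj : j2 * algebraMap (CuspBase W) F2 (baseT W) = 1)
    {e : F2} (he : IsIntegral (CuspBase W) e) :
    ∃ m : ℕ, (Polynomial.eval₂RingHom τ j2⁻¹).IsIntegralElem ((1 - 1728 * j2⁻¹) ^ m * e) := by
  letI : Algebra W[X] F2 :=
    ((algebraMap (CuspBase W) F2).comp (algebraMap W[X] (CuspBase W))).toAlgebra
  haveI : IsScalarTower W[X] (CuspBase W) F2 := IsScalarTower.of_algebraMap_eq fun _ => rfl
  obtain ⟨k, hk⟩ := CuspGauss.exists_pow_smul_isIntegral_of_away (A := W[X]) (A' := CuspBase W)
    (cuspG W) he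
  refine ⟨k, ?_⟩
  have h1 : algebraMap W[X] F2 = Polynomial.eval₂RingHom τ j2⁻¹ :=
    algebraMap_comp_eq_eval₂ τ j2 hτ hj
  have h2 : (1 - 1728 * j2⁻¹ : F2) ^ k * e = cuspG W ^ k • e := by
    rw [Algebra.smul_def, h1, map_pow]
    congr 2
    rw [Polynomial.coe_eval₂RingHom, cuspG, Polynomial.eval₂_sub, Polynomial.eval₂_one,
      Polynomial.eval₂_mul, Polynomial.eval₂_C, Polynomial.eval₂_X, map_ofNat]
  rw [h2]
  have h3 : (algebraMap W[X] F2).IsIntegralElem (cuspG W ^ k • e) := hk
  rwa [h1] at h3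

/-- Gauss integrality with respect to `W[j]` (ring-hom currency) is Gauss integrality with
respect to the chart `D = CuspBase W`. -/
theorem gaussJ_iff_gaussD {π : W} (hπ : Prime π)
    (hτ : ∀ a : W, algebraMap (CuspBase W) F2 (algebraMap W (CuspBase W) a) = τ a)
    (hj : j2 * algebraMap (CuspBase W) F2 (baseT W) = 1) (z : F2) :
    (∃ p : W[X], ¬ C π ∣ p ∧ (Polynomial.eval₂RingHom τ j2).IsIntegralElem
        (Polynomial.eval₂RingHom τ j2 p * z)) ↔
      IsGaussInt (CuspBase W) (algebraMap W (CuspBase W) π) z := by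
  letI : Algebra W F2 := τ.toAlgebra
  letI : Algebra W[X] F2 := (Polynomial.eval₂RingHom τ j2).toAlgebra
  have ht : algebraMap (CuspBase W) F2 (baseT W) = j2⁻¹ := eq_inv_of_mul_eq_one_right hj
  have h1 : ∀ P : W[X], algebraMap W[X] F2 P = aeval j2 P := fun P => rfl
  have h2 : ∀ P : W[X], algebraMap (CuspBase W) F2 (algebraMap W[X] (CuspBase W) P) =
      aeval (algebraMap (CuspBase W) F2 (baseT W)) P := by
    intro P
    have h3 := congrArg (fun f : W[X] →+* F2 => f P) (algebraMap_comp_eq_eval₂ τ j2 hτ hj)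
    rw [ht]
    exact h3
  have key := CuspGauss.isGaussInt_chart_iff π hπ (cuspG W) (not_C_dvd_cuspG W hπ.not_isUnit) j2
    (algebraMap (CuspBase W) F2 (baseT W)) hj h1 h2 z
  rw [← algebraMap_base_eq W (cuspG W) π] at key
  exact key

end Convert

/-- **The cusp chart, `j`-line currency.**  Same as `cusp_chart_lift_D`, with the idempotent
datum and the conclusion expressed along the evaluations `p ↦ p(j)`, `p ↦ p(1/j)` of `W[X]` in
`F2` (`τ : W →+* F2` the structure map, `j2 : F2`): the conclusion is the one of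
`Contracts.CuspChartLift`. -/
theorem cusp_chart_lift_J
    {W k L K F F2 K' Y' : Type*} [CommRing W] [IsDomain W] [IsIntegrallyClosed W]
    [IsNoetherianRing W] [Field k] [Field L] [Algebra ℚ L] {N : ℕ} (hN : 0 < N)
    [Field K] [Algebra (CuspBase L) K] [IsFractionRing (CuspBase L) K]
    [Field F] [Algebra K F]
    [Field F2] [Algebra K F2] [Algebra F F2] [IsScalarTower K F F2] [FiniteDimensional K F2]
    [Algebra (CuspBase L) F2] [IsScalarTower (CuspBase L) K F2]
    [Algebra (CuspBase W) F2]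
    [Field K'] [Algebra (CuspRing W N) K'] [IsFractionRing (CuspRing W N) K']
    [Algebra K K'] [FiniteDimensional K K'] [IsGalois K K']
    [Algebra (CuspRing L N) K'] [IsFractionRing (CuspRing L N) K']
    [Algebra (CuspRing W N) (CuspRing L N)] [IsScalarTower (CuspRing W N) (CuspRing L N) K']
    [Field Y'] [Algebra F2 Y'] [Algebra K' Y']
    (hKY : ∀ x : K, algebraMap K' Y' (algebraMap K K' x) = algebraMap F2 Y' (algebraMap K F2 x))
    (hDY : ∀ a : CuspBase W, algebraMap K' Y' (algebraMap (CuspRing W N) K' (cuspMap W N a)) =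
      algebraMap F2 Y' (algebraMap (CuspBase W) F2 a))
    (hBM : ∀ a : CuspBase L, algebraMap (CuspRing L N) K' (cuspMap L N a) =
      algebraMap K K' (algebraMap (CuspBase L) K a))
    (hFM : IntermediateField.adjoin F2 (Set.range (algebraMap K' Y')) = ⊤)
    (π : W) (hπ : Prime π) (hmax : (Ideal.span {π}).IsMaximal)
    [IsLocalization.Away (algebraMap W (CuspRing W N) π) (CuspRing L N)]
    (hF : ∀ P : Ideal (integralClosure (CuspBase L) F2), P.IsPrime → P ≠ ⊥ →
      (baseT L ∈ P.under (CuspBase L) → P.ramificationIdx (CuspBase L) ∣ N) ∧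
      (baseT L ∉ P.under (CuspBase L) → P.ramificationIdx (CuspBase L) = 1))
    (κ₀ : Type*) [Field κ₀] [Algebra k[X] κ₀] [IsFractionRing k[X] κ₀]
    (res : W →+* k) (hres : Function.Surjective res) (hker : ∀ a : W, res a = 0 ↔ π ∣ a)
    (τ : W →+* F2) (j2 : F2)
    (hτ : ∀ a : W, algebraMap (CuspBase W) F2 (algebraMap W (CuspBase W) a) = τ a)
    (hj : j2 * algebraMap (CuspBase W) F2 (baseT W) = 1)
    (θ : F) (hθ : IntermediateField.adjoin K {θ} = ⊤)
    (P : (W[X])[X]) (hP : P.Monic)
    (hPθ : eval₂ (Polynomial.eval₂RingHom τ j2) (algebraMap F F2 θ) P = 0)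
    (hsep : ((P.map (mapRingHom res)).map (algebraMap k[X] κ₀)).Separable)
    (s : ℕ) (hs : s.Prime) (hsπ : ¬ π ∣ (s : W)) (ζ : K') (hζ : IsPrimitiveRoot ζ s)
    (u : F2) (hu : IntermediateField.adjoin F {u} = ⊤)
    (w : F) (hw0 : w ≠ 0) (huw : u ^ s = algebraMap F F2 w)
    (hw : ∃ p : W[X], ¬ C π ∣ p ∧ (Polynomial.eval₂RingHom τ j2).IsIntegralElem
      (Polynomial.eval₂RingHom τ j2 p * algebraMap F F2 w))
    (hw' : ∃ p : W[X], ¬ C π ∣ p ∧ (Polynomial.eval₂RingHom τ j2).IsIntegralElem
      (Polynomial.eval₂RingHom τ j2 p * (algebraMap F F2 w)⁻¹))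
    (ε : F2)
    (hε : ∃ p : W[X], ¬ C π ∣ p ∧ (Polynomial.eval₂RingHom τ j2).IsIntegralElem
      (Polynomial.eval₂RingHom τ j2 p * ε))
    (hεε : ∃ d : F2, (∃ p : W[X], ¬ C π ∣ p ∧ (Polynomial.eval₂RingHom τ j2).IsIntegralElem
      (Polynomial.eval₂RingHom τ j2 p * d)) ∧ ε ^ 2 - ε = τ π * d) :
    ∃ e : F2, (∃ m : ℕ, (Polynomial.eval₂RingHom τ j2⁻¹).IsIntegralElem
        ((1 - 1728 * j2⁻¹) ^ m * e)) ∧
      ∃ d : F2, (∃ p : W[X], ¬ C π ∣ p ∧ (Polynomial.eval₂RingHom τ j2).IsIntegralElem
        (Polynomial.eval₂RingHom τ j2 p * d)) ∧ e - ε = τ π * d := by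
  have hsmul : ∀ d : F2, (algebraMap W (CuspBase W) π) • d = τ π * d := fun d => by
    rw [Algebra.smul_def, hτ]
  have hε' : IsGaussInt (CuspBase W) (algebraMap W (CuspBase W) π) ε :=
    (gaussJ_iff_gaussD τ j2 hπ hτ hj ε).mp hε
  have hεε' : ∃ d : F2, IsGaussInt (CuspBase W) (algebraMap W (CuspBase W) π) d ∧
      ε ^ 2 - ε = (algebraMap W (CuspBase W) π) • d := by
    obtain ⟨d, hd, hdε⟩ := hεε
    exact ⟨d, (gaussJ_iff_gaussD τ j2 hπ hτ hj d).mp hd, by rw [hsmul]; exact hdε⟩
  obtain ⟨e, he, d, hd, hed⟩ := cusp_chart_lift_D (W := W) (k := k) (L := L) (K := K) (F := F)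
    (F2 := F2) (K' := K') (Y' := Y') hN hKY hDY hBM hFM π hπ hmax hF κ₀ res hres hker
    (Polynomial.eval₂RingHom τ j2)
    (fun a => by rw [Polynomial.coe_eval₂RingHom, Polynomial.eval₂_C, hτ])
    (by rw [Polynomial.coe_eval₂RingHom, Polynomial.eval₂_X]; exact hj)
    θ hθ P hP hPθ hsep s hs hsπ ζ hζ u hu w hw0 huw hw hw' ε hε' hεε'
  exact ⟨e, exists_pow_mul_isIntegralElem τ j2 hτ hj he, d,
    (gaussJ_iff_gaussD τ j2 hπ hτ hj d).mpr hd, by rw [← hsmul]; exact hed⟩

end Fermat.Agent.S18.CuspChartCore
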