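import Mathlib
import Fermat.Agent.S18.RamJIdeal
import Fermat.Agent.S18.RamIdeal
import Fermat.Agent.S18.KummerRamPlace
import Fermat.Agent.S18.KummerRamJ
import Fermat.Agent.S18.Cusp

/-!
# S18, link 5: ramification of `F2 = F(u)` over the `j`-line (composition `D′ + D″`)

`hF`-inputs of Abhyankar's lemma (`Abhyankar.isUnramifiedAt_finite_chart`,
`Abhyankar.isUnramifiedAt_single_branch`, `HorizU.hU_of_branch`) for a finite extension `F2` of
`F = FF L N` which is unramified over `F`, for an arbitrary integral closure `BF2` of the base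
`A` (`L[j]` or `L[1/j, 1/(1 - 1728/j)]`) in `F2`.
-/

set_option autoImplicit false
set_option linter.style.haveILetI false
set_option linter.unusedSectionVars false

namespace Fermat.Agent.S18.RamF2

open Polynomial

/-! ### generic plumbing: the chart of `F` inside the chart of `F2` -/

section Generic

variable (A F F2 BF2 : Type*) [CommRing A] [Field F] [Field F2] [Algebra F F2]
  [Algebra A F] [Algebra A F2] [IsScalarTower A F F2]
  [CommRing BF2] [Algebra A BF2] [Algebra BF2 F2] [IsScalarTower A BF2 F2]
  [IsIntegralClosure BF2 A F2]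

/-- the canonical map from the integral closure of `A` in `F` to an integral closure of `A`
in `F2 ⊇ F` -/
@[reducible] noncomputable def chartAlgebra : Algebra (integralClosure A F) BF2 :=
  (IsIntegralClosure.lift A BF2 F2 (S := integralClosure A F)).toRingHom.toAlgebra

theorem chartAlgebra_algebraMap (x : integralClosure A F) :
    letI := chartAlgebra A F F2 BF2
    algebraMap BF2 F2 (algebraMap (integralClosure A F) BF2 x) = algebraMap F F2 (x : F) :=
  IsIntegralClosure.algebraMap_lift A BF2 F2 x

theorem chartAlgebra_isScalarTower :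
    letI := chartAlgebra A F F2 BF2
    IsScalarTower A (integralClosure A F) BF2 :=
  letI := chartAlgebra A F F2 BF2
  IsScalarTower.of_algebraMap_eq fun a =>
    ((IsIntegralClosure.lift A BF2 F2 (S := integralClosure A F)).commutes a).symm

theorem chartAlgebra_isScalarTower' :
    letI := chartAlgebra A F F2 BF2
    IsScalarTower (integralClosure A F) BF2 F2 :=
  letI := chartAlgebra A F F2 BF2
  IsScalarTower.of_algebraMap_eq fun x => (chartAlgebra_algebraMap A F F2 BF2 x).symm

theorem chartAlgebra_isIntegralClosure :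
    letI := chartAlgebra A F F2 BF2
    IsIntegralClosure BF2 (integralClosure A F) F2 :=
  letI := chartAlgebra A F F2 BF2
  IsIntegralClosure.tower_top (R := A)

end Generic

/-! ### Dedekind facts -/

section Dedekind

variable (A K F F2 BF2 : Type*) [CommRing A] [IsDedekindDomain A] [Field K] [Algebra A K]
  [IsFractionRing A K] [CharZero K]
  [Field F] [Field F2] [Algebra F F2] [Algebra A F] [Algebra A F2] [IsScalarTower A F F2]
  [Algebra K F2] [IsScalarTower A K F2] [FiniteDimensional K F2]
  [CommRing BF2] [Algebra A BF2] [Algebra BF2 F2] [IsScalarTower A BF2 F2]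
  [IsIntegralClosure BF2 A F2]

omit [IsDedekindDomain A] [CharZero K] [FiniteDimensional K F2] in
include K F2 in
theorem algebraMap_injective : Function.Injective (algebraMap A F) := by
  have h : Function.Injective (algebraMap A F2) := by
    rw [IsScalarTower.algebraMap_eq A K F2]
    exact (algebraMap K F2).injective.comp (IsFractionRing.injective A K)
  rw [IsScalarTower.algebraMap_eq A F F2] at h
  exact Function.Injective.of_comp h

/-- the `K`-algebra structure on the intermediate field `F` -/
@[reducible] noncomputable def fracAlgebra : Algebra K F :=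
  (IsFractionRing.lift (algebraMap_injective A K F F2)).toAlgebra

omit [IsDedekindDomain A] [CharZero K] [FiniteDimensional K F2] in
theorem fracAlgebra_isScalarTower :
    letI := fracAlgebra A K F F2
    IsScalarTower A K F :=
  letI := fracAlgebra A K F F2
  IsScalarTower.of_algebraMap_eq fun a =>
    (IsFractionRing.lift_algebraMap (algebraMap_injective A K F F2) a).symm

omit [IsDedekindDomain A] [CharZero K] [FiniteDimensional K F2] in
theorem fracAlgebra_isScalarTower' :
    letI := fracAlgebra A K F F2
    IsScalarTower K F F2 := by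
  letI := fracAlgebra A K F F2
  haveI := fracAlgebra_isScalarTower A K F F2
  refine IsScalarTower.of_algebraMap_eq' ?_
  apply IsLocalization.ringHom_ext (nonZeroDivisors A)
  ext a
  rw [RingHom.comp_apply, RingHom.comp_apply, RingHom.comp_apply,
    ← IsScalarTower.algebraMap_apply A K F2, ← IsScalarTower.algebraMap_apply A K F,
    ← IsScalarTower.algebraMap_apply A F F2]

include K F2 in
theorem chart_isDedekindDomain : IsDedekindDomain (integralClosure A F) := by
  letI := fracAlgebra A K F F2
  haveI := fracAlgebra_isScalarTower A K F F2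
  haveI := fracAlgebra_isScalarTower' A K F F2
  haveI : FiniteDimensional K F := FiniteDimensional.left K F F2
  exact integralClosure.isDedekindDomain A K F

include K F2 in
theorem chart_isFractionRing : IsFractionRing (integralClosure A F) F := by
  letI := fracAlgebra A K F F2
  haveI := fracAlgebra_isScalarTower A K F F2
  haveI := fracAlgebra_isScalarTower' A K F F2
  haveI : FiniteDimensional K F := FiniteDimensional.left K F F2
  exact integralClosure.isFractionRing_of_finite_extension K F

include A K in
theorem finiteDimensional_top : FiniteDimensional F F2 := by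
  letI := fracAlgebra A K F F2
  haveI := fracAlgebra_isScalarTower' A K F F2
  exact FiniteDimensional.right K F F2

include A F2 in
theorem top_isDomain : IsDomain BF2 :=
  (IsIntegralClosure.algebraMap_injective BF2 A F2).isDomain _

include A K F2 in
theorem top_isDedekindDomain : IsDedekindDomain BF2 := by
  haveI := top_isDomain A F2 BF2
  exact IsIntegralClosure.isDedekindDomain A K F2 BF2

include A K in
theorem top_isFractionRing : IsFractionRing BF2 F2 := by
  haveI := top_isDomain A F2 BF2
  exact IsIntegralClosure.isFractionRing_of_finite_extension A K F2 BF2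

theorem chartAlgebra_injective :
    letI := chartAlgebra A F F2 BF2
    Function.Injective (algebraMap (integralClosure A F) BF2) := by
  letI := chartAlgebra A F F2 BF2
  intro x y hxy
  have h := congrArg (algebraMap BF2 F2) hxy
  rw [chartAlgebra_algebraMap, chartAlgebra_algebraMap] at h
  exact Subtype.ext ((algebraMap F F2).injective h)

include K in
theorem chartAlgebra_flat :
    letI := chartAlgebra A F F2 BF2
    Module.Flat (integralClosure A F) BF2 := by
  letI := chartAlgebra A F F2 BF2
  haveI := top_isDomain A F2 BF2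
  haveI := chart_isDedekindDomain A K F F2
  haveI : Module.IsTorsionFree (integralClosure A F) BF2 :=
    Module.isTorsionFree_iff_algebraMap_injective.mpr (chartAlgebra_injective A F F2 BF2)
  infer_instance

theorem chartAlgebra_isIntegral :
    letI := chartAlgebra A F F2 BF2
    Algebra.IsIntegral (integralClosure A F) BF2 := by
  letI := chartAlgebra A F F2 BF2
  haveI := chartAlgebra_isScalarTower' A F F2 BF2
  haveI := chartAlgebra_isIntegralClosure A F F2 BF2
  exact IsIntegralClosure.isIntegral_algebra (integralClosure A F) F2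

/-- the prime of the chart of `F` below a nonzero prime of the chart of `F2` is nonzero -/
theorem under_ne_bot (P : Ideal BF2) (hP : P ≠ ⊥) :
    letI := chartAlgebra A F F2 BF2
    P.under (integralClosure A F) ≠ ⊥ := by
  letI := chartAlgebra A F F2 BF2
  haveI := top_isDomain A F2 BF2
  haveI := chartAlgebra_isIntegral A F F2 BF2
  obtain ⟨b, hb, hb0⟩ := Submodule.exists_mem_ne_zero_of_ne_bot hP
  exact Ideal.comap_ne_bot_of_integral_mem hb0 hb (Algebra.IsIntegral.isIntegral b)

theorem under_under (P : Ideal BF2) :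
    letI := chartAlgebra A F F2 BF2
    (P.under (integralClosure A F)).under A = P.under A := by
  letI := chartAlgebra A F F2 BF2
  haveI := chartAlgebra_isScalarTower A F F2 BF2
  exact Ideal.under_under P

include K in
/-- multiplicativity of the ramification index in the tower `A ⊆ BF ⊆ BF2` -/
theorem ramificationIdx_tower (P : Ideal BF2) :
    letI := chartAlgebra A F F2 BF2
    P.ramificationIdx A =
      (P.under (integralClosure A F)).ramificationIdx A *
        P.ramificationIdx (integralClosure A F) := by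
  letI := chartAlgebra A F F2 BF2
  haveI := chartAlgebra_isScalarTower A F F2 BF2
  haveI := chartAlgebra_flat A K F F2 BF2
  exact Ideal.ramificationIdx_tower (P.under (integralClosure A F)) P

end Dedekind

/-! ### the two charts of the `j`-line, unramifiedness of `F2 / F` as a hypothesis -/

section Charts

open AlgebraicCurve ModularCurve Fermat.Agent.S24

variable {L : Type*} [Field L] [Algebra ℚ L]

/-- **Finite chart** `A = L[X]`, `X ↦ j`.  `F2 ⊇ F = FF L N` finite over `K = Frac L[X]`, `BF2`
any integral closure of `L[X]` in `F2`, unramified over the integral closure of `L[X]` in `F`.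
Then every nonzero prime `P` of `BF2` has ramification index over `L[X]` dividing `3` over `(X)`,
dividing `2` over `(X - 1728)`, and `1` otherwise.  (The `hF` of
`Abhyankar.isUnramifiedAt_finite_chart` for `F := F2`, `BF := BF2`.) -/
theorem hF_finite_of_unram (ι : L →+* AlgebraicClosure ℚ) (N : ℕ) [NeZero N]
    [Algebra L[X] (FF L N)]
    (hA : ∀ p : L[X], algebraMap L[X] (FF L N) p = aeval (jBC L N) p)
    {K F2 BF2 : Type*} [Field K] [Algebra L[X] K] [IsFractionRing L[X] K]
    [Field F2] [Algebra (FF L N) F2] [Algebra L[X] F2] [IsScalarTower L[X] (FF L N) F2]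
    [Algebra K F2] [IsScalarTower L[X] K F2] [FiniteDimensional K F2]
    [CommRing BF2] [Algebra L[X] BF2] [Algebra BF2 F2] [IsScalarTower L[X] BF2 F2]
    [IsIntegralClosure BF2 L[X] F2]
    (hunr : letI := chartAlgebra L[X] (FF L N) F2 BF2
      ∀ P : Ideal BF2, P.IsPrime → P ≠ ⊥ →
        P.ramificationIdx (integralClosure L[X] (FF L N)) = 1)
    (P : Ideal BF2) (hP : P.IsPrime) (hP0 : P ≠ ⊥) :
    (X ∈ P.under L[X] → P.ramificationIdx L[X] ∣ 3) ∧
    (X - C 1728 ∈ P.under L[X] → P.ramificationIdx L[X] ∣ 2) ∧
    (X ∉ P.under L[X] → X - C 1728 ∉ P.under L[X] → P.ramificationIdx L[X] = 1) := by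
  letI := chartAlgebra L[X] (FF L N) F2 BF2
  haveI : CharZero L := algebraRat.charZero L
  haveI : CharZero K :=
    charZero_of_injective_ringHom ((algebraMap L[X] K).comp (C : L →+* L[X])).injective
  haveI := chart_isDedekindDomain L[X] K (FF L N) F2
  haveI := chart_isFractionRing L[X] K (FF L N) F2
  set q : Ideal (integralClosure L[X] (FF L N)) := P.under (integralClosure L[X] (FF L N)) with hq
  haveI hqp : q.IsPrime := Ideal.IsPrime.under _ P
  have hq0 : q ≠ ⊥ := under_ne_bot L[X] (FF L N) F2 BF2 P hP0
  have hA' : ∀ p : L[X], algebraMap (integralClosure L[X] (FF L N)) (FF L N)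
      (algebraMap L[X] (integralClosure L[X] (FF L N)) p) = aeval (jBC L N) p := by
    intro p
    rw [← IsScalarTower.algebraMap_apply, hA]
  have key := RamIdeal.ramJ_ideal ι N hA' q hq0
  have htower := ramificationIdx_tower L[X] K (FF L N) F2 BF2 P
  rw [hunr P hP hP0, mul_one] at htower
  have hunder : q.under L[X] = P.under L[X] := under_under L[X] (FF L N) F2 BF2 P
  have hmem : ∀ G : L[X], G ∈ P.under L[X] ↔
      algebraMap L[X] (integralClosure L[X] (FF L N)) G ∈ q := by
    intro G
    rw [← hunder]
    exact Iff.rfl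
  rw [htower]
  exact ⟨fun h => key.1 ((hmem _).mp h), fun h => key.2.1 ((hmem _).mp h),
    fun h h' => key.2.2 (fun h0 => h ((hmem _).mpr h0)) (fun h0 => h' ((hmem _).mpr h0))⟩

/-- **Cusp chart** `A = L[t, 1/(1 - 1728 t)]`, `t = X ↦ 1/j`.  `F2 ⊇ F = FF L N` finite over
`K = Frac A`, `BF2` any integral closure of `A` in `F2`, unramified over the integral closure of
`A` in `F`.  Then every nonzero prime `P` of `BF2` has ramification index over `A` dividing `N`
over `(t)`, and `1` otherwise.  (The `hF` of `Abhyankar.isUnramifiedAt_single_branch` for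
`F := F2`, `BF := BF2`, `n := N`.) -/
theorem hF_cusp_of_unram (ι : L →+* AlgebraicClosure ℚ) (N : ℕ) [NeZero N]
    {A : Type*} [CommRing A] [IsDedekindDomain A] [Algebra L[X] A] (g : L[X])
    (hg : g = 1 - C 1728 * X) [IsLocalization.Away g A]
    [Algebra A (FF L N)]
    (hA : ∀ p : L[X], algebraMap A (FF L N) (algebraMap L[X] A p) = aeval (jBC L N)⁻¹ p)
    {K F2 BF2 : Type*} [Field K] [Algebra A K] [IsFractionRing A K]
    [Field F2] [Algebra (FF L N) F2] [Algebra A F2] [IsScalarTower A (FF L N) F2]
    [Algebra K F2] [IsScalarTower A K F2] [FiniteDimensional K F2]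
    [CommRing BF2] [Algebra A BF2] [Algebra BF2 F2] [IsScalarTower A BF2 F2]
    [IsIntegralClosure BF2 A F2]
    (hunr : letI := chartAlgebra A (FF L N) F2 BF2
      ∀ P : Ideal BF2, P.IsPrime → P ≠ ⊥ →
        P.ramificationIdx (integralClosure A (FF L N)) = 1)
    (P : Ideal BF2) (hP : P.IsPrime) (hP0 : P ≠ ⊥) :
    (algebraMap L[X] A X ∈ P.under A → P.ramificationIdx A ∣ N) ∧
    (algebraMap L[X] A X ∉ P.under A → P.ramificationIdx A = 1) := by
  letI := chartAlgebra A (FF L N) F2 BF2
  haveI : CharZero L := algebraRat.charZero L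
  haveI : CharZero K :=
    charZero_of_injective_ringHom
      (((algebraMap A K).comp (algebraMap L[X] A)).comp (C : L →+* L[X])).injective
  haveI := chart_isDedekindDomain A K (FF L N) F2
  haveI := chart_isFractionRing A K (FF L N) F2
  set q : Ideal (integralClosure A (FF L N)) := P.under (integralClosure A (FF L N)) with hq
  haveI hqp : q.IsPrime := Ideal.IsPrime.under _ P
  have hq0 : q ≠ ⊥ := under_ne_bot A (FF L N) F2 BF2 P hP0
  have hA' : ∀ p : L[X], algebraMap (integralClosure A (FF L N)) (FF L N)
      (algebraMap A (integralClosure A (FF L N)) (algebraMap L[X] A p)) =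
        aeval (jBC L N)⁻¹ p := by
    intro p
    rw [← IsScalarTower.algebraMap_apply, hA]
  have key := RamIdeal.ramInf_ideal ι N g hg hA' q hq0
  have htower := ramificationIdx_tower A K (FF L N) F2 BF2 P
  rw [hunr P hP hP0, mul_one] at htower
  have hunder : q.under A = P.under A := under_under A (FF L N) F2 BF2 P
  have hmem : ∀ a : A, a ∈ P.under A ↔ algebraMap A (integralClosure A (FF L N)) a ∈ q := by
    intro a
    rw [← hunder]
    exact Iff.rfl
  rw [htower]
  exact ⟨fun h => key.1 ((hmem _).mp h), fun h => key.2 (fun h0 => h ((hmem _).mpr h0))⟩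

/-! ### the two charts, for the Kummer extension `F2 = F(u)`, `u ^ s = w`, under `(H1)` -/

/-- **`hF` for `F2`, finite chart** (`A = L[X]`, `X ↦ j`).  Only structures on `F2` are asked:
`F2` is an `FF L N`-algebra and an `L[X]`-algebra with `p ↦ p(j)`, finite over `K = Frac L[X]`,
`BF2` any integral closure of `L[X]` in `F2`.  Kummer data: `u ^ s = w`, `X ^ s - w` irreducible
over `F = FF L N`, `[F2 : F] = s`, and `(H1)`: `s ∣ ord_v w` at every place of `F`.
Conclusion = the `hF` of `Abhyankar.isUnramifiedAt_finite_chart` with `F := F2`, `BF := BF2`. -/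
theorem hF_finite (ι : L →+* AlgebraicClosure ℚ) (N : ℕ) [NeZero N]
    {K F2 BF2 : Type*} [Field K] [Algebra L[X] K] [IsFractionRing L[X] K]
    [Field F2] [Algebra (FF L N) F2] [Algebra L[X] F2]
    (hA : ∀ p : L[X], algebraMap L[X] F2 p = algebraMap (FF L N) F2 (aeval (jBC L N) p))
    [Algebra K F2] [IsScalarTower L[X] K F2] [FiniteDimensional K F2]
    [CommRing BF2] [Algebra L[X] BF2] [Algebra BF2 F2] [IsScalarTower L[X] BF2 F2]
    [IsIntegralClosure BF2 L[X] F2]
    (s : ℕ) (hs : 0 < s) (u : F2) (w : FF L N) (huw : u ^ s = algebraMap (FF L N) F2 w)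
    (hirr : Irreducible (X ^ s - C w : (FF L N)[X])) (hdeg : Module.finrank (FF L N) F2 = s)
    (hw0 : w ≠ 0) (hdiv : ∀ v : Place L (FF L N), (s : ℤ) ∣ v.ord w) :
    ∀ P : Ideal BF2, P.IsPrime → P ≠ ⊥ →
      (X ∈ P.under L[X] → P.ramificationIdx L[X] ∣ 3) ∧
      (X - C 1728 ∈ P.under L[X] → P.ramificationIdx L[X] ∣ 2) ∧
      (X ∉ P.under L[X] → X - C 1728 ∉ P.under L[X] → P.ramificationIdx L[X] = 1) := by
  intro P hP hP0
  letI : Algebra L[X] (FF L N) := (aeval (jBC L N)).toRingHom.toAlgebra
  have hX : algebraMap L[X] (FF L N) X = jBC L N := aeval_X _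
  haveI : IsScalarTower L L[X] (FF L N) :=
    IsScalarTower.of_algebraMap_eq fun a => (aeval_C (jBC L N) a).symm
  haveI : IsScalarTower L[X] (FF L N) F2 := IsScalarTower.of_algebraMap_eq fun p => hA p
  letI := fracAlgebra L[X] K (FF L N) F2
  haveI := fracAlgebra_isScalarTower L[X] K (FF L N) F2
  haveI := fracAlgebra_isScalarTower' L[X] K (FF L N) F2
  haveI : FiniteDimensional K (FF L N) := FiniteDimensional.left K (FF L N) F2
  exact KummerRamJ.ramificationIdx_kummer_of_hom ι N hX (K := K) s hs u w huw hirr hdeg hw0 hdiv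
    P hP0

/-- **`hF` for `F2`, cusp chart** (`A = L[t, 1/(1 - 1728 t)]`, `t = X ↦ 1/j`; e.g.
`Cusp.CuspBase L`).  Only structures on `F2` are asked: `F2` is an `FF L N`-algebra and an
`A`-algebra with `p(t) ↦ p(1/j)`, finite over `K = Frac A`, `BF2` any integral closure of `A` in
`F2`.  Kummer data as in `hF_finite`.  Conclusion = the `hF` of
`Abhyankar.isUnramifiedAt_single_branch` with `F := F2`, `BF := BF2`, `t := algebraMap L[X] A X`,
`n := N`. -/
theorem hF_cusp (ι : L →+* AlgebraicClosure ℚ) (N : ℕ) [NeZero N]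
    {A : Type*} [CommRing A] [IsDedekindDomain A] [Algebra ℚ A] [Algebra L[X] A] (g : L[X])
    (hg : g = 1 - C 1728 * X) [IsLocalization.Away g A]
    {K F2 BF2 : Type*} [Field K] [Algebra A K] [IsFractionRing A K]
    [Field F2] [Algebra (FF L N) F2] [Algebra A F2]
    (hA : ∀ p : L[X], algebraMap A F2 (algebraMap L[X] A p) =
      algebraMap (FF L N) F2 (aeval (jBC L N)⁻¹ p))
    [Algebra K F2] [IsScalarTower A K F2] [FiniteDimensional K F2]
    [CommRing BF2] [Algebra A BF2] [Algebra BF2 F2] [IsScalarTower A BF2 F2]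
    [IsIntegralClosure BF2 A F2]
    (s : ℕ) (hs : 0 < s) (u : F2) (w : FF L N) (huw : u ^ s = algebraMap (FF L N) F2 w)
    (hirr : Irreducible (X ^ s - C w : (FF L N)[X])) (hdeg : Module.finrank (FF L N) F2 = s)
    (hw0 : w ≠ 0) (hdiv : ∀ v : Place L (FF L N), (s : ℤ) ∣ v.ord w) :
    ∀ P : Ideal BF2, P.IsPrime → P ≠ ⊥ →
      (algebraMap L[X] A X ∈ P.under A → P.ramificationIdx A ∣ N) ∧
      (algebraMap L[X] A X ∉ P.under A → P.ramificationIdx A = 1) := by
  intro P2 hP2 hP20
  have hg0 : g ≠ 0 := by
    rw [hg]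
    intro h0
    have h1 := congrArg (Polynomial.eval 0) h0
    simp at h1
  have hunit : IsUnit ((aeval (jBC L N)⁻¹ : L[X] →ₐ[L] FF L N).toRingHom g) :=
    IsUnit.mk0 _ (RamIdeal.aeval_jBC_inv_ne_zero ι N g hg0)
  let φ : A →+* FF L N := IsLocalization.Away.lift g hunit
  letI : Algebra A (FF L N) := φ.toAlgebra
  have hφ : ∀ p : L[X], algebraMap A (FF L N) (algebraMap L[X] A p) = aeval (jBC L N)⁻¹ p :=
    fun p => IsLocalization.Away.lift_eq g hunit p
  haveI : IsScalarTower A (FF L N) F2 := by
    refine IsScalarTower.of_algebraMap_eq' ?_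
    apply IsLocalization.ringHom_ext (Submonoid.powers g)
    ext p
    · simp only [RingHom.comp_apply]
      rw [hA, hφ]
    · simp only [RingHom.comp_apply]
      rw [hA, hφ]
  letI := fracAlgebra A K (FF L N) F2
  haveI := fracAlgebra_isScalarTower A K (FF L N) F2
  haveI := fracAlgebra_isScalarTower' A K (FF L N) F2
  haveI : FiniteDimensional K (FF L N) := FiniteDimensional.left K (FF L N) F2
  haveI : CharZero L := algebraRat.charZero L
  haveI : CharZero K :=
    charZero_of_injective_ringHom
      (((algebraMap A K).comp (algebraMap L[X] A)).comp (C : L →+* L[X])).injective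
  haveI := chart_isDedekindDomain A K (FF L N) F2
  haveI := chart_isFractionRing A K (FF L N) F2
  have hL : ∀ a : L, ∃ r : A, algebraMap A (FF L N) r = algebraMap L (FF L N) a :=
    fun a => ⟨algebraMap L[X] A (C a), by rw [hφ, aeval_C]⟩
  obtain ⟨P, hPp, hP0, hunder, he⟩ :=
    KummerRamPlace.exists_prime_ramificationIdx_eq_of_places (A := A) (K := K)
      (BF := integralClosure A (FF L N)) hL s hs u w huw hirr hdeg hw0 hdiv P2 hP20
  have hA' : ∀ p : L[X], algebraMap (integralClosure A (FF L N)) (FF L N)
      (algebraMap A (integralClosure A (FF L N)) (algebraMap L[X] A p)) =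
        aeval (jBC L N)⁻¹ p := by
    intro p
    rw [← IsScalarTower.algebraMap_apply, hφ]
  have key := RamIdeal.ramInf_ideal ι N g hg hA' P hP0
  have hmem : ∀ a : A, a ∈ P2.under A ↔ algebraMap A (integralClosure A (FF L N)) a ∈ P := by
    intro a
    rw [← hunder]
    exact Iff.rfl
  rw [he]
  exact ⟨fun h => key.1 ((hmem _).mp h), fun h => key.2 (fun h0 => h ((hmem _).mpr h0))⟩

/-- `hF_cusp` at the concrete base chart `Cusp.CuspBase L`, branch point `Cusp.baseT L`:
the `F2`-version of `RamCusp.hF_cusp`. -/
theorem hF_cuspBase (ι : L →+* AlgebraicClosure ℚ) (N : ℕ) [NeZero N]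
    {K F2 BF2 : Type*} [Field K] [Algebra (Cusp.CuspBase L) K]
    [IsFractionRing (Cusp.CuspBase L) K]
    [Field F2] [Algebra (FF L N) F2] [Algebra (Cusp.CuspBase L) F2]
    (hA : ∀ p : L[X], algebraMap (Cusp.CuspBase L) F2 (algebraMap L[X] (Cusp.CuspBase L) p) =
      algebraMap (FF L N) F2 (aeval (jBC L N)⁻¹ p))
    [Algebra K F2] [IsScalarTower (Cusp.CuspBase L) K F2] [FiniteDimensional K F2]
    [CommRing BF2] [Algebra (Cusp.CuspBase L) BF2] [Algebra BF2 F2]
    [IsScalarTower (Cusp.CuspBase L) BF2 F2] [IsIntegralClosure BF2 (Cusp.CuspBase L) F2]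
    (s : ℕ) (hs : 0 < s) (u : F2) (w : FF L N) (huw : u ^ s = algebraMap (FF L N) F2 w)
    (hirr : Irreducible (X ^ s - C w : (FF L N)[X])) (hdeg : Module.finrank (FF L N) F2 = s)
    (hw0 : w ≠ 0) (hdiv : ∀ v : Place L (FF L N), (s : ℤ) ∣ v.ord w) :
    ∀ P : Ideal BF2, P.IsPrime → P ≠ ⊥ →
      (Cusp.baseT L ∈ P.under (Cusp.CuspBase L) → P.ramificationIdx (Cusp.CuspBase L) ∣ N) ∧
      (Cusp.baseT L ∉ P.under (Cusp.CuspBase L) → P.ramificationIdx (Cusp.CuspBase L) = 1) := by
  haveI : IsDedekindDomain (Cusp.CuspBase L) := Cusp.cuspBase_isDedekindDomain L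
  exact hF_cusp ι N (A := Cusp.CuspBase L) (Cusp.cuspG L) rfl (K := K) hA s hs u w huw hirr hdeg
    hw0 hdiv

end Charts

end Fermat.Agent.S18.RamF2
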