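/-
S18: the chart-independent half of the cusp chart instance.

`cusp_chart_contract` : for the data `Contracts.KData` and a generic field `F2 = F(u)`, the
conclusion of `Contracts.CuspChartLift` follows from `CuspChartCore.cusp_chart_lift_J` as soon
as the cover of the `t`-line (`t = 1/j`; the fields `K = Frac (CuspBase L)`,
`K' = Frac (CuspRing W N)`, `Y' = F2 K'` with their structures) is supplied.  All inputs at the
level of `F`, `F2`, `K` — the monogenic separable datum, the Kummer datum, the Gauss
integrality of `w`, `w⁻¹` and of the sheet idempotent, the ramification of `F2` over the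
`t`-line, the root of unity, the residue data of `W` — are discharged here.
-/
import Mathlib
import Fermat.Agent.S18.ContractsEps
import Fermat.Agent.S18.PGOut
import Fermat.Agent.S18.FunctionFieldKitCusp
import Fermat.Agent.S18.RamF2
import Fermat.Agent.S18.KSetup
import Fermat.Agent.S18.KSetupDVR
import Fermat.Agent.S18.ChartFieldGlue
import Fermat.Agent.S18.CuspChartCore

set_option autoImplicit false
set_option linter.style.haveILetI false
set_option linter.unusedSectionVars false

namespace Fermat.Agent.S18.CuspChartK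

open ModularCurve AlgebraicCurve Polynomial
open Fermat.Agent.S18.Contracts Fermat.Agent.S18.Cusp

local notation "Qb" => AlgebraicClosure ℚ

/-! ### Generic field lemma -/

/-- A Kummer extension of prime degree `s` by a non-`s`-th power is generated by the root. -/
theorem adjoin_kummer_root_eq_top {F F2 : Type*} [Field F] [Field F2] [Algebra F F2] (s : ℕ)
    (hs : s.Prime) (u : F2) (w : F) (huw : u ^ s = algebraMap F F2 w)
    (hnp : ¬ ∃ a : F, a ^ s = w) (hdeg : Module.finrank F F2 = s) :
    IntermediateField.adjoin F {u} = ⊤ := by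
  have hirr : Irreducible (X ^ s - C w : F[X]) :=
    X_pow_sub_C_irreducible_of_prime hs (fun b hb => hnp ⟨b, hb⟩)
  haveI : FiniteDimensional F F2 := Module.finite_of_finrank_pos (by rw [hdeg]; exact hs.pos)
  rw [Field.primitive_element_iff_minpoly_natDegree_eq,
    Kummer.minpoly_eq s u w hs.ne_zero huw hirr, natDegree_X_pow_sub_C, hdeg]

/-! ### The cusp chart contract from an abstract cover of the `t`-line -/

section Main

variable {ℓ : ℕ} {L : Type} [Field L] [Algebra ℚ L] {ι : L →+* Qb} {W : ValuationSubring L}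
  {N : ℕ} [NeZero N] {s : ℕ} {Z1 Z2 : LaurentSeries ↥W}

/-- **The cusp chart contract, chart-independent half.**  `K = Frac (CuspBase L)` acts on `F2`
through `t ↦ 1/j` (hypothesis `hA` pins the `CuspBase L`-structure of `F2`, hypotheses `hτ`, `hj`
pin the `CuspBase W`-structure); `K'`, `Y'` are the fields of the cover `τ ^ N = t` with the
structures and compatibilities asked by `CuspChartCore.cusp_chart_lift_J`.  The conclusion is
the conclusion of `Contracts.CuspChartLift`. -/
theorem cusp_chart_contract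
    (h : KData ℓ ι W N s Z1 Z2) (π : ↥W) (hπ0 : Irreducible π)
    (F2 : Type) [Field F2] [Algebra (S24.FF L N) F2] (u : F2)
    (hu : u ^ s = algebraMap (S24.FF L N) F2 h.w)
    (hdeg : Module.finrank (S24.FF L N) F2 = s)
    {K K' Y' : Type*}
    [Field K] [Algebra (CuspBase L) K] [IsFractionRing (CuspBase L) K]
    [Algebra K F2] [Algebra (CuspBase L) F2] [IsScalarTower (CuspBase L) K F2]
    [Algebra (CuspBase ↥W) F2]
    (hA : ∀ p : L[X], algebraMap (CuspBase L) F2 (algebraMap L[X] (CuspBase L) p) =
      algebraMap (S24.FF L N) F2 (aeval (S24.jBC L N)⁻¹ p))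
    (hτ : ∀ a : ↥W, algebraMap (CuspBase ↥W) F2 (algebraMap ↥W (CuspBase ↥W) a) =
      toF2 W N F2 a)
    (hj : jF2 L N F2 * algebraMap (CuspBase ↥W) F2 (baseT ↥W) = 1)
    [Field K'] [Algebra (CuspRing ↥W N) K'] [IsFractionRing (CuspRing ↥W N) K']
    [Algebra K K'] [FiniteDimensional K K'] [IsGalois K K']
    [Algebra (CuspRing L N) K'] [IsFractionRing (CuspRing L N) K']
    [Algebra (CuspRing ↥W N) (CuspRing L N)]
    [IsScalarTower (CuspRing ↥W N) (CuspRing L N) K']
    [Field Y'] [Algebra F2 Y'] [Algebra K' Y']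
    (hKY : ∀ x : K, algebraMap K' Y' (algebraMap K K' x) =
      algebraMap F2 Y' (algebraMap K F2 x))
    (hDY : ∀ a : CuspBase ↥W,
      algebraMap K' Y' (algebraMap (CuspRing ↥W N) K' (cuspMap ↥W N a)) =
        algebraMap F2 Y' (algebraMap (CuspBase ↥W) F2 a))
    (hBM : ∀ a : CuspBase L, algebraMap (CuspRing L N) K' (cuspMap L N a) =
      algebraMap K K' (algebraMap (CuspBase L) K a))
    (hFM : IntermediateField.adjoin F2 (Set.range (algebraMap K' Y')) = ⊤)
    [IsLocalization.Away (algebraMap ↥W (CuspRing ↥W N) π) (CuspRing L N)] :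
    ∃ e : F2, (∃ m : ℕ, (evAt W N (jF2 L N F2)⁻¹).IsIntegralElem
        ((1 - 1728 * (jF2 L N F2)⁻¹) ^ m * e)) ∧
      ∃ d : F2, IsGaussJ W N π d ∧ e - Kummer.eps s u = toF2 W N F2 π * d := by
  classical
  haveI := h.dvr
  haveI : IsDomain (CuspBase L) := cuspBase_isDomain L
  have hN : 0 < N := Nat.pos_of_ne_zero (NeZero.ne N)
  have hg := FFKit.cuspHom_injective ι N
  -- the `K`-structure on `F`
  letI : Algebra K (S24.FF L N) := FFKit.fracAlgebra K (FFKit.cuspHom ι N) hg
  have hKF : ∀ a : CuspBase L, algebraMap K (S24.FF L N) (algebraMap (CuspBase L) K a) =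
      FFKit.cuspHom ι N a := FFKit.fracAlgebra_algebraMap K (FFKit.cuspHom ι N) hg
  have hcomp : ∀ a : CuspBase L,
      algebraMap (CuspBase L) F2 a = algebraMap (S24.FF L N) F2 (FFKit.cuspHom ι N a) := by
    have h' := IsLocalization.ringHom_ext (Submonoid.powers (cuspG L))
      (j := algebraMap (CuspBase L) F2)
      (k := (algebraMap (S24.FF L N) F2).comp (FFKit.cuspHom ι N)) (RingHom.ext fun G => by
        rw [RingHom.comp_apply, RingHom.comp_apply, RingHom.comp_apply, hA,
          FFKit.cuspHom_algebraMap])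
    intro a
    exact congrArg (fun f : CuspBase L →+* F2 => f a) h'
  haveI : IsScalarTower K (S24.FF L N) F2 := by
    refine IsScalarTower.of_algebraMap_eq' ?_
    refine FFKit.algebraMap_eq_of_comp_eq (A := CuspBase L) K _ _ (fun a => ?_)
    rw [← IsScalarTower.algebraMap_apply (CuspBase L) K F2, hcomp, RingHom.comp_apply, hKF]
  haveI : FiniteDimensional K (S24.FF L N) := FFKit.finiteDimensional_FF_cusp ι N K
  haveI : FiniteDimensional (S24.FF L N) F2 :=
    Module.finite_of_finrank_pos (by rw [hdeg]; exact h.prime_s.pos)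
  haveI : FiniteDimensional K F2 := FiniteDimensional.trans K (S24.FF L N) F2
  -- the monogenic separable datum
  obtain ⟨θ, P, hP, hPθ, hsep, hgen⟩ := PGOut.exists_theta_F2 h F2
  have hθ : IntermediateField.adjoin K {θ} = ⊤ :=
    ChartFieldGlue.adjoin_simple_eq_top_of_adjoin_pair (S24.jBC L N) θ
      (fun a => ⟨algebraMap (CuspBase L) K (algebraMap L[X] (CuspBase L) (C a)), by
        rw [hKF, FFKit.cuspHom_algebraMap, aeval_C]⟩)
      ⟨(algebraMap (CuspBase L) K (algebraMap L[X] (CuspBase L) X))⁻¹, by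
        rw [map_inv₀, hKF, FFKit.cuspHom_algebraMap, aeval_X, inv_inv]⟩ hgen
  -- the Kummer datum
  have hw0 : h.w ≠ 0 := KSetup.w_ne_zero h
  have huF : IntermediateField.adjoin (S24.FF L N) {u} = ⊤ :=
    adjoin_kummer_root_eq_top s h.prime_s u h.w hu h.H2 hdeg
  have hF := RamF2.hF_cuspBase ι N (K := K) (BF2 := integralClosure (CuspBase L) F2) hA s
    h.prime_s.pos u h.w hu (KSetup.irreducible_w h) hdeg hw0 h.H1
  -- the root of unity
  obtain ⟨ζL, hζL⟩ := KSetup.exists_primitiveRoot_L h s h.prime_s.ne_zero (fun hd =>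
    h.ne ((Nat.prime_dvd_prime_iff_eq h.prime_l h.prime_s).mp hd).symm)
  let toK' : L →+* K' := (algebraMap K K').comp
    ((algebraMap (CuspBase L) K).comp ((algebraMap L[X] (CuspBase L)).comp C))
  have hζ : IsPrimitiveRoot (toK' ζL) s := hζL.2.map_of_injective toK'.injective
  exact CuspChartCore.cusp_chart_lift_J (W := ↥W) (k := IsLocalRing.ResidueField ↥W) (L := L)
    (K := K) (F := S24.FF L N) (F2 := F2) (K' := K') (Y' := Y') hN hKY hDY hBM hFM π
    (KSetup.prime_pi h hπ0) (KSetup.isMaximal_span h hπ0) hF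
    (FractionRing (IsLocalRing.ResidueField ↥W)[X]) (IsLocalRing.residue ↥W)
    IsLocalRing.residue_surjective (KSetup.residue_eq_zero_iff h hπ0)
    (toF2 W N F2) (jF2 L N F2) hτ hj θ hθ P hP hPθ hsep s h.prime_s (KSetup.not_dvd_s h hπ0)
    (toK' ζL) hζ u huF h.w hw0 hu (ContractsEps.isGaussJ_w F2 h hπ0)
    (ContractsEps.isGaussJ_w_inv F2 h hπ0) (Kummer.eps s u)
    (ContractsEps.isGaussJ_eps F2 h hπ0 u hu) (ContractsEps.exists_eps_idem F2 h hπ0 u hu)

end Main

end Fermat.Agent.S18.CuspChartK
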