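/-
S18 (helper2): converters from the instance currency of the chart theorems
(`∃ e, IsIntegral D e ∧ ∃ d, IsGaussInt D π_D d ∧ e - ε = π_D • d`) to the ring-hom currency of
`Contracts.FiniteChartLift` / `Contracts.CuspChartLift`.

* `finite_contract_of_inst` : `D = W[X]` acting through `X ↦ j`;
* `cusp_contract_of_inst`   : `D2` any localisation of `W[X]` away from `1 - 1728 X` acting through
  `X ↦ 1/j` (e.g. `Cusp.CuspBase W`).
-/
import Mathlib
import Fermat.Agent.S18.TwoChartsGlue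

set_option autoImplicit false
set_option linter.unusedSectionVars false
set_option linter.style.haveILetI false

namespace Fermat.Agent.S18.CuspContract

open Polynomial

variable {W Y : Type*} [CommRing W] [IsDomain W] [Field Y]

/-- Finite chart: instance currency ⇒ ring-hom currency (conclusion of
`Contracts.FiniteChartLift`). -/
theorem finite_contract_of_inst (τ : W →+* Y) (π : W) (j : Y) [Algebra W[X] Y]
    (h1 : ∀ p : W[X], algebraMap W[X] Y p = eval₂ τ j p) (ε : Y)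
    (h : ∃ e : Y, IsIntegral W[X] e ∧
      ∃ d : Y, IsGaussInt W[X] (C π) d ∧ e - ε = (C π : W[X]) • d) :
    ∃ e : Y, (eval₂RingHom τ j).IsIntegralElem e ∧
      ∃ d : Y, (∃ p : W[X], ¬ C π ∣ p ∧
        (eval₂RingHom τ j).IsIntegralElem (eval₂RingHom τ j p * d)) ∧ e - ε = τ π * d := by
  have hmap : algebraMap W[X] Y = eval₂RingHom τ j := RingHom.ext h1
  obtain ⟨e, he, d, ⟨q, hq, hqd⟩, hed⟩ := h
  refine ⟨e, by rw [← hmap]; exact he, d, ⟨q, hq, ?_⟩, ?_⟩
  · rw [Algebra.smul_def] at hqd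
    rw [← hmap]
    exact hqd
  · rw [hed, Algebra.smul_def, hmap, coe_eval₂RingHom, eval₂_C]

/-- Cusp chart: instance currency ⇒ ring-hom currency (conclusion of
`Contracts.CuspChartLift`).  `D2` is any localisation of `W[X]` away from `1 - 1728 X`, acting on
`Y` through `X ↦ 1/j`; the uniformiser of `D2` is the image `πD` of `π`. -/
theorem cusp_contract_of_inst [IsNoetherianRing W] [UniqueFactorizationMonoid W]
    (τ : W →+* Y) (π : W) (hπ : Prime π) (j : Y) (hj0 : j ≠ 0)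
    {D2 : Type*} [CommRing D2] [Algebra W[X] D2]
    [IsLocalization.Away (1 - C 1728 * X : W[X]) D2] [Algebra D2 Y]
    (h2 : ∀ p : W[X], algebraMap D2 Y (algebraMap W[X] D2 p) = eval₂ τ j⁻¹ p)
    (πD : D2) (hπD : πD = algebraMap W[X] D2 (C π)) (ε : Y)
    (h : ∃ e : Y, IsIntegral D2 e ∧ ∃ d : Y, IsGaussInt D2 πD d ∧ e - ε = πD • d) :
    ∃ e : Y, (∃ m : ℕ, (eval₂RingHom τ j⁻¹).IsIntegralElem ((1 - 1728 * j⁻¹) ^ m * e)) ∧
      ∃ d : Y, (∃ p : W[X], ¬ C π ∣ p ∧
        (eval₂RingHom τ j).IsIntegralElem (eval₂RingHom τ j p * d)) ∧ e - ε = τ π * d := by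
  subst hπD
  have hCπ : Prime (C π : W[X]) := prime_C_iff.mpr hπ
  have hmap2 : ∀ p : W[X],
      algebraMap D2 Y (algebraMap W[X] D2 p) = eval₂RingHom τ j⁻¹ p := h2
  have hfC : ¬ (C π : W[X]) ∣ (1 - C 1728 * X : W[X]) := by
    intro h
    have h0 := (C_dvd_iff_dvd_coeff _ _).mp h 0
    rw [coeff_sub, coeff_one_zero, mul_coeff_zero, coeff_X_zero, mul_zero, sub_zero] at h0
    exact hπ.not_dvd_one h0
  have hg : eval₂RingHom τ j⁻¹ (1 - C 1728 * X : W[X]) = 1 - 1728 * j⁻¹ := by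
    rw [map_sub, map_one, map_mul, coe_eval₂RingHom, eval₂_C, eval₂_X, map_ofNat]
  obtain ⟨e, he, d, hd, hed⟩ := h
  obtain ⟨m, hm⟩ := TwoChartsGlue.exists_pow_mul_isIntegralElem_of_away (A' := D2)
    (1 - C 1728 * X : W[X]) (eval₂RingHom τ j⁻¹) hmap2 he
  rw [hg] at hm
  refine ⟨e, ⟨m, hm⟩, d, ?_, ?_⟩
  · exact TwoChartsGlue.gauss_tau_of_inv τ π j hj0
      (TwoChartsGlue.exists_gauss_of_away (A' := D2) (1 - C 1728 * X : W[X])
        (eval₂RingHom τ j⁻¹) hmap2 (C π) hCπ hfC hd)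
  · rw [hed, Algebra.smul_def, hmap2, coe_eval₂RingHom, eval₂_C]

end Fermat.Agent.S18.CuspContract
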