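import Mathlib

set_option autoImplicit false

/-!
# S18, cusp chart: counting lemmas (pure commutative algebra)

* `exists_eq_mul_of_mul_eq`: if `t` is a nonzerodivisor modulo `π` then `π` is a nonzerodivisor
  modulo `t`.
* `mem_radical_of_mul_mem`: then `π` is a nonzerodivisor modulo `√(t)`.
* `card_le_finrank_of_isMaximal`: a finite dimensional algebra over a field has at most
  `finrank` maximal ideals.
* `card_le_add_finrank_quot`: the "branches versus points" inequality.
-/

namespace Fermat.Agent.S18.CuspCount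

section Nzd

variable {B : Type*} [CommRing B]

/-- If `π` is a nonzerodivisor and `t` is a nonzerodivisor modulo `π`, then `π` is a
nonzerodivisor modulo `t`. -/
theorem exists_eq_mul_of_mul_eq (π t : B) (hπ : ∀ x : B, π * x = 0 → x = 0)
    (htors : ∀ y z : B, t * y = π * z → ∃ y', y = π * y') :
    ∀ x y : B, π * x = t * y → ∃ z, x = t * z := by
  intro x y h
  obtain ⟨y', rfl⟩ := htors y x h.symm
  refine ⟨y', ?_⟩
  have : π * (x - t * y') = 0 := by rw [mul_sub, h]; ring
  exact sub_eq_zero.mp (hπ _ this)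

/-- If `π` is a nonzerodivisor modulo `t`, then `π ^ n` is a nonzerodivisor modulo `t`. -/
theorem mem_span_of_pow_mul_mem (π t : B)
    (hnzd : ∀ x y : B, π * x = t * y → ∃ z, x = t * z) (n : ℕ) (a : B)
    (ha : π ^ n * a ∈ Ideal.span {t}) : a ∈ Ideal.span {t} := by
  induction n with
  | zero => simpa using ha
  | succ n ih =>
    apply ih
    rw [Ideal.mem_span_singleton'] at ha ⊢
    obtain ⟨y, hy⟩ := ha
    obtain ⟨z, hz⟩ := hnzd (π ^ n * a) y (by rw [mul_comm t y, hy]; ring)
    exact ⟨z, by rw [hz]; ring⟩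

/-- If `π` is a nonzerodivisor modulo `t`, then it is a nonzerodivisor modulo `√(t)`. -/
theorem mem_radical_of_mul_mem (π t : B)
    (hnzd : ∀ x y : B, π * x = t * y → ∃ z, x = t * z) (x : B)
    (hx : π * x ∈ (Ideal.span {t}).radical) : x ∈ (Ideal.span {t}).radical := by
  obtain ⟨n, hn⟩ := hx
  refine ⟨n, mem_span_of_pow_mul_mem π t hnzd n (x ^ n) ?_⟩
  rwa [mul_pow] at hn

end Nzd

section Count

variable {k G : Type*} [Field k] [CommRing G] [Algebra k G] [Module.Finite k G]

/-- A finite dimensional algebra over a field has at most `finrank` maximal ideals. -/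
theorem card_le_finrank_of_isMaximal (S : Finset (Ideal G)) (hS : ∀ M ∈ S, M.IsMaximal) :
    S.card ≤ Module.finrank k G := by
  classical
  have hcop : Pairwise fun (M N : S) => IsCoprime (M : Ideal G) (N : Ideal G) := by
    intro M N hMN
    rw [Ideal.isCoprime_iff_sup_eq]
    exact Ideal.IsMaximal.coprime_of_ne (hS M M.2) (hS N N.2) (fun h => hMN (Subtype.ext h))
  let e := Ideal.quotientInfRingEquivPiQuotient (fun M : S => (M : Ideal G)) hcop
  have hsurj : Function.Surjective
      (fun x : G => fun M : S => Ideal.Quotient.mk (M : Ideal G) x) := by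
    intro y
    obtain ⟨x, hx⟩ := Ideal.Quotient.mk_surjective (e.symm y)
    refine ⟨x, ?_⟩
    have h2 : e (Ideal.Quotient.mk _ x) = y := by rw [hx]; exact e.apply_symm_apply y
    rw [← h2]
    rfl
  let φ : G →ₗ[k] (∀ M : S, G ⧸ (M : Ideal G)) :=
    LinearMap.pi fun M => (Ideal.Quotient.mkₐ k (M : Ideal G)).toLinearMap
  have hφ : Function.Surjective φ := hsurj
  have h1 : Module.finrank k (∀ M : S, G ⧸ (M : Ideal G)) ≤ Module.finrank k G :=
    LinearMap.finrank_le_finrank_of_surjective hφ
  have hfree : ∀ M : S, Module.Free k (G ⧸ (M : Ideal G)) := fun M =>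
    Module.Free.of_divisionRing k _
  have hfin : ∀ M : S, Module.Finite k (G ⧸ (M : Ideal G)) := fun M =>
    Module.Finite.of_surjective (Ideal.Quotient.mkₐ k (M : Ideal G)).toLinearMap
      (Ideal.Quotient.mkₐ_surjective k _)
  have h2 : Module.finrank k (∀ M : S, G ⧸ (M : Ideal G)) =
      ∑ M : S, Module.finrank k (G ⧸ (M : Ideal G)) := Module.finrank_pi_fintype k
  have h3 : ∀ M : S, 1 ≤ Module.finrank k (G ⧸ (M : Ideal G)) := by
    intro M
    have : Nontrivial (G ⧸ (M : Ideal G)) :=
      Ideal.Quotient.nontrivial_iff.mpr (hS M M.2).ne_top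
    exact Module.finrank_pos
  calc S.card = ∑ _M : S, 1 := by simp
    _ ≤ ∑ M : S, Module.finrank k (G ⧸ (M : Ideal G)) := Finset.sum_le_sum fun M _ => h3 M
    _ = Module.finrank k (∀ M : S, G ⧸ (M : Ideal G)) := h2.symm
    _ ≤ Module.finrank k G := h1

end Count

section Special

variable {W B : Type*} [CommRing W] [IsDomain W] [IsDiscreteValuationRing W]
  [CommRing B] [Algebra W B]

/-- If `B/(t)` is module-finite over the discrete valuation ring `W`, then every maximal ideal
of `B` containing `t` contains the uniformiser. -/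
theorem algebraMap_mem_of_isMaximal (π : W) (hπ : Irreducible π) (t : B)
    (hfin : Module.Finite W (B ⧸ Ideal.span {t})) (M : Ideal B) (hM : M.IsMaximal)
    (ht : t ∈ M) : algebraMap W B π ∈ M := by
  by_contra hπM
  have hle : Ideal.span {t} ≤ M := (Ideal.span_singleton_le_iff_mem M).mpr ht
  have hfinM : Module.Finite W (B ⧸ M) :=
    Module.Finite.of_surjective (Ideal.Quotient.factorₐ W hle).toLinearMap
      (Ideal.Quotient.factor_surjective hle)
  obtain ⟨y, i, hi, hy⟩ := hM.exists_inv hπM
  have hπmem : π ∈ IsLocalRing.maximalIdeal W := by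
    rw [IsLocalRing.mem_maximalIdeal, mem_nonunits_iff]
    exact hπ.not_isUnit
  have hIN : (⊤ : Submodule W (B ⧸ M)) ≤ IsLocalRing.maximalIdeal W • (⊤ : Submodule W (B ⧸ M)) := by
    intro g _
    obtain ⟨x, rfl⟩ := Ideal.Quotient.mk_surjective g
    have hx : (Ideal.Quotient.mk M x) = π • (Ideal.Quotient.mk M (y * x)) := by
      rw [Algebra.smul_def, IsScalarTower.algebraMap_apply W B (B ⧸ M),
        Ideal.Quotient.algebraMap_eq, ← map_mul, Ideal.Quotient.eq]
      have : x - algebraMap W B π * (y * x) = i * x := by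
        linear_combination (-x) * hy
      rw [this]
      exact M.mul_mem_right _ hi
    rw [hx]
    exact Submodule.smul_mem_smul hπmem Submodule.mem_top
  have hbot : (⊤ : Submodule W (B ⧸ M)) = ⊥ :=
    Submodule.eq_bot_of_le_smul_of_le_jacobson_bot _ _ Module.Finite.fg_top hIN
      (IsLocalRing.maximalIdeal_le_jacobson _)
  have h1 : (1 : B ⧸ M) = 0 := by
    have : (1 : B ⧸ M) ∈ (⊤ : Submodule W (B ⧸ M)) := Submodule.mem_top
    rw [hbot] at this
    exact (Submodule.mem_bot W).mp this
  have h2 : (1 : B) ∈ M := by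
    rw [← Ideal.Quotient.eq_zero_iff_mem]
    exact h1
  exact hM.ne_top ((Ideal.eq_top_iff_one M).mpr h2)

/-- **Specialisation count.** `W` a discrete valuation ring with uniformiser `π`, `B` a
`W`-algebra, `t : B` with `B/(t)` module-finite over `W` and `π` a nonzerodivisor modulo `t`.
Then `B/√(t)` is a finite free `W`-module and the number of maximal ideals of `B` containing `t`
is at most its rank. -/
theorem card_maximal_le (π : W) (hπ : Irreducible π) (t : B)
    (hfin : Module.Finite W (B ⧸ Ideal.span {t}))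
    (hnzd : ∀ x y : B, algebraMap W B π * x = t * y → ∃ z, x = t * z)
    (S : Finset (Ideal B)) (hS : ∀ M ∈ S, M.IsMaximal ∧ t ∈ M) :
    Module.Free W (B ⧸ (Ideal.span {t}).radical) ∧
    Module.Finite W (B ⧸ (Ideal.span {t}).radical) ∧
    S.card ≤ Module.finrank W (B ⧸ (Ideal.span {t}).radical) := by
  classical
  have hle : Ideal.span {t} ≤ (Ideal.span {t}).radical := Ideal.le_radical
  have hfinG : Module.Finite W (B ⧸ (Ideal.span {t}).radical) :=
    Module.Finite.of_surjective (Ideal.Quotient.factorₐ W hle).toLinearMap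
      (Ideal.Quotient.factor_surjective hle)
  have hsmul : ∀ (r : W) (x : B), r • (Ideal.Quotient.mk (Ideal.span {t}).radical x) =
      Ideal.Quotient.mk (Ideal.span {t}).radical (algebraMap W B r * x) := by
    intro r x
    rw [Algebra.smul_def, IsScalarTower.algebraMap_apply W B (B ⧸ (Ideal.span {t}).radical),
      Ideal.Quotient.algebraMap_eq, ← map_mul]
  -- `π` is a nonzerodivisor on the quotient
  have hπtf : ∀ g : B ⧸ (Ideal.span {t}).radical, π • g = 0 → g = 0 := by
    intro g hg
    obtain ⟨x, rfl⟩ := Ideal.Quotient.mk_surjective g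
    rw [hsmul, Ideal.Quotient.eq_zero_iff_mem] at hg
    rw [Ideal.Quotient.eq_zero_iff_mem]
    exact mem_radical_of_mul_mem _ t hnzd x hg
  have hπpow : ∀ (n : ℕ) (g : B ⧸ (Ideal.span {t}).radical), π ^ n • g = 0 → g = 0 := by
    intro n
    induction n with
    | zero => intro g hg; simpa using hg
    | succ n ih =>
      intro g hg
      apply ih
      apply hπtf
      rw [smul_smul, ← pow_succ']
      exact hg
  have htf : Module.IsTorsionFree W (B ⧸ (Ideal.span {t}).radical) := by
    refine Module.IsTorsionFree.of_smul_eq_zero fun r g hrg => ?_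
    by_cases hr : r = 0
    · exact Or.inl hr
    · right
      obtain ⟨n, u, rfl⟩ := IsDiscreteValuationRing.eq_unit_mul_pow_irreducible hr hπ
      apply hπpow n
      have h1 : ((u : W) * π ^ n) • g = (u : W) • (π ^ n • g) := mul_smul _ _ _
      rw [h1] at hrg
      have h2 : ((u⁻¹ : Wˣ) : W) • ((u : W) • (π ^ n • g)) = 0 := by rw [hrg, smul_zero]
      rwa [smul_smul, Units.inv_mul, one_smul] at h2
  have hfree : Module.Free W (B ⧸ (Ideal.span {t}).radical) :=
    Module.free_of_finite_type_torsion_free'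
  refine ⟨hfree, hfinG, ?_⟩
  -- the maximal ideals are pairwise coprime
  have hcop : Pairwise (Function.onFun IsCoprime fun M : S => (M : Ideal B)) := by
    intro M N hMN
    show IsCoprime (M : Ideal B) (N : Ideal B)
    rw [Ideal.isCoprime_iff_sup_eq]
    exact Ideal.IsMaximal.coprime_of_ne (hS M M.2).1 (hS N N.2).1 (fun h => hMN (Subtype.ext h))
  have hex : ∀ M₀ : S, ∃ e : B, ∀ M : S, e - (if M = M₀ then (1 : B) else 0) ∈ (M : Ideal B) :=
    fun M₀ => Ideal.exists_forall_sub_mem_ideal hcop fun M => if M = M₀ then (1 : B) else 0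
  choose e he using hex
  have he1 : ∀ M₀ : S, e M₀ - 1 ∈ (M₀ : Ideal B) := fun M₀ => by simpa using he M₀ M₀
  have he0 : ∀ M₀ M : S, M ≠ M₀ → e M₀ ∈ (M : Ideal B) := fun M₀ M h => by
    simpa [h] using he M₀ M
  have hradle : ∀ M : S, (Ideal.span {t}).radical ≤ (M : Ideal B) := fun M =>
    ((hS M M.2).1.isPrime.radical_le_iff).mpr
      ((Ideal.span_singleton_le_iff_mem _).mpr (hS M M.2).2)
  have hπM : ∀ M : S, algebraMap W B π ∈ (M : Ideal B) := fun M =>
    algebraMap_mem_of_isMaximal π hπ t hfin M (hS M M.2).1 (hS M M.2).2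
  let v : S → B ⧸ (Ideal.span {t}).radical := fun M =>
    Ideal.Quotient.mk (Ideal.span {t}).radical (e M)
  -- independence modulo `π`
  have key : ∀ a : S → W, (∃ g : B ⧸ (Ideal.span {t}).radical, ∑ M, a M • v M = π • g) →
      ∀ M, π ∣ a M := by
    rintro a ⟨g, hg⟩ M₀
    obtain ⟨y, rfl⟩ := Ideal.Quotient.mk_surjective g
    have h1 : ∑ M, a M • v M =
        Ideal.Quotient.mk (Ideal.span {t}).radical (∑ M, algebraMap W B (a M) * e M) := by
      rw [map_sum]
      exact Finset.sum_congr rfl fun M _ => hsmul _ _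
    rw [h1, hsmul, Ideal.Quotient.eq] at hg
    have h2 : ∑ M, algebraMap W B (a M) * e M - algebraMap W B π * y ∈ (M₀ : Ideal B) :=
      hradle M₀ hg
    have h3 : ∑ M, algebraMap W B (a M) * e M ∈ (M₀ : Ideal B) := by
      have := (M₀ : Ideal B).add_mem h2 ((M₀ : Ideal B).mul_mem_right y (hπM M₀))
      simpa using this
    have h4 : ∑ M ∈ Finset.univ.erase M₀, algebraMap W B (a M) * e M ∈ (M₀ : Ideal B) :=
      (M₀ : Ideal B).sum_mem fun M hM =>
        (M₀ : Ideal B).mul_mem_left _ (he0 M M₀ (Finset.ne_of_mem_erase hM).symm)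
    have h5 : algebraMap W B (a M₀) * e M₀ ∈ (M₀ : Ideal B) := by
      rw [← Finset.add_sum_erase _ _ (Finset.mem_univ M₀)] at h3
      have := (M₀ : Ideal B).sub_mem h3 h4
      simpa using this
    have h6 : algebraMap W B (a M₀) ∈ (M₀ : Ideal B) := by
      have := (M₀ : Ideal B).sub_mem h5 ((M₀ : Ideal B).mul_mem_left (algebraMap W B (a M₀)) (he1 M₀))
      have h7 : algebraMap W B (a M₀) * e M₀ - algebraMap W B (a M₀) * (e M₀ - 1) =
          algebraMap W B (a M₀) := by ring
      rwa [h7] at this
    by_contra hdvd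
    have hunit : IsUnit (a M₀) := by
      by_contra hnu
      have hmem : a M₀ ∈ IsLocalRing.maximalIdeal W := by
        rwa [IsLocalRing.mem_maximalIdeal, mem_nonunits_iff]
      rw [(IsDiscreteValuationRing.irreducible_iff_uniformizer π).mp hπ,
        Ideal.mem_span_singleton] at hmem
      exact hdvd hmem
    exact (hS M₀ M₀.2).1.ne_top (Ideal.eq_top_of_isUnit_mem _ h6 (hunit.map _))
  -- divisibility by all powers of `π`
  have hpow : ∀ (n : ℕ) (a : S → W), ∑ M, a M • v M = 0 → ∀ M, π ^ n ∣ a M := by
    intro n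
    induction n with
    | zero => intro a _ M; simp
    | succ n ih =>
      intro a ha M
      have hdvd := key a ⟨0, by rw [ha, smul_zero]⟩
      choose b hb using hdvd
      have hb' : ∑ M, b M • v M = 0 := by
        apply hπtf
        rw [Finset.smul_sum, ← ha]
        exact Finset.sum_congr rfl fun M _ => by rw [smul_smul, ← hb M]
      obtain ⟨c, hc⟩ := ih b hb' M
      exact ⟨c, by rw [hb M, hc, pow_succ]; ring⟩
  have hli : LinearIndependent W v := by
    rw [Fintype.linearIndependent_iff]
    intro a ha M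
    by_contra hne
    obtain ⟨n, u, hu⟩ := IsDiscreteValuationRing.eq_unit_mul_pow_irreducible hne hπ
    obtain ⟨c, hc⟩ := hpow (n + 1) a ha M
    rw [hu, pow_succ] at hc
    have h1 : π ^ n * (u : W) = π ^ n * (π * c) := by linear_combination hc
    have h2 : (u : W) = π * c := mul_left_cancel₀ (pow_ne_zero n hπ.ne_zero) h1
    exact hπ.not_isUnit (isUnit_of_mul_isUnit_left (h2 ▸ u.isUnit))
  have := hli.fintype_card_le_finrank
  simpa using this

end Special

section Branches

variable {k E : Type*} [Field k] [CommRing E] [Algebra k E]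

/-- **Branches versus points.** `E` a `k`-algebra, `Bbar` a subalgebra, `Q` a finite set of
maximal ideals of `E` with residue field `k`, `N` a `k`-subspace of `E` contained in every
`q ∈ Q`. Then the number of `q ∈ Q` is at most the number of their contractions to `Bbar` plus
the dimension of `E / (Bbar + N)`. -/
theorem card_le_add_finrank (Bbar : Subalgebra k E) (Q : Finset (Ideal E))
    (hQ : ∀ q ∈ Q, q.IsMaximal)
    (hres : ∀ q ∈ Q, ∀ x : E, ∃ c : k, x - algebraMap k E c ∈ q)
    (N : Submodule k E) (hN : ∀ q ∈ Q, ∀ x ∈ N, x ∈ q)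
    [Module.Finite k (E ⧸ (Subalgebra.toSubmodule Bbar ⊔ N))] :
    Q.card ≤ (Q.image fun q : Ideal E => q.comap Bbar.val).card +
      Module.finrank k (E ⧸ (Subalgebra.toSubmodule Bbar ⊔ N)) := by
  classical
  -- uniqueness of the residue
  have huniq : ∀ q ∈ Q, ∀ (x : E) (c c' : k), x - algebraMap k E c ∈ q →
      x - algebraMap k E c' ∈ q → c = c' := by
    intro q hq x c c' h h'
    by_contra hne
    have h1 : algebraMap k E (c - c') ∈ q := by
      have := q.sub_mem h' h
      have h2 : x - algebraMap k E c' - (x - algebraMap k E c) = algebraMap k E (c - c') := by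
        rw [map_sub]; ring
      rwa [h2] at this
    have hu : IsUnit (algebraMap k E (c - c')) :=
      (isUnit_iff_ne_zero.mpr (sub_ne_zero.mpr hne)).map _
    exact (hQ q hq).ne_top (Ideal.eq_top_of_isUnit_mem _ h1 hu)
  choose! r hr using hres
  -- the residue map
  let Ψ : E →ₗ[k] (Q → k) :=
    { toFun := fun x q => r q.1 x
      map_add' := by
        intro x y
        funext q
        refine huniq q.1 q.2 (x + y) _ _ (hr q.1 q.2 (x + y)) ?_
        have := (q.1).add_mem (hr q.1 q.2 x) (hr q.1 q.2 y)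
        have h2 : x - algebraMap k E (r q.1 x) + (y - algebraMap k E (r q.1 y)) =
            x + y - algebraMap k E ((fun q : Q => r q.1 x) q + (fun q : Q => r q.1 y) q) := by
          rw [map_add]; ring
        rwa [h2] at this
      map_smul' := by
        intro c x
        funext q
        refine huniq q.1 q.2 (c • x) _ _ (hr q.1 q.2 (c • x)) ?_
        have := (q.1).mul_mem_left (algebraMap k E c) (hr q.1 q.2 x)
        have h2 : algebraMap k E c * (x - algebraMap k E (r q.1 x)) =
            c • x - algebraMap k E ((RingHom.id k c) • (fun q : Q => r q.1 x) q) := by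
          rw [Algebra.smul_def, RingHom.id_apply, smul_eq_mul, map_mul]; ring
        rwa [h2] at this }
  have hΨ : ∀ (x : E) (q : Q), Ψ x q = r q.1 x := fun _ _ => rfl
  have hΨmem : ∀ (x : E) (q : Q), x - algebraMap k E (Ψ x q) ∈ q.1 := fun x q => hr q.1 q.2 x
  have hΨzero : ∀ (x : E) (q : Q), x ∈ q.1 → Ψ x q = 0 := by
    intro x q hx
    refine huniq q.1 q.2 x _ _ (hΨmem x q) ?_
    rwa [map_zero, sub_zero]
  -- surjectivity (Chinese remainder theorem)
  have hcop : Pairwise (Function.onFun IsCoprime fun q : Q => (q : Ideal E)) := by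
    intro q q' hqq'
    show IsCoprime (q : Ideal E) (q' : Ideal E)
    rw [Ideal.isCoprime_iff_sup_eq]
    exact Ideal.IsMaximal.coprime_of_ne (hQ q q.2) (hQ q' q'.2) (fun h => hqq' (Subtype.ext h))
  have hsurj : Function.Surjective Ψ := by
    intro y
    obtain ⟨x, hx⟩ := Ideal.exists_forall_sub_mem_ideal hcop fun q => algebraMap k E (y q)
    refine ⟨x, funext fun q => ?_⟩
    exact huniq q.1 q.2 x _ _ (hΨmem x q) (hx q)
  -- the subspace of functions constant on the fibres of contraction
  let con : Q → Ideal Bbar := fun q => (q : Ideal E).comap Bbar.val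
  let V : Submodule k (Q → k) :=
    { carrier := {y | ∀ q q' : Q, con q = con q' → y q = y q'}
      add_mem' := by
        intro y y' hy hy' q q' h
        rw [Pi.add_apply, Pi.add_apply, hy q q' h, hy' q q' h]
      zero_mem' := by intro q q' _; rfl
      smul_mem' := by
        intro c y hy q q' h
        rw [Pi.smul_apply, Pi.smul_apply, hy q q' h] }
  -- `Ψ` maps `Bbar` into `V`
  have hB : ∀ b ∈ Bbar, Ψ b ∈ V := by
    intro b hb q q' h
    refine huniq q'.1 q'.2 b _ _ ?_ (hΨmem b q')
    have h1 : (⟨b - algebraMap k E (Ψ b q), Bbar.sub_mem hb (Bbar.algebraMap_mem _)⟩ : Bbar) ∈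
        con q := by
      show Bbar.val _ ∈ (q : Ideal E)
      exact hΨmem b q
    rw [h] at h1
    exact h1
  have hNV : ∀ x ∈ N, Ψ x ∈ V := by
    intro x hx q q' _
    rw [hΨzero x q (hN q.1 q.2 x hx), hΨzero x q' (hN q'.1 q'.2 x hx)]
  -- dimension of `V`
  have hVdim : Module.finrank k V ≤ (Q.image fun q : Ideal E => q.comap Bbar.val).card := by
    let T := (Q.image fun q : Ideal E => q.comap Bbar.val)
    -- choose a representative for each point of the image
    have hrep : ∀ p : T, ∃ q : Q, con q = p.1 := by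
      intro p
      obtain ⟨q, hq, hqp⟩ := Finset.mem_image.mp p.2
      exact ⟨⟨q, hq⟩, hqp⟩
    choose rep hrepq using hrep
    let ev : V →ₗ[k] (T → k) :=
      { toFun := fun y p => y.1 (rep p)
        map_add' := by intro y y'; rfl
        map_smul' := by intro c y; rfl }
    have hinj : Function.Injective ev := by
      intro y y' hyy'
      apply Subtype.ext
      funext q
      have hqT : con q ∈ T := Finset.mem_image.mpr ⟨q.1, q.2, rfl⟩
      have h1 := y.2 q (rep ⟨con q, hqT⟩) (hrepq ⟨con q, hqT⟩).symm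
      have h2 := y'.2 q (rep ⟨con q, hqT⟩) (hrepq ⟨con q, hqT⟩).symm
      have h3 := congrFun hyy' ⟨con q, hqT⟩
      rw [h1, h2]
      exact h3
    calc Module.finrank k V ≤ Module.finrank k (T → k) :=
          LinearMap.finrank_le_finrank_of_injective hinj
      _ = T.card := by simp
  -- the induced surjection
  let Φ : E →ₗ[k] ((Q → k) ⧸ V) := V.mkQ ∘ₗ Ψ
  have hΦsurj : Function.Surjective Φ := (Submodule.mkQ_surjective V).comp hsurj
  have hker : Subalgebra.toSubmodule Bbar ⊔ N ≤ LinearMap.ker Φ := by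
    rw [sup_le_iff]
    constructor
    · intro b hb
      rw [LinearMap.mem_ker]
      exact (Submodule.Quotient.mk_eq_zero V).mpr (hB b hb)
    · intro x hx
      rw [LinearMap.mem_ker]
      exact (Submodule.Quotient.mk_eq_zero V).mpr (hNV x hx)
  let Φ' : (E ⧸ (Subalgebra.toSubmodule Bbar ⊔ N)) →ₗ[k] ((Q → k) ⧸ V) :=
    Submodule.liftQ _ Φ hker
  have hΦ'surj : Function.Surjective Φ' := by
    intro z
    obtain ⟨x, rfl⟩ := hΦsurj z
    exact ⟨Submodule.Quotient.mk x, rfl⟩
  have h1 : Module.finrank k ((Q → k) ⧸ V) ≤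
      Module.finrank k (E ⧸ (Subalgebra.toSubmodule Bbar ⊔ N)) :=
    LinearMap.finrank_le_finrank_of_surjective hΦ'surj
  have h2 : Module.finrank k ((Q → k) ⧸ V) + Module.finrank k V = Module.finrank k (Q → k) :=
    Submodule.finrank_quotient_add_finrank V
  have h3 : Module.finrank k (Q → k) = Q.card := by simp
  omega

end Branches

end Fermat.Agent.S18.CuspCount
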