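import Mathlib
import Fermat.Agent.S18.CuspHoriz
import Fermat.Agent.S18.CuspFrac
import Fermat.Agent.S18.ChartBasics
import Fermat.Agent.S18.FunctionFieldKitCusp
import Fermat.Agent.S18.TowerUnram

/-!
# S18, cusp chart: `hU` at the horizontal primes, with every `L`-level object hidden

`CuspHoriz.cusp_hU_horizontal` needs the generic fibre objects `A = CuspBase L`, `K = Frac A`,
`BM = CuspRing L N`, the integral closures `BF`, `BY` and about twenty instances relating them.
None of them occurs in the conclusion.  Here they are all constructed inside the proof, for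
`F = F2` a Kummer extension `FF L N (u)` of the function field; the statement only mentions the
`W`-level objects `R0 = CuspRing W N`, `K' = Frac R0`, `Y'`, `B'` and three compatibility
equations.
-/

set_option autoImplicit false
set_option linter.style.haveILetI false
set_option linter.unusedSectionVars false

namespace Fermat.Agent.S18.CuspInstL

open Polynomial AlgebraicCurve ModularCurve
open Fermat.Agent.S24 Fermat.Agent.S18.Cusp

/-- **Cusp chart, horizontal primes, instance form.**  `W` a domain with `L = W[1/π]`,
`F2 = FF L N (u)` with `u ^ s = w` (all orders of `w` divisible by `s`), `Y'` a field over `F2`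
generated by the image `x0` of the chart coordinate, `x0 ^ N = 1/j`.  Then the trace form of the
integral closure `B'` of `R0 = CuspRing W N` in `Y'` is nondegenerate at every prime of `R0` not
containing `π`. -/
theorem cusp_horizontal_FF
    {L : Type*} [Field L] [Algebra ℚ L] (ι : L →+* AlgebraicClosure ℚ) (N : ℕ) [NeZero N]
    {W : Type*} [CommRing W] [IsDomain W] [Algebra W L] (π : W) [IsLocalization.Away π L]
    {ζ : L} (hζ : IsPrimitiveRoot ζ N)
    {F2 : Type*} [Field F2] [Algebra (FF L N) F2]
    (s : ℕ) (hs : 0 < s) (u : F2) (w : FF L N) (huw : u ^ s = algebraMap (FF L N) F2 w)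
    (hirr : Irreducible (X ^ s - C w : (FF L N)[X])) (hdeg : Module.finrank (FF L N) F2 = s)
    (hw0 : w ≠ 0) (hdiv : ∀ v : Place L (FF L N), (s : ℤ) ∣ v.ord w)
    {K' Y' B' : Type*} [Field Y'] [Algebra F2 Y'] [Field K'] [Algebra (CuspRing W N) K']
    [IsFractionRing (CuspRing W N) K'] [Algebra K' Y'] [Algebra (CuspRing W N) Y']
    [IsScalarTower (CuspRing W N) K' Y']
    (hX : algebraMap (CuspRing W N) Y' (chartX W N) ^ N *
      algebraMap F2 Y' (algebraMap (FF L N) F2 (jBC L N)) = 1)
    (hC : ∀ a : W, algebraMap (CuspRing W N) Y' (algebraMap W (CuspRing W N) a) =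
      algebraMap F2 Y' (algebraMap (FF L N) F2 (algebraMap L (FF L N) (algebraMap W L a))))
    (hgen : IntermediateField.adjoin F2 {algebraMap (CuspRing W N) Y' (chartX W N)} = ⊤)
    [CommRing B'] [Algebra (CuspRing W N) B'] [Algebra B' Y'] [IsScalarTower (CuspRing W N) B' Y']
    [IsIntegralClosure B' (CuspRing W N) Y']
    (𝔭 : Ideal (CuspRing W N)) [𝔭.IsPrime] (h𝔭 : algebraMap W (CuspRing W N) π ∉ 𝔭) :
    TowerUnram.TraceNondeg (CuspRing W N) K' Y' B' 𝔭 := by
  intro x hx
  have hN : 0 < N := NeZero.pos N
  haveI := cuspBase_isDomain L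
  haveI : IsDomain (CuspRing W N) := cuspRing_isDomain W hN
  haveI : IsDomain (CuspRing L N) := cuspRing_isDomain L hN
  -- the base chart `A = CuspBase L` and its fraction field `K`
  have hg := FFKit.cuspHom_injective ι N
  letI algAF2 : Algebra (CuspBase L) F2 :=
    ((algebraMap (FF L N) F2).comp (FFKit.cuspHom ι N)).toAlgebra
  have hAF2 : ∀ a : CuspBase L, algebraMap (CuspBase L) F2 a =
      algebraMap (FF L N) F2 (FFKit.cuspHom ι N a) := fun a => rfl
  have hinj2 : Function.Injective (algebraMap (CuspBase L) F2) := by
    intro a b hab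
    rw [hAF2, hAF2] at hab
    exact hg ((algebraMap (FF L N) F2).injective hab)
  letI algKF2 : Algebra (FractionRing (CuspBase L)) F2 :=
    FFKit.fracAlgebra (FractionRing (CuspBase L)) (algebraMap (CuspBase L) F2) hinj2
  haveI : IsScalarTower (CuspBase L) (FractionRing (CuspBase L)) F2 :=
    IsScalarTower.of_algebraMap_eq (fun a =>
      (FFKit.fracAlgebra_algebraMap (FractionRing (CuspBase L)) (algebraMap (CuspBase L) F2)
        hinj2 a).symm)
  letI algKF : Algebra (FractionRing (CuspBase L)) (FF L N) :=
    FFKit.fracAlgebra (FractionRing (CuspBase L)) (FFKit.cuspHom ι N) hg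
  haveI : IsScalarTower (FractionRing (CuspBase L)) (FF L N) F2 :=
    FFKit.fracAlgebra_isScalarTower_of_comp (FractionRing (CuspBase L)) (FFKit.cuspHom ι N) hg
      (algebraMap (CuspBase L) F2) hinj2 hAF2
  haveI : FiniteDimensional (FractionRing (CuspBase L)) (FF L N) :=
    FFKit.finiteDimensional_FF_cusp ι N (FractionRing (CuspBase L))
  haveI : FiniteDimensional (FF L N) F2 := by
    apply Module.finite_of_finrank_pos
    rw [hdeg]; exact hs
  haveI : FiniteDimensional (FractionRing (CuspBase L)) F2 :=
    FiniteDimensional.trans (FractionRing (CuspBase L)) (FF L N) F2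
  -- the generic fibre `BM = CuspRing L N` of the chart
  have hgF : cuspF L N = (cuspF W N).map (algebraMap W L) := by
    simp only [cuspF, Polynomial.map_sub, Polynomial.map_one, Polynomial.map_mul,
      Polynomial.map_pow, Polynomial.map_X, map_ofNat, Polynomial.map_ofNat]
  letI algR0BM : Algebra (CuspRing W N) (CuspRing L N) :=
    ChartBasics.algAwayBC (cuspF W N) (cuspF L N) hgF
  haveI : IsScalarTower W (CuspRing W N) (CuspRing L N) :=
    ChartBasics.isScalarTower_awayBC (cuspF W N) (cuspF L N) hgF
  haveI hloc : IsLocalization.Away (algebraMap W (CuspRing W N) π) (CuspRing L N) :=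
    ChartBasics.isLocalization_awayBC π (cuspF W N) (cuspF L N) hgF
  have hπ0 : π ≠ 0 := by
    rintro rfl
    have h1 : IsUnit (algebraMap W L 0) := IsLocalization.Away.algebraMap_isUnit (0 : W)
    rw [map_zero] at h1
    exact not_isUnit_zero h1
  have hπR0 : algebraMap W (CuspRing W N) π ≠ 0 := by
    rw [Ne, map_eq_zero_iff _ (cuspRing_algebraMap_injective W hN)]
    exact hπ0
  letI algBMK' : Algebra (CuspRing L N) K' :=
    ChartBasics.algAwayFrac (R := CuspRing W N) (A := CuspRing L N) (K := K')
      (algebraMap W (CuspRing W N) π) hπR0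
  haveI : IsScalarTower (CuspRing W N) (CuspRing L N) K' :=
    ChartBasics.isScalarTower_awayFrac (R := CuspRing W N) (A := CuspRing L N) (K := K')
      (algebraMap W (CuspRing W N) π) hπR0
  haveI : IsFractionRing (CuspRing L N) K' :=
    ChartBasics.isFractionRing_awayFrac (R := CuspRing W N) (A := CuspRing L N) (K := K')
      (algebraMap W (CuspRing W N) π) hπR0
  -- `A → K'` through `BM`, and `K → K'`
  letI algAK' : Algebra (CuspBase L) K' :=
    ((algebraMap (CuspRing L N) K').comp (cuspMap L N).toRingHom).toAlgebra
  have hBM : ∀ a : CuspBase L, algebraMap (CuspRing L N) K' (cuspMap L N a) =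
      algebraMap (CuspBase L) K' a := fun a => rfl
  have hinjAK' : Function.Injective (algebraMap (CuspBase L) K') := by
    intro a b hab
    rw [← hBM, ← hBM] at hab
    exact cuspMap_injective L hN (IsFractionRing.injective (CuspRing L N) K' hab)
  letI algKK' : Algebra (FractionRing (CuspBase L)) K' :=
    FFKit.fracAlgebra (FractionRing (CuspBase L)) (algebraMap (CuspBase L) K') hinjAK'
  have hc : ∀ a : CuspBase L, algebraMap (FractionRing (CuspBase L)) K'
      (algebraMap (CuspBase L) (FractionRing (CuspBase L)) a) =
      algebraMap (CuspRing L N) K' (cuspMap L N a) := fun a =>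
    FFKit.fracAlgebra_algebraMap (FractionRing (CuspBase L)) (algebraMap (CuspBase L) K')
      hinjAK' a
  haveI : IsScalarTower (CuspBase L) (FractionRing (CuspBase L)) K' :=
    IsScalarTower.of_algebraMap_eq (fun a => (hc a).symm)
  haveI : FiniteDimensional (FractionRing (CuspBase L)) K' :=
    Cusp.finiteDimensional_frac L N hN hc
  -- roots of unity and characteristic zero in `K`
  have hLK : Function.Injective ((algebraMap (CuspBase L) (FractionRing (CuspBase L))).comp
      (algebraMap L (CuspBase L))) := RingHom.injective _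
  haveI : CharZero L := algebraRat.charZero L
  haveI : CharZero (FractionRing (CuspBase L)) := charZero_of_injective_ringHom hLK
  have hNK : ((N : ℕ) : FractionRing (CuspBase L)) ≠ 0 := Nat.cast_ne_zero.mpr hN.ne'
  have hζK := hζ.map_of_injective hLK
  haveI : IsGalois (FractionRing (CuspBase L)) K' := Cusp.isGalois_frac L N hNK hζK hc
  -- `K → Y'` through `F2`, and the key compatibility `K → K' → Y' = K → F2 → Y'`
  letI algKY' : Algebra (FractionRing (CuspBase L)) Y' :=
    ((algebraMap F2 Y').comp (algebraMap (FractionRing (CuspBase L)) F2)).toAlgebra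
  haveI : IsScalarTower (FractionRing (CuspBase L)) F2 Y' :=
    IsScalarTower.of_algebraMap_eq (fun a => rfl)
  have hR0 : ∀ r : CuspRing W N, algebraMap K' Y' (algebraMap (CuspRing L N) K'
      (algebraMap (CuspRing W N) (CuspRing L N) r)) = algebraMap (CuspRing W N) Y' r := by
    intro r
    rw [← IsScalarTower.algebraMap_apply (CuspRing W N) (CuspRing L N) K',
      ← IsScalarTower.algebraMap_apply (CuspRing W N) K' Y']
  have hchartX : algebraMap (CuspRing W N) (CuspRing L N) (chartX W N) = chartX L N := by
    show ChartBasics.awayBC (cuspF W N) (cuspF L N) hgF (algebraMap W[X] (CuspRing W N) X) = _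
    rw [ChartBasics.awayBC_algebraMap, Polynomial.map_X]
    rfl
  have hj0 : algebraMap F2 Y' (algebraMap (FF L N) F2 (jBC L N)) ≠ 0 := by
    intro h0
    rw [h0, mul_zero] at hX
    exact zero_ne_one hX
  have hXinv : algebraMap (CuspRing W N) Y' (chartX W N) ^ N =
      algebraMap F2 Y' (algebraMap (FF L N) F2 (jBC L N)⁻¹) := by
    rw [map_inv₀, map_inv₀]
    exact eq_inv_of_mul_eq_one_left hX
  -- the two maps `L → Y'`
  have hLY : (algebraMap K' Y').comp ((algebraMap (CuspRing L N) K').comp
      (algebraMap L (CuspRing L N))) =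
      (algebraMap F2 Y').comp ((algebraMap (FF L N) F2).comp (algebraMap L (FF L N))) := by
    apply IsLocalization.ringHom_ext (Submonoid.powers π)
    refine RingHom.ext fun a => ?_
    simp only [RingHom.coe_comp, Function.comp_apply]
    rw [← hC a, ← hR0, ← IsScalarTower.algebraMap_apply W (CuspRing W N) (CuspRing L N),
      ← IsScalarTower.algebraMap_apply W L (CuspRing L N)]
  -- the two maps `A → Y'`
  have hAY : (algebraMap K' Y').comp (algebraMap (CuspBase L) K') =
      (algebraMap F2 Y').comp (algebraMap (CuspBase L) F2) := by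
    apply IsLocalization.ringHom_ext (Submonoid.powers (cuspG L))
    apply Polynomial.ringHom_ext
    · intro a
      simp only [RingHom.coe_comp, Function.comp_apply]
      have h1 : algebraMap L[X] (CuspBase L) (C a) = algebraMap L (CuspBase L) a := by
        rw [IsScalarTower.algebraMap_apply L L[X] (CuspBase L)]
        rfl
      rw [h1, ← hBM, AlgHom.commutes, hAF2, ← h1, FFKit.cuspHom_algebraMap, aeval_C]
      exact congrArg (fun f : L →+* Y' => f a) hLY
    · simp only [RingHom.coe_comp, Function.comp_apply]
      have h1 : algebraMap L[X] (CuspBase L) X = baseT L := rfl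
      rw [h1, ← hBM, cuspMap_baseT, hAF2, ← h1, FFKit.cuspHom_algebraMap, aeval_X, ← hXinv,
        ← hchartX, map_pow, map_pow, hR0]
  haveI : IsScalarTower (FractionRing (CuspBase L)) K' Y' := by
    refine IsScalarTower.of_algebraMap_eq' ?_
    apply FFKit.algebraMap_eq_of_comp_eq (A := CuspBase L)
    intro a
    have h2 := congrArg (fun f : CuspBase L →+* Y' => f a) hAY
    simp only [RingHom.coe_comp, Function.comp_apply] at h2 ⊢
    rw [← IsScalarTower.algebraMap_apply (CuspBase L) (FractionRing (CuspBase L)) K', h2]
    rw [IsScalarTower.algebraMap_apply (CuspBase L) (FractionRing (CuspBase L)) F2]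
    rfl
  -- `Y' = F2 · K'`
  have hFM : IntermediateField.adjoin F2 (Set.range (algebraMap K' Y')) = ⊤ := by
    rw [eq_top_iff, ← hgen]
    apply IntermediateField.adjoin.mono
    rintro _ rfl
    exact ⟨algebraMap (CuspRing W N) K' (chartX W N),
      (IsScalarTower.algebraMap_apply (CuspRing W N) K' Y' _).symm⟩
  -- ramification of `F2` over the base chart
  have hA : ∀ G : L[X], algebraMap (CuspBase L) F2 (algebraMap L[X] (CuspBase L) G) =
      algebraMap (FF L N) F2 (aeval (jBC L N)⁻¹ G) := by
    intro G
    rw [hAF2, FFKit.cuspHom_algebraMap]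
  have hF := FFKit.ramificationIdx_F2_cusp ι N s hs u w huw hirr hdeg hw0 hdiv
    (BF2 := integralClosure (CuspBase L) F2) hA
  -- `BM → Y'` through `K'`
  letI algBMY' : Algebra (CuspRing L N) Y' :=
    ((algebraMap K' Y').comp (algebraMap (CuspRing L N) K')).toAlgebra
  haveI : IsScalarTower (CuspRing L N) K' Y' := IsScalarTower.of_algebraMap_eq (fun a => rfl)
  exact CuspHoriz.cusp_hU_horizontal (W := W) (L := L) hN (K := FractionRing (CuspBase L))
    (F := F2) (M := K') (Y := Y') (BF := integralClosure (CuspBase L) F2)
    (BY := integralClosure (CuspRing L N) Y') (B := B') hFM hBM hF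
    (algebraMap W (CuspRing W N) π) 𝔭 h𝔭 x hx

end Fermat.Agent.S18.CuspInstL
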