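import Fermat.Agent.S18.CuspVertHU
import Fermat.Agent.S18.VerticalChart

/-!
# S18 / S37, cusp chart: `hU` at the vertical prime, without Kummer layer

The vertical case (`𝔭 = (π)`) of the hypothesis `hU` for the cusp chart
`R₀ = Cusp.CuspRing W N` (`τ^N = t = 1/j`) and a field `Y' = K'(θ)` generated over
`K' = Frac R₀` by a root `θ` of a monic `P ∈ W[X][T]` along the `j`-evaluation
`φ : W[X] →+* Y'` (`φ X · τ^N = 1`) with separable reduction.  This is
`CuspVertHU.cusp_hU_vertical_of_j` with the Kummer layer removed (the case `Y' = F · K'` for the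
function field `F` itself).
-/

set_option autoImplicit false
set_option linter.style.haveILetI false
set_option linter.unusedSectionVars false

namespace Fermat.Agent.S18.CuspVertBase

open Polynomial Fermat.Agent.S18 Fermat.Agent.S18.Cusp

variable {W k : Type*} [CommRing W] [IsDomain W] [IsIntegrallyClosed W] [IsNoetherianRing W]
  [Field k] (N : ℕ)
  {K' Y' B' : Type*} [Field K'] [Algebra (CuspRing W N) K'] [IsFractionRing (CuspRing W N) K']
  [Field Y'] [Algebra K' Y'] [Algebra (CuspRing W N) Y'] [IsScalarTower (CuspRing W N) K' Y']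
  [FiniteDimensional K' Y'] [Algebra.IsSeparable K' Y']
  [CommRing B'] [Algebra (CuspRing W N) B'] [Algebra B' Y'] [IsScalarTower (CuspRing W N) B' Y']
  [IsIntegralClosure B' (CuspRing W N) Y']

/-- **Vertical prime of the cusp chart, no Kummer layer.**  `hU` at `(π)` for
`R₀ = CuspRing W N` and `Y' = K'(θ)`, from the `j`-line datum `(φ, θ, P)`. -/
theorem cusp_hU_vertical_base (hN : 0 < N)
    (κ₀ : Type*) [Field κ₀] [Algebra k[X] κ₀] [IsFractionRing k[X] κ₀]
    (res : W →+* k) (hres : Function.Surjective res) (π : W) (hπ : Prime π)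
    (hker : ∀ a : W, res a = 0 ↔ π ∣ a)
    (φ : W[X] →+* Y')
    (hφC : ∀ a : W, φ (C a) = algebraMap (CuspRing W N) Y' (algebraMap W (CuspRing W N) a))
    (hφX : φ X * algebraMap (CuspRing W N) Y' (chartX W N) ^ N = 1)
    (θ : Y') (P : (W[X])[X]) (hP : P.Monic) (hPθ : eval₂ φ θ P = 0)
    (hsep : ((P.map (mapRingHom res)).map (algebraMap k[X] κ₀)).Separable)
    (hgen : IntermediateField.adjoin K' {θ} = ⊤) :
    TowerUnram.TraceNondeg (CuspRing W N) K' Y' B'
      (Ideal.span {algebraMap W (CuspRing W N) π}) := by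
  haveI := cuspRing_isDomain W hN
  haveI := cuspRing_isIntegrallyClosed W hN
  haveI := cuspRing_isNoetherianRing W N
  have hπ0 : Prime (algebraMap W (CuspRing W N) π) := cuspRing_prime W hN hπ
  -- the structure map of the chart at infinity and the flipped datum
  set φ' : W[X] →+* Y' := (algebraMap (CuspRing W N) Y').comp (cuspIota W N) with hφ'
  obtain ⟨Kf, P', hP', hsep', hflip⟩ := CuspVertical.exists_flip res P hP hsep
  have hφ'X : φ' X = algebraMap (CuspRing W N) Y' (chartX W N) ^ N := by
    rw [hφ', RingHom.comp_apply, cuspIota_X, map_pow]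
  have hC : ∀ a : W, φ (C a) = φ' (C a) := by
    intro a
    rw [hφC, hφ', RingHom.comp_apply, cuspIota_C]
  have hX : φ X * φ' X = 1 := by rw [hφ'X]; exact hφX
  have hroot : eval₂ φ' (φ' X ^ Kf * θ) P' = 0 := hflip φ φ' hC hX θ hPθ
  -- the scaling factor lies in `K'` and is nonzero
  set a : K' := algebraMap (CuspRing W N) K' (chartX W N ^ N) ^ Kf with ha
  have ha0 : a ≠ 0 := by
    rw [ha]
    refine pow_ne_zero _ ?_
    rw [Ne, map_eq_zero_iff _ (IsFractionRing.injective (CuspRing W N) K')]
    exact pow_ne_zero _ (chartX_prime W hN).ne_zero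
  have haY : algebraMap K' Y' a = φ' X ^ Kf := by
    rw [ha, map_pow, ← IsScalarTower.algebraMap_apply, hφ'X, map_pow]
  have hPθ' : aeval (algebraMap K' Y' a * θ) (P'.map (cuspIota W N)) = 0 := by
    rw [aeval_def, eval₂_map, haY]
    exact hroot
  have hint : IsIntegral K' (algebraMap K' Y' a * θ) := by
    refine ⟨(P'.map (cuspIota W N)).map (algebraMap (CuspRing W N) K'), (hP'.map _).map _, ?_⟩
    rw [eval₂_map, ← IsScalarTower.algebraMap_eq (CuspRing W N) K' Y', ← aeval_def]
    exact hPθ'
  have hθ' : Algebra.adjoin K' {algebraMap K' Y' a * θ} = ⊤ := by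
    rw [← IntermediateField.adjoin_simple_toSubalgebra_of_isAlgebraic hint.isAlgebraic,
      CuspVertHU.adjoin_singleton_mul a ha0, hgen, IntermediateField.top_toSubalgebra]
  intro x hx
  exact VerticalChart.hU_vertical_chart' (K := K') κ₀ res hres
    (algebraMap W (CuspRing W N) π) hπ0 (cuspIota W N)
    (cuspIota_dvd_iff W hN hπ res hker) (algebraMap K' Y' a * θ) hθ' P' hP' hPθ' hsep' x hx

end Fermat.Agent.S18.CuspVertBase
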