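import Mathlib

/-!
# S18 / S37: local generators of the maximal ideals of a ring with Dedekind special fibre

If `B ⧸ πB` is a Dedekind domain, then every maximal ideal `𝔪 ∋ π` of `B` is locally generated
by `π` and one further element `u` (the input shape of the `D-local` factorisation lemma).
-/

set_option autoImplicit false
set_option linter.style.haveILetI false

namespace Fermat.Agent.S18.DedekindLocalGen

/-- A maximal ideal of a Dedekind domain is locally principal, in elementwise form. -/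
theorem exists_generator_at {E : Type*} [CommRing E] [IsDedekindDomain E] (𝔫 : Ideal E)
    [h𝔫 : 𝔫.IsMaximal] : ∃ u ∈ 𝔫, ∀ x ∈ 𝔫, ∃ s ∉ 𝔫, ∃ z : E, s * x = z * u := by
  by_cases h0 : 𝔫 = ⊥
  · subst h0
    exact ⟨0, Ideal.zero_mem _, fun x hx =>
      ⟨1, fun h => one_ne_zero (Ideal.mem_bot.mp h), 0, by rw [Ideal.mem_bot.mp hx]; ring⟩⟩
  · let L := Localization.AtPrime 𝔫
    haveI : IsDiscreteValuationRing L :=
      IsLocalization.AtPrime.isDiscreteValuationRing_of_dedekind_domain E h0 L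
    have hinj : Function.Injective (algebraMap E L) :=
      IsLocalization.injective L (M := 𝔫.primeCompl) 𝔫.primeCompl_le_nonZeroDivisors
    obtain ⟨ϖ, hϖ⟩ := IsDiscreteValuationRing.exists_irreducible L
    obtain ⟨u', t, rfl⟩ := IsLocalization.exists_mk'_eq 𝔫.primeCompl ϖ
    have hu' : u' ∈ 𝔫 := by
      by_contra h
      exact hϖ.not_isUnit ((IsLocalization.AtPrime.isUnit_mk'_iff L 𝔫 u' t).mpr h)
    refine ⟨u', hu', fun x hx => ?_⟩
    have hx' : algebraMap E L x ∈ IsLocalRing.maximalIdeal L :=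
      (IsLocalization.AtPrime.to_map_mem_maximal_iff L 𝔫 x).mpr hx
    rw [hϖ.maximalIdeal_eq, Ideal.mem_span_singleton'] at hx'
    obtain ⟨z, hz⟩ := hx'
    obtain ⟨z₁, t₁, rfl⟩ := IsLocalization.exists_mk'_eq 𝔫.primeCompl z
    refine ⟨(t : E) * (t₁ : E), fun h => (h𝔫.isPrime.mem_or_mem h).elim t.2 t₁.2, z₁, hinj ?_⟩
    have h1 : IsLocalization.mk' L z₁ t₁ * algebraMap E L (t₁ : E) = algebraMap E L z₁ :=
      IsLocalization.mk'_spec L z₁ t₁
    have h2 : IsLocalization.mk' L u' t * algebraMap E L (t : E) = algebraMap E L u' :=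
      IsLocalization.mk'_spec L u' t
    rw [map_mul, map_mul, map_mul, ← hz, ← h1, ← h2]
    ring

/-- If `B ⧸ πB` is a Dedekind domain, every maximal ideal `𝔪 ∋ π` of `B` is locally generated
by `π` and one element `u ∈ 𝔪`. -/
theorem exists_local_generator {B : Type*} [CommRing B] (π : B)
    (hDed : IsDedekindDomain (B ⧸ Ideal.span {π})) (𝔪 : Ideal B) (h𝔪 : 𝔪.IsMaximal)
    (hπ𝔪 : π ∈ 𝔪) :
    ∃ u ∈ 𝔪, ∀ x ∈ 𝔪, ∃ s ∉ 𝔪, ∃ a b : B, s * x = a * π + b * u := by
  let mk := Ideal.Quotient.mk (Ideal.span {π})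
  have hmksurj : Function.Surjective mk := Ideal.Quotient.mk_surjective
  have hle : Ideal.span {π} ≤ 𝔪 := (Ideal.span_singleton_le_iff_mem _).mpr hπ𝔪
  let 𝔫 : Ideal (B ⧸ Ideal.span {π}) := 𝔪.map mk
  have hmem : ∀ x : B, mk x ∈ 𝔫 ↔ x ∈ 𝔪 := fun x => Ideal.mem_quotient_iff_mem hle
  haveI h𝔫 : 𝔫.IsMaximal := by
    rcases Ideal.map_eq_top_or_isMaximal_of_surjective mk hmksurj h𝔪 with h | h
    · exfalso
      have h1 : mk 1 ∈ 𝔫 := by
        show mk 1 ∈ Ideal.map mk 𝔪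
        rw [h]
        exact Submodule.mem_top
      exact h𝔪.ne_top ((Ideal.eq_top_iff_one _).mpr ((hmem 1).mp h1))
    · exact h
  obtain ⟨ubar, hubar, hgen⟩ := exists_generator_at 𝔫
  obtain ⟨u, rfl⟩ := hmksurj ubar
  refine ⟨u, (hmem u).mp hubar, fun x hx => ?_⟩
  obtain ⟨sbar, hsbar, zbar, hz⟩ := hgen (mk x) ((hmem x).mpr hx)
  obtain ⟨s, rfl⟩ := hmksurj sbar
  obtain ⟨z, rfl⟩ := hmksurj zbar
  have h1 : s * x - z * u ∈ Ideal.span {π} := by
    rw [← Ideal.Quotient.eq, map_mul, map_mul]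
    exact hz
  obtain ⟨a, ha⟩ := Ideal.mem_span_singleton'.mp h1
  exact ⟨s, fun h => hsbar ((hmem s).mpr h), a, z, by rw [ha]; ring⟩

end Fermat.Agent.S18.DedekindLocalGen
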