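import Fermat.Agent.S18.Unramified

/-!
# Finite extensions of discretely valued fields, valuation-subring form

* `exists_ne_valuation_eq_of_sum_eq_zero` : ultrametric "two terms of equal valuation" lemma.
* `exists_uniformizer_of_finite` : if `π` is a uniformiser for `V` on `M` and `K'/M` is finite,
  there is a uniformiser for `V` on `K'`.
* `isDiscreteValuationRing_comap` : a uniformiser on the field `K` makes `V ∩ K` a DVR.
-/
set_option autoImplicit false
open Polynomial
namespace Fermat.Agent.S18.Unram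

section TwoTerms

variable {E Γ : Type*} [Field E] [LinearOrderedCommGroupWithZero Γ] (v : Valuation E Γ)

/-- In a vanishing finite sum with a nonzero term, two distinct terms have the same (nonzero)
valuation. -/
theorem exists_ne_valuation_eq_of_sum_eq_zero {ι : Type*} [DecidableEq ι] (s : Finset ι)
    (f : ι → E) (hsum : ∑ i ∈ s, f i = 0) (hne : ∃ i ∈ s, f i ≠ 0) :
    ∃ i ∈ s, ∃ j ∈ s, i ≠ j ∧ f i ≠ 0 ∧ v (f i) = v (f j) := by
  obtain ⟨i1, hi1, hfi1⟩ := hne
  obtain ⟨i0, hi0, hmax⟩ := Finset.exists_max_image s (fun i => v (f i)) ⟨i1, hi1⟩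
  have hv0 : v (f i0) ≠ 0 := by
    intro h0
    have h := hmax i1 hi1
    rw [h0] at h
    exact hfi1 ((map_eq_zero v).mp (le_antisymm h zero_le))
  have hf0 : f i0 ≠ 0 := fun h => hv0 (by rw [h, map_zero])
  by_contra hcon
  push Not at hcon
  have hlt : ∀ j ∈ s.erase i0, v (f j) < v (f i0) := by
    intro j hj
    rw [Finset.mem_erase] at hj
    exact lt_of_le_of_ne (hmax j hj.2)
      (fun h => hcon i0 hi0 j hj.2 (Ne.symm hj.1) hf0 h.symm)
  have hsum' : f i0 = -∑ j ∈ s.erase i0, f j := by
    rw [← Finset.add_sum_erase s f hi0] at hsum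
    exact eq_neg_of_add_eq_zero_left hsum
  have : v (f i0) < v (f i0) := by
    conv_lhs => rw [hsum', Valuation.map_neg]
    exact Valuation.map_sum_lt v hv0 hlt
  exact lt_irrefl _ this

end TwoTerms

section Finite

variable {M E : Type*} [Field M] [Field E] [Algebra M E] (V : ValuationSubring E)
variable (π : M) (hπ0 : π ≠ 0) (hπ : V.valuation (algebraMap M E π) < 1)
  (hD : ∀ b : M, b ≠ 0 → ∃ n : ℤ, V.valuation (algebraMap M E b) = V.valuation (algebraMap M E π) ^ n)

include hπ0 hD in
theorem exists_pow_valuation_eq_zpow (K' : IntermediateField M E) [FiniteDimensional M K']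
    {x : E} (hx : x ∈ K') (hx0 : x ≠ 0) :
    ∃ (j : ℕ) (m : ℤ), 0 < j ∧ j ≤ Module.finrank M K' ∧
      V.valuation x ^ j = V.valuation (algebraMap M E π) ^ m := by
  classical
  have hv0 : V.valuation (algebraMap M E π) ≠ 0 := by
    rw [ne_eq, map_eq_zero, map_eq_zero]
    exact hπ0
  have hvx0 : V.valuation x ≠ 0 := by
    rw [ne_eq, map_eq_zero]
    exact hx0
  have hint : IsIntegral M (⟨x, hx⟩ : K') := IsIntegral.of_finite M _
  have hdeg : (minpoly M x).natDegree ≤ Module.finrank M K' := by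
    have h1 := minpoly.natDegree_le (A := M) (⟨x, hx⟩ : K')
    rwa [IntermediateField.minpoly_eq] at h1
  have hintE : IsIntegral M x := by
    have := (IntermediateField.isIntegral_iff (x := (⟨x, hx⟩ : K'))).mp hint
    exact this
  have hmonic := minpoly.monic hintE
  have hsum : ∑ i ∈ Finset.range ((minpoly M x).natDegree + 1),
      algebraMap M E ((minpoly M x).coeff i) * x ^ i = 0 := by
    have h := minpoly.aeval M x
    rw [Polynomial.aeval_eq_sum_range] at h
    simpa [Algebra.smul_def] using h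
  obtain ⟨i, hi, j, hj, hij, hfi, hval⟩ := exists_ne_valuation_eq_of_sum_eq_zero V.valuation
    (Finset.range ((minpoly M x).natDegree + 1))
    (fun i => algebraMap M E ((minpoly M x).coeff i) * x ^ i) hsum
    ⟨(minpoly M x).natDegree, Finset.self_mem_range_succ _, by
      rw [hmonic.coeff_natDegree, map_one, one_mul]
      exact pow_ne_zero _ hx0⟩
  have hci : (minpoly M x).coeff i ≠ 0 := by
    intro h
    rw [h, map_zero, zero_mul] at hfi
    exact hfi rfl
  have hfj : algebraMap M E ((minpoly M x).coeff j) * x ^ j ≠ 0 := by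
    intro h
    rw [h, map_zero, map_eq_zero] at hval
    exact hfi hval
  have hcj : (minpoly M x).coeff j ≠ 0 := by
    intro h
    rw [h, map_zero, zero_mul] at hfj
    exact hfj rfl
  obtain ⟨mi, hmi⟩ := hD _ hci
  obtain ⟨mj, hmj⟩ := hD _ hcj
  rw [map_mul, map_mul, map_pow, map_pow, hmi, hmj] at hval
  rw [Finset.mem_range] at hi hj
  -- `hval : vπ ^ mi * vx ^ i = vπ ^ mj * vx ^ j`
  have key : ∀ (a b : ℕ) (ma mb : ℤ), a < b → b < (minpoly M x).natDegree + 1 →
      V.valuation (algebraMap M E π) ^ ma * V.valuation x ^ a =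
        V.valuation (algebraMap M E π) ^ mb * V.valuation x ^ b →
      ∃ (j : ℕ) (m : ℤ), 0 < j ∧ j ≤ Module.finrank M K' ∧
        V.valuation x ^ j = V.valuation (algebraMap M E π) ^ m := by
    intro a b ma mb hab hb h
    refine ⟨b - a, ma - mb, by omega, by omega, ?_⟩
    have hb' : b = a + (b - a) := by omega
    rw [hb', pow_add] at h
    rw [zpow_sub₀ hv0]
    have h1 : V.valuation (algebraMap M E π) ^ mb ≠ 0 := zpow_ne_zero _ hv0
    have h2 : V.valuation x ^ a ≠ 0 := pow_ne_zero _ hvx0
    rw [eq_div_iff h1]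
    apply mul_right_cancel₀ h2
    rw [h]
    ac_rfl
  rcases lt_or_gt_of_ne hij with h | h
  · exact key i j mi mj h hj hval
  · exact key j i mj mi h hi hval.symm

omit [Algebra M E] in
theorem val_zpow_lt_one_of_pos {Γ : Type*} [LinearOrderedCommGroupWithZero Γ] {a : Γ}
    (ha : a < 1) {n : ℤ} (hn : 0 < n) : a ^ n < 1 := by
  lift n to ℕ using hn.le
  rw [zpow_natCast]
  exact pow_lt_one₀ zero_le ha (by omega)

include hπ0 hπ hD in
/-- A finite extension of a discretely valued field is discretely valued (valuation-subring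
form): there is a uniformiser on `K'`. -/
theorem exists_uniformizer_of_finite (K' : IntermediateField M E) [FiniteDimensional M K'] :
    ∃ π' : E, π' ∈ K' ∧ π' ≠ 0 ∧ V.valuation π' < 1 ∧
      ∀ x ∈ K', x ≠ 0 → ∃ n : ℤ, V.valuation x = V.valuation π' ^ n := by
  classical
  have hv0 : V.valuation (algebraMap M E π) ≠ 0 := by
    rw [ne_eq, map_eq_zero, map_eq_zero]
    exact hπ0
  have he0 : (Module.finrank M K').factorial ≠ 0 := Nat.factorial_ne_zero _
  have hb : ∀ x ∈ K', x ≠ 0 → ∃ m : ℤ,
      V.valuation x ^ (Module.finrank M K').factorial = V.valuation (algebraMap M E π) ^ m := by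
    intro x hx hx0
    obtain ⟨j, m, hj0, hjd, h⟩ := exists_pow_valuation_eq_zpow V π hπ0 hD K' hx hx0
    obtain ⟨q, hq⟩ := Nat.dvd_factorial hj0 hjd
    refine ⟨m * q, ?_⟩
    rw [hq, pow_mul, h, zpow_mul, zpow_natCast]
  let Z : AddSubgroup ℤ :=
    { carrier := {m | ∃ x ∈ K', x ≠ 0 ∧
        V.valuation x ^ (Module.finrank M K').factorial = V.valuation (algebraMap M E π) ^ m}
      zero_mem' := ⟨1, K'.one_mem, one_ne_zero, by simp⟩
      add_mem' := by
        rintro m m' ⟨x, hx, hx0, h⟩ ⟨y, hy, hy0, h'⟩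
        exact ⟨x * y, K'.mul_mem hx hy, mul_ne_zero hx0 hy0, by
          rw [map_mul, mul_pow, h, h', zpow_add₀ hv0]⟩
      neg_mem' := by
        rintro m ⟨x, hx, hx0, h⟩
        exact ⟨x⁻¹, K'.inv_mem hx, inv_ne_zero hx0, by rw [map_inv₀, inv_pow, h, zpow_neg]⟩ }
  obtain ⟨g, hg⟩ := Int.subgroup_cyclic Z
  have heZ : ((Module.finrank M K').factorial : ℤ) ∈ Z :=
    ⟨algebraMap M E π, K'.algebraMap_mem π, by simpa using hπ0, by rw [zpow_natCast]⟩
  have hg0 : g ≠ 0 := by
    rintro rfl
    rw [hg, AddSubgroup.mem_closure_singleton] at heZ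
    obtain ⟨t, ht⟩ := heZ
    rw [smul_zero] at ht
    exact he0 (by exact_mod_cast ht.symm)
  have hgZ : g ∈ Z := by
    rw [hg]
    exact AddSubgroup.subset_closure (Set.mem_singleton g)
  obtain ⟨x0, hx0K, hx00, hx0⟩ := hgZ
  have hall : ∀ x ∈ K', x ≠ 0 → ∃ t : ℤ, V.valuation x = V.valuation x0 ^ t := by
    intro x hx hxne
    obtain ⟨m, hm⟩ := hb x hx hxne
    have hmZ : m ∈ Z := ⟨x, hx, hxne, hm⟩
    rw [hg, AddSubgroup.mem_closure_singleton] at hmZ
    obtain ⟨t, rfl⟩ := hmZ
    refine ⟨t, ?_⟩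
    have : V.valuation x ^ (Module.finrank M K').factorial =
        (V.valuation x0 ^ t) ^ (Module.finrank M K').factorial := by
      rw [hm, smul_eq_mul, mul_comm, zpow_mul, ← hx0, ← zpow_natCast (V.valuation x0 ^ t),
        ← zpow_mul, mul_comm, zpow_mul, zpow_natCast]
    exact (pow_left_inj₀ zero_le zero_le he0).mp this
  rcases lt_or_gt_of_ne hg0 with hneg | hpos
  · refine ⟨x0⁻¹, K'.inv_mem hx0K, inv_ne_zero hx00, ?_, ?_⟩
    · by_contra hcon
      push Not at hcon
      have h1 : 1 ≤ V.valuation x0⁻¹ ^ (Module.finrank M K').factorial := one_le_pow₀ hcon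
      rw [map_inv₀, inv_pow, hx0, ← zpow_neg] at h1
      exact absurd h1 (not_le.mpr (val_zpow_lt_one_of_pos hπ (by omega)))
    · intro x hx hxne
      obtain ⟨t, ht⟩ := hall x hx hxne
      exact ⟨-t, by rw [ht, map_inv₀, inv_zpow, zpow_neg, inv_inv]⟩
  · refine ⟨x0, hx0K, hx00, ?_, hall⟩
    by_contra hcon
    push Not at hcon
    have h1 : 1 ≤ V.valuation x0 ^ (Module.finrank M K').factorial := one_le_pow₀ hcon
    rw [hx0] at h1
    exact absurd h1 (not_le.mpr (val_zpow_lt_one_of_pos hπ hpos))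

end Finite

section DVR

variable {K E : Type*} [Field K] [Field E] [Algebra K E] (V : ValuationSubring E)

/-- If `π` is a uniformiser for `V` on the field `K`, then `V ∩ K` is a discrete valuation
ring. -/
theorem isDiscreteValuationRing_comap (π : K) (hπ0 : π ≠ 0)
    (hπ : V.valuation (algebraMap K E π) < 1)
    (hD : ∀ b : K, b ≠ 0 →
      ∃ n : ℤ, V.valuation (algebraMap K E b) = V.valuation (algebraMap K E π) ^ n) :
    IsDiscreteValuationRing (V.comap (algebraMap K E)) := by
  apply IsDiscreteValuationRing.ofHasUnitMulPowIrreducibleFactorization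
  have hv0 : V.valuation (algebraMap K E π) ≠ 0 := by
    rw [ne_eq, map_eq_zero, map_eq_zero]
    exact hπ0
  have hunit : ∀ o : V.comap (algebraMap K E), V.valuation (resIncl V o) = 1 → IsUnit o := by
    intro o ho
    by_contra hnu
    have h : o ∈ IsLocalRing.maximalIdeal (V.comap (algebraMap K E)) :=
      (IsLocalRing.mem_maximalIdeal _).mpr hnu
    rw [mem_maximalIdeal_iff] at h
    exact absurd ho h.ne
  have hunit' : ∀ o : V.comap (algebraMap K E), IsUnit o → V.valuation (resIncl V o) = 1 := by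
    intro o ho
    by_contra hne
    have hlt : V.valuation (resIncl V o) < 1 := lt_of_le_of_ne (valuation_resIncl_le V o) hne
    rw [← mem_maximalIdeal_iff] at hlt
    exact (IsLocalRing.mem_maximalIdeal _).mp hlt ho
  have hfact : ∀ x : V.comap (algebraMap K E), x ≠ 0 →
      ∃ n : ℕ, ∃ u : V.comap (algebraMap K E), IsUnit u ∧ x = piO V π hπ ^ n * u := by
    intro x hx
    have hx0 : (x : K) ≠ 0 := fun h => hx (Subtype.ext h)
    obtain ⟨n, hn⟩ := hD (x : K) hx0
    have hnn : 0 ≤ n := by
      by_contra hneg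
      push Not at hneg
      have h1 : V.valuation (algebraMap K E π) ^ (-n) < 1 := val_zpow_lt_one_of_pos hπ (by omega)
      have h2 : V.valuation (algebraMap K E (x : K)) ≤ 1 := valuation_resIncl_le V x
      rw [hn] at h2
      have h3 : V.valuation (algebraMap K E π) ^ (-n) * V.valuation (algebraMap K E π) ^ n = 1 := by
        rw [← zpow_add₀ hv0]
        simp
      exact absurd (val_eq_one_of_mul_eq_one_of_le h1.le h2 h3) h1.ne
    lift n to ℕ using hnn
    have hval : V.valuation (algebraMap K E ((x : K) / π ^ n)) = 1 := by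
      rw [map_div₀, map_div₀, hn, map_pow, map_pow, zpow_natCast, div_self (pow_ne_zero _ hv0)]
    have hmem : (x : K) / π ^ n ∈ V.comap (algebraMap K E) := by
      rw [ValuationSubring.mem_comap, ← V.valuation_le_one_iff, hval]
    refine ⟨n, ⟨_, hmem⟩, hunit _ hval, ?_⟩
    apply Subtype.ext
    show (x : K) = π ^ n * ((x : K) / π ^ n)
    field_simp
  refine ⟨piO V π hπ, ⟨?_, ?_⟩, ?_⟩
  · intro hu
    have h : piO V π hπ ∈ IsLocalRing.maximalIdeal (V.comap (algebraMap K E)) :=
      (mem_maximalIdeal_iff V _).mpr hπ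
    exact (IsLocalRing.mem_maximalIdeal _).mp h hu
  · intro a b hab
    have hp0 : piO V π hπ ≠ 0 := fun h => hπ0 (congrArg Subtype.val h)
    have ha0 : a ≠ 0 := by
      rintro rfl
      rw [zero_mul] at hab
      exact hp0 hab
    have hb0 : b ≠ 0 := by
      rintro rfl
      rw [mul_zero] at hab
      exact hp0 hab
    obtain ⟨i, u, hu, rfl⟩ := hfact a ha0
    obtain ⟨j, w, hw, rfl⟩ := hfact b hb0
    have hval : V.valuation (algebraMap K E π) ^ (1 : ℤ) =
        V.valuation (algebraMap K E π) ^ ((i + j : ℕ) : ℤ) := by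
      have h := congrArg (fun o => V.valuation (resIncl V o)) hab
      simp only [map_mul, map_pow] at h
      rw [hunit' u hu, hunit' w hw, mul_one, mul_one, ← pow_add] at h
      rw [zpow_one, zpow_natCast]
      exact h
    have hij : (1 : ℤ) = ((i + j : ℕ) : ℤ) :=
      zpow_right_injective₀ (zero_lt_iff.mpr hv0) hπ.ne hval
    rcases Nat.eq_zero_or_pos i with hi | hi
    · left
      rw [hi, pow_zero, one_mul]
      exact hu
    · right
      have hj : j = 0 := by omega
      rw [hj, pow_zero, one_mul]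
      exact hw
  · intro x hx
    obtain ⟨n, u, hu, rfl⟩ := hfact x hx
    exact ⟨n, ⟨hu.unit, rfl⟩⟩

end DVR

end Fermat.Agent.S18.Unram
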