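import Mathlib
import Fermat.Agent.S18.Endgame
import Fermat.Agent.S18.TwoChartIdem
import Fermat.Agent.S18.ChartAlg
import Fermat.Agent.S18.ChartConst
import Fermat.Agent.S18.Kummer

/-
S18, package P8b (helper10), second part: the endgame with the cusp chart
`W[1/j, 1/(j - 1728)]` as second chart, in the currency of `Contracts`.

* `IsCuspInt W x y` : `(1 - 1728/x) ^ m * y` is integral over `W[1/x]` for some `m`;
* `isIntegral_of_isInt_of_isCuspInt` : integral over `W[x]` and over the cusp chart implies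
  integral over `W`;
* `exists_common_lift_cusp` : two chart lifts of an idempotent modulo `π` come from one element
  of both charts (via `TwoChartIdem.two_chart_idem` with `v = x (x - 1728)`);
* `endgame_cusp` : the endgame in the internal currency of `Endgame`;
* `endgame_contract` : the same along explicit ring homomorphisms (the shapes of
  `Contracts.FiniteChartLift` and `Contracts.CuspChartLift`), without any irreducibility
  hypothesis: `w = a * h ^ s` with `a ≠ 0` integral over `W`.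
-/

set_option autoImplicit false
set_option linter.unusedSectionVars false
set_option linter.style.haveILetI false

namespace Fermat.Agent.S18.EndgameCusp

open Polynomial Fermat.Agent.S18.Endgame

section Basics

variable {W Y : Type*} [CommRing W] [IsDomain W] [Field Y] [Algebra W Y]

/-- the subring of Gauss-integral elements -/
def gaussSubring {π : W} (hπ : Prime π) (x : Y) : Subring Y where
  carrier := {c | InC π x c}
  mul_mem' := fun h1 h2 => InC.mul hπ h1 h2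
  one_mem' := InC.one hπ
  add_mem' := fun h1 h2 => InC.add hπ h1 h2
  zero_mem' := InC.zero hπ
  neg_mem' := fun h => InC.neg h

/-- `y` is integral over the cusp chart `W[1/x, 1/(x - 1728)]`: a power of `1 - 1728/x` carries it
into the integral closure of `W[1/x]`. -/
def IsCuspInt (W : Type*) {Y : Type*} [CommRing W] [Field Y] [Algebra W Y] (x y : Y) : Prop :=
  ∃ m : ℕ, IsInt W x⁻¹ ((1 - 1728 * x⁻¹) ^ m * y)

theorem isInt_ofNat (x : Y) (n : ℕ) [n.AtLeastTwo] : IsInt W x (OfNat.ofNat n : Y) := by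
  have := IsInt.const (x := x) (OfNat.ofNat n : W)
  rwa [map_ofNat] at this

theorem isInt_g (x : Y) : IsInt W x⁻¹ (1 - 1728 * x⁻¹) :=
  IsInt.one.sub ((isInt_ofNat x⁻¹ 1728).mul IsInt.self)

theorem sub_ne_zero_of_transcendental {x : Y} (hx : Transcendental W x) : x - 1728 ≠ 0 := by
  intro h
  refine hx ⟨X - C 1728, X_sub_C_ne_zero _, ?_⟩
  rw [map_sub, aeval_X, aeval_C, map_ofNat]
  exact h

theorem g_mul {x : Y} (hx0 : x ≠ 0) : (1 - 1728 * x⁻¹) * x = x - 1728 := by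
  field_simp

theorem g_ne_zero {x : Y} (hx : Transcendental W x) : (1 - 1728 * x⁻¹) ≠ 0 := by
  intro h
  have h1 := g_mul (ne_zero_of_transcendental hx)
  rw [h, zero_mul] at h1
  exact sub_ne_zero_of_transcendental hx h1.symm

theorem proj_fixed_mul (s : ℕ) (sW ζ : W) (τ : ℕ → Y →+* Y) (z y : Y) (hz : ∀ k, τ k z = z) :
    proj s sW ζ τ (z * y) = z * proj s sW ζ τ y := by
  unfold proj
  rw [Finset.mul_sum, Finset.mul_sum, Finset.mul_sum]
  refine Finset.sum_congr rfl fun k _ => ?_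
  rw [map_mul, hz]; ring

/-- nonvanishing of the `ζ`-component of a lift of the sheet idempotent -/
theorem projector_ne_zero [UniqueFactorizationMonoid W] {π : W} (hπ : Prime π) {x : Y}
    (hx : Transcendental W x) {s : ℕ} (hs : 2 ≤ s)
    (sW ζ : W) (hsW : (s : W) * sW = 1) (hζ : IsPrimitiveRoot ζ s) (u : Y)
    (hw : ∃ c₀, InC π x c₀ ∧ u ^ s - 1 = algebraMap W Y π * c₀)
    (τ : ℕ → Y →+* Y) (hτx : ∀ k, τ k x = x)
    (hτW : ∀ k (a : W), τ k (algebraMap W Y a) = algebraMap W Y a)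
    (hτu : ∀ k, τ k u = algebraMap W Y (ζ ^ k) * u)
    (a : ℕ → Y) (hτa : ∀ k i, τ k (a i) = a i)
    (hcε : ∃ d, InC π x d ∧ (∑ i ∈ Finset.range s, a i * u ^ i) -
      algebraMap W Y sW * ∑ i ∈ Finset.range s, u ^ i = algebraMap W Y π * d) :
    a 1 * u ≠ 0 := by
  have hP1 := proj_sum hs sW ζ hsW hζ τ u hτu a hτa
  have hP2 : proj s sW ζ τ (algebraMap W Y sW * ∑ i ∈ Finset.range s, u ^ i) =
      algebraMap W Y sW * u := by
    have := proj_sum hs sW ζ hsW hζ τ u hτu (fun _ => algebraMap W Y sW) (fun k _ => hτW k sW)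
    rwa [← Finset.mul_sum] at this
  intro h0
  obtain ⟨d, hd, hcd⟩ := hcε
  obtain ⟨c₀, hc₀, hw'⟩ := hw
  have h3 := congrArg (proj s sW ζ τ) hcd
  rw [proj_sub, hP1, hP2, h0, proj_const_mul s sW ζ τ hτW] at h3
  have hsY : (s : Y) * algebraMap W Y sW = 1 := by
    have := congrArg (algebraMap W Y) hsW
    rwa [map_mul, map_natCast, map_one] at this
  have hu : u = algebraMap W Y π * (-(algebraMap W Y (s : W)) * proj s sW ζ τ d) := by
    rw [map_natCast]
    linear_combination (-(s : Y)) * h3 - u * hsY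
  have hdC : InC π x (-(algebraMap W Y (s : W)) * proj s sW ζ τ d) :=
    ((InC.const hπ (s : W)).neg).mul hπ (proj_inC hπ s sW ζ τ hτx hτW hd)
  have hpow : u ^ s = algebraMap W Y π * (algebraMap W Y π ^ (s - 1) *
      (-(algebraMap W Y (s : W)) * proj s sW ζ τ d) ^ s) := by
    have e : algebraMap W Y π * algebraMap W Y π ^ (s - 1) = algebraMap W Y π ^ s := by
      rw [← pow_succ', Nat.sub_add_cancel (by omega)]
    rw [← mul_assoc, e, ← mul_pow, ← hu]
  refine not_inC_of_one_eq hπ hx (c := algebraMap W Y π ^ (s - 1) *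
      (-(algebraMap W Y (s : W)) * proj s sW ζ τ d) ^ s - c₀) ?_ ?_
  · exact (((InC.const hπ π).pow hπ (s - 1)).mul hπ (hdC.pow hπ s)).sub hπ hc₀
  · linear_combination hpow - hw'

/-- **`W[x] ∩ W[1/x, 1/(x - 1728)] = W` for integral closures.** -/
theorem isIntegral_of_isInt_of_isCuspInt [UniqueFactorizationMonoid W] {x : Y}
    (hx : Transcendental W x) {y : Y} (h1 : IsInt W x y) (h2 : IsCuspInt W x y) :
    IsIntegral W y := by
  have hx0 := ne_zero_of_transcendental hx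
  have hg0 : (1 - 1728 * x⁻¹ : Y) ≠ 0 := g_ne_zero hx
  obtain ⟨P₁, hP₁, hP₁y⟩ := h1
  obtain ⟨m, P₂, hP₂, hP₂y⟩ := h2
  have hgm0 : ((1 - 1728 * x⁻¹ : Y) ^ m) ≠ 0 := pow_ne_zero m hg0
  refine ChartConst.isIntegral_of_monic_charts hx y (P₁.map (ev W x))
    (scaleRoots (P₂.map (ev W x⁻¹)) ((1 - 1728 * x⁻¹ : Y) ^ m)⁻¹) (hP₁.map _) ?_ ?_
    ((monic_scaleRoots_iff _).mpr (hP₂.map _)) ?_ ?_
  · intro n
    exact ⟨P₁.coeff n, by rw [coeff_map, ev_apply]⟩
  · rw [eval_map]; exact hP₁y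
  · intro n
    rw [coeff_scaleRoots, coeff_map, ev_apply]
    refine ChartConst.regInf_of_away hx (1 - C 1728 * X) ?_ _ (P₂.coeff n)
      (m * ((P₂.map (ev W x⁻¹)).natDegree - n)) ?_
    · simp
    · have e : aeval x⁻¹ (1 - C 1728 * X : W[X]) = 1 - 1728 * x⁻¹ := by
        rw [map_sub, map_one, map_mul, aeval_C, aeval_X, map_ofNat]
      rw [e, mul_assoc, pow_mul, ← mul_pow, inv_mul_cancel₀ hgm0, one_pow, mul_one]
  · have hroot : eval ((1 - 1728 * x⁻¹ : Y) ^ m * y) (P₂.map (ev W x⁻¹)) = 0 := by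
      rw [eval_map]; exact hP₂y
    have := scaleRoots_eval₂_eq_zero (RingHom.id Y) (p := P₂.map (ev W x⁻¹))
      (s := ((1 - 1728 * x⁻¹ : Y) ^ m)⁻¹) (r := (1 - 1728 * x⁻¹ : Y) ^ m * y) (by rwa [eval₂_id])
    rwa [eval₂_id, RingHom.id_apply, ← mul_assoc, inv_mul_cancel₀ hgm0, one_mul] at this

end Basics


section TwoCharts

variable {W Y : Type*} [CommRing W] [IsDomain W] [Field Y] [Algebra W Y]
  [IsNoetherianRing W] [UniqueFactorizationMonoid W]

/-- **Common lift, cusp form.**  Chart 1 is the integral closure of `W[x]`, chart 2 the integral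
closure of `W[1/x, 1/(x - 1728)]`. -/
theorem exists_common_lift_cusp {π : W} (hπ : Prime π) {x : Y} (hx : Transcendental W x)
    (hfin : ∃ (n : ℕ) (b : Fin n → Y), (∀ i, IsInt W x (b i)) ∧
      ∀ y, IsInt W x y → ∃ p : Fin n → W[X], y = ∑ i, aeval x (p i) * b i)
    (ε e₁ e₂ : Y)
    (hε : ∃ c, InC π x c ∧ ε ^ 2 - ε = algebraMap W Y π * c)
    (he₁ : IsInt W x e₁) (he₂ : IsCuspInt W x e₂)
    (h₁ : ∃ c, InC π x c ∧ e₁ - ε = algebraMap W Y π * c)
    (h₂ : ∃ c, InC π x c ∧ e₂ - ε = algebraMap W Y π * c) :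
    ∃ c, IsInt W x c ∧ IsCuspInt W x c ∧ ∃ d, InC π x d ∧ c - ε = algebraMap W Y π * d := by
  have hx0 := ne_zero_of_transcendental hx
  have hx1 : x - 1728 ≠ 0 := sub_ne_zero_of_transcendental hx
  have hxi : Transcendental W x⁻¹ := transcendental_inv hx
  have hg0 : (1 - 1728 * x⁻¹ : Y) ≠ 0 := g_ne_zero hx
  have hg := g_mul (x := x) hx0
  have hgInt : IsInt W x⁻¹ (1 - 1728 * x⁻¹) := isInt_g x
  have hv0 : x * (x - 1728) ≠ 0 := mul_ne_zero hx0 hx1
  have hgv : (1 - 1728 * x⁻¹) * (x * (x - 1728))⁻¹ = x⁻¹ ^ 2 := by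
    field_simp
  -- the charts
  have hgmem : (1 - 1728 * x⁻¹ : Y) ∈ chart W x⁻¹ := hgInt
  obtain ⟨B2, hB2⟩ : ∃ B2 : Subalgebra W Y, ∀ y, y ∈ B2 ↔ IsCuspInt W x y :=
    ⟨TwoChartIdem.awayCl (chart W x⁻¹) (1 - 1728 * x⁻¹) hgmem, fun y => Iff.rfl⟩
  have hv1 : x * (x - 1728) ∈ chart W x :=
    IsInt.self.mul (IsInt.self.sub (isInt_ofNat x 1728))
  have hv2 : (x * (x - 1728))⁻¹ ∈ B2 := by
    rw [hB2]
    refine ⟨1, ?_⟩
    rw [pow_one, hgv]
    exact IsInt.self.pow 2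
  have h₂₁ : ∀ y ∈ B2, ∃ n : ℕ, (x * (x - 1728)) ^ n * y ∈ chart W x := by
    intro y hy
    obtain ⟨m, hm⟩ := (hB2 y).mp hy
    obtain ⟨D, hD⟩ := isInt_pow_mul_of_isInt_inv hx0 hm
    refine ⟨D + m, ?_⟩
    have hgm : (1 - 1728 * x⁻¹) ^ m * x ^ m = (x - 1728) ^ m := by rw [← mul_pow, hg]
    have e : (x * (x - 1728)) ^ (D + m) * y =
        x ^ (2 * m) * (x - 1728) ^ D * (x ^ D * ((1 - 1728 * x⁻¹) ^ m * y)) := by
      rw [mul_pow, pow_add, pow_add, two_mul, pow_add]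
      linear_combination (-(x ^ D * x ^ m * (x - 1728) ^ D * y)) * hgm
    show IsInt W x _
    rw [e]
    exact ((IsInt.self.pow _).mul ((IsInt.self.sub (isInt_ofNat x 1728)).pow _)).mul hD
  have h₁₂ : ∀ y ∈ chart W x, ∃ n : ℕ, (x * (x - 1728))⁻¹ ^ n * y ∈ B2 := by
    intro y hy
    obtain ⟨D, hD⟩ := isInt_inv_pow_mul_of_isInt hx0 hy
    refine ⟨D, (hB2 _).mpr ⟨D, ?_⟩⟩
    have e : (1 - 1728 * x⁻¹) ^ D * ((x * (x - 1728))⁻¹ ^ D * y) =
        x⁻¹ ^ D * (x⁻¹ ^ D * y) := by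
      rw [← mul_assoc, ← mul_pow, hgv, ← pow_mul]
      ring
    rw [e]
    exact (IsInt.self.pow D).mul hD
  have hsat1 : ∀ c ∈ gaussSubring hπ x, π • c ∈ chart W x → c ∈ chart W x := by
    intro c hc h
    rw [Algebra.smul_def] at h
    exact isInt_of_inC hπ hx h hc
  have hsat2 : ∀ c ∈ gaussSubring hπ x, π • c ∈ B2 → c ∈ B2 := by
    intro c hc h
    obtain ⟨m, hm⟩ := (hB2 _).mp h
    refine (hB2 _).mpr ⟨m, isInt_of_inC hπ hxi ?_ ?_⟩
    · have e : algebraMap W Y π * ((1 - 1728 * x⁻¹) ^ m * c) =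
          (1 - 1728 * x⁻¹) ^ m * π • c := by
        rw [Algebra.smul_def]; ring
      rw [e]; exact hm
    · exact (InC.of_isInt hπ (hgInt.pow m)).mul hπ (InC.to_inv hx0 hc)
  have hfin' := ChartAlg.exists_gens_over_v (chart W x) x IsInt.self
    (by
      obtain ⟨n, b, hb, hspan⟩ := hfin
      exact ⟨n, b, hb, fun y hy => hspan y hy⟩)
  obtain ⟨cε, hcε, hε'⟩ := hε
  obtain ⟨c₁, hc₁, h₁'⟩ := h₁
  obtain ⟨c₂, hc₂, h₂'⟩ := h₂
  have hεC : ε ∈ gaussSubring hπ x := by
    have : ε = e₁ - algebraMap W Y π * c₁ := by linear_combination -h₁'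
    rw [this]
    exact (InC.of_isInt hπ he₁).sub hπ ((InC.const hπ π).mul hπ hc₁)
  obtain ⟨c, hcB1, hcB2, d, hd, hcd⟩ := TwoChartIdem.two_chart_idem π (x * (x - 1728))
    (x * (x - 1728))⁻¹ (mul_inv_cancel₀ hv0) (chart W x) B2 hv1 hv2 h₂₁ h₁₂
    (gaussSubring hπ x) (fun y hy => InC.of_isInt hπ hy) hsat1 hsat2 hfin' ε hεC
    ⟨cε, hcε, by rw [Algebra.smul_def]; exact hε'⟩ e₁ e₂ he₁ ((hB2 _).mpr he₂)
    ⟨c₁, hc₁, by rw [Algebra.smul_def]; exact h₁'⟩ ⟨c₂, hc₂, by rw [Algebra.smul_def]; exact h₂'⟩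
  exact ⟨c, hcB1, (hB2 _).mp hcB2, d, hd, by rw [← Algebra.smul_def]; exact hcd⟩

end TwoCharts


section Main

variable {W F Y : Type*} [CommRing W] [IsDomain W] [IsNoetherianRing W]
  [UniqueFactorizationMonoid W] [Field F] [Algebra W F] [Field Y] [Algebra W Y] [Algebra F Y]
  [IsScalarTower W F Y]

theorem IsCuspInt.pow {x y : Y} (h : IsCuspInt W x y) (n : ℕ) : IsCuspInt W x (y ^ n) := by
  obtain ⟨m, hm⟩ := h
  refine ⟨m * n, ?_⟩
  have e : (1 - 1728 * x⁻¹) ^ (m * n) * y ^ n = ((1 - 1728 * x⁻¹) ^ m * y) ^ n := by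
    rw [mul_pow, pow_mul]
  rw [e]
  exact hm.pow n

/-- **Endgame, cusp-chart form** (internal currency `IsInt` / `InC` / `IsCuspInt`). -/
theorem endgame_cusp (π : W) (hπ : Prime π) (j : F) (hj : Transcendental W j)
    (s : ℕ) (hs : s.Prime) (hsW : IsUnit (s : W)) (ζ : W) (hζ : IsPrimitiveRoot ζ s)
    (w : F) (pb : PowerBasis F Y) (hdim : pb.dim = s) (hgen : pb.gen ^ s = algebraMap F Y w)
    (hw : ∃ c₀, InC π (algebraMap F Y j) c₀ ∧ algebraMap F Y w - 1 = algebraMap W Y π * c₀)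
    (hfin : ∃ (n : ℕ) (b : Fin n → Y), (∀ i, IsInt W (algebraMap F Y j) (b i)) ∧
      ∀ y, IsInt W (algebraMap F Y j) y →
        ∃ p : Fin n → W[X], y = ∑ i, aeval (algebraMap F Y j) (p i) * b i)
    (h₁ : ∃ e : Y, IsInt W (algebraMap F Y j) e ∧ ∃ d, InC π (algebraMap F Y j) d ∧
      e - (s : Y)⁻¹ * ∑ i ∈ Finset.range s, pb.gen ^ i = algebraMap W Y π * d)
    (h₂ : ∃ e : Y, IsCuspInt W (algebraMap F Y j) e ∧ ∃ d, InC π (algebraMap F Y j) d ∧
      e - (s : Y)⁻¹ * ∑ i ∈ Finset.range s, pb.gen ^ i = algebraMap W Y π * d) :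
    ∃ a h : F, a ≠ 0 ∧ IsIntegral W a ∧ w = a * h ^ s := by
  classical
  have hinjFY : Function.Injective (algebraMap F Y) := (algebraMap F Y).injective
  have hx : Transcendental W (algebraMap F Y j) := by
    intro ⟨p, hp0, hp⟩
    refine hj ⟨p, hp0, hinjFY ?_⟩
    rw [map_zero, ← aeval_algebraMap_apply]; exact hp
  obtain ⟨sW, hsW'⟩ := hsW.exists_right_inv
  have hs2 : 2 ≤ s := hs.two_le
  have hsY : (s : Y)⁻¹ = algebraMap W Y sW := by
    have h1 : (s : Y) * algebraMap W Y sW = 1 := by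
      have := congrArg (algebraMap W Y) hsW'
      rwa [map_mul, map_natCast, map_one] at this
    exact inv_eq_of_mul_eq_one_right h1
  rw [hsY] at h₁ h₂
  have hw' : ∃ c₀, InC π (algebraMap F Y j) c₀ ∧ pb.gen ^ s - 1 = algebraMap W Y π * c₀ := by
    rw [hgen]; exact hw
  have hε := sheet_idem hπ hs.pos sW hsW' hw'
  obtain ⟨e₁, he₁, h₁'⟩ := h₁
  obtain ⟨e₂, he₂, h₂'⟩ := h₂
  obtain ⟨c, hc1, hc2, hcε⟩ :=
    exists_common_lift_cusp hπ hx hfin _ e₁ e₂ hε he₁ he₂ h₁' h₂'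
  -- expansion of `c` in the power basis
  obtain ⟨f, hfdeg, hcf⟩ := pb.exists_eq_aeval c
  have hcsum : c = ∑ i ∈ Finset.range s, algebraMap F Y (f.coeff i) * pb.gen ^ i := by
    rw [hcf, aeval_eq_sum_range' (hdim ▸ hfdeg)]
    exact Finset.sum_congr rfl fun i _ => Algebra.smul_def _ _
  -- the automorphisms `u ↦ ζ ^ k u`
  have hmin : minpoly F pb.gen = X ^ s - C w := by
    have hdvd : minpoly F pb.gen ∣ X ^ s - C w := by
      refine minpoly.dvd F pb.gen ?_
      rw [map_sub, map_pow, aeval_X, aeval_C, hgen, sub_self]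
    refine (eq_of_monic_of_dvd_of_natDegree_le (minpoly.monic pb.isIntegral_gen)
      (monic_X_pow_sub_C w hs.ne_zero) hdvd ?_).symm
    rw [natDegree_X_pow_sub_C, pb.natDegree_minpoly, hdim]
  have hroot : ∀ k : ℕ, aeval (algebraMap W Y (ζ ^ k) * pb.gen) (minpoly F pb.gen) = 0 := by
    intro k
    rw [hmin, map_sub, map_pow, aeval_X, aeval_C, mul_pow, hgen, ← map_pow, ← pow_mul, mul_comm k,
      pow_mul, hζ.pow_eq_one, one_pow, map_one, one_mul, sub_self]
  obtain ⟨τ, hτ⟩ : ∃ τ : ℕ → Y →+* Y, ∀ k, τ k = ((pb.lift _ (hroot k) : Y →ₐ[F] Y) : Y →+* Y) :=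
    ⟨_, fun k => rfl⟩
  have hτF : ∀ k (z : F), τ k (algebraMap F Y z) = algebraMap F Y z := by
    intro k z
    rw [hτ k]
    exact AlgHom.commutes (pb.lift _ (hroot k)) z
  have hτW : ∀ k (a : W), τ k (algebraMap W Y a) = algebraMap W Y a := by
    intro k a
    rw [IsScalarTower.algebraMap_apply W F Y, hτF]
  have hτu : ∀ k, τ k pb.gen = algebraMap W Y (ζ ^ k) * pb.gen := by
    intro k
    rw [hτ k]
    exact pb.lift_gen _ (hroot k)
  have hτxi : ∀ k, τ k (algebraMap F Y j)⁻¹ = (algebraMap F Y j)⁻¹ := fun k => by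
    rw [map_inv₀, hτF]
  rw [hcsum] at hc1 hc2 hcε
  have hg0 := projector_ne_zero hπ hx hs2 sW ζ hsW' hζ pb.gen hw' τ (fun k => hτF k j) hτW hτu
    (fun i => algebraMap F Y (f.coeff i)) (fun k i => hτF k _) hcε
  have hP1 := proj_sum hs2 sW ζ hsW' hζ τ pb.gen hτu (fun i => algebraMap F Y (f.coeff i))
    (fun k i => hτF k _)
  have hg1 : IsInt W (algebraMap F Y j) (algebraMap F Y (f.coeff 1) * pb.gen) := by
    rw [← hP1]; exact proj_isInt s sW ζ τ (fun k => hτF k j) hτW hc1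
  have hg2 : IsCuspInt W (algebraMap F Y j) (algebraMap F Y (f.coeff 1) * pb.gen) := by
    obtain ⟨m, hm⟩ := hc2
    refine ⟨m, ?_⟩
    have hfix : ∀ k, τ k ((1 - 1728 * (algebraMap F Y j)⁻¹) ^ m) =
        (1 - 1728 * (algebraMap F Y j)⁻¹) ^ m := by
      intro k
      rw [map_pow, map_sub, map_one, map_mul, hτxi, map_ofNat]
    rw [← hP1, ← proj_fixed_mul s sW ζ τ _ _ hfix]
    exact proj_isInt s sW ζ τ hτxi hτW hm
  -- conclusion
  have hgs : (algebraMap F Y (f.coeff 1) * pb.gen) ^ s = algebraMap F Y (f.coeff 1 ^ s * w) := by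
    rw [mul_pow, hgen, map_mul, map_pow]
  have hint : IsIntegral W (algebraMap F Y (f.coeff 1 ^ s * w)) := by
    rw [← hgs]
    exact isIntegral_of_isInt_of_isCuspInt hx (hg1.pow s) (hg2.pow s)
  have ha0 : f.coeff 1 ^ s * w ≠ 0 := by
    intro h
    have h2 := pow_ne_zero s hg0
    rw [hgs, h, map_zero] at h2
    exact h2 rfl
  have hf1 : f.coeff 1 ≠ 0 := by
    intro h
    apply ha0
    rw [h, zero_pow hs.ne_zero, zero_mul]
  refine ⟨f.coeff 1 ^ s * w, (f.coeff 1)⁻¹, ha0, (isIntegral_algebraMap_iff hinjFY).mp hint, ?_⟩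
  rw [inv_pow, mul_comm (f.coeff 1 ^ s) w, mul_assoc, mul_inv_cancel₀ (pow_ne_zero s hf1), mul_one]

end Main


section Contract

/-- generators of the first chart from module-finiteness of the integral closure -/
theorem exists_gens_of_finite {W Y : Type*} [CommRing W] [Field Y] [Algebra W Y] (x : Y)
    (h : Module.Finite (Algebra.adjoin W {x}) (integralClosure (Algebra.adjoin W {x}) Y)) :
    ∃ (n : ℕ) (b : Fin n → Y), (∀ i, IsInt W x (b i)) ∧
      ∀ y, IsInt W x y → ∃ p : Fin n → W[X], y = ∑ i, aeval x (p i) * b i := by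
  have hiff : ∀ y : Y, IsInt W x y ↔ IsIntegral (Algebra.adjoin W {x}) y :=
    fun y => isInt_iff_isIntegral_adjoin (F := Y) x y
  obtain ⟨n, b, hbspan⟩ := Module.Finite.exists_fin (R := Algebra.adjoin W {x})
    (M := integralClosure (Algebra.adjoin W {x}) Y)
  refine ⟨n, fun i => (b i : Y), fun i => (hiff _).mpr (b i).2, ?_⟩
  intro y hy
  have hy' : IsIntegral (Algebra.adjoin W {x}) y := (hiff y).mp hy
  have hmem : (⟨y, hy'⟩ : integralClosure (Algebra.adjoin W {x}) Y) ∈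
      Submodule.span (Algebra.adjoin W {x}) (Set.range b) := by rw [hbspan]; trivial
  obtain ⟨r, hr⟩ := (Submodule.mem_span_range_iff_exists_fun _).mp hmem
  have hrp : ∀ i, ∃ p : W[X], aeval x p = (r i : Y) := fun i => by
    have h' : (r i : Y) ∈ (aeval x : W[X] →ₐ[W] Y).range := by
      rw [← Algebra.adjoin_singleton_eq_range_aeval]; exact (r i).2
    exact h'
  choose p hp using hrp
  refine ⟨p, ?_⟩
  have h3 := congrArg (fun z : integralClosure (Algebra.adjoin W {x}) Y => (z : Y)) hr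
  simp only [AddSubmonoidClass.coe_finsetSum] at h3
  rw [← h3]
  refine Finset.sum_congr rfl fun i _ => ?_
  rw [hp i, Subalgebra.coe_smul, Algebra.smul_def]
  rfl

/-- **Endgame in the currency of `Contracts`.**  `toF : W → F` the structure map, `Y ⊇ F` any field
with `u ^ s = w` and `[Y : F] = s`; the finite chart lift `h₁` and the cusp chart lift `h₂` of the
sheet idempotent `Kummer.eps s u` are exactly the conclusions of `Contracts.FiniteChartLift` and
`Contracts.CuspChartLift`.  Conclusion: `w = a * h ^ s` with `a ≠ 0` integral over `W`. -/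
theorem endgame_contract {W F Y : Type*} [CommRing W] [IsDomain W] [IsNoetherianRing W]
    [UniqueFactorizationMonoid W] [Field F] [Field Y] [Algebra F Y] (toF : W →+* F)
    (π : W) (hπ : Prime π) (j : F) (hj : ∀ p : W[X], p ≠ 0 → eval₂ toF j p ≠ 0)
    (s : ℕ) (hs : s.Prime) (hsW : IsUnit (s : W)) (ζ : W) (hζ : IsPrimitiveRoot ζ s)
    (w : F) (u : Y) (hu : u ^ s = algebraMap F Y w) (hdeg : Module.finrank F Y = s)
    (hw : ∃ d : Y, (∃ p : W[X], ¬ C π ∣ p ∧
        (eval₂RingHom ((algebraMap F Y).comp toF) (algebraMap F Y j)).IsIntegralElem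
          (eval₂RingHom ((algebraMap F Y).comp toF) (algebraMap F Y j) p * d)) ∧
        algebraMap F Y w - 1 = ((algebraMap F Y).comp toF) π * d)
    (hfin : ∃ (n : ℕ) (b : Fin n → Y),
        (∀ i, (eval₂RingHom ((algebraMap F Y).comp toF) (algebraMap F Y j)).IsIntegralElem (b i)) ∧
        ∀ y, (eval₂RingHom ((algebraMap F Y).comp toF) (algebraMap F Y j)).IsIntegralElem y →
          ∃ p : Fin n → W[X], y = ∑ i,
            eval₂RingHom ((algebraMap F Y).comp toF) (algebraMap F Y j) (p i) * b i)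
    (h₁ : ∃ e : Y,
        (eval₂RingHom ((algebraMap F Y).comp toF) (algebraMap F Y j)).IsIntegralElem e ∧
        ∃ d : Y, (∃ p : W[X], ¬ C π ∣ p ∧
          (eval₂RingHom ((algebraMap F Y).comp toF) (algebraMap F Y j)).IsIntegralElem
            (eval₂RingHom ((algebraMap F Y).comp toF) (algebraMap F Y j) p * d)) ∧
          e - Kummer.eps s u = ((algebraMap F Y).comp toF) π * d)
    (h₂ : ∃ e : Y,
        (∃ m : ℕ, (eval₂RingHom ((algebraMap F Y).comp toF) (algebraMap F Y j)⁻¹).IsIntegralElem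
          ((1 - 1728 * (algebraMap F Y j)⁻¹) ^ m * e)) ∧
        ∃ d : Y, (∃ p : W[X], ¬ C π ∣ p ∧
          (eval₂RingHom ((algebraMap F Y).comp toF) (algebraMap F Y j)).IsIntegralElem
            (eval₂RingHom ((algebraMap F Y).comp toF) (algebraMap F Y j) p * d)) ∧
          e - Kummer.eps s u = ((algebraMap F Y).comp toF) π * d) :
    ∃ a h : F, a ≠ 0 ∧ toF.IsIntegralElem a ∧ w = a * h ^ s := by
  classical
  by_cases hpow : ∃ b : F, b ^ s = w
  · obtain ⟨b, hb⟩ := hpow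
    exact ⟨1, b, one_ne_zero, RingHom.isIntegralElem_one _, by rw [one_mul, hb]⟩
  letI : Algebra W F := toF.toAlgebra
  letI : Algebra W Y := ((algebraMap F Y).comp toF).toAlgebra
  haveI : IsScalarTower W F Y := IsScalarTower.of_algebraMap_eq (fun _ => rfl)
  have hev : ∀ x : Y, eval₂RingHom ((algebraMap F Y).comp toF) x = ev W x := by
    intro x
    refine RingHom.ext fun p => ?_
    rw [coe_eval₂RingHom, ev_apply, aeval_def]
    rfl
  have hirr : Irreducible (X ^ s - C w : F[X]) :=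
    X_pow_sub_C_irreducible_of_prime hs (fun b hb => hpow ⟨b, hb⟩)
  obtain ⟨pb, hpbgen, hpbdim⟩ : ∃ pb : PowerBasis F Y, pb.gen = u ∧ pb.dim = s :=
    ⟨{ gen := u
       dim := s
       basis := Kummer.powBasis s u w hs.ne_zero hu hirr hdeg
       basis_eq_pow := Kummer.powBasis_apply s u w hs.ne_zero hu hirr hdeg }, rfl, rfl⟩
  subst hpbgen
  have hj' : Transcendental W j := by
    intro ⟨p, hp0, hp⟩
    exact hj p hp0 (by rw [← hp, aeval_def]; rfl)
  simp only [hev] at hw hfin h₁ h₂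
  exact endgame_cusp π hπ j hj' s hs hsW ζ hζ w pb hpbdim hu hw hfin h₁ h₂

end Contract

end Fermat.Agent.S18.EndgameCusp
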