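/-
S18, last step of the endgame: an element of the function field `F_L` that is algebraic over
the constants becomes a constant of `F_ℚ̄`, hence an `s`-th power there.  Consequently, if the
Kummer datum `w ∈ F_L` is `a * h ^ s` with `a ≠ 0` algebraic over `L` (the output of the
two-chart argument), then the image of `w` in `F_ℚ̄` is an `s`-th power.
-/
import Mathlib
import Fermat.Prelude.Def_ModularCurve_ReductionModL
import Fermat.Agent.S24.CoeffBC

set_option autoImplicit false

namespace Fermat.Agent.S18

open ModularCurve Polynomial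

namespace Finish

/-- An element of a field extension of an algebraically closed field that is algebraic over
it lies in the base field. -/
theorem mem_range_of_isAlgebraic {K E : Type*} [Field K] [IsAlgClosed K] [Field E] [Algebra K E]
    {x : E} (hx : IsAlgebraic K x) : ∃ c : K, algebraMap K E c = x := by
  have hint : IsIntegral K x := hx.isIntegral
  have hdeg : (minpoly K x).degree = 1 :=
    IsAlgClosed.degree_eq_one_of_irreducible K (minpoly.irreducible hint)
  exact minpoly.mem_range_of_degree_eq_one K x hdeg

/-- Algebraicity is transported by a ring homomorphism compatible with the structure maps. -/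
theorem isAlgebraic_map {K K' E E' : Type*} [Field K] [Field K'] [Field E] [Field E']
    [Algebra K E] [Algebra K' E'] (ι : K →+* K') (φ : E →+* E')
    (hφ : ∀ a : K, φ (algebraMap K E a) = algebraMap K' E' (ι a)) {x : E}
    (hx : IsAlgebraic K x) : IsAlgebraic K' (φ x) := by
  obtain ⟨p, hp0, hp⟩ := hx
  refine ⟨p.map ι, (Polynomial.map_ne_zero_iff ι.injective).mpr hp0, ?_⟩
  have h1 : φ (aeval x p) = (p.map ι).eval₂ (algebraMap K' E') (φ x) := by
    rw [aeval_def, Polynomial.hom_eval₂, Polynomial.eval₂_map]
    congr 1
    ext a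
    simp only [RingHom.comp_apply]
    exact hφ a
  rw [aeval_def, ← h1, hp, map_zero]

local notation "Qb" => AlgebraicClosure ℚ

/-- **End of the endgame.**  If `w = a * h ^ s` in `F_L` with `a ≠ 0` algebraic over `L`,
then the image of `w` in `F_ℚ̄` is an `s`-th power. -/
theorem exists_pow_eq_bc (N : ℕ) {L : Type*} [Field L] [Algebra ℚ L] (ι : L →+* Qb)
    (s : ℕ) (w a h : ↥(laurentBaseChange L (modularFunctionFieldFull N)))
    (ha : IsAlgebraic L a) (hw : w = a * h ^ s) (hs : s ≠ 0) :
    ∃ b : modularFunctionFieldBar N,
      b ^ s = S24.CoeffBC.bc ι (modularFunctionFieldFull N) w := by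
  have halg : IsAlgebraic Qb (S24.CoeffBC.bc ι (modularFunctionFieldFull N) a) :=
    isAlgebraic_map ι (S24.CoeffBC.bc ι (modularFunctionFieldFull N))
      (S24.CoeffBC.bc_algebraMap ι (modularFunctionFieldFull N)) ha
  obtain ⟨α, hα⟩ := mem_range_of_isAlgebraic halg
  obtain ⟨β, hβ⟩ := IsAlgClosed.exists_pow_nat_eq α (Nat.pos_of_ne_zero hs)
  refine ⟨algebraMap Qb (modularFunctionFieldBar N) β *
    S24.CoeffBC.bc ι (modularFunctionFieldFull N) h, ?_⟩
  rw [hw, map_mul, map_pow, mul_pow, ← map_pow, hβ]
  exact congrArg (· * _) hα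

/-- The same conclusion for an element integral over a subring of the constants. -/
theorem exists_pow_eq_bc_of_isIntegral (N : ℕ) {L : Type*} [Field L] [Algebra ℚ L]
    (ι : L →+* Qb) {W : Type*} [CommRing W] [Algebra W L]
    [Algebra W ↥(laurentBaseChange L (modularFunctionFieldFull N))]
    [IsScalarTower W L ↥(laurentBaseChange L (modularFunctionFieldFull N))]
    (s : ℕ) (w a h : ↥(laurentBaseChange L (modularFunctionFieldFull N)))
    (ha : IsIntegral W a) (hw : w = a * h ^ s) (hs : s ≠ 0) :
    ∃ b : modularFunctionFieldBar N,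
      b ^ s = S24.CoeffBC.bc ι (modularFunctionFieldFull N) w :=
  exists_pow_eq_bc N ι s w a h (ha.tower_top (A := L)).isAlgebraic hw hs

end Finish

end Fermat.Agent.S18
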