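import Mathlib

/-!
# S18, package P9: the "formal functions" step in abstract form

`W` a discrete valuation ring with uniformiser `π`, `M` a commutative `W`-algebra without
`π`-torsion, `P Q` two `W`-subalgebras of `M` ("two affine charts" inside the ring of the overlap).
If `P ∩ Q = W` and `M / (P + Q)` is a finitely generated `W`-module, then every idempotent of the
glued special fibre `{(x̄, ȳ) ∈ P/π × Q/π agreeing in M/π}` is `0` or `1`.
-/

set_option autoImplicit false

namespace Fermat.Agent.S18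

namespace FormalFunctions

section Basic

variable {W M : Type*} [CommRing W] [CommRing M] [Algebra W M]

/-- `z ∈ π ^ n • S`. -/
def InPow (π : W) (S : Subalgebra W M) (n : ℕ) (z : M) : Prop := ∃ s ∈ S, z = π ^ n • s

variable {π : W} {S : Subalgebra W M} {n m : ℕ} {z z' : M}

lemma InPow.mem (h : InPow π S n z) : z ∈ S := by
  obtain ⟨s, hs, rfl⟩ := h
  exact S.smul_mem hs _

lemma inPow_zero_iff : InPow π S 0 z ↔ z ∈ S := by
  constructor
  · exact fun h => h.mem
  · intro h
    exact ⟨z, h, by rw [pow_zero, one_smul]⟩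

lemma InPow.add (h : InPow π S n z) (h' : InPow π S n z') : InPow π S n (z + z') := by
  obtain ⟨s, hs, rfl⟩ := h
  obtain ⟨s', hs', rfl⟩ := h'
  exact ⟨s + s', S.add_mem hs hs', by rw [smul_add]⟩

lemma InPow.neg (h : InPow π S n z) : InPow π S n (-z) := by
  obtain ⟨s, hs, rfl⟩ := h
  exact ⟨-s, S.neg_mem hs, by rw [smul_neg]⟩

lemma InPow.sub (h : InPow π S n z) (h' : InPow π S n z') : InPow π S n (z - z') := by
  rw [sub_eq_add_neg]
  exact h.add h'.neg

lemma InPow.mul_mem (h : InPow π S n z) (h' : z' ∈ S) : InPow π S n (z * z') := by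
  obtain ⟨s, hs, rfl⟩ := h
  exact ⟨s * z', S.mul_mem hs h', by rw [smul_mul_assoc]⟩

lemma InPow.mem_mul (h' : z' ∈ S) (h : InPow π S n z) : InPow π S n (z' * z) := by
  rw [mul_comm]
  exact h.mul_mem h'

lemma InPow.mul (h : InPow π S n z) (h' : InPow π S m z') : InPow π S (n + m) (z * z') := by
  obtain ⟨s, hs, rfl⟩ := h
  obtain ⟨s', hs', rfl⟩ := h'
  refine ⟨s * s', S.mul_mem hs hs', ?_⟩
  rw [smul_mul_smul_comm, pow_add]

lemma InPow.mono (h : InPow π S m z) (hnm : n ≤ m) : InPow π S n z := by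
  obtain ⟨s, hs, rfl⟩ := h
  refine ⟨π ^ (m - n) • s, S.smul_mem hs _, ?_⟩
  rw [smul_smul, ← pow_add, Nat.add_sub_cancel' hnm]

lemma InPow.of_le {T : Subalgebra W M} (hST : S ≤ T) (h : InPow π S n z) : InPow π T n z := by
  obtain ⟨s, hs, rfl⟩ := h
  exact ⟨s, hST hs, rfl⟩

lemma InPow.top (h : InPow π S n z) : InPow π (⊤ : Subalgebra W M) n z :=
  h.of_le le_top

/-- The Newton step for idempotents, `x ↦ 3x² - 2x³` (written without numerals). -/
def nw (x : M) : M := x ^ 2 + x ^ 2 + x ^ 2 - (x ^ 3 + x ^ 3)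

lemma nw_mem {x : M} (hx : x ∈ S) : nw x ∈ S :=
  S.sub_mem (S.add_mem (S.add_mem (S.pow_mem hx 2) (S.pow_mem hx 2)) (S.pow_mem hx 2))
    (S.add_mem (S.pow_mem hx 3) (S.pow_mem hx 3))

lemma nw_sub (x : M) : nw x - x = (1 - (x + x)) * (x ^ 2 - x) := by
  unfold nw; ring

lemma nw_idem (x : M) :
    nw x ^ 2 - nw x =
      (x ^ 2 - x) * (x ^ 2 - x) *
        ((x ^ 2 - x) + (x ^ 2 - x) + (x ^ 2 - x) + (x ^ 2 - x) - (1 + 1 + 1)) := by
  unfold nw; ring

/-- The Newton sequence and its three properties. -/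
lemma nw_iterate (x : M) (hx : x ∈ S) (hxx : InPow π S 1 (x ^ 2 - x)) (n : ℕ) :
    nw^[n] x ∈ S ∧ InPow π S (n + 1) ((nw^[n] x) ^ 2 - nw^[n] x) ∧
      InPow π S (n + 1) (nw^[n + 1] x - nw^[n] x) ∧ InPow π S 1 (nw^[n] x - x) := by
  have step : ∀ u : M, u ∈ S → ∀ k : ℕ, InPow π S (k + 1) (u ^ 2 - u) →
      InPow π S (k + 1) (nw u - u) ∧ InPow π S (k + 2) (nw u ^ 2 - nw u) := by
    intro u hu k hk
    have hu2 : u ^ 2 - u ∈ S := hk.mem
    constructor
    · rw [nw_sub]
      exact hk.mem_mul (S.sub_mem S.one_mem (S.add_mem hu hu))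
    · rw [nw_idem]
      have h1 : InPow π S (k + 1 + (k + 1)) ((u ^ 2 - u) * (u ^ 2 - u)) := hk.mul hk
      have h2 : InPow π S (k + 2) ((u ^ 2 - u) * (u ^ 2 - u)) := h1.mono (by omega)
      exact h2.mul_mem (S.sub_mem (S.add_mem (S.add_mem (S.add_mem hu2 hu2) hu2) hu2)
        (S.add_mem (S.add_mem S.one_mem S.one_mem) S.one_mem))
  induction n with
  | zero =>
    have h := step x hx 0 hxx
    refine ⟨hx, hxx, ?_, ?_⟩
    · simpa using h.1
    · rw [Function.iterate_zero, id, sub_self]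
      exact ⟨0, S.zero_mem, by rw [smul_zero]⟩
  | succ n ih =>
    obtain ⟨h1, h2, h3, h4⟩ := ih
    have hmem : nw^[n + 1] x ∈ S := by
      rw [Function.iterate_succ_apply']
      exact nw_mem h1
    have hs := step (nw^[n] x) h1 n h2
    have h2' : InPow π S (n + 1 + 1) ((nw^[n + 1] x) ^ 2 - nw^[n + 1] x) := by
      rw [Function.iterate_succ_apply']
      exact hs.2
    have hs' := step (nw^[n + 1] x) hmem (n + 1) h2'
    refine ⟨hmem, h2', ?_, ?_⟩
    · have : nw^[n + 1 + 1] x = nw (nw^[n + 1] x) := Function.iterate_succ_apply' _ _ _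
      rw [this]
      exact hs'.1
    · have : nw^[n + 1] x - x = (nw^[n + 1] x - nw^[n] x) + (nw^[n] x - x) := by ring
      rw [this]
      exact (h3.mono (by omega)).add h4

/-- Uniqueness of idempotent lifts: two elements that are idempotent mod `π ^ n` and congruent
mod `π` are congruent mod `π ^ n`. -/
lemma diff_inPow (u v : M) (n : ℕ)
    (hu : InPow π (⊤ : Subalgebra W M) n (u ^ 2 - u))
    (hv : InPow π (⊤ : Subalgebra W M) n (v ^ 2 - v))
    (h1 : InPow π (⊤ : Subalgebra W M) 1 (u - v)) :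
    InPow π (⊤ : Subalgebra W M) n (u - v) := by
  have hid : (u - v) ^ 3 - (u - v) =
      (u ^ 2 - u) * (1 + u - (v + v + v)) + (v ^ 2 - v) * (u + u + u - 1 - v) := by ring
  have hcube : InPow π (⊤ : Subalgebra W M) n ((u - v) ^ 3 - (u - v)) := by
    rw [hid]
    exact (hu.mul_mem Algebra.mem_top).add (hv.mul_mem Algebra.mem_top)
  have key : ∀ k : ℕ, k + 1 ≤ n → InPow π (⊤ : Subalgebra W M) (k + 1) (u - v) := by
    intro k
    induction k with
    | zero => intro _; simpa using h1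
    | succ k ih =>
      intro hk
      have hk' := ih (by omega)
      have h3 : InPow π (⊤ : Subalgebra W M) (k + 1 + (k + 1) + (k + 1)) ((u - v) ^ 3) := by
        have : (u - v) ^ 3 = (u - v) * (u - v) * (u - v) := by ring
        rw [this]
        exact (hk'.mul hk').mul hk'
      have : u - v = (u - v) ^ 3 - ((u - v) ^ 3 - (u - v)) := by ring
      rw [this]
      exact (h3.mono (by omega)).sub (hcube.mono hk)
  rcases Nat.eq_zero_or_pos n with h0 | hpos
  · subst h0
    exact inPow_zero_iff.mpr Algebra.mem_top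
  · have := key (n - 1) (by omega)
    rwa [Nat.sub_add_cancel hpos] at this

end Basic

section Main

variable {W M : Type*} [CommRing W] [IsDomain W] [IsDiscreteValuationRing W] [CommRing M]
  [Algebra W M]

/-- In a finitely generated module over a DVR, the `π`-power torsion is killed by a fixed power
of `π`. -/
lemma exists_pow_kills (π : W) (H : Type*) [AddCommGroup H] [Module W H] [Module.Finite W H] :
    ∃ t : ℕ, ∀ h : H, (∃ n : ℕ, π ^ n • h = 0) → π ^ t • h = 0 := by
  classical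
  let T : Submodule W H :=
    { carrier := {h | ∃ n : ℕ, π ^ n • h = 0}
      add_mem' := by
        rintro a b ⟨n, hn⟩ ⟨m, hm⟩
        refine ⟨n + m, ?_⟩
        have h1 : π ^ (n + m) • a = 0 := by rw [pow_add, mul_comm, mul_smul, hn, smul_zero]
        have h2 : π ^ (n + m) • b = 0 := by rw [pow_add, mul_smul, hm, smul_zero]
        rw [smul_add, h1, h2, add_zero]
      zero_mem' := ⟨0, by simp⟩
      smul_mem' := by
        rintro c a ⟨n, hn⟩
        exact ⟨n, by rw [smul_comm, hn, smul_zero]⟩ }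
  have : IsNoetherian W H := isNoetherian_of_isNoetherianRing_of_finite W H
  have hfg : T.FG := IsNoetherian.noetherian T
  obtain ⟨s, hs⟩ := hfg
  have hsT : ∀ a ∈ s, ∃ n : ℕ, π ^ n • a = 0 := by
    intro a ha
    have : a ∈ T := hs ▸ Submodule.subset_span ha
    exact this
  choose! e he using hsT
  refine ⟨s.sup e, ?_⟩
  intro h hh
  have hmem : h ∈ Submodule.span W (s : Set H) := by
    rw [hs]; exact hh
  refine Submodule.span_induction (p := fun h _ => π ^ (s.sup e) • h = 0) ?_ ?_ ?_ ?_ hmem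
  · intro a ha
    have hle : e a ≤ s.sup e := Finset.le_sup ha
    obtain ⟨d, hd⟩ := Nat.exists_eq_add_of_le hle
    rw [hd, pow_add, mul_comm, mul_smul, he a ha, smul_zero]
  · simp
  · intro a b _ _ ha hb
    rw [smul_add, ha, hb, add_zero]
  · intro c a _ ha
    rw [smul_comm, ha, smul_zero]

/-- **P9 (formal functions / connectedness), abstract form.** -/
theorem idem_const (π : W) (hπ : Irreducible π) (P Q : Subalgebra W M)
    (htf : ∀ m : M, π • m = 0 → m = 0)
    (hH0 : ∀ m, m ∈ P → m ∈ Q → ∃ c : W, m = algebraMap W M c)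
    (hH1 : Module.Finite W (M ⧸ (Subalgebra.toSubmodule P ⊔ Subalgebra.toSubmodule Q)))
    (hP1 : ∀ p ∈ P, π • p ≠ 1)
    (x y : M) (hx : x ∈ P) (hy : y ∈ Q)
    (hxx : ∃ p ∈ P, x ^ 2 - x = π • p) (hyy : ∃ q ∈ Q, y ^ 2 - y = π • q)
    (hxy : ∃ m : M, x - y = π • m) :
    ∃ c : W, (c = 0 ∨ c = 1) ∧ (∃ p ∈ P, x - algebraMap W M c = π • p) ∧
      (∃ q ∈ Q, y - algebraMap W M c = π • q) := by
  classical
  -- cancellation of powers of π
  have hcancel : ∀ (n : ℕ) (m : M), π ^ n • m = 0 → m = 0 := by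
    intro n
    induction n with
    | zero => intro m hm; simpa using hm
    | succ n ih =>
      intro m hm
      rw [pow_succ, mul_smul] at hm
      exact htf m (ih _ hm)
  have hxx' : InPow π P 1 (x ^ 2 - x) := by
    obtain ⟨p, hp, h⟩ := hxx
    exact ⟨p, hp, by rw [pow_one, h]⟩
  have hyy' : InPow π Q 1 (y ^ 2 - y) := by
    obtain ⟨q, hq, h⟩ := hyy
    exact ⟨q, hq, by rw [pow_one, h]⟩
  have hxy' : InPow π (⊤ : Subalgebra W M) 1 (x - y) := by
    obtain ⟨m, h⟩ := hxy
    exact ⟨m, Algebra.mem_top, by rw [pow_one, h]⟩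
  set X : ℕ → M := fun n => nw^[n] x with hX
  set Y : ℕ → M := fun n => nw^[n] y with hY
  have hXp := fun n => nw_iterate (π := π) (S := P) x hx hxx' n
  have hYp := fun n => nw_iterate (π := π) (S := Q) y hy hyy' n
  -- X n - Y n ∈ π^(n+1) M
  have hdiff : ∀ n, InPow π (⊤ : Subalgebra W M) (n + 1) (X n - Y n) := by
    intro n
    refine diff_inPow (X n) (Y n) (n + 1) (hXp n).2.1.top (hYp n).2.1.top ?_
    have : X n - Y n = (X n - x) - (Y n - y) + (x - y) := by ring
    rw [this]
    exact ((hXp n).2.2.2.top.sub (hYp n).2.2.2.top).add hxy'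
  have hdiff' : ∀ n, ∃ m : M, X n - Y n = π ^ (n + 1) • m := by
    intro n
    obtain ⟨m, -, hm⟩ := hdiff n
    exact ⟨m, hm⟩
  choose mf hmf using hdiff'
  let N : Submodule W M := Subalgebra.toSubmodule P ⊔ Subalgebra.toSubmodule Q
  have hPN : ∀ p ∈ P, p ∈ N := fun p hp =>
    Submodule.mem_sup_left ((Subalgebra.mem_toSubmodule P).mpr hp)
  have hQN : ∀ q ∈ Q, q ∈ N := fun q hq =>
    Submodule.mem_sup_right ((Subalgebra.mem_toSubmodule Q).mpr hq)
  let μ : ℕ → M ⧸ N := fun n => Submodule.Quotient.mk (mf n)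
  -- π μ (n+1) = μ n
  have hrel : ∀ n, π • μ (n + 1) = μ n := by
    intro n
    obtain ⟨p, hp, hpn⟩ := (hXp n).2.2.1
    obtain ⟨q, hq, hqn⟩ := (hYp n).2.2.1
    have h1 : π ^ (n + 1) • (π • mf (n + 1) - (mf n + p - q)) = 0 := by
      have e1 := hmf (n + 1)
      have e2 := hmf n
      have e3 : X (n + 1) - Y (n + 1) = (X n - Y n) + (X (n + 1) - X n) - (Y (n + 1) - Y n) := by
        ring
      have hpn' : X (n + 1) - X n = π ^ (n + 1) • p := hpn
      have hqn' : Y (n + 1) - Y n = π ^ (n + 1) • q := hqn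
      rw [smul_sub, smul_sub, smul_add, smul_smul, ← pow_succ, ← e1, e3, e2, hpn', hqn']
      abel
    have h2 := hcancel _ _ h1
    have h3 : π • mf (n + 1) - mf n = p - q := by
      have : π • mf (n + 1) = mf n + p - q := sub_eq_zero.mp h2
      rw [this]; abel
    show π • Submodule.Quotient.mk (mf (n + 1)) = Submodule.Quotient.mk (mf n)
    rw [← Submodule.Quotient.mk_smul, Submodule.Quotient.eq, h3]
    exact N.sub_mem (hPN p hp) (hQN q hq)
  -- μ n is torsion
  have htors : ∀ n, π ^ (n + 1) • μ n = 0 := by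
    intro n
    show π ^ (n + 1) • Submodule.Quotient.mk (mf n) = (0 : M ⧸ N)
    rw [← Submodule.Quotient.mk_smul, ← hmf n, Submodule.Quotient.mk_eq_zero]
    exact N.sub_mem (hPN _ (hXp n).1) (hQN _ (hYp n).1)
  have hiter : ∀ t, μ 0 = π ^ t • μ t := by
    intro t
    induction t with
    | zero => simp
    | succ t ih => rw [ih, pow_succ, mul_smul, hrel]
  obtain ⟨t, ht⟩ := exists_pow_kills π (M ⧸ N)
  have hμ0 : μ 0 = 0 := by
    rw [hiter t]
    exact ht _ ⟨t + 1, htors t⟩
  have hm0 : mf 0 ∈ N := (Submodule.Quotient.mk_eq_zero N).mp hμ0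
  obtain ⟨p, hp, q, hq, hpq⟩ := Submodule.mem_sup.mp hm0
  rw [Subalgebra.mem_toSubmodule] at hp hq
  have hxy0 : x - y = π • (p + q) := by
    have := hmf 0
    simp only [hX, hY, Function.iterate_zero, id, zero_add, pow_one] at this
    rw [this, hpq]
  -- the common element
  have hzP : x - π • p ∈ P := P.sub_mem hx (P.smul_mem hp π)
  have hzQ : x - π • p ∈ Q := by
    have : x - π • p = y + π • q := by
      have h := hxy0
      rw [smul_add] at h
      have : x = y + (π • p + π • q) := by rw [← h]; abel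
      rw [this]; abel
    rw [this]
    exact Q.add_mem hy (Q.smul_mem hq π)
  obtain ⟨c, hc⟩ := hH0 _ hzP hzQ
  have hxc : x - algebraMap W M c = π • p := by rw [← hc]; abel
  have hyc : y - algebraMap W M c = π • (-q) := by
    rw [← hc, smul_neg]
    have h := hxy0
    rw [smul_add] at h
    have : y = x - (π • p + π • q) := by rw [← h]; abel
    rw [this]; abel
  -- c is idempotent mod π
  obtain ⟨p₀, hp₀, hp₀x⟩ := hxx
  have hcc : algebraMap W M (c ^ 2 - c) =
      π • (p₀ - (algebraMap W M c * p + algebraMap W M c * p + π • (p * p) - p)) := by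
    have hx' : x = algebraMap W M c + π • p := by rw [← hxc]; abel
    have h1 : x ^ 2 - x = algebraMap W M (c ^ 2 - c) +
        π • (algebraMap W M c * p + algebraMap W M c * p + π • (p * p) - p) := by
      rw [hx', map_sub, map_pow]
      simp only [Algebra.smul_def]
      ring
    rw [smul_sub, ← hp₀x, h1]
    abel
  have hp₁ : p₀ - (algebraMap W M c * p + algebraMap W M c * p + π • (p * p) - p) ∈ P :=
    P.sub_mem hp₀ (P.sub_mem (P.add_mem (P.add_mem (P.mul_mem (P.algebraMap_mem c) hp)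
      (P.mul_mem (P.algebraMap_mem c) hp)) (P.smul_mem (P.mul_mem hp hp) π)) hp)
  set p₁ := p₀ - (algebraMap W M c * p + algebraMap W M c * p + π • (p * p) - p) with hp₁def
  have hprime : Prime π := hπ.prime
  have hdvd : π ∣ c ^ 2 - c := by
    by_contra hnd
    have hunit : IsUnit (c ^ 2 - c) := by
      have hmax : IsLocalRing.maximalIdeal W = Ideal.span {π} :=
        (IsDiscreteValuationRing.irreducible_iff_uniformizer π).mp hπ
      by_contra hnu
      have : c ^ 2 - c ∈ IsLocalRing.maximalIdeal W := (IsLocalRing.mem_maximalIdeal _).mpr hnu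
      rw [hmax, Ideal.mem_span_singleton] at this
      exact hnd this
    obtain ⟨u, hu⟩ := hunit
    apply hP1 ((↑u⁻¹ : W) • p₁) (P.smul_mem hp₁ _)
    rw [smul_comm, ← hcc, ← hu, Algebra.smul_def, ← map_mul, Units.inv_mul, map_one]
  have hdvd' : π ∣ c * (c - 1) := by
    have : c ^ 2 - c = c * (c - 1) := by ring
    rwa [this] at hdvd
  rcases hprime.dvd_or_dvd hdvd' with ⟨c', hc'⟩ | ⟨c', hc'⟩
  · refine ⟨0, Or.inl rfl, ⟨p + algebraMap W M c', P.add_mem hp (P.algebraMap_mem c'), ?_⟩,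
      ⟨-q + algebraMap W M c', Q.add_mem (Q.neg_mem hq) (Q.algebraMap_mem c'), ?_⟩⟩
    · have : x - algebraMap W M 0 = (x - algebraMap W M c) + algebraMap W M c := by
        rw [map_zero]; abel
      rw [this, hxc, hc', smul_add, Algebra.smul_def π (algebraMap W M c'), map_mul]
    · have : y - algebraMap W M 0 = (y - algebraMap W M c) + algebraMap W M c := by
        rw [map_zero]; abel
      rw [this, hyc, hc', smul_add, Algebra.smul_def π (algebraMap W M c'), map_mul]
  · have hc1 : algebraMap W M c - algebraMap W M 1 = π • algebraMap W M c' := by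
      rw [← map_sub, hc', map_mul, Algebra.smul_def]
    refine ⟨1, Or.inr rfl, ⟨p + algebraMap W M c', P.add_mem hp (P.algebraMap_mem c'), ?_⟩,
      ⟨-q + algebraMap W M c', Q.add_mem (Q.neg_mem hq) (Q.algebraMap_mem c'), ?_⟩⟩
    · have : x - algebraMap W M 1 = (x - algebraMap W M c) +
          (algebraMap W M c - algebraMap W M 1) := by abel
      rw [this, hxc, hc1, smul_add]
    · have : y - algebraMap W M 1 = (y - algebraMap W M c) +
          (algebraMap W M c - algebraMap W M 1) := by abel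
      rw [this, hyc, hc1, smul_add]

/-- Contradiction form: the glued special fibre has no idempotent other than `0` and `1`. -/
theorem no_nontrivial_idem (π : W) (hπ : Irreducible π) (P Q : Subalgebra W M)
    (htf : ∀ m : M, π • m = 0 → m = 0)
    (hH0 : ∀ m, m ∈ P → m ∈ Q → ∃ c : W, m = algebraMap W M c)
    (hH1 : Module.Finite W (M ⧸ (Subalgebra.toSubmodule P ⊔ Subalgebra.toSubmodule Q)))
    (hP1 : ∀ p ∈ P, π • p ≠ 1)
    (x y : M) (hx : x ∈ P) (hy : y ∈ Q)
    (hxx : ∃ p ∈ P, x ^ 2 - x = π • p) (hyy : ∃ q ∈ Q, y ^ 2 - y = π • q)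
    (hxy : ∃ m : M, x - y = π • m)
    (hx0 : ¬ ∃ p ∈ P, x = π • p) (hx1 : ¬ ∃ p ∈ P, x - 1 = π • p) : False := by
  obtain ⟨c, hc | hc, ⟨p, hp, hpx⟩, -⟩ :=
    idem_const π hπ P Q htf hH0 hH1 hP1 x y hx hy hxx hyy hxy
  · exact hx0 ⟨p, hp, by rw [← hpx, hc, map_zero, sub_zero]⟩
  · exact hx1 ⟨p, hp, by rw [← hpx, hc, map_one]⟩

end Main

end FormalFunctions

export FormalFunctions (idem_const no_nontrivial_idem)

end Fermat.Agent.S18
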