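import Mathlib
import Fermat.Agent.S18.GaussVal

/-!
# S18, package PG (8): the monogenic generator in an arbitrary chart of the `j`-line

`g ∈ L(j) ∩ contentRing W` is a coordinate of the `j`-line (for instance `g = j` or
`g = 1/j`): its reduction is transcendental over `κ` and every element of
`L(j) ∩ contentRing W` is a quotient `p(g)/Q(g)` with `p, Q ∈ W[X]`, `Q̄ ≠ 0`.  Then the Gauss
valuation ring of `F_L` is `W[g]_(𝔪)[θ]` for a `θ` integral over `W[g]` whose defining
polynomial has separable reduction (`exists_primitive_chart`).  The chart at infinity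
(`g = 1/j`) is instantiated at the end (`exists_monogenic_inf`, `isGaussInt_inf_iff`).
-/

set_option autoImplicit false

noncomputable section

namespace Fermat.Agent.S18.Gauss

open ModularCurve Polynomial Fermat.Agent.S28

section Chart

variable {L : Type*} [Field L] (W : ValuationSubring L)

/-- `f ↦ f(g)`, from `W[X]` to `L((q))`. -/
def evG (g : LaurentSeries L) : (↥W)[X] →+* LaurentSeries L :=
  Polynomial.eval₂RingHom (constL W) g

theorem evG_apply (g : LaurentSeries L) (P : (↥W)[X]) : evG W g P = P.eval₂ (constL W) g := rfl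

theorem evG_C (g : LaurentSeries L) (a : W) : evG W g (C a) = HahnSeries.C (a : L) := by
  rw [evG_apply, eval₂_C]; rfl

theorem evG_X (g : LaurentSeries L) : evG W g X = g := by
  rw [evG_apply, eval₂_X]

theorem evG_jq : evG W (jqModC L) = evL W := rfl

variable {g : LaurentSeries L}

theorem evG_mem_contentRing (hg : g ∈ contentRing W) (P : (↥W)[X]) :
    evG W g P ∈ contentRing W := eval₂_constL_mem W P hg

theorem evG_mem_adjoin (hgJ : g ∈ IntermediateField.adjoin L {jqModC L}) (P : (↥W)[X]) :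
    evG W g P ∈ IntermediateField.adjoin L {jqModC L} := by
  rw [evG_apply, Polynomial.eval₂_eq_sum_range]
  refine sum_mem fun i _ => mul_mem ?_ (pow_mem hgJ i)
  show HahnSeries.C ((P.coeff i : W) : L) ∈ _
  rw [← Fermat.Agent.S28.Content.algebraMap_eq_C_of_field]
  exact IntermediateField.algebraMap_mem _ _

/-- `f ↦ f(g)`, from `W[X]` to the content ring. -/
def gC (hg : g ∈ contentRing W) : (↥W)[X] →+* ↥(contentRing W) :=
  (evG W g).codRestrict (contentRing W) (evG_mem_contentRing W hg)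

theorem subtype_comp_gC (hg : g ∈ contentRing W) :
    (contentRing W).subtype.comp (gC W hg) = evG W g := rfl

/-- `f ↦ f̄(ḡ)`, from `W[X]` to `κ((q))`. -/
def gJ (hg : g ∈ contentRing W) : (↥W)[X] →+* LaurentSeries (IsLocalRing.ResidueField W) :=
  (red W).comp (gC W hg)

theorem gJ_apply (hg : g ∈ contentRing W) (P : (↥W)[X]) :
    gJ W hg P = (P.map (IsLocalRing.residue W)).eval₂
      (HahnSeries.C (Γ := ℤ) (R := IsLocalRing.ResidueField W)) (red W ⟨g, hg⟩) :=
  red_eval₂_constL W P hg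

theorem gJ_eq_zero (hg : g ∈ contentRing W)
    (htr : ∀ p : (IsLocalRing.ResidueField W)[X],
      p.eval₂ (HahnSeries.C (Γ := ℤ) (R := IsLocalRing.ResidueField W)) (red W ⟨g, hg⟩) = 0 →
        p = 0)
    {P : (↥W)[X]} (h : gJ W hg P = 0) : P.map (IsLocalRing.residue W) = 0 :=
  htr _ (by rw [← gJ_apply]; exact h)

/-- `f ↦ f̄(ḡ)`, from `W[X]` to `κ(j̄)`. -/
def gK (hg : g ∈ contentRing W) (hgJ : g ∈ IntermediateField.adjoin L {jqModC L}) :
    (↥W)[X] →+* ↥(kJ W) :=
  (gJ W hg).codRestrict (kJ W)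
    (fun p => red_mem_kJ W (evG_mem_adjoin W hgJ p) (evG_mem_contentRing W hg p))

theorem coe_gK (hg : g ∈ contentRing W) (hgJ : g ∈ IntermediateField.adjoin L {jqModC L})
    (P : (↥W)[X]) : ((gK W hg hgJ P : kJ W) : LaurentSeries _) = gJ W hg P := rfl

end Chart

section Main

variable {L : Type*} [Field L] [Algebra ℚ L] (W : ValuationSubring L) (N : ℕ) [NeZero N]
  (ℓ : ℕ) [Fact ℓ.Prime] [CharP (IsLocalRing.ResidueField W) ℓ]
  [IsAlgClosed (IsLocalRing.ResidueField W)]
  {g : LaurentSeries L} (hg : g ∈ contentRing W)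
  (hgJ : g ∈ IntermediateField.adjoin L {jqModC L})

/-- **Monogenic generator of the Gauss valuation ring, in the chart `g`.** -/
theorem exists_primitive_chart (hℓN : ¬ ℓ ∣ N)
    (htr : ∀ p : (IsLocalRing.ResidueField W)[X],
      p.eval₂ (HahnSeries.C (Γ := ℤ) (R := IsLocalRing.ResidueField W)) (red W ⟨g, hg⟩) = 0 →
        p = 0)
    (hden : ∀ {n : ℕ} (c : Fin n → LaurentSeries L),
      (∀ i, c i ∈ IntermediateField.adjoin L {jqModC L}) → (∀ i, c i ∈ contentRing W) →
      ∃ (Q : (↥W)[X]) (p : Fin n → (↥W)[X]), Q.map (IsLocalRing.residue W) ≠ 0 ∧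
        ∀ i, c i * evG W g Q = evG W g (p i)) :
    ∃ (θ : LaurentSeries L) (hθ : θ ∈ contentRing W) (P : Polynomial (Polynomial W)),
      θ ∈ laurentBaseChange L (modularFunctionFieldFull N) ∧
      P.Monic ∧ P.natDegree = dedekindPsi N ∧ P.eval₂ (evG W g) θ = 0 ∧
      (∀ x ∈ laurentBaseChange L (modularFunctionFieldFull N),
        ∃ c : Fin (dedekindPsi N) → LaurentSeries L,
          (∀ i, c i ∈ IntermediateField.adjoin L {jqModC L}) ∧ x = ∑ i, c i * θ ^ (i : ℕ)) ∧
      (∀ x ∈ laurentBaseChange L (modularFunctionFieldFull N), x ∈ contentRing W →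
        ∃ (S : (↥W)[X]) (n : Fin (dedekindPsi N) → (↥W)[X]),
          S.map (IsLocalRing.residue W) ≠ 0 ∧
          evG W g S * x = ∑ i, evG W g (n i) * θ ^ (i : ℕ)) ∧
      P.eval₂ (gJ W hg) (red W ⟨θ, hθ⟩) = 0 ∧
      (P.map (gK W hg hgJ)).Separable := by
  obtain ⟨α, hα, hsep, hli⟩ := exists_primitive_lift W N ℓ hℓN
  have hαW := goodRing_le_contentRing W N hα
  have hαF := goodRing_le_full W N hα
  -- the orthonormal family of powers
  have hb : ∀ i : Fin (dedekindPsi N), α ^ (i : ℕ) ∈ contentRing W := fun i => pow_mem hαW _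
  have hli' : LinearIndependent (kJ W)
      (fun i : Fin (dedekindPsi N) => red W ⟨α ^ (i : ℕ), hb i⟩) := by
    have hfun : (fun i : Fin (dedekindPsi N) => red W ⟨α ^ (i : ℕ), hb i⟩) =
        fun i : Fin (dedekindPsi N) => (red W ⟨α, hαW⟩) ^ (i : ℕ) := funext fun i => by
      rw [← map_pow]; rfl
    rw [hfun]; exact hli
  have hind := orthonormal_indep W (fun i : Fin (dedekindPsi N) => α ^ (i : ℕ)) hb hli'
  have hmem := orthonormal_mem W (fun i : Fin (dedekindPsi N) => α ^ (i : ℕ)) hb hli'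
  have hspan : ∀ {x : LaurentSeries L},
      x ∈ laurentBaseChange L (modularFunctionFieldFull N) →
      ∃ c : Fin (dedekindPsi N) → LaurentSeries L,
        (∀ i, c i ∈ IntermediateField.adjoin L {jqModC L}) ∧ x = ∑ i, c i * α ^ (i : ℕ) :=
    fun {x} hx => span_of_indep L N (fun i : Fin (dedekindPsi N) => α ^ (i : ℕ))
      (fun i => pow_mem hαF _) hind hx
  -- the relation
  obtain ⟨c, hc, hrel⟩ := hspan (pow_mem hαF (dedekindPsi N))
  have hcW : ∀ i, c i ∈ contentRing W :=
    hmem c hc (by rw [← hrel]; exact pow_mem hαW (dedekindPsi N))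
  obtain ⟨D, p, hD, hp⟩ := hden c hc hcW
  have hδ0 : evG W g D ≠ 0 := by
    intro h0
    apply hD
    apply gJ_eq_zero W hg htr
    have h1 : gC W hg D = 0 := Subtype.ext h0
    rw [gJ, RingHom.comp_apply, h1, map_zero]
  have hψpos : 0 < dedekindPsi N := by
    by_contra h0
    obtain ⟨c1, -, h1⟩ := hspan (one_mem _)
    rw [Finset.sum_eq_zero (fun i _ => absurd i.2 (by omega))] at h1
    exact one_ne_zero h1
  let n : Fin (dedekindPsi N) → (↥W)[X] := fun i => D ^ (dedekindPsi N - 1 - (i : ℕ)) * p i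
  have hn : ∀ i, evG W g (n i) =
      (evG W g D) ^ (dedekindPsi N - 1 - (i : ℕ)) * (c i * evG W g D) := fun i => by
    simp only [n]; rw [map_mul, map_pow, hp i]
  have hθrel : (evG W g D * α) ^ (dedekindPsi N) =
      ∑ i, evG W g (n i) * (evG W g D * α) ^ (i : ℕ) :=
    scale_relation (dedekindPsi N) α (evG W g D) c (fun i => evG W g (n i)) hrel hn
  have hdeg : (∑ i : Fin (dedekindPsi N), C (n i) * X ^ (i : ℕ) : ((↥W)[X])[X]).degree <
      dedekindPsi N := degree_sum_fin_lt n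
  have hmonic : (X ^ (dedekindPsi N) - ∑ i : Fin (dedekindPsi N), C (n i) * X ^ (i : ℕ) :
      ((↥W)[X])[X]).Monic := monic_X_pow_sub hdeg
  have hnat : (X ^ (dedekindPsi N) - ∑ i : Fin (dedekindPsi N), C (n i) * X ^ (i : ℕ) :
      ((↥W)[X])[X]).natDegree = dedekindPsi N := by
    apply natDegree_eq_of_degree_eq_some
    rw [degree_sub_eq_left_of_degree_lt (by rw [degree_X_pow]; exact hdeg), degree_X_pow]
  have hroot : (X ^ (dedekindPsi N) - ∑ i : Fin (dedekindPsi N), C (n i) * X ^ (i : ℕ) :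
      ((↥W)[X])[X]).eval₂ (evG W g) (evG W g D * α) = 0 := by
    simp only [eval₂_sub, eval₂_X_pow, eval₂_finsetSum, eval₂_mul, eval₂_C]
    rw [hθrel, sub_self]
  have hθW : evG W g D * α ∈ contentRing W := mul_mem (evG_mem_contentRing W hg D) hαW
  have hθF : evG W g D * α ∈ laurentBaseChange L (modularFunctionFieldFull N) :=
    mul_mem (mem_FF_of_mem_adjoin_jq L N (evG_mem_adjoin W hgJ D)) hαF
  have hrootC : (X ^ (dedekindPsi N) - ∑ i : Fin (dedekindPsi N), C (n i) * X ^ (i : ℕ) :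
      ((↥W)[X])[X]).eval₂ (gC W hg) ⟨evG W g D * α, hθW⟩ = 0 := by
    apply Subtype.ext
    have h1 := Polynomial.hom_eval₂ (X ^ (dedekindPsi N) -
      ∑ i : Fin (dedekindPsi N), C (n i) * X ^ (i : ℕ) : ((↥W)[X])[X]) (gC W hg)
      (contentRing W).subtype ⟨evG W g D * α, hθW⟩
    rw [subtype_comp_gC W hg] at h1
    exact h1.trans hroot
  have hrootK : (X ^ (dedekindPsi N) - ∑ i : Fin (dedekindPsi N), C (n i) * X ^ (i : ℕ) :
      ((↥W)[X])[X]).eval₂ (gJ W hg) (red W ⟨evG W g D * α, hθW⟩) = 0 := by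
    have h1 := Polynomial.hom_eval₂ (X ^ (dedekindPsi N) -
      ∑ i : Fin (dedekindPsi N), C (n i) * X ^ (i : ℕ) : ((↥W)[X])[X]) (gC W hg)
      (red W) ⟨evG W g D * α, hθW⟩
    rw [hrootC, map_zero] at h1
    exact h1.symm
  -- separability of the reduction
  have hredθ : red W ⟨evG W g D * α, hθW⟩ = gJ W hg D * red W ⟨α, hαW⟩ := by
    have h1 : (⟨evG W g D * α, hθW⟩ : contentRing W) = gC W hg D * ⟨α, hαW⟩ := Subtype.ext rfl
    rw [h1, map_mul]; rfl
  have hδK : gK W hg hgJ D ≠ 0 := fun h0 =>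
    hD (gJ_eq_zero W hg htr (congrArg Subtype.val h0))
  have hliθ : LinearIndependent (kJ W)
      (fun i : Fin (dedekindPsi N) => (red W ⟨evG W g D * α, hθW⟩) ^ (i : ℕ)) := by
    have h1 := hli.units_smul
      (fun i : Fin (dedekindPsi N) =>
        Units.mk0 ((gK W hg hgJ D) ^ (i : ℕ)) (pow_ne_zero _ hδK))
    convert h1 using 1
    funext i
    rw [hredθ, mul_pow]
    rfl
  have hcomp : (algebraMap (kJ W) (LaurentSeries (IsLocalRing.ResidueField W))).comp
      (gK W hg hgJ) = gJ W hg := RingHom.ext fun _ => rfl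
  have haeval : Polynomial.aeval (red W ⟨evG W g D * α, hθW⟩)
      ((X ^ (dedekindPsi N) - ∑ i : Fin (dedekindPsi N), C (n i) * X ^ (i : ℕ) :
        ((↥W)[X])[X]).map (gK W hg hgJ)) = 0 := by
    rw [Polynomial.aeval_def, Polynomial.eval₂_map, hcomp]; exact hrootK
  have hmonicK := hmonic.map (gK W hg hgJ)
  have hint : IsIntegral (kJ W) (red W ⟨evG W g D * α, hθW⟩) :=
    ⟨_, hmonicK, by rw [← Polynomial.aeval_def]; exact haeval⟩
  have hle := le_natDegree_minpoly_of_linearIndependent_pow _ hint (dedekindPsi N) hliθ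
  have hdvd := minpoly.dvd (kJ W) _ haeval
  have heq := Polynomial.eq_of_monic_of_dvd_of_natDegree_le (minpoly.monic hint) hmonicK hdvd
    (by rw [hmonic.natDegree_map, hnat]; exact hle)
  have hsepθ : IsSeparable (kJ W) (red W ⟨evG W g D * α, hθW⟩) := by
    rw [hredθ]
    exact Field.isSeparable_mul (isSeparable_algebraMap (gK W hg hgJ D)) hsep
  refine ⟨evG W g D * α, hθW, _, hθF, hmonic, hnat, hroot, ?_, ?_, hrootK, ?_⟩
  · intro x hx
    obtain ⟨c', hc', hx'⟩ := hspan hx
    refine ⟨fun i => c' i * ((evG W g D) ^ (i : ℕ))⁻¹,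
      fun i => mul_mem (hc' i) (inv_mem (pow_mem (evG_mem_adjoin W hgJ D) _)), ?_⟩
    exact scale_span (dedekindPsi N) α (evG W g D) x hδ0 c' hx'
  · intro x hx hxW
    obtain ⟨c', hc', hx'⟩ := hspan hx
    have hc'W : ∀ i, c' i ∈ contentRing W := hmem c' hc' (by rw [← hx']; exact hxW)
    obtain ⟨Q', p', hQ', hp'⟩ := hden c' hc' hc'W
    refine ⟨D ^ (dedekindPsi N - 1) * Q',
      fun i => D ^ (dedekindPsi N - 1 - (i : ℕ)) * p' i, ?_, ?_⟩
    · rw [Polynomial.map_mul, Polynomial.map_pow]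
      exact mul_ne_zero (pow_ne_zero _ hD) hQ'
    · rw [map_mul, map_pow]
      exact scale_int (dedekindPsi N) α (evG W g D) (evG W g Q') x c' (fun i => evG W g (p' i))
        (fun i => evG W g (D ^ (dedekindPsi N - 1 - (i : ℕ)) * p' i)) hx' hp'
        (fun i => by rw [map_mul, map_pow])
  · rw [heq]
    exact hsepθ

omit [IsAlgClosed (IsLocalRing.ResidueField ↥W)] in
/-- The derivative of the defining polynomial at the generator is a unit of the Gauss
valuation ring. -/
theorem exists_inv_derivative_chart {θ : LaurentSeries L} (hθ : θ ∈ contentRing W)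
    (hθF : θ ∈ laurentBaseChange L (modularFunctionFieldFull N))
    (P : Polynomial (Polynomial W)) (hroot : P.eval₂ (gJ W hg) (red W ⟨θ, hθ⟩) = 0)
    (hsep : (P.map (gK W hg hgJ)).Separable) :
    ∃ y ∈ laurentBaseChange L (modularFunctionFieldFull N), y ∈ contentRing W ∧
      (derivative P).eval₂ (evG W g) θ * y = 1 := by
  have hcomp : (algebraMap (kJ W) (LaurentSeries (IsLocalRing.ResidueField W))).comp
      (gK W hg hgJ) = gJ W hg := RingHom.ext fun _ => rfl
  have hdF : (derivative P).eval₂ (evG W g) θ ∈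
      laurentBaseChange L (modularFunctionFieldFull N) := by
    rw [Polynomial.eval₂_eq_sum_range]
    exact sum_mem fun i _ =>
      mul_mem (mem_FF_of_mem_adjoin_jq L N (evG_mem_adjoin W hgJ _)) (pow_mem hθF i)
  have hdC : (((derivative P).eval₂ (gC W hg) (⟨θ, hθ⟩ : contentRing W) : contentRing W) :
      LaurentSeries L) = (derivative P).eval₂ (evG W g) θ := by
    have h1 := Polynomial.hom_eval₂ (derivative P) (gC W hg) (contentRing W).subtype ⟨θ, hθ⟩
    rw [subtype_comp_gC W hg] at h1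
    exact h1
  have hdW : (derivative P).eval₂ (evG W g) θ ∈ contentRing W := by
    rw [← hdC]; exact Subtype.property _
  have hred : red W ⟨(derivative P).eval₂ (evG W g) θ, hdW⟩ ≠ 0 := by
    have h1 : (⟨(derivative P).eval₂ (evG W g) θ, hdW⟩ : contentRing W) =
        (derivative P).eval₂ (gC W hg) ⟨θ, hθ⟩ := Subtype.ext hdC.symm
    rw [h1, Polynomial.hom_eval₂]
    have h2 := hsep.eval₂_derivative_ne_zero
      (algebraMap (kJ W) (LaurentSeries (IsLocalRing.ResidueField W)))
      (x := red W ⟨θ, hθ⟩) (by rw [Polynomial.eval₂_map, hcomp]; exact hroot)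
    rw [Polynomial.derivative_map, Polynomial.eval₂_map, hcomp] at h2
    exact h2
  have hd0 : (derivative P).eval₂ (evG W g) θ ≠ 0 := by
    intro h0
    apply hred
    have h1 : (⟨(derivative P).eval₂ (evG W g) θ, hdW⟩ : contentRing W) = 0 := Subtype.ext h0
    rw [h1, map_zero]
  exact ⟨_, inv_mem hdF, inv_mem_contentRing W hdW hred, mul_inv_cancel₀ hd0⟩

/-- `f ↦ f(g)`, from `W[X]` to the function field `FF L N`. -/
def evGF : (↥W)[X] →+* Fermat.Agent.S24.FF L N :=
  (evG W g).codRestrict (laurentBaseChange L (modularFunctionFieldFull N))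
    (fun P => mem_FF_of_mem_adjoin_jq L N (evG_mem_adjoin W hgJ P))

omit [IsAlgClosed (IsLocalRing.ResidueField ↥W)] in
theorem coe_evGF (P : (↥W)[X]) :
    ((evGF W N hgJ P : Fermat.Agent.S24.FF L N) : LaurentSeries L) = evG W g P := rfl

omit [IsAlgClosed (IsLocalRing.ResidueField ↥W)] in
theorem algebraMap_comp_evGF :
    (algebraMap (Fermat.Agent.S24.FF L N) (LaurentSeries L)).comp (evGF W N hgJ) = evG W g :=
  rfl

omit [IsAlgClosed (IsLocalRing.ResidueField ↥W)] in
theorem evGF_C (a : W) :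
    evGF W N hgJ (C a) = algebraMap L (Fermat.Agent.S24.FF L N) (a : L) :=
  Subtype.ext (by
    rw [coe_evGF, evG_C, ← Fermat.Agent.S28.Content.algebraMap_eq_C_of_field]
    rfl)

omit [IsAlgClosed (IsLocalRing.ResidueField ↥W)] in
theorem coe_evGF_X : ((evGF W N hgJ X : Fermat.Agent.S24.FF L N) : LaurentSeries L) = g := by
  rw [coe_evGF, evG_X]

omit [IsAlgClosed (IsLocalRing.ResidueField ↥W)] in
/-- Evaluation in `FF L N` and in `L((q))` agree. -/
theorem coe_eval₂_evGF (P : Polynomial (Polynomial W)) (x : Fermat.Agent.S24.FF L N) :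
    ((P.eval₂ (evGF W N hgJ) x : Fermat.Agent.S24.FF L N) : LaurentSeries L) =
      P.eval₂ (evG W g) (x : LaurentSeries L) := by
  have h := Polynomial.hom_eval₂ P (evGF W N hgJ)
    (algebraMap (Fermat.Agent.S24.FF L N) (LaurentSeries L)) x
  rw [algebraMap_comp_evGF] at h
  exact h

/-- **Monogenic generator in the chart `g`, function-field form.** -/
theorem exists_monogenic_chart (hℓN : ¬ ℓ ∣ N)
    (htr : ∀ p : (IsLocalRing.ResidueField W)[X],
      p.eval₂ (HahnSeries.C (Γ := ℤ) (R := IsLocalRing.ResidueField W)) (red W ⟨g, hg⟩) = 0 →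
        p = 0)
    (hden : ∀ {n : ℕ} (c : Fin n → LaurentSeries L),
      (∀ i, c i ∈ IntermediateField.adjoin L {jqModC L}) → (∀ i, c i ∈ contentRing W) →
      ∃ (Q : (↥W)[X]) (p : Fin n → (↥W)[X]), Q.map (IsLocalRing.residue W) ≠ 0 ∧
        ∀ i, c i * evG W g Q = evG W g (p i)) :
    ∃ (θ : Fermat.Agent.S24.FF L N) (P : Polynomial (Polynomial W))
      (y : Fermat.Agent.S24.FF L N),
      (θ : LaurentSeries L) ∈ contentRing W ∧ (y : LaurentSeries L) ∈ contentRing W ∧
      P.Monic ∧ P.natDegree = dedekindPsi N ∧ P.eval₂ (evGF W N hgJ) θ = 0 ∧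
      (derivative P).eval₂ (evGF W N hgJ) θ * y = 1 ∧
      (∀ x : Fermat.Agent.S24.FF L N, ∃ c : Fin (dedekindPsi N) → Fermat.Agent.S24.FF L N,
        (∀ i, (c i : LaurentSeries L) ∈ IntermediateField.adjoin L {jqModC L}) ∧
        x = ∑ i, c i * θ ^ (i : ℕ)) ∧
      (∀ x : Fermat.Agent.S24.FF L N, (x : LaurentSeries L) ∈ contentRing W →
        ∃ (S : (↥W)[X]) (n : Fin (dedekindPsi N) → (↥W)[X]),
          S.map (IsLocalRing.residue W) ≠ 0 ∧
          evGF W N hgJ S * x = ∑ i, evGF W N hgJ (n i) * θ ^ (i : ℕ)) ∧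
      (P.map (gK W hg hgJ)).Separable := by
  obtain ⟨θ, hθ, P, hθF, hmonic, hnat, hroot, hspan, hint, hrootK, hsep⟩ :=
    exists_primitive_chart W N ℓ hg hgJ hℓN htr hden
  obtain ⟨y, hyF, hyW, hy⟩ := exists_inv_derivative_chart W N hg hgJ hθ hθF P hrootK hsep
  refine ⟨⟨θ, hθF⟩, P, ⟨y, hyF⟩, hθ, hyW, hmonic, hnat, ?_, ?_, ?_, ?_, hsep⟩
  · exact Subtype.ext (by rw [coe_eval₂_evGF]; exact hroot)
  · apply Subtype.ext
    show (((derivative P).eval₂ (evGF W N hgJ) (⟨θ, hθF⟩ : Fermat.Agent.S24.FF L N) :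
      Fermat.Agent.S24.FF L N) : LaurentSeries L) * y = 1
    rw [coe_eval₂_evGF]
    exact hy
  · intro x
    obtain ⟨c, hc, hx⟩ := hspan x x.2
    refine ⟨fun i => ⟨c i, mem_FF_of_mem_adjoin_jq L N (hc i)⟩, hc, ?_⟩
    apply (algebraMap (Fermat.Agent.S24.FF L N) (LaurentSeries L)).injective
    rw [map_sum]
    simp only [map_mul, map_pow]
    exact hx
  · intro x hxW
    obtain ⟨S, n, hS, h⟩ := hint x x.2 hxW
    refine ⟨S, n, hS, ?_⟩
    apply (algebraMap (Fermat.Agent.S24.FF L N) (LaurentSeries L)).injective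
    rw [map_mul, map_sum]
    simp only [map_mul, map_pow]
    exact h

/-- **Integral `q`-expansion ⇒ Gauss-integral over `W[g]`.** -/
theorem isGaussInt_chart_of_mem (hℓN : ¬ ℓ ∣ N)
    (htr : ∀ p : (IsLocalRing.ResidueField W)[X],
      p.eval₂ (HahnSeries.C (Γ := ℤ) (R := IsLocalRing.ResidueField W)) (red W ⟨g, hg⟩) = 0 →
        p = 0)
    (hden : ∀ {n : ℕ} (c : Fin n → LaurentSeries L),
      (∀ i, c i ∈ IntermediateField.adjoin L {jqModC L}) → (∀ i, c i ∈ contentRing W) →
      ∃ (Q : (↥W)[X]) (p : Fin n → (↥W)[X]), Q.map (IsLocalRing.residue W) ≠ 0 ∧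
        ∀ i, c i * evG W g Q = evG W g (p i))
    (x : Fermat.Agent.S24.FF L N) (hx : (x : LaurentSeries L) ∈ contentRing W) :
    ∃ S : (↥W)[X], S.map (IsLocalRing.residue W) ≠ 0 ∧
      (evGF W N hgJ).IsIntegralElem (evGF W N hgJ S * x) := by
  obtain ⟨θ, P, -, -, -, hmonic, -, hroot, -, -, hint, -⟩ :=
    exists_monogenic_chart W N ℓ hg hgJ hℓN htr hden
  obtain ⟨S, n, hS, h⟩ := hint x hx
  refine ⟨S, hS, ?_⟩
  rw [h]
  exact isIntegralElem_sum_mul_pow _ _ ⟨P, hmonic, hroot⟩ n

omit [IsAlgClosed (IsLocalRing.ResidueField ↥W)] in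
/-- **Gauss-integral over `W[g]` ⇒ integral `q`-expansion.** -/
theorem mem_of_isGaussInt_chart (hℓN : ¬ ℓ ∣ N)
    (htr : ∀ p : (IsLocalRing.ResidueField W)[X],
      p.eval₂ (HahnSeries.C (Γ := ℤ) (R := IsLocalRing.ResidueField W)) (red W ⟨g, hg⟩) = 0 →
        p = 0)
    (x : Fermat.Agent.S24.FF L N) (S : (↥W)[X])
    (hS : S.map (IsLocalRing.residue W) ≠ 0)
    (h : (evGF W N hgJ).IsIntegralElem (evGF W N hgJ S * x)) :
    (x : LaurentSeries L) ∈ contentRing W := by
  obtain ⟨Q, hQ, hroot⟩ := h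
  have hy : ((evGF W N hgJ S * x : Fermat.Agent.S24.FF L N) : LaurentSeries L) ∈
      contentRing W := by
    refine mem_contentRing_of_monic_root' W
      (fun hnot => inv_mem_of_notMem_full W N ℓ hℓN (Subtype.property _) hnot)
      (Q.map (gC W hg)) (hQ.map _) ?_
    rw [Polynomial.eval₂_map, subtype_comp_gC W hg, ← coe_eval₂_evGF W N hgJ, hroot]
    rfl
  have hSred : red W ⟨evG W g S, evG_mem_contentRing W hg S⟩ ≠ 0 :=
    fun h0 => hS (gJ_eq_zero W hg htr h0)
  have hS0 : evG W g S ≠ 0 := by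
    intro h0
    apply hSred
    have h1 : (⟨evG W g S, evG_mem_contentRing W hg S⟩ : contentRing W) = 0 := Subtype.ext h0
    rw [h1, map_zero]
  have hinv := inv_mem_contentRing W (evG_mem_contentRing W hg S) hSred
  have heq : (x : LaurentSeries L) =
      ((evGF W N hgJ S * x : Fermat.Agent.S24.FF L N) : LaurentSeries L) *
        (evG W g S)⁻¹ := by
    show (x : LaurentSeries L) = evG W g S * (x : LaurentSeries L) * (evG W g S)⁻¹
    field_simp
  rw [heq]
  exact mul_mem hy hinv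

omit [Algebra ℚ L] [IsAlgClosed (IsLocalRing.ResidueField ↥W)] in
/-- Separability of the reduction in the chart `g`, over any fraction field of `κ[X]`. -/
theorem separable_fractionRing_of_gK
    (htr : ∀ p : (IsLocalRing.ResidueField W)[X],
      p.eval₂ (HahnSeries.C (Γ := ℤ) (R := IsLocalRing.ResidueField W)) (red W ⟨g, hg⟩) = 0 →
        p = 0)
    (P : Polynomial (Polynomial W)) (hsep : (P.map (gK W hg hgJ)).Separable)
    (κ₀ : Type*) [Field κ₀] [Algebra (IsLocalRing.ResidueField W)[X] κ₀]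
    [IsFractionRing (IsLocalRing.ResidueField W)[X] κ₀] :
    ((P.map (Polynomial.mapRingHom (IsLocalRing.residue W))).map
      (algebraMap (IsLocalRing.ResidueField W)[X] κ₀)).Separable := by
  let ev : (IsLocalRing.ResidueField W)[X] →+* ↥(kJ W) :=
    (Polynomial.eval₂RingHom (HahnSeries.C (Γ := ℤ) (R := IsLocalRing.ResidueField W))
      (red W ⟨g, hg⟩)).codRestrict (kJ W) (fun p => by
        rw [coe_eval₂RingHom, Polynomial.eval₂_eq_sum_range]
        refine sum_mem fun i _ => mul_mem ?_ (pow_mem (red_mem_kJ W hgJ hg) i)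
        rw [← Fermat.Agent.S28.Content.algebraMap_eq_C_of_field]
        exact IntermediateField.algebraMap_mem _ _)
  have hev : Function.Injective ev := by
    rw [injective_iff_map_eq_zero]
    intro p hp
    exact htr p (congrArg Subtype.val hp)
  let φ : κ₀ →+* ↥(kJ W) := IsFractionRing.lift hev
  have hφ : ∀ p, φ (algebraMap (IsLocalRing.ResidueField W)[X] κ₀ p) = ev p :=
    fun p => IsFractionRing.lift_algebraMap hev p
  have hcomp : (φ.comp (algebraMap (IsLocalRing.ResidueField W)[X] κ₀)).comp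
      (Polynomial.mapRingHom (IsLocalRing.residue W)) = gK W hg hgJ := by
    refine RingHom.ext fun p => Subtype.ext ?_
    rw [RingHom.comp_apply, RingHom.comp_apply, hφ, coe_gK, gJ_apply]
    rfl
  have h1 : ((P.map (Polynomial.mapRingHom (IsLocalRing.residue W))).map
      (algebraMap (IsLocalRing.ResidueField W)[X] κ₀)).map φ = P.map (gK W hg hgJ) := by
    rw [Polynomial.map_map, Polynomial.map_map, hcomp]
  rw [← h1] at hsep
  exact (separable_map φ).mp hsep

end Main

/-! ### The chart at infinity, `g = 1/j` -/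

section Inf

variable {L : Type*} [Field L] (W : ValuationSubring L)

theorem jInv_mem_contentRing : (jqModC L)⁻¹ ∈ contentRing W :=
  inv_mem_contentRing W (jq_mem_contentRing W)
    (by rw [red_jq]; exact jqModC_ne_zero_of_nontrivial _)

theorem red_jInv : red W ⟨(jqModC L)⁻¹, jInv_mem_contentRing W⟩ =
    (jqModC (IsLocalRing.ResidueField W))⁻¹ := by
  rw [red_inv W (jq_mem_contentRing W), red_jq]

theorem jInv_mem_adjoin : (jqModC L)⁻¹ ∈ IntermediateField.adjoin L {jqModC L} :=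
  inv_mem (IntermediateField.subset_adjoin L _ (Set.mem_singleton _))

/-- `1/j̄` is transcendental over any field. -/
theorem eval₂_jInv_eq_zero {K : Type*} [Field K] {p : K[X]}
    (hp : p.eval₂ (HahnSeries.C (Γ := ℤ) (R := K)) (jqModC K)⁻¹ = 0) : p = 0 := by
  have hj : jqModC K ≠ 0 := jqModC_ne_zero_of_nontrivial K
  have hji : (jqModC K)⁻¹ ≠ 0 := inv_ne_zero hj
  let _ : Invertible (jqModC K)⁻¹ := invertibleOfNonzero hji
  have h1 := Polynomial.eval₂_reflect_mul_pow (HahnSeries.C (Γ := ℤ) (R := K)) (jqModC K)⁻¹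
    p.natDegree p le_rfl
  rw [hp, invOf_eq_inv, inv_inv] at h1
  have h2 : (reflect p.natDegree p).eval₂ (HahnSeries.C (Γ := ℤ) (R := K)) (jqModC K) = 0 := by
    rcases mul_eq_zero.mp h1 with h | h
    · exact h
    · exact absurd h (pow_ne_zero _ hji)
  exact Polynomial.reflect_eq_zero_iff.mp (Fermat.Agent.S28.Content.eval₂_jqModC_eq_zero h2)

theorem htr_inf (p : (IsLocalRing.ResidueField W)[X])
    (hp : p.eval₂ (HahnSeries.C (Γ := ℤ) (R := IsLocalRing.ResidueField W))
      (red W ⟨(jqModC L)⁻¹, jInv_mem_contentRing W⟩) = 0) : p = 0 := by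
  rw [red_jInv] at hp
  exact eval₂_jInv_eq_zero hp

/-- Evaluation at `1/j` of a reflected polynomial. -/
theorem evG_jInv_reflect (M : ℕ) (p : (↥W)[X]) (hp : p.natDegree ≤ M) :
    evG W (jqModC L)⁻¹ (reflect M p) = evL W p * ((jqModC L)⁻¹) ^ M := by
  have hj : jqModC L ≠ 0 := jqModC_ne_zero_of_nontrivial L
  let _ : Invertible (jqModC L) := invertibleOfNonzero hj
  have h1 := Polynomial.eval₂_reflect_mul_pow (constL W) (jqModC L) M p hp
  rw [invOf_eq_inv] at h1
  have h2 : evL W p = p.eval₂ (constL W) (jqModC L) := rfl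
  rw [evG_apply, h2, ← h1, inv_pow, mul_assoc, mul_inv_cancel₀ (pow_ne_zero M hj), mul_one]

/-- Common denominators in the chart at infinity. -/
theorem exists_common_denominator_inf {n : ℕ} (c : Fin n → LaurentSeries L)
    (hc : ∀ i, c i ∈ IntermediateField.adjoin L {jqModC L}) (hcW : ∀ i, c i ∈ contentRing W) :
    ∃ (Q : (↥W)[X]) (p : Fin n → (↥W)[X]), Q.map (IsLocalRing.residue W) ≠ 0 ∧
      ∀ i, c i * evG W (jqModC L)⁻¹ Q = evG W (jqModC L)⁻¹ (p i) := by
  obtain ⟨Q, p, hQ, h⟩ := exists_common_denominator W c hc hcW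
  have hQM : Q.natDegree ≤ max Q.natDegree (Finset.univ.sup fun i => (p i).natDegree) :=
    le_max_left _ _
  have hpM : ∀ i, (p i).natDegree ≤
      max Q.natDegree (Finset.univ.sup fun i => (p i).natDegree) := fun i =>
    le_trans (Finset.le_sup (f := fun i => (p i).natDegree) (Finset.mem_univ i))
      (le_max_right _ _)
  refine ⟨reflect (max Q.natDegree (Finset.univ.sup fun i => (p i).natDegree)) Q,
    fun i => reflect (max Q.natDegree (Finset.univ.sup fun i => (p i).natDegree)) (p i),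
    ?_, fun i => ?_⟩
  · rw [← Polynomial.reflect_map, Ne, Polynomial.reflect_eq_zero_iff]
    exact hQ
  · rw [evG_jInv_reflect W _ Q hQM, evG_jInv_reflect W _ (p i) (hpM i), ← mul_assoc, h i]

end Inf

section InfMain

variable {L : Type*} [Field L] [Algebra ℚ L] (W : ValuationSubring L) (N : ℕ) [NeZero N]

/-- `f ↦ f(1/j)`, from `W[X]` to the function field `FF L N`. -/
def evFinf : (↥W)[X] →+* Fermat.Agent.S24.FF L N := evGF W N (jInv_mem_adjoin (L := L))

theorem evFinf_X : evFinf W N X = (Fermat.Agent.S24.jBC L N)⁻¹ :=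
  Subtype.ext (by
    rw [evFinf, coe_evGF_X]
    show (jqModC L)⁻¹ = ((Fermat.Agent.S24.jBC L N : Fermat.Agent.S24.FF L N) : LaurentSeries L)⁻¹
    rw [coe_jBC_eq])

theorem evFinf_C (a : W) :
    evFinf W N (C a) = algebraMap L (Fermat.Agent.S24.FF L N) (a : L) :=
  evGF_C W N _ a

/-- `f ↦ f̄(1/j̄)`, from `W[X]` to `κ(j̄)`. -/
def redKinf : (↥W)[X] →+* ↥(kJ W) := gK W (jInv_mem_contentRing W) jInv_mem_adjoin

omit [Algebra ℚ L] in
theorem coe_redKinf (P : (↥W)[X]) : ((redKinf W P : kJ W) : LaurentSeries _) =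
    (P.map (IsLocalRing.residue W)).eval₂
      (HahnSeries.C (Γ := ℤ) (R := IsLocalRing.ResidueField W))
      (jqModC (IsLocalRing.ResidueField W))⁻¹ := by
  rw [redKinf, coe_gK, gJ_apply, red_jInv]

variable (ℓ : ℕ) [Fact ℓ.Prime] [CharP (IsLocalRing.ResidueField W) ℓ]

/-- **Monogenic generator in the chart at infinity.**  `θ ∈ FF L N` is integral over `W[1/j]`
via the monic `P ∈ W[X][T]` of degree `ψ(N)` (`P(1/j, θ) = 0`); `P'(1/j, θ)` is invertible with
inverse `y` in the Gauss valuation ring; `FF L N = L(j)[θ]`; every element with integral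
`q`-expansion is in `W[1/j]_(𝔪)[θ]`; the reduction of `P` is separable over `κ(j̄)`. -/
theorem exists_monogenic_inf [IsAlgClosed (IsLocalRing.ResidueField W)] (hℓN : ¬ ℓ ∣ N) :
    ∃ (θ : Fermat.Agent.S24.FF L N) (P : Polynomial (Polynomial W))
      (y : Fermat.Agent.S24.FF L N),
      (θ : LaurentSeries L) ∈ contentRing W ∧ (y : LaurentSeries L) ∈ contentRing W ∧
      P.Monic ∧ P.natDegree = dedekindPsi N ∧ P.eval₂ (evFinf W N) θ = 0 ∧
      (derivative P).eval₂ (evFinf W N) θ * y = 1 ∧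
      (∀ x : Fermat.Agent.S24.FF L N, ∃ c : Fin (dedekindPsi N) → Fermat.Agent.S24.FF L N,
        (∀ i, (c i : LaurentSeries L) ∈ IntermediateField.adjoin L {jqModC L}) ∧
        x = ∑ i, c i * θ ^ (i : ℕ)) ∧
      (∀ x : Fermat.Agent.S24.FF L N, (x : LaurentSeries L) ∈ contentRing W →
        ∃ (S : (↥W)[X]) (n : Fin (dedekindPsi N) → (↥W)[X]),
          S.map (IsLocalRing.residue W) ≠ 0 ∧
          evFinf W N S * x = ∑ i, evFinf W N (n i) * θ ^ (i : ℕ)) ∧
      (P.map (redKinf W)).Separable :=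
  exists_monogenic_chart W N ℓ (jInv_mem_contentRing W) jInv_mem_adjoin hℓN (htr_inf W)
    (exists_common_denominator_inf W)

/-- **Gauss-integral over `W[1/j]` ⇔ integral `q`-expansion.** -/
theorem isGaussInt_inf_iff [IsAlgClosed (IsLocalRing.ResidueField W)] (hℓN : ¬ ℓ ∣ N)
    (x : Fermat.Agent.S24.FF L N) :
    (∃ S : (↥W)[X], S.map (IsLocalRing.residue W) ≠ 0 ∧
      (evFinf W N).IsIntegralElem (evFinf W N S * x)) ↔ (x : LaurentSeries L) ∈ contentRing W :=
  ⟨fun ⟨S, hS, h⟩ => mem_of_isGaussInt_chart W N ℓ (jInv_mem_contentRing W) jInv_mem_adjoin hℓN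
      (htr_inf W) x S hS h,
    isGaussInt_chart_of_mem W N ℓ (jInv_mem_contentRing W) jInv_mem_adjoin hℓN (htr_inf W)
      (exists_common_denominator_inf W) x⟩

omit [Algebra ℚ L] in
/-- Separability of the reduction in the chart at infinity, over any fraction field of `κ[X]`
(with `X ↦ 1/j̄`). -/
theorem separable_fractionRing_of_redKinf (P : Polynomial (Polynomial W))
    (hsep : (P.map (redKinf W)).Separable)
    (κ₀ : Type*) [Field κ₀] [Algebra (IsLocalRing.ResidueField W)[X] κ₀]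
    [IsFractionRing (IsLocalRing.ResidueField W)[X] κ₀] :
    ((P.map (Polynomial.mapRingHom (IsLocalRing.residue W))).map
      (algebraMap (IsLocalRing.ResidueField W)[X] κ₀)).Separable :=
  separable_fractionRing_of_gK W (jInv_mem_contentRing W) jInv_mem_adjoin (htr_inf W) P hsep κ₀

end InfMain

end Fermat.Agent.S18.Gauss
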