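import Fermat.Agent.S18.TSD
import Fermat.Agent.S18.EtaleGauss

set_option autoImplicit false

/-!
# S18, package A': closure properties of `IsGaussInt` and the integral-closure lemma

`IsGaussInt R π z` means `∃ s, ¬ π ∣ s ∧ IsIntegral R (s • z)`.  For a prime element `π` this
predicate is closed under the ring operations, and for an integrally closed domain `R` an element
that is Gauss-integral and integral after multiplication by a power of `π` is integral.
-/

namespace Fermat.Agent.S18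

section Closure

variable {R Y : Type*} [CommRing R] [CommRing Y] [Algebra R Y] {π : R}

theorem IsGaussInt.of_isIntegral (hπ : Prime π) {z : Y} (hz : IsIntegral R z) :
    IsGaussInt R π z :=
  ⟨1, fun h => hπ.not_isUnit (isUnit_of_dvd_one h), by rwa [one_smul]⟩

theorem IsGaussInt.algebraMap (hπ : Prime π) (r : R) : IsGaussInt R π (algebraMap R Y r) :=
  IsGaussInt.of_isIntegral hπ isIntegral_algebraMap

theorem IsGaussInt.zero (hπ : Prime π) : IsGaussInt R π (0 : Y) :=
  IsGaussInt.of_isIntegral hπ isIntegral_zero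

theorem IsGaussInt.one (hπ : Prime π) : IsGaussInt R π (1 : Y) :=
  IsGaussInt.of_isIntegral hπ isIntegral_one

theorem IsGaussInt.add (hπ : Prime π) {z₁ z₂ : Y} (h₁ : IsGaussInt R π z₁)
    (h₂ : IsGaussInt R π z₂) : IsGaussInt R π (z₁ + z₂) := by
  obtain ⟨s₁, hs₁, hi₁⟩ := h₁
  obtain ⟨s₂, hs₂, hi₂⟩ := h₂
  refine ⟨s₁ * s₂, fun h => (hπ.dvd_or_dvd h).elim hs₁ hs₂, ?_⟩
  have e : (s₁ * s₂) • (z₁ + z₂) = s₂ • (s₁ • z₁) + s₁ • (s₂ • z₂) := by
    rw [smul_add, mul_smul, mul_smul, smul_comm s₁ s₂ z₁]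
  rw [e]
  exact (hi₁.smul s₂).add (hi₂.smul s₁)

theorem IsGaussInt.mul (hπ : Prime π) {z₁ z₂ : Y} (h₁ : IsGaussInt R π z₁)
    (h₂ : IsGaussInt R π z₂) : IsGaussInt R π (z₁ * z₂) := by
  obtain ⟨s₁, hs₁, hi₁⟩ := h₁
  obtain ⟨s₂, hs₂, hi₂⟩ := h₂
  refine ⟨s₁ * s₂, fun h => (hπ.dvd_or_dvd h).elim hs₁ hs₂, ?_⟩
  have e : (s₁ * s₂) • (z₁ * z₂) = (s₁ • z₁) * (s₂ • z₂) := by
    rw [smul_mul_smul_comm]
  rw [e]
  exact hi₁.mul hi₂

theorem IsGaussInt.neg {z : Y} (h : IsGaussInt R π z) : IsGaussInt R π (-z) := by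
  obtain ⟨s, hs, hi⟩ := h
  exact ⟨s, hs, by rw [smul_neg]; exact hi.neg⟩

theorem IsGaussInt.sub (hπ : Prime π) {z₁ z₂ : Y} (h₁ : IsGaussInt R π z₁)
    (h₂ : IsGaussInt R π z₂) : IsGaussInt R π (z₁ - z₂) := by
  rw [sub_eq_add_neg]
  exact h₁.add hπ h₂.neg

theorem IsGaussInt.smul {z : Y} (h : IsGaussInt R π z) (r : R) : IsGaussInt R π (r • z) := by
  obtain ⟨s, hs, hi⟩ := h
  exact ⟨s, hs, by rw [smul_comm]; exact hi.smul r⟩

theorem IsGaussInt.pow (hπ : Prime π) {z : Y} (h : IsGaussInt R π z) (n : ℕ) :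
    IsGaussInt R π (z ^ n) := by
  induction n with
  | zero => rw [pow_zero]; exact IsGaussInt.one hπ
  | succ n ih => rw [pow_succ]; exact ih.mul hπ h

theorem IsGaussInt.sum (hπ : Prime π) {ι : Type*} (t : Finset ι) (f : ι → Y)
    (h : ∀ i ∈ t, IsGaussInt R π (f i)) : IsGaussInt R π (∑ i ∈ t, f i) := by
  classical
  induction t using Finset.induction_on with
  | empty => rw [Finset.sum_empty]; exact IsGaussInt.zero hπ
  | insert a t ha ih =>
    rw [Finset.sum_insert ha]
    exact (h a (Finset.mem_insert_self a t)).add hπ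
      (ih fun i hi => h i (Finset.mem_insert_of_mem hi))

theorem IsGaussInt.prod (hπ : Prime π) {ι : Type*} (t : Finset ι) (f : ι → Y)
    (h : ∀ i ∈ t, IsGaussInt R π (f i)) : IsGaussInt R π (∏ i ∈ t, f i) := by
  classical
  induction t using Finset.induction_on with
  | empty => rw [Finset.prod_empty]; exact IsGaussInt.one hπ
  | insert a t ha ih =>
    rw [Finset.prod_insert ha]
    exact (h a (Finset.mem_insert_self a t)).mul hπ
      (ih fun i hi => h i (Finset.mem_insert_of_mem hi))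

/-- A denominator prime to `π` can be removed. -/
theorem IsGaussInt.of_smul (hπ : Prime π) {z : Y} (r : R) (hr : ¬ π ∣ r)
    (h : IsGaussInt R π (r • z)) : IsGaussInt R π z := by
  obtain ⟨s, hs, hi⟩ := h
  exact ⟨s * r, fun hd => (hπ.dvd_or_dvd hd).elim hs hr, by rwa [mul_smul]⟩

/-- Polynomial expressions with coefficients in `R` in a Gauss-integral element. -/
theorem IsGaussInt.aeval (hπ : Prime π) {z : Y} (h : IsGaussInt R π z) (p : Polynomial R) :
    IsGaussInt R π (Polynomial.aeval z p) := by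
  rw [Polynomial.aeval_eq_sum_range]
  exact IsGaussInt.sum hπ _ _ fun i _ => (h.pow hπ i).smul _

end Closure

section IntClosure

variable {R Y : Type*} [CommRing R] [IsDomain R] [IsIntegrallyClosed R] [CommRing Y] [IsDomain Y]
  [Algebra R Y]

/-- **(a) of purity.**  For an integrally closed domain `R` with fraction field `K`, a prime
element `π` and `z` in a domain `Y ⊇ K`: if `z` is Gauss-integral and `π ^ n • z` is integral
over `R`, then `z` is integral over `R`. -/
theorem isIntegral_of_isGaussInt_of_pow_smul (K : Type*) [Field K] [Algebra R K]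
    [IsFractionRing R K] [Algebra K Y] [IsScalarTower R K Y] (π : R) (hπ : Prime π) (z : Y)
    (hz : IsGaussInt R π z) (n : ℕ) (hn : IsIntegral R (π ^ n • z)) : IsIntegral R z := by
  obtain ⟨s, hs, hi⟩ := hz
  induction n with
  | zero => rwa [pow_zero, one_smul] at hn
  | succ n ih =>
    refine ih (EtaleGauss.isIntegral_of_smul_isIntegral K π s hπ hs (π ^ n • z) ?_ ?_)
    · rwa [← mul_smul, ← pow_succ']
    · rw [smul_comm]
      exact hi.smul _

/-- Variant: `π ^ n • z = b` with `b` integral. -/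
theorem isIntegral_of_isGaussInt_of_pow_smul_eq (K : Type*) [Field K] [Algebra R K]
    [IsFractionRing R K] [Algebra K Y] [IsScalarTower R K Y] (π : R) (hπ : Prime π) (z b : Y)
    (hz : IsGaussInt R π z) (n : ℕ) (hb : IsIntegral R b) (h : π ^ n • z = b) :
    IsIntegral R z :=
  isIntegral_of_isGaussInt_of_pow_smul K π hπ z hz n (h ▸ hb)

end IntClosure

end Fermat.Agent.S18
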