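/-
S18, package F' (helper1): separability via a derivation.

Abstract statement: `K` a field of characteristic `p`, `k ⊆ K` a perfect subfield, `D` a
`k`-derivation of `K`, `t ∈ K` with `D t ≠ 0`.  Then every element of `K` which is algebraic over
`k(t)` is separable over `k(t)`.

Instance: `K = κ((q))`, `D = q d/dq`, `t` the reduction of the `q`-expansion of `j`.
-/
import Mathlib

set_option autoImplicit false
set_option linter.unusedSectionVars false
set_option linter.unusedSimpArgs false

namespace Fermat.Agent.S18.Sep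

open Polynomial IntermediateField

section Abstract

variable {k K : Type*} [Field k] [Field K] [Algebra k K] (p : ℕ) [Fact p.Prime] [CharP k p]
  [PerfectField k] (D : Derivation k K K) (t : K)

include D in
/-- An element with `D t = 1` is transcendental over the perfect field of constants. -/
theorem transcendental_of_derivation (ht : D t = 1) : Transcendental k t := by
  intro halg
  have hint : IsIntegral k t := halg.isIntegral
  have hsep : (minpoly k t).Separable :=
    PerfectField.separable_of_irreducible (minpoly.irreducible hint)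
  have h0 : D (aeval t (minpoly k t)) = 0 := by rw [minpoly.aeval, map_zero]
  rw [Derivation.map_aeval, ht, smul_eq_mul, mul_one] at h0
  exact hsep.aeval_derivative_ne_zero (minpoly.aeval k t) h0

/-- `D` preserves `k(t)` when `D t = 1`. -/
theorem derivation_mem_adjoin (ht : D t = 1) (c : K) (hc : c ∈ k⟮t⟯) : D c ∈ k⟮t⟯ := by
  obtain ⟨r, s, rfl⟩ := (mem_adjoin_simple_iff k c).mp hc
  have hmem : ∀ q : k[X], aeval t q ∈ k⟮t⟯ := fun q =>
    (mem_adjoin_simple_iff k _).mpr ⟨q, 1, by simp⟩
  rw [Derivation.leibniz_div, Derivation.map_aeval, Derivation.map_aeval, ht]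
  simp only [smul_eq_mul, mul_one]
  exact mul_mem (pow_mem (inv_mem (hmem s)) 2)
    (sub_mem (mul_mem (hmem s) (hmem _)) (mul_mem (hmem r) (hmem _)))

include p in
/-- Constants of `D` in `k(t)` are `p`-th powers in `k(t)`. -/
theorem exists_pow_eq_of_derivation_eq_zero (ht : D t = 1) (c : K) (hc : c ∈ k⟮t⟯)
    (hD : D c = 0) : ∃ b ∈ k⟮t⟯, b ^ p = c := by
  have hp : p.Prime := Fact.out
  have hp0 : p ≠ 0 := hp.ne_zero
  have : CharP K p := charP_of_injective_algebraMap (algebraMap k K).injective p
  have htr : Transcendental k t := transcendental_of_derivation D t ht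
  have hmem : ∀ q : k[X], aeval t q ∈ k⟮t⟯ := fun q =>
    (mem_adjoin_simple_iff k _).mpr ⟨q, 1, by simp⟩
  obtain ⟨G, H, rfl⟩ := (mem_adjoin_simple_iff k c).mp hc
  by_cases hH : aeval t H = 0
  · exact ⟨0, zero_mem _, by rw [hH, div_zero, zero_pow hp0]⟩
  -- the numerator after making the denominator a `p`-th power
  obtain ⟨N, hN⟩ : ∃ N : k[X], N = G * H ^ (p - 1) := ⟨_, rfl⟩
  have hNc : aeval t N = aeval t G / aeval t H * aeval t H ^ p := by
    have hpp : aeval t H ^ p = aeval t H ^ (p - 1) * aeval t H := by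
      rw [← pow_succ, Nat.sub_add_cancel hp.one_le]
    rw [hN, map_mul, map_pow, hpp]
    field_simp
  have hDN : D (aeval t N) = 0 := by
    rw [hNc, Derivation.leibniz, hD, Derivation.leibniz_pow]
    simp [CharP.cast_eq_zero K p]
  rw [Derivation.map_aeval, ht, smul_eq_mul, mul_one] at hDN
  have hder : derivative N = 0 := (transcendental_iff.mp htr) _ hDN
  have hexp : expand k p (contract p N) = N := expand_contract p hder hp0
  have : PerfectRing k p := PerfectField.toPerfectRing p
  obtain ⟨N2, hN2⟩ := Polynomial.map_surjective (frobenius k p)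
    (bijective_frobenius k p).surjective (contract p N)
  have hpow : N2 ^ p = N := by
    rw [← map_frobenius_expand, map_expand, hN2, hexp]
  refine ⟨aeval t N2 / aeval t H, div_mem (hmem N2) (hmem H), ?_⟩
  rw [div_pow, ← map_pow, hpow, hNc]
  field_simp

include p in
/-- **Separability via a derivation** (normalised form `D t = 1`). -/
theorem isSeparable_of_derivation_eq_one (ht : D t = 1) (y : K) (hy : IsAlgebraic k⟮t⟯ y) :
    IsSeparable k⟮t⟯ y := by
  classical
  have hp : p.Prime := Fact.out
  have : CharP K p := charP_of_injective_algebraMap (algebraMap k K).injective p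
  have : CharP k⟮t⟯ p := charP_of_injective_algebraMap (algebraMap k k⟮t⟯).injective p
  have hint : IsIntegral k⟮t⟯ y := hy.isIntegral
  have hirr : Irreducible (minpoly k⟮t⟯ y) := minpoly.irreducible hint
  rcases separable_or p hirr with h | ⟨-, Q, hQirr, hQ⟩
  · exact h
  exfalso
  have hQmonic : Q.Monic := by
    rw [← monic_expand_iff hp.pos (R := k⟮t⟯), hQ]
    exact minpoly.monic hint
  have hroot : aeval (y ^ p) Q = 0 := by
    rw [← expand_aeval, hQ, minpoly.aeval]
  have hQmin : Q = minpoly k⟮t⟯ (y ^ p) := minpoly.eq_of_irreducible_of_monic hQirr hroot hQmonic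
  obtain ⟨m, hm⟩ : ∃ m : ℕ, m = Q.natDegree := ⟨_, rfl⟩
  have hDyp : D (y ^ p) = 0 := by
    rw [Derivation.leibniz_pow]
    simp [CharP.cast_eq_zero K p]
  -- apply `D` to the equation `Q(y^p) = 0`
  have hsum : ∑ i ∈ Finset.range m, D ((Q.coeff i : k⟮t⟯) : K) * (y ^ p) ^ i = 0 := by
    have h0 : D (aeval (y ^ p) Q) = 0 := by rw [hroot, map_zero]
    rw [aeval_eq_sum_range, ← hm, map_sum, Finset.sum_range_succ] at h0
    have htop : D ((Q.coeff m : k⟮t⟯) • (y ^ p) ^ m) = 0 := by
      rw [hm, hQmonic.coeff_natDegree, one_smul, Derivation.leibniz_pow, hDyp]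
      simp
    rw [htop, add_zero] at h0
    rw [← h0]
    refine Finset.sum_congr rfl fun i _ => ?_
    rw [IntermediateField.smul_def, smul_eq_mul, Derivation.leibniz, Derivation.leibniz_pow, hDyp]
    simp [mul_comm]
  -- the coefficientwise derivative as a polynomial over `k(t)`
  let δ : ℕ → k⟮t⟯ := fun i => ⟨D ((Q.coeff i : k⟮t⟯) : K),
    derivation_mem_adjoin D t ht _ (Q.coeff i).2⟩
  obtain ⟨Qδ, hQδ⟩ : ∃ Qδ : k⟮t⟯[X], Qδ = ∑ i ∈ Finset.range m, monomial i (δ i) := ⟨_, rfl⟩
  have hQδroot : aeval (y ^ p) Qδ = 0 := by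
    rw [hQδ, map_sum, ← hsum]
    refine Finset.sum_congr rfl fun i _ => ?_
    rw [aeval_monomial]
    rfl
  have hQδdeg : Qδ.degree < m := by
    rw [degree_lt_iff_coeff_zero]
    intro j hj
    rw [hQδ, finsetSum_coeff]
    refine Finset.sum_eq_zero fun i hi => ?_
    rw [coeff_monomial, if_neg]
    have := Finset.mem_range.mp hi
    omega
  have hQδ0 : Qδ = 0 := by
    by_contra hne
    have h1 := minpoly.degree_le_of_ne_zero k⟮t⟯ (y ^ p) hne hQδroot
    rw [← hQmin, degree_eq_natDegree hQmonic.ne_zero, ← hm] at h1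
    exact absurd (lt_of_le_of_lt h1 hQδdeg) (lt_irrefl _)
  have hδ : ∀ i, i < m → D ((Q.coeff i : k⟮t⟯) : K) = 0 := by
    intro i hi
    have h1 : Qδ.coeff i = δ i := by
      rw [hQδ, finsetSum_coeff]
      simp only [coeff_monomial]
      rw [Finset.sum_eq_single i]
      · simp
      · intro j _ hji; simp [hji]
      · intro hi'; exact absurd (Finset.mem_range.mpr hi) hi'
    rw [hQδ0, coeff_zero] at h1
    have := congrArg (fun z : k⟮t⟯ => (z : K)) h1
    simpa [δ] using this.symm
  have hall : ∀ i, D ((Q.coeff i : k⟮t⟯) : K) = 0 := by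
    intro i
    rcases lt_trichotomy i m with hi | hi | hi
    · exact hδ i hi
    · rw [hi, hm, hQmonic.coeff_natDegree]; simp
    · rw [coeff_eq_zero_of_natDegree_lt (by rw [← hm]; exact hi)]; simp
  -- all coefficients are `p`-th powers
  have hpow : ∀ i, ∃ b : k⟮t⟯, b ^ p = Q.coeff i := by
    intro i
    obtain ⟨b, hb, hbp⟩ := exists_pow_eq_of_derivation_eq_zero p D t ht _ (Q.coeff i).2 (hall i)
    exact ⟨⟨b, hb⟩, Subtype.ext (by simpa using hbp)⟩
  choose b hb using hpow
  obtain ⟨G, hG⟩ : ∃ G : k⟮t⟯[X], G = ∑ i ∈ Finset.range (m + 1), monomial i (b i) := ⟨_, rfl⟩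
  have hGQ : map (frobenius k⟮t⟯ p) G = Q := by
    rw [hG, Polynomial.map_sum]
    conv_rhs => rw [as_sum_range' Q (m + 1) (by rw [hm]; exact Nat.lt_succ_self _)]
    refine Finset.sum_congr rfl fun i _ => ?_
    rw [map_monomial, frobenius_def, hb]
  have hGp : G ^ p = minpoly k⟮t⟯ y := by
    rw [← hQ, ← hGQ, ← map_expand, map_frobenius_expand]
  rw [← hGp] at hirr
  exact not_irreducible_pow hp.ne_one hirr

include p in
/-- **Separability via a derivation.**  If `D t ≠ 0` for a `k`-derivation `D` of `K` (`k` perfect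
of characteristic `p`), then every element of `K` algebraic over `k(t)` is separable over
`k(t)`. -/
theorem isSeparable_of_derivation (ht : D t ≠ 0) (y : K) (hy : IsAlgebraic k⟮t⟯ y) :
    IsSeparable k⟮t⟯ y :=
  isSeparable_of_derivation_eq_one p ((D t)⁻¹ • D) t
    (by rw [Derivation.smul_apply, smul_eq_mul, inv_mul_cancel₀ ht]) y hy

end Abstract

section Mk

variable {k K : Type*} [Field k] [Field K] [Algebra k K]

/-- A `k`-derivation of a field `K` from a bare function which is additive, satisfies the Leibniz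
rule and kills the constants. -/
def derivOfFun (d : K → K) (hadd : ∀ x y, d (x + y) = d x + d y)
    (hmul : ∀ x y, d (x * y) = x * d y + y * d x) (hk : ∀ a : k, d (algebraMap k K a) = 0) :
    Derivation k K K where
  toFun := d
  map_add' := hadd
  map_smul' c x := by
    rw [Algebra.smul_def, hmul, hk, mul_zero, add_zero, RingHom.id_apply, Algebra.smul_def]
  map_one_eq_zero' := by
    show d 1 = 0
    rw [← map_one (algebraMap k K)]
    exact hk 1
  leibniz' x y := by
    show d (x * y) = x • d y + y • d x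
    rw [hmul, smul_eq_mul, smul_eq_mul]

@[simp]
theorem derivOfFun_apply (d : K → K) (hadd : ∀ x y, d (x + y) = d x + d y)
    (hmul : ∀ x y, d (x * y) = x * d y + y * d x) (hk : ∀ a : k, d (algebraMap k K a) = 0)
    (x : K) : derivOfFun d hadd hmul hk x = d x := rfl

end Mk

section Laurent

variable (κ : Type*) [Field κ]

/-- The Euler operator `q d/dq` on Laurent series: multiply the `n`-th coefficient by `n`. -/
noncomputable def thetaFun (f : LaurentSeries κ) : LaurentSeries κ where
  coeff n := (n : κ) * f.coeff n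
  isPWO_support' := f.isPWO_support.mono fun n hn => by
    intro h
    apply hn
    show (n : κ) * f.coeff n = 0
    rw [h, mul_zero]

@[simp]
theorem thetaFun_coeff (f : LaurentSeries κ) (n : ℤ) :
    (thetaFun κ f).coeff n = (n : κ) * f.coeff n := rfl

theorem support_thetaFun (f : LaurentSeries κ) : (thetaFun κ f).support ⊆ f.support := by
  intro n hn h
  apply hn
  show (n : κ) * f.coeff n = 0
  rw [h, mul_zero]

theorem thetaFun_add (f g : LaurentSeries κ) :
    thetaFun κ (f + g) = thetaFun κ f + thetaFun κ g := by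
  ext n
  simp [mul_add]

theorem thetaFun_mul (f g : LaurentSeries κ) :
    thetaFun κ (f * g) = f * thetaFun κ g + g * thetaFun κ f := by
  ext n
  show (n : κ) * (f * g).coeff n = (f * thetaFun κ g + g * thetaFun κ f).coeff n
  rw [HahnSeries.coeff_add, mul_comm g (thetaFun κ f), HahnSeries.coeff_mul,
    HahnSeries.coeff_mul_right' g.isPWO_support (support_thetaFun κ g),
    HahnSeries.coeff_mul_left' f.isPWO_support (support_thetaFun κ f), Finset.mul_sum,
    ← Finset.sum_add_distrib]
  refine Finset.sum_congr rfl fun ij hij => ?_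
  have h := (Finset.mem_antidiagonal.mp hij).2.2
  rw [thetaFun_coeff, thetaFun_coeff, ← h]
  push_cast
  ring

theorem algebraMap_eq_single (c : κ) :
    algebraMap κ (LaurentSeries κ) c = HahnSeries.single 0 c := by
  have h1 : algebraMap κ (PowerSeries κ) c = PowerSeries.C c := by simp
  rw [HahnSeries.algebraMap_apply', h1, HahnSeries.ofPowerSeries_C]
  rfl

theorem thetaFun_algebraMap (c : κ) : thetaFun κ (algebraMap κ (LaurentSeries κ) c) = 0 := by
  ext n
  rw [thetaFun_coeff, algebraMap_eq_single, HahnSeries.coeff_zero]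
  by_cases h : n = 0
  · rw [h]; simp
  · rw [HahnSeries.coeff_single_of_ne h, mul_zero]

/-- `q d/dq` as a derivation of `κ((q))`. -/
noncomputable def theta :=
  derivOfFun (k := κ) (K := LaurentSeries κ) (thetaFun κ) (thetaFun_add κ) (thetaFun_mul κ)
    (thetaFun_algebraMap κ)

@[simp]
theorem theta_coeff (f : LaurentSeries κ) (n : ℤ) :
    (theta κ f).coeff n = (n : κ) * f.coeff n := rfl

/-- **Separability in `κ((q))`.**  `κ` perfect of characteristic `p`, `t ∈ κ((q))` with some
coefficient `t_n ≠ 0` where `n ≠ 0` in `κ`.  Then every Laurent series algebraic over `κ(t)` is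
separable over `κ(t)`. -/
theorem isSeparable_laurent (p : ℕ) [Fact p.Prime] [CharP κ p] [PerfectField κ]
    (t : LaurentSeries κ) (n : ℤ) (hn : (n : κ) ≠ 0) (htn : t.coeff n ≠ 0)
    (y : LaurentSeries κ) (hy : IsAlgebraic κ⟮t⟯ y) : IsSeparable κ⟮t⟯ y := by
  refine isSeparable_of_derivation p (theta κ) t ?_ y hy
  intro h
  have h1 := congrArg (fun f : LaurentSeries κ => f.coeff n) h
  simp only [theta_coeff, HahnSeries.coeff_zero] at h1
  exact (mul_ne_zero hn htn) h1

/-- Field-extension form: an intermediate field `E ⊇ κ(t)` of `κ((q))` which is algebraic over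
`κ(t)` is separable over `κ(t)`. -/
theorem isSeparable_extendScalars (p : ℕ) [Fact p.Prime] [CharP κ p] [PerfectField κ]
    (t : LaurentSeries κ) (n : ℤ) (hn : (n : κ) ≠ 0) (htn : t.coeff n ≠ 0)
    (E : IntermediateField κ (LaurentSeries κ)) (hE : κ⟮t⟯ ≤ E)
    (halg : ∀ y ∈ E, IsAlgebraic κ⟮t⟯ y) :
    Algebra.IsSeparable κ⟮t⟯ (IntermediateField.extendScalars hE) := by
  refine ⟨fun y => ?_⟩
  have h := isSeparable_laurent κ p t n hn htn (y : LaurentSeries κ) (halg _ y.2)
  rw [IsSeparable] at h ⊢
  rw [← minpoly.algebraMap_eq (algebraMap (IntermediateField.extendScalars hE)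
    (LaurentSeries κ)).injective y]
  exact h

end Laurent

end Fermat.Agent.S18.Sep
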