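/-
S18, package F' (helper1), modular instance: over a perfect field `κ` of characteristic `p`,
every Laurent series algebraic over `κ(j̄)` (`j̄ = jqModC κ`, the `q`-expansion of `j` with
coefficients in `κ`) is separable over `κ(j̄)`; in particular the function field
`modularFunctionFieldFullC κ N` is separable over `κ(j̄)` as soon as it is algebraic.
-/
import Mathlib
import Fermat.Prelude.Def_ModularCurve_X0ModL
import Fermat.Agent.S18.Sep

set_option autoImplicit false

namespace Fermat.Agent.S18.Sep

open IntermediateField ModularCurve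

variable (κ : Type*) [Field κ]

/-- `q d/dq` does not kill `j̄`. -/
theorem theta_jqModC_ne_zero : theta κ (jqModC κ) ≠ 0 := by
  intro h
  have h1 := congrArg (fun f : LaurentSeries κ => f.coeff (-1)) h
  simp only [theta_coeff, HahnSeries.coeff_zero, coeff_jqModC_neg_one] at h1
  simp at h1

/-- **Separability over `κ(j̄)`, elementwise.** -/
theorem isSeparable_jq (p : ℕ) [Fact p.Prime] [CharP κ p] [PerfectField κ]
    (y : LaurentSeries κ) (hy : IsAlgebraic κ⟮jqModC κ⟯ y) :
    IsSeparable κ⟮jqModC κ⟯ y :=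
  isSeparable_of_derivation p (theta κ) (jqModC κ) (theta_jqModC_ne_zero κ) y hy

/-- `κ(j̄) ≤ F_κ`. -/
theorem adjoin_jq_le_fullC (N : ℕ) [NeZero N] :
    κ⟮jqModC κ⟯ ≤ modularFunctionFieldFullC κ N := by
  rw [adjoin_simple_le_iff]
  exact jqModC_mem_full κ N

/-- **`F_κ / κ(j̄)` is separable** (given that it is algebraic). -/
theorem isSeparable_fullC (p : ℕ) [Fact p.Prime] [CharP κ p] [PerfectField κ] (N : ℕ) [NeZero N]
    (halg : ∀ y ∈ modularFunctionFieldFullC κ N, IsAlgebraic κ⟮jqModC κ⟯ y) :
    Algebra.IsSeparable κ⟮jqModC κ⟯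
      (IntermediateField.extendScalars (adjoin_jq_le_fullC κ N)) := by
  refine ⟨fun y => ?_⟩
  have h := isSeparable_jq κ p (y : LaurentSeries κ) (halg _ y.2)
  rw [IsSeparable] at h ⊢
  rw [← minpoly.algebraMap_eq (algebraMap (IntermediateField.extendScalars
    (adjoin_jq_le_fullC κ N)) (LaurentSeries κ)).injective y]
  exact h

end Fermat.Agent.S18.Sep
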