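/-
S18, package PG (residue side; helper1): the residue field `F_κ` of the Gauss valuation of
`F_L` is the `κ(j̄)`-span of the reductions of the orthonormal basis of `GaussFull`, hence
finite of degree `ψ(N)` over `κ(j̄)`, algebraic, separable (for perfect `κ`), and generated by
one element whose powers `1, t, …, t^(ψ(N)-1)` are `κ(j̄)`-linearly independent.
-/
import Mathlib
import Fermat.Agent.S18.GaussFull
import Fermat.Agent.S18.SepJ

set_option autoImplicit false

noncomputable section

namespace Fermat.Agent.S18.GaussRes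

open ModularCurve Polynomial Fermat.Agent.S18.Gauss

variable {L : Type*} [Field L] [Algebra ℚ L] (W : ValuationSubring L) (N : ℕ)

/-- The `κ(j̄)`-span of the reductions of a family of integer-coefficient series. -/
def resSpan {n : ℕ} (θ : Fin n → LaurentSeries ℤ) :
    Submodule (kJ W) (LaurentSeries (IsLocalRing.ResidueField W)) :=
  Submodule.span (kJ W)
    (Set.range fun i => coeffMap (Int.castRingHom (IsLocalRing.ResidueField W)) (θ i))

section Span

variable {n : ℕ} (θ : Fin n → LaurentSeries ℤ)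
  (hli : LinearIndependent (kJ W)
    (fun i => coeffMap (Int.castRingHom (IsLocalRing.ResidueField W)) (θ i)))
  (hspan : ∀ x ∈ laurentBaseChange L (modularFunctionFieldFull N),
    ∃ c : Fin n → LaurentSeries L, (∀ i, c i ∈ IntermediateField.adjoin L {jqModC L}) ∧
      x = ∑ i, c i * coeffMap (Int.castRingHom L) (θ i))

include hli hspan in
/-- The reduction of an integral series of the function field lies in the span. -/
theorem toK_mem_resSpan {Y : LaurentSeries W} (hY : Y ∈ intFull W N) :
    toK W Y ∈ resSpan W θ := by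
  obtain ⟨c, hc, hx⟩ := hspan _ hY.1
  have hli' : LinearIndependent (kJ W) (fun i =>
      red W ⟨coeffMap (Int.castRingHom L) (θ i), coeffMap_intCast_mem_contentRing W (θ i)⟩) := by
    have hfun : (fun i => red W ⟨coeffMap (Int.castRingHom L) (θ i),
        coeffMap_intCast_mem_contentRing W (θ i)⟩) =
        fun i => coeffMap (Int.castRingHom (IsLocalRing.ResidueField W)) (θ i) :=
      funext fun i => red_coeffMap_intCast W (θ i)
    rw [hfun]
    exact hli
  have hxW : ∑ i, c i * coeffMap (Int.castRingHom L) (θ i) ∈ contentRing W := by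
    rw [← hx]; exact toL_mem_contentRing W Y
  have hcW := orthonormal_mem W (fun i => coeffMap (Int.castRingHom L) (θ i))
    (fun i => coeffMap_intCast_mem_contentRing W (θ i)) hli' c hc hxW
  have h1 := red_sum_mul W (fun i => coeffMap (Int.castRingHom L) (θ i))
    (fun i => coeffMap_intCast_mem_contentRing W (θ i)) c hcW
  have h2 : red W ⟨∑ i, c i * coeffMap (Int.castRingHom L) (θ i),
      sum_mul_mem W (fun i => coeffMap (Int.castRingHom L) (θ i)) c hcW
        (fun i => coeffMap_intCast_mem_contentRing W (θ i))⟩ = toK W Y := by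
    rw [← red_toL W Y]
    exact congrArg (red W) (Subtype.ext hx.symm)
  rw [← h2, h1]
  refine Submodule.sum_mem _ fun i _ => ?_
  rw [red_coeffMap_intCast]
  have h3 : red W ⟨c i, hcW i⟩ * coeffMap (Int.castRingHom (IsLocalRing.ResidueField W)) (θ i) =
      (⟨red W ⟨c i, hcW i⟩, red_mem_kJ W (hc i) (hcW i)⟩ : kJ W) •
        coeffMap (Int.castRingHom (IsLocalRing.ResidueField W)) (θ i) := rfl
  rw [h3]
  exact Submodule.smul_mem _ _ (Submodule.subset_span ⟨i, rfl⟩)

variable (hθ : ∀ i, coeffMap (Int.castRingHom W) (θ i) ∈ intFull W N)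

include hli hspan in
theorem one_mem_resSpan : (1 : LaurentSeries (IsLocalRing.ResidueField W)) ∈ resSpan W θ := by
  have h := toK_mem_resSpan W N θ hli hspan (one_mem (intFull W N))
  rwa [map_one] at h

include hli hspan hθ in
theorem mul_mem_resSpan {x y : LaurentSeries (IsLocalRing.ResidueField W)}
    (hx : x ∈ resSpan W θ) (hy : y ∈ resSpan W θ) : x * y ∈ resSpan W θ := by
  induction hx using Submodule.span_induction with
  | mem x hx =>
    obtain ⟨i, rfl⟩ := hx
    induction hy using Submodule.span_induction with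
    | mem y hy =>
      obtain ⟨k, rfl⟩ := hy
      have h := toK_mem_resSpan W N θ hli hspan (mul_mem (hθ i) (hθ k))
      rwa [map_mul, toK_coeffMap_intCast, toK_coeffMap_intCast] at h
    | zero => rw [mul_zero]; exact zero_mem _
    | add y z _ _ hy hz => rw [mul_add]; exact add_mem hy hz
    | smul c y _ hy => rw [mul_smul_comm]; exact Submodule.smul_mem _ _ hy
  | zero => rw [zero_mul]; exact zero_mem _
  | add x z _ _ hx hz => rw [add_mul]; exact add_mem hx hz
  | smul c x _ hx => rw [smul_mul_assoc]; exact Submodule.smul_mem _ _ hx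

include hli hspan hθ in
theorem inv_mem_resSpan {x : LaurentSeries (IsLocalRing.ResidueField W)}
    (hx : x ∈ resSpan W θ) : x⁻¹ ∈ resSpan W θ := by
  let A : Subalgebra (kJ W) (LaurentSeries (IsLocalRing.ResidueField W)) :=
    (resSpan W θ).toSubalgebra (one_mem_resSpan W N θ hli hspan)
      (fun x y hx hy => mul_mem_resSpan W N θ hli hspan hθ hx hy)
  have hfg : (Subalgebra.toSubmodule A).FG := by
    rw [Submodule.toSubalgebra_toSubmodule]
    exact Submodule.fg_span (Set.finite_range _)
  have hint : IsIntegral (kJ W) x := IsIntegral.of_mem_of_fg A hfg x hx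
  exact A.inv_mem_of_algebraic (x := ⟨x, hx⟩) hint.isAlgebraic

include hli hspan hθ in
/-- **`F_κ` is the `κ(j̄)`-span of the reductions of an orthonormal basis.** -/
theorem mem_fullC_iff_mem_resSpan [NeZero N] (g : LaurentSeries (IsLocalRing.ResidueField W)) :
    g ∈ modularFunctionFieldFullC (IsLocalRing.ResidueField W) N ↔ g ∈ resSpan W θ := by
  constructor
  · intro hg
    obtain ⟨x, y, hx, hy, hy0, h⟩ := mem_liftField_of_mem_fullC W N hg
    have h1 : g = toK W x * (toK W y)⁻¹ := by
      rw [← h, mul_assoc, mul_inv_cancel₀ hy0, mul_one]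
    rw [h1]
    exact mul_mem_resSpan W N θ hli hspan hθ (toK_mem_resSpan W N θ hli hspan hx)
      (inv_mem_resSpan W N θ hli hspan hθ (toK_mem_resSpan W N θ hli hspan hy))
  · intro hg
    induction hg using Submodule.span_induction with
    | mem x hx =>
      obtain ⟨i, rfl⟩ := hx
      have h := (hθ i).2
      rwa [toK_coeffMap_intCast] at h
    | zero => exact zero_mem _
    | add x z _ _ hx hz => exact add_mem hx hz
    | smul c x _ hx =>
      exact mul_mem (Sep.adjoin_jq_le_fullC (IsLocalRing.ResidueField W) N c.2) hx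

include hli hspan hθ in
theorem isIntegral_of_mem_resSpan {x : LaurentSeries (IsLocalRing.ResidueField W)}
    (hx : x ∈ resSpan W θ) : IsIntegral (kJ W) x := by
  let A : Subalgebra (kJ W) (LaurentSeries (IsLocalRing.ResidueField W)) :=
    (resSpan W θ).toSubalgebra (one_mem_resSpan W N θ hli hspan)
      (fun x y hx hy => mul_mem_resSpan W N θ hli hspan hθ hx hy)
  have hfg : (Subalgebra.toSubmodule A).FG := by
    rw [Submodule.toSubalgebra_toSubmodule]
    exact Submodule.fg_span (Set.finite_range _)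
  exact IsIntegral.of_mem_of_fg A hfg x hx

end Span

/-! ### The residue field extension `F_κ / κ(j̄)` -/

section Main

variable [NeZero N] (ℓ : ℕ) [Fact ℓ.Prime] [CharP (IsLocalRing.ResidueField W) ℓ]

/-- **Orthonormal basis, with the residue side.** The `θ i` of
`Gauss.exists_orthonormal_basis`, together with: `F_κ` is the `κ(j̄)`-span of their
reductions. -/
theorem exists_orthonormal_basis_res (hℓN : ¬ ℓ ∣ N) :
    ∃ θ : Fin (dedekindPsi N) → LaurentSeries ℤ,
      (∀ i, θ i ∈ Subring.closure
        {x : LaurentSeries ℤ | ∃ (d : ℕ) (_ : NeZero d), d ∣ N ∧ x = qExpand ℤ d Fermat.Agent.S28.jInt}) ∧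
      LinearIndependent (kJ W)
        (fun i => coeffMap (Int.castRingHom (IsLocalRing.ResidueField W)) (θ i)) ∧
      (∀ c : Fin (dedekindPsi N) → LaurentSeries L,
        (∀ i, c i ∈ IntermediateField.adjoin L {jqModC L}) →
        ∑ i, c i * coeffMap (Int.castRingHom L) (θ i) = 0 → ∀ i, c i = 0) ∧
      (∀ c : Fin (dedekindPsi N) → LaurentSeries L,
        (∀ i, c i ∈ IntermediateField.adjoin L {jqModC L}) →
        ∑ i, c i * coeffMap (Int.castRingHom L) (θ i) ∈ contentRing W →
          ∀ i, c i ∈ contentRing W) ∧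
      (∀ x ∈ laurentBaseChange L (modularFunctionFieldFull N),
        ∃ c : Fin (dedekindPsi N) → LaurentSeries L,
          (∀ i, c i ∈ IntermediateField.adjoin L {jqModC L}) ∧
          x = ∑ i, c i * coeffMap (Int.castRingHom L) (θ i)) ∧
      (∀ g : LaurentSeries (IsLocalRing.ResidueField W),
        g ∈ modularFunctionFieldFullC (IsLocalRing.ResidueField W) N ↔ g ∈ resSpan W θ) := by
  obtain ⟨θ, hθ, hli, hind, hmem, hspan⟩ := exists_orthonormal_basis W N ℓ hℓN
  exact ⟨θ, hθ, hli, hind, hmem, hspan,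
    mem_fullC_iff_mem_resSpan W N θ hli hspan
      (fun i => coeffMap_intCast_mem_intFull W N (hθ i))⟩

/-- **`F_κ` is algebraic (integral) over `κ(j̄)`.** -/
theorem isIntegral_fullC (hℓN : ¬ ℓ ∣ N) {y : LaurentSeries (IsLocalRing.ResidueField W)}
    (hy : y ∈ modularFunctionFieldFullC (IsLocalRing.ResidueField W) N) :
    IsIntegral (kJ W) y := by
  obtain ⟨θ, hθ, hli, -, -, hspan, hiff⟩ := exists_orthonormal_basis_res W N ℓ hℓN
  exact isIntegral_of_mem_resSpan W N θ hli hspan
    (fun i => coeffMap_intCast_mem_intFull W N (hθ i)) ((hiff y).mp hy)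

theorem isAlgebraic_fullC (hℓN : ¬ ℓ ∣ N) {y : LaurentSeries (IsLocalRing.ResidueField W)}
    (hy : y ∈ modularFunctionFieldFullC (IsLocalRing.ResidueField W) N) :
    IsAlgebraic (kJ W) y :=
  (isIntegral_fullC W N ℓ hℓN hy).isAlgebraic

/-- `F_κ` as an intermediate field of `κ((q)) / κ(j̄)`. -/
abbrev fullOverJ : IntermediateField (kJ W) (LaurentSeries (IsLocalRing.ResidueField W)) :=
  IntermediateField.extendScalars (Sep.adjoin_jq_le_fullC (IsLocalRing.ResidueField W) N)

omit [Algebra ℚ L] in
theorem mem_fullOverJ {g : LaurentSeries (IsLocalRing.ResidueField W)} :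
    g ∈ fullOverJ W N ↔ g ∈ modularFunctionFieldFullC (IsLocalRing.ResidueField W) N :=
  IntermediateField.mem_extendScalars _

/-- **`[F_κ : κ(j̄)] = ψ(N)`.** -/
theorem finrank_fullC (hℓN : ¬ ℓ ∣ N) :
    Module.finrank (kJ W) (fullOverJ W N) = dedekindPsi N := by
  obtain ⟨θ, -, hli, -, -, -, hiff⟩ := exists_orthonormal_basis_res W N ℓ hℓN
  have heq : Subalgebra.toSubmodule (fullOverJ W N).toSubalgebra = resSpan W θ := by
    ext g
    exact (mem_fullOverJ W N).trans (hiff g)
  have h1 : Module.finrank (kJ W) (fullOverJ W N) =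
      Module.finrank (kJ W) (Subalgebra.toSubmodule (fullOverJ W N).toSubalgebra) := rfl
  rw [h1, heq, resSpan, finrank_span_eq_card hli, Fintype.card_fin]

theorem finiteDimensional_fullC (hℓN : ¬ ℓ ∣ N) :
    FiniteDimensional (kJ W) (fullOverJ W N) := by
  have hpos : 0 < dedekindPsi N := by
    obtain ⟨θ, -, hli, -, -, -, hiff⟩ := exists_orthonormal_basis_res W N ℓ hℓN
    by_contra h0
    have h1 : dedekindPsi N = 0 := by omega
    have h2 : (1 : LaurentSeries (IsLocalRing.ResidueField W)) ∈ resSpan W θ :=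
      (hiff 1).mp (one_mem _)
    have h3 : resSpan W θ = ⊥ := by
      rw [resSpan]
      have : IsEmpty (Fin (dedekindPsi N)) := by rw [h1]; infer_instance
      rw [Set.range_eq_empty, Submodule.span_empty]
    rw [h3, Submodule.mem_bot] at h2
    exact one_ne_zero h2
  exact FiniteDimensional.of_finrank_pos (by rw [finrank_fullC W N ℓ hℓN]; exact hpos)

/-- **`F_κ / κ(j̄)` is separable** (`κ` perfect). -/
theorem isSeparable_fullC [PerfectField (IsLocalRing.ResidueField W)] (hℓN : ¬ ℓ ∣ N) :
    Algebra.IsSeparable (kJ W) (fullOverJ W N) :=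
  Sep.isSeparable_fullC (IsLocalRing.ResidueField W) ℓ N
    (fun _ hy => isAlgebraic_fullC W N ℓ hℓN hy)

/-- **Primitive element of `F_κ / κ(j̄)`**: an element `t` of `F_κ`, separable of degree
`ψ(N)` over `κ(j̄)`; its powers `1, t, …, t^(ψ(N)-1)` are `κ(j̄)`-linearly independent. -/
theorem exists_primitive_res [PerfectField (IsLocalRing.ResidueField W)] (hℓN : ¬ ℓ ∣ N) :
    ∃ t : LaurentSeries (IsLocalRing.ResidueField W),
      t ∈ modularFunctionFieldFullC (IsLocalRing.ResidueField W) N ∧ IsIntegral (kJ W) t ∧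
      (minpoly (kJ W) t).Separable ∧ (minpoly (kJ W) t).natDegree = dedekindPsi N ∧
      LinearIndependent (kJ W) (fun i : Fin (dedekindPsi N) => t ^ (i : ℕ)) := by
  have := finiteDimensional_fullC W N ℓ hℓN
  have := isSeparable_fullC W N ℓ hℓN
  obtain ⟨α, hα⟩ := Field.exists_primitive_element (kJ W) (fullOverJ W N)
  have hint : IsIntegral (kJ W) α := IsIntegral.of_finite (kJ W) α
  have hmin : minpoly (kJ W) (α : LaurentSeries (IsLocalRing.ResidueField W)) =
      minpoly (kJ W) α :=
    minpoly.algebraMap_eq (algebraMap (fullOverJ W N)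
      (LaurentSeries (IsLocalRing.ResidueField W))).injective α
  have hdeg : (minpoly (kJ W) α).natDegree = dedekindPsi N := by
    rw [← IntermediateField.adjoin.finrank hint, hα, IntermediateField.finrank_top',
      finrank_fullC W N ℓ hℓN]
  refine ⟨α, (mem_fullOverJ W N).mp α.2, ?_, ?_, ?_, ?_⟩
  · exact isIntegral_fullC W N ℓ hℓN ((mem_fullOverJ W N).mp α.2)
  · rw [hmin]; exact Algebra.IsSeparable.isSeparable (kJ W) α
  · rw [hmin]; exact hdeg
  · have h1 := linearIndependent_pow (K := kJ W) α
    have h2 : LinearIndependent (kJ W)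
        (fun i : Fin (minpoly (kJ W) α).natDegree =>
          ((α ^ (i : ℕ) : fullOverJ W N) : LaurentSeries (IsLocalRing.ResidueField W))) :=
      h1.map' (fullOverJ W N).val.toLinearMap
        (LinearMap.ker_eq_bot.mpr (fullOverJ W N).val.injective)
    have h3 := h2.comp (Fin.cast hdeg.symm) (Fin.cast_injective _)
    exact h3

omit [NeZero N] in
/-- Every element of `F_κ` is the reduction of an element of
`goodRing W N = F_L ∩ contentRing W`. -/
theorem exists_lift_of_mem_fullC {g : LaurentSeries (IsLocalRing.ResidueField W)}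
    (hg : g ∈ modularFunctionFieldFullC (IsLocalRing.ResidueField W) N) :
    ∃ (f : LaurentSeries L) (hf : f ∈ goodRing W N),
      red W ⟨f, goodRing_le_contentRing W N hf⟩ = g := by
  obtain ⟨x, y, hx, hy, hy0, h⟩ := mem_liftField_of_mem_fullC W N hg
  have hy0' : toL W y ≠ 0 := fun h0 => hy0 (by rw [(toL_eq_zero_iff W y).mp h0, map_zero])
  have hmul : toL W x / toL W y * toL W y = toL W x := div_mul_cancel₀ _ hy0'
  refine ⟨toL W x / toL W y, ⟨x, y, hx, hy, hy0, hmul⟩, ?_⟩
  rw [red_mk_eq W _ hy0 hmul, ← h, mul_div_assoc, div_self hy0, mul_one]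

/-- **Primitive orthonormal basis.** There is `θ ∈ F_L ∩ contentRing W` whose reduction `t`
is separable of degree `ψ(N)` over `κ(j̄)`, such that `1, θ, …, θ^(ψ(N)-1)` is an orthonormal
`L(j)`-basis of `F_L`: linearly independent over `L(j)`, spanning `F_L`, and an
`L(j)`-combination is in the content ring only if its coefficients are. -/
theorem exists_primitive_orthonormal [PerfectField (IsLocalRing.ResidueField W)]
    (hℓN : ¬ ℓ ∣ N) :
    ∃ (θ : LaurentSeries L) (hθ : θ ∈ goodRing W N),
      IsIntegral (kJ W) (red W ⟨θ, goodRing_le_contentRing W N hθ⟩) ∧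
      (minpoly (kJ W) (red W ⟨θ, goodRing_le_contentRing W N hθ⟩)).Separable ∧
      (minpoly (kJ W) (red W ⟨θ, goodRing_le_contentRing W N hθ⟩)).natDegree = dedekindPsi N ∧
      LinearIndependent (kJ W) (fun i : Fin (dedekindPsi N) =>
        (red W ⟨θ, goodRing_le_contentRing W N hθ⟩) ^ (i : ℕ)) ∧
      (∀ c : Fin (dedekindPsi N) → LaurentSeries L,
        (∀ i, c i ∈ IntermediateField.adjoin L {jqModC L}) →
        ∑ i, c i * θ ^ (i : ℕ) = 0 → ∀ i, c i = 0) ∧
      (∀ c : Fin (dedekindPsi N) → LaurentSeries L,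
        (∀ i, c i ∈ IntermediateField.adjoin L {jqModC L}) →
        ∑ i, c i * θ ^ (i : ℕ) ∈ contentRing W → ∀ i, c i ∈ contentRing W) ∧
      (∀ x ∈ laurentBaseChange L (modularFunctionFieldFull N),
        ∃ c : Fin (dedekindPsi N) → LaurentSeries L,
          (∀ i, c i ∈ IntermediateField.adjoin L {jqModC L}) ∧
          x = ∑ i, c i * θ ^ (i : ℕ)) := by
  obtain ⟨t, ht, hint, hsep, hdeg, hpow⟩ := exists_primitive_res W N ℓ hℓN
  obtain ⟨θ, hθ, rfl⟩ := exists_lift_of_mem_fullC W N ht
  have hθW := goodRing_le_contentRing W N hθ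
  have hb : ∀ i : Fin (dedekindPsi N), θ ^ (i : ℕ) ∈ contentRing W := fun i => pow_mem hθW _
  have hli' : LinearIndependent (kJ W)
      (fun i : Fin (dedekindPsi N) => red W ⟨θ ^ (i : ℕ), hb i⟩) := by
    have hfun : (fun i : Fin (dedekindPsi N) => red W ⟨θ ^ (i : ℕ), hb i⟩) =
        fun i : Fin (dedekindPsi N) => (red W ⟨θ, hθW⟩) ^ (i : ℕ) := by
      funext i
      rw [← map_pow]
      rfl
    rw [hfun]
    exact hpow
  have hind := orthonormal_indep W (fun i : Fin (dedekindPsi N) => θ ^ (i : ℕ)) hb hli'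
  refine ⟨θ, hθ, hint, hsep, hdeg, hpow, hind, ?_, ?_⟩
  · exact orthonormal_mem W (fun i : Fin (dedekindPsi N) => θ ^ (i : ℕ)) hb hli'
  · intro x hx
    exact span_of_indep L N (fun i : Fin (dedekindPsi N) => θ ^ (i : ℕ))
      (fun i => pow_mem (goodRing_le_full W N hθ) _) hind hx

end Main

end Fermat.Agent.S18.GaussRes
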