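import Mathlib
import Fermat.Agent.S18.HesseJ
import Fermat.Agent.S18.HorizUCharts
import Fermat.Agent.S18.TowerUnram

/-!
# The Hesse chart: the purity hypothesis `hU` at the horizontal primes

`R0 = HesJ W`, `BM = HesJ L`, `K' = M = HesK L`, `Y' = HesY j = F2(x0)`.
-/

set_option autoImplicit false

namespace Fermat.Agent.S18

namespace Hesse

open Polynomial AuxCover

set_option linter.unusedSectionVars false
set_option linter.style.haveILetI false
set_option linter.unusedSimpArgs false

section KStructure

variable (L : Type*) [Field L] [CharZero L] (K : Type*) [Field K] [Algebra L[X] K]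
  [IsFractionRing L[X] K]

theorem isUnit_three : IsUnit (3 : L) := IsUnit.mk0 3 (by norm_num)

theorem algebraMap_poly_hesK_injective : Function.Injective (algebraMap L[X] (HesK L)) := by
  rw [IsScalarTower.algebraMap_eq L[X] (HesJ L) (HesK L)]
  exact (IsFractionRing.injective (HesJ L) (HesK L)).comp
    (algebraMap_hesJ_injective L (isUnit_three L))

/-- The `L(j)`-algebra structure of the function field `L(x)` of the Hesse chart, for any
fraction field `K` of `L[X]` (a reducible def, to be used with `letI`). -/
@[reducible] noncomputable def hesKAlgebra : Algebra K (HesK L) :=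
  (IsFractionRing.lift (K := K) (algebraMap_poly_hesK_injective L)).toAlgebra

theorem hesKAlgebra_isScalarTower :
    letI := hesKAlgebra L K
    IsScalarTower L[X] K (HesK L) := by
  letI := hesKAlgebra L K
  exact IsScalarTower.of_algebraMap_eq fun p =>
    (IsFractionRing.lift_algebraMap (K := K) (algebraMap_poly_hesK_injective L) p).symm

theorem hesKAlgebra_finiteDimensional :
    letI := hesKAlgebra L K
    FiniteDimensional K (HesK L) := by
  letI := hesKAlgebra L K
  haveI := hesKAlgebra_isScalarTower L K
  have h3 : (3 : L) ≠ 0 := by norm_num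
  exact hesJ_finiteDimensional K (HesK L) h3

theorem hesKAlgebra_isGalois (ω : L) (hω : ω ^ 2 + ω + 1 = 0) :
    letI := hesKAlgebra L K
    IsGalois K (HesK L) := by
  letI := hesKAlgebra L K
  haveI := hesKAlgebra_isScalarTower L K
  have h3 : (3 : L) ≠ 0 := by norm_num
  exact hesJ_isGalois K (HesK L) h3 ω hω

end KStructure

section Horizontal

variable {W L F2 : Type*} [CommRing W] [IsDomain W] [Field L] [CharZero L] [Algebra W L]
  [Field F2] [CharZero F2] [Algebra W F2] [Algebra L F2] [IsScalarTower W L F2]
  (j : F2) [htr : Fact (Transcendental L j)]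

variable (L) in
theorem hesY_root_mem_range : hesY_root j ∈ Set.range (algebraMap (HesK L) (HesY j)) :=
  ⟨algebraMap (HesJ L) (HesK L) (xJ L), by
    rw [← IsScalarTower.algebraMap_apply (HesJ L) (HesK L) (HesY j), algebraMap_hesY_xJ]⟩

variable (L) in
/-- `F2(x0)` is generated over `F2` by the image of `L(x)`. -/
theorem hesY_adjoin_range :
    IntermediateField.adjoin F2 (Set.range (algebraMap (HesK L) (HesY j))) = ⊤ := by
  rw [eq_top_iff, ← adjoin_hesY_root j]
  exact IntermediateField.adjoin.mono _ _ _
    (Set.singleton_subset_iff.mpr (hesY_root_mem_range L j))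

variable [Algebra L[X] F2] [IsScalarTower L L[X] F2]
  {K : Type*} [Field K] [Algebra L[X] K] [IsFractionRing L[X] K] [Algebra K F2]
  [IsScalarTower L[X] K F2]

/-- The `K = L(j)`-structures on `L(x)` and on `F2(x0)` (the latter through `F2`) are
compatible. -/
theorem hesKY_isScalarTower_frac (hj : algebraMap L[X] F2 X = j) :
    letI := hesKAlgebra L K
    IsScalarTower K (HesK L) (HesY j) := by
  letI := hesKAlgebra L K
  haveI := hesKAlgebra_isScalarTower L K
  haveI := hesY_isScalarTower_poly (W := L) j hj
  refine IsScalarTower.of_algebraMap_eq fun k => ?_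
  have h : algebraMap K (HesY j) =
      (algebraMap (HesK L) (HesY j)).comp (algebraMap K (HesK L)) := by
    refine IsLocalization.ringHom_ext (nonZeroDivisors L[X]) (RingHom.ext fun p => ?_)
    rw [RingHom.comp_apply, RingHom.comp_apply, RingHom.comp_apply,
      ← IsScalarTower.algebraMap_apply L[X] K (HesY j),
      ← IsScalarTower.algebraMap_apply L[X] K (HesK L),
      IsScalarTower.algebraMap_apply L[X] (HesJ L) (HesK L),
      ← IsScalarTower.algebraMap_apply (HesJ L) (HesK L) (HesY j),
      ← IsScalarTower.algebraMap_apply L[X] (HesJ L) (HesY j)]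
  exact congrArg (fun f : K →+* HesY j => f k) h

/-- `F2(x0)` is finite over `L(x)`. -/
theorem hesKY_finiteDimensional (hj : algebraMap L[X] F2 X = j) [FiniteDimensional K F2] :
    FiniteDimensional (HesK L) (HesY j) := by
  letI := hesKAlgebra L K
  haveI := hesKY_isScalarTower_frac (K := K) j hj
  haveI : FiniteDimensional K (HesY j) := FiniteDimensional.trans K F2 (HesY j)
  exact FiniteDimensional.right K (HesK L) (HesY j)

/-- **The horizontal primes of the Hesse chart.**  For every prime `𝔭` of `R0 = W[x, 1/(x³-1)]`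
not containing `π`, the trace form of the integral closure of `R0` in `F2(x0)` is nondegenerate
modulo `𝔭`, provided `F2/L(j)` is tamely ramified of index dividing `3` over `j = 0`, dividing
`2` over `j = 1728` and unramified elsewhere. -/
theorem hesse_hU_horizontal (hj : algebraMap L[X] F2 X = j) [FiniteDimensional K F2]
    {BF : Type*} [CommRing BF] [Algebra L[X] BF] [Algebra BF F2] [IsScalarTower L[X] BF F2]
    [IsIntegralClosure BF L[X] F2]
    (hF : ∀ P : Ideal BF, P.IsPrime → P ≠ ⊥ →
      (X ∈ P.under L[X] → P.ramificationIdx L[X] ∣ 3) ∧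
      (X - C 1728 ∈ P.under L[X] → P.ramificationIdx L[X] ∣ 2) ∧
      (X ∉ P.under L[X] → X - C 1728 ∉ P.under L[X] → P.ramificationIdx L[X] = 1))
    (ω : L) (hω : ω ^ 2 + ω + 1 = 0)
    (π : W) [IsLocalization.Away π L] (hinj : Function.Injective (algebraMap W L))
    {B : Type*} [CommRing B] [Algebra (HesJ W) B] [Algebra B (HesY j)]
    [IsScalarTower (HesJ W) B (HesY j)] [IsIntegralClosure B (HesJ W) (HesY j)]
    (𝔭 : Ideal (HesJ W)) [𝔭.IsPrime] (hπ𝔭 : algebraMap W[X] (HesJ W) (C π) ∉ 𝔭) :
    TowerUnram.TraceNondeg (HesJ W) (HesK L) (HesY j) B 𝔭 := by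
  intro x hx
  have h3 : (3 : L) ≠ 0 := by norm_num
  letI := hesKAlgebra L K
  haveI := hesKAlgebra_isScalarTower L K
  haveI := hesKY_isScalarTower_frac (K := K) j hj
  haveI : FiniteDimensional K (HesK L) := hesKAlgebra_finiteDimensional L K
  haveI : IsGalois K (HesK L) := hesKAlgebra_isGalois L K ω hω
  haveI : IsIntegralClosure (HesJ L) L[X] (HesK L) := hesJ_isIntegralClosure L h3 (HesK L)
  haveI : IsFractionRing (HesJ W) (HesK L) := hesK_isFractionRing W L π hinj
  haveI : IsLocalization.Away (algebraMap W[X] (HesJ W) (C π)) (HesJ L) :=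
    hesBC_isLocalization W L π hinj
  obtain ⟨u₀, g₀, hu₀, h₀⟩ := hesJ_branch_zero L h3
  obtain ⟨u₁, g₁, hu₁, h₁⟩ := hesJ_branch_1728 L h3
  exact HorizU.hU_finite_chart (K := K) (F := F2) (BF := BF) (BM := HesJ L)
    (BY := integralClosure (HesJ L) (HesY j)) (hesY_adjoin_range L j) hF u₀ g₀ u₁ g₁ hu₀ h₀ hu₁ h₁
    (algebraMap W[X] (HesJ W) (C π)) 𝔭 hπ𝔭 x hx

end Horizontal

end Hesse

end Fermat.Agent.S18
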