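import Mathlib
import Fermat.Agent.S18.HesseHoriz
import Fermat.Agent.S18.FiniteChartCore

/-!
# The Hesse chart: the finite chart theorem instantiated

`FiniteChartCore.finite_chart_lift` at `R0 = HesJ W`, `BM = HesJ L`, `K' = HesK L`,
`Y' = HesY j = F2(x0)`.
-/

set_option autoImplicit false

namespace Fermat.Agent.S18

namespace Hesse

open Polynomial AuxCover

set_option linter.unusedSectionVars false
set_option linter.style.haveILetI false
set_option linter.unusedSimpArgs false

/-- **The finite chart theorem for the Hesse cover** (residue characteristic prime to `3`, in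
particular `ℓ = 2`). -/
theorem hesse_finite_chart_lift
    {W k L K F F2 : Type*} [CommRing W] [IsDomain W] [IsNoetherianRing W] [IsIntegrallyClosed W]
    [Field k] [Field L] [CharZero L] [Algebra W L]
    [Field K] [Algebra L[X] K] [IsFractionRing L[X] K]
    [Field F] [Algebra K F]
    [Field F2] [CharZero F2] [Algebra K F2] [Algebra F F2] [IsScalarTower K F F2]
    [FiniteDimensional K F2]
    [Algebra L[X] F2] [IsScalarTower L[X] K F2] [Algebra W[X] F2]
    [Algebra W F2] [Algebra L F2] [IsScalarTower W L F2] [IsScalarTower L L[X] F2]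
    [IsScalarTower W W[X] F2]
    (j : F2) (hjL : algebraMap L[X] F2 X = j) (hjW : algebraMap W[X] F2 X = j)
    (htr : Transcendental L j)
    (ω : L) (hω : ω ^ 2 + ω + 1 = 0)
    (π : W) (hπ : Prime π) (hmax : (Ideal.span {π}).IsMaximal) (h3 : IsUnit (3 : W))
    [IsLocalization.Away π L] (hinj : Function.Injective (algebraMap W L))
    -- horizontal primes: branch data of `F2` over the `j`-line
    (hF : ∀ P : Ideal (integralClosure L[X] F2), P.IsPrime → P ≠ ⊥ →
      (X ∈ P.under L[X] → P.ramificationIdx L[X] ∣ 3) ∧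
      (X - C 1728 ∈ P.under L[X] → P.ramificationIdx L[X] ∣ 2) ∧
      (X ∉ P.under L[X] → X - C 1728 ∉ P.under L[X] → P.ramificationIdx L[X] = 1))
    -- vertical prime: the monogenic separable datum
    (κ₀ : Type*) [Field κ₀] [Algebra k[X] κ₀] [IsFractionRing k[X] κ₀]
    (res : W →+* k) (hres : Function.Surjective res) (hker : RingHom.ker res = Ideal.span {π})
    (θ : F) (hθ : IntermediateField.adjoin K {θ} = ⊤)
    (P : (W[X])[X]) (hP : P.Monic)
    (hPθ : eval₂ (algebraMap W[X] F2) (algebraMap F F2 θ) P = 0)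
    (hsep : ((P.map (mapRingHom res)).map (algebraMap k[X] κ₀)).Separable)
    -- vertical prime: the Kummer datum
    (s : ℕ) (hs : s.Prime) (hsπ : ¬ π ∣ (s : W))
    (ζ : L) (hζ : IsPrimitiveRoot ζ s)
    (u : F2) (hu : IntermediateField.adjoin F {u} = ⊤)
    (w : F) (hw0 : w ≠ 0) (huw : u ^ s = algebraMap F F2 w)
    (hw : IsGaussInt W[X] (C π) (algebraMap F F2 w))
    (hw' : IsGaussInt W[X] (C π) (algebraMap F F2 w)⁻¹)
    -- the idempotent
    (ε : F2) (hε : IsGaussInt W[X] (C π) ε)
    (hεε : ∃ d : F2, IsGaussInt W[X] (C π) d ∧ ε ^ 2 - ε = (C π : W[X]) • d) :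
    ∃ e : F2, IsIntegral W[X] e ∧ ∃ d : F2, IsGaussInt W[X] (C π) d ∧
      e - ε = (C π : W[X]) • d := by
  have h3L : (3 : L) ≠ 0 := by norm_num
  haveI : Fact (Transcendental L j) := ⟨htr⟩
  haveI : Algebra.IsIntegral W[X] (HesJ W) := hesJ_isIntegral W h3
  letI := hesKAlgebra L K
  haveI := hesKAlgebra_isScalarTower L K
  haveI := hesKY_isScalarTower_frac (K := K) j hjL
  haveI : FiniteDimensional K (HesK L) := hesKAlgebra_finiteDimensional L K
  haveI : IsGalois K (HesK L) := hesKAlgebra_isGalois L K ω hω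
  haveI : IsIntegralClosure (HesJ L) L[X] (HesK L) := hesJ_isIntegralClosure L h3L (HesK L)
  haveI : IsFractionRing (HesJ W) (HesK L) := hesK_isFractionRing W L π hinj
  haveI : IsLocalization.Away (algebraMap W[X] (HesJ W) (C π)) (HesJ L) :=
    hesBC_isLocalization W L π hinj
  haveI : IsScalarTower W[X] (HesJ W) (HesY j) := hesY_isScalarTower_poly (W := W) j hjW
  obtain ⟨u₀, g₀, hu₀, h₀⟩ := hesJ_branch_zero L h3L
  obtain ⟨u₁, g₁, hu₁, h₁⟩ := hesJ_branch_1728 L h3L
  have hsπ' : ¬ algebraMap W[X] (HesJ W) (C π) ∣ ((s : ℕ) : HesJ W) := by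
    intro hdvd
    apply hsπ
    have h1 : ((s : ℕ) : HesJ W) = algebraMap W[X] (HesJ W) (C (s : W)) := by
      rw [algebraMap_hesJ_C, map_natCast]
    rw [h1] at hdvd
    have h2 := hesJ_compat W h3 hπ hmax _ hdvd
    exact (Polynomial.C_dvd_iff_dvd_coeff _ _).mp h2 0 |> fun h => by simpa using h
  have hζ' : IsPrimitiveRoot (algebraMap (HesJ L) (HesK L) (algebraMap L (HesJ L) ζ)) s := by
    have hinj' : Function.Injective
        ((algebraMap (HesJ L) (HesK L)).comp (algebraMap L (HesJ L))) :=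
      (IsFractionRing.injective (HesJ L) (HesK L)).comp (algebraMap L (HesJ L)).injective
    exact hζ.map_of_injective hinj'
  exact FiniteChartCore.finite_chart_lift (K := K) (F := F) (R0 := HesJ W) (BM := HesJ L)
    (K' := HesK L) (Y' := HesY j) (hesY_adjoin_range L j) π (hesJ_prime W hπ)
    (hesJ_quotient_isDedekindDomain W hπ hmax) (hesJ_compat W h3 hπ hmax) hF
    u₀ g₀ u₁ g₁ hu₀ h₀ hu₁ h₁ κ₀ res hres (hesJ_dvd_iff W h3 hπ hmax res hker)
    θ hθ P hP hPθ hsep s hs hsπ' _ hζ' u hu w hw0 huw hw hw' ε hε hεε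

end Hesse

end Fermat.Agent.S18
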