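import Mathlib
import Fermat.Agent.S18.HesseHoriz
import Fermat.Agent.S18.FiniteChartK
import Fermat.Agent.S18.KSetupDVR

/-!
# The finite chart contract at `ℓ = 2` (Hesse cover)
-/

set_option autoImplicit false

namespace Fermat.Agent.S18

namespace Hesse

open Polynomial AuxCover Contracts

set_option linter.unusedSectionVars false
set_option linter.style.haveILetI false
set_option linter.unusedSimpArgs false

/-- **The finite chart contract for residue characteristic `ℓ ≠ 3`**, via the Hesse cover. -/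
theorem hesse_chartLift_of_ne_three (N : ℕ) [NeZero N] (ℓ : ℕ) (hℓ : ℓ ≠ 3) :
    Contracts.FiniteChartLift N ℓ := by
  intro L _ _ ι W s Z1 Z2 h π hπ0 F2 _ _ u hu hdeg
  haveI := h.dvr
  haveI : CharZero L := algebraRat.charZero L
  haveI : CharZero F2 := KSetup.charZero_F2 (L := L) (N := N) F2
  -- the structures on `F2`
  letI algL : Algebra L F2 :=
    ((algebraMap (S24.FF L N) F2).comp (algebraMap L (S24.FF L N))).toAlgebra
  haveI : IsScalarTower L (S24.FF L N) F2 := IsScalarTower.of_algebraMap_eq (fun _ => rfl)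
  letI algW : Algebra ↥W F2 := (toF2 W N F2).toAlgebra
  haveI : IsScalarTower ↥W L F2 := IsScalarTower.of_algebraMap_eq (fun _ => rfl)
  letI algWX : Algebra (↥W)[X] F2 := (evAt W N (jF2 L N F2)).toAlgebra
  have hW : algebraMap (↥W)[X] F2 = evAt W N (jF2 L N F2) := rfl
  haveI : IsScalarTower ↥W (↥W)[X] F2 :=
    IsScalarTower.of_algebraMap_eq (fun a => (ContractsEps.evAt_C W N F2 (jF2 L N F2) a).symm)
  letI algLX : Algebra L[X] F2 := FFKit.polyAlgebra (jF2 L N F2)
  haveI : IsScalarTower L L[X] F2 := FFKit.polyAlgebra_isScalarTower (jF2 L N F2)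
  have htr : Transcendental L (jF2 L N F2) := KSetup.transcendental_jF2 ι N F2
  letI algK : Algebra (FractionRing L[X]) F2 :=
    FFKit.ratAlgebra (FractionRing L[X]) (jF2 L N F2) htr
  haveI : IsScalarTower L[X] (FractionRing L[X]) F2 :=
    FFKit.ratAlgebra_isScalarTower (FractionRing L[X]) (jF2 L N F2) htr
  have hjL : algebraMap L[X] F2 X = jF2 L N F2 := FFKit.polyAlgebra_X (jF2 L N F2)
  have hjW : algebraMap (↥W)[X] F2 X = jF2 L N F2 := ContractsEps.evAt_X W N F2 (jF2 L N F2)
  have hA : ∀ p : L[X], algebraMap L[X] F2 p =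
      algebraMap (S24.FF L N) F2 (aeval (S24.jBC L N) p) := by
    intro p
    show aeval (jF2 L N F2) p = _
    rw [jF2, aeval_algebraMap_apply]
  -- the DVR facts
  have hπ : Prime π := KSetup.prime_pi h hπ0
  have hmax : (Ideal.span {π}).IsMaximal := KSetup.isMaximal_span h hπ0
  have h3 : IsUnit (3 : ↥W) := KSetup.isUnit_three h hℓ
  haveI : IsLocalization.Away π L := KSetup.isLocalization_away h hπ0
  have hinj : Function.Injective (algebraMap ↥W L) := Subtype.val_injective
  obtain ⟨ω, -, hω⟩ := KSetup.exists_omega_L h hℓ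
  have h3L : (3 : L) ≠ 0 := by norm_num
  -- the Hesse chart
  haveI : Fact (Transcendental L (jF2 L N F2)) := ⟨htr⟩
  haveI : Algebra.IsIntegral (↥W)[X] (HesJ ↥W) := hesJ_isIntegral ↥W h3
  letI := hesKAlgebra L (FractionRing L[X])
  haveI := hesKAlgebra_isScalarTower L (FractionRing L[X])
  haveI := hesKY_isScalarTower_frac (K := FractionRing L[X]) (jF2 L N F2) hjL
  haveI : FiniteDimensional (FractionRing L[X]) (HesK L) :=
    hesKAlgebra_finiteDimensional L (FractionRing L[X])
  haveI : IsGalois (FractionRing L[X]) (HesK L) :=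
    hesKAlgebra_isGalois L (FractionRing L[X]) ω hω
  haveI : IsIntegralClosure (HesJ L) L[X] (HesK L) := hesJ_isIntegralClosure L h3L (HesK L)
  haveI : IsFractionRing (HesJ ↥W) (HesK L) := hesK_isFractionRing ↥W L π hinj
  haveI : IsLocalization.Away (algebraMap (↥W)[X] (HesJ ↥W) (C π)) (HesJ L) :=
    hesBC_isLocalization ↥W L π hinj
  haveI : IsScalarTower (↥W)[X] (HesJ ↥W) (HesY (jF2 L N F2)) :=
    hesY_isScalarTower_poly (W := ↥W) (jF2 L N F2) hjW
  obtain ⟨u₀, g₀, hu₀, h₀⟩ := hesJ_branch_zero L h3L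
  obtain ⟨u₁, g₁, hu₁, h₁⟩ := hesJ_branch_1728 L h3L
  exact FiniteChartK.finite_chart_contract h π hπ0 F2 u hu hdeg (K := FractionRing L[X])
    (R0 := HesJ ↥W) (BM := HesJ L) (K' := HesK L) (Y' := HesY (jF2 L N F2)) hA hW
    (hesY_adjoin_range L (jF2 L N F2)) (hesJ_prime ↥W hπ)
    (hesJ_quotient_isDedekindDomain ↥W hπ hmax) (hesJ_compat ↥W h3 hπ hmax)
    u₀ g₀ u₁ g₁ hu₀ h₀ hu₁ h₁
    (hesJ_dvd_iff ↥W h3 hπ hmax (IsLocalRing.residue ↥W) (KSetup.ker_residue h hπ0))

/-- **The finite chart contract at `ℓ = 2`** (also proved as `HesseLift.hesse_chartLift`). -/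
theorem hesse_chartLift_two (N : ℕ) [NeZero N] : Contracts.FiniteChartLift N 2 :=
  hesse_chartLift_of_ne_three N 2 (by norm_num)

end Hesse

end Fermat.Agent.S18
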