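/-
S18, package P8 (helper2), part AC: the Kummer step in abstract form.

Setting: a field `F` (function field over the fraction field of a noetherian ring `W`), two
integrally closed charts `R₁ ∋ j`, `R₂ ∋ j⁻¹`, a "Gauss ring" `O ⊇ R₁, R₂` in which `π` is not a
unit and in which the two charts are saturated, and a Kummer extension `F2 = F(u)`, `u ^ s = w`,
of degree `s ≥ 2` with `w ≡ 1` modulo `π O`.  If on both charts `w` is, up to an `s`-th power of
an element `≡ 1`, an element of the chart (`c_i ^ s * w ∈ R_i`), if the integral closure of `R₁`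
in `F2` is a finite `W[j]`-module, and if the only elements of `F2` integral over both charts are
the constants, we derive a contradiction: the "sheet idempotent" `(1/s) Σ (c_i u) ^ k` would be
congruent to a constant modulo `π` (two-chart formal functions lemma), which is refuted by a trace
computation.
-/
import Mathlib
import Fermat.Agent.S18.TwoChart

set_option autoImplicit false

namespace Fermat.Agent.S18.KummerChart

open Polynomial

section Trace

variable {F F2 : Type*} [Field F] [Field F2] [Algebra F F2]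

/-- In a Kummer extension `F2 = F(u)`, `u ^ s = w`, of degree `s`, the powers `u ^ m`,
`0 < m < s`, have trace zero. -/
theorem trace_pow_eq_zero (s : ℕ) (w : F) (u : F2) (hu : u ^ s = algebraMap F F2 w)
    (hind : LinearIndependent F (fun i : Fin s => u ^ (i : ℕ)))
    (hdeg : Module.finrank F F2 = s) (m : ℕ) (hm0 : 0 < m) (hms : m < s) :
    Algebra.trace F F2 (u ^ m) = 0 := by
  classical
  have : Nonempty (Fin s) := ⟨⟨0, by omega⟩⟩
  let b : Module.Basis (Fin s) F F2 :=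
    basisOfLinearIndependentOfCardEqFinrank hind (by simp [hdeg])
  have hb : ∀ k : Fin s, b k = u ^ (k : ℕ) := fun k => by
    simp [b]
  rw [Algebra.trace_eq_matrix_trace b, Matrix.trace]
  apply Finset.sum_eq_zero
  intro k _
  rw [Matrix.diag_apply, Algebra.leftMulMatrix_eq_repr_mul, hb k, ← pow_add]
  by_cases h : m + (k : ℕ) < s
  · have h1 : u ^ (m + (k : ℕ)) = b ⟨m + k, h⟩ := by rw [hb]
    rw [h1, Module.Basis.repr_self, Finsupp.single_apply, if_neg]
    intro heq
    have := congrArg Fin.val heq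
    simp at this
    omega
  · have hk := k.2
    have h1 : u ^ (m + (k : ℕ)) = w • b ⟨m + k - s, by omega⟩ := by
      rw [hb, Algebra.smul_def, ← hu, ← pow_add]
      congr 1
      simp only
      omega
    rw [h1, map_smul, Module.Basis.repr_self, Finsupp.smul_apply, Finsupp.single_apply, if_neg,
      smul_zero]
    intro heq
    have := congrArg Fin.val heq
    simp at this
    omega

end Trace

section Scale

variable {W F F2 : Type*} [CommRing W] [Field F] [Field F2] [Algebra W F] [Algebra F F2]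

/-- If `R₂ ⊆ R₁[1/j]`, then every element integral over `R₂` becomes integral over `R₁` after
multiplication by a power of `j`. -/
theorem exists_pow_mul_isIntegral (R₁ R₂ : Subalgebra W F) (j : F) (hj₁ : j ∈ R₁)
    (h₂₁ : ∀ x ∈ R₂, ∃ n : ℕ, j ^ n * x ∈ R₁) (x : F2) (hx : IsIntegral R₂ x) :
    ∃ n : ℕ, IsIntegral R₁ (algebraMap F F2 j ^ n * x) := by
  classical
  obtain ⟨P, hP, hPx⟩ := hx
  have hPx' : aeval x (P.map (algebraMap R₂ F)) = 0 := by
    rw [aeval_map_algebraMap]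
    exact hPx
  choose N hN using fun i : ℕ => h₂₁ (P.coeff i : F) (P.coeff i).2
  set n := ∑ i ∈ Finset.range P.natDegree, N i with hn
  have hpow : ∀ m : ℕ, j ^ m ∈ R₁ := fun m => R₁.pow_mem hj₁ m
  have hmon : (P.map (algebraMap R₂ F)).Monic := hP.map _
  have hdeg : (P.map (algebraMap R₂ F)).natDegree = P.natDegree := hP.natDegree_map _
  set Q := scaleRoots (P.map (algebraMap R₂ F)) (j ^ n) with hQ
  have hQmon : Q.Monic := by
    rw [hQ, monic_scaleRoots_iff]
    exact hmon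
  have hQx : aeval (algebraMap F F2 j ^ n * x) Q = 0 := by
    rw [← map_pow]
    exact scaleRoots_aeval_eq_zero hPx'
  have hlift : Q ∈ lifts (algebraMap R₁ F) := by
    rw [lifts_iff_coeff_lifts]
    intro i
    rw [hQ, coeff_scaleRoots, hdeg, coeff_map]
    rcases lt_trichotomy i P.natDegree with hi | hi | hi
    · have hle : N i ≤ n := by
        rw [hn]
        exact Finset.single_le_sum (f := N) (fun _ _ => Nat.zero_le _) (Finset.mem_range.mpr hi)
      have h1 : (j ^ n) ^ (P.natDegree - i) = j ^ (n * (P.natDegree - i) - N i) * j ^ N i := by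
        rw [← pow_mul, ← pow_add]
        congr 1
        have : N i ≤ n * (P.natDegree - i) := by
          calc N i ≤ n := hle
            _ = n * 1 := (mul_one n).symm
            _ ≤ n * (P.natDegree - i) := Nat.mul_le_mul_left n (by omega)
        omega
      have h2 : algebraMap R₂ F (P.coeff i) * (j ^ n) ^ (P.natDegree - i) ∈ R₁ := by
        rw [h1]
        have h3 : algebraMap R₂ F (P.coeff i) * (j ^ (n * (P.natDegree - i) - N i) * j ^ N i)
            = j ^ (n * (P.natDegree - i) - N i) * (j ^ N i * (P.coeff i : F)) := by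
          have : algebraMap R₂ F (P.coeff i) = (P.coeff i : F) := rfl
          rw [this]; ring
        rw [h3]
        exact R₁.mul_mem (hpow _) (hN i)
      exact ⟨⟨_, h2⟩, rfl⟩
    · subst hi
      have : P.coeff P.natDegree = 1 := hP
      rw [this]
      exact ⟨1, by simp⟩
    · rw [coeff_eq_zero_of_natDegree_lt hi]
      exact ⟨0, by simp⟩
  obtain ⟨q, hq, -, hqmon⟩ := lifts_and_natDegree_eq_and_monic hlift hQmon
  refine ⟨n, q, hqmon, ?_⟩
  have : aeval (algebraMap F F2 j ^ n * x) (q.map (algebraMap R₁ F)) = 0 := by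
    rw [hq]; exact hQx
  rw [aeval_map_algebraMap] at this
  exact this

end Scale

section Main

variable {W F F2 : Type*} [CommRing W] [Field F] [Field F2]
  [Algebra W F] [Algebra F F2] [Algebra W F2] [IsScalarTower W F F2]

/-- The integral closure in `F2` of a chart `R ⊆ F`, as a `W`-subalgebra of `F2`. -/
def intCl (R : Subalgebra W F) : Subalgebra W F2 where
  carrier := {x | IsIntegral R x}
  mul_mem' := fun hx hy => IsIntegral.mul hx hy
  add_mem' := fun hx hy => IsIntegral.add hx hy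
  algebraMap_mem' := fun r => by
    have h : algebraMap W F2 r = algebraMap R F2 (algebraMap W R r) := by
      rw [IsScalarTower.algebraMap_apply W F F2]; rfl
    show IsIntegral R (algebraMap W F2 r)
    rw [h]
    exact isIntegral_algebraMap

theorem mem_intCl (R : Subalgebra W F) (x : F2) :
    x ∈ (intCl R : Subalgebra W F2) ↔ IsIntegral R x := Iff.rfl

theorem algebraMap_mem_intCl (R : Subalgebra W F) (r : F) (hr : r ∈ R) :
    algebraMap F F2 r ∈ (intCl R : Subalgebra W F2) :=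
  isIntegral_algebraMap (x := (⟨r, hr⟩ : R))

/-- The localisation at `j` of the integral closure of `R` in `F2`. -/
def locCl (R : Subalgebra W F) (j : F) (hj : j ∈ R) : Subalgebra W F2 where
  carrier := {x | ∃ n : ℕ, IsIntegral R (algebraMap F F2 j ^ n * x)}
  mul_mem' := by
    rintro x y ⟨n, hn⟩ ⟨m, hm⟩
    refine ⟨n + m, ?_⟩
    have h : algebraMap F F2 j ^ (n + m) * (x * y)
        = (algebraMap F F2 j ^ n * x) * (algebraMap F F2 j ^ m * y) := by ring
    rw [h]
    exact IsIntegral.mul hn hm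
  add_mem' := by
    rintro x y ⟨n, hn⟩ ⟨m, hm⟩
    refine ⟨n + m, ?_⟩
    have hJ : IsIntegral R (algebraMap F F2 j) := algebraMap_mem_intCl R j hj
    have h : algebraMap F F2 j ^ (n + m) * (x + y)
        = algebraMap F F2 j ^ m * (algebraMap F F2 j ^ n * x)
          + algebraMap F F2 j ^ n * (algebraMap F F2 j ^ m * y) := by ring
    rw [h]
    exact IsIntegral.add (IsIntegral.mul (hJ.pow m) hn) (IsIntegral.mul (hJ.pow n) hm)
  algebraMap_mem' := fun r => ⟨0, by
    rw [pow_zero, one_mul]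
    exact (intCl R).algebraMap_mem r⟩

/-- **The Kummer step, two-chart form.** -/
theorem two_chart_kummer [IsNoetherianRing W]
    (π : W) (s : ℕ) (hs : 2 ≤ s) (sinv : W) (hsinv : (s : W) * sinv = 1)
    (j : F) (hj : j ≠ 0)
    (R₁ R₂ : Subalgebra W F)
    (hR₁ : ∀ x : F, IsIntegral R₁ x → x ∈ R₁) (hR₂ : ∀ x : F, IsIntegral R₂ x → x ∈ R₂)
    (hj₁ : j ∈ R₁) (hj₂ : j⁻¹ ∈ R₂)
    (h₂₁ : ∀ x ∈ R₂, ∃ n : ℕ, j ^ n * x ∈ R₁)
    (h₁₂ : ∀ x ∈ R₁, ∃ n : ℕ, j⁻¹ ^ n * x ∈ R₂)
    (O : Subring F) (hR₁O : ∀ x ∈ R₁, x ∈ O) (hR₂O : ∀ x ∈ R₂, x ∈ O)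
    (hsat₁ : ∀ x ∈ O, algebraMap W F π * x ∈ R₁ → x ∈ R₁)
    (hsat₂ : ∀ x ∈ O, algebraMap W F π * x ∈ R₂ → x ∈ R₂)
    (hπ : ∀ x ∈ O, algebraMap W F π * x ≠ 1)
    (w : F) (u : F2) (hu : u ^ s = algebraMap F F2 w)
    (hind : LinearIndependent F (fun i : Fin s => u ^ (i : ℕ))) (hdeg : Module.finrank F F2 = s)
    (c₁ c₂ : F) (hc₁ : c₁ ^ s * w ∈ R₁) (hc₂ : c₂ ^ s * w ∈ R₂)
    (hc₁O : ∃ d ∈ O, c₁ - 1 = algebraMap W F π * d)
    (hc₂O : ∃ d ∈ O, c₂ - 1 = algebraMap W F π * d)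
    (hwO : ∃ d ∈ O, w - 1 = algebraMap W F π * d)
    (hfin : ∃ (n : ℕ) (g : Fin n → F2), (∀ i, IsIntegral R₁ (g i)) ∧
        ∀ y : F2, IsIntegral R₁ y → ∃ p : Fin n → Polynomial W,
          y = ∑ i, algebraMap F F2 (Polynomial.aeval j (p i)) * g i)
    (hH0 : ∀ x : F2, IsIntegral R₁ x → IsIntegral R₂ x → ∃ c : W, x = algebraMap W F2 c) :
    False := by
  classical
  have hs0 : 0 < s := by omega
  have : FiniteDimensional F F2 := Module.finite_of_finrank_pos (by omega)
  set p : F := algebraMap W F π with hp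
  have hpR₁ : p ∈ R₁ := R₁.algebraMap_mem π
  have hpO : p ∈ O := hR₁O p hpR₁
  have hAp : algebraMap F F2 p = algebraMap W F2 π := by
    rw [hp, ← IsScalarTower.algebraMap_apply]
  -- congruences modulo `p O`
  have cong_mem : ∀ x : F, (∃ d ∈ O, x - 1 = p * d) → x ∈ O := by
    rintro x ⟨d, hd, hx⟩
    have : x = 1 + p * d := by rw [← hx]; ring
    rw [this]
    exact O.add_mem O.one_mem (O.mul_mem hpO hd)
  have cong_mul : ∀ x y : F, (∃ d ∈ O, x - 1 = p * d) → (∃ d ∈ O, y - 1 = p * d) →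
      ∃ d ∈ O, x * y - 1 = p * d := by
    intro x y hx hy
    have hyO := cong_mem y hy
    obtain ⟨d, hd, hx⟩ := hx
    obtain ⟨d', hd', hy⟩ := hy
    refine ⟨d * y + d', O.add_mem (O.mul_mem hd hyO) hd', ?_⟩
    linear_combination y * hx + hy
  have cong_pow : ∀ (x : F) (n : ℕ), (∃ d ∈ O, x - 1 = p * d) → ∃ d ∈ O, x ^ n - 1 = p * d := by
    intro x n hx
    induction n with
    | zero => exact ⟨0, O.zero_mem, by ring⟩
    | succ n ih =>
      rw [pow_succ]
      exact cong_mul _ _ ih hx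
  have hwO' : w ∈ O := cong_mem w hwO
  -- iterated saturation
  have sat_pow₁ : ∀ (m : ℕ) (x : F), x ∈ O → p ^ m * x ∈ R₁ → x ∈ R₁ := by
    intro m
    induction m with
    | zero => intro x _ hx; simpa using hx
    | succ m ih =>
      intro x hxO hx
      refine ih x hxO (hsat₁ _ (O.mul_mem (O.pow_mem hpO m) hxO) ?_)
      have : p * (p ^ m * x) = p ^ (m + 1) * x := by ring
      rw [this]; exact hx
  -- the two charts in `F2`
  set J : F2 := algebraMap F F2 j with hJ
  set B1 : Subalgebra W F2 := intCl R₁ with hB1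
  set B2 : Subalgebra W F2 := intCl R₂ with hB2
  set B12 : Subalgebra W F2 := locCl R₁ j hj₁ with hB12
  have hJ1 : J ∈ B1 := algebraMap_mem_intCl R₁ j hj₁
  have hJinv2 : algebraMap F F2 j⁻¹ ∈ B2 := algebraMap_mem_intCl R₂ j⁻¹ hj₂
  have hJJ : J * algebraMap F F2 j⁻¹ = 1 := by
    rw [hJ, ← map_mul, mul_inv_cancel₀ hj, map_one]
  have h1 : B1 ≤ B12 := fun x hx => ⟨0, by rw [pow_zero, one_mul]; exact hx⟩
  have h2 : B2 ≤ B12 := fun x hx => exists_pow_mul_isIntegral R₁ R₂ j hj₁ h₂₁ x hx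
  -- the Kummer generators and sheet idempotents
  set σ : F2 := algebraMap W F2 sinv with hσ
  have hSσ : (s : F2) * σ = 1 := by
    rw [hσ, ← map_natCast (algebraMap W F2), ← map_mul, hsinv, map_one]
  -- data attached to one chart
  have key : ∀ (R : Subalgebra W F) (c : F), (∀ x ∈ R, x ∈ O) →
      (∀ x ∈ O, p * x ∈ R → x ∈ R) → c ^ s * w ∈ R → (∃ d ∈ O, c - 1 = p * d) →
      ∃ δ ∈ R, c ^ s * w - 1 = p * δ ∧ IsIntegral R (algebraMap F F2 c * u) ∧
        ∃ a ∈ (intCl R : Subalgebra W F2),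
          (σ * ∑ k ∈ Finset.range s, (algebraMap F F2 c * u) ^ k) ^ 2
            - σ * ∑ k ∈ Finset.range s, (algebraMap F F2 c * u) ^ k = π • a := by
    intro R c hRO hsat hc hcO
    obtain ⟨δ, hδO, hδ⟩ := cong_mul _ _ (cong_pow c s hcO) hwO
    have hδR : δ ∈ R := by
      refine hsat δ hδO ?_
      rw [← hδ]
      exact R.sub_mem hc R.one_mem
    set y : F2 := algebraMap F F2 c * u with hy
    have hys : y ^ s = algebraMap F F2 (c ^ s * w) := by
      rw [hy, mul_pow, hu, map_mul, map_pow]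
    have hyint : IsIntegral R y := by
      refine IsIntegral.of_pow hs0 ?_
      rw [hys]
      exact algebraMap_mem_intCl R _ hc
    refine ⟨δ, hδR, hδ, hyint, ?_⟩
    set N : F2 := ∑ k ∈ Finset.range s, y ^ k with hN
    set G : F2 := ∑ i ∈ Finset.range s, ∑ k ∈ Finset.range i, y ^ k with hG
    have hN1 : N * (y - 1) = y ^ s - 1 := geom_sum_mul y s
    have hG1 : N - (s : F2) = G * (y - 1) := by
      rw [hG, Finset.sum_mul, hN]
      have : ∀ i ∈ Finset.range s, (∑ k ∈ Finset.range i, y ^ k) * (y - 1) = y ^ i - 1 :=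
        fun i _ => geom_sum_mul y i
      rw [Finset.sum_congr rfl this, Finset.sum_sub_distrib]
      simp
    have hε : algebraMap F F2 (c ^ s * w) - 1 = algebraMap W F2 π * algebraMap F F2 δ := by
      rw [← hAp, ← map_mul, ← hδ, map_sub, map_one]
    have hGint : G ∈ (intCl R : Subalgebra W F2) :=
      Subalgebra.sum_mem _ fun i _ => Subalgebra.sum_mem _ fun k _ =>
        Subalgebra.pow_mem _ hyint k
    refine ⟨σ ^ 2 * algebraMap F F2 δ * G, ?_, ?_⟩
    · exact Subalgebra.mul_mem _ (Subalgebra.mul_mem _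
        (Subalgebra.pow_mem _ (Subalgebra.algebraMap_mem _ sinv) 2)
        (algebraMap_mem_intCl R δ hδR)) hGint
    · rw [Algebra.smul_def]
      linear_combination (σ * N) * hSσ + (σ ^ 2 * N) * hG1 + (σ ^ 2 * G) * hN1
        + (σ ^ 2 * G) * hys + (σ ^ 2 * G) * hε
  obtain ⟨δ₁, hδ₁R, hδ₁, hy₁int, a₁, ha₁, hid1⟩ := key R₁ c₁ hR₁O hsat₁ hc₁ hc₁O
  obtain ⟨δ₂, hδ₂R, hδ₂, hy₂int, a₂, ha₂, hid2⟩ := key R₂ c₂ hR₂O hsat₂ hc₂ hc₂O
  set y₁ : F2 := algebraMap F F2 c₁ * u with hy₁
  set y₂ : F2 := algebraMap F F2 c₂ * u with hy₂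
  set e₁ : F2 := σ * ∑ k ∈ Finset.range s, y₁ ^ k with he₁
  set e₂ : F2 := σ * ∑ k ∈ Finset.range s, y₂ ^ k with he₂
  have hσB : ∀ B : Subalgebra W F2, σ ∈ B := fun B => B.algebraMap_mem sinv
  have he₁B : e₁ ∈ B1 :=
    B1.mul_mem (hσB B1) (Subalgebra.sum_mem _ fun k _ => Subalgebra.pow_mem _ hy₁int k)
  have he₂B : e₂ ∈ B2 :=
    B2.mul_mem (hσB B2) (Subalgebra.sum_mem _ fun k _ => Subalgebra.pow_mem _ hy₂int k)
  -- agreement on the overlap
  obtain ⟨d₁, hd₁O, hd₁⟩ := hc₁O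
  obtain ⟨d₂, hd₂O, hd₂⟩ := hc₂O
  set d₀ : F := d₁ - d₂ with hd₀
  have hd₀O : d₀ ∈ O := O.sub_mem hd₁O hd₂O
  have hcc : c₁ - c₂ = p * d₀ := by rw [hd₀]; linear_combination hd₁ - hd₂
  set x₀ : F2 := algebraMap F F2 d₀ * u with hx₀
  have hyy : y₁ - y₂ = algebraMap W F2 π * x₀ := by
    rw [hy₁, hy₂, hx₀, ← hAp, ← mul_assoc, ← map_mul, ← hcc, map_sub]; ring
  have hx₀B : x₀ ∈ B12 := by
    have hmem : algebraMap W F2 π * x₀ ∈ B12 := by
      rw [← hyy]
      exact B12.sub_mem (h1 hy₁int) (h2 hy₂int)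
    obtain ⟨n, hn⟩ := hmem
    refine ⟨n, ?_⟩
    have hx₀s : x₀ ^ s = algebraMap F F2 (d₀ ^ s * w) := by
      rw [hx₀, mul_pow, hu, map_mul, map_pow]
    have e1 : (algebraMap F F2 j ^ n * (algebraMap W F2 π * x₀)) ^ s
        = algebraMap F F2 (p ^ s * ((j ^ n) ^ s * (d₀ ^ s * w))) := by
      rw [mul_pow, mul_pow, hx₀s, ← hAp]
      simp only [map_mul, map_pow]
      ring
    have hz : p ^ s * ((j ^ n) ^ s * (d₀ ^ s * w)) ∈ R₁ := by
      apply hR₁
      rw [← isIntegral_algebraMap_iff (algebraMap F F2).injective, ← e1]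
      exact hn.pow s
    have hz' : (j ^ n) ^ s * (d₀ ^ s * w) ∈ R₁ :=
      sat_pow₁ s _ (O.mul_mem (O.pow_mem (O.pow_mem (hR₁O j hj₁) n) s)
        (O.mul_mem (O.pow_mem hd₀O s) hwO')) hz
    refine IsIntegral.of_pow hs0 ?_
    have e2 : (algebraMap F F2 j ^ n * x₀) ^ s
        = algebraMap F F2 ((j ^ n) ^ s * (d₀ ^ s * w)) := by
      rw [mul_pow, hx₀s]
      simp only [map_mul, map_pow]
    rw [e2]
    exact algebraMap_mem_intCl R₁ _ hz'
  have h12 : ∃ d ∈ B12, e₁ - e₂ = π • d := by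
    refine ⟨σ * (∑ k ∈ Finset.range s, ∑ i ∈ Finset.range k, y₁ ^ i * y₂ ^ (k - 1 - i)) * x₀,
      ?_, ?_⟩
    · refine B12.mul_mem (B12.mul_mem (hσB B12) ?_) hx₀B
      exact Subalgebra.sum_mem _ fun k _ => Subalgebra.sum_mem _ fun i _ =>
        B12.mul_mem (Subalgebra.pow_mem _ (h1 hy₁int) i) (Subalgebra.pow_mem _ (h2 hy₂int) _)
    · rw [Algebra.smul_def, he₁, he₂, ← mul_sub, ← Finset.sum_sub_distrib]
      have : ∀ k ∈ Finset.range s, y₁ ^ k - y₂ ^ k
          = (∑ i ∈ Finset.range k, y₁ ^ i * y₂ ^ (k - 1 - i)) * (algebraMap W F2 π * x₀) :=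
        fun k _ => by rw [← hyy, geom_sum₂_mul]
      rw [Finset.sum_congr rfl this, ← Finset.sum_mul]
      ring
  -- finiteness of `H¹`
  obtain ⟨n, g, hg, hgen⟩ := hfin
  have hD : ∀ i, ∃ D : ℕ, IsIntegral R₂ (algebraMap F F2 j⁻¹ ^ D * g i) := fun i =>
    exists_pow_mul_isIntegral R₂ R₁ j⁻¹ hj₂ h₁₂ (g i) (hg i)
  choose D hD using hD
  set d : ℕ := ∑ i, D i with hd
  have hdB : ∀ i, algebraMap F F2 j⁻¹ ^ d * g i ∈ B2 := by
    intro i
    have hle : D i ≤ d := by
      rw [hd]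
      exact Finset.single_le_sum (f := D) (fun _ _ => Nat.zero_le _) (Finset.mem_univ i)
    have e : algebraMap F F2 j⁻¹ ^ d * g i
        = algebraMap F F2 j⁻¹ ^ (d - D i) * (algebraMap F F2 j⁻¹ ^ D i * g i) := by
      rw [← mul_assoc, ← pow_add]
      congr 2
      omega
    rw [e]
    exact B2.mul_mem (Subalgebra.pow_mem _ hJinv2 _) (hD i)
  have hcover := TwoChart.cover_of_generators B1 B2 B12 J (algebraMap F F2 j⁻¹) hJ1 hJinv2 hJJ
    (fun x hx => hx) g hg
    (fun y hy => by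
      obtain ⟨q, hq⟩ := hgen y hy
      refine ⟨q, ?_⟩
      rw [hq]
      refine Finset.sum_congr rfl fun i _ => ?_
      rw [hJ, aeval_algebraMap_apply])
    d hdB
  obtain ⟨c, hcB1, hcB2, ⟨a, haB1, hca⟩, -⟩ :=
    TwoChart.exists_common_lift_of_fg W B1 B2 B12 h1 h2 _
      (TwoChart.fg_span_generators g (algebraMap F F2 j⁻¹) d) hcover π e₁ e₂ he₁B he₂B
      ⟨a₁, ha₁, hid1⟩ ⟨a₂, ha₂, hid2⟩ h12
  obtain ⟨c₀, rfl⟩ := hH0 c hcB1 hcB2
  -- the trace computation
  have htr0 : ∀ m : ℕ, 0 < m → m < s → Algebra.trace F F2 (u ^ m) = 0 :=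
    trace_pow_eq_zero s w u hu hind hdeg
  have hy₁tr : ∀ m : ℕ, 0 < m → m < s → Algebra.trace F F2 (y₁ ^ m) = 0 := by
    intro m hm0 hms
    rw [hy₁, mul_pow, ← map_pow, ← Algebra.smul_def, map_smul, htr0 m hm0 hms, smul_zero]
  have hy₁s : y₁ ^ s = algebraMap F F2 (c₁ ^ s * w) := by
    rw [hy₁, mul_pow, hu, map_mul, map_pow]
  have htr1 : Algebra.trace F F2 (e₁ * y₁ ^ (s - 1)) = c₁ ^ s * w := by
    have e : e₁ * y₁ ^ (s - 1)
        = algebraMap W F sinv • ∑ k ∈ Finset.range s, y₁ ^ (k + (s - 1)) := by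
      rw [he₁, hσ, IsScalarTower.algebraMap_apply W F F2, Algebra.smul_def, mul_assoc,
        Finset.sum_mul]
      congr 1
      exact Finset.sum_congr rfl fun k _ => (pow_add _ _ _).symm
    rw [e, map_smul, map_sum]
    have hterm : ∀ k ∈ Finset.range s, k ≠ 1 →
        Algebra.trace F F2 (y₁ ^ (k + (s - 1))) = 0 := by
      intro k hk hk1
      have hks := Finset.mem_range.mp hk
      rcases Nat.eq_zero_or_pos k with rfl | hkpos
      · rw [zero_add]
        exact hy₁tr _ (by omega) (by omega)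
      · have e' : y₁ ^ (k + (s - 1)) = (c₁ ^ s * w) • y₁ ^ (k - 1) := by
          rw [Algebra.smul_def, ← hy₁s, ← pow_add]
          congr 1
          omega
        rw [e', map_smul, hy₁tr _ (by omega) (by omega), smul_zero]
    rw [Finset.sum_eq_single 1 hterm (fun h => absurd (Finset.mem_range.mpr (by omega)) h)]
    have e'' : y₁ ^ (1 + (s - 1)) = algebraMap F F2 (c₁ ^ s * w) := by
      rw [← hy₁s]; congr 1; omega
    rw [e'', Algebra.trace_algebraMap, hdeg, smul_eq_mul, nsmul_eq_mul]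
    have hsF : algebraMap W F sinv * (s : F) = 1 := by
      rw [← map_natCast (algebraMap W F), ← map_mul, mul_comm, hsinv, map_one]
    linear_combination (c₁ ^ s * w) * hsF
  have htr2 : Algebra.trace F F2 (algebraMap W F2 c₀ * y₁ ^ (s - 1)) = 0 := by
    rw [IsScalarTower.algebraMap_apply W F F2, ← Algebra.smul_def, map_smul,
      hy₁tr _ (by omega) (by omega), smul_zero]
  have hτint : IsIntegral R₁ (Algebra.trace F F2 (a * y₁ ^ (s - 1))) :=
    Algebra.isIntegral_trace (IsIntegral.mul haB1 (hy₁int.pow _))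
  have hτR : Algebra.trace F F2 (a * y₁ ^ (s - 1)) ∈ R₁ := hR₁ _ hτint
  have htr3 : Algebra.trace F F2 ((algebraMap W F2 c₀ - e₁) * y₁ ^ (s - 1))
      = p * Algebra.trace F F2 (a * y₁ ^ (s - 1)) := by
    rw [hca, Algebra.smul_def, ← hAp, mul_assoc, ← Algebra.smul_def, map_smul, smul_eq_mul]
  rw [sub_mul, map_sub, htr1, htr2] at htr3
  -- conclusion
  refine hπ (-(Algebra.trace F F2 (a * y₁ ^ (s - 1))) - δ₁)
    (O.sub_mem (O.neg_mem (hR₁O _ hτR)) (hR₁O _ hδ₁R)) ?_
  linear_combination htr3 + hδ₁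

end Main

end Fermat.Agent.S18.KummerChart
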