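/-
S18: the geometric (Kummer) core, hypothesis-free, as a named library theorem.

`KummerCore A (residue A) N ℓ` is what `WitnessCore.result_of_core` (S18) and the S37
torsion-freeness step consume.
-/
import Mathlib
import Fermat.Agent.S18.FiniteAll
import Fermat.Agent.S18.CuspInst

set_option autoImplicit false

namespace Fermat.Agent.S18

namespace KummerFinal

/-- **The Kummer core of S18.** -/
theorem kummerCore (N : ℕ) [NeZero N] {ℓ : ℕ} (hℓ : ℓ.Prime) (hℓN : ¬ ℓ ∣ N)
    (A : ValuationSubring (AlgebraicClosure ℚ)) (hA : A.LiesOverPrime ℓ) :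
    WitnessCore.KummerCore A (IsLocalRing.residue A) N ℓ :=
  FiniteAll.kummerCore_of_cusp N hℓ hℓN A hA (CuspInst.cusp_chartLift N ℓ)

/-- **The DVR-level core of S18.** -/
theorem dvrCore (N : ℕ) [NeZero N] {ℓ : ℕ} (hℓ : ℓ.Prime) (hℓN : ¬ ℓ ∣ N)
    (A : ValuationSubring (AlgebraicClosure ℚ)) : Top.DvrCore N ℓ A :=
  GeoEnd.dvrCore_of_contracts N hℓ hℓN A (FiniteAll.finiteChartLift N ℓ)
    (CuspInst.cusp_chartLift N ℓ)

end KummerFinal

end Fermat.Agent.S18
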