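import Mathlib
import Fermat.Agent.S18.VerticalChart
import Fermat.Agent.S18.KummerLayer
import Fermat.Agent.S18.KummerBridge

/-!
# S18, v3 link 4: `hU` at the vertical prime for the Kummer tower `K ⊆ Y₁ ⊆ Y₂ = Y₁(u)`

`R` is the (regular) chart ring, `K = Frac R`, `π ∈ R` prime (the vertical prime), `Y₁ = K(θ)`
the bottom layer (étale over `(π)` by the separable-reduction datum of `VerticalChart`), and
`Y₂ = Y₁(u)`, `u ^ s = w` with `w`, `w⁻¹` Gauss-integral (`w` a Gauss unit), `s` prime,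
`π ∤ s`, `μ_s ⊆ Y₁`.  Conclusion: the trace-form currency `hU` of purity
(`TowerUnram.TraceNondeg`) at `(π)` for the integral closure `B₂` of `R` in `Y₂`.

* `traceNondeg_vertical_tower` : from `hU` at `(π)` for the bottom layer.
* `traceNondeg_vertical_chart_tower` : from the `VerticalChart` datum `(θ, P)` for the bottom
  layer — the one-call form for the chart instances.
* `traceNondeg_vertical_tower_of_tower`, `traceNondeg_vertical_chart_tower_of_tower` : the same
  with Gauss-integrality of `w`, `w⁻¹` given over a smaller ring `D → R` (the chart of the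
  `j`-line) with `(π) R ∩ D = (π) D`.

The integral closure `B₁` of `R` in `Y₁` is internal: no `B₁`, no `Algebra B₁ B₂` and no
`FiniteDimensional Y₁ Y₂` has to be supplied.
-/

set_option autoImplicit false

namespace Fermat.Agent.S18.VerticalTower

open Polynomial TowerUnram

section Layer

variable {Y₁ Y₂ : Type*} [Field Y₁] [Field Y₂] [Algebra Y₁ Y₂]

/-- the layer `Y₂ = Y₁(u)`, `u ^ s = w`, is finite -/
theorem finiteDimensional_of_adjoin_pow (s : ℕ) (hs : s ≠ 0) (u : Y₂) (w : Y₁)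
    (huw : u ^ s = algebraMap Y₁ Y₂ w) (hgen : IntermediateField.adjoin Y₁ {u} = ⊤) :
    FiniteDimensional Y₁ Y₂ := by
  have hint : IsIntegral Y₁ u :=
    ⟨X ^ s - C w, monic_X_pow_sub_C w hs, by
      rw [eval₂_sub, eval₂_pow, eval₂_X, eval₂_C, huw, sub_self]⟩
  have h1 : FiniteDimensional Y₁ (IntermediateField.adjoin Y₁ {u}) :=
    IntermediateField.adjoin.finiteDimensional hint
  rw [hgen] at h1
  exact (IntermediateField.topEquiv (F := Y₁) (E := Y₂)).toLinearEquiv.finiteDimensional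

end Layer

section Tower

variable {R K Y₁ Y₂ B₂ : Type*} [CommRing R] [IsDomain R] [IsIntegrallyClosed R]
  [IsNoetherianRing R]
  [Field K] [Algebra R K] [IsFractionRing R K]
  [Field Y₁] [Algebra K Y₁] [Algebra R Y₁] [IsScalarTower R K Y₁] [FiniteDimensional K Y₁]
  [Algebra.IsSeparable K Y₁]
  [Field Y₂] [Algebra K Y₂] [Algebra Y₁ Y₂] [IsScalarTower K Y₁ Y₂] [Algebra R Y₂]
  [IsScalarTower R K Y₂]
  [CommRing B₂] [Algebra R B₂] [Algebra B₂ Y₂] [IsScalarTower R B₂ Y₂] [IsIntegralClosure B₂ R Y₂]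

/-- **`hU` at the vertical prime for the Kummer tower, from the bottom layer.**
`K ⊆ Y₁ ⊆ Y₂ = Y₁(u)`, `u ^ s = w ∈ Y₁`, `s` prime with `π ∤ s`, `ζ_s ∈ Y₁`, and `w`, `w⁻¹`
Gauss-integral over `R` at `π`.  If the integral closure of `R` in `Y₁` is trace-nondegenerate
at `(π)`, then so is the integral closure `B₂` of `R` in `Y₂`. -/
theorem traceNondeg_vertical_tower (π : R) (hπ : Prime π)
    (h1 : TraceNondeg R K Y₁ (integralClosure R Y₁) (Ideal.span {π}))
    (s : ℕ) (hs : s.Prime) (hsπ : ¬ π ∣ (s : R)) (ζ : Y₁) (hζ : IsPrimitiveRoot ζ s)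
    (u : Y₂) (w : Y₁) (hw0 : w ≠ 0) (huw : u ^ s = algebraMap Y₁ Y₂ w)
    (hgen : IntermediateField.adjoin Y₁ {u} = ⊤)
    (hw : IsGaussInt R π w) (hw' : IsGaussInt R π w⁻¹) :
    TraceNondeg R K Y₂ B₂ (Ideal.span {π}) := by
  have _i0 : FiniteDimensional Y₁ Y₂ :=
    finiteDimensional_of_adjoin_pow s hs.ne_zero u w huw hgen
  have _i1 : IsScalarTower R Y₁ Y₂ := IsScalarTower.of_algebraMap_eq fun r => by
    rw [IsScalarTower.algebraMap_apply R K Y₂, IsScalarTower.algebraMap_apply K Y₁ Y₂,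
      ← IsScalarTower.algebraMap_apply R K Y₁]
  -- the integral closure of `R` in `Y₁` and its map to `B₂`
  let φ : integralClosure R Y₁ →ₐ[R] B₂ := IsIntegralClosure.lift R B₂ Y₂
  let _i4 : Algebra (integralClosure R Y₁) B₂ := φ.toRingHom.toAlgebra
  have _i5 : IsScalarTower R (integralClosure R Y₁) B₂ :=
    IsScalarTower.of_algebraMap_eq fun r => (φ.commutes r).symm
  have hcompat : ∀ z : integralClosure R Y₁,
      algebraMap B₂ Y₂ (algebraMap (integralClosure R Y₁) B₂ z) =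
        algebraMap Y₁ Y₂ (algebraMap (integralClosure R Y₁) Y₁ z) := fun z =>
    IsIntegralClosure.algebraMap_lift R B₂ Y₂ z
  have _i6 : (Ideal.span {π}).IsPrime := (Ideal.span_singleton_prime hπ.ne_zero).mpr hπ
  refine KummerLayer.traceNondeg_kummer s hs ζ hζ u w huw hgen hcompat (Ideal.span {π}) h1 ?_
  intro 𝔮 h𝔮 h𝔮π
  have hmem : ∀ p : R, ¬ π ∣ p → algebraMap R (integralClosure R Y₁) p ∉ 𝔮 := by
    intro p hp hp𝔮
    have h2 : p ∈ 𝔮.comap (algebraMap R (integralClosure R Y₁)) := hp𝔮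
    rw [h𝔮π, Ideal.mem_span_singleton] at h2
    exact hp h2
  refine ⟨?_, ?_⟩
  · have h2 := hmem (s : R) hsπ
    rwa [map_natCast] at h2
  · exact KummerBridge.exists_kummer_datum_vertical (D := R) (B := integralClosure R Y₁)
      (E := Y₁) Subtype.val_injective (fun x hx => ⟨⟨x, hx⟩, rfl⟩) 𝔮 π hπ hmem w hw0 hw hw' s

/-- **`hU` at the vertical prime for the Kummer tower over a chart — one call.**
`ι : W[X] →+* R` is the structure map of the chart (`X ↦ j`), `res : W → k` the reduction of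
the base with `π ∣ ι f ↔ f mod res = 0`; `Y₁ = K(θ)` with `P ∈ W[X][T]` monic, `P(j, θ) = 0`,
and the reduction of `P` separable over `κ₀ = k(X)`; `Y₂ = Y₁(u)`, `u ^ s = w`, `s` prime with
`π ∤ s`, `ζ_s ∈ Y₁`, `w` and `w⁻¹` Gauss-integral over `R` at `π`.  Then the integral closure
`B₂` of `R` in `Y₂` is trace-nondegenerate at `(π)` (the hypothesis `hU` of purity at the
vertical prime). -/
theorem traceNondeg_vertical_chart_tower {W k : Type*} [CommRing W] [Field k]
    (κ₀ : Type*) [Field κ₀] [Algebra k[X] κ₀] [IsFractionRing k[X] κ₀]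
    (res : W →+* k) (hres : Function.Surjective res) (π : R) (hπ : Prime π) (ι : W[X] →+* R)
    (hι : ∀ f : W[X], π ∣ ι f ↔ f.map res = 0)
    (θ : Y₁) (hθ : Algebra.adjoin K {θ} = ⊤)
    (P : (W[X])[X]) (hP : P.Monic) (hPθ : aeval θ (P.map ι) = 0)
    (hsep : ((P.map (mapRingHom res)).map (algebraMap k[X] κ₀)).Separable)
    (s : ℕ) (hs : s.Prime) (hsπ : ¬ π ∣ (s : R)) (ζ : Y₁) (hζ : IsPrimitiveRoot ζ s)
    (u : Y₂) (w : Y₁) (hw0 : w ≠ 0) (huw : u ^ s = algebraMap Y₁ Y₂ w)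
    (hgen : IntermediateField.adjoin Y₁ {u} = ⊤)
    (hw : IsGaussInt R π w) (hw' : IsGaussInt R π w⁻¹) :
    TraceNondeg R K Y₂ B₂ (Ideal.span {π}) :=
  traceNondeg_vertical_tower π hπ
    (fun x hx => VerticalChart.hU_vertical_chart' κ₀ res hres π hπ ι hι θ hθ P hP hPθ hsep x hx)
    s hs hsπ ζ hζ u w hw0 huw hgen hw hw'

end Tower

section OverD

variable {D R K Y₁ Y₂ B₂ : Type*} [CommRing D] [CommRing R] [IsDomain R] [IsIntegrallyClosed R]
  [IsNoetherianRing R] [Algebra D R]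
  [Field K] [Algebra R K] [IsFractionRing R K]
  [Field Y₁] [Algebra K Y₁] [Algebra R Y₁] [IsScalarTower R K Y₁] [FiniteDimensional K Y₁]
  [Algebra.IsSeparable K Y₁] [Algebra D Y₁] [IsScalarTower D R Y₁]
  [Field Y₂] [Algebra K Y₂] [Algebra Y₁ Y₂] [IsScalarTower K Y₁ Y₂] [Algebra R Y₂]
  [IsScalarTower R K Y₂]
  [CommRing B₂] [Algebra R B₂] [Algebra B₂ Y₂] [IsScalarTower R B₂ Y₂] [IsIntegralClosure B₂ R Y₂]

omit [IsDomain R] [IsIntegrallyClosed R] [IsNoetherianRing R] [Field K] [Algebra R K]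
  [IsFractionRing R K] [Algebra K Y₁] [IsScalarTower R K Y₁] [FiniteDimensional K Y₁]
  [Algebra.IsSeparable K Y₁] in
/-- Gauss-integrality over the `j`-line chart `D` gives Gauss-integrality over the chart ring
`R`, when `(π) R ∩ D = (π) D`. -/
theorem isGaussInt_of_algebra (πD : D)
    (hcompat : ∀ a : D, algebraMap D R πD ∣ algebraMap D R a → πD ∣ a) {z : Y₁}
    (hz : IsGaussInt D πD z) : IsGaussInt R (algebraMap D R πD) z := by
  obtain ⟨p, hp, hpz⟩ := hz
  refine ⟨algebraMap D R p, fun h => hp (hcompat p h), ?_⟩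
  rw [algebraMap_smul]
  exact hpz.tower_top

/-- `traceNondeg_vertical_tower` with the Gauss-integrality of `w`, `w⁻¹` given over the chart
`D` of the `j`-line (`π = algebraMap D R πD`, `(π) R ∩ D = (πD)`). -/
theorem traceNondeg_vertical_tower_of_tower (πD : D) (hπ : Prime (algebraMap D R πD))
    (hcompat : ∀ a : D, algebraMap D R πD ∣ algebraMap D R a → πD ∣ a)
    (h1 : TraceNondeg R K Y₁ (integralClosure R Y₁) (Ideal.span {algebraMap D R πD}))
    (s : ℕ) (hs : s.Prime) (hsπ : ¬ algebraMap D R πD ∣ (s : R)) (ζ : Y₁)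
    (hζ : IsPrimitiveRoot ζ s)
    (u : Y₂) (w : Y₁) (hw0 : w ≠ 0) (huw : u ^ s = algebraMap Y₁ Y₂ w)
    (hgen : IntermediateField.adjoin Y₁ {u} = ⊤)
    (hw : IsGaussInt D πD w) (hw' : IsGaussInt D πD w⁻¹) :
    TraceNondeg R K Y₂ B₂ (Ideal.span {algebraMap D R πD}) :=
  traceNondeg_vertical_tower (algebraMap D R πD) hπ h1 s hs hsπ ζ hζ u w hw0 huw hgen
    (isGaussInt_of_algebra πD hcompat hw) (isGaussInt_of_algebra πD hcompat hw')

/-- `traceNondeg_vertical_chart_tower` with the Gauss-integrality of `w`, `w⁻¹` given over the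
chart `D` of the `j`-line (`π = algebraMap D R πD`, `(π) R ∩ D = (πD)`). -/
theorem traceNondeg_vertical_chart_tower_of_tower {W k : Type*} [CommRing W] [Field k]
    (κ₀ : Type*) [Field κ₀] [Algebra k[X] κ₀] [IsFractionRing k[X] κ₀]
    (res : W →+* k) (hres : Function.Surjective res) (πD : D)
    (hπ : Prime (algebraMap D R πD))
    (hcompat : ∀ a : D, algebraMap D R πD ∣ algebraMap D R a → πD ∣ a)
    (ι : W[X] →+* R) (hι : ∀ f : W[X], algebraMap D R πD ∣ ι f ↔ f.map res = 0)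
    (θ : Y₁) (hθ : Algebra.adjoin K {θ} = ⊤)
    (P : (W[X])[X]) (hP : P.Monic) (hPθ : aeval θ (P.map ι) = 0)
    (hsep : ((P.map (mapRingHom res)).map (algebraMap k[X] κ₀)).Separable)
    (s : ℕ) (hs : s.Prime) (hsπ : ¬ algebraMap D R πD ∣ (s : R)) (ζ : Y₁)
    (hζ : IsPrimitiveRoot ζ s)
    (u : Y₂) (w : Y₁) (hw0 : w ≠ 0) (huw : u ^ s = algebraMap Y₁ Y₂ w)
    (hgen : IntermediateField.adjoin Y₁ {u} = ⊤)
    (hw : IsGaussInt D πD w) (hw' : IsGaussInt D πD w⁻¹) :
    TraceNondeg R K Y₂ B₂ (Ideal.span {algebraMap D R πD}) :=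
  traceNondeg_vertical_chart_tower κ₀ res hres (algebraMap D R πD) hπ ι hι θ hθ P hP hPθ hsep
    s hs hsπ ζ hζ u w hw0 huw hgen
    (isGaussInt_of_algebra πD hcompat hw) (isGaussInt_of_algebra πD hcompat hw')

end OverD

end Fermat.Agent.S18.VerticalTower
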