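import Mathlib
import Fermat.Agent.S18.VerticalTower

/-!
# S18, v3 link 4 (single-field form): `hU` at the vertical prime of a chart

The same statement as `VerticalTower.traceNondeg_vertical_chart_tower`, but with everything in
ONE field `Y` (the top field of the chart): the bottom layer is `Y₁ := K⟮θ⟯ ⊆ Y` and is internal.

`R` the chart ring (regular), `K = Frac R`, `π ∈ R` prime, `Y / K` finite separable,
`B` the integral closure of `R` in `Y`;  `θ ∈ Y` a root of a monic `P ∈ W[X][T]` (through the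
structure map `ι : W[X] → R`, `X ↦ j`) whose reduction is separable over `k(X)`;  `w ∈ K⟮θ⟯` a
Gauss unit (`w`, `w⁻¹` Gauss-integral), `u ^ s = w`, `s` prime with `π ∤ s`, `ζ_s ∈ K`, and
`Y = K⟮θ, u⟯`.  Then `TowerUnram.TraceNondeg R K Y B (π)`, i.e. the hypothesis `hU` of purity at
the vertical prime.

* `traceNondeg_vertical_adjoin` : Gauss-integrality of `w`, `w⁻¹` over `R`.
* `traceNondeg_vertical_adjoin_of_tower` : Gauss-integrality over the `j`-line chart `D → R`.
-/

set_option autoImplicit false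

namespace Fermat.Agent.S18.VerticalAdjoin

open Polynomial TowerUnram IntermediateField

section Gen

variable {K Y : Type*} [Field K] [Field Y] [Algebra K Y]

/-- the generator of `K⟮θ⟯` generates it as a `K`-algebra when `θ` is algebraic -/
theorem adjoin_gen_eq_top (θ : Y) (hθ : IsAlgebraic K θ) :
    Algebra.adjoin K {AdjoinSimple.gen K θ} = ⊤ := by
  rw [eq_top_iff]
  rintro y -
  have h1 : (y : Y) ∈ K⟮θ⟯.toSubalgebra := y.2
  rw [adjoin_simple_toSubalgebra_of_isAlgebraic hθ] at h1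
  have h2 : Algebra.adjoin K {θ} = (Algebra.adjoin K {AdjoinSimple.gen K θ}).map K⟮θ⟯.val := by
    rw [AlgHom.map_adjoin_singleton]
    rfl
  rw [h2] at h1
  obtain ⟨y', hy', hyy'⟩ := h1
  have h3 : y' = y := Subtype.ext hyy'
  exact h3 ▸ hy'

/-- `K⟮θ⟯⟮u⟯ = Y` when `K⟮θ, u⟯ = Y` -/
theorem adjoin_adjoin_eq_top (θ u : Y) (hgen : IntermediateField.adjoin K {θ, u} = ⊤) :
    IntermediateField.adjoin K⟮θ⟯ {u} = ⊤ := by
  apply restrictScalars_injective K
  rw [adjoin_adjoin_left, restrictScalars_top, ← hgen]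
  rfl

end Gen

section Main

variable {R K Y B : Type*} [CommRing R] [IsDomain R] [IsIntegrallyClosed R] [IsNoetherianRing R]
  [Field K] [Algebra R K] [IsFractionRing R K]
  [Field Y] [Algebra K Y] [Algebra R Y] [IsScalarTower R K Y] [FiniteDimensional K Y]
  [Algebra.IsSeparable K Y]
  [CommRing B] [Algebra R B] [Algebra B Y] [IsScalarTower R B Y] [IsIntegralClosure B R Y]

/-- **`hU` at the vertical prime of a chart, single-field form.**  See the module docstring. -/
theorem traceNondeg_vertical_adjoin {W k : Type*} [CommRing W] [Field k]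
    (κ₀ : Type*) [Field κ₀] [Algebra k[X] κ₀] [IsFractionRing k[X] κ₀]
    (res : W →+* k) (hres : Function.Surjective res) (π : R) (hπ : Prime π) (ι : W[X] →+* R)
    (hι : ∀ f : W[X], π ∣ ι f ↔ f.map res = 0)
    (θ : Y) (P : (W[X])[X]) (hP : P.Monic) (hPθ : aeval θ (P.map ι) = 0)
    (hsep : ((P.map (mapRingHom res)).map (algebraMap k[X] κ₀)).Separable)
    (s : ℕ) (hs : s.Prime) (hsπ : ¬ π ∣ (s : R)) (ζ : K) (hζ : IsPrimitiveRoot ζ s)
    (u w : Y) (hwθ : w ∈ K⟮θ⟯) (hw0 : w ≠ 0) (huw : u ^ s = w)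
    (hgen : IntermediateField.adjoin K {θ, u} = ⊤)
    (hw : IsGaussInt R π w) (hw' : IsGaussInt R π w⁻¹) :
    TraceNondeg R K Y B (Ideal.span {π}) := by
  have _i1 : IsScalarTower R K⟮θ⟯ Y := IsScalarTower.of_algebraMap_eq fun r => rfl
  have hinj : Function.Injective (algebraMap K⟮θ⟯ Y) := (algebraMap K⟮θ⟯ Y).injective
  have hθalg : IsAlgebraic K θ := Algebra.IsAlgebraic.isAlgebraic θ
  have hPθ' : aeval (AdjoinSimple.gen K θ) (P.map ι) = 0 := by
    apply hinj
    rw [map_zero, ← aeval_algebraMap_apply]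
    exact hPθ
  have hG : ∀ z : K⟮θ⟯, IsGaussInt R π (z : Y) → IsGaussInt R π z := by
    rintro z ⟨p, hp, hpz⟩
    refine ⟨p, hp, ?_⟩
    rw [← isIntegral_algebraMap_iff hinj]
    have h1 : algebraMap K⟮θ⟯ Y (p • z) = p • (z : Y) := by
      rw [Algebra.smul_def, map_mul, ← IsScalarTower.algebraMap_apply, ← Algebra.smul_def]
      rfl
    rw [h1]
    exact hpz
  exact VerticalTower.traceNondeg_vertical_chart_tower (Y₁ := K⟮θ⟯) κ₀ res hres π hπ ι hι
    (AdjoinSimple.gen K θ) (adjoin_gen_eq_top θ hθalg) P hP hPθ' hsep s hs hsπ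
    (algebraMap K K⟮θ⟯ ζ) (hζ.map_of_injective (algebraMap K K⟮θ⟯).injective) u ⟨w, hwθ⟩
    (fun h => hw0 (congrArg Subtype.val h)) huw (adjoin_adjoin_eq_top θ u hgen)
    (hG ⟨w, hwθ⟩ hw) (hG (⟨w, hwθ⟩ : K⟮θ⟯)⁻¹ hw')

/-- `traceNondeg_vertical_adjoin` with the Gauss-integrality of `w`, `w⁻¹` given over the chart
`D` of the `j`-line (`π = algebraMap D R πD`, `(π) R ∩ D = (πD)`): the case
`𝔭 = span {algebraMap D R0 π}` of the hypothesis `hU` of `ChartHU.chart_lift_hU`. -/
theorem traceNondeg_vertical_adjoin_of_tower {D : Type*} [CommRing D] [Algebra D R] [Algebra D Y]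
    [IsScalarTower D R Y] {W k : Type*} [CommRing W] [Field k]
    (κ₀ : Type*) [Field κ₀] [Algebra k[X] κ₀] [IsFractionRing k[X] κ₀]
    (res : W →+* k) (hres : Function.Surjective res) (πD : D)
    (hπ : Prime (algebraMap D R πD))
    (hcompat : ∀ a : D, algebraMap D R πD ∣ algebraMap D R a → πD ∣ a)
    (ι : W[X] →+* R) (hι : ∀ f : W[X], algebraMap D R πD ∣ ι f ↔ f.map res = 0)
    (θ : Y) (P : (W[X])[X]) (hP : P.Monic) (hPθ : aeval θ (P.map ι) = 0)
    (hsep : ((P.map (mapRingHom res)).map (algebraMap k[X] κ₀)).Separable)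
    (s : ℕ) (hs : s.Prime) (hsπ : ¬ algebraMap D R πD ∣ (s : R)) (ζ : K)
    (hζ : IsPrimitiveRoot ζ s)
    (u w : Y) (hwθ : w ∈ K⟮θ⟯) (hw0 : w ≠ 0) (huw : u ^ s = w)
    (hgen : IntermediateField.adjoin K {θ, u} = ⊤)
    (hw : IsGaussInt D πD w) (hw' : IsGaussInt D πD w⁻¹) :
    TraceNondeg R K Y B (Ideal.span {algebraMap D R πD}) :=
  traceNondeg_vertical_adjoin κ₀ res hres (algebraMap D R πD) hπ ι hι θ P hP hPθ hsep
    s hs hsπ ζ hζ u w hwθ hw0 huw hgen
    (VerticalTower.isGaussInt_of_algebra πD hcompat hw)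
    (VerticalTower.isGaussInt_of_algebra πD hcompat hw')

end Main

end Fermat.Agent.S18.VerticalAdjoin
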