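import Mathlib
import Fermat.Agent.S18.LegendreY
import Fermat.Agent.S18.ChartBranch
import Fermat.Agent.S18.VerticalAdjoin
import Fermat.Agent.S18.ChartTower

/-!
# S18 : the Legendre chart instance (`ℓ` odd), abstract form

`legendre_chart_lift` : the conclusion of `Chart.chart_lift_of_purity` for the chart `D = W[X]`
(`X ↦ j`) of the `j`-line, proved through the Legendre cover `R0 = W[x, 1/x, 1/(x-1)]`:
`ChartBranch.chart_lift_branch` (purity + Abhyankar at the horizontal primes) with
`M = L(x)`, `Y' = F2(x0)`, and `VerticalAdjoin.traceNondeg_vertical_adjoin_of_tower` at the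
vertical prime.  Inputs: the ramification of `F2` over the `j`-line (`hF`), a primitive element
`θ` with separable reduction (`P`, `hsep`), the Kummer datum `u ^ s = w` with `w` a Gauss unit.
-/

set_option autoImplicit false
set_option linter.unusedSectionVars false
set_option linter.style.haveILetI false

namespace Fermat.Agent.S18.LegendreLift

open Polynomial Fermat.Agent.S18.LegendreJ

/-- A subfield of `Y` containing the images of `F` and of `T` contains the image of `F(T)`. -/
theorem map_mem_of_mem_adjoin {F E Y : Type*} [Field F] [Field E] [Field Y] [Algebra F E]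
    (φ : E →+* Y) (S : Subfield Y) (T : Set E)
    (hF : ∀ x : F, φ (algebraMap F E x) ∈ S) (hTS : ∀ t ∈ T, φ t ∈ S) (z : E)
    (hz : z ∈ IntermediateField.adjoin F T) : φ z ∈ S := by
  let M : IntermediateField F E :=
    { S.comap φ with
      algebraMap_mem' := fun x => hF x }
  have h1 : IntermediateField.adjoin F T ≤ M := by
    rw [IntermediateField.adjoin_le_iff]
    exact fun t ht => hTS t ht
  exact h1 hz

/-- **The Legendre chart (`ℓ` odd), abstract form.** -/
theorem legendre_chart_lift
    {W L F2 K : Type*} [CommRing W] [IsDomain W] [IsDiscreteValuationRing W]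
    [Field L] [Algebra ℚ L] [Algebra W L] [IsFractionRing W L]
    [Field F2] [Algebra L F2] [Algebra W F2] [IsScalarTower W L F2]
    (j : F2) (hj : Transcendental L j)
    [Algebra W[X] F2] (hW : ∀ p : W[X], algebraMap W[X] F2 p = aeval j p)
    [Algebra L[X] F2] (hL : ∀ p : L[X], algebraMap L[X] F2 p = aeval j p)
    [Field K] [Algebra L[X] K] [IsFractionRing L[X] K] [Algebra K F2] [IsScalarTower L[X] K F2]
    [FiniteDimensional K F2]
    (π : W) (hπ : Irreducible π) (h2 : IsUnit (2 : W))
    {BF : Type*} [CommRing BF] [Algebra L[X] BF] [Algebra BF F2] [IsScalarTower L[X] BF F2]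
    [IsIntegralClosure BF L[X] F2]
    (hF : ∀ P : Ideal BF, P.IsPrime → P ≠ ⊥ →
      (X ∈ P.under L[X] → P.ramificationIdx L[X] ∣ 3) ∧
      (X - C 1728 ∈ P.under L[X] → P.ramificationIdx L[X] ∣ 2) ∧
      (X ∉ P.under L[X] → X - C 1728 ∉ P.under L[X] → P.ramificationIdx L[X] = 1))
    {k : Type*} [Field k] (κ₀ : Type*) [Field κ₀] [Algebra k[X] κ₀] [IsFractionRing k[X] κ₀]
    (res : W →+* k) (hres : Function.Surjective res) (hker : RingHom.ker res = Ideal.span {π})
    (θ : F2) (P : (W[X])[X]) (hP : P.Monic) (hPθ : aeval θ P = 0)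
    (hsep : ((P.map (mapRingHom res)).map (algebraMap k[X] κ₀)).Separable)
    (s : ℕ) (hs : s.Prime) (hsπ : ¬ π ∣ (s : W)) (ζ : L) (hζ : IsPrimitiveRoot ζ s)
    (u w : F2) (hwθ : w ∈ IntermediateField.adjoin K {θ}) (hw0 : w ≠ 0) (huw : u ^ s = w)
    (hgen : IntermediateField.adjoin K {θ, u} = ⊤)
    (hw : IsGaussInt W[X] (C π) w) (hw' : IsGaussInt W[X] (C π) w⁻¹)
    (ε : F2) (hε : IsGaussInt W[X] (C π) ε)
    (hεε : ∃ d : F2, IsGaussInt W[X] (C π) d ∧ ε ^ 2 - ε = (C π : W[X]) • d) :
    ∃ e : F2, IsIntegral W[X] e ∧ ∃ d : F2, IsGaussInt W[X] (C π) d ∧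
      e - ε = (C π : W[X]) • d := by
  classical
  -- characteristic zero, transcendence
  haveI : CharZero L := algebraRat.charZero L
  haveI : CharZero F2 := charZero_of_injective_algebraMap (algebraMap L F2).injective
  haveI : Fact (Transcendental L j) := ⟨hj⟩
  have hinjWL : Function.Injective (algebraMap W L) := IsFractionRing.injective W L
  -- the `j`-structures on `F2`
  have hjW : algebraMap W[X] F2 X = j := by rw [hW, aeval_X]
  have hjL : algebraMap L[X] F2 X = j := by rw [hL, aeval_X]
  haveI : IsScalarTower W W[X] F2 := IsScalarTower.of_algebraMap_eq fun a => by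
    rw [hW, Polynomial.algebraMap_apply, Algebra.algebraMap_self, RingHom.id_apply, aeval_C]
  haveI : IsScalarTower L L[X] F2 := IsScalarTower.of_algebraMap_eq fun a => by
    rw [hL, Polynomial.algebraMap_apply, Algebra.algebraMap_self, RingHom.id_apply, aeval_C]
  -- the chart towers into `Y' = F2(x0)`
  haveI tW : IsScalarTower W[X] (LegJ W) (LegY j) := legY_isScalarTower_poly j hjW
  haveI tL : IsScalarTower L[X] (LegJ L) (LegY j) := legY_isScalarTower_poly j hjL
  -- the prime
  have hπp : Prime π := hπ.prime
  have hmax : (Ideal.span {π}).IsMaximal := PrincipalIdealRing.isMaximal_of_irreducible hπ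
  -- `LegJ L = (LegJ W)[1/π]`
  haveI hloc0 : IsLocalization.Away (algebraMap W (LegJ W) π) (LegJ L) := isLocalization_away hπ
  haveI hloc : IsLocalization.Away (algebraMap W[X] (LegJ W) (C π)) (LegJ L) := by
    rw [algebraMap_poly_C]; exact hloc0
  haveI : IsFractionRing (LegJ W) (LegK L) :=
    legK_isFractionRing W L (algebraMap W (LegJ W) π) hinjWL
  -- `K = Frac L[j] → M = L(x)`
  have hinjK : Function.Injective (algebraMap L[X] (LegK L)) := by
    rw [IsScalarTower.algebraMap_eq L[X] (LegJ L) (LegK L)]
    exact (IsFractionRing.injective (LegJ L) (LegK L)).comp (algebraMap_poly_injective L)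
  letI algKM : Algebra K (LegK L) := (IsFractionRing.lift hinjK : K →+* LegK L).toAlgebra
  haveI : IsScalarTower L[X] K (LegK L) :=
    IsScalarTower.of_algebraMap_eq fun a => (IsFractionRing.lift_algebraMap hinjK a).symm
  haveI : FiniteDimensional K (LegK L) := finiteDimensional L K (LegK L)
  haveI : IsGalois K (LegK L) := isGalois L K (LegK L)
  haveI : IsIntegralClosure (LegJ L) L[X] (LegK L) := isIntegralClosure L (LegK L)
  -- the square `K → F2 → Y'`, `K → M → Y'` commutes
  haveI : IsScalarTower K (LegK L) (LegY j) := by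
    refine IsScalarTower.of_algebraMap_eq fun x => ?_
    have key : (algebraMap K (LegY j)) =
        (algebraMap (LegK L) (LegY j)).comp (algebraMap K (LegK L)) := by
      apply IsLocalization.ringHom_ext (nonZeroDivisors L[X])
      ext p
      · simp only [RingHom.comp_apply]
        rw [← IsScalarTower.algebraMap_apply L[X] K (LegY j),
          ← IsScalarTower.algebraMap_apply L[X] K (LegK L),
          IsScalarTower.algebraMap_apply L[X] (LegJ L) (LegK L),
          ← IsScalarTower.algebraMap_apply (LegJ L) (LegK L) (LegY j),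
          ← IsScalarTower.algebraMap_apply L[X] (LegJ L) (LegY j)]
      · simp only [RingHom.comp_apply]
        rw [← IsScalarTower.algebraMap_apply L[X] K (LegY j),
          ← IsScalarTower.algebraMap_apply L[X] K (LegK L),
          IsScalarTower.algebraMap_apply L[X] (LegJ L) (LegK L),
          ← IsScalarTower.algebraMap_apply (LegJ L) (LegK L) (LegY j),
          ← IsScalarTower.algebraMap_apply L[X] (LegJ L) (LegY j)]
    exact congrArg (fun f : K →+* LegY j => f x) key
  -- `Y' = F2 · M`
  have hFM : IntermediateField.adjoin F2 (Set.range (algebraMap (LegK L) (LegY j))) = ⊤ := by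
    refine ChartTower.adjoin_range_eq_top (algebraMap (LegJ L) (LegK L) (jX L)) ?_
    rw [← IsScalarTower.algebraMap_apply (LegJ L) (LegK L) (LegY j), algebraMap_legY_jX]
    exact adjoin_legY_root j
  -- branch data
  have hF1 : ∀ (i : Fin 2) (P : Ideal BF), P.IsPrime → P ≠ ⊥ →
      (![X, X - C 1728] : Fin 2 → L[X]) i ∈ P.under L[X] →
      P.ramificationIdx L[X] ∣ (![3, 2] : Fin 2 → ℕ) i := by
    intro i P hP hP0 hi
    fin_cases i
    · exact (hF P hP hP0).1 hi
    · exact (hF P hP hP0).2.1 hi
  have hF2 : ∀ P : Ideal BF, P.IsPrime → P ≠ ⊥ →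
      (∀ i, (![X, X - C 1728] : Fin 2 → L[X]) i ∉ P.under L[X]) →
      P.ramificationIdx L[X] = 1 := by
    intro P hP hP0 hi
    exact (hF P hP hP0).2.2 (hi 0) (hi 1)
  -- the structure of the chart
  haveI : Algebra.IsIntegral W[X] (LegJ W) := isIntegral_poly W h2
  have hprime : Prime (algebraMap W[X] (LegJ W) (C π)) := prime_poly_C hπp
  have hDed : IsDedekindDomain (LegJ W ⧸ Ideal.span {algebraMap W[X] (LegJ W) (C π)}) :=
    quotient_isDedekindDomain hπp hmax
  have hcompat : ∀ a : W[X], algebraMap W[X] (LegJ W) (C π) ∣ algebraMap W[X] (LegJ W) a →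
      C π ∣ a := dvd_of_algebraMap_dvd h2 hπp hmax
  -- finiteness / separability of `Y'` over `M`
  haveI : CharZero L[X] := algebraRat.charZero L[X]
  haveI : CharZero K := charZero_of_injective_algebraMap (IsFractionRing.injective L[X] K)
  haveI : CharZero (LegK L) := charZero_of_injective_algebraMap (algebraMap K (LegK L)).injective
  haveI : FiniteDimensional K (LegY j) := FiniteDimensional.trans K F2 (LegY j)
  haveI : FiniteDimensional (LegK L) (LegY j) := FiniteDimensional.right K (LegK L) (LegY j)
  haveI : Algebra.IsSeparable (LegK L) (LegY j) := Algebra.IsAlgebraic.isSeparable_of_perfectField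
  -- the vertical prime
  have hvert : TowerUnram.TraceNondeg (LegJ W) (LegK L) (LegY j)
      (integralClosure (LegJ W) (LegY j))
      (Ideal.span {algebraMap W[X] (LegJ W) (C π)}) := by
    -- the map `φ : F2 → Y'`
    set φ : F2 →+* LegY j := algebraMap F2 (LegY j) with hφ
    have hφK : ∀ x : K, φ (algebraMap K F2 x) =
        algebraMap (LegK L) (LegY j) (algebraMap K (LegK L) x) := fun x => by
      rw [hφ, ← IsScalarTower.algebraMap_apply K F2 (LegY j),
        IsScalarTower.algebraMap_apply K (LegK L) (LegY j)]
    have hPθ' : aeval (φ θ) (P.map (algebraMap W[X] (LegJ W))) = 0 := by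
      rw [aeval_def, eval₂_map, ← IsScalarTower.algebraMap_eq W[X] (LegJ W) (LegY j),
        IsScalarTower.algebraMap_eq W[X] F2 (LegY j), ← hom_eval₂, ← aeval_def, hPθ, map_zero]
    have hsπ' : ¬ algebraMap W[X] (LegJ W) (C π) ∣ ((s : ℕ) : LegJ W) := by
      intro h
      have h1 : ((s : ℕ) : LegJ W) = algebraMap W[X] (LegJ W) (C ((s : ℕ) : W)) := by
        rw [algebraMap_poly_C, map_natCast]
      rw [h1] at h
      have h3 := (Polynomial.C_dvd_iff_dvd_coeff _ _).mp (hcompat _ h) 0
      rw [coeff_C_zero] at h3
      exact hsπ h3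
    have hζ' : IsPrimitiveRoot (algebraMap L (LegK L) ζ) s :=
      hζ.map_of_injective (algebraMap L (LegK L)).injective
    have hG : ∀ z : F2, IsGaussInt W[X] (C π) z → IsGaussInt W[X] (C π) (φ z) := by
      rintro z ⟨c, hc, hint⟩
      refine ⟨c, hc, ?_⟩
      have h1 : c • φ z = (IsScalarTower.toAlgHom W[X] F2 (LegY j)) (c • z) := by
        rw [map_smul]; rfl
      rw [h1]
      exact hint.map _
    have hwθ' : φ w ∈ IntermediateField.adjoin (LegK L) {φ θ} := by
      refine map_mem_of_mem_adjoin (F := K) φ
        (IntermediateField.adjoin (LegK L) {φ θ}).toSubfield {θ} ?_ ?_ w hwθ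
      · intro x
        rw [hφK]
        exact IntermediateField.algebraMap_mem _ _
      · intro t ht
        rw [Set.mem_singleton_iff] at ht
        rw [ht]
        exact IntermediateField.subset_adjoin _ _ (Set.mem_singleton _)
    have hgen' : IntermediateField.adjoin (LegK L) {φ θ, φ u} = ⊤ := by
      have hall : ∀ z : F2, φ z ∈ IntermediateField.adjoin (LegK L) {φ θ, φ u} := by
        intro z
        refine map_mem_of_mem_adjoin (F := K) φ
          (IntermediateField.adjoin (LegK L) {φ θ, φ u}).toSubfield {θ, u} ?_ ?_ z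
          (by rw [hgen]; trivial)
        · intro x
          rw [hφK]
          exact IntermediateField.algebraMap_mem _ _
        · intro t ht
          rcases ht with rfl | rfl
          · exact IntermediateField.subset_adjoin _ _ (Set.mem_insert _ _)
          · exact IntermediateField.subset_adjoin _ _
              (Set.mem_insert_of_mem _ (Set.mem_singleton _))
      let N : IntermediateField F2 (LegY j) :=
        { (IntermediateField.adjoin (LegK L) {φ θ, φ u}).toSubfield with
          algebraMap_mem' := fun z => hall z }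
      have hx0 : legY_root j ∈ N := by
        have h1 : legY_root j = algebraMap (LegK L) (LegY j)
            (algebraMap (LegJ L) (LegK L) (jX L)) := by
          rw [← IsScalarTower.algebraMap_apply (LegJ L) (LegK L) (LegY j), algebraMap_legY_jX]
        rw [h1]
        exact IntermediateField.algebraMap_mem
          (IntermediateField.adjoin (LegK L) {φ θ, φ u}) _
      have h2 : IntermediateField.adjoin F2 {legY_root j} ≤ N := by
        rw [IntermediateField.adjoin_le_iff]
        intro t ht
        rw [Set.mem_singleton_iff] at ht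
        rw [ht]; exact hx0
      rw [adjoin_legY_root] at h2
      rw [eq_top_iff]
      intro y _
      exact h2 (IntermediateField.mem_top (x := y))
    have hw'' : IsGaussInt W[X] (C π) (φ w)⁻¹ := by
      rw [← map_inv₀]; exact hG _ hw'
    exact VerticalAdjoin.traceNondeg_vertical_adjoin_of_tower (D := W[X]) (R := LegJ W)
      (K := LegK L) (Y := LegY j) κ₀ res hres (C π) hprime hcompat
      (algebraMap W[X] (LegJ W)) (dvd_iff_map_eq_zero h2 hπp hmax res hker)
      (φ θ) P hP hPθ' hsep s hs hsπ' (algebraMap L (LegK L) ζ) hζ' (φ u) (φ w) hwθ'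
      ((map_ne_zero φ).mpr hw0) (by rw [← map_pow, huw]) hgen' (hG w hw) hw''
  exact ChartBranch.chart_lift_branch (A := L[X]) (K := K) (F2 := F2) (M := LegK L)
    (Y' := LegY j) (BF := BF) (BM := LegJ L) (BY := integralClosure (LegJ L) (LegY j))
    (D := W[X]) (R0 := LegJ W) (B' := integralClosure (LegJ W) (LegY j))
    hFM (![X, X - C 1728] : Fin 2 → L[X]) (![3, 2] : Fin 2 → ℕ) (branch_prime L) hF1 hF2
    (branch_hM L) (C π) hprime hDed hcompat hvert ε hε hεε

end Fermat.Agent.S18.LegendreLift
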