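/-
S18: the Legendre chart theorem in the binder shape of `Hesse.hesse_finite_chart_lift`
(data at the level of the function field `F ⊆ F2`), derived from
`LegendreLift.legendre_chart_lift` (data as elements of `F2`).
-/
import Mathlib
import Fermat.Agent.S18.LegendreLift

set_option autoImplicit false
set_option linter.unusedVariables false
set_option linter.unusedSectionVars false
set_option linter.style.haveILetI false

namespace Fermat.Agent.S18.LegendreFinite

open Polynomial

/-- If `F = K(θ)` then the image of `F` in a bigger field `F2` lies in `K(θ')`, `θ'` the image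
of `θ`. -/
theorem algebraMap_mem_adjoin {K F F2 : Type*} [Field K] [Field F] [Field F2]
    [Algebra K F] [Algebra K F2] [Algebra F F2] [IsScalarTower K F F2]
    (θ : F) (hθ : IntermediateField.adjoin K {θ} = ⊤) (x : F) :
    algebraMap F F2 x ∈ IntermediateField.adjoin K {algebraMap F F2 θ} := by
  let f : F →ₐ[K] F2 := IsScalarTower.toAlgHom K F F2
  have h1 : (IntermediateField.adjoin K {θ}).map f =
      IntermediateField.adjoin K {algebraMap F F2 θ} := by
    rw [IntermediateField.adjoin_map, Set.image_singleton]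
    rfl
  rw [← h1, hθ]
  exact ⟨x, trivial, rfl⟩

/-- If `F = K(θ)` and `F2 = F(u)` then `F2 = K(θ', u)`. -/
theorem adjoin_pair_eq_top {K F F2 : Type*} [Field K] [Field F] [Field F2]
    [Algebra K F] [Algebra K F2] [Algebra F F2] [IsScalarTower K F F2]
    (θ : F) (hθ : IntermediateField.adjoin K {θ} = ⊤)
    (u : F2) (hu : IntermediateField.adjoin F {u} = ⊤) :
    IntermediateField.adjoin K {algebraMap F F2 θ, u} = ⊤ := by
  set E : IntermediateField K F2 := IntermediateField.adjoin K {algebraMap F F2 θ, u} with hE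
  have hle : IntermediateField.adjoin K {algebraMap F F2 θ} ≤ E :=
    IntermediateField.adjoin.mono K _ _ (by
      intro y hy
      rw [Set.mem_singleton_iff] at hy
      rw [hy]
      exact Set.mem_insert _ _)
  have hFE : ∀ x : F, algebraMap F F2 x ∈ E := fun x => hle (algebraMap_mem_adjoin θ hθ x)
  have huE : u ∈ E :=
    IntermediateField.subset_adjoin K _ (Set.mem_insert_of_mem _ (Set.mem_singleton u))
  let E' : IntermediateField F F2 :=
    { E.toSubfield with
      algebraMap_mem' := fun x => hFE x }
  have h2 : IntermediateField.adjoin F {u} ≤ E' := by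
    rw [IntermediateField.adjoin_le_iff]
    intro y hy
    rw [Set.mem_singleton_iff] at hy
    rw [hy]
    exact huE
  rw [hu] at h2
  rw [eq_top_iff]
  intro y _
  exact h2 (IntermediateField.mem_top (F := F) (E := F2) (x := y))

/-- **The Legendre chart (`ℓ` odd), in the shape of `Hesse.hesse_finite_chart_lift`.**
`W` is a discrete valuation ring in which `2` is a unit, `L` its fraction field; the monogenic
datum `θ` and the Kummer datum `w` live in the function field `F ⊆ F2`. -/
theorem legendre_finite_chart_lift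
    {W k L K F F2 : Type*} [CommRing W] [IsDomain W] [IsDiscreteValuationRing W]
    [Field k] [Field L] [Algebra ℚ L] [Algebra W L] [IsFractionRing W L]
    [Field K] [Algebra L[X] K] [IsFractionRing L[X] K]
    [Field F] [Algebra K F]
    [Field F2] [Algebra K F2] [Algebra F F2] [IsScalarTower K F F2]
    [FiniteDimensional K F2]
    [Algebra L[X] F2] [IsScalarTower L[X] K F2] [Algebra W[X] F2]
    [Algebra W F2] [Algebra L F2] [IsScalarTower W L F2] [IsScalarTower L L[X] F2]
    [IsScalarTower W W[X] F2]
    (j : F2) (hjL : algebraMap L[X] F2 X = j) (hjW : algebraMap W[X] F2 X = j)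
    (htr : Transcendental L j)
    (π : W) (hπ : Prime π) (h2 : IsUnit (2 : W))
    -- horizontal primes: branch data of `F2` over the `j`-line
    (hF : ∀ P : Ideal (integralClosure L[X] F2), P.IsPrime → P ≠ ⊥ →
      (X ∈ P.under L[X] → P.ramificationIdx L[X] ∣ 3) ∧
      (X - C 1728 ∈ P.under L[X] → P.ramificationIdx L[X] ∣ 2) ∧
      (X ∉ P.under L[X] → X - C 1728 ∉ P.under L[X] → P.ramificationIdx L[X] = 1))
    -- vertical prime: the monogenic separable datum
    (κ₀ : Type*) [Field κ₀] [Algebra k[X] κ₀] [IsFractionRing k[X] κ₀]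
    (res : W →+* k) (hres : Function.Surjective res) (hker : RingHom.ker res = Ideal.span {π})
    (θ : F) (hθ : IntermediateField.adjoin K {θ} = ⊤)
    (P : (W[X])[X]) (hP : P.Monic)
    (hPθ : eval₂ (algebraMap W[X] F2) (algebraMap F F2 θ) P = 0)
    (hsep : ((P.map (mapRingHom res)).map (algebraMap k[X] κ₀)).Separable)
    -- vertical prime: the Kummer datum
    (s : ℕ) (hs : s.Prime) (hsπ : ¬ π ∣ (s : W))
    (ζ : L) (hζ : IsPrimitiveRoot ζ s)
    (u : F2) (hu : IntermediateField.adjoin F {u} = ⊤)
    (w : F) (hw0 : w ≠ 0) (huw : u ^ s = algebraMap F F2 w)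
    (hw : IsGaussInt W[X] (C π) (algebraMap F F2 w))
    (hw' : IsGaussInt W[X] (C π) (algebraMap F F2 w)⁻¹)
    -- the idempotent
    (ε : F2) (hε : IsGaussInt W[X] (C π) ε)
    (hεε : ∃ d : F2, IsGaussInt W[X] (C π) d ∧ ε ^ 2 - ε = (C π : W[X]) • d) :
    ∃ e : F2, IsIntegral W[X] e ∧ ∃ d : F2, IsGaussInt W[X] (C π) d ∧
      e - ε = (C π : W[X]) • d := by
  have hW : ∀ p : W[X], algebraMap W[X] F2 p = aeval j p := by
    intro p
    rw [← hjW, Polynomial.aeval_algebraMap_apply, Polynomial.aeval_X_left_apply]
  have hL : ∀ p : L[X], algebraMap L[X] F2 p = aeval j p := by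
    intro p
    rw [← hjL, Polynomial.aeval_algebraMap_apply, Polynomial.aeval_X_left_apply]
  have hPθ' : aeval (algebraMap F F2 θ) P = 0 := by
    rw [Polynomial.aeval_def]
    exact hPθ
  exact LegendreLift.legendre_chart_lift (W := W) (L := L) (F2 := F2) (K := K) j htr hW hL
    π hπ.irreducible h2 (BF := integralClosure L[X] F2) hF κ₀ res hres hker
    (algebraMap F F2 θ) P hP hPθ' hsep s hs hsπ ζ hζ u (algebraMap F F2 w)
    (algebraMap_mem_adjoin θ hθ w)
    ((map_ne_zero_iff _ (algebraMap F F2).injective).mpr hw0) huw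
    (adjoin_pair_eq_top θ hθ u hu) hw hw' ε hε hεε

end Fermat.Agent.S18.LegendreFinite
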