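import Mathlib
import Fermat.Agent.S18.KummerDescentGauss
import Fermat.Agent.S18.Contracts
import Fermat.Agent.S18.RamJIdeal
import Fermat.Agent.S18.GaussVal


/-!
# S18, link 9 in the ring-hom ("Contracts") currency

The last step of the endgame: a common lift `c` of the sheet idempotent which is integral over
the base ring `W` (hence algebraic over the field of constants) cannot exist.
-/

open Polynomial

set_option linter.style.haveILetI false

namespace Fermat.Agent.S18.NoConstJ

open Fermat.Agent.S18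

section Abstract

variable {W L Ω F Fb Y : Type*} [CommRing W] [IsDomain W] [IsIntegrallyClosed W] [Field L]
  [Field Ω] [IsAlgClosed Ω] [Field F] [Field Fb] [Field Y] [Algebra L F] [Algebra F Y]

/-- **No constant, ring-hom currency.**  `W → L → F → Y = F(u)`, `u ^ s = w`; Gauss integrality
is taken with respect to `W[X]` acting by evaluation at `j`. -/
theorem no_constant_hom (toL : W →+* L) (φ : F →+* Fb) (ιΩ : Ω →+* Fb) (jL : L →+* Ω)
    (hcomp : ∀ a : L, φ (algebraMap L F a) = ιΩ (jL a))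
    (π : W) (hπ : Prime π) (j : F)
    (hj : ∀ p : W[X], p ≠ 0 → eval₂ ((algebraMap L F).comp toL) j p ≠ 0)
    (s : ℕ) (hs : s.Prime) (hsW : IsUnit (s : W))
    (u : Y) (w : F) (huw : u ^ s = algebraMap F Y w) (hdeg : Module.finrank F Y = s)
    (hpow : ∀ b : Fb, b ^ s ≠ φ w)
    (hw : ∃ d : Y, (∃ p : W[X], ¬ C π ∣ p ∧
        (eval₂RingHom ((algebraMap F Y).comp ((algebraMap L F).comp toL))
          (algebraMap F Y j)).IsIntegralElem
          (eval₂RingHom ((algebraMap F Y).comp ((algebraMap L F).comp toL)) (algebraMap F Y j) p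
            * d)) ∧
      algebraMap F Y w - 1 = (algebraMap F Y).comp ((algebraMap L F).comp toL) π * d)
    (c : Y) (hc : ((algebraMap F Y).comp ((algebraMap L F).comp toL)).IsIntegralElem c)
    (d : Y) (hd : ∃ p : W[X], ¬ C π ∣ p ∧
        (eval₂RingHom ((algebraMap F Y).comp ((algebraMap L F).comp toL))
          (algebraMap F Y j)).IsIntegralElem
          (eval₂RingHom ((algebraMap F Y).comp ((algebraMap L F).comp toL)) (algebraMap F Y j) p
            * d))
    (hcd : c - Kummer.eps s u = (algebraMap F Y).comp ((algebraMap L F).comp toL) π * d) :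
    False := by
  classical
  set toF : W →+* F := (algebraMap L F).comp toL with htoF
  set toY : W →+* Y := (algebraMap F Y).comp toF with htoY
  letI algDF : Algebra W[X] F := (eval₂RingHom toF j).toAlgebra
  letI algDY : Algebra W[X] Y := (eval₂RingHom toY (algebraMap F Y j)).toAlgebra
  letI algLY : Algebra L Y := ((algebraMap F Y).comp (algebraMap L F)).toAlgebra
  haveI : IsScalarTower L F Y := IsScalarTower.of_algebraMap_eq fun _ => rfl
  have hDF : ∀ p : W[X], algebraMap W[X] F p = eval₂ toF j p := fun _ => rfl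
  have hDY : ∀ p : W[X], algebraMap W[X] Y p = eval₂ toY (algebraMap F Y j) p := fun _ => rfl
  have hDFY : ∀ p : W[X], algebraMap W[X] Y p = algebraMap F Y (algebraMap W[X] F p) := by
    intro p
    rw [hDY, hDF, Polynomial.hom_eval₂]
  haveI : IsScalarTower W[X] F Y := IsScalarTower.of_algebraMap_eq hDFY
  have hinj : Function.Injective (algebraMap W[X] F) := by
    rw [injective_iff_map_eq_zero]
    intro p hp
    by_contra hp0
    exact hj p hp0 hp
  have hCπ : Prime (C π : W[X]) := Polynomial.prime_C_iff.mpr hπ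
  have hπF := KummerDescentGauss.not_isGaussInt_inv_algebraMap hinj hCπ
  obtain ⟨sinv, hsinv⟩ := hsW.exists_right_inv
  have hsinv' : ((s : ℕ) : W[X]) * C sinv = 1 := by
    rw [← map_natCast (C : W →+* W[X]), ← map_mul, hsinv, map_one]
  have hπ0 : toF π ≠ 0 := by
    have h1 := hj (C π) (by rw [Ne, C_eq_zero]; exact hπ.ne_zero)
    rwa [eval₂_C] at h1
  have hπY : toY π ≠ 0 := by
    rw [htoY, RingHom.comp_apply]
    exact (map_ne_zero (algebraMap F Y)).mpr hπ0
  -- `hw` at the level of `F`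
  obtain ⟨dw, ⟨pw, hpw, hpwi⟩, hwd⟩ := hw
  have hd0 : algebraMap F Y ((w - 1) / toF π) = dw := by
    rw [map_div₀, map_sub, map_one, hwd]
    change toY π * dw / toY π = dw
    exact mul_div_cancel_left₀ _ hπY
  have hw' : ∃ d : F, IsGaussInt W[X] (C π) d ∧ w - 1 = (C π : W[X]) • d := by
    refine ⟨(w - 1) / toF π, ⟨pw, hpw, ?_⟩, ?_⟩
    · have h1 : IsIntegral W[X] (algebraMap F Y (pw • ((w - 1) / toF π))) := by
        rw [Algebra.smul_def, map_mul, ← hDFY, hd0]
        exact hpwi
      exact (isIntegral_algebraMap_iff (algebraMap F Y).injective).mp h1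
    · rw [Algebra.smul_def, hDF, eval₂_C, mul_div_cancel₀ _ hπ0]
  have hc' : IsAlgebraic L c := by
    obtain ⟨p, hp, hpc⟩ := hc
    refine ⟨p.map toL, (hp.map toL).ne_zero, ?_⟩
    rw [aeval_def, eval₂_map]
    exact hpc
  have hγ : IsGaussInt W[X] (C π) (-d) := by
    obtain ⟨p, hp, hpi⟩ := hd
    refine ⟨p, hp, ?_⟩
    rw [smul_neg]
    refine IsIntegral.neg ?_
    rw [Algebra.smul_def]
    exact hpi
  have h : Kummer.eps s u - c = (C π : W[X]) • (-d) := by
    rw [Algebra.smul_def, hDY, eval₂_C]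
    linear_combination -hcd
  exact KummerDescentGauss.no_constant_descent_gauss φ ιΩ jL hcomp (C π) hCπ hπF s hs (C sinv)
    hsinv' u w huw hdeg hpow hw' c (-d) hc' hγ h

end Abstract

section Concrete

open ModularCurve AlgebraicCurve Contracts

local notation "Qb" => AlgebraicClosure ℚ

/-- A prime different from the residue characteristic is a unit of `W`. -/
theorem isUnit_natCast_of_kdata {ℓ : ℕ} {L : Type} [Field L] [Algebra ℚ L] {ι : L →+* Qb}
    {W : ValuationSubring L} {N : ℕ} [NeZero N] {s : ℕ} {Z1 Z2 : LaurentSeries ↥W}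
    (h : KData ℓ ι W N s Z1 Z2) : IsUnit ((s : ℕ) : ↥W) := by
  haveI := h.char
  rw [← IsLocalRing.notMem_maximalIdeal, ← IsLocalRing.residue_eq_zero_iff, map_natCast,
    CharP.cast_eq_zero_iff (IsLocalRing.ResidueField ↥W) ℓ]
  intro hdvd
  exact h.ne (((Nat.prime_dvd_prime_iff_eq h.prime_l h.prime_s).mp hdvd).symm)

/-- **Link 9 in the Contracts currency.**  In the situation of `KData` with `w` not an `s`-th
power over `ℚ̄`, for `F2 = F(u)`, `u ^ s = w`: the sheet idempotent `eps s u` is not congruent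
modulo `π ·` (Gauss-integral) to an element of `F2` integral over `W`. -/
theorem no_constant_contract {L : Type} [Field L] [Algebra ℚ L] (ι : L →+* Qb)
    (W : ValuationSubring L) (N : ℕ) [NeZero N] {ℓ s : ℕ} {Z1 Z2 : LaurentSeries ↥W}
    (h : KData ℓ ι W N s Z1 Z2) (π : ↥W) (hπ : Irreducible π)
    (hnp : ¬ ∃ b : S24.FF Qb N, b ^ s = S24.CoeffBC.bc ι (modularFunctionFieldFull N) h.w)
    (F2 : Type) [Field F2] [Algebra (S24.FF L N) F2] (u : F2)
    (hu : u ^ s = algebraMap (S24.FF L N) F2 h.w) (hdeg : Module.finrank (S24.FF L N) F2 = s)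
    (hw : ∃ d : F2, IsGaussJ W N π d ∧
      algebraMap (S24.FF L N) F2 h.w - 1 = toF2 W N F2 π * d)
    (c : F2) (hc : (toF2 W N F2).IsIntegralElem c) (d : F2) (hd : IsGaussJ W N π d)
    (hcd : c - Kummer.eps s u = toF2 W N F2 π * d) : False := by
  haveI := h.dvr
  have hπ' : Prime π := hπ.prime
  have hsW : IsUnit ((s : ℕ) : ↥W) := isUnit_natCast_of_kdata h
  have hj : ∀ p : (↥W)[X], p ≠ 0 →
      eval₂ ((algebraMap L (S24.FF L N)).comp W.subtype) (S24.jBC L N) p ≠ 0 := by
    intro p hp0 hp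
    apply RamJ.transcendental_jBC ι N
    refine ⟨p.map W.subtype, (Polynomial.map_ne_zero_iff W.subtype_injective).mpr hp0, ?_⟩
    rw [aeval_def, eval₂_map]
    exact hp
  exact no_constant_hom (W := ↥W) (L := L) (Ω := Qb) (F := S24.FF L N) (Fb := S24.FF Qb N)
    (Y := F2) W.subtype (S24.CoeffBC.bc ι (modularFunctionFieldFull N))
    (algebraMap Qb (S24.FF Qb N)) ι (S24.CoeffBC.bc_algebraMap ι _) π hπ' (S24.jBC L N) hj s
    h.prime_s hsW u h.w hu hdeg (fun b hb => hnp ⟨b, hb⟩) hw c hc d hd hcd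

end Concrete

section PG

open ModularCurve AlgebraicCurve Contracts

local notation "Qb" => AlgebraicClosure ℚ

variable {L : Type} [Field L] [Algebra ℚ L] {ι : L →+* Qb} {W : ValuationSubring L} {N : ℕ}
  [NeZero N] {ℓ s : ℕ} {Z1 Z2 : LaurentSeries ↥W}

/-- The chart evaluation of the Contracts vocabulary factors through `Gauss.evF`. -/
theorem evAt_eq_comp_evF (W : ValuationSubring L) (N : ℕ) [NeZero N] (F2 : Type) [Field F2]
    [Algebra (S24.FF L N) F2] :
    evAt W N (jF2 L N F2) = (algebraMap (S24.FF L N) F2).comp (Gauss.evF W N) := by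
  apply Polynomial.ringHom_ext
  · intro a
    rw [RingHom.comp_apply, Gauss.evF_C]
    simp [evAt, toF2]
  · rw [RingHom.comp_apply, Gauss.evF_X]
    simp [evAt, jF2]

/-- **(PG1)** An element of `F` with `q`-expansion in the content ring is Gauss-integral over
the chart `W[j]`, in any extension `F2` of `F`. -/
theorem isGaussJ_of_mem_contentRing (h : KData ℓ ι W N s Z1 Z2) (π : ↥W) (hπ : Irreducible π)
    (F2 : Type) [Field F2] [Algebra (S24.FF L N) F2] (x : S24.FF L N)
    (hx : (x : LaurentSeries L) ∈ Gauss.contentRing W) :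
    IsGaussJ W N π (algebraMap (S24.FF L N) F2 x) := by
  haveI := h.dvr
  haveI := h.char
  haveI := h.closed
  haveI : Fact ℓ.Prime := ⟨h.prime_l⟩
  obtain ⟨S, hS, p, hp, hpx⟩ := Gauss.isGaussInt_of_mem W N ℓ h.not_dvd x hx
  refine ⟨S, fun hdvd => hS ((Gauss.map_residue_eq_zero_iff_C_dvd W hπ S).mpr hdvd), p, hp, ?_⟩
  rw [evAt_eq_comp_evF, RingHom.comp_apply, ← map_mul, ← Polynomial.hom_eval₂, hpx, map_zero]

/-- **(G)** `w - 1 = π · d` with `d` Gauss-integral: the hypothesis `hw` of both endgame exits,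
from `KData` alone. -/
theorem exists_gaussJ_sub_one (h : KData ℓ ι W N s Z1 Z2) (π : ↥W) (hπ : Irreducible π)
    (F2 : Type) [Field F2] [Algebra (S24.FF L N) F2] :
    ∃ d : F2, IsGaussJ W N π d ∧
      algebraMap (S24.FF L N) F2 h.w - 1 = toF2 W N F2 π * d := by
  haveI := h.dvr
  obtain ⟨ω, hω, hωw⟩ := Gauss.exists_sub_one_eq W N hπ Z1 Z2 h.g1 h.g2 h.red h.red_ne
  refine ⟨algebraMap (S24.FF L N) F2 ω, isGaussJ_of_mem_contentRing h π hπ F2 ω hω, ?_⟩
  have h1 : h.w - 1 = algebraMap L (S24.FF L N) ((π : ↥W) : L) * ω := hωw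
  rw [← map_one (algebraMap (S24.FF L N) F2), ← map_sub, h1, map_mul]
  rfl

/-- **Link 9 in the Contracts currency, `hw` discharged.** -/
theorem no_constant_contract' (ι : L →+* Qb) (W : ValuationSubring L) (N : ℕ) [NeZero N]
    {ℓ s : ℕ} {Z1 Z2 : LaurentSeries ↥W}
    (h : KData ℓ ι W N s Z1 Z2) (π : ↥W) (hπ : Irreducible π)
    (hnp : ¬ ∃ b : S24.FF Qb N, b ^ s = S24.CoeffBC.bc ι (modularFunctionFieldFull N) h.w)
    (F2 : Type) [Field F2] [Algebra (S24.FF L N) F2] (u : F2)
    (hu : u ^ s = algebraMap (S24.FF L N) F2 h.w) (hdeg : Module.finrank (S24.FF L N) F2 = s)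
    (c : F2) (hc : (toF2 W N F2).IsIntegralElem c) (d : F2) (hd : IsGaussJ W N π d)
    (hcd : c - Kummer.eps s u = toF2 W N F2 π * d) : False :=
  no_constant_contract ι W N h π hπ hnp F2 u hu hdeg (exists_gaussJ_sub_one h π hπ F2) c hc d hd
    hcd

end PG

end Fermat.Agent.S18.NoConstJ
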