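/-
S18, norm-of-idempotent lemma (helper1), after helper23's shortcut.

Setting: `R ⊆ F2 ⊆ Y2`, `Y2 / F2` finite separable, `π` a prime element of `R`.  An element
`ε ∈ F2` which is an idempotent modulo `π` (in the localisation at `π` of the integral closure of
`R` in `F2`) and which lifts, modulo `π`, to an `R`-integral element `b` of the BIG field `Y2`,
already lifts to an `R`-integral element of `F2`: take the norm of `b`.

No Galois hypothesis: the norm is the product over the embeddings into an algebraic closure.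
-/
import Mathlib

set_option autoImplicit false

namespace Fermat.Agent.S18.NormIdem

section Ring

variable {Ω : Type*} [CommRing Ω]

/-- `∏ (a - p * c i) = a ^ |S| + p * M` with `M` in any subring containing `a`, `p`, `c i`. -/
theorem prod_sub_mul_eq {ι : Type*} (T : Subring Ω) (a p : Ω) (c : ι → Ω) (ha : a ∈ T)
    (hp : p ∈ T) (S : Finset ι) (hc : ∀ i ∈ S, c i ∈ T) :
    ∃ M ∈ T, ∏ i ∈ S, (a - p * c i) = a ^ S.card + p * M := by
  classical
  induction S using Finset.induction_on with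
  | empty => exact ⟨0, T.zero_mem, by simp⟩
  | insert i S hi ih =>
    obtain ⟨M, hM, hprod⟩ := ih (fun j hj => hc j (Finset.mem_insert_of_mem hj))
    have hci : c i ∈ T := hc i (Finset.mem_insert_self i S)
    refine ⟨a * M - c i * a ^ S.card - p * c i * M, ?_, ?_⟩
    · exact T.sub_mem (T.sub_mem (T.mul_mem ha hM) (T.mul_mem hci (T.pow_mem ha _)))
        (T.mul_mem (T.mul_mem hp hci) hM)
    · rw [Finset.prod_insert hi, hprod, Finset.card_insert_of_notMem hi]
      ring

end Ring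

section Main

variable {R F2 Y2 : Type*} [CommRing R] [Field F2] [Field Y2] [Algebra R F2] [Algebra F2 Y2]
  [Algebra R Y2] [IsScalarTower R F2 Y2] [FiniteDimensional F2 Y2] [Algebra.IsSeparable F2 Y2]

/-- **Norm of an idempotent lift.** -/
theorem exists_lift_of_norm (π : R) (hπ : Prime π) (hπ0 : algebraMap R F2 π ≠ 0) (ε : F2)
    (hε : ∃ t : R, ¬ π ∣ t ∧ IsIntegral R (t • ε))
    (hidem : ∃ t : R, ¬ π ∣ t ∧ ∃ m : F2, IsIntegral R m ∧ t • (ε ^ 2 - ε) = π • m)
    (b : Y2) (hb : IsIntegral R b)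
    (hlift : ∃ t : R, ¬ π ∣ t ∧ ∃ m : Y2, IsIntegral R m ∧
      t • (algebraMap F2 Y2 ε - b) = π • m) :
    ∃ e : F2, IsIntegral R e ∧ ∃ t : R, ¬ π ∣ t ∧ ∃ m : F2, IsIntegral R m ∧
      t • (ε - e) = π • m := by
  classical
  obtain ⟨t2, ht2, m2, hm2, hid⟩ := hidem
  obtain ⟨t, htπ, hεt, m, hm, hlt⟩ : ∃ t : R, ¬ π ∣ t ∧ IsIntegral R (t • ε) ∧ ∃ m : Y2,
      IsIntegral R m ∧ t • (algebraMap F2 Y2 ε - b) = π • m := by
    obtain ⟨t1, ht1, hεint⟩ := hε
    obtain ⟨t3, ht3, m3, hm3, hl⟩ := hlift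
    refine ⟨t3 * t1, fun h => (hπ.dvd_or_dvd h).elim ht3 ht1, ?_, t1 • m3,
      IsIntegral.smul t1 hm3, ?_⟩
    · rw [mul_smul]
      exact IsIntegral.smul t3 hεint
    · rw [mul_comm t3 t1, mul_smul, hl, smul_comm]
  let Ω := AlgebraicClosure F2
  obtain ⟨a, ha⟩ : ∃ a : Ω, a = algebraMap F2 Ω (t • ε) := ⟨_, rfl⟩
  obtain ⟨p, hp⟩ : ∃ p : Ω, p = algebraMap R Ω π := ⟨_, rfl⟩
  let T : Subring Ω := (integralClosure R Ω).toSubring
  have haT : a ∈ T := by
    show IsIntegral R a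
    rw [ha]
    exact hεt.map (IsScalarTower.toAlgHom R F2 Ω)
  have hpT : p ∈ T := by
    show IsIntegral R p
    rw [hp]
    exact isIntegral_algebraMap
  let c : (Y2 →ₐ[F2] Ω) → Ω := fun σ => σ m
  have hcT : ∀ σ ∈ (Finset.univ : Finset (Y2 →ₐ[F2] Ω)), c σ ∈ T := by
    intro σ _
    show IsIntegral R (σ m)
    exact hm.map σ
  have hσ : ∀ σ : Y2 →ₐ[F2] Ω, algebraMap R Ω t * σ b = a - p * c σ := by
    intro σ
    have h := congrArg σ hlt
    rw [Algebra.smul_def, Algebra.smul_def, map_mul, map_mul, map_sub, AlgHom.commutes,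
      IsScalarTower.algebraMap_apply R F2 Y2, IsScalarTower.algebraMap_apply R F2 Y2,
      AlgHom.commutes, AlgHom.commutes, ← IsScalarTower.algebraMap_apply R F2 Ω,
      ← IsScalarTower.algebraMap_apply R F2 Ω] at h
    rw [ha, hp, Algebra.smul_def, map_mul, ← IsScalarTower.algebraMap_apply R F2 Ω]
    show algebraMap R Ω t * σ b = algebraMap R Ω t * algebraMap F2 Ω ε -
      algebraMap R Ω π * σ m
    rw [← h]
    ring
  obtain ⟨M, hMT, hprod⟩ := prod_sub_mul_eq T a p c haT hpT Finset.univ hcT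
  obtain ⟨n, hn⟩ : ∃ n : ℕ, n = (Finset.univ : Finset (Y2 →ₐ[F2] Ω)).card := ⟨_, rfl⟩
  have hn1 : 1 ≤ n := by
    rw [hn, Finset.card_univ, AlgHom.card F2 Y2 Ω]
    exact Module.finrank_pos
  obtain ⟨x, hx⟩ : ∃ x : F2, x = Algebra.norm F2 b := ⟨_, rfl⟩
  have hxint : IsIntegral R x := by rw [hx]; exact Algebra.isIntegral_norm F2 hb
  have hnorm : algebraMap F2 Ω x = ∏ σ : Y2 →ₐ[F2] Ω, σ b := by
    rw [hx]; exact Algebra.norm_eq_prod_embeddings F2 Ω b
  -- the key identity in `Ω`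
  have hkey : algebraMap F2 Ω (algebraMap R F2 t ^ n * x - (t • ε) ^ n) = p * M := by
    have h1 : ∏ σ : Y2 →ₐ[F2] Ω, (a - p * c σ) = algebraMap R Ω t ^ n * algebraMap F2 Ω x := by
      rw [hnorm, hn, ← Finset.prod_const, ← Finset.prod_mul_distrib]
      exact Finset.prod_congr rfl fun σ _ => (hσ σ).symm
    rw [map_sub, map_mul, map_pow, map_pow, ← IsScalarTower.algebraMap_apply R F2 Ω, ← h1, hprod,
      ← ha, ← hn]
    ring
  have hpne : p ≠ 0 := by
    rw [hp, IsScalarTower.algebraMap_apply R F2 Ω]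
    exact (map_ne_zero _).mpr hπ0
  obtain ⟨m', hm'⟩ : ∃ m' : F2,
      m' = (algebraMap R F2 π)⁻¹ * (algebraMap R F2 t ^ n * x - (t • ε) ^ n) := ⟨_, rfl⟩
  have hm'M : algebraMap F2 Ω m' = M := by
    rw [hm', map_mul, hkey, map_inv₀, ← IsScalarTower.algebraMap_apply R F2 Ω, ← hp,
      ← mul_assoc, inv_mul_cancel₀ hpne, one_mul]
  have hm'int : IsIntegral R m' := by
    rw [← isIntegral_algebraMap_iff (algebraMap F2 Ω).injective, hm'M]
    exact hMT
  have hm'eq : algebraMap R F2 π * m' = algebraMap R F2 t ^ n * x - (t • ε) ^ n := by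
    rw [hm', ← mul_assoc, mul_inv_cancel₀ hπ0, one_mul]
  -- powers of `ε`
  have hpow : ∀ i ≤ n, IsIntegral R (algebraMap R F2 t ^ n * ε ^ i) := by
    intro i hi
    have : algebraMap R F2 t ^ n * ε ^ i = algebraMap R F2 (t ^ (n - i)) * (t • ε) ^ i := by
      rw [Algebra.smul_def, mul_pow, map_pow, ← mul_assoc, ← pow_add, Nat.sub_add_cancel hi]
    rw [this]
    exact isIntegral_algebraMap.mul (hεt.pow i)
  obtain ⟨g, hg⟩ : ∃ g : F2, g = ∑ i ∈ Finset.range (n - 1), ε ^ i := ⟨_, rfl⟩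
  have hgint : IsIntegral R (algebraMap R F2 t ^ n * g) := by
    rw [hg, Finset.mul_sum]
    refine IsIntegral.sum _ fun i hi => hpow i ?_
    have := Finset.mem_range.mp hi
    omega
  have hgeom : ε ^ n - ε = (ε ^ 2 - ε) * g := by
    have h1 : g * (ε - 1) = ε ^ (n - 1) - 1 := by rw [hg]; exact geom_sum_mul ε (n - 1)
    have h2 : ε ^ n = ε ^ (n - 1) * ε := by rw [← pow_succ, Nat.sub_add_cancel hn1]
    calc ε ^ n - ε = ε * (ε ^ (n - 1) - 1) := by rw [h2]; ring
      _ = ε * (g * (ε - 1)) := by rw [h1]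
      _ = (ε ^ 2 - ε) * g := by ring
  have hid' : algebraMap R F2 t2 * (ε ^ 2 - ε) = algebraMap R F2 π * m2 := by
    rw [← Algebra.smul_def, ← Algebra.smul_def]; exact hid
  refine ⟨x, hxint, t ^ n * t2, ?_, -(m2 * (algebraMap R F2 t ^ n * g)) - algebraMap R F2 t2 * m',
    ?_, ?_⟩
  · intro h
    rcases hπ.dvd_or_dvd h with h | h
    · exact htπ (hπ.dvd_of_dvd_pow h)
    · exact ht2 h
  · exact (hm2.mul hgint).neg.sub (isIntegral_algebraMap.mul hm'int)
  · rw [Algebra.smul_def, Algebra.smul_def, map_mul, map_pow]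
    have hxe : algebraMap R F2 t ^ n * x = (t • ε) ^ n + algebraMap R F2 π * m' := by
      rw [hm'eq]; ring
    have hte : (t • ε) ^ n = algebraMap R F2 t ^ n * ε ^ n := by
      rw [Algebra.smul_def, mul_pow]
    have e1 : algebraMap R F2 t ^ n * algebraMap R F2 t2 * (ε - x)
        = -(algebraMap R F2 t ^ n * (algebraMap R F2 t2 * (ε ^ 2 - ε) * g))
          - algebraMap R F2 t2 * (algebraMap R F2 π * m') := by
      have : algebraMap R F2 t ^ n * algebraMap R F2 t2 * (ε - x)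
          = algebraMap R F2 t2 * (algebraMap R F2 t ^ n * ε - algebraMap R F2 t ^ n * x) := by ring
      rw [this, hxe, hte]
      have hg' : ε ^ n = ε + (ε ^ 2 - ε) * g := by rw [← hgeom]; ring
      rw [hg']
      ring
    rw [e1, hid']
    ring

end Main

section Purity

variable {R R0 F2 Y2 B : Type*} [CommRing R] [CommRing R0] [Field F2] [Field Y2] [CommRing B]
  [Algebra R F2] [Algebra F2 Y2] [Algebra R Y2] [IsScalarTower R F2 Y2] [FiniteDimensional F2 Y2]
  [Algebra.IsSeparable F2 Y2]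
  [Algebra R R0] [Algebra R0 Y2] [IsScalarTower R R0 Y2] [Algebra.IsIntegral R R0]
  [Algebra R0 B] [Algebra B Y2] [IsScalarTower R0 B Y2] [IsIntegralClosure B R0 Y2]

/-- **Norm of an idempotent lift, purity-shaped input.**  `R0 ⊇ R` is the (regular) auxiliary
ring, integral over `R`; `B` is the integral closure of `R0` in `Y2`; `(b, s0, b₁)` is the output
of the purity theorem over `R0` for `c = ε`.  Hypothesis `hN` says that every element of `R0`
outside `π R0` divides an element of `R` outside `π R` (i.e. `π R0` is the only prime above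
`π R`). -/
theorem exists_lift_of_purity (π : R) (hπ : Prime π) (hπ0 : algebraMap R F2 π ≠ 0)
    (hN : ∀ s0 : R0, s0 ∉ Ideal.span {algebraMap R R0 π} →
      ∃ s0' : R0, ∃ t : R, ¬ π ∣ t ∧ s0 * s0' = algebraMap R R0 t)
    (ε : F2)
    (hε : ∃ t : R, ¬ π ∣ t ∧ IsIntegral R (t • ε))
    (hidem : ∃ t : R, ¬ π ∣ t ∧ ∃ m : F2, IsIntegral R m ∧ t • (ε ^ 2 - ε) = π • m)
    (b : B) (s0 : R0) (hs0 : s0 ∉ Ideal.span {algebraMap R R0 π}) (b₁ : B)
    (h : s0 • (algebraMap F2 Y2 ε - algebraMap B Y2 b) =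
      algebraMap R R0 π • algebraMap B Y2 b₁) :
    ∃ e : F2, IsIntegral R e ∧ ∃ t : R, ¬ π ∣ t ∧ ∃ m : F2, IsIntegral R m ∧
      t • (ε - e) = π • m := by
  have hint : ∀ z : B, IsIntegral R (algebraMap B Y2 z) := fun z =>
    isIntegral_trans (A := R0) _ ((IsIntegralClosure.isIntegral R0 Y2 z).algebraMap)
  obtain ⟨s0', t, ht, hst⟩ := hN s0 hs0
  refine exists_lift_of_norm π hπ hπ0 ε hε hidem (algebraMap B Y2 b) (hint b)
    ⟨t, ht, algebraMap B Y2 (s0' • b₁), hint _, ?_⟩
  have h1 : t • (algebraMap F2 Y2 ε - algebraMap B Y2 b)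
      = s0' • (s0 • (algebraMap F2 Y2 ε - algebraMap B Y2 b)) := by
    rw [smul_smul, mul_comm s0' s0, hst, algebraMap_smul]
  rw [h1, h, smul_comm, algebraMap_smul, Algebra.smul_def s0' b₁, map_mul,
    ← IsScalarTower.algebraMap_apply R0 B Y2, ← Algebra.smul_def]

end Purity

section Group

variable {R R0 G : Type*} [CommRing R] [CommRing R0] [Algebra R R0] [Group G] [Fintype G]
  [MulSemiringAction G R0] [SMulCommClass G R R0]

/-- Supplier for the hypothesis `hN` of `exists_lift_of_purity`: if a finite group acts on `R0`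
over `R` with invariants (the image of) `R`, and `π R0` is a prime ideal, then every element of
`R0` outside `π R0` divides an element of `R` outside `π R` (its norm). -/
theorem exists_mul_eq_algebraMap_of_group (π : R)
    (hprime : (Ideal.span {algebraMap R R0 π}).IsPrime)
    (hinv : ∀ x : R0, (∀ g : G, g • x = x) → ∃ r : R, algebraMap R R0 r = x)
    (s0 : R0) (hs0 : s0 ∉ Ideal.span {algebraMap R R0 π}) :
    ∃ s0' : R0, ∃ t : R, ¬ π ∣ t ∧ s0 * s0' = algebraMap R R0 t := by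
  classical
  have hfix : ∀ (g : G) (r : R), g • algebraMap R R0 r = algebraMap R R0 r := fun g r =>
    smul_algebraMap g r
  obtain ⟨t, ht⟩ := hinv (∏ g : G, g • s0) (fun h => by
    rw [Finset.smul_prod']
    refine Fintype.prod_equiv (Equiv.mulLeft h) _ _ fun g => ?_
    simp [mul_smul])
  refine ⟨∏ g ∈ (Finset.univ : Finset G).erase 1, g • s0, t, ?_, ?_⟩
  · rintro ⟨r, rfl⟩
    have hmem : ∏ g : G, g • s0 ∈ Ideal.span {algebraMap R R0 π} := by
      rw [← ht, map_mul]
      exact Ideal.mul_mem_right _ _ (Ideal.subset_span rfl)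
    obtain ⟨g, -, hg⟩ := (Ideal.IsPrime.prod_mem_iff).mp hmem
    obtain ⟨y, hy⟩ := Ideal.mem_span_singleton'.mp hg
    apply hs0
    rw [Ideal.mem_span_singleton']
    refine ⟨g⁻¹ • y, ?_⟩
    have : s0 = g⁻¹ • (g • s0) := by rw [inv_smul_smul]
    rw [this, ← hy, smul_mul', hfix]
  · rw [ht, ← Finset.mul_prod_erase Finset.univ (fun g : G => g • s0) (Finset.mem_univ 1),
      one_smul]

end Group

end Fermat.Agent.S18.NormIdem
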