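import Mathlib

set_option autoImplicit false

/-!
# S18: pushing a lift of the sheet idempotent down by a norm

`A₀` is a chart ring (e.g. `W[j]`), `T` a multiplicative set of "multipliers" (e.g. the
`p(j)` with `p ∉ πW[X]`), all integral over `A₀`.  For `x` in an `A₀`-algebra we write

* `InC T x`   : `∃ t ∈ T, t * x` is integral over `A₀`       (`x ∈ C`, the localised closure),
* `InPiC T π x` : `∃ t ∈ T, ∃ b` integral, `t * x = π * b`      (`x ∈ πC`).

Main result `norm_lift`: if a finite group `H` acts on `Y'` with fixed field `Y`, `ε ∈ Y` is an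
idempotent modulo `πC`, and `b ∈ Y'` is integral over `A₀` with `ε - b ∈ πC'`, then the norm
`∏ h • b` descends to an element `e ∈ Y`, integral over `A₀`, with `ε - e ∈ πC`.
-/

namespace Fermat.Agent.S18.NormLift

section Pred

variable (A₀ : Type*) {M : Type*} [CommRing A₀] [CommRing M] [Algebra A₀ M]
  (T : Submonoid M) (π : M)

/-- `x ∈ C`: some multiplier carries `x` into the integral closure of `A₀`. -/
def InC (x : M) : Prop := ∃ t ∈ T, IsIntegral A₀ (t * x)

/-- `x ∈ πC`: some multiplier carries `x` into `π` times the integral closure of `A₀`. -/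
def InPiC (x : M) : Prop := ∃ t ∈ T, ∃ b : M, IsIntegral A₀ b ∧ t * x = π * b

variable {A₀ T π}

theorem InC.of_isIntegral {x : M} (hx : IsIntegral A₀ x) : InC A₀ T x :=
  ⟨1, T.one_mem, by rwa [one_mul]⟩

theorem InC.mul {x y : M} (hx : InC A₀ T x) (hy : InC A₀ T y) : InC A₀ T (x * y) := by
  obtain ⟨t₁, ht₁, h₁⟩ := hx
  obtain ⟨t₂, ht₂, h₂⟩ := hy
  refine ⟨t₁ * t₂, T.mul_mem ht₁ ht₂, ?_⟩
  have : t₁ * t₂ * (x * y) = (t₁ * x) * (t₂ * y) := by ring
  rw [this]
  exact h₁.mul h₂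

theorem InC.prod {ι : Type*} (s : Finset ι) (f : ι → M)
    (hf : ∀ i ∈ s, InC A₀ T (f i)) : InC A₀ T (∏ i ∈ s, f i) := by
  classical
  induction s using Finset.induction_on with
  | empty => simpa using InC.of_isIntegral (T := T) (isIntegral_one (R := A₀) (B := M))
  | insert i s hi ih =>
    rw [Finset.prod_insert hi]
    exact InC.mul (hf i (Finset.mem_insert_self i s))
      (ih fun j hj => hf j (Finset.mem_insert_of_mem hj))

theorem InPiC.zero : InPiC A₀ T π (0 : M) :=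
  ⟨1, T.one_mem, 0, isIntegral_zero, by simp⟩

theorem InPiC.add (hT : ∀ t ∈ T, IsIntegral A₀ t) {x y : M} (hx : InPiC A₀ T π x)
    (hy : InPiC A₀ T π y) : InPiC A₀ T π (x + y) := by
  obtain ⟨t₁, ht₁, b₁, hb₁, h₁⟩ := hx
  obtain ⟨t₂, ht₂, b₂, hb₂, h₂⟩ := hy
  refine ⟨t₁ * t₂, T.mul_mem ht₁ ht₂, t₂ * b₁ + t₁ * b₂,
    ((hT t₂ ht₂).mul hb₁).add ((hT t₁ ht₁).mul hb₂), ?_⟩
  linear_combination t₂ * h₁ + t₁ * h₂

theorem InPiC.neg {x : M} (hx : InPiC A₀ T π x) : InPiC A₀ T π (-x) := by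
  obtain ⟨t₁, ht₁, b₁, hb₁, h₁⟩ := hx
  exact ⟨t₁, ht₁, -b₁, hb₁.neg, by linear_combination -h₁⟩

theorem InPiC.sub (hT : ∀ t ∈ T, IsIntegral A₀ t) {x y : M} (hx : InPiC A₀ T π x)
    (hy : InPiC A₀ T π y) : InPiC A₀ T π (x - y) := by
  rw [sub_eq_add_neg]
  exact hx.add hT hy.neg

theorem InPiC.mul_inC {x c : M} (hx : InPiC A₀ T π x) (hc : InC A₀ T c) :
    InPiC A₀ T π (x * c) := by
  obtain ⟨t₁, ht₁, b₁, hb₁, h₁⟩ := hx
  obtain ⟨t₂, ht₂, h₂⟩ := hc
  exact ⟨t₁ * t₂, T.mul_mem ht₁ ht₂, b₁ * (t₂ * c), hb₁.mul h₂, by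
    linear_combination (t₂ * c) * h₁⟩

/-- Congruence of products modulo `πC`. -/
theorem InPiC.prod_sub_prod (hT : ∀ t ∈ T, IsIntegral A₀ t) {ι : Type*} (s : Finset ι)
    (f g : ι → M) (hf : ∀ i ∈ s, InC A₀ T (f i)) (hg : ∀ i ∈ s, InC A₀ T (g i))
    (hfg : ∀ i ∈ s, InPiC A₀ T π (f i - g i)) :
    InPiC A₀ T π (∏ i ∈ s, f i - ∏ i ∈ s, g i) := by
  classical
  induction s using Finset.induction_on with
  | empty => simpa using InPiC.zero (A₀ := A₀) (T := T) (π := π)
  | insert i s hi ih =>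
    rw [Finset.prod_insert hi, Finset.prod_insert hi]
    have h1 := ih (fun j hj => hf j (Finset.mem_insert_of_mem hj))
      (fun j hj => hg j (Finset.mem_insert_of_mem hj))
      (fun j hj => hfg j (Finset.mem_insert_of_mem hj))
    have h2 := hfg i (Finset.mem_insert_self i s)
    have h3 : InPiC A₀ T π ((∏ j ∈ s, f j - ∏ j ∈ s, g j) * f i) :=
      h1.mul_inC (hf i (Finset.mem_insert_self i s))
    have h4 : InPiC A₀ T π ((f i - g i) * ∏ j ∈ s, g j) :=
      h2.mul_inC (InC.prod s g fun j hj => hg j (Finset.mem_insert_of_mem hj))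
    have h5 := h3.add hT h4
    have e : f i * ∏ j ∈ s, f j - g i * ∏ j ∈ s, g j =
        (∏ j ∈ s, f j - ∏ j ∈ s, g j) * f i + (f i - g i) * ∏ j ∈ s, g j := by ring
    rw [e]
    exact h5

/-- An idempotent modulo `πC` satisfies `ε ^ (n+1) ≡ ε`. -/
theorem InPiC.pow_succ_sub (hT : ∀ t ∈ T, IsIntegral A₀ t) {ε : M} (hεC : InC A₀ T ε)
    (hε : InPiC A₀ T π (ε ^ 2 - ε)) (n : ℕ) : InPiC A₀ T π (ε ^ (n + 1) - ε) := by
  induction n with
  | zero => simpa using InPiC.zero (A₀ := A₀) (T := T) (π := π)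
  | succ n ih =>
    have h1 : InPiC A₀ T π ((ε ^ (n + 1) - ε) * ε) := ih.mul_inC hεC
    have h2 := h1.add hT hε
    have e : ε ^ (n + 1 + 1) - ε = (ε ^ (n + 1) - ε) * ε + (ε ^ 2 - ε) := by ring
    rw [e]
    exact h2

end Pred

section Main

variable {A₀ Y Y' H : Type*} [CommRing A₀] [Field Y] [Field Y'] [Algebra A₀ Y] [Algebra A₀ Y']
  [Algebra Y Y'] [IsScalarTower A₀ Y Y'] [Group H] [Fintype H] [MulSemiringAction H Y']

/-- **Norm-down of a lift of an idempotent.**  `H` acts on `Y'` with fixed field `Y`; `ε ∈ Y`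
is an idempotent modulo `πC` (`C` = localised integral closure of `A₀` in `Y`); `b ∈ Y'` is
integral over `A₀` and `ε ≡ b` modulo `πC'`.  Then `∏ h • b` is (the image of) an element
`e ∈ Y`, integral over `A₀`, with `ε ≡ e` modulo `πC`. -/
theorem norm_lift
    (hfix : ∀ (h : H) (y : Y), h • algebraMap Y Y' y = algebraMap Y Y' y)
    (hinv : ∀ x : Y', (∀ h : H, h • x = x) → ∃ y : Y, algebraMap Y Y' y = x)
    (T : Submonoid Y) (hT : ∀ t ∈ T, IsIntegral A₀ t) (π : Y)
    (ε : Y) (hεC : InC A₀ T ε) (hε : InPiC A₀ T π (ε ^ 2 - ε))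
    (b : Y') (hbint : IsIntegral A₀ b)
    (hb : InPiC A₀ (T.map (algebraMap Y Y')) (algebraMap Y Y' π) (algebraMap Y Y' ε - b)) :
    ∃ e : Y, algebraMap Y Y' e = ∏ h : H, h • b ∧ IsIntegral A₀ e ∧
      InPiC A₀ T π (ε - e) := by
  classical
  have hinj : Function.Injective (algebraMap Y Y') := (algebraMap Y Y').injective
  -- multipliers upstairs are integral
  have hT' : ∀ t ∈ T.map (algebraMap Y Y'), IsIntegral A₀ t := by
    rintro _ ⟨t, ht, rfl⟩
    exact (hT t ht).algebraMap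
  -- the action preserves integrality
  have hAfix : ∀ (h : H) (a : A₀), h • algebraMap A₀ Y' a = algebraMap A₀ Y' a := by
    intro h a
    rw [IsScalarTower.algebraMap_apply A₀ Y Y', hfix]
  have hint : ∀ (h : H) (x : Y'), IsIntegral A₀ x → IsIntegral A₀ (h • x) := by
    intro h x hx
    have := IsIntegral.map_of_comp_eq (RingHom.id A₀) (MulSemiringAction.toRingHom H Y' h)
      (by ext a; exact (hAfix h a).symm) hx
    exact this
  -- transfer of the predicates from `Y` to `Y'`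
  have hCup : ∀ x : Y, InC A₀ T x → InC A₀ (T.map (algebraMap Y Y')) (algebraMap Y Y' x) := by
    rintro x ⟨t, ht, h⟩
    exact ⟨algebraMap Y Y' t, ⟨t, ht, rfl⟩, by rw [← map_mul]; exact h.algebraMap⟩
  have hPup : ∀ x : Y, InPiC A₀ T π x →
      InPiC A₀ (T.map (algebraMap Y Y')) (algebraMap Y Y' π) (algebraMap Y Y' x) := by
    rintro x ⟨t, ht, b₀, hb₀, h⟩
    exact ⟨algebraMap Y Y' t, ⟨t, ht, rfl⟩, algebraMap Y Y' b₀, hb₀.algebraMap, by
      rw [← map_mul, ← map_mul, h]⟩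
  -- each conjugate of `b` is congruent to `ε`
  have hconj : ∀ h : H, InPiC A₀ (T.map (algebraMap Y Y')) (algebraMap Y Y' π)
      (algebraMap Y Y' ε - h • b) := by
    intro h
    obtain ⟨t', ⟨t, ht, rfl⟩, b', hb', hEq⟩ := hb
    refine ⟨algebraMap Y Y' t, ⟨t, ht, rfl⟩, h • b', hint h b' hb', ?_⟩
    have := congrArg (fun x => h • x) hEq
    simp only [smul_mul', smul_sub, hfix] at this
    exact this
  have hbC : ∀ h : H, InC A₀ (T.map (algebraMap Y Y')) (h • b) :=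
    fun h => InC.of_isIntegral (hint h b hbint)
  have hεC' := hCup ε hεC
  -- product congruence
  have hprod : InPiC A₀ (T.map (algebraMap Y Y')) (algebraMap Y Y' π)
      (∏ _h : H, algebraMap Y Y' ε - ∏ h : H, h • b) :=
    InPiC.prod_sub_prod hT' Finset.univ (fun _ => algebraMap Y Y' ε) (fun h => h • b)
      (fun _ _ => hεC') (fun h _ => hbC h) (fun h _ => hconj h)
  rw [Finset.prod_const, Finset.card_univ] at hprod
  -- `ε ^ |H| ≡ ε`
  have hcard : Fintype.card H = (Fintype.card H - 1) + 1 :=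
    (Nat.sub_add_cancel Fintype.card_pos).symm
  have hpow : InPiC A₀ (T.map (algebraMap Y Y')) (algebraMap Y Y' π)
      (algebraMap Y Y' ε ^ Fintype.card H - algebraMap Y Y' ε) := by
    rw [hcard]
    have := InPiC.pow_succ_sub hT hεC hε (Fintype.card H - 1)
    have h2 := hPup _ this
    rwa [map_sub, map_pow] at h2
  have hmain : InPiC A₀ (T.map (algebraMap Y Y')) (algebraMap Y Y' π)
      (algebraMap Y Y' ε - ∏ h : H, h • b) := by
    have h1 := hprod.sub hT' hpow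
    have e : algebraMap Y Y' ε ^ Fintype.card H - ∏ h : H, h • b -
        (algebraMap Y Y' ε ^ Fintype.card H - algebraMap Y Y' ε) =
        algebraMap Y Y' ε - ∏ h : H, h • b := by ring
    rwa [e] at h1
  -- the norm is invariant
  have hinvar : ∀ h' : H, h' • ∏ h : H, h • b = ∏ h : H, h • b := by
    intro h'
    have h1 : h' • ∏ h : H, h • b = ∏ h : H, h' • h • b :=
      map_prod (MulSemiringAction.toRingHom H Y' h') _ _
    rw [h1]
    refine Fintype.prod_equiv (Equiv.mulLeft h') _ _ fun h => ?_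
    rw [Equiv.coe_mulLeft, mul_smul]
  obtain ⟨e, he⟩ := hinv _ hinvar
  have heint : IsIntegral A₀ e := by
    rw [← isIntegral_algebraMap_iff hinj, he]
    exact IsIntegral.prod _ fun h _ => hint h b hbint
  refine ⟨e, he, heint, ?_⟩
  rw [← he, ← map_sub] at hmain
  obtain ⟨t', ⟨t, ht, rfl⟩, b', hb', hEq⟩ := hmain
  by_cases hπ0 : π = 0
  · refine ⟨t, ht, 0, isIntegral_zero, ?_⟩
    rw [hπ0, map_zero, zero_mul, ← map_mul] at hEq
    rw [mul_zero]
    exact hinj (by rw [hEq, map_zero])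
  · refine ⟨t, ht, π⁻¹ * (t * (ε - e)), ?_, by field_simp⟩
    have h1 : algebraMap Y Y' (π⁻¹ * (t * (ε - e))) = b' := by
      rw [map_mul, map_mul, hEq, map_inv₀, ← mul_assoc,
        inv_mul_cancel₀ (by rwa [Ne, map_eq_zero]), one_mul]
    rw [← isIntegral_algebraMap_iff hinj, h1]
    exact hb'

end Main

section Poly

open Polynomial

variable {W F Y Y' H : Type*} [CommRing W] [Field F] [Algebra W F]
  [Field Y] [Algebra W Y] [Algebra F Y] [IsScalarTower W F Y]
  [Field Y'] [Algebra W Y'] [Algebra F Y'] [Algebra Y Y'] [IsScalarTower W F Y']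
  [IsScalarTower F Y Y'] [Group H] [Fintype H] [MulSemiringAction H Y']

/-- The multipliers `p(x)`, `p ∈ W[X]` not divisible by `π`, as a submonoid of `Y`. -/
def polyMult (π : W) (hπ : Prime π) (x : F) : Submonoid Y where
  carrier := {t | ∃ p : W[X], ¬ C π ∣ p ∧ t = algebraMap F Y (aeval x p)}
  one_mem' := ⟨1, fun h => (Polynomial.prime_C_iff.mpr hπ).not_isUnit (isUnit_of_dvd_one h),
    by simp⟩
  mul_mem' := by
    rintro _ _ ⟨p, hp, rfl⟩ ⟨q, hq, rfl⟩
    refine ⟨p * q, fun h => ?_, by simp⟩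
    rcases (Polynomial.prime_C_iff.mpr hπ).dvd_or_dvd h with h | h
    · exact hp h
    · exact hq h

/-- `norm_lift` in the polynomial-multiplier currency of the endgame: chart ring `W[x]`
(`x = j` or `x = j⁻¹`), multipliers `p(x)` with `p ∉ πW[X]`. -/
theorem norm_lift_adjoin
    (hfix : ∀ (h : H) (y : Y), h • algebraMap Y Y' y = algebraMap Y Y' y)
    (hinv : ∀ z : Y', (∀ h : H, h • z = z) → ∃ y : Y, algebraMap Y Y' y = z)
    (π : W) (hπ : Prime π) (x : F) (ε : Y)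
    (hεC : ∃ p : W[X], ¬ C π ∣ p ∧ IsIntegral (Algebra.adjoin W {x}) (aeval x p • ε))
    (hε : ∃ p : W[X], ¬ C π ∣ p ∧ ∃ b : Y, IsIntegral (Algebra.adjoin W {x}) b ∧
      aeval x p • (ε ^ 2 - ε) = π • b)
    (b : Y') (hbint : IsIntegral (Algebra.adjoin W {x}) b)
    (hb : ∃ p : W[X], ¬ C π ∣ p ∧ ∃ b' : Y', IsIntegral (Algebra.adjoin W {x}) b' ∧
      aeval x p • (algebraMap Y Y' ε - b) = π • b') :
    ∃ e : Y, algebraMap Y Y' e = ∏ h : H, h • b ∧ IsIntegral (Algebra.adjoin W {x}) e ∧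
      ∃ p : W[X], ¬ C π ∣ p ∧ ∃ b'' : Y, IsIntegral (Algebra.adjoin W {x}) b'' ∧
        aeval x p • (ε - e) = π • b'' := by
  have : IsScalarTower (Algebra.adjoin W {x}) Y Y' :=
    IsScalarTower.of_algebraMap_eq fun a => by
      change algebraMap F Y' (a : F) = algebraMap Y Y' (algebraMap F Y (a : F))
      rw [← IsScalarTower.algebraMap_apply F Y Y']
  have hT : ∀ t ∈ polyMult (Y := Y) π hπ x, IsIntegral (Algebra.adjoin W {x}) t := by
    rintro _ ⟨p, -, rfl⟩
    have hmem : aeval x p ∈ Algebra.adjoin W {x} := by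
      rw [Algebra.adjoin_singleton_eq_range_aeval]
      exact ⟨p, rfl⟩
    exact isIntegral_algebraMap (R := Algebra.adjoin W {x}) (x := ⟨aeval x p, hmem⟩)
  have hπY' : algebraMap Y Y' (algebraMap W Y π) = algebraMap W Y' π := by
    rw [IsScalarTower.algebraMap_apply W F Y, ← IsScalarTower.algebraMap_apply F Y Y',
      ← IsScalarTower.algebraMap_apply W F Y']
  have hεC' : InC (Algebra.adjoin W {x}) (polyMult (Y := Y) π hπ x) ε := by
    obtain ⟨p, hp, h⟩ := hεC
    exact ⟨_, ⟨p, hp, rfl⟩, by rwa [← Algebra.smul_def]⟩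
  have hε' : InPiC (Algebra.adjoin W {x}) (polyMult (Y := Y) π hπ x) (algebraMap W Y π)
      (ε ^ 2 - ε) := by
    obtain ⟨p, hp, b₀, hb₀, h⟩ := hε
    exact ⟨_, ⟨p, hp, rfl⟩, b₀, hb₀, by rw [← Algebra.smul_def, ← Algebra.smul_def, h]⟩
  have hb' : InPiC (Algebra.adjoin W {x}) ((polyMult (Y := Y) π hπ x).map (algebraMap Y Y'))
      (algebraMap Y Y' (algebraMap W Y π)) (algebraMap Y Y' ε - b) := by
    obtain ⟨p, hp, b', hb', h⟩ := hb
    refine ⟨_, ⟨_, ⟨p, hp, rfl⟩, rfl⟩, b', hb', ?_⟩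
    rw [hπY', ← IsScalarTower.algebraMap_apply F Y Y', ← Algebra.smul_def, ← Algebra.smul_def, h]
  obtain ⟨e, he, heint, t, ⟨p, hp, rfl⟩, b'', hb'', h⟩ :=
    norm_lift hfix hinv (polyMult (Y := Y) π hπ x) hT (algebraMap W Y π) ε hεC' hε' b hbint hb'
  exact ⟨e, he, heint, p, hp, b'', hb'', by rw [Algebra.smul_def, Algebra.smul_def, h]⟩

end Poly

end Fermat.Agent.S18.NormLift
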