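import Mathlib
import Fermat.Agent.S18.GaussFull
import Fermat.Agent.S18.Contracts
import Fermat.Agent.S18.TSD

/-!
# S18, assembly glue on the PG side: Gauss integrality of the elements of the content ring

`W` is a valuation subring of a field `L` of characteristic zero with residue characteristic
`ℓ ∤ N`, `F = S24.FF L N` the function field of `X₀(N)` over `L`.

* `exists_isIntegralElem` (sat-`j`): an element `x` of `F` lying in the content ring of `W`
  (the valuation ring of the Gauss valuation) is *Gauss-integral* over `W[j]`: there is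
  `S ∈ W[X]`, nonzero modulo the maximal ideal, such that `S(j) x` is integral over `W[j]`.
* `mem_contentRing_of_isIntegralElem`: the converse, for a discrete valuation ring `W`.
* `isGaussJ_of_mem_contentRing`, `mem_contentRing_of_isGaussJ`, `not_isGaussJ_inv_unif`:
  the same in the vocabulary of `Contracts` (`IsGaussJ`).
* `isGaussJ_w`, `isGaussJ_w_inv`, `exists_w_sub_one`: for the Kummer datum `w = Z1 / Z2` of a
  `Contracts.KData`: `w` and `w⁻¹` are Gauss-integral and `w - 1 = π d` with `d` Gauss-integral.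
-/

set_option autoImplicit false

noncomputable section

namespace Fermat.Agent.S18.PGGlue

open ModularCurve Polynomial Fermat.Agent.S18.Gauss

/-! ### A generic lemma: clearing one denominator in a monic equation -/

/-- If `x` is a root of a monic polynomial `p` over `B` whose lower coefficients become
elements of the image of `φ : A → B` after multiplication by `φ q`, then `φ q * x` is integral
over `A`. -/
theorem isIntegralElem_mul_of_coeff {A B : Type*} [CommRing A] [CommRing B] (φ : A →+* B)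
    (x : B) (p : B[X]) (hp : p.Monic) (hx : p.eval x = 0) (q : A)
    (hq : ∀ k, k < p.natDegree → ∃ a : A, p.coeff k * φ q = φ a) :
    φ.IsIntegralElem (φ q * x) := by
  have hmonic : (scaleRoots p (φ q)).Monic := (monic_scaleRoots_iff (φ q)).mpr hp
  have hlift : scaleRoots p (φ q) ∈ lifts φ := by
    rw [lifts_iff_coeff_lifts]
    intro i
    rw [coeff_scaleRoots]
    rcases lt_trichotomy i p.natDegree with hi | hi | hi
    · obtain ⟨a, ha⟩ := hq i hi
      obtain ⟨m, hm⟩ : ∃ m, p.natDegree - i = m + 1 := ⟨p.natDegree - i - 1, by omega⟩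
      refine ⟨a * q ^ m, ?_⟩
      rw [hm, map_mul, map_pow, ← ha, pow_succ]
      ring
    · refine ⟨1, ?_⟩
      rw [hi, Nat.sub_self, pow_zero, mul_one, map_one]
      exact hp.coeff_natDegree.symm
    · refine ⟨0, ?_⟩
      rw [map_zero, coeff_eq_zero_of_natDegree_lt hi, zero_mul]
  obtain ⟨Q, hQmap, -, hQmonic⟩ := lifts_and_natDegree_eq_and_monic hlift hmonic
  refine ⟨Q, hQmonic, ?_⟩
  rw [← eval_map, hQmap]
  have h := scaleRoots_eval₂_eq_zero (RingHom.id B) (p := p) (r := x) (s := φ q)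
    (by rw [eval₂_id]; exact hx)
  rw [eval₂_id] at h
  exact h

variable {L : Type*} [Field L] (W : ValuationSubring L)

/-! ### The ring `O₀ = L(j) ∩ contentRing` and evaluation at `j` -/

/-- Evaluation of polynomials over `W` at the `j`-series, with values in `L((q))`. -/
def evL : (↥W)[X] →+* LaurentSeries L := Polynomial.eval₂RingHom (constL W) (jqModC L)

theorem evL_eq (P : (↥W)[X]) : evL W P = toL W (evJ W P) := (toL_evJ W P).symm

theorem evL_mem_contentRing (P : (↥W)[X]) : evL W P ∈ contentRing W := by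
  rw [evL_eq]; exact toL_mem_contentRing W _

/-- `O₀ = L(j) ∩ contentRing W`. -/
def O0 : Subring (LaurentSeries L) where
  carrier := {c | c ∈ contentRing W ∧ c ∈ IntermediateField.adjoin L {jqModC L}}
  mul_mem' := fun ha hb => ⟨mul_mem ha.1 hb.1, mul_mem ha.2 hb.2⟩
  one_mem' := ⟨one_mem _, one_mem _⟩
  add_mem' := fun ha hb => ⟨add_mem ha.1 hb.1, add_mem ha.2 hb.2⟩
  zero_mem' := ⟨zero_mem _, zero_mem _⟩
  neg_mem' := fun ha => ⟨neg_mem ha.1, neg_mem ha.2⟩

theorem mem_O0_iff {c : LaurentSeries L} :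
    c ∈ O0 W ↔ c ∈ contentRing W ∧ c ∈ IntermediateField.adjoin L {jqModC L} := Iff.rfl

/-- Every element of `O₀` is a quotient `P(j) / Q(j)` with `P, Q ∈ W[X]`, `Q` nonzero modulo
the maximal ideal. -/
theorem exists_quot_of_mem_O0 {c : LaurentSeries L} (hc : c ∈ O0 W) :
    ∃ P Q : (↥W)[X], Q.map (IsLocalRing.residue W) ≠ 0 ∧ c * evL W Q = evL W P := by
  rcases eq_or_ne c 0 with rfl | hc0
  · exact ⟨0, 1, by rw [Polynomial.map_one]; exact one_ne_zero, by rw [zero_mul, map_zero]⟩
  obtain ⟨a, P, Q, ha, hP, hQ, h⟩ := exists_const_mul_quot W hc.2 hc0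
  have hPinv : (toL W (evJ W P))⁻¹ ∈ contentRing W :=
    inv_mem_contentRing W (toL_mem_contentRing W _) (by rw [red_toL]; exact hP)
  have hP0 : toL W (evJ W P) ≠ 0 := fun h0 =>
    hP (by rw [(toL_eq_zero_iff W _).mp h0, map_zero])
  have haW : a ∈ W := by
    rw [← C_mem_contentRing_iff W]
    have h1 : HahnSeries.C a = c * toL W (evJ W Q) * (toL W (evJ W P))⁻¹ := by
      rw [h]; field_simp
    rw [h1]
    exact mul_mem (mul_mem hc.1 (toL_mem_contentRing W _)) hPinv
  refine ⟨C (⟨a, haW⟩ : W) * P, Q, fun h0 => hQ ((toK_evJ_eq_zero_iff W Q).mpr h0), ?_⟩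
  rw [evL_eq, h, map_mul, ← evL_eq]
  congr 1
  show HahnSeries.C a = evL W (C (⟨a, haW⟩ : W))
  rw [evL, Polynomial.coe_eval₂RingHom, Polynomial.eval₂_C, constL_apply]

section Main

variable [Algebra ℚ L] (N : ℕ) [NeZero N] (ℓ : ℕ) [Fact ℓ.Prime]
  [CharP (IsLocalRing.ResidueField W) ℓ]

/-- An element of `F_L` in the content ring is integral over `O₀`. -/
theorem isIntegral_O0 (hℓN : ¬ ℓ ∣ N) {x : LaurentSeries L}
    (hx : x ∈ laurentBaseChange L (modularFunctionFieldFull N)) (hxW : x ∈ contentRing W) :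
    IsIntegral ↥(O0 W) x := by
  obtain ⟨θ, hθ, -, -, hmem, hspan⟩ := exists_orthonormal_basis W N ℓ hℓN
  have hbF : ∀ i, coeffMap (Int.castRingHom L) (θ i) ∈
      laurentBaseChange L (modularFunctionFieldFull N) := fun i => by
    rw [← toL_coeffMap_intCast W]
    exact (coeffMap_intCast_mem_intFull W N (hθ i)).1
  have hbW : ∀ i, coeffMap (Int.castRingHom L) (θ i) ∈ contentRing W := fun i =>
    coeffMap_intCast_mem_contentRing W (θ i)
  let M : Submodule ↥(O0 W) (LaurentSeries L) :=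
    Submodule.span ↥(O0 W) (Set.range fun i => coeffMap (Int.castRingHom L) (θ i))
  have hM0 : M ≠ ⊥ := by
    intro hbot
    obtain ⟨c, -, hc⟩ := hspan 1 (one_mem _)
    have hb0 : ∀ i, coeffMap (Int.castRingHom L) (θ i) = 0 := fun i => by
      have h1 : coeffMap (Int.castRingHom L) (θ i) ∈ M := Submodule.subset_span ⟨i, rfl⟩
      rw [hbot] at h1
      exact (Submodule.mem_bot _).mp h1
    have h2 : (1 : LaurentSeries L) = 0 := by
      rw [hc]
      exact Finset.sum_eq_zero fun i _ => by rw [hb0 i, mul_zero]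
    exact one_ne_zero h2
  have hMfg : M.FG := Submodule.fg_span (Set.finite_range _)
  refine isIntegral_of_smul_mem_submodule M hM0 hMfg x ?_
  intro n hn
  obtain ⟨c, rfl⟩ := (Submodule.mem_span_range_iff_exists_fun _).mp hn
  have hnF : x • ∑ i, c i • coeffMap (Int.castRingHom L) (θ i) ∈
      laurentBaseChange L (modularFunctionFieldFull N) := by
    rw [smul_eq_mul]
    refine mul_mem hx (sum_mem fun i _ => ?_)
    have h1 : c i • coeffMap (Int.castRingHom L) (θ i) =
        (c i : LaurentSeries L) * coeffMap (Int.castRingHom L) (θ i) := rfl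
    rw [h1]
    exact mul_mem (mem_FF_of_mem_adjoin_jq L N (c i).2.2) (hbF i)
  have hnW : x • ∑ i, c i • coeffMap (Int.castRingHom L) (θ i) ∈ contentRing W := by
    rw [smul_eq_mul]
    refine mul_mem hxW (sum_mem fun i _ => ?_)
    have h1 : c i • coeffMap (Int.castRingHom L) (θ i) =
        (c i : LaurentSeries L) * coeffMap (Int.castRingHom L) (θ i) := rfl
    rw [h1]
    exact mul_mem (c i).2.1 (hbW i)
  obtain ⟨c', hc', heq⟩ := hspan _ hnF
  have hc'W := hmem c' hc' (heq ▸ hnW)
  rw [heq]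
  refine Submodule.sum_mem _ fun i _ => ?_
  have h1 : c' i * coeffMap (Int.castRingHom L) (θ i) =
      (⟨c' i, hc'W i, hc' i⟩ : O0 W) • coeffMap (Int.castRingHom L) (θ i) := rfl
  rw [h1]
  exact Submodule.smul_mem _ _ (Submodule.subset_span ⟨i, rfl⟩)

/-- **sat-`j`, raw form.** An element `x` of `F_L` in the content ring is Gauss-integral over
`W[j]`: there is `S ∈ W[X]`, nonzero modulo the maximal ideal, with `S(j) x` integral over
`W[j]`. -/
theorem exists_isIntegralElem (hℓN : ¬ ℓ ∣ N) {x : LaurentSeries L}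
    (hx : x ∈ laurentBaseChange L (modularFunctionFieldFull N)) (hxW : x ∈ contentRing W) :
    ∃ S : (↥W)[X], S.map (IsLocalRing.residue W) ≠ 0 ∧
      (evL W).IsIntegralElem (evL W S * x) := by
  classical
  obtain ⟨p, hp, hpx⟩ := isIntegral_O0 W N ℓ hℓN hx hxW
  have hcoeff : ∀ k : ℕ, ∃ P Q : (↥W)[X], Q.map (IsLocalRing.residue W) ≠ 0 ∧
      ((p.coeff k : O0 W) : LaurentSeries L) * evL W Q = evL W P := fun k =>
    exists_quot_of_mem_O0 W (p.coeff k).2
  choose P Q hQ hPQ using hcoeff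
  refine ⟨∏ k ∈ Finset.range p.natDegree, Q k, ?_, ?_⟩
  · rw [Polynomial.map_prod]
    exact Finset.prod_ne_zero_iff.mpr fun k _ => hQ k
  · have hmonic : (p.map (O0 W).subtype).Monic := hp.map _
    have hroot : (p.map (O0 W).subtype).eval x = 0 := by
      rw [Polynomial.eval_map]
      exact hpx
    refine isIntegralElem_mul_of_coeff (evL W) x (p.map (O0 W).subtype) hmonic hroot _ ?_
    intro k hk
    have hk' : k ∈ Finset.range p.natDegree := by
      rw [Finset.mem_range]
      exact lt_of_lt_of_le hk (Polynomial.natDegree_map_le)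
    refine ⟨P k * ∏ i ∈ (Finset.range p.natDegree).erase k, Q i, ?_⟩
    rw [Polynomial.coeff_map, ← Finset.mul_prod_erase _ _ hk', map_mul, map_mul, ← mul_assoc]
    congr 1
    exact hPQ k

/-! ### The converse, for a discrete valuation ring -/

/-- `F_L` is contained in the field of quotients of `W`-integral series. -/
theorem mem_fracInt_of_mem_full (hℓN : ¬ ℓ ∣ N) {x : LaurentSeries L}
    (hx : x ∈ laurentBaseChange L (modularFunctionFieldFull N)) : x ∈ fracInt W := by
  rcases eq_or_ne x 0 with rfl | hx0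
  · exact zero_mem _
  obtain ⟨a, Y₁, Y₂, -, -, -, -, hY₂, h⟩ := exists_integral_rep W N ℓ hℓN hx hx0
  have hY₂0 : toL W Y₂ ≠ 0 := fun h0 =>
    hY₂ (by rw [(toL_eq_zero_iff W _).mp h0, map_zero])
  have h1 : x = HahnSeries.C a * toL W Y₁ / toL W Y₂ := by
    rw [eq_div_iff hY₂0]
    exact h
  rw [h1]
  exact div_mem (mul_mem (C_mem_fracInt W a) (toL_mem_fracInt W _)) (toL_mem_fracInt W _)

/-- Evaluation at `j`, with values in the content ring. -/
def evC : (↥W)[X] →+* contentRing W :=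
  (evL W).codRestrict (contentRing W) (evL_mem_contentRing W)

omit [Algebra ℚ L] in
theorem subtype_comp_evC : (contentRing W).subtype.comp (evC W) = evL W := rfl

/-- An element of `F_L` integral over `W[j]` lies in the content ring. -/
theorem mem_contentRing_of_isIntegralElem [IsDiscreteValuationRing W] (hℓN : ¬ ℓ ∣ N)
    {y : LaurentSeries L} (hy : y ∈ laurentBaseChange L (modularFunctionFieldFull N))
    (hint : (evL W).IsIntegralElem y) : y ∈ contentRing W := by
  obtain ⟨P, hP, hroot⟩ := hint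
  refine mem_contentRing_of_monic_root W (mem_fracInt_of_mem_full W N ℓ hℓN hy)
    (P.map (evC W)) (hP.map _) ?_
  rw [Polynomial.eval₂_map, subtype_comp_evC]
  exact hroot

/-- **Gauss-integral elements of `F_L` lie in the content ring.** -/
theorem mem_contentRing_of_mul_isIntegralElem [IsDiscreteValuationRing W] (hℓN : ¬ ℓ ∣ N)
    {x : LaurentSeries L} (hx : x ∈ laurentBaseChange L (modularFunctionFieldFull N))
    (S : (↥W)[X]) (hS : S.map (IsLocalRing.residue W) ≠ 0)
    (hint : (evL W).IsIntegralElem (evL W S * x)) : x ∈ contentRing W := by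
  have hSK : toK W (evJ W S) ≠ 0 := fun h0 => hS ((toK_evJ_eq_zero_iff W S).mp h0)
  have hS0 : evL W S ≠ 0 := by
    rw [evL_eq]
    exact fun h0 => hSK (by rw [(toL_eq_zero_iff W _).mp h0, map_zero])
  have hSF : evL W S ∈ laurentBaseChange L (modularFunctionFieldFull N) := by
    rw [evL_eq]
    exact (evJ_mem_intFull W N S).1
  have hinv : (evL W S)⁻¹ ∈ contentRing W := by
    rw [evL_eq]
    exact inv_mem_contentRing W (toL_mem_contentRing W _) (by rw [red_toL]; exact hSK)
  have hy := mem_contentRing_of_isIntegralElem W N ℓ hℓN (mul_mem hSF hx) hint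
  have h1 : x = (evL W S)⁻¹ * (evL W S * x) := by
    rw [← mul_assoc, inv_mul_cancel₀ hS0, one_mul]
  rw [h1]
  exact mul_mem hinv hy

end Main

/-! ### The same statements on `F = S24.FF L N` -/

/-- Integrality along a ring homomorphism is preserved by composition. -/
theorem isIntegralElem_comp {A B C : Type*} [CommRing A] [CommRing B] [CommRing C]
    (φ : A →+* B) (g : B →+* C) {y : B} (h : φ.IsIntegralElem y) :
    (g.comp φ).IsIntegralElem (g y) := by
  obtain ⟨P, hP, hroot⟩ := h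
  exact ⟨P, hP, by rw [← Polynomial.hom_eval₂, hroot, map_zero]⟩

section FF

variable [Algebra ℚ L] (N : ℕ) [NeZero N]

/-- Evaluation of polynomials over `W` at `j ∈ F_L`. -/
def evF : (↥W)[X] →+* S24.FF L N :=
  Polynomial.eval₂RingHom ((algebraMap L (S24.FF L N)).comp W.subtype) (S24.jBC L N)

theorem algebraMap_comp_evF :
    (algebraMap (S24.FF L N) (LaurentSeries L)).comp (evF W N) = evL W := by
  apply Polynomial.ringHom_ext
  · intro c
    rw [RingHom.comp_apply, evF, evL, Polynomial.coe_eval₂RingHom, Polynomial.coe_eval₂RingHom,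
      Polynomial.eval₂_C, Polynomial.eval₂_C, RingHom.comp_apply, constL_apply,
      ← IsScalarTower.algebraMap_apply, Fermat.Agent.S28.Content.algebraMap_eq_C_of_field]
    rfl
  · rw [RingHom.comp_apply, evF, evL, Polynomial.coe_eval₂RingHom, Polynomial.coe_eval₂RingHom,
      Polynomial.eval₂_X, Polynomial.eval₂_X]
    exact coe_jBC_eq L N

theorem coe_evF (P : (↥W)[X]) : ((evF W N P : S24.FF L N) : LaurentSeries L) = evL W P :=
  congrArg (fun f : (↥W)[X] →+* LaurentSeries L => f P) (algebraMap_comp_evF W N)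

theorem evF_C (c : W) : evF W N (C c) = algebraMap L (S24.FF L N) (c : L) := by
  rw [evF, Polynomial.coe_eval₂RingHom, Polynomial.eval₂_C]
  rfl

theorem isIntegralElem_evF_iff (y : S24.FF L N) :
    (evF W N).IsIntegralElem y ↔ (evL W).IsIntegralElem (y : LaurentSeries L) := by
  have key : ∀ P : (↥W)[X][X], ((P.eval₂ (evF W N) y : S24.FF L N) : LaurentSeries L) =
      P.eval₂ (evL W) (y : LaurentSeries L) := fun P => by
    have h := Polynomial.hom_eval₂ P (evF W N) (algebraMap (S24.FF L N) (LaurentSeries L)) y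
    rw [algebraMap_comp_evF] at h
    exact h
  constructor
  · rintro ⟨P, hP, h⟩
    exact ⟨P, hP, by rw [← key, h]; rfl⟩
  · rintro ⟨P, hP, h⟩
    exact ⟨P, hP, Subtype.ext (by rw [key, h]; rfl)⟩

variable (ℓ : ℕ) [Fact ℓ.Prime] [CharP (IsLocalRing.ResidueField W) ℓ]

/-- **sat-`j` on `F`.** -/
theorem exists_isIntegralElem_evF (hℓN : ¬ ℓ ∣ N) (x : S24.FF L N)
    (hx : (x : LaurentSeries L) ∈ contentRing W) :
    ∃ S : (↥W)[X], S.map (IsLocalRing.residue W) ≠ 0 ∧
      (evF W N).IsIntegralElem (evF W N S * x) := by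
  obtain ⟨S, hS, hint⟩ := exists_isIntegralElem W N ℓ hℓN x.2 hx
  refine ⟨S, hS, (isIntegralElem_evF_iff W N _).mpr ?_⟩
  have h1 : ((evF W N S * x : S24.FF L N) : LaurentSeries L) =
      evL W S * (x : LaurentSeries L) := by
    rw [← coe_evF W N S]
    rfl
  rw [h1]
  exact hint

/-- The converse on `F`, for a discrete valuation ring. -/
theorem mem_contentRing_of_isIntegralElem_evF [IsDiscreteValuationRing W] (hℓN : ¬ ℓ ∣ N)
    (x : S24.FF L N) (S : (↥W)[X]) (hS : S.map (IsLocalRing.residue W) ≠ 0)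
    (hint : (evF W N).IsIntegralElem (evF W N S * x)) :
    (x : LaurentSeries L) ∈ contentRing W := by
  refine mem_contentRing_of_mul_isIntegralElem W N ℓ hℓN x.2 S hS ?_
  have h1 : ((evF W N S * x : S24.FF L N) : LaurentSeries L) =
      evL W S * (x : LaurentSeries L) := by
    rw [← coe_evF W N S]
    rfl
  rw [← h1]
  exact (isIntegralElem_evF_iff W N _).mp hint

end FF

/-! ### The vocabulary of `Contracts` -/

section Contract

variable {L : Type} [Field L] [Algebra ℚ L] (W : ValuationSubring L) (N : ℕ) [NeZero N]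

omit [Algebra ℚ L] in
theorem residue_eq_zero_of_not_isUnit {π : W} (hπ : ¬ IsUnit π) :
    IsLocalRing.residue W π = 0 := by
  rw [IsLocalRing.residue_eq_zero_iff, IsLocalRing.mem_maximalIdeal, mem_nonunits_iff]
  exact hπ

omit [Algebra ℚ L] in
/-- `C π ∣ S` forces `S` to vanish modulo the maximal ideal. -/
theorem map_residue_ne_zero_imp {π : W} (hπ : ¬ IsUnit π) {S : (↥W)[X]}
    (hS : S.map (IsLocalRing.residue W) ≠ 0) : ¬ C π ∣ S := by
  rintro ⟨T, rfl⟩
  apply hS
  rw [Polynomial.map_mul, Polynomial.map_C, residue_eq_zero_of_not_isUnit W hπ, map_zero,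
    zero_mul]

omit [Algebra ℚ L] in
/-- For a uniformiser `π`, `¬ C π ∣ S` means that `S` is nonzero modulo the maximal ideal. -/
theorem map_residue_ne_zero_of_not_dvd [IsDiscreteValuationRing W] {π : W} (hπ : Irreducible π)
    {S : (↥W)[X]} (hS : ¬ C π ∣ S) : S.map (IsLocalRing.residue W) ≠ 0 := by
  intro h0
  apply hS
  rw [Polynomial.C_dvd_iff_dvd_coeff]
  intro i
  have h1 : IsLocalRing.residue W (S.coeff i) = 0 := by
    rw [← Polynomial.coeff_map, h0, Polynomial.coeff_zero]
  obtain ⟨y, hy⟩ := (residue_eq_zero_iff_unif W hπ _).mp h1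
  exact ⟨y, hy⟩

variable (F2 : Type) [Field F2] [Algebra (S24.FF L N) F2]

/-- The evaluation map of `Contracts` is the evaluation at `j ∈ F` followed by `F → F2`. -/
theorem evAt_jF2 : Contracts.evAt W N (Contracts.jF2 L N F2) =
    (algebraMap (S24.FF L N) F2).comp (evF W N) := by
  apply Polynomial.ringHom_ext
  · intro c
    rw [RingHom.comp_apply, evF_C, Contracts.evAt, Polynomial.coe_eval₂RingHom,
      Polynomial.eval₂_C]
    rfl
  · rw [RingHom.comp_apply, Contracts.evAt, Polynomial.coe_eval₂RingHom, Polynomial.eval₂_X,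
      evF, Polynomial.coe_eval₂RingHom, Polynomial.eval₂_X]
    rfl

theorem evAt_jF2_self : Contracts.evAt W N (Contracts.jF2 L N (S24.FF L N)) = evF W N := by
  rw [evAt_jF2]
  exact RingHom.id_comp _

variable {W N} in
/-- Gauss integrality is preserved by `F → F2`. -/
theorem isGaussJ_algebraMap {π : W} {x : S24.FF L N} (h : Contracts.IsGaussJ W N π x) :
    Contracts.IsGaussJ W N π (algebraMap (S24.FF L N) F2 x) := by
  obtain ⟨S, hS, hint⟩ := h
  refine ⟨S, hS, ?_⟩
  rw [evAt_jF2_self] at hint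
  rw [evAt_jF2, RingHom.comp_apply, ← map_mul]
  exact isIntegralElem_comp _ _ hint

variable (ℓ : ℕ) [Fact ℓ.Prime] [CharP (IsLocalRing.ResidueField W) ℓ]

/-- **(PG1)** An element of `F` in the content ring is Gauss-integral with respect to
`W[j]`. -/
theorem isGaussJ_of_mem_contentRing (hℓN : ¬ ℓ ∣ N) {π : W} (hπ : ¬ IsUnit π)
    (x : S24.FF L N) (hx : (x : LaurentSeries L) ∈ contentRing W) :
    Contracts.IsGaussJ W N π x := by
  obtain ⟨S, hS, hint⟩ := exists_isIntegralElem_evF W N ℓ hℓN x hx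
  refine ⟨S, map_residue_ne_zero_imp W hπ hS, ?_⟩
  rw [evAt_jF2_self]
  exact hint

/-- **(PG1)**, image in an overfield `F2`. -/
theorem isGaussJ_of_mem_contentRing' (hℓN : ¬ ℓ ∣ N) {π : W} (hπ : ¬ IsUnit π)
    (x : S24.FF L N) (hx : (x : LaurentSeries L) ∈ contentRing W) :
    Contracts.IsGaussJ W N π (algebraMap (S24.FF L N) F2 x) :=
  isGaussJ_algebraMap F2 (isGaussJ_of_mem_contentRing W N ℓ hℓN hπ x hx)

/-- **(PG2)** A Gauss-integral element of `F` lies in the content ring. -/
theorem mem_contentRing_of_isGaussJ [IsDiscreteValuationRing W] (hℓN : ¬ ℓ ∣ N) {π : W}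
    (hπ : Irreducible π) (x : S24.FF L N) (h : Contracts.IsGaussJ W N π x) :
    (x : LaurentSeries L) ∈ contentRing W := by
  obtain ⟨S, hS, hint⟩ := h
  rw [evAt_jF2_self] at hint
  exact mem_contentRing_of_isIntegralElem_evF W N ℓ hℓN x S
    (map_residue_ne_zero_of_not_dvd W hπ hS) hint

/-- **(PG2')** The inverse of a uniformiser is not Gauss-integral. -/
theorem not_isGaussJ_inv_unif [IsDiscreteValuationRing W] (hℓN : ¬ ℓ ∣ N) {π : W}
    (hπ : Irreducible π) :
    ¬ Contracts.IsGaussJ W N π ((algebraMap L (S24.FF L N) (π : L))⁻¹) := by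
  intro h
  have h1 := mem_contentRing_of_isGaussJ W N ℓ hℓN hπ _ h
  have h2 : (((algebraMap L (S24.FF L N) (π : L))⁻¹ : S24.FF L N) : LaurentSeries L) =
      HahnSeries.C ((π : L)⁻¹) := by
    rw [map_inv₀, ← Fermat.Agent.S28.Content.algebraMap_eq_C_of_field]
    rfl
  rw [h2, C_mem_contentRing_iff] at h1
  apply hπ.not_isUnit
  have hπ0 : (π : L) ≠ 0 := fun h0 => hπ.ne_zero (Subtype.ext h0)
  refine IsUnit.of_mul_eq_one (⟨(π : L)⁻¹, h1⟩ : W) (Subtype.ext ?_)
  show (π : L) * (π : L)⁻¹ = 1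
  exact mul_inv_cancel₀ hπ0

end Contract

/-! ### The typeclass form (`IsGaussInt W[X] (C π)`) -/

section Typeclass

variable {L : Type} [Field L] [Algebra ℚ L] (W : ValuationSubring L) (N : ℕ) [NeZero N]
  (F2 : Type) [Field F2] [Algebra (S24.FF L N) F2]

/-- Under any algebra structure `W[X] → F2` given by `X ↦ j`, `IsGaussInt W[X] (C π)` is the
predicate `IsGaussJ` of `Contracts`. -/
theorem isGaussInt_iff_isGaussJ [Algebra (↥W)[X] F2]
    (halg : algebraMap (↥W)[X] F2 = Contracts.evAt W N (Contracts.jF2 L N F2)) (π : W)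
    (z : F2) : IsGaussInt (↥W)[X] (C π) z ↔ Contracts.IsGaussJ W N π z := by
  unfold IsGaussInt Contracts.IsGaussJ
  refine exists_congr fun S => and_congr Iff.rfl ?_
  rw [Algebra.smul_def, halg]
  unfold IsIntegral
  rw [halg]

/-- Under any algebra structure `W[X] → F2` given by `X ↦ j`, integrality over `W[X]` is
integrality along the evaluation map of `Contracts`. -/
theorem isIntegral_iff_isIntegralElem [Algebra (↥W)[X] F2]
    (halg : algebraMap (↥W)[X] F2 = Contracts.evAt W N (Contracts.jF2 L N F2)) (z : F2) :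
    IsIntegral (↥W)[X] z ↔ (Contracts.evAt W N (Contracts.jF2 L N F2)).IsIntegralElem z := by
  unfold IsIntegral
  rw [halg]

end Typeclass

/-! ### The Kummer datum of a `KData` -/

section KData

local notation "Qb" => AlgebraicClosure ℚ

variable {L : Type} [Field L] [Algebra ℚ L] {ι : L →+* Qb} {W : ValuationSubring L} {N : ℕ}
  [NeZero N] {ℓ s : ℕ} {Z1 Z2 : LaurentSeries ↥W}

theorem coe_w (h : Contracts.KData ℓ ι W N s Z1 Z2) :
    ((h.w : S24.FF L N) : LaurentSeries L) = toL W Z1 / toL W Z2 := rfl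

theorem toK_Z1_ne_zero (h : Contracts.KData ℓ ι W N s Z1 Z2) : toK W Z1 ≠ 0 := h.red_ne

theorem toK_Z2_ne_zero (h : Contracts.KData ℓ ι W N s Z1 Z2) : toK W Z2 ≠ 0 :=
  fun h0 => h.red_ne (h.red.trans h0)

theorem toL_Z1_ne_zero (h : Contracts.KData ℓ ι W N s Z1 Z2) : toL W Z1 ≠ 0 := fun h0 =>
  toK_Z1_ne_zero h (by rw [(toL_eq_zero_iff W _).mp h0, map_zero])

theorem toL_Z2_ne_zero (h : Contracts.KData ℓ ι W N s Z1 Z2) : toL W Z2 ≠ 0 := fun h0 =>
  toK_Z2_ne_zero h (by rw [(toL_eq_zero_iff W _).mp h0, map_zero])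

theorem w_ne_zero (h : Contracts.KData ℓ ι W N s Z1 Z2) : h.w ≠ 0 :=
  div_ne_zero h.ne1 h.ne2

/-- The Kummer datum lies in the content ring. -/
theorem w_mem_contentRing (h : Contracts.KData ℓ ι W N s Z1 Z2) :
    ((h.w : S24.FF L N) : LaurentSeries L) ∈ contentRing W :=
  ⟨Z1, Z2, toK_Z2_ne_zero h, by rw [coe_w, div_mul_cancel₀ _ (toL_Z2_ne_zero h)]⟩

/-- The inverse of the Kummer datum lies in the content ring. -/
theorem w_inv_mem_contentRing (h : Contracts.KData ℓ ι W N s Z1 Z2) :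
    (((h.w)⁻¹ : S24.FF L N) : LaurentSeries L) ∈ contentRing W := by
  refine ⟨Z2, Z1, toK_Z1_ne_zero h, ?_⟩
  have h1 : (((h.w)⁻¹ : S24.FF L N) : LaurentSeries L) = (toL W Z1 / toL W Z2)⁻¹ := rfl
  rw [h1, inv_div, div_mul_cancel₀ _ (toL_Z1_ne_zero h)]

/-- `w - 1` is a uniformiser times an element of `F` in the content ring. -/
theorem exists_w_sub_one_contentRing (h : Contracts.KData ℓ ι W N s Z1 Z2) {π : W}
    (hπ : Irreducible π) :
    ∃ d : S24.FF L N, (d : LaurentSeries L) ∈ contentRing W ∧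
      h.w - 1 = algebraMap L (S24.FF L N) (π : L) * d := by
  have := h.dvr
  have h2 := toL_Z2_ne_zero h
  have hcoe : ((h.w - 1 : S24.FF L N) : LaurentSeries L) = toL W (Z1 - Z2) / toL W Z2 := by
    have h1 : ((h.w - 1 : S24.FF L N) : LaurentSeries L) = toL W Z1 / toL W Z2 - 1 := rfl
    rw [h1, map_sub, sub_div, div_self h2]
  have hmem : ((h.w - 1 : S24.FF L N) : LaurentSeries L) ∈ contentRing W :=
    ⟨Z1 - Z2, Z2, toK_Z2_ne_zero h, by rw [hcoe, div_mul_cancel₀ _ h2]⟩
  have hred : red W ⟨_, hmem⟩ = 0 := by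
    rw [red_mk_eq W hmem (toK_Z2_ne_zero h) (by rw [hcoe, div_mul_cancel₀ _ h2]), map_sub]
    have h3 : toK W Z1 = toK W Z2 := h.red
    rw [h3, sub_self, zero_div]
  obtain ⟨g, hg⟩ := (red_eq_zero_iff W hπ ⟨_, hmem⟩).mp hred
  have hπ0 : (π : L) ≠ 0 := fun h0 => hπ.ne_zero (Subtype.ext h0)
  have hC : (HahnSeries.C (π : L) : LaurentSeries L) =
      ((algebraMap L (S24.FF L N) (π : L) : S24.FF L N) : LaurentSeries L) := by
    rw [← Fermat.Agent.S28.Content.algebraMap_eq_C_of_field]
    rfl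
  have hC0 : algebraMap L (S24.FF L N) (π : L) ≠ 0 := by
    rw [Ne, map_eq_zero]
    exact hπ0
  refine ⟨(algebraMap L (S24.FF L N) (π : L))⁻¹ * (h.w - 1), ?_, ?_⟩
  · have h4 : (((algebraMap L (S24.FF L N) (π : L))⁻¹ * (h.w - 1) : S24.FF L N) :
        LaurentSeries L) = (g : LaurentSeries L) := by
      have h5 : (((algebraMap L (S24.FF L N) (π : L))⁻¹ * (h.w - 1) : S24.FF L N) :
          LaurentSeries L) = (HahnSeries.C (π : L))⁻¹ *
            ((h.w - 1 : S24.FF L N) : LaurentSeries L) := by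
        rw [hC]
        rfl
      have hCne : (HahnSeries.C (π : L) : LaurentSeries L) ≠ 0 := by
        rw [hC]
        exact fun h0 => hC0 (Subtype.ext h0)
      rw [h5]
      change (HahnSeries.C (π : L))⁻¹ * ((h.w - 1 : S24.FF L N) : LaurentSeries L) = _
      rw [show ((h.w - 1 : S24.FF L N) : LaurentSeries L) =
        HahnSeries.C (π : L) * (g : LaurentSeries L) from hg, ← mul_assoc,
        inv_mul_cancel₀ hCne, one_mul]
    rw [h4]
    exact g.2
  · rw [← mul_assoc, mul_inv_cancel₀ hC0, one_mul]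

/-- **(PG3)** The Kummer datum is Gauss-integral. -/
theorem isGaussJ_w (h : Contracts.KData ℓ ι W N s Z1 Z2) {π : W} (hπ : ¬ IsUnit π) :
    Contracts.IsGaussJ W N π h.w := by
  have : Fact ℓ.Prime := ⟨h.prime_l⟩
  have := h.char
  exact isGaussJ_of_mem_contentRing W N ℓ h.not_dvd hπ _ (w_mem_contentRing h)

/-- **(PG3)** The inverse of the Kummer datum is Gauss-integral. -/
theorem isGaussJ_w_inv (h : Contracts.KData ℓ ι W N s Z1 Z2) {π : W} (hπ : ¬ IsUnit π) :
    Contracts.IsGaussJ W N π (h.w)⁻¹ := by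
  have : Fact ℓ.Prime := ⟨h.prime_l⟩
  have := h.char
  exact isGaussJ_of_mem_contentRing W N ℓ h.not_dvd hπ _ (w_inv_mem_contentRing h)

/-- **(PG3)** `w - 1 = π d` with `d` Gauss-integral. -/
theorem exists_w_sub_one (h : Contracts.KData ℓ ι W N s Z1 Z2) {π : W} (hπ : Irreducible π) :
    ∃ d : S24.FF L N, Contracts.IsGaussJ W N π d ∧
      h.w - 1 = algebraMap L (S24.FF L N) (π : L) * d := by
  have : Fact ℓ.Prime := ⟨h.prime_l⟩
  have := h.char
  obtain ⟨d, hd, hw⟩ := exists_w_sub_one_contentRing h hπ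
  exact ⟨d, isGaussJ_of_mem_contentRing W N ℓ h.not_dvd hπ.not_isUnit d hd, hw⟩

/-- **(PG2')** for a `KData`: the inverse of a uniformiser is not Gauss-integral. -/
theorem not_isGaussJ_inv (h : Contracts.KData ℓ ι W N s Z1 Z2) {π : W} (hπ : Irreducible π) :
    ¬ Contracts.IsGaussJ W N π ((algebraMap L (S24.FF L N) (π : L))⁻¹) := by
  have : Fact ℓ.Prime := ⟨h.prime_l⟩
  have := h.char
  have := h.dvr
  exact not_isGaussJ_inv_unif W N ℓ h.not_dvd hπ

/-! #### Typeclass forms, for an arbitrary algebra structure `W[X] → F` with `X ↦ j` -/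

/-- `w` is Gauss-integral in any overfield `F2` of `F` (typeclass form). -/
theorem isGaussInt_w (h : Contracts.KData ℓ ι W N s Z1 Z2) {π : W} (hπ : ¬ IsUnit π)
    (F2 : Type) [Field F2] [Algebra (S24.FF L N) F2] [Algebra (↥W)[X] F2]
    (halg : algebraMap (↥W)[X] F2 = Contracts.evAt W N (Contracts.jF2 L N F2)) :
    IsGaussInt (↥W)[X] (C π) (algebraMap (S24.FF L N) F2 h.w) :=
  (isGaussInt_iff_isGaussJ W N F2 halg π _).mpr (isGaussJ_algebraMap F2 (isGaussJ_w h hπ))

/-- `w⁻¹` is Gauss-integral in any overfield `F2` of `F` (typeclass form). -/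
theorem isGaussInt_w_inv (h : Contracts.KData ℓ ι W N s Z1 Z2) {π : W} (hπ : ¬ IsUnit π)
    (F2 : Type) [Field F2] [Algebra (S24.FF L N) F2] [Algebra (↥W)[X] F2]
    (halg : algebraMap (↥W)[X] F2 = Contracts.evAt W N (Contracts.jF2 L N F2)) :
    IsGaussInt (↥W)[X] (C π) (algebraMap (S24.FF L N) F2 h.w)⁻¹ := by
  rw [← map_inv₀]
  exact (isGaussInt_iff_isGaussJ W N F2 halg π _).mpr
    (isGaussJ_algebraMap F2 (isGaussJ_w_inv h hπ))

/-- `w - 1 = π • d` with `d` Gauss-integral (typeclass form on `F`). -/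
theorem exists_w_sub_one_isGaussInt (h : Contracts.KData ℓ ι W N s Z1 Z2) {π : W}
    (hπ : Irreducible π) [Algebra (↥W)[X] (S24.FF L N)]
    (halg : algebraMap (↥W)[X] (S24.FF L N) = evF W N) :
    ∃ d : S24.FF L N, IsGaussInt (↥W)[X] (C π) d ∧ h.w - 1 = (C π : (↥W)[X]) • d := by
  obtain ⟨d, hd, hw⟩ := exists_w_sub_one h hπ
  have halg' : algebraMap (↥W)[X] (S24.FF L N) =
      Contracts.evAt W N (Contracts.jF2 L N (S24.FF L N)) := by
    rw [halg, evAt_jF2_self]
  refine ⟨d, (isGaussInt_iff_isGaussJ W N (S24.FF L N) halg' π d).mpr hd, ?_⟩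
  rw [Algebra.smul_def, halg, evF_C]
  exact hw

/-- The inverse of `π` is not Gauss-integral (typeclass form on `F`). -/
theorem not_isGaussInt_inv (h : Contracts.KData ℓ ι W N s Z1 Z2) {π : W} (hπ : Irreducible π)
    [Algebra (↥W)[X] (S24.FF L N)] (halg : algebraMap (↥W)[X] (S24.FF L N) = evF W N) :
    ¬ IsGaussInt (↥W)[X] (C π) ((algebraMap (↥W)[X] (S24.FF L N) (C π))⁻¹) := by
  have halg' : algebraMap (↥W)[X] (S24.FF L N) =
      Contracts.evAt W N (Contracts.jF2 L N (S24.FF L N)) := by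
    rw [halg, evAt_jF2_self]
  rw [isGaussInt_iff_isGaussJ W N (S24.FF L N) halg' π, halg, evF_C]
  exact not_isGaussJ_inv h hπ

/-- A uniformiser of `W` gives a prime element `C π` of `W[X]`. -/
theorem prime_C_unif (h : Contracts.KData ℓ ι W N s Z1 Z2) {π : W} (hπ : Irreducible π) :
    Prime (C π : (↥W)[X]) := by
  have := h.dvr
  exact Polynomial.prime_C_iff.mpr hπ.prime

end KData

end Fermat.Agent.S18.PGGlue
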