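import Fermat.Agent.S18.PurityNormal

/-!
# S18 / S37: the components of the special fibre are Dedekind domains

In the setting of `Purity.purity`, for every minimal prime `P` of `πB` the quotient `B/P` is
integrally closed (`isIntegrallyClosed_quotient`), hence a Dedekind domain
(`isDedekindDomain_quotient`).
-/

set_option autoImplicit false
set_option linter.unusedSectionVars false
set_option linter.style.haveILetI false

namespace Fermat.Agent.S18.PurityDedekind

open Polynomial Fermat.Agent.S18.Purity Fermat.Agent.S18.PurityNormal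

section

variable {R K Y B : Type*} [CommRing R] [IsDomain R] [IsNoetherianRing R] [IsIntegrallyClosed R]
  [Field K] [Algebra R K] [IsFractionRing R K]
  [Field Y] [Algebra K Y] [Algebra R Y] [IsScalarTower R K Y] [FiniteDimensional K Y]
  [Algebra.IsSeparable K Y]
  [CommRing B] [Algebra R B] [Algebra B Y] [IsScalarTower R B Y] [IsIntegralClosure B R Y]

/-- Clearing the denominator in the conclusion of `Purity.purity`. -/
theorem descend_mem_span (π : R) (sp t : R) (c : Y) (c' b b₂ : B)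
    (hc1 : sp • c = algebraMap B Y c')
    (h : t • (c - algebraMap B Y b) = π • algebraMap B Y b₂) :
    algebraMap R B t * (c' - algebraMap R B sp * b) ∈ Ideal.span {algebraMap R B π} := by
  have hinjB : Function.Injective (algebraMap B Y) := IsIntegralClosure.algebraMap_injective B R Y
  have hsm : ∀ (a : R) (z : B), algebraMap B Y (a • z) = a • algebraMap B Y z := fun a z => by
    rw [Algebra.smul_def, map_mul, ← IsScalarTower.algebraMap_apply R B Y, ← Algebra.smul_def]
  rw [mem_span_iff]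
  refine ⟨sp • b₂, hinjB ?_⟩
  have h6 : sp • (t • (c - algebraMap B Y b)) = sp • (π • algebraMap B Y b₂) := by rw [h]
  rw [hsm, hsm, map_mul, map_sub, map_mul, ← IsScalarTower.algebraMap_apply R B Y,
    ← IsScalarTower.algebraMap_apply R B Y, smul_comm π sp, ← h6, ← hc1]
  simp only [Algebra.smul_def]
  ring

/-- **(N4)** For a minimal prime `P` of `πB`, the domain `B/P` is integrally closed. -/
theorem isIntegrallyClosed_quotient (π : R) (hπ : π ≠ 0) (hprime : (Ideal.span {π}).IsPrime)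
    (hDed : IsDedekindDomain (R ⧸ Ideal.span {π}))
    (hT : ∀ (x : B) (r : R), r ∉ Ideal.span {π} → (∃ z : B, r • x = π • z) → ∃ z : B, x = π • z)
    (hU : ∀ 𝔭 : Ideal R, 𝔭.IsPrime → (𝔭 = Ideal.span {π} ∨ π ∉ 𝔭) → ∀ x : B,
        (∀ y : B, ∃ a ∈ 𝔭, Algebra.trace K Y (algebraMap B Y (x * y)) = algebraMap R K a) →
        ∃ s : R, s ∉ 𝔭 ∧ s • x ∈ 𝔭 • (⊤ : Submodule R B))
    {P : Ideal B} (hP : P ∈ (Ideal.span {algebraMap R B π}).minimalPrimes) :
    IsIntegrallyClosed (B ⧸ P) := by
  classical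
  set πB : Ideal B := Ideal.span {algebraMap R B π} with hπB
  haveI hPp : P.IsPrime := hP.1.1
  have hcomapP : P.comap (algebraMap R B) = Ideal.span {π} :=
    comap_eq_of_mem_minimalPrimes π hT hP
  have hrad : ∀ x : B, (∀ Q ∈ πB.minimalPrimes, x ∈ Q) → x ∈ πB := fun x hx =>
    mem_span_of_forall_mem_minimalPrimes (K := K) (Y := Y) π hπ hprime hT hU x hx
  have hinjRY : Function.Injective (algebraMap R Y) := by
    rw [IsScalarTower.algebraMap_eq R K Y]
    exact (algebraMap K Y).injective.comp (IsFractionRing.injective R K)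
  have hsm : ∀ (a : R) (z : B), algebraMap B Y (a • z) = a • algebraMap B Y z := fun a z => by
    rw [Algebra.smul_def, map_mul, ← IsScalarTower.algebraMap_apply R B Y, ← Algebra.smul_def]
  haveI : Algebra.IsIntegral R B := IsIntegralClosure.isIntegral_algebra R (A := B) Y
  let KP := FractionRing (B ⧸ P)
  let mk : B →+* B ⧸ P := Ideal.Quotient.mk P
  let ι : B ⧸ P →+* KP := algebraMap (B ⧸ P) KP
  have hιinj : Function.Injective ι := IsFractionRing.injective (B ⧸ P) KP
  rw [isIntegrallyClosed_iff KP]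
  intro x hx
  obtain ⟨abar, bbar, hxab⟩ := IsLocalization.exists_mk'_eq (nonZeroDivisors (B ⧸ P)) x
  obtain ⟨a, rfl⟩ := Ideal.Quotient.mk_surjective abar
  obtain ⟨b, hb⟩ := Ideal.Quotient.mk_surjective (bbar : B ⧸ P)
  have hbP : b ∉ P := by
    intro h
    have h0 : (bbar : B ⧸ P) = 0 := by
      rw [← hb]
      exact Ideal.Quotient.eq_zero_iff_mem.mpr h
    exact nonZeroDivisors.coe_ne_zero bbar h0
  -- denominators in `R`
  have hlt := Ideal.comap_lt_comap_of_integral_mem_sdiff (R := R) (I := P)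
    (J := P ⊔ Ideal.span {b}) le_sup_left (x := b)
    ⟨Ideal.mem_sup_right (Ideal.mem_span_singleton_self b), hbP⟩
    (IsIntegralClosure.isIntegral R Y b)
  obtain ⟨s, hsJ, hsP⟩ := Set.exists_of_ssubset hlt
  rw [SetLike.mem_coe, Ideal.mem_comap] at hsJ
  obtain ⟨x₀, hx₀, y₀, hy₀, hxy⟩ := Submodule.mem_sup.mp hsJ
  obtain ⟨b'', rfl⟩ := Ideal.mem_span_singleton'.mp hy₀
  have hsπ : s ∉ Ideal.span {π} := by
    rw [← hcomapP]
    exact hsP
  have hbs : mk (b'' * b) = mk (algebraMap R B s) := by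
    rw [Ideal.Quotient.eq, ← hxy, sub_add_cancel_right]
    exact P.neg_mem hx₀
  let a₁ : B := a * b''
  let S : KP := ι (mk (algebraMap R B s))
  have hS0 : S ≠ 0 := by
    intro h
    have h1 : mk (algebraMap R B s) = 0 := hιinj (h.trans (map_zero ι).symm)
    exact hsP (Ideal.mem_comap.mpr (Ideal.Quotient.eq_zero_iff_mem.mp h1))
  have hxS : x * S = ι (mk a₁) := by
    have h1 : x * ι (bbar : B ⧸ P) = ι (mk a) := by
      rw [← hxab]
      exact IsLocalization.mk'_spec KP (mk a) bbar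
    show x * ι (mk (algebraMap R B s)) = ι (mk (a * b''))
    rw [← hbs, map_mul, map_mul, map_mul, map_mul, hb, ← h1]
    ring
  -- integrality over `R`
  have hxR : IsIntegral R x := isIntegral_trans (R := R) (A := B ⧸ P) x hx
  obtain ⟨p, hp, hpx⟩ := hxR
  set m := p.natDegree with hm
  have hcoef : ∀ r : R, ι (mk (algebraMap R B r)) = algebraMap R KP r := fun r => rfl
  let g₀ : B := ∑ i ∈ Finset.range (m + 1),
    algebraMap R B (p.coeff i) * algebraMap R B s ^ (m - i) * a₁ ^ i
  have hg₀ : g₀ ∈ P := by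
    rw [← Ideal.Quotient.eq_zero_iff_mem]
    apply hιinj
    rw [map_zero]
    have h2 : ι (mk g₀) = S ^ m * eval₂ (algebraMap R KP) x p := by
      rw [eval₂_eq_sum_range, Finset.mul_sum]
      simp only [g₀, map_sum, map_mul, map_pow]
      refine Finset.sum_congr rfl fun i hi => ?_
      have him : i ≤ m := Nat.lt_succ_iff.mp (Finset.mem_range.mp hi)
      have hSm : S ^ m = S ^ (m - i) * S ^ i := by rw [← pow_add, Nat.sub_add_cancel him]
      rw [← hxS, mul_pow, hSm, hcoef]
      ring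
    exact h2.trans (by rw [hpx, mul_zero])
  -- CRT adjustment
  obtain ⟨e, heP, heQ, -⟩ := exists_crt (K := K) (Y := Y) π hπ hprime hDed hT hU hP
  let a₂ : B := e * a₁
  have ha₂ : a₂ - a₁ ∈ P := by
    have h1 : a₂ - a₁ = (e - 1) * a₁ := by
      simp only [a₂]
      ring
    rw [h1]
    exact P.mul_mem_right _ heP
  let g : B := ∑ i ∈ Finset.range (m + 1),
    algebraMap R B (p.coeff i) * algebraMap R B s ^ (m - i) * a₂ ^ i
  have hg : g ∈ P := by
    have h3 : mk g = mk g₀ := by
      simp only [g, g₀, map_sum, map_mul, map_pow]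
      rw [(Ideal.Quotient.eq.mpr ha₂ : mk a₂ = mk a₁)]
    have h4 : mk g = 0 := h3.trans (Ideal.Quotient.eq_zero_iff_mem.mpr hg₀)
    exact Ideal.Quotient.eq_zero_iff_mem.mp h4
  have hd : a₂ * g ∈ πB := by
    refine hrad _ fun Q hQ => ?_
    by_cases hne : Q = P
    · rw [hne]
      exact P.mul_mem_left _ hg
    · exact Q.mul_mem_right _ (Q.mul_mem_right _ (heQ Q hQ hne))
  obtain ⟨b₁, hb₁⟩ := (mem_span_iff π _).mp hd
  have hs0 : algebraMap R Y s ≠ 0 := by
    intro h
    apply hsπ
    have h1 : s = 0 := hinjRY (h.trans (map_zero _).symm)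
    rw [h1]
    exact Ideal.zero_mem _
  let c : Y := (algebraMap R Y s)⁻¹ * algebraMap B Y a₂
  have hc1 : s • c = algebraMap B Y a₂ := by
    rw [Algebra.smul_def, ← mul_assoc, mul_inv_cancel₀ hs0, one_mul]
  have hpX : (X * p : R[X]).Monic := monic_X.mul hp
  have hgY : algebraMap B Y g = s ^ m • aeval c p := by
    rw [aeval_eq_sum_range, Finset.smul_sum]
    simp only [g, map_sum, map_mul, map_pow]
    refine Finset.sum_congr rfl fun i hi => ?_
    have him : i ≤ m := Nat.lt_succ_iff.mp (Finset.mem_range.mp hi)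
    have hsm' : algebraMap R Y s ^ m = algebraMap R Y s ^ (m - i) * algebraMap R Y s ^ i := by
      rw [← pow_add, Nat.sub_add_cancel him]
    rw [← hc1]
    simp only [Algebra.smul_def, ← IsScalarTower.algebraMap_apply R B Y, map_pow]
    rw [hsm']
    ring
  have hpc : ∃ s' : R, s' ∉ Ideal.span {π} ∧ ∃ b : B,
      s' • aeval c (X * p) = π • algebraMap B Y b := by
    refine ⟨s ^ (m + 1), fun h => hsπ (hprime.mem_of_pow_mem _ h), b₁, ?_⟩
    rw [map_mul, aeval_X, ← hsm, ← hb₁, map_mul, hgY, ← hc1]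
    simp only [Algebra.smul_def, map_pow]
    ring
  obtain ⟨b₃, t, ht, b₄, h⟩ := Purity.purity (K := K) π hπ hprime hDed hT hU c
    ⟨s, hsπ, a₂, hc1⟩ (X * p) hpX hpc
  have hkey : algebraMap R B t * (a₂ - algebraMap R B s * b₃) ∈ πB :=
    descend_mem_span π s t c a₂ b₃ b₄ hc1 h
  have h7 : a₂ - algebraMap R B s * b₃ ∈ P := by
    refine (hPp.mem_or_mem (hP.1.2 hkey)).resolve_left ?_
    intro h9
    apply ht
    rw [← hcomapP]
    exact Ideal.mem_comap.mpr h9
  have h10 : a₁ - algebraMap R B s * b₃ ∈ P := by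
    have h1 : a₁ - algebraMap R B s * b₃ = (a₂ - algebraMap R B s * b₃) - (a₂ - a₁) := by ring
    rw [h1]
    exact P.sub_mem h7 ha₂
  refine ⟨mk b₃, ?_⟩
  have h11 : ι (mk a₁) = S * ι (mk b₃) := by
    show ι (mk a₁) = ι (mk (algebraMap R B s)) * ι (mk b₃)
    rw [← map_mul, ← map_mul]
    congr 1
    exact Ideal.Quotient.eq.mpr h10
  have h12 : x * S = ι (mk b₃) * S := by rw [hxS, h11, mul_comm]
  exact (mul_right_cancel₀ hS0 h12).symm

/-- **(N4')** For a minimal prime `P` of `πB`, the quotient `B/P` is a Dedekind domain. -/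
theorem isDedekindDomain_quotient (π : R) (hπ : π ≠ 0) (hprime : (Ideal.span {π}).IsPrime)
    (hDed : IsDedekindDomain (R ⧸ Ideal.span {π}))
    (hT : ∀ (x : B) (r : R), r ∉ Ideal.span {π} → (∃ z : B, r • x = π • z) → ∃ z : B, x = π • z)
    (hU : ∀ 𝔭 : Ideal R, 𝔭.IsPrime → (𝔭 = Ideal.span {π} ∨ π ∉ 𝔭) → ∀ x : B,
        (∀ y : B, ∃ a ∈ 𝔭, Algebra.trace K Y (algebraMap B Y (x * y)) = algebraMap R K a) →
        ∃ s : R, s ∉ 𝔭 ∧ s • x ∈ 𝔭 • (⊤ : Submodule R B))
    {P : Ideal B} (hP : P ∈ (Ideal.span {algebraMap R B π}).minimalPrimes) :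
    IsDedekindDomain (B ⧸ P) := by
  haveI hPp : P.IsPrime := hP.1.1
  haveI : IsNoetherianRing B := IsIntegralClosure.isNoetherianRing R K Y B
  haveI : Algebra.IsIntegral R B := IsIntegralClosure.isIntegral_algebra R (A := B) Y
  haveI : P.LiesOver (Ideal.span {π}) := ⟨(comap_eq_of_mem_minimalPrimes π hT hP).symm⟩
  haveI := hprime
  haveI : IsDedekindDomain (R ⧸ Ideal.span {π}) := hDed
  haveI : Ring.DimensionLEOne (B ⧸ P) :=
    Ring.DimensionLEOne.of_isIntegral (R ⧸ Ideal.span {π}) (B ⧸ P)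
  haveI : IsIntegrallyClosed (B ⧸ P) :=
    isIntegrallyClosed_quotient (K := K) (Y := Y) π hπ hprime hDed hT hU hP
  exact { }

end

end Fermat.Agent.S18.PurityDedekind
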