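import Fermat.Agent.S18.Purity

/-!
# S18, package P2 (supplement): the trace-form hypothesis `hU` of `Purity.purity` from a
discriminant

If a family `c : Fin n → B` with `n = [Y : K]` has discriminant `d ∈ R` and `d ∉ 𝔭`, then the
trace form of `B` is nondegenerate at `𝔭` in the elementwise form used by `Purity.purity`
(Cramer's rule, with the denominator `d`).
-/

set_option autoImplicit false
set_option linter.unusedSectionVars false
set_option linter.style.haveILetI false

namespace Fermat.Agent.S18.PurityDiscr

open Fermat.Agent.S18.Purity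

variable {R K Y B : Type*} [CommRing R] [IsDomain R] [IsNoetherianRing R] [IsIntegrallyClosed R]
  [Field K] [Algebra R K] [IsFractionRing R K]
  [Field Y] [Algebra K Y] [Algebra R Y] [IsScalarTower R K Y] [FiniteDimensional K Y]
  [Algebra.IsSeparable K Y]
  [CommRing B] [Algebra R B] [Algebra B Y] [IsScalarTower R B Y] [IsIntegralClosure B R Y]

/-- Cramer: if `d` is the discriminant of a family `c : Fin n → B` with `n = [Y : K]`, then
`d • x` is an `R`-combination of the `c i` whose coefficients are `R`-combinations of the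
traces `Tr (x * c j)`. -/
theorem discr_smul_eq_sum {n : ℕ} (c : Fin n → B) (hn : Module.finrank K Y = n) (d : R)
    (hd : Algebra.discr K (fun i => algebraMap B Y (c i)) = algebraMap R K d) (hd0 : d ≠ 0)
    (x : B) :
    d • x = ∑ i, (∑ j, trR K Y (x * c j) * (trMat K Y c : Matrix (Fin n) (Fin n) R).adjugate j i)
      • c i := by
  classical
  have hdK : algebraMap R K d ≠ 0 := (map_ne_zero_iff _ (IsFractionRing.injective R K)).mpr hd0
  have hli : LinearIndependent K (fun i => algebraMap B Y (c i)) := by
    by_contra h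
    exact hdK (hd ▸ Algebra.discr_zero_of_not_linearIndependent K h)
  have hsp : ⊤ ≤ Submodule.span K (Set.range fun i => algebraMap B Y (c i)) :=
    (hli.span_eq_top_of_card_eq_finrank' (by rw [Fintype.card_fin, hn])).ge
  let bK : Module.Basis (Fin n) K Y := Module.Basis.mk hli hsp
  have hbK : ∀ i, bK i = algebraMap B Y (c i) := fun i => Module.Basis.mk_apply hli hsp i
  set T : Matrix (Fin n) (Fin n) R := trMat K Y c with hTdef
  have hT : ∀ i j, algebraMap R K (T i j) = Algebra.trace K Y (bK i * bK j) := by
    intro i j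
    show algebraMap R K (trR K Y (c i * c j)) = _
    rw [algebraMap_trR, map_mul, hbK, hbK]
  have hdet : T.det = d := by
    apply IsFractionRing.injective R K
    rw [← hd, Algebra.discr_def, RingHom.map_det]
    congr 1
    ext i j
    rw [RingHom.mapMatrix_apply, Matrix.map_apply, hT, Algebra.traceMatrix_apply,
      Algebra.traceForm_apply, hbK, hbK]
  have hcr : ∀ i, algebraMap R K d * bK.repr (algebraMap B Y x) i =
      algebraMap R K (∑ j, trR K Y (x * c j) * T.adjugate j i) := by
    intro i
    rw [← hdet, cramer_trace bK T hT (algebraMap B Y x) i]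
    simp only [map_sum, map_mul]
    refine Finset.sum_congr rfl fun j _ => ?_
    rw [hbK, ← map_mul, algebraMap_trR]
  have hinjB : Function.Injective (algebraMap B Y) := IsIntegralClosure.algebraMap_injective B R Y
  have hsm : ∀ (a : R) (z : B), algebraMap B Y (a • z) = a • algebraMap B Y z := fun a z => by
    rw [Algebra.smul_def, map_mul, ← IsScalarTower.algebraMap_apply R B Y, ← Algebra.smul_def]
  apply hinjB
  rw [hsm, map_sum]
  conv_lhs => rw [← bK.sum_repr (algebraMap B Y x)]
  rw [Finset.smul_sum]
  refine Finset.sum_congr rfl fun i _ => ?_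
  rw [hsm, ← algebraMap_smul K d, smul_smul, hcr i, algebraMap_smul, hbK]

/-- **Bridge.**  The hypothesis `hU` of `Purity.purity` at a prime `𝔭` holds as soon as some
family `c : Fin n → B`, `n = [Y : K]`, has a discriminant outside `𝔭`. -/
theorem hU_of_discr {n : ℕ} (c : Fin n → B) (hn : Module.finrank K Y = n) (d : R)
    (hd : Algebra.discr K (fun i => algebraMap B Y (c i)) = algebraMap R K d)
    (𝔭 : Ideal R) (hd𝔭 : d ∉ 𝔭) (x : B)
    (hx : ∀ y : B, ∃ a ∈ 𝔭, Algebra.trace K Y (algebraMap B Y (x * y)) = algebraMap R K a) :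
    ∃ s : R, s ∉ 𝔭 ∧ s • x ∈ 𝔭 • (⊤ : Submodule R B) := by
  classical
  have hd0 : d ≠ 0 := fun h => hd𝔭 (h ▸ 𝔭.zero_mem)
  refine ⟨d, hd𝔭, ?_⟩
  rw [discr_smul_eq_sum (K := K) (Y := Y) c hn d hd hd0 x]
  refine Submodule.sum_mem _ fun i _ => Submodule.smul_mem_smul ?_ Submodule.mem_top
  refine 𝔭.sum_mem fun j _ => 𝔭.mul_mem_right _ ?_
  obtain ⟨a, ha, hatr⟩ := hx (c j)
  have : trR K Y (x * c j) = a := by
    apply IsFractionRing.injective R K
    rw [algebraMap_trR, hatr]
  rw [this]
  exact ha

end Fermat.Agent.S18.PurityDiscr
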