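import Mathlib
import Fermat.Agent.S18.TSD

/-!
# The free-lift lemma of the purity argument (step (c))

Let `R` be a noetherian normal domain, `π` a prime element with `R ⧸ (π)` a principal ideal
domain, `Y` a finite separable extension of `K = Frac R` and `B` the integral closure of `R`
in `Y`.  If `B ⧸ π B` is torsion-free over `R ⧸ (π)` (hypothesis `hsat`), then there are a
`K`-basis `b` of `Y` consisting of integral elements and `r ≡ 1 mod π` with
`r • B ⊆ ⊕ R b i`.
-/

namespace Fermat.Agent.S18.PurityFree

open Module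

section abstract

lemma mem_span_smul_top {R B : Type*} [CommRing R] [AddCommGroup B] [Module R B] (π : R) (x : B) :
    x ∈ (Ideal.span {π} : Ideal R) • (⊤ : Submodule R B) ↔ ∃ z : B, x = π • z := by
  rw [Submodule.ideal_span_singleton_smul, Submodule.mem_smul_pointwise_iff_exists]
  constructor
  · rintro ⟨z, -, rfl⟩
    exact ⟨z, rfl⟩
  · rintro ⟨z, rfl⟩
    exact ⟨z, trivial, rfl⟩

variable {R B : Type*} [CommRing R] [IsDomain R] [IsNoetherianRing R] [AddCommGroup B]
  [Module R B] [Module.Finite R B]

/-- **Free lift.** A finite module `B` over a noetherian domain `R` on which `π` is regular and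
such that `B ⧸ π B` is torsion-free over the principal ideal domain `R ⧸ (π)` has an
`R`-linearly independent family `e` with `r • B ⊆ span e` for some `r ≡ 1 mod π`. -/
theorem exists_free_lift (π : R) (hπ : Prime π)
    (hPID : IsPrincipalIdealRing (R ⧸ Ideal.span {π}))
    (hreg : ∀ x : B, π • x = 0 → x = 0)
    (hsat : ∀ (s : R) (x : B), ¬ π ∣ s → (∃ z : B, s • x = π • z) → ∃ z : B, x = π • z) :
    ∃ (n : ℕ) (e : Fin n → B) (r : R), π ∣ r - 1 ∧ LinearIndependent R e ∧
      ∀ x : B, ∃ a : Fin n → R, r • x = ∑ i, a i • e i := by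
  classical
  have hP : (Ideal.span {π} : Ideal R).IsPrime :=
    (Ideal.span_singleton_prime hπ.ne_zero).mpr hπ
  have : IsPrincipalIdealRing (R ⧸ Ideal.span {π}) := hPID
  -- the quotient module is torsion-free
  have htf : Module.IsTorsionFree (R ⧸ Ideal.span {π})
      (B ⧸ (Ideal.span {π} : Ideal R) • (⊤ : Submodule R B)) := by
    refine Module.IsTorsionFree.of_smul_eq_zero ?_
    intro q m hqm
    obtain ⟨s, rfl⟩ := Ideal.Quotient.mk_surjective q
    obtain ⟨x, rfl⟩ := Submodule.Quotient.mk_surjective _ m
    by_cases hs : π ∣ s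
    · left
      exact Ideal.Quotient.eq_zero_iff_mem.mpr (Ideal.mem_span_singleton.mpr hs)
    · right
      have h1 : Submodule.Quotient.mk (p := (Ideal.span {π} : Ideal R) • (⊤ : Submodule R B))
          (s • x) = 0 := hqm
      rw [Submodule.Quotient.mk_eq_zero, mem_span_smul_top] at h1
      rw [Submodule.Quotient.mk_eq_zero, mem_span_smul_top]
      exact hsat s x hs h1
  obtain ⟨n, bb⟩ := Module.basisOfFiniteTypeTorsionFree' (R := R ⧸ Ideal.span {π})
    (M := B ⧸ (Ideal.span {π} : Ideal R) • (⊤ : Submodule R B))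
  have hlift : ∀ i, ∃ x : B, Submodule.Quotient.mk
      (p := (Ideal.span {π} : Ideal R) • (⊤ : Submodule R B)) x = bb i :=
    fun i => Submodule.Quotient.mk_surjective _ (bb i)
  choose e he using hlift
  -- reduction of a linear combination
  have hred : ∀ g : Fin n → R, Submodule.Quotient.mk
      (p := (Ideal.span {π} : Ideal R) • (⊤ : Submodule R B)) (∑ i, g i • e i) =
      ∑ i, Ideal.Quotient.mk (Ideal.span {π}) (g i) • bb i := by
    intro g
    rw [← Submodule.mkQ_apply, map_sum]
    refine Finset.sum_congr rfl fun i _ => ?_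
    rw [← he i]
    rfl
  -- Nakayama
  have hsup : (⊤ : Submodule R B) ≤ Submodule.span R (Set.range e) ⊔
      (Ideal.span {π} : Ideal R) • (⊤ : Submodule R B) := by
    intro x _
    obtain ⟨g, hg⟩ : ∃ g : Fin n → R, ∀ i,
        Ideal.Quotient.mk (Ideal.span {π}) (g i) = bb.repr (Submodule.Quotient.mk x) i :=
      ⟨fun i => (Ideal.Quotient.mk_surjective (bb.repr (Submodule.Quotient.mk x) i)).choose,
        fun i => (Ideal.Quotient.mk_surjective (bb.repr (Submodule.Quotient.mk x) i)).choose_spec⟩
    have h1 : Submodule.Quotient.mk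
        (p := (Ideal.span {π} : Ideal R) • (⊤ : Submodule R B)) (x - ∑ i, g i • e i) = 0 := by
      rw [Submodule.Quotient.mk_sub, hred g, sub_eq_zero]
      conv_lhs => rw [← bb.sum_repr (Submodule.Quotient.mk x)]
      exact Finset.sum_congr rfl fun i _ => by rw [hg i]
    rw [Submodule.Quotient.mk_eq_zero] at h1
    have h2 : x = ∑ i, g i • e i + (x - ∑ i, g i • e i) := by abel
    rw [h2]
    refine Submodule.add_mem_sup (Submodule.sum_mem _ fun i _ => ?_) h1
    exact Submodule.smul_mem _ _ (Submodule.subset_span ⟨i, rfl⟩)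
  obtain ⟨r, hr1, hr⟩ := Submodule.exists_sub_one_mem_and_smul_le_of_fg_of_le_sup
    (Module.Finite.fg_top (R := R) (M := B)) le_rfl hsup
  refine ⟨n, e, r, Ideal.mem_span_singleton.mp hr1, ?_, ?_⟩
  · -- linear independence by π-adic descent
    have hdesc : ∀ m : ℕ, ∀ g : Fin n → R, ∑ i, g i • e i = 0 → ∀ i, π ^ m ∣ g i := by
      intro m
      induction m with
      | zero => intro g _ i; simp
      | succ m ih =>
        intro g hg
        have h0 : ∑ i, Ideal.Quotient.mk (Ideal.span {π}) (g i) • bb i = 0 := by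
          rw [← hred g, hg, Submodule.Quotient.mk_zero]
        have h1 : ∀ i, π ∣ g i := fun i =>
          Ideal.mem_span_singleton.mp (Ideal.Quotient.eq_zero_iff_mem.mp
            (Fintype.linearIndependent_iff.mp bb.linearIndependent _ h0 i))
        choose g' hg' using h1
        have h2 : ∑ i, g' i • e i = 0 := by
          apply hreg
          rw [Finset.smul_sum, ← hg]
          exact Finset.sum_congr rfl fun i _ => by rw [smul_smul, ← hg' i]
        intro i
        rw [hg' i, pow_succ']
        exact mul_dvd_mul_left π (ih g' h2 i)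
    rw [Fintype.linearIndependent_iff]
    intro g hg i
    have hne : (Ideal.span {π} : Ideal R) ≠ ⊤ := hP.ne_top
    have hbot := Ideal.iInf_pow_eq_bot_of_isDomain (Ideal.span {π} : Ideal R) hne
    have hmem : g i ∈ ⨅ m : ℕ, (Ideal.span {π} : Ideal R) ^ m := by
      rw [Ideal.mem_iInf]
      intro m
      rw [Ideal.span_singleton_pow, Ideal.mem_span_singleton]
      exact hdesc m g hg i
    rw [hbot] at hmem
    exact hmem
  · intro x
    have hx : r • x ∈ Submodule.span R (Set.range e) :=
      hr (Submodule.smul_mem_pointwise_smul x r ⊤ trivial)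
    obtain ⟨a, ha⟩ := (Submodule.mem_span_range_iff_exists_fun R).mp hx
    exact ⟨a, ha.symm⟩

end abstract

section field

variable {R K Y : Type*} [CommRing R] [IsDomain R] [IsNoetherianRing R] [IsIntegrallyClosed R]
  [Field K] [Algebra R K] [IsFractionRing R K] [Field Y] [Algebra K Y] [Algebra R Y]
  [IsScalarTower R K Y] [FiniteDimensional K Y] [Algebra.IsSeparable K Y]

/-- **Free lift of the integral closure (step (c) of purity).** -/
theorem exists_basis_lift (π : R) (hπ : Prime π)
    (hPID : IsPrincipalIdealRing (R ⧸ Ideal.span {π}))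
    (hsat : ∀ z : Y, IsGaussInt R π z → IsIntegral R (π • z) → IsIntegral R z) :
    ∃ (n : ℕ) (b : Module.Basis (Fin n) K Y) (r : R), (∀ i, IsIntegral R (b i)) ∧ π ∣ r - 1 ∧
      ∀ z : Y, IsIntegral R z → ∃ a : Fin n → R, r • z = ∑ i, a i • b i := by
  classical
  have hinj : Function.Injective (algebraMap R Y) := by
    rw [IsScalarTower.algebraMap_eq R K Y]
    exact (algebraMap K Y).injective.comp (IsFractionRing.injective R K)
  have hπY : algebraMap R Y π ≠ 0 := fun h => hπ.ne_zero (hinj (by rw [h, map_zero]))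
  have hfin : Module.Finite R ↥(integralClosure R Y) := IsIntegralClosure.finite R K Y _
  obtain ⟨n, e, r, hr, hli, hsp⟩ := exists_free_lift (R := R) (B := ↥(integralClosure R Y))
    π hπ hPID
    (by
      intro x hx
      have h1 : algebraMap R Y π * (x : Y) = 0 := by
        rw [← Algebra.smul_def]
        exact congrArg Subtype.val hx
      rcases mul_eq_zero.mp h1 with h | h
      · exact absurd h hπY
      · exact Subtype.ext h)
    (by
      rintro s x hs ⟨z, hz⟩
      have hz' : s • (x : Y) = π • (z : Y) := congrArg Subtype.val hz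
      have hy : IsIntegral R ((algebraMap R Y π)⁻¹ * (x : Y)) := by
        apply hsat
        · refine ⟨s, hs, ?_⟩
          have h1 : s • ((algebraMap R Y π)⁻¹ * (x : Y)) = (z : Y) := by
            rw [← mul_smul_comm, hz', Algebra.smul_def, inv_mul_cancel_left₀ hπY]
          rw [h1]
          exact z.2
        · have h1 : π • ((algebraMap R Y π)⁻¹ * (x : Y)) = (x : Y) := by
            rw [Algebra.smul_def, mul_inv_cancel_left₀ hπY]
          rw [h1]
          exact x.2
      refine ⟨⟨_, hy⟩, Subtype.ext ?_⟩
      change (x : Y) = π • ((algebraMap R Y π)⁻¹ * (x : Y))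
      rw [Algebra.smul_def, mul_inv_cancel_left₀ hπY])
  have hr0 : r ≠ 0 := by
    rintro rfl
    rw [zero_sub] at hr
    exact hπ.not_isUnit (isUnit_of_dvd_one (dvd_neg.mp hr))
  have hliY : LinearIndependent R (fun i => (e i : Y)) :=
    hli.map' (integralClosure R Y).val.toLinearMap
      (LinearMap.ker_eq_bot.mpr Subtype.val_injective)
  have hliK : LinearIndependent K (fun i => (e i : Y)) :=
    (LinearIndependent.iff_fractionRing R K).mp hliY
  have hspK : ⊤ ≤ Submodule.span K (Set.range (fun i => (e i : Y))) := by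
    intro y _
    have halg : IsAlgebraic R y := by
      have h1 : Algebra.IsAlgebraic R Y :=
        (IsFractionRing.comap_isAlgebraic_iff (K := K)).mpr inferInstance
      exact Algebra.IsAlgebraic.isAlgebraic y
    obtain ⟨t, ht0, ht⟩ := halg.exists_integral_multiple
    obtain ⟨a, ha⟩ := hsp ⟨t • y, ht⟩
    have ha' : r • (t • y) = ∑ i, a i • (e i : Y) := by
      have h1 := congrArg Subtype.val ha
      simpa using h1
    have hrt : algebraMap R K (r * t) ≠ 0 := by
      rw [Ne, map_eq_zero_iff _ (IsFractionRing.injective R K)]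
      exact mul_ne_zero hr0 ht0
    have hy : y = (algebraMap R K (r * t))⁻¹ • ∑ i, a i • (e i : Y) := by
      rw [← ha', smul_smul, ← algebraMap_smul K (r * t) y, smul_smul, inv_mul_cancel₀ hrt,
        one_smul]
    rw [hy]
    refine Submodule.smul_mem _ _ (Submodule.sum_mem _ fun i _ => ?_)
    rw [← algebraMap_smul K (a i)]
    exact Submodule.smul_mem _ _ (Submodule.subset_span ⟨i, rfl⟩)
  refine ⟨n, Module.Basis.mk hliK hspK, r, ?_, hr, ?_⟩
  · intro i
    rw [Module.Basis.mk_apply]
    exact (e i).2
  · intro z hz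
    obtain ⟨a, ha⟩ := hsp ⟨z, hz⟩
    refine ⟨a, ?_⟩
    have h1 := congrArg Subtype.val ha
    simpa [Module.Basis.mk_apply] using h1

end field

end Fermat.Agent.S18.PurityFree
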