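import Fermat.Agent.S18.Purity

/-!
# S18 / S37: normality of the special fibre, from purity

In the setting of `Purity.purity` (`R` noetherian normal domain, `π ∈ R` with `R/π` Dedekind,
`B` the integral closure of `R` in a finite separable extension `Y` of `Frac R`, `B/πB`
torsion-free over `R/π`, trace form of `B` nondegenerate at `(π)` and at the primes not
containing `π`):

* `isRadical_span`: `B/πB` is reduced;
* `comap_eq_of_mem_minimalPrimes`: the minimal primes of `πB` lie over `(π)`;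
* `exists_crt`: the minimal primes of `πB` are pairwise comaximal (idempotents of the special
  fibre);
* `isIntegrallyClosed_quotient`, `isDedekindDomain_quotient`: for every minimal prime `P` of `πB`
  the quotient `B/P` is a Dedekind domain.
-/

set_option autoImplicit false
set_option linter.unusedSectionVars false
set_option linter.style.haveILetI false

namespace Fermat.Agent.S18.PurityNormal

open Polynomial Fermat.Agent.S18.Purity

section Basic

variable {R K Y B : Type*} [CommRing R] [IsDomain R] [IsNoetherianRing R] [IsIntegrallyClosed R]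
  [Field K] [Algebra R K] [IsFractionRing R K]
  [Field Y] [Algebra K Y] [Algebra R Y] [IsScalarTower R K Y] [FiniteDimensional K Y]
  [Algebra.IsSeparable K Y]
  [CommRing B] [Algebra R B] [Algebra B Y] [IsScalarTower R B Y] [IsIntegralClosure B R Y]

/-- Membership in `πB`, in `smul` form. -/
theorem mem_span_iff (π : R) (x : B) :
    x ∈ Ideal.span {algebraMap R B π} ↔ ∃ z : B, x = π • z := by
  rw [Ideal.mem_span_singleton']
  constructor
  · rintro ⟨z, rfl⟩
    exact ⟨z, by rw [Algebra.smul_def, mul_comm]⟩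
  · rintro ⟨z, rfl⟩
    exact ⟨z, by rw [Algebra.smul_def, mul_comm]⟩

/-- The trace of an element of `B` which is nilpotent modulo `π` lies in `(π)`. -/
theorem trR_mem_of_pow_mem (π : R) (hπ : π ≠ 0) (hprime : (Ideal.span {π}).IsPrime) (z : B)
    (n : ℕ) (hz : z ^ n ∈ Ideal.span {algebraMap R B π}) : trR K Y z ∈ Ideal.span {π} := by
  classical
  obtain ⟨b, hb⟩ := (mem_span_iff π _).mp hz
  let Ω := AlgebraicClosure K
  let Rbar : Subalgebra R Ω := integralClosure R Ω
  have hint : ∀ (σ : Y →ₐ[K] Ω) (x : B), IsIntegral R (σ (algebraMap B Y x)) := fun σ x =>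
    ((IsIntegralClosure.isIntegral R Y x).algebraMap).map (σ.restrictScalars R)
  have key : ∀ σ : Y →ₐ[K] Ω,
      (σ (algebraMap B Y z)) ^ n = σ (algebraMap B Y b) * algebraMap R Ω π := by
    intro σ
    rw [← map_pow, ← map_pow, hb, Algebra.smul_def, map_mul, map_mul,
      ← IsScalarTower.algebraMap_apply R B Y, IsScalarTower.algebraMap_apply R K Y,
      AlgHom.commutes, ← IsScalarTower.algebraMap_apply R K Ω, mul_comm]
  let zs : (Y →ₐ[K] Ω) → Rbar := fun σ => ⟨σ (algebraMap B Y z), hint σ z⟩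
  let I : Ideal Rbar := Ideal.span {algebraMap R Rbar π}
  have hzs : ∀ σ, zs σ ∈ I.radical := by
    intro σ
    refine ⟨n, Ideal.mem_span_singleton'.mpr ⟨⟨σ (algebraMap B Y b), hint σ b⟩, ?_⟩⟩
    apply Subtype.ext
    exact (key σ).symm
  have hsum : ∑ σ, zs σ ∈ I.radical := Ideal.sum_mem _ fun σ _ => hzs σ
  obtain ⟨N, hN⟩ := hsum
  obtain ⟨w, hw⟩ := Ideal.mem_span_singleton'.mp hN
  have hval : ((∑ σ, zs σ : Rbar) : Ω) = algebraMap R Ω (trR K Y z) := by
    rw [IsScalarTower.algebraMap_apply R K Ω, algebraMap_trR, trace_eq_sum_embeddings Ω,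
      AddSubmonoidClass.coe_finsetSum]
  set a : R := trR K Y z with ha
  have h1 : algebraMap R Ω a ^ N = (w : Ω) * algebraMap R Ω π := by
    rw [← hval]
    exact (congrArg Subtype.val hw).symm
  have hπK : algebraMap R K π ≠ 0 :=
    (map_ne_zero_iff _ (IsFractionRing.injective R K)).mpr hπ
  have hq : IsIntegral R (algebraMap R K (a ^ N) / algebraMap R K π) := by
    have h2 : algebraMap K Ω (algebraMap R K (a ^ N) / algebraMap R K π) = (w : Ω) := by
      have hπΩ : algebraMap K Ω (algebraMap R K π) ≠ 0 :=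
        (map_ne_zero_iff _ (algebraMap K Ω).injective).mpr hπK
      rw [map_div₀, div_eq_iff hπΩ, ← IsScalarTower.algebraMap_apply R K Ω,
        ← IsScalarTower.algebraMap_apply R K Ω, map_pow, h1]
    exact (isIntegral_algebraMap_iff (algebraMap K Ω).injective).mp (h2 ▸ w.2)
  obtain ⟨r, hr⟩ := IsIntegrallyClosed.isIntegral_iff.mp hq
  have h2 : a ^ N = r * π := by
    apply IsFractionRing.injective R K
    rw [map_mul, hr, div_mul_cancel₀ _ hπK]
  have h3 : a ^ N ∈ Ideal.span {π} := Ideal.mem_span_singleton'.mpr ⟨r, h2.symm⟩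
  exact hprime.mem_of_pow_mem N h3

/-- **(N1)** `B/πB` is reduced. -/
theorem isRadical_span (π : R) (hπ : π ≠ 0) (hprime : (Ideal.span {π}).IsPrime)
    (hT : ∀ (x : B) (r : R), r ∉ Ideal.span {π} → (∃ z : B, r • x = π • z) → ∃ z : B, x = π • z)
    (hU : ∀ 𝔭 : Ideal R, 𝔭.IsPrime → (𝔭 = Ideal.span {π} ∨ π ∉ 𝔭) → ∀ x : B,
        (∀ y : B, ∃ a ∈ 𝔭, Algebra.trace K Y (algebraMap B Y (x * y)) = algebraMap R K a) →
        ∃ s : R, s ∉ 𝔭 ∧ s • x ∈ 𝔭 • (⊤ : Submodule R B))
    (x : B) (n : ℕ) (hx : x ^ n ∈ Ideal.span {algebraMap R B π}) :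
    x ∈ Ideal.span {algebraMap R B π} := by
  have htr : ∀ y : B, ∃ a ∈ Ideal.span {π},
      Algebra.trace K Y (algebraMap B Y (x * y)) = algebraMap R K a := by
    intro y
    refine ⟨trR K Y (x * y), trR_mem_of_pow_mem π hπ hprime (x * y) n ?_,
      (algebraMap_trR _).symm⟩
    rw [mul_pow]
    exact Ideal.mul_mem_right _ _ hx
  obtain ⟨s, hs, hmem⟩ := hU _ hprime (Or.inl rfl) x htr
  have hform : ∀ w ∈ Ideal.span {π} • (⊤ : Submodule R B), ∃ z : B, w = π • z := by
    intro w hw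
    refine Submodule.smul_induction_on hw ?_ ?_
    · intro r hr y _
      obtain ⟨a, rfl⟩ := Ideal.mem_span_singleton'.mp hr
      exact ⟨a • y, by rw [mul_comm, mul_smul]⟩
    · rintro _ _ ⟨z₁, rfl⟩ ⟨z₂, rfl⟩
      exact ⟨z₁ + z₂, by rw [smul_add]⟩
  obtain ⟨z, hz⟩ := hform _ hmem
  obtain ⟨z', hz'⟩ := hT x s hs ⟨z, hz⟩
  exact (mem_span_iff π x).mpr ⟨z', hz'⟩

/-- **(N2)** The minimal primes of `πB` lie over `(π)`. -/
theorem comap_eq_of_mem_minimalPrimes (π : R)
    (hT : ∀ (x : B) (r : R), r ∉ Ideal.span {π} → (∃ z : B, r • x = π • z) → ∃ z : B, x = π • z)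
    {P : Ideal B} (hP : P ∈ (Ideal.span {algebraMap R B π}).minimalPrimes) :
    P.comap (algebraMap R B) = Ideal.span {π} := by
  apply le_antisymm
  · intro r hr
    by_contra hrπ
    obtain ⟨y, hy, hry⟩ := Ideal.exists_mul_mem_of_mem_minimalPrimes hP (Ideal.mem_comap.mp hr)
    obtain ⟨z, hz⟩ := (mem_span_iff π _).mp hry
    obtain ⟨z', hz'⟩ := hT y r hrπ ⟨z, by rw [Algebra.smul_def]; exact hz⟩
    exact hy ((mem_span_iff π y).mpr ⟨z', hz'⟩)
  · rw [Ideal.span_singleton_le_iff_mem, Ideal.mem_comap]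
    exact hP.1.2 (Ideal.mem_span_singleton_self _)

/-- An element lying in all minimal primes of `πB` lies in `πB`. -/
theorem mem_span_of_forall_mem_minimalPrimes (π : R) (hπ : π ≠ 0)
    (hprime : (Ideal.span {π}).IsPrime)
    (hT : ∀ (x : B) (r : R), r ∉ Ideal.span {π} → (∃ z : B, r • x = π • z) → ∃ z : B, x = π • z)
    (hU : ∀ 𝔭 : Ideal R, 𝔭.IsPrime → (𝔭 = Ideal.span {π} ∨ π ∉ 𝔭) → ∀ x : B,
        (∀ y : B, ∃ a ∈ 𝔭, Algebra.trace K Y (algebraMap B Y (x * y)) = algebraMap R K a) →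
        ∃ s : R, s ∉ 𝔭 ∧ s • x ∈ 𝔭 • (⊤ : Submodule R B))
    (x : B) (hx : ∀ Q ∈ (Ideal.span {algebraMap R B π}).minimalPrimes, x ∈ Q) :
    x ∈ Ideal.span {algebraMap R B π} := by
  have h1 : x ∈ (Ideal.span {algebraMap R B π}).radical := by
    rw [← Ideal.sInf_minimalPrimes, Ideal.mem_sInf]
    exact fun {Q} hQ => hx Q hQ
  obtain ⟨n, hn⟩ := h1
  exact isRadical_span (K := K) (Y := Y) π hπ hprime hT hU x n hn

/-- **(N3)** The minimal primes of `πB` are pairwise comaximal: for each of them there is an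
idempotent modulo `π` which is `1` on it and `0` on the others. -/
theorem exists_crt (π : R) (hπ : π ≠ 0) (hprime : (Ideal.span {π}).IsPrime)
    (hDed : IsDedekindDomain (R ⧸ Ideal.span {π}))
    (hT : ∀ (x : B) (r : R), r ∉ Ideal.span {π} → (∃ z : B, r • x = π • z) → ∃ z : B, x = π • z)
    (hU : ∀ 𝔭 : Ideal R, 𝔭.IsPrime → (𝔭 = Ideal.span {π} ∨ π ∉ 𝔭) → ∀ x : B,
        (∀ y : B, ∃ a ∈ 𝔭, Algebra.trace K Y (algebraMap B Y (x * y)) = algebraMap R K a) →
        ∃ s : R, s ∉ 𝔭 ∧ s • x ∈ 𝔭 • (⊤ : Submodule R B))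
    {P : Ideal B} (hP : P ∈ (Ideal.span {algebraMap R B π}).minimalPrimes) :
    ∃ e : B, e - 1 ∈ P ∧
      (∀ Q ∈ (Ideal.span {algebraMap R B π}).minimalPrimes, Q ≠ P → e ∈ Q) ∧
      e ^ 2 - e ∈ Ideal.span {algebraMap R B π} := by
  classical
  set πB : Ideal B := Ideal.span {algebraMap R B π} with hπB
  haveI : IsNoetherianRing B := IsIntegralClosure.isNoetherianRing R K Y B
  have hfin : πB.minimalPrimes.Finite := Ideal.finite_minimalPrimes_of_isNoetherianRing B πB
  haveI hPp : P.IsPrime := hP.1.1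
  have hcomap : ∀ Q ∈ πB.minimalPrimes, Q.comap (algebraMap R B) = Ideal.span {π} :=
    fun Q hQ => comap_eq_of_mem_minimalPrimes π hT hQ
  have hrad : ∀ x : B, (∀ Q ∈ πB.minimalPrimes, x ∈ Q) → x ∈ πB := fun x hx =>
    mem_span_of_forall_mem_minimalPrimes (K := K) (Y := Y) π hπ hprime hT hU x hx
  have hinjB : Function.Injective (algebraMap B Y) := IsIntegralClosure.algebraMap_injective B R Y
  have hinjRY : Function.Injective (algebraMap R Y) := by
    rw [IsScalarTower.algebraMap_eq R K Y]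
    exact (algebraMap K Y).injective.comp (IsFractionRing.injective R K)
  have hsm : ∀ (a : R) (z : B), algebraMap B Y (a • z) = a • algebraMap B Y z := fun a z => by
    rw [Algebra.smul_def, map_mul, ← IsScalarTower.algebraMap_apply R B Y, ← Algebra.smul_def]
  -- comaximality of `P` with the other minimal primes, with a witness in `R ∖ (π)`
  have hcomax : ∀ Q ∈ πB.minimalPrimes, Q ≠ P →
      ∃ y ∈ Q, ∃ s : R, s ∉ Ideal.span {π} ∧ y - algebraMap R B s ∈ P := by
    intro Q hQ hne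
    have hnle : ¬ Q ≤ P := fun hle => hne (le_antisymm hle (hP.2 hQ.1 hle))
    obtain ⟨y0, hy0Q, hy0P⟩ := Set.not_subset.mp hnle
    have hlt := Ideal.comap_lt_comap_of_integral_mem_sdiff (R := R) (I := P) (J := P ⊔ Q)
      le_sup_left (x := y0) ⟨Ideal.mem_sup_right hy0Q, hy0P⟩ (IsIntegralClosure.isIntegral R Y y0)
    obtain ⟨s, hsJ, hsP⟩ := Set.exists_of_ssubset hlt
    rw [SetLike.mem_coe, Ideal.mem_comap] at hsJ
    obtain ⟨x, hx, y, hy, hxy⟩ := Submodule.mem_sup.mp hsJ
    refine ⟨y, hy, s, ?_, ?_⟩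
    · rw [← hcomap P hP]
      exact hsP
    · rw [← hxy, sub_add_cancel_right]
      exact P.neg_mem hx
  choose! y hy s hs hys using hcomax
  let F : Finset (Ideal B) := hfin.toFinset.erase P
  have hF : ∀ Q, Q ∈ F ↔ Q ∈ πB.minimalPrimes ∧ Q ≠ P := fun Q => by
    simp only [F, Finset.mem_erase, Set.Finite.mem_toFinset]
    tauto
  let c' : B := ∏ Q ∈ F, y Q
  let sp : R := ∏ Q ∈ F, s Q
  have hsp : sp ∉ Ideal.span {π} := by
    intro h
    obtain ⟨Q, hQF, hQ⟩ := hprime.prod_mem_iff.mp h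
    exact hs Q ((hF Q).mp hQF).1 ((hF Q).mp hQF).2 hQ
  have hc'P : c' - algebraMap R B sp ∈ P := by
    rw [← Ideal.Quotient.eq]
    simp only [c', sp, map_prod]
    refine Finset.prod_congr rfl fun Q hQF => ?_
    rw [Ideal.Quotient.eq]
    exact hys Q ((hF Q).mp hQF).1 ((hF Q).mp hQF).2
  have hc'Q : ∀ Q ∈ πB.minimalPrimes, Q ≠ P → c' ∈ Q := by
    intro Q hQ hne
    haveI := hQ.1.1
    exact (Ideal.IsPrime.prod_mem_iff (p := Q)).mpr ⟨Q, (hF Q).mpr ⟨hQ, hne⟩, hy Q hQ hne⟩
  have hd : c' * (c' - algebraMap R B sp) ∈ πB := by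
    refine hrad _ fun Q hQ => ?_
    by_cases hne : Q = P
    · rw [hne]
      exact P.mul_mem_left _ hc'P
    · exact Q.mul_mem_right _ (hc'Q Q hQ hne)
  obtain ⟨b₁, hb₁⟩ := (mem_span_iff π _).mp hd
  -- the element of `B_(π)` to which purity is applied
  have hsp0 : algebraMap R Y sp ≠ 0 := by
    intro h
    apply hsp
    have : sp = 0 := hinjRY (h.trans (map_zero _).symm)
    rw [this]
    exact Ideal.zero_mem _
  let c : Y := (algebraMap R Y sp)⁻¹ * algebraMap B Y c'
  have hc1 : sp • c = algebraMap B Y c' := by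
    rw [Algebra.smul_def, ← mul_assoc, mul_inv_cancel₀ hsp0, one_mul]
  have hp : (X ^ 2 - X : R[X]).Monic := monic_X_pow_sub (by rw [degree_X]; norm_num)
  have hpc : ∃ s' : R, s' ∉ Ideal.span {π} ∧ ∃ b : B,
      s' • aeval c (X ^ 2 - X : R[X]) = π • algebraMap B Y b := by
    refine ⟨sp * sp, fun h => (hprime.mem_or_mem h).elim hsp hsp, b₁, ?_⟩
    rw [map_sub, map_pow, aeval_X]
    have h4 : (sp * sp) • (c ^ 2 - c) = (sp • c) ^ 2 - sp • (sp • c) := by
      simp only [Algebra.smul_def, map_mul]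
      ring
    have h5 : algebraMap B Y (c' * (c' - algebraMap R B sp)) =
        (algebraMap B Y c') ^ 2 - sp • algebraMap B Y c' := by
      rw [map_mul, map_sub, ← IsScalarTower.algebraMap_apply R B Y, Algebra.smul_def]
      ring
    rw [h4, hc1, ← h5, hb₁, hsm]
  obtain ⟨b, t, ht, b₂, h⟩ := Purity.purity (K := K) π hπ hprime hDed hT hU c ⟨sp, hsp, c', hc1⟩
    (X ^ 2 - X) hp hpc
  have htsp : t * sp ∉ Ideal.span {π} := fun h => (hprime.mem_or_mem h).elim ht hsp
  -- back to `B`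
  have hkey : algebraMap R B t * (c' - algebraMap R B sp * b) ∈ πB := by
    rw [mem_span_iff]
    refine ⟨sp • b₂, hinjB ?_⟩
    have h6 : sp • (t • (c - algebraMap B Y b)) = sp • (π • algebraMap B Y b₂) := by rw [h]
    rw [hsm, hsm, map_mul, map_sub, map_mul, ← IsScalarTower.algebraMap_apply R B Y,
      ← IsScalarTower.algebraMap_apply R B Y, smul_comm π sp, ← h6, ← hc1]
    simp only [Algebra.smul_def]
    ring
  have hnotmem : ∀ Q ∈ πB.minimalPrimes, algebraMap R B (t * sp) ∉ Q := by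
    intro Q hQ hmem
    apply htsp
    rw [← hcomap Q hQ]
    exact Ideal.mem_comap.mpr hmem
  have hbP : b - 1 ∈ P := by
    have h7 : algebraMap R B t * (c' - algebraMap R B sp * b) ∈ P := hP.1.2 hkey
    have h8 : algebraMap R B t * (c' - algebraMap R B sp) ∈ P := P.mul_mem_left _ hc'P
    have h9 : algebraMap R B (t * sp) * (b - 1) ∈ P := by
      have : algebraMap R B (t * sp) * (b - 1) =
          algebraMap R B t * (c' - algebraMap R B sp) -
            algebraMap R B t * (c' - algebraMap R B sp * b) := by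
        rw [map_mul]
        ring
      rw [this]
      exact P.sub_mem h8 h7
    exact (hPp.mem_or_mem h9).resolve_left (hnotmem P hP)
  have hbQ : ∀ Q ∈ πB.minimalPrimes, Q ≠ P → b ∈ Q := by
    intro Q hQ hne
    haveI hQp : Q.IsPrime := hQ.1.1
    have h7 : algebraMap R B t * (c' - algebraMap R B sp * b) ∈ Q := hQ.1.2 hkey
    have h8 : algebraMap R B t * c' ∈ Q := Q.mul_mem_left _ (hc'Q Q hQ hne)
    have h9 : algebraMap R B (t * sp) * b ∈ Q := by
      have : algebraMap R B (t * sp) * b =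
          algebraMap R B t * c' - algebraMap R B t * (c' - algebraMap R B sp * b) := by
        rw [map_mul]
        ring
      rw [this]
      exact Q.sub_mem h8 h7
    exact (hQp.mem_or_mem h9).resolve_left (hnotmem Q hQ)
  refine ⟨b, hbP, hbQ, hrad _ fun Q hQ => ?_⟩
  have h10 : b ^ 2 - b = b * (b - 1) := by ring
  rw [h10]
  by_cases hne : Q = P
  · rw [hne]
    exact P.mul_mem_left _ hbP
  · exact Q.mul_mem_right _ (hbQ Q hQ hne)

end Basic

end Fermat.Agent.S18.PurityNormal
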