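import Mathlib
import Fermat.Agent.S18.TSD

/-!
# The trace lemma of the purity argument (step (e))

For a normal domain `R` with a prime element `π` such that `R ⧸ (π)` is a principal ideal
domain, a finite extension `Y` of `K = Frac R`, an element `c : Y` which is an idempotent
modulo `π` (with Gauss-integral error term) and an `R`-integral element `b : Y`,
the trace `Tr (c * b)` lies in `R + π R_(π)`.

The proof uses the auxiliary ring `R + π O` (`O` the localisation of `R` at `(π)`), which is
integrally closed in `K`, and over which `c * b` is integral.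
-/

namespace Fermat.Agent.S18.PurityTrace

open Polynomial

section abstract

variable {R K Y O k : Type*} [CommRing R] [Field K] [Algebra R K] [Field Y] [Algebra K Y]
  [Algebra R Y]
  [CommRing O] [Algebra R O] [Algebra O K]
  [IsScalarTower R O K] [Algebra O Y] [IsScalarTower O K Y]
  [IsScalarTower R O Y] [CommRing k] [Algebra R k]

/-- The subring `R + ker φ` of `O`: the preimage of the image of `R` in `k`. -/
def pullback (φ : O →ₐ[R] k) : Subalgebra R O := (⊥ : Subalgebra R k).comap φ

lemma mem_pullback (φ : O →ₐ[R] k) (o : O) :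
    o ∈ pullback φ ↔ ∃ a : R, algebraMap R k a = φ o := by
  simp [pullback, Algebra.mem_bot]

lemma isIntegral_phi (φ : O →ₐ[R] k) (o : O) (ho : IsIntegral (pullback φ) o) :
    IsIntegral R (φ o) := by
  obtain ⟨p, hp, hpo⟩ := ho
  set g : ↥(pullback φ) →+* k := (φ : O →+* k).comp (algebraMap ↥(pullback φ) O) with hg
  have hlift : p.map g ∈ Polynomial.lifts (algebraMap R k) := by
    rw [Polynomial.lifts_iff_coeff_lifts]
    intro n
    rw [Polynomial.coeff_map]
    obtain ⟨a, ha⟩ := (mem_pullback φ _).mp (p.coeff n).2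
    exact ⟨a, ha⟩
  obtain ⟨q, hq, -, hqm⟩ := Polynomial.lifts_and_natDegree_eq_and_monic hlift (hp.map g)
  refine ⟨q, hqm, ?_⟩
  rw [← Polynomial.eval_map, hq, Polynomial.eval_map, hg]
  change eval₂ ((φ : O →+* k).comp (algebraMap ↥(pullback φ) O)) ((φ : O →+* k) o) p = 0
  rw [← Polynomial.hom_eval₂, hpo, map_zero]

lemma exists_of_isIntegral_pullback [IsDomain O] [IsIntegrallyClosed O] [IsFractionRing O K]
    (φ : O →ₐ[R] k) (π : R)
    (hk : ∀ x : k, IsIntegral R x → ∃ a : R, algebraMap R k a = x)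
    (hker : ∀ o : O, φ o = 0 → ∃ u : O, o = algebraMap R O π * u)
    (y : K) (hy : IsIntegral (pullback φ) y) :
    ∃ a : R, ∃ u : O, y = algebraMap R K a + algebraMap R K π * algebraMap O K u := by
  have hyO : IsIntegral O y := hy.tower_top
  obtain ⟨o, rfl⟩ := IsIntegrallyClosed.isIntegral_iff.mp hyO
  have ho : IsIntegral (pullback φ) o :=
    (isIntegral_algebraMap_iff (IsFractionRing.injective O K)).mp hy
  obtain ⟨a, ha⟩ := hk _ (isIntegral_phi φ o ho)
  obtain ⟨u, hu⟩ := hker (o - algebraMap R O a) (by rw [map_sub, AlgHom.commutes, ha, sub_self])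
  refine ⟨a, u, ?_⟩
  have h : o = algebraMap R O a + algebraMap R O π * u := by rw [← hu]; ring
  rw [h, map_add, map_mul, ← IsScalarTower.algebraMap_apply, ← IsScalarTower.algebraMap_apply]

lemma isIntegral_O_of_gauss (π : R) (hunit : ∀ s : R, ¬ π ∣ s → IsUnit (algebraMap R O s))
    (d : Y) (hd : IsGaussInt R π d) : IsIntegral O d := by
  obtain ⟨s, hs, hsd⟩ := hd
  obtain ⟨v, hv⟩ := (hunit s hs).exists_right_inv
  have h1 : IsIntegral O (s • d) := hsd.tower_top
  have h2 : d = v • (s • d) := by
    rw [← algebraMap_smul O s d, smul_smul, mul_comm, hv, one_smul]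
  rw [h2]
  exact h1.smul v

lemma isIntegral_pullback_smul (φ : O →ₐ[R] k) (π : R) (hπk : algebraMap R k π = 0)
    (d : Y) (hd : IsIntegral O d) : IsIntegral (pullback φ) (π • d) := by
  obtain ⟨p, hp, hpd⟩ := hd
  have hmem : ∀ u : O, algebraMap R O π * u ∈ pullback φ := fun u =>
    (mem_pullback φ _).mpr ⟨0, by rw [map_zero, map_mul, AlgHom.commutes, hπk, zero_mul]⟩
  have hlift : p.scaleRoots (algebraMap R O π) ∈
      Polynomial.lifts (algebraMap (pullback φ) O) := by
    rw [Polynomial.lifts_iff_coeff_lifts]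
    intro n
    rw [Polynomial.coeff_scaleRoots]
    by_cases hn : n < p.natDegree
    · have h1 : p.natDegree - n = (p.natDegree - n - 1) + 1 := by omega
      rw [h1, pow_succ]
      refine ⟨⟨_, hmem (p.coeff n * algebraMap R O π ^ (p.natDegree - n - 1))⟩, ?_⟩
      change algebraMap R O π * (p.coeff n * algebraMap R O π ^ (p.natDegree - n - 1)) = _
      ring
    · by_cases hn' : n = p.natDegree
      · subst hn'
        rw [Nat.sub_self, pow_zero, mul_one, hp.coeff_natDegree]
        exact ⟨1, map_one _⟩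
      · rw [Polynomial.coeff_eq_zero_of_natDegree_lt (by omega), zero_mul]
        exact ⟨0, map_zero _⟩
  obtain ⟨q, hq, -, hqm⟩ := Polynomial.lifts_and_natDegree_eq_and_monic hlift
    ((Polynomial.monic_scaleRoots_iff (algebraMap R O π)).mpr hp)
  refine ⟨q, hqm, ?_⟩
  have h := Polynomial.scaleRoots_aeval_eq_zero (r := algebraMap R O π) (p := p) (a := d) hpd
  rw [← hq, Polynomial.aeval_map_algebraMap] at h
  have h3 : algebraMap O Y (algebraMap R O π) * d = π • d := by
    rw [← Algebra.smul_def, algebraMap_smul]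
  rw [h3] at h
  exact h

lemma isIntegral_of_sq_sub {A B : Type*} [CommRing A] [CommRing B] [Algebra A B] (c : B)
    (h : IsIntegral A (c ^ 2 - c)) : IsIntegral A c := by
  have hc : IsIntegral (integralClosure A B) c := by
    refine ⟨X ^ 2 - (X + C ⟨c ^ 2 - c, h⟩), Polynomial.monic_X_pow_sub ?_, ?_⟩
    · exact lt_of_le_of_lt (Polynomial.degree_add_le _ _)
        (max_lt (lt_of_le_of_lt Polynomial.degree_X_le (by norm_num))
          (lt_of_le_of_lt Polynomial.degree_C_le (by norm_num)))
    · simp [Polynomial.eval₂_sub, Polynomial.eval₂_add]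
  exact isIntegral_trans c hc

theorem trace_mem_add_pi_aux [IsDomain O] [IsIntegrallyClosed O] [IsFractionRing O K]
    [FiniteDimensional K Y] (φ : O →ₐ[R] k) (π : R)
    (hk : ∀ x : k, IsIntegral R x → ∃ a : R, algebraMap R k a = x)
    (hπk : algebraMap R k π = 0)
    (hker : ∀ o : O, φ o = 0 → ∃ u : O, o = algebraMap R O π * u)
    (hunit : ∀ s : R, ¬ π ∣ s → IsUnit (algebraMap R O s))
    (c : Y) (hcc : ∃ d : Y, IsGaussInt R π d ∧ c ^ 2 - c = π • d) (b : Y) (hb : IsIntegral R b) :
    ∃ a : R, ∃ u : O,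
      Algebra.trace K Y (c * b) = algebraMap R K a + algebraMap R K π * algebraMap O K u := by
  obtain ⟨d, hd, hcd⟩ := hcc
  have h1 : IsIntegral (pullback φ) (c ^ 2 - c) := by
    rw [hcd]
    exact isIntegral_pullback_smul φ π hπk d (isIntegral_O_of_gauss π hunit d hd)
  have h2 : IsIntegral (pullback φ) c := isIntegral_of_sq_sub c h1
  have h3 : IsIntegral (pullback φ) b := hb.tower_top
  have h4 : IsIntegral (pullback φ) (Algebra.trace K Y (c * b)) :=
    Algebra.isIntegral_trace (h2.mul h3)
  exact exists_of_isIntegral_pullback φ π hk hker _ h4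

end abstract

section concrete

variable {R K Y : Type*} [CommRing R] [IsDomain R] [IsIntegrallyClosed R] [Field K] [Algebra R K]
  [IsFractionRing R K] [Field Y] [Algebra K Y] [Algebra R Y] [IsScalarTower R K Y]
  [FiniteDimensional K Y]

/-- The trace lemma for a prime ideal `P` generated by `π` (in the form `s ∈ P ↔ π ∣ s`). -/
theorem trace_mem_add_pi_prime (P : Ideal R) [P.IsPrime] (π : R) (hPπ : ∀ s : R, s ∈ P ↔ π ∣ s)
    (hPID : IsPrincipalIdealRing (R ⧸ P))
    (c : Y) (hcc : ∃ d : Y, IsGaussInt R π d ∧ c ^ 2 - c = π • d)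
    (b : Y) (hb : IsIntegral R b) :
    ∃ a : R, ∃ ρ : K, (∃ s : R, ¬ π ∣ s ∧ ∃ r : R, s • ρ = algebraMap R K r) ∧
      Algebra.trace K Y (c * b) = algebraMap R K a + π • ρ := by
  -- the map `R_P → K`
  have hunitK : ∀ y : P.primeCompl, IsUnit (algebraMap R K y) := fun y =>
    IsUnit.mk0 _ (fun h => y.2 (by
      rw [(map_eq_zero_iff _ (IsFractionRing.injective R K)).mp h]; exact Ideal.zero_mem _))
  let algOK : Algebra (Localization.AtPrime P) K := (IsLocalization.lift hunitK).toAlgebra
  have towROK : IsScalarTower R (Localization.AtPrime P) K :=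
    IsScalarTower.of_algebraMap_eq (fun x => (IsLocalization.lift_eq hunitK x).symm)
  have : IsFractionRing (Localization.AtPrime P) K :=
    IsFractionRing.isFractionRing_of_isDomain_of_isLocalization P.primeCompl _ K
  let algOY : Algebra (Localization.AtPrime P) Y :=
    ((algebraMap K Y).comp (algebraMap (Localization.AtPrime P) K)).toAlgebra
  have : IsScalarTower (Localization.AtPrime P) K Y :=
    IsScalarTower.of_algebraMap_eq (fun x => rfl)
  have : IsScalarTower R (Localization.AtPrime P) Y :=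
    IsScalarTower.of_algebraMap_eq (fun x => by
      rw [IsScalarTower.algebraMap_apply R K Y,
        IsScalarTower.algebraMap_apply R (Localization.AtPrime P) K]; rfl)
  have : IsIntegrallyClosed (Localization.AtPrime P) :=
    isIntegrallyClosed_of_isLocalization (Localization.AtPrime P) P.primeCompl
      P.primeCompl_le_nonZeroDivisors
  -- the residue map `R_P → Frac (R ⧸ P)`
  have : IsPrincipalIdealRing (R ⧸ P) := hPID
  have hunitk : ∀ y : P.primeCompl,
      IsUnit (Algebra.ofId R (FractionRing (R ⧸ P)) y) := fun y =>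
    IsUnit.mk0 _ (fun h => y.2 (by
      have h' : algebraMap (R ⧸ P) (FractionRing (R ⧸ P)) (Ideal.Quotient.mk P y) = 0 := h
      rw [map_eq_zero_iff _ (IsFractionRing.injective (R ⧸ P) (FractionRing (R ⧸ P)))] at h'
      exact Ideal.Quotient.eq_zero_iff_mem.mp h'))
  let φ : Localization.AtPrime P →ₐ[R] FractionRing (R ⧸ P) :=
    IsLocalization.liftAlgHom (M := P.primeCompl) hunitk
  have hk : ∀ x : FractionRing (R ⧸ P), IsIntegral R x →
      ∃ a : R, algebraMap R (FractionRing (R ⧸ P)) a = x := by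
    intro x hx
    have hx' : IsIntegral (R ⧸ P) x := hx.tower_top
    obtain ⟨q, rfl⟩ := IsIntegrallyClosed.isIntegral_iff.mp hx'
    obtain ⟨a, rfl⟩ := Ideal.Quotient.mk_surjective q
    exact ⟨a, rfl⟩
  have hπk : algebraMap R (FractionRing (R ⧸ P)) π = 0 := by
    have h' : algebraMap R (FractionRing (R ⧸ P)) π =
        algebraMap (R ⧸ P) (FractionRing (R ⧸ P)) (Ideal.Quotient.mk P π) := rfl
    rw [h', Ideal.Quotient.eq_zero_iff_mem.mpr ((hPπ π).mpr dvd_rfl), map_zero]
  have hker : ∀ o : Localization.AtPrime P, φ o = 0 →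
      ∃ u : Localization.AtPrime P, o = algebraMap R (Localization.AtPrime P) π * u := by
    intro o ho
    obtain ⟨⟨r, s⟩, hrs⟩ := IsLocalization.surj P.primeCompl o
    have h1 : algebraMap R (FractionRing (R ⧸ P)) r = 0 := by
      have h := congrArg φ hrs
      rw [map_mul, ho, zero_mul, AlgHom.commutes] at h
      exact h.symm
    have h2 : r ∈ P := by
      have h' : algebraMap (R ⧸ P) (FractionRing (R ⧸ P)) (Ideal.Quotient.mk P r) = 0 := h1
      rw [map_eq_zero_iff _ (IsFractionRing.injective (R ⧸ P) (FractionRing (R ⧸ P)))] at h'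
      exact Ideal.Quotient.eq_zero_iff_mem.mp h'
    obtain ⟨t, rfl⟩ := (hPπ r).mp h2
    obtain ⟨v, hv⟩ := (IsLocalization.map_units (Localization.AtPrime P) s).exists_right_inv
    refine ⟨algebraMap R (Localization.AtPrime P) t * v, ?_⟩
    calc o = (o * algebraMap R (Localization.AtPrime P) s) * v := by
          rw [mul_assoc, hv, mul_one]
      _ = algebraMap R (Localization.AtPrime P) π * (algebraMap R (Localization.AtPrime P) t * v) := by
          rw [hrs, map_mul, mul_assoc]
  have hunit : ∀ s : R, ¬ π ∣ s → IsUnit (algebraMap R (Localization.AtPrime P) s) := fun s hs =>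
    IsLocalization.map_units (Localization.AtPrime P)
      (⟨s, fun h => hs ((hPπ s).mp h)⟩ : P.primeCompl)
  obtain ⟨a, u, htr⟩ := trace_mem_add_pi_aux (K := K) φ π hk hπk hker hunit c hcc b hb
  refine ⟨a, algebraMap (Localization.AtPrime P) K u, ?_, ?_⟩
  · obtain ⟨⟨r, s⟩, hrs⟩ := IsLocalization.surj P.primeCompl u
    refine ⟨s, fun h => s.2 ((hPπ _).mpr h), r, ?_⟩
    rw [Algebra.smul_def, IsScalarTower.algebraMap_apply R (Localization.AtPrime P) K, ← map_mul,
      mul_comm, hrs, ← IsScalarTower.algebraMap_apply]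
  · rw [htr, Algebra.smul_def]

/-- **Trace lemma (step (e) of purity).** If `c` is Gauss-integral and idempotent modulo `π`
(with Gauss-integral error), and `b` is integral over `R`, then `Tr (c * b) ∈ R + π R_(π)`. -/
theorem trace_mem_add_pi (π : R) (hπ : Prime π)
    (hPID : IsPrincipalIdealRing (R ⧸ Ideal.span {π}))
    (c : Y) (hc : IsGaussInt R π c) (hcc : ∃ d : Y, IsGaussInt R π d ∧ c ^ 2 - c = π • d)
    (b : Y) (hb : IsIntegral R b) :
    ∃ a : R, ∃ ρ : K, (∃ s : R, ¬ π ∣ s ∧ ∃ r : R, s • ρ = algebraMap R K r) ∧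
      Algebra.trace K Y (c * b) = algebraMap R K a + π • ρ := by
  have hP : (Ideal.span {π} : Ideal R).IsPrime :=
    (Ideal.span_singleton_prime hπ.ne_zero).mpr hπ
  have _ := hc
  exact trace_mem_add_pi_prime (Ideal.span {π}) π (fun s => Ideal.mem_span_singleton) hPID
    c hcc b hb

end concrete

end Fermat.Agent.S18.PurityTrace
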