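import Fermat.Agent.S18.TSD
import Fermat.Agent.S18.EtaleGauss

set_option autoImplicit false

/-!
# S18, package B1: trace-self-duality from a monogenic generator with invertible derivative

If `Y = K(θ)`, `θ` is a root of a monic polynomial `P` with `S`-integral coefficients and
`P'(θ)` has an `S`-integral inverse, then the integral closure of `R` in `Y` is trace-self-dual
after inverting `S` (Euler's formula for the trace-dual basis of a power basis).
-/

namespace Fermat.Agent.S18.TSDMono

open Polynomial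

section

variable {R K Y : Type*} [CommRing R] [IsDomain R] [IsIntegrallyClosed R] [Field K] [Algebra R K]
  [IsFractionRing R K] [Field Y] [Algebra K Y] [Algebra R Y] [IsScalarTower R K Y]
  [FiniteDimensional K Y] [Algebra.IsSeparable K Y]

/-- **Integral monogenic case, minimal polynomial.**  `θ = pb.gen` integral over `R` with
minimal polynomial `m`, and `m'(θ) * y = 1` with `sy • y` integral for some `sy ∈ S`. -/
theorem isTSDAt_of_minpoly (S : Set R) (hSmul : ∀ a ∈ S, ∀ b ∈ S, a * b ∈ S)
    (pb : PowerBasis K Y) (hint : IsIntegral R pb.gen)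
    (y : Y) (sy : R) (hsy : sy ∈ S) (hy : IsIntegral R (sy • y))
    (hder : aeval pb.gen (derivative (minpoly R pb.gen)) * y = 1) :
    IsTSDAt R K Y S := by
  classical
  intro z hz
  have hmin : minpoly K pb.gen = (minpoly R pb.gen).map (algebraMap R K) :=
    minpoly.isIntegrallyClosed_eq_field_fractions' K hint
  have hderK : aeval pb.gen (derivative (minpoly K pb.gen)) =
      aeval pb.gen (derivative (minpoly R pb.gen)) := by
    rw [hmin, derivative_map, aeval_map_algebraMap]
  have hder0 : aeval pb.gen (derivative (minpoly K pb.gen)) ≠ 0 :=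
    (Algebra.IsSeparable.isSeparable K pb.gen).aeval_derivative_ne_zero (minpoly.aeval K pb.gen)
  have hyinv : y = (aeval pb.gen (derivative (minpoly K pb.gen)))⁻¹ := by
    rw [← hderK] at hder
    exact eq_inv_of_mul_eq_one_right hder
  have hdiv : ∀ i, IsIntegral R ((minpolyDiv K pb.gen).coeff i) := by
    intro i
    rw [← minpolyDiv_eq_of_isIntegrallyClosed K hint]
    exact adjoin_le_integralClosure hint (coeff_minpolyDiv_mem_adjoin pb.gen i)
  -- coordinates of `z` in the power basis
  have hrepr : ∀ i : Fin pb.dim, pb.basis.repr z i =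
      Algebra.trace K Y (z * ((minpolyDiv K pb.gen).coeff i * y)) := by
    intro i
    rw [EtaleGauss.powerBasis_repr_eq_trace, hyinv, div_eq_mul_inv]
  have hcoord : ∀ i : Fin pb.dim, ∃ s ∈ S, ∃ r : R,
      (s * sy) • pb.basis.repr z i = algebraMap R K r := by
    intro i
    obtain ⟨s, hs, r, hr⟩ := hz ((minpolyDiv K pb.gen).coeff i * (sy • y)) ((hdiv i).mul hy)
    refine ⟨s, hs, r, ?_⟩
    rw [← hr, hrepr, mul_smul]
    congr 1
    rw [← LinearMap.map_smul_of_tower]
    congr 1
    rw [mul_smul_comm, mul_smul_comm]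
  choose s hs r hr using hcoord
  have hprod : ∀ t : Finset (Fin pb.dim), ∏ i ∈ t, s i ∈ S ∨ t = ∅ := by
    intro t
    induction t using Finset.induction_on with
    | empty => exact Or.inr rfl
    | insert a t ha ih =>
      left
      rw [Finset.prod_insert ha]
      rcases ih with h | h
      · exact hSmul _ (hs a) _ h
      · rw [h, Finset.prod_empty, mul_one]; exact hs a
  have hterm : ∀ i : Fin pb.dim,
      IsIntegral R ((sy * ∏ k, s k) • (pb.basis.repr z i • pb.basis i)) := by
    intro i
    have e : (sy * ∏ k, s k) = (∏ k ∈ Finset.univ.erase i, s k) * (s i * sy) := by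
      rw [← Finset.mul_prod_erase Finset.univ s (Finset.mem_univ i)]; ring
    rw [e, mul_smul]
    refine IsIntegral.smul _ ?_
    have e2 : (s i * sy) • (pb.basis.repr z i • pb.basis i) = r i • pb.gen ^ (i : ℕ) := by
      rw [← smul_assoc, hr i, algebraMap_smul, pb.basis_eq_pow]
    rw [e2]
    exact (hint.pow _).smul _
  by_cases hdim : (Finset.univ : Finset (Fin pb.dim)) = ∅
  · refine ⟨sy, hsy, ?_⟩
    have hz0 : z = 0 := by
      rw [← pb.basis.sum_repr z, hdim, Finset.sum_empty]
    rw [hz0, smul_zero]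
    exact isIntegral_zero
  · refine ⟨sy * ∏ k, s k, hSmul _ hsy _ ((hprod Finset.univ).resolve_right hdim), ?_⟩
    rw [← pb.basis.sum_repr z, Finset.smul_sum]
    exact IsIntegral.sum _ fun i _ => hterm i

/-- **Integral monogenic case.**  `Y = K(θ)`, `P ∈ R[X]` monic with `P(θ) = 0`, and
`P'(θ) * y = 1` with `y` integral after multiplication by an element of `S`. -/
theorem isTSDAt_of_monogenic_integral (S : Set R) (hSmul : ∀ a ∈ S, ∀ b ∈ S, a * b ∈ S)
    (θ : Y) (hθ : IntermediateField.adjoin K {θ} = ⊤) (P : R[X]) (hP : P.Monic)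
    (hPθ : aeval θ P = 0) (y : Y) (hy : ∃ s ∈ S, IsIntegral R (s • y))
    (hder : aeval θ (derivative P) * y = 1) : IsTSDAt R K Y S := by
  have hint : IsIntegral R θ := ⟨P, hP, by rw [← aeval_def]; exact hPθ⟩
  have hθK : IsIntegral K θ := hint.tower_top
  have hθ' : Algebra.adjoin K {θ} = ⊤ :=
    Algebra.adjoin_eq_top_of_primitive_element hθK.isAlgebraic hθ
  have hinj : Function.Injective (algebraMap R Y) := by
    rw [IsScalarTower.algebraMap_eq R K Y]
    exact (algebraMap K Y).injective.comp (IsFractionRing.injective R K)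
  have : Module.IsTorsionFree R Y := by
    rw [Module.isTorsionFree_iff_algebraMap_injective]; exact hinj
  obtain ⟨Q, hQ⟩ := minpoly.isIntegrallyClosed_dvd hint hPθ
  obtain ⟨sy, hsy, hyi⟩ := hy
  have hQint : IsIntegral R (aeval θ Q) :=
    adjoin_le_integralClosure hint (aeval_mem_adjoin_singleton R θ)
  refine isTSDAt_of_minpoly S hSmul (PowerBasis.ofAdjoinEqTop hθK hθ') hint
    (aeval θ Q * y) sy hsy ?_ ?_
  · rw [← mul_smul_comm]
    exact hQint.mul hyi
  · have h1 : aeval θ (derivative P) =
        aeval θ (derivative (minpoly R θ)) * aeval θ Q := by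
      rw [hQ, derivative_mul, map_add, map_mul, map_mul, minpoly.aeval, zero_mul, add_zero]
    change aeval θ (derivative (minpoly R θ)) * (aeval θ Q * y) = 1
    rw [← mul_assoc, ← h1, hder]

omit [IsDomain R] [IsIntegrallyClosed R] [IsFractionRing R K] in
/-- Common denominator for the coefficients of a polynomial with `S`-integral coefficients. -/
theorem exists_common_denominator (S : Set R) (hS1 : (1 : R) ∈ S)
    (hSmul : ∀ a ∈ S, ∀ b ∈ S, a * b ∈ S) (P : K[X])
    (hPint : ∀ i, ∃ s ∈ S, ∃ r : R, s • P.coeff i = algebraMap R K r) :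
    ∃ s₀ ∈ S, ∀ i, ∃ r : R, s₀ • P.coeff i = algebraMap R K r := by
  classical
  have key : ∀ t : Finset ℕ, ∃ s₀ ∈ S, ∀ i ∈ t, ∃ r : R, s₀ • P.coeff i = algebraMap R K r := by
    intro t
    induction t using Finset.induction_on with
    | empty => exact ⟨1, hS1, fun i hi => absurd hi (Finset.notMem_empty i)⟩
    | insert a t _ ih =>
      obtain ⟨s₁, hs₁, h₁⟩ := ih
      obtain ⟨s₂, hs₂, r₂, hr₂⟩ := hPint a
      refine ⟨s₁ * s₂, hSmul _ hs₁ _ hs₂, fun i hi => ?_⟩
      rcases Finset.mem_insert.mp hi with rfl | hi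
      · exact ⟨s₁ * r₂, by rw [mul_smul, hr₂, map_mul, Algebra.smul_def]⟩
      · obtain ⟨r, hr⟩ := h₁ i hi
        exact ⟨s₂ * r, by rw [mul_comm, mul_smul, hr, map_mul, Algebra.smul_def]⟩
  obtain ⟨s₀, hs₀, h⟩ := key P.support
  refine ⟨s₀, hs₀, fun i => ?_⟩
  by_cases hi : i ∈ P.support
  · exact h i hi
  · exact ⟨0, by rw [notMem_support_iff.mp hi, smul_zero, map_zero]⟩

/-- **Package B1 (TSD-Euler).**  `R` integrally closed with fraction field `K`, `Y/K` finite
separable, `S ⊆ R` multiplicatively closed with `1 ∈ S`, `Y = K(θ)`, `P ∈ K[X]` monic with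
`S`-integral coefficients and `P(θ) = 0`, and `P'(θ) * y = 1` for an `S`-integral `y`.  Then the
integral closure of `R` in `Y` is trace-self-dual after inverting `S`. -/
theorem isTSDAt_of_monogenic (S : Set R) (hS1 : (1 : R) ∈ S)
    (hSmul : ∀ a ∈ S, ∀ b ∈ S, a * b ∈ S) (θ : Y) (hθ : IntermediateField.adjoin K {θ} = ⊤)
    (P : K[X]) (hP : P.Monic)
    (hPint : ∀ i, ∃ s ∈ S, ∃ r : R, s • P.coeff i = algebraMap R K r)
    (hPθ : aeval θ P = 0) (y : Y) (hy : ∃ s ∈ S, IsIntegral R (s • y))
    (hder : aeval θ (derivative P) * y = 1) : IsTSDAt R K Y S := by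
  obtain ⟨s₀, hs₀, hs₀P⟩ := exists_common_denominator S hS1 hSmul P hPint
  by_cases h0 : s₀ = 0
  · intro z _
    exact ⟨0, h0 ▸ hs₀, by rw [zero_smul]; exact isIntegral_zero⟩
  have ha : algebraMap R K s₀ ≠ 0 := by
    rwa [Ne, map_eq_zero_iff _ (IsFractionRing.injective R K)]
  set a : K := algebraMap R K s₀ with ha_def
  have hn : P.natDegree ≠ 0 := by
    intro hn0
    have hP1 : P = 1 := by
      rw [eq_C_of_natDegree_eq_zero hn0]
      have := hP.coeff_natDegree
      rw [hn0] at this
      rw [this, map_one]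
    rw [hP1, map_one] at hPθ
    exact one_ne_zero hPθ
  -- the scaled polynomial has coefficients in `R`
  have hlift : scaleRoots P a ∈ lifts (algebraMap R K) := by
    rw [lifts_iff_coeff_lifts]
    intro i
    rw [coeff_scaleRoots]
    rcases lt_trichotomy i P.natDegree with hi | hi | hi
    · obtain ⟨r, hr⟩ := hs₀P i
      refine ⟨r * s₀ ^ (P.natDegree - i - 1), ?_⟩
      have e : a ^ (P.natDegree - i) = a * a ^ (P.natDegree - i - 1) := by
        rw [← pow_succ']
        congr 1
        omega
      rw [e, map_mul, map_pow, ← hr, Algebra.smul_def, ← ha_def]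
      ring
    · rw [hi, hP.coeff_natDegree, Nat.sub_self, pow_zero, mul_one]
      exact ⟨1, map_one _⟩
    · rw [coeff_eq_zero_of_natDegree_lt hi, zero_mul]
      exact ⟨0, map_zero _⟩
  obtain ⟨P₁, hP₁, -, hP₁m⟩ :=
    lifts_and_natDegree_eq_and_monic hlift ((monic_scaleRoots_iff a).mpr hP)
  have hsmul : ∀ x : Y, s₀ • x = algebraMap K Y a * x := by
    intro x
    rw [← Algebra.smul_def, ha_def, algebraMap_smul]
  -- `θ' = s₀ • θ` is a root of `P₁`
  have hroot : aeval (s₀ • θ) P₁ = 0 := by
    rw [← aeval_map_algebraMap K, hP₁, hsmul]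
    exact scaleRoots_aeval_eq_zero hPθ
  -- the derivative at `θ'`
  have hcomp : (scaleRoots P a).comp (C a * X) = C (a ^ P.natDegree) * P := by
    have h := scaleRoots_eval₂_mul (p := P) (C : K →+* K[X]) X a
    rw [eval₂_C_X] at h
    rw [comp, h, map_pow]
  have hderiv : C a * (derivative (scaleRoots P a)).comp (C a * X) =
      C (a ^ P.natDegree) * derivative P := by
    have h := congrArg derivative hcomp
    rw [derivative_comp, derivative_C_mul, derivative_C_mul, derivative_X, mul_one] at h
    exact h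
  have hev : algebraMap K Y a * aeval (s₀ • θ) (derivative P₁) =
      algebraMap K Y (a ^ P.natDegree) * aeval θ (derivative P) := by
    have h := congrArg (aeval θ) hderiv
    rw [map_mul, map_mul, aeval_C, aeval_C, aeval_comp, map_mul, aeval_C, aeval_X] at h
    rw [← aeval_map_algebraMap K (s₀ • θ), ← derivative_map, hP₁, hsmul]
    exact h
  have hpow : a ^ P.natDegree = a * a ^ (P.natDegree - 1) := by
    rw [← pow_succ', Nat.sub_add_cancel (Nat.one_le_iff_ne_zero.mpr hn)]
  have hev' : aeval (s₀ • θ) (derivative P₁) =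
      algebraMap K Y (a ^ (P.natDegree - 1)) * aeval θ (derivative P) := by
    rw [hpow, map_mul, mul_assoc] at hev
    exact mul_left_cancel₀ (by rwa [Ne, map_eq_zero]) hev
  have hθ₁ : IntermediateField.adjoin K {s₀ • θ} = ⊤ := by
    rw [eq_top_iff, ← hθ, IntermediateField.adjoin_simple_le_iff]
    have h1 : θ = a⁻¹ • (s₀ • θ) := by
      rw [hsmul, Algebra.smul_def, ← mul_assoc, ← map_mul, inv_mul_cancel₀ ha, map_one, one_mul]
    have h2 : a⁻¹ • (s₀ • θ) ∈ IntermediateField.adjoin K {s₀ • θ} :=
      IntermediateField.smul_mem _ (IntermediateField.mem_adjoin_simple_self K (s₀ • θ))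
    rwa [← h1] at h2
  obtain ⟨sy, hsy, hyi⟩ := hy
  have hspow : ∀ k : ℕ, sy * s₀ ^ k ∈ S := by
    intro k
    induction k with
    | zero => rw [pow_zero, mul_one]; exact hsy
    | succ k ih => rw [pow_succ, ← mul_assoc]; exact hSmul _ ih _ hs₀
  refine isTSDAt_of_monogenic_integral S hSmul (s₀ • θ) hθ₁ P₁ hP₁m hroot
    ((a ^ (P.natDegree - 1))⁻¹ • y) ⟨sy * s₀ ^ (P.natDegree - 1), hspow _, ?_⟩ ?_
  · have e : (sy * s₀ ^ (P.natDegree - 1)) • ((a ^ (P.natDegree - 1))⁻¹ • y) = sy • y := by
      rw [mul_smul]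
      congr 1
      rw [← algebraMap_smul K (s₀ ^ (P.natDegree - 1)), map_pow, ← ha_def, smul_smul,
        mul_inv_cancel₀ (pow_ne_zero _ ha), one_smul]
    rw [e]
    exact hyi
  · rw [hev', Algebra.smul_def, mul_mul_mul_comm, ← map_mul,
      mul_inv_cancel₀ (pow_ne_zero _ ha), map_one, one_mul, hder]

end

end Fermat.Agent.S18.TSDMono
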