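/-
S18, top of the assembly: the statement follows from ONE theorem at the level of a
discrete valuation ring `W = A ∩ L` (`DvrCore`).

`DvrCore N ℓ A` says: given the Kummer witness `(s, Y1, Y2)` over `ℚ̄` (output of
`Witness.exists_witness`), there is a finite set `S₀ ⊆ ℚ̄` such that over every coefficient
field `ι : L → ℚ̄` containing `S₀` and all roots of unity of order prime to `ℓ`, for which
`A.comap ι` is a discrete valuation ring with algebraically closed residue field of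
characteristic `ℓ`, the descended data (all conclusions of `Descent.exists_descent_full`)
are contradictory.
-/
import Mathlib
import Fermat.Prelude.Def_ModularCurve_ReductionModL
import Fermat.Agent.S18.WitnessCore
import Fermat.Agent.S18.Descent
import Fermat.Agent.S18.BaseDVR

set_option autoImplicit false

namespace Fermat.Agent.S18

open ModularCurve AlgebraicCurve

namespace Top

open Witness WitnessCore Descent

local notation "Qb" => AlgebraicClosure ℚ

/-- **The DVR-level core of S18.** -/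
def DvrCore (N : ℕ) [NeZero N] (ℓ : ℕ) (A : ValuationSubring Qb) : Prop :=
  ∀ s : ℕ, s.Prime → s ≠ ℓ →
    ∀ (Y1 Y2 : LaurentSeries ↥A)
      (h1 : coeffMap A.subtype Y1 ∈ modularFunctionFieldBar N)
      (h2 : coeffMap A.subtype Y2 ∈ modularFunctionFieldBar N),
      coeffMap (IsLocalRing.residue ↥A) Y1 = coeffMap (IsLocalRing.residue ↥A) Y2 →
      coeffMap (IsLocalRing.residue ↥A) Y1 ≠ 0 →
      (∀ v : Place Qb (modularFunctionFieldBar N),
        (s : ℤ) ∣ v.ord ((⟨_, h1⟩ : modularFunctionFieldBar N) / ⟨_, h2⟩)) →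
      (¬ ∃ a : modularFunctionFieldBar N,
        a ^ s = (⟨_, h1⟩ : modularFunctionFieldBar N) / ⟨_, h2⟩) →
      ∃ S₀ : Finset Qb, ∀ (L : Type) [Field L] [Algebra ℚ L] (ι : L →+* Qb),
        (∀ a ∈ S₀, ∃ b : L, ι b = a) →
        (∀ x : Qb, (∃ n : ℕ, ¬ ℓ ∣ n ∧ x ^ n = 1) → ∃ b : L, ι b = x) →
        IsDiscreteValuationRing ↥(A.comap ι) →
        IsAlgClosed (IsLocalRing.ResidueField ↥(A.comap ι)) →
        CharP (IsLocalRing.ResidueField ↥(A.comap ι)) ℓ →
        ∀ (Z1 Z2 : LaurentSeries ↥(A.comap ι))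
          (g1 : coeffMap (A.comap ι).subtype Z1 ∈
            laurentBaseChange L (modularFunctionFieldFull N))
          (g2 : coeffMap (A.comap ι).subtype Z2 ∈
            laurentBaseChange L (modularFunctionFieldFull N)),
          coeffMap (inclComap ι A) Z1 = Y1 →
          coeffMap (inclComap ι A) Z2 = Y2 →
          S24.CoeffBC.bc ι (modularFunctionFieldFull N) ⟨_, g1⟩ =
            (⟨_, h1⟩ : modularFunctionFieldBar N) →
          S24.CoeffBC.bc ι (modularFunctionFieldFull N) ⟨_, g2⟩ =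
            (⟨_, h2⟩ : modularFunctionFieldBar N) →
          coeffMap (IsLocalRing.residue ↥(A.comap ι)) Z1 =
            coeffMap (IsLocalRing.residue ↥(A.comap ι)) Z2 →
          coeffMap (IsLocalRing.residue ↥(A.comap ι)) Z1 ≠ 0 →
          (⟨_, g1⟩ : S24.FF L N) ≠ 0 → (⟨_, g2⟩ : S24.FF L N) ≠ 0 →
          (∀ v : Place L (S24.FF L N),
            (s : ℤ) ∣ v.ord ((⟨_, g1⟩ : S24.FF L N) / ⟨_, g2⟩)) →
          (∀ O : ValuationSubring (S24.FF L N),
            (∀ a : L, algebraMap L (S24.FF L N) a ∈ O) → IsPrincipalIdealRing O →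
            ∃ g : S24.FF L N, g ≠ 0 ∧
              (⟨_, g1⟩ : S24.FF L N) / ⟨_, g2⟩ * g ^ s ∈ O ∧
              ((⟨_, g1⟩ : S24.FF L N) / ⟨_, g2⟩ * g ^ s)⁻¹ ∈ O) →
          (¬ ∃ a : S24.FF L N, a ^ s = (⟨_, g1⟩ : S24.FF L N) / ⟨_, g2⟩) →
          False

/-- **The geometric core from the DVR-level core.** -/
theorem kummerCore_of_dvrCore (N : ℕ) [NeZero N] {ℓ : ℕ} (hℓ : ℓ.Prime)
    (A : ValuationSubring Qb) (hA : A.LiesOverPrime ℓ) (hcore : DvrCore N ℓ A) :
    KummerCore A (IsLocalRing.residue A) N ℓ := by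
  classical
  intro s hs hsl Y1 Y2 m1 m2 hred hne hdiv
  by_contra hnp
  obtain ⟨S₀, hS₀⟩ := hcore s hs hsl Y1 Y2 m1.1 m2.1 hred hne hdiv hnp
  obtain ⟨S, hS⟩ := exists_descent_full N A s Y1 Y2 m1.1 m2.1 hred hne hdiv hnp
  obtain ⟨E, hSE, hroots, hdvr, hclosed, hchar, -⟩ :=
    BaseDVR.exists_dvr_subfield A hℓ hA (S ∪ S₀)
  have hLS : ∀ a ∈ S, ∃ b : ↥E, algebraMap ↥E Qb b = a := fun a ha =>
    ⟨⟨a, hSE a (Finset.mem_union_left _ ha)⟩, rfl⟩
  have hLS₀ : ∀ a ∈ S₀, ∃ b : ↥E, algebraMap ↥E Qb b = a := fun a ha =>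
    ⟨⟨a, hSE a (Finset.mem_union_right _ ha)⟩, rfl⟩
  have hLr : ∀ x : Qb, (∃ n : ℕ, ¬ ℓ ∣ n ∧ x ^ n = 1) → ∃ b : ↥E, algebraMap ↥E Qb b = x :=
    fun x hx => ⟨⟨x, hroots x hx⟩, rfl⟩
  obtain ⟨Z1, Z2, g1, g2, e1, e2, b1, b2, hr, hn, n1, n2, H1, H1', H2⟩ :=
    hS ↥E (algebraMap ↥E Qb) hLS
  exact hS₀ ↥E (algebraMap ↥E Qb) hLS₀ hLr hdvr hclosed hchar Z1 Z2 g1 g2 e1 e2 b1 b2 hr hn
    n1 n2 H1 H1' H2

/-- **S18 from the DVR-level core** (the frozen statement plus the hypothesis `hcore`). -/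
theorem result_of_dvrCore (N : ℕ) [NeZero N] {ℓ : ℕ} [Fact ℓ.Prime]
    (A : ValuationSubring (AlgebraicClosure ℚ)) (hA : A.LiesOverPrime ℓ)
    (hcore : DvrCore N ℓ A)
    (h : ModularCurve.ReductionInputsModL A N) (m : ℕ) (hm : ¬ ℓ ∣ m) (z : ModularCurve.JZero N)
    (hmz : m • z = 0) (hz : ModularCurve.reductionModL A N z = 0) :
    z = 0 :=
  result_of_core N A (kummerCore_of_dvrCore N (Fact.out) A hA hcore) h m hm z hmz hz

end Top

end Fermat.Agent.S18
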