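/-
S18 (helper2), link 8 of the v3 chain: `TwoChartsC.two_chart_hom` in the other two currencies.

* `two_chart_tau`  : ring-hom currency (`τ : W →+* Y`, charts through `eval₂RingHom τ j` and
  `eval₂RingHom τ j⁻¹`) — the shape of `Contracts.FiniteChartLift` / `Contracts.CuspChartLift`;
* `two_chart_core` : instance currency (`[Algebra W[X] Y]` through `X ↦ j`, the cusp chart any
  localisation `D2` of `W[X]` away from `1 - 1728 X` acting through `X ↦ 1/j`, `IsGaussInt`).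
-/
import Mathlib
import Fermat.Agent.S18.TwoChartsC
import Fermat.Agent.S18.CuspGauss

set_option autoImplicit false
set_option linter.unusedSectionVars false
set_option linter.style.haveILetI false

namespace Fermat.Agent.S18.TwoChartsGlue

open Polynomial
open Fermat.Agent.S18.Endgame (IsInt InC)

/-! ### Clearing the denominator of a localisation, ring-hom currency -/

section Away

variable {A A' Y : Type*} [CommRing A] [CommRing A'] [CommRing Y] [Algebra A A'] [Algebra A' Y]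

/-- Integral over `A[1/f]` implies: `f ^ k * x` is integral over `A` (acting through `φ`). -/
theorem exists_pow_mul_isIntegralElem_of_away (f : A) [IsLocalization.Away f A'] (φ : A →+* Y)
    (hφ : ∀ a, algebraMap A' Y (algebraMap A A' a) = φ a) {x : Y} (hx : IsIntegral A' x) :
    ∃ k : ℕ, φ.IsIntegralElem (φ f ^ k * x) := by
  letI : Algebra A Y := φ.toAlgebra
  haveI : IsScalarTower A A' Y := IsScalarTower.of_algebraMap_eq fun a => (hφ a).symm
  obtain ⟨k, hk⟩ := CuspGauss.exists_pow_smul_isIntegral_of_away (A' := A') f hx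
  refine ⟨k, ?_⟩
  have e : f ^ k • x = φ f ^ k * x := by
    rw [Algebra.smul_def, ← map_pow]; rfl
  rw [← e]; exact hk

/-- Gauss-integral over `A[1/f]` implies Gauss-integral over `A` (acting through `φ`),
when `π ∤ f`. -/
theorem exists_gauss_of_away (f : A) [IsLocalization.Away f A'] (φ : A →+* Y)
    (hφ : ∀ a, algebraMap A' Y (algebraMap A A' a) = φ a) (π : A) (hπ : Prime π) (hf : ¬ π ∣ f)
    {z : Y} (hz : IsGaussInt A' (algebraMap A A' π) z) :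
    ∃ s : A, ¬ π ∣ s ∧ φ.IsIntegralElem (φ s * z) := by
  letI : Algebra A Y := φ.toAlgebra
  haveI : IsScalarTower A A' Y := IsScalarTower.of_algebraMap_eq fun a => (hφ a).symm
  obtain ⟨s, hs, hsz⟩ := CuspGauss.isGaussInt_of_away (A' := A') f π hπ hf hz
  refine ⟨s, hs, ?_⟩
  have e : s • z = φ s * z := by
    rw [Algebra.smul_def]; rfl
  rw [← e]; exact hsz

end Away

/-! ### Ring-hom currency -/

section Tau

variable {W Y : Type*} [CommRing W] [IsDomain W] [IsNoetherianRing W]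
  [UniqueFactorizationMonoid W] [Field Y]

/-- **Two charts ⇒ a constant**, ring-hom currency (the conclusions of
`Contracts.FiniteChartLift` and `Contracts.CuspChartLift` are `h₁` and `h₂`). -/
theorem two_chart_tau (τ : W →+* Y) (π : W) (hπ : Prime π) (j : Y)
    (hj : ∀ p : W[X], p ≠ 0 → eval₂ τ j p ≠ 0)
    (hfin : ∃ (n : ℕ) (b : Fin n → Y), (∀ i, (eval₂RingHom τ j).IsIntegralElem (b i)) ∧
      ∀ y, (eval₂RingHom τ j).IsIntegralElem y →
        ∃ p : Fin n → W[X], y = ∑ i, eval₂RingHom τ j (p i) * b i)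
    (ε : Y)
    (hεε : ∃ d : Y, (∃ p : W[X], ¬ C π ∣ p ∧
      (eval₂RingHom τ j).IsIntegralElem (eval₂RingHom τ j p * d)) ∧ ε ^ 2 - ε = τ π * d)
    (h₁ : ∃ e : Y, (eval₂RingHom τ j).IsIntegralElem e ∧ ∃ d : Y, (∃ p : W[X], ¬ C π ∣ p ∧
      (eval₂RingHom τ j).IsIntegralElem (eval₂RingHom τ j p * d)) ∧ e - ε = τ π * d)
    (h₂ : ∃ e : Y, (∃ m : ℕ, (eval₂RingHom τ j⁻¹).IsIntegralElem ((1 - 1728 * j⁻¹) ^ m * e)) ∧
      ∃ d : Y, (∃ p : W[X], ¬ C π ∣ p ∧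
        (eval₂RingHom τ j).IsIntegralElem (eval₂RingHom τ j p * d)) ∧ e - ε = τ π * d) :
    ∃ c : Y, τ.IsIntegralElem c ∧ (eval₂RingHom τ j).IsIntegralElem c ∧
      (∃ m : ℕ, (eval₂RingHom τ j⁻¹).IsIntegralElem ((1 - 1728 * j⁻¹) ^ m * c)) ∧
      ∃ d : Y, (∃ p : W[X], ¬ C π ∣ p ∧
        (eval₂RingHom τ j).IsIntegralElem (eval₂RingHom τ j p * d)) ∧ c - ε = τ π * d := by
  letI : Algebra W Y := τ.toAlgebra
  have hev : ∀ x : Y, Endgame.ev W x = eval₂RingHom τ x := fun x => RingHom.ext fun p => rfl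
  have hI : ∀ x y : Y, IsInt W x y ↔ (eval₂RingHom τ x).IsIntegralElem y := fun x y => by
    show (Endgame.ev W x).IsIntegralElem y ↔ _
    rw [hev]
  have hC : ∀ z : Y, InC π j z ↔ ∃ p : W[X], ¬ C π ∣ p ∧
      (eval₂RingHom τ j).IsIntegralElem (eval₂RingHom τ j p * z) := fun z =>
    ⟨fun ⟨p, hp, h⟩ => ⟨p, hp, (hI _ _).mp h⟩, fun ⟨p, hp, h⟩ => ⟨p, hp, (hI _ _).mpr h⟩⟩
  have hjT : Transcendental W j := fun ⟨p, hp0, hp⟩ => hj p hp0 hp
  obtain ⟨n, b, hb, hspan⟩ := hfin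
  obtain ⟨e₁, he₁, d₁, hd₁, hed₁⟩ := h₁
  obtain ⟨e₂, ⟨m₂, he₂⟩, d₂, hd₂, hed₂⟩ := h₂
  obtain ⟨dε, hdε, hεd⟩ := hεε
  obtain ⟨c, hcW, hc1, ⟨m, hc2⟩, d, hd, hcd⟩ := TwoChartsC.two_chart_hom hπ hjT b
    (fun i => (hI _ _).mpr (hb i)) (fun y hy => hspan y ((hI _ _).mp hy)) ε e₁ e₂
    ⟨dε, (hC _).mpr hdε, hεd⟩ ((hI _ _).mpr he₁) ⟨m₂, (hI _ _).mpr he₂⟩
    ⟨d₁, (hC _).mpr hd₁, hed₁⟩ ⟨d₂, (hC _).mpr hd₂, hed₂⟩
  exact ⟨c, hcW, (hI _ _).mp hc1, ⟨m, (hI _ _).mp hc2⟩, d, (hC _).mp hd, hcd⟩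

/-- Gauss integrality with respect to the chart `W[1/j]` implies Gauss integrality with respect
to the chart `W[j]`, ring-hom currency. -/
theorem gauss_tau_of_inv (τ : W →+* Y) (π : W) (j : Y) (hj0 : j ≠ 0) {z : Y}
    (h : ∃ p : W[X], ¬ C π ∣ p ∧
      (eval₂RingHom τ j⁻¹).IsIntegralElem (eval₂RingHom τ j⁻¹ p * z)) :
    ∃ p : W[X], ¬ C π ∣ p ∧ (eval₂RingHom τ j).IsIntegralElem (eval₂RingHom τ j p * z) := by
  letI : Algebra W Y := τ.toAlgebra
  have hev : ∀ x : Y, Endgame.ev W x = eval₂RingHom τ x := fun x => RingHom.ext fun p => rfl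
  have hI : ∀ x y : Y, IsInt W x y ↔ (eval₂RingHom τ x).IsIntegralElem y := fun x y => by
    show (Endgame.ev W x).IsIntegralElem y ↔ _
    rw [hev]
  obtain ⟨p, hp, hpz⟩ := h
  have h' : InC π j⁻¹ z := ⟨p, hp, (hI _ _).mpr hpz⟩
  obtain ⟨q, hq, hqz⟩ := InC.of_inv hj0 h'
  exact ⟨q, hq, (hI _ _).mp hqz⟩

end Tau

/-! ### Instance currency -/

section Inst

/-- **Two charts ⇒ a constant**, instance currency (contract (8') of the v3 plan).

Chart 1 is `W[X]` acting on `Y` through `X ↦ j`; chart 2 is any localisation `D2` of `W[X]` away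
from `1 - 1728 X` acting on `Y` through `X ↦ 1/j`.  `hfin`: the integral closure of `W[X]` in `Y`
is a finite `W[X]`-module (generator form). -/
theorem two_chart_core {W L F Y D2 : Type*} [CommRing W] [IsDomain W] [IsDiscreteValuationRing W]
    [Field L] [Algebra W L] [IsFractionRing W L]
    [Field F] [Algebra L F] [Algebra W F] [IsScalarTower W L F] [Field Y] [Algebra F Y]
    [Algebra L Y] [IsScalarTower L F Y]
    (π : W) (hπ : Irreducible π) (j : F) (hj : Transcendental L j)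
    [Algebra W[X] Y] (h1 : ∀ p : W[X], algebraMap W[X] Y p = algebraMap F Y (aeval j p))
    (hfin : ∃ (n : ℕ) (b : Fin n → Y), (∀ i, IsIntegral W[X] (b i)) ∧
      ∀ y : Y, IsIntegral W[X] y → ∃ p : Fin n → W[X], y = ∑ i, p i • b i)
    [CommRing D2] [Algebra W[X] D2] [IsLocalization.Away (1 - C 1728 * X : W[X]) D2] [Algebra D2 Y]
    (h2 : ∀ p : W[X], algebraMap D2 Y (algebraMap W[X] D2 p) = algebraMap F Y (aeval j⁻¹ p))
    (ε : Y)
    (hεε : ∃ d : Y, IsGaussInt W[X] (C π) d ∧ ε ^ 2 - ε = (C π : W[X]) • d)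
    (e₁ : Y) (he₁ : IsIntegral W[X] e₁)
    (hd₁ : ∃ d : Y, IsGaussInt W[X] (C π) d ∧ e₁ - ε = (C π : W[X]) • d)
    (e₂ : Y) (he₂ : IsIntegral D2 e₂)
    (hd₂ : ∃ d : Y, IsGaussInt D2 (algebraMap W[X] D2 (C π)) d ∧
      e₂ - ε = (algebraMap W[X] D2 (C π)) • d) :
    ∃ c : Y, IsAlgebraic L c ∧ IsIntegral W[X] c ∧
      ∃ d : Y, IsGaussInt W[X] (C π) d ∧ c - ε = (C π : W[X]) • d := by
  classical
  have hπ' : Prime π := hπ.prime
  have hCπ : Prime (C π : W[X]) := prime_C_iff.mpr hπ'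
  let τ : W →+* Y := (algebraMap F Y).comp (algebraMap W F)
  have hτ : ∀ a : W, τ a = algebraMap F Y (algebraMap W F a) := fun a => rfl
  obtain ⟨jY, hjY⟩ : ∃ jY : Y, jY = algebraMap F Y j := ⟨_, rfl⟩
  have hjinv : jY⁻¹ = algebraMap F Y j⁻¹ := by rw [hjY, map_inv₀]
  have hmap : algebraMap W[X] Y = eval₂RingHom τ jY := by
    apply Polynomial.ringHom_ext
    · intro a
      rw [h1, aeval_C, coe_eval₂RingHom, eval₂_C, hτ]
    · rw [h1, aeval_X, coe_eval₂RingHom, eval₂_X, hjY]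
  have hmap2 : ∀ p : W[X],
      algebraMap D2 Y (algebraMap W[X] D2 p) = eval₂RingHom τ jY⁻¹ p := by
    intro p
    rw [h2, hjinv, coe_eval₂RingHom, aeval_def, hom_eval₂]
  have hjne : ∀ p : W[X], p ≠ 0 → eval₂ τ jY p ≠ 0 := by
    intro p hp0 h0
    have e : eval₂ τ jY p = algebraMap F Y (aeval j (p.map (algebraMap W L))) := by
      rw [aeval_def, eval₂_map, hom_eval₂, ← IsScalarTower.algebraMap_eq W L F, hjY]
    rw [e] at h0
    have h0' : aeval j (p.map (algebraMap W L)) = 0 :=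
      (map_eq_zero (algebraMap F Y)).mp h0
    exact hj ⟨p.map (algebraMap W L),
      (Polynomial.map_ne_zero_iff (IsFractionRing.injective W L)).mpr hp0, h0'⟩
  have hjY0 : jY ≠ 0 := by
    intro h
    refine hjne X X_ne_zero ?_
    rw [eval₂_X, h]
  have hI1 : ∀ y : Y, IsIntegral W[X] y ↔ (eval₂RingHom τ jY).IsIntegralElem y := by
    intro y
    rw [← hmap]
    rfl
  have hsmul : ∀ (q : W[X]) (z : Y), q • z = eval₂RingHom τ jY q * z := by
    intro q z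
    rw [Algebra.smul_def, hmap]
  have hG1 : ∀ z : Y, IsGaussInt W[X] (C π) z ↔ ∃ p : W[X], ¬ C π ∣ p ∧
      (eval₂RingHom τ jY).IsIntegralElem (eval₂RingHom τ jY p * z) := by
    intro z
    constructor
    · rintro ⟨q, hq, h⟩
      exact ⟨q, hq, by rw [← hsmul]; exact (hI1 _).mp h⟩
    · rintro ⟨q, hq, h⟩
      exact ⟨q, hq, by rw [hsmul]; exact (hI1 _).mpr h⟩
  have hπsm : ∀ z : Y, (C π : W[X]) • z = τ π * z := by
    intro z
    rw [hsmul, coe_eval₂RingHom, eval₂_C]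
  have hπsm2 : ∀ z : Y, (algebraMap W[X] D2 (C π)) • z = τ π * z := by
    intro z
    rw [Algebra.smul_def, hmap2, coe_eval₂RingHom, eval₂_C]
  have hfC : ¬ (C π : W[X]) ∣ (1 - C 1728 * X : W[X]) := by
    intro h
    have h0 := (C_dvd_iff_dvd_coeff _ _).mp h 0
    rw [coeff_sub, coeff_one_zero, mul_coeff_zero, coeff_X_zero, mul_zero, sub_zero] at h0
    exact hπ'.not_dvd_one h0
  have hg : eval₂RingHom τ jY⁻¹ (1 - C 1728 * X : W[X]) = 1 - 1728 * jY⁻¹ := by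
    rw [map_sub, map_one, map_mul, coe_eval₂RingHom, eval₂_C, eval₂_X, map_ofNat]
  -- chart 2 data in ring-hom currency
  obtain ⟨m₂, hm₂⟩ := exists_pow_mul_isIntegralElem_of_away (A' := D2) (1 - C 1728 * X : W[X])
    (eval₂RingHom τ jY⁻¹) hmap2 he₂
  rw [hg] at hm₂
  obtain ⟨d₂, hd₂G, hd₂e⟩ := hd₂
  have hd₂G' := gauss_tau_of_inv τ π jY hjY0
    (exists_gauss_of_away (A' := D2) (1 - C 1728 * X : W[X]) (eval₂RingHom τ jY⁻¹) hmap2
      (C π) hCπ hfC hd₂G)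
  obtain ⟨d₁, hd₁G, hd₁e⟩ := hd₁
  obtain ⟨dε, hdεG, hdεe⟩ := hεε
  obtain ⟨n, b, hb, hspan⟩ := hfin
  obtain ⟨c, hcW, hc1, -, d, hd, hcd⟩ := two_chart_tau τ π hπ' jY hjne
    ⟨n, b, fun i => (hI1 _).mp (hb i), fun y hy => by
      obtain ⟨p, hp⟩ := hspan y ((hI1 _).mpr hy)
      exact ⟨p, by rw [hp]; exact Finset.sum_congr rfl fun i _ => hsmul _ _⟩⟩
    ε ⟨dε, (hG1 _).mp hdεG, by rw [← hπsm]; exact hdεe⟩
    ⟨e₁, (hI1 _).mp he₁, d₁, (hG1 _).mp hd₁G, by rw [← hπsm]; exact hd₁e⟩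
    ⟨e₂, ⟨m₂, hm₂⟩, d₂, hd₂G', by rw [← hπsm2]; exact hd₂e⟩
  refine ⟨c, ?_, (hI1 _).mpr hc1, d, (hG1 _).mpr hd, by rw [hπsm]; exact hcd⟩
  obtain ⟨P, hP, hPc⟩ := hcW
  refine ⟨P.map (algebraMap W L), (hP.map _).ne_zero, ?_⟩
  rw [aeval_def, eval₂_map, IsScalarTower.algebraMap_eq L F Y, RingHom.comp_assoc,
    ← IsScalarTower.algebraMap_eq W L F]
  exact hPc

end Inst

end Fermat.Agent.S18.TwoChartsGlue
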