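import Mathlib

/-!
# Unramified simple extensions of a discretely valued field (valuation-subring form)

`V` is a valuation subring of a field `E`, `M → E` a field extension, `π : M` a "uniformiser on
`M`": every nonzero element of `M` has `V`-valuation an integral power of the valuation of `π`.
If `α : E` is a root of a monic polynomial `P` with coefficients in `O = V ∩ M` that is separable
over `O`, then `π` is still a uniformiser on `M(α)`
(`valuation_eq_zpow_of_mem_adjoin_simple`).  No completeness / Hensel is used.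
-/

set_option autoImplicit false

namespace Fermat.Agent.S18.Unram

open Polynomial

section Aux

variable {Γ : Type*} [LinearOrderedCommGroupWithZero Γ]

theorem val_eq_one_of_mul_eq_one_of_le {a b : Γ} (ha : a ≤ 1) (hb : b ≤ 1) (hab : a * b = 1) :
    a = 1 := by
  rcases ha.lt_or_eq with h | h
  · exfalso
    have hb0 : b ≠ 0 := by
      rintro rfl
      simp at hab
    have : a * b < 1 * b := by
      exact mul_lt_mul_of_pos_right h (zero_lt_iff.mpr hb0)
    rw [hab, one_mul] at this
    exact absurd hb (not_le.mpr this)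
  · exact h

theorem val_zpow_le_one_of_lt_one_of_nonneg {a : Γ} (ha : a < 1) {n : ℤ} (hn : 0 ≤ n) :
    a ^ n ≤ 1 := by
  lift n to ℕ using hn
  rw [zpow_natCast]
  exact pow_le_one₀ zero_le ha.le

theorem val_zpow_pos_of_lt_one_of_lt_one {a : Γ} (ha0 : a ≠ 0) (ha : a < 1) {n : ℤ}
    (hn : a ^ n < 1) : 0 < n := by
  by_contra hcon
  push Not at hcon
  have h1 : a ^ (-n) ≤ 1 := val_zpow_le_one_of_lt_one_of_nonneg ha (by omega)
  have h2 : a ^ n * a ^ (-n) = 1 := by
    rw [← zpow_add₀ ha0]
    simp
  have h3 : a ^ n = 1 := val_eq_one_of_mul_eq_one_of_le hn.le h1 h2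
  exact absurd h3 hn.ne

end Aux

variable {M E : Type*} [Field M] [Field E] [Algebra M E] (V : ValuationSubring E)


noncomputable def resIncl : (V.comap (algebraMap M E)) →+* E :=
  (algebraMap M E).comp (V.comap (algebraMap M E)).subtype

theorem resIncl_mem (o : V.comap (algebraMap M E)) : resIncl V o ∈ V :=
  ValuationSubring.mem_comap.mp o.2

theorem valuation_resIncl_le (o : V.comap (algebraMap M E)) : V.valuation (resIncl V o) ≤ 1 :=
  (V.valuation_le_one_iff _).mpr (resIncl_mem V o)

theorem root_mem {P : (V.comap (algebraMap M E))[X]} (hP : P.Monic) {α : E}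
    (hα : P.eval₂ (resIncl V) α = 0) : α ∈ V := by
  let f : (V.comap (algebraMap M E)) →+* V := (resIncl V).codRestrict V.toSubring (resIncl_mem V)
  have hint : IsIntegral V α := by
    refine ⟨P.map f, hP.map f, ?_⟩
    rw [Polynomial.eval₂_map]
    exact hα
  obtain ⟨y, hy⟩ := IsIntegrallyClosed.isIntegral_iff.mp hint
  rw [← hy]
  exact y.2

theorem resEval_mem {α : E} (hα : α ∈ V) (g : (V.comap (algebraMap M E))[X]) :
    g.eval₂ (resIncl V) α ∈ V := by
  rw [Polynomial.eval₂_eq_sum_range]
  exact V.toSubring.sum_mem fun i _ => V.mul_mem _ _ (resIncl_mem V _) (V.toSubring.pow_mem hα i)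

theorem mem_maximalIdeal_iff (o : V.comap (algebraMap M E)) :
    o ∈ IsLocalRing.maximalIdeal (V.comap (algebraMap M E)) ↔ V.valuation (resIncl V o) < 1 := by
  rw [IsLocalRing.mem_maximalIdeal, mem_nonunits_iff]
  constructor
  · intro hnu
    by_contra hcon
    have h1 : V.valuation (resIncl V o) = 1 :=
      le_antisymm (valuation_resIncl_le V o) (not_lt.mp hcon)
    apply hnu
    have ho0 : (o : M) ≠ 0 := by
      intro h0
      have : resIncl V o = 0 := by
        show algebraMap M E (o : M) = 0
        rw [h0, map_zero]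
      rw [this, map_zero] at h1
      exact zero_ne_one h1
    have hinv : (o : M)⁻¹ ∈ V.comap (algebraMap M E) := by
      rw [ValuationSubring.mem_comap, map_inv₀, ← V.valuation_le_one_iff, map_inv₀]
      have : V.valuation (algebraMap M E (o : M)) = 1 := h1
      rw [this, inv_one]
    refine isUnit_iff_exists_inv.mpr ⟨⟨(o : M)⁻¹, hinv⟩, ?_⟩
    apply Subtype.ext
    show (o : M) * (o : M)⁻¹ = 1
    exact mul_inv_cancel₀ ho0
  · intro hlt hu
    obtain ⟨u, hu⟩ := isUnit_iff_exists_inv.mp hu
    have h2 : V.valuation (resIncl V o) * V.valuation (resIncl V u) = 1 := by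
      rw [← map_mul, ← map_mul, hu, map_one, map_one]
    have := val_eq_one_of_mul_eq_one_of_le (valuation_resIncl_le V o) (valuation_resIncl_le V u) h2
    exact absurd this hlt.ne

section Main

variable (π : M) (hπ0 : π ≠ 0) (hπ : V.valuation (algebraMap M E π) < 1)
  (hD : ∀ b : M, b ≠ 0 → ∃ n : ℤ, V.valuation (algebraMap M E b) = V.valuation (algebraMap M E π) ^ n)

/-- `π` as an element of `V ∩ M`. -/
def piO (hπ : V.valuation (algebraMap M E π) < 1) : V.comap (algebraMap M E) :=
  ⟨π, ValuationSubring.mem_comap.mpr ((V.valuation_le_one_iff _).mp hπ.le)⟩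

include hπ0 hD in
theorem piO_dvd_of_valuation_lt_one (o : V.comap (algebraMap M E))
    (ho : V.valuation (resIncl V o) < 1) : piO V π hπ ∣ o := by
  have hv0 : V.valuation (algebraMap M E π) ≠ 0 := by
    rw [ne_eq, map_eq_zero, map_eq_zero]
    exact hπ0
  rcases eq_or_ne (o : M) 0 with h0 | h0
  · have : o = 0 := Subtype.ext h0
    rw [this]
    exact dvd_zero _
  · obtain ⟨n, hn⟩ := hD (o : M) h0
    have ho' : V.valuation (algebraMap M E (o : M)) < 1 := ho
    have hnpos : 0 < n := val_zpow_pos_of_lt_one_of_lt_one hv0 hπ (hn ▸ ho')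
    have hmem : (o : M) / π ∈ V.comap (algebraMap M E) := by
      rw [ValuationSubring.mem_comap, ← V.valuation_le_one_iff, map_div₀, map_div₀, hn,
        div_eq_mul_inv, ← zpow_sub_one₀ hv0]
      exact val_zpow_le_one_of_lt_one_of_nonneg hπ (by omega)
    refine ⟨⟨(o : M) / π, hmem⟩, ?_⟩
    apply Subtype.ext
    show (o : M) = π * ((o : M) / π)
    field_simp

include hπ0 hD in
theorem C_piO_dvd_of_map_residue_eq_zero (f : (V.comap (algebraMap M E))[X])
    (hf : f.map (IsLocalRing.residue (V.comap (algebraMap M E))) = 0) :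
    C (piO V π hπ) ∣ f := by
  rw [Polynomial.C_dvd_iff_dvd_coeff]
  intro i
  apply piO_dvd_of_valuation_lt_one V π hπ0 hπ hD
  rw [← mem_maximalIdeal_iff, ← IsLocalRing.residue_eq_zero_iff, ← Polynomial.coeff_map, hf,
    Polynomial.coeff_zero]

include hπ0 hπ hD in
theorem exists_unit_mul_eq_pi_mul {P : (V.comap (algebraMap M E))[X]} (hsep : P.Separable)
    {α : E} (hαV : α ∈ V) (hα : P.eval₂ (resIncl V) α = 0)
    (g : (V.comap (algebraMap M E))[X]) (hg : V.valuation (g.eval₂ (resIncl V) α) < 1) :
    ∃ s g' : (V.comap (algebraMap M E))[X], V.valuation (s.eval₂ (resIncl V) α) = 1 ∧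
      s.eval₂ (resIncl V) α * g.eval₂ (resIncl V) α =
        algebraMap M E π * g'.eval₂ (resIncl V) α := by
  classical
  let red : (V.comap (algebraMap M E))[X] →+*
      (IsLocalRing.ResidueField (V.comap (algebraMap M E)))[X] :=
    Polynomial.mapRingHom (IsLocalRing.residue (V.comap (algebraMap M E)))
  let ev : (V.comap (algebraMap M E))[X] →+* E := Polynomial.eval₂RingHom (resIncl V) α
  have hred_surj : Function.Surjective red :=
    Polynomial.map_surjective _ IsLocalRing.residue_surjective
  have hev_le : ∀ f, V.valuation (ev f) ≤ 1 := fun f =>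
    (V.valuation_le_one_iff _).mpr (resEval_mem V hαV f)
  have hker : ∀ f, red f = 0 → ∃ f', ev f = algebraMap M E π * ev f' := by
    intro f hf
    obtain ⟨f', rfl⟩ := C_piO_dvd_of_map_residue_eq_zero V π hπ0 hπ hD f hf
    refine ⟨f', ?_⟩
    rw [map_mul]
    congr 1
    show Polynomial.eval₂ (resIncl V) α (C (piO V π hπ)) = _
    rw [Polynomial.eval₂_C]
    rfl
  have hred_der : ∀ f, red (derivative f) = derivative (red f) := fun f =>
    (Polynomial.derivative_map f _).symm
  have hevP : ev P = 0 := hα
  have hg' : V.valuation (ev g) < 1 := hg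
  obtain ⟨Db, sb, tb, xb, yb, hsb, htb, hbez⟩ : ∃ Db sb tb xb yb :
      (IsLocalRing.ResidueField (V.comap (algebraMap M E)))[X],
      red P = Db * sb ∧ red g = Db * tb ∧ Db = red g * xb + red P * yb := by
    obtain ⟨sb, hsb⟩ := EuclideanDomain.gcd_dvd_right (red g) (red P)
    obtain ⟨tb, htb⟩ := EuclideanDomain.gcd_dvd_left (red g) (red P)
    exact ⟨_, sb, tb, _, _, hsb, htb, EuclideanDomain.gcd_eq_gcd_ab (red g) (red P)⟩
  obtain ⟨D, hD'⟩ := hred_surj Db
  obtain ⟨s, hs⟩ := hred_surj sb
  obtain ⟨t, ht⟩ := hred_surj tb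
  obtain ⟨x, hx⟩ := hred_surj xb
  obtain ⟨y, hy⟩ := hred_surj yb
  -- `D(α)` is a non-unit
  obtain ⟨h1, hh1⟩ := hker (D - (g * x + P * y)) (by
    rw [map_sub, map_add, map_mul, map_mul, hD', hx, hy, ← hbez, sub_self])
  have hevD : V.valuation (ev D) < 1 := by
    have h : ev D = ev g * ev x + algebraMap M E π * ev h1 := by
      rw [map_sub, map_add, map_mul, map_mul, hevP, zero_mul, add_zero] at hh1
      linear_combination hh1
    rw [h]
    refine lt_of_le_of_lt (V.valuation.map_add _ _) (max_lt ?_ ?_)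
    · rw [map_mul]
      exact lt_of_le_of_lt (mul_le_of_le_one_right' (hev_le x)) hg'
    · rw [map_mul]
      exact lt_of_le_of_lt (mul_le_of_le_one_right' (hev_le h1)) hπ
  -- derivative of `P ≡ D s`
  obtain ⟨h2, hh2⟩ := hker (derivative P - (derivative D * s + D * derivative s)) (by
    rw [map_sub, map_add, map_mul, map_mul, hred_der, hred_der, hred_der, hD', hs, hsb,
      Polynomial.derivative_mul, sub_self])
  obtain ⟨a, b, hab⟩ := hsep
  have hevP' : V.valuation (ev (derivative P)) = 1 := by
    have h1' : ev b * ev (derivative P) = 1 := by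
      have := congrArg ev hab
      rw [map_add, map_mul, map_mul, hevP, mul_zero, zero_add, map_one] at this
      exact this
    have h2' : V.valuation (ev (derivative P)) * V.valuation (ev b) = 1 := by
      rw [← map_mul, mul_comm, h1', map_one]
    exact val_eq_one_of_mul_eq_one_of_le (hev_le _) (hev_le _) h2'
  have hevs : V.valuation (ev s) = 1 := by
    by_contra hne
    have hlt : V.valuation (ev s) < 1 := lt_of_le_of_ne (hev_le s) hne
    have h : ev (derivative P) = ev (derivative D) * ev s + ev D * ev (derivative s) +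
        algebraMap M E π * ev h2 := by
      rw [map_sub, map_add, map_mul, map_mul] at hh2
      linear_combination hh2
    have hlt' : V.valuation (ev (derivative P)) < 1 := by
      rw [h]
      refine lt_of_le_of_lt (V.valuation.map_add _ _)
        (max_lt (lt_of_le_of_lt (V.valuation.map_add _ _) (max_lt ?_ ?_)) ?_)
      · rw [map_mul]
        exact lt_of_le_of_lt (mul_le_of_le_one_left' (hev_le _)) hlt
      · rw [map_mul]
        exact lt_of_le_of_lt (mul_le_of_le_one_right' (hev_le _)) hevD
      · rw [map_mul]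
        exact lt_of_le_of_lt (mul_le_of_le_one_right' (hev_le _)) hπ
    exact absurd hevP' hlt'.ne
  obtain ⟨g', hg''⟩ := hker (s * g - P * t) (by
    rw [map_sub, map_mul, map_mul, hs, ht, htb, hsb]
    ring)
  refine ⟨s, g', hevs, ?_⟩
  rw [map_sub, map_mul, map_mul, hevP, zero_mul, sub_zero] at hg''
  exact hg''

include hπ0 hπ hD in
theorem valuation_eval₂_eq_pow {P : (V.comap (algebraMap M E))[X]} (hsep : P.Separable)
    {α : E} (hαV : α ∈ V) (hα : P.eval₂ (resIncl V) α = 0) :
    ∀ (m : ℕ) (g : (V.comap (algebraMap M E))[X]) (y : E), V.valuation y ≤ 1 →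
      g.eval₂ (resIncl V) α * y = algebraMap M E π ^ m →
      ∃ n : ℕ, V.valuation (g.eval₂ (resIncl V) α) = V.valuation (algebraMap M E π) ^ n := by
  intro m
  induction m with
  | zero =>
    intro g y hy h
    refine ⟨0, ?_⟩
    rw [pow_zero] at h ⊢
    have h2 : V.valuation (g.eval₂ (resIncl V) α) * V.valuation y = 1 := by
      rw [← map_mul, h, map_one]
    exact val_eq_one_of_mul_eq_one_of_le
      ((V.valuation_le_one_iff _).mpr (resEval_mem V hαV g)) hy h2
  | succ m ih =>
    intro g y hy h
    rcases (((V.valuation_le_one_iff _).mpr (resEval_mem V hαV g)).lt_or_eq) with hlt | heq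
    · obtain ⟨s, g', hs, hsg⟩ := exists_unit_mul_eq_pi_mul V π hπ0 hπ hD hsep hαV hα g hlt
      have hs0 : s.eval₂ (resIncl V) α ≠ 0 := by
        intro h0
        rw [h0, map_zero] at hs
        exact zero_ne_one hs
      have hϖ0 : algebraMap M E π ≠ 0 := by rwa [ne_eq, map_eq_zero]
      obtain ⟨n, hn⟩ := ih g' (y * (s.eval₂ (resIncl V) α)⁻¹)
        (by rw [map_mul, map_inv₀, hs, inv_one, mul_one]; exact hy)
        (by
          have : algebraMap M E π * (g'.eval₂ (resIncl V) α * (y * (s.eval₂ (resIncl V) α)⁻¹)) =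
              algebraMap M E π * algebraMap M E π ^ m := by
            rw [← mul_assoc, ← hsg, ← pow_succ', ← h]
            field_simp
          exact mul_left_cancel₀ hϖ0 this)
      refine ⟨n + 1, ?_⟩
      have : V.valuation (s.eval₂ (resIncl V) α) * V.valuation (g.eval₂ (resIncl V) α) =
          V.valuation (algebraMap M E π) * V.valuation (g'.eval₂ (resIncl V) α) := by
        rw [← map_mul, hsg, map_mul]
      rw [hs, one_mul, hn] at this
      rw [this, pow_succ']
    · exact ⟨0, by rw [heq, pow_zero]⟩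

include hπ0 hπ hD in
theorem exists_integral_scaling (G : M[X]) :
    ∃ (r : ℕ) (g : (V.comap (algebraMap M E))[X]),
      g.map (V.comap (algebraMap M E)).subtype = C (π ^ r) * G := by
  have hv0 : V.valuation (algebraMap M E π) ≠ 0 := by
    rw [ne_eq, map_eq_zero, map_eq_zero]
    exact hπ0
  have hpi : (C (piO V π hπ)).map (V.comap (algebraMap M E)).subtype = C π := by
    rw [Polynomial.map_C]
    rfl
  induction G using Polynomial.induction_on' with
  | add p q hp hq =>
    obtain ⟨r1, g1, h1⟩ := hp
    obtain ⟨r2, g2, h2⟩ := hq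
    refine ⟨r1 + r2, C (piO V π hπ) ^ r2 * g1 + C (piO V π hπ) ^ r1 * g2, ?_⟩
    rw [Polynomial.map_add, Polynomial.map_mul, Polynomial.map_mul, Polynomial.map_pow,
      Polynomial.map_pow, hpi, h1, h2, pow_add, map_mul, map_pow, map_pow]
    ring
  | monomial n c =>
    rcases eq_or_ne c 0 with rfl | hc
    · exact ⟨0, 0, by simp⟩
    · obtain ⟨k, hk⟩ := hD c hc
      have hmem : π ^ (-k).toNat * c ∈ V.comap (algebraMap M E) := by
        rw [ValuationSubring.mem_comap, ← V.valuation_le_one_iff, map_mul, map_mul, hk, map_pow,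
          map_pow, ← zpow_natCast, ← zpow_add₀ hv0]
        exact val_zpow_le_one_of_lt_one_of_nonneg hπ (by omega)
      refine ⟨(-k).toNat, monomial n ⟨π ^ (-k).toNat * c, hmem⟩, ?_⟩
      rw [Polynomial.map_monomial, Polynomial.C_mul_monomial]
      rfl

include hπ0 hπ hD in
/-- **Unramified simple extension.** If `π` is a uniformiser for `V` on `M` and `α` is a root of
a monic polynomial over `V ∩ M` that is separable over `V ∩ M`, then `π` is a uniformiser for
`V` on `M(α)`. -/
theorem valuation_eq_zpow_of_mem_adjoin_simple (P : (V.comap (algebraMap M E))[X])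
    (hP : P.Monic) (hsep : P.Separable) (α : E) (hα : P.eval₂ (resIncl V) α = 0) :
    ∀ x ∈ IntermediateField.adjoin M {α}, x ≠ 0 →
      ∃ n : ℤ, V.valuation x = V.valuation (algebraMap M E π) ^ n := by
  intro x hx hx0
  have hv0 : V.valuation (algebraMap M E π) ≠ 0 := by
    rw [ne_eq, map_eq_zero, map_eq_zero]
    exact hπ0
  have hαV := root_mem V hP hα
  have halg : IsAlgebraic M α := by
    refine ⟨P.map (V.comap (algebraMap M E)).subtype, (hP.map _).ne_zero, ?_⟩
    rw [Polynomial.aeval_def, Polynomial.eval₂_map]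
    exact hα
  have hsub : (IntermediateField.adjoin M {α}).toSubalgebra = Algebra.adjoin M {α} :=
    IntermediateField.adjoin_simple_toSubalgebra_of_isAlgebraic halg
  have key : ∀ z ∈ IntermediateField.adjoin M {α}, ∃ G : M[X], aeval α G = z := by
    intro z hz
    have : z ∈ (IntermediateField.adjoin M {α}).toSubalgebra := hz
    rw [hsub, Algebra.adjoin_singleton_eq_range_aeval] at this
    exact this
  have hev : ∀ (G : M[X]) (r : ℕ) (g : (V.comap (algebraMap M E))[X]),
      g.map (V.comap (algebraMap M E)).subtype = C (π ^ r) * G →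
      g.eval₂ (resIncl V) α = algebraMap M E π ^ r * aeval α G := by
    intro G r g hg
    have : g.eval₂ (resIncl V) α = aeval α (g.map (V.comap (algebraMap M E)).subtype) := by
      rw [Polynomial.aeval_def, Polynomial.eval₂_map]
      rfl
    rw [this, hg, map_mul, Polynomial.aeval_C, map_pow]
  obtain ⟨G, hG⟩ := key x hx
  obtain ⟨H, hH⟩ := key x⁻¹ (inv_mem hx)
  obtain ⟨r, g, hg⟩ := exists_integral_scaling V π hπ0 hπ hD G
  obtain ⟨t, h, hh⟩ := exists_integral_scaling V π hπ0 hπ hD H
  have hgev := hev G r g hg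
  have hhev := hev H t h hh
  rw [hG] at hgev
  rw [hH] at hhev
  have hprod : g.eval₂ (resIncl V) α * h.eval₂ (resIncl V) α = algebraMap M E π ^ (r + t) := by
    rw [hgev, hhev, pow_add]
    field_simp
  obtain ⟨n, hn⟩ := valuation_eval₂_eq_pow V π hπ0 hπ hD hsep hαV hα (r + t) g _
    ((V.valuation_le_one_iff _).mpr (resEval_mem V hαV h)) hprod
  refine ⟨(n : ℤ) - r, ?_⟩
  rw [hgev, map_mul, map_pow] at hn
  rw [zpow_sub₀ hv0, zpow_natCast, zpow_natCast, ← hn]
  field_simp

end Main

end Fermat.Agent.S18.Unram
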