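import Fermat.Agent.S18.ChartInf
import Fermat.Agent.S18.VerticalChart

set_option autoImplicit false

/-!
# S18: the vertical prime of a chart at infinity `R ⊇ W[1/j]`

`VerticalChart.hU_vertical_chart'` for a chart ring `R` receiving `W[X]` through `X ↦ t = 1/j`
(e.g. the cover of the cusp chart, `X ↦ τ^N`), fed with the monogenic data `(θ, P)` of the
finite chart: `P ∈ W[X][T]` monic with `P(j, θ) = 0` and separable reduction over `k(j)`.
Inside, `(θ, P)` is replaced by `(t^m θ, P_∞)` (`ChartInf`).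
-/

namespace Fermat.Agent.S18.VerticalInf

open Polynomial

variable {W k R K Y B : Type*} [CommRing W] [Field k] [CommRing R] [IsDomain R]
  [IsIntegrallyClosed R] [Field K] [Algebra R K] [IsFractionRing R K] [Field Y] [Algebra K Y]
  [Algebra R Y] [IsScalarTower R K Y] [FiniteDimensional K Y] [Algebra.IsSeparable K Y]
  [CommRing B] [Algebra R B] [Algebra B Y] [IsScalarTower R B Y] [IsIntegralClosure B R Y]

/-- **Vertical prime of a chart at infinity.**  `ι' : W[X] →+* R` is the structure map of the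
chart (`X ↦ t`), `φ : W[X] →+* Y` the evaluation at `j` in `Y` (`j * t = 1`), agreeing with `ι'`
on constants.  If `θ` generates `Y` over `K = Frac R`, `P ∈ W[X][T]` is monic with
`P(j, θ) = 0` and the reduction of `P` is separable over `κ₀ = k(X)`, then `hU` of purity holds
at `(π)`. -/
theorem hU_vertical_chart_inf (κ₀ : Type*) [Field κ₀] [Algebra k[X] κ₀] [IsFractionRing k[X] κ₀]
    (res : W →+* k) (hres : Function.Surjective res) (π : R)
    (hπ : Prime π) (ι' : W[X] →+* R)
    (hι' : ∀ f : W[X], π ∣ ι' f ↔ f.map res = 0)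
    (φ : W[X] →+* Y) (hC : ∀ c : W, algebraMap R Y (ι' (C c)) = φ (C c))
    (hX : φ X * algebraMap R Y (ι' X) = 1)
    (θ : Y) (hθ : Algebra.adjoin K {θ} = ⊤)
    (P : (W[X])[X]) (hP : P.Monic) (hPθ : (P.map φ).eval θ = 0)
    (hsep : ((P.map (mapRingHom res)).map (algebraMap k[X] κ₀)).Separable)
    (x : B)
    (hx : ∀ y : B, ∃ a ∈ Ideal.span {π},
      Algebra.trace K Y (algebraMap B Y (x * y)) = algebraMap R K a) :
    ∃ s : R, s ∉ Ideal.span {π} ∧ s • x ∈ Ideal.span {π} • (⊤ : Submodule R B) := by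
  obtain ⟨m, hm⟩ := ChartInf.exists_bound hP
  have hne : algebraMap R K (ι' X) ≠ 0 := by
    intro h0
    have h1 : algebraMap R Y (ι' X) = 0 := by
      rw [IsScalarTower.algebraMap_apply R K Y, h0, map_zero]
    rw [h1, mul_zero] at hX
    exact zero_ne_one hX
  exact VerticalChart.hU_vertical_chart' (K := K) κ₀ res hres π hπ ι' hι'
    (algebraMap R Y (ι' X) ^ m * θ) (ChartInf.adjoin_pow_mul_eq_top (ι' X) hne m θ hθ)
    (ChartInf.reflectPoly m P) (ChartInf.reflectPoly_monic m hP)
    (ChartInf.aeval_reflectPoly ι' φ hC hX m P hm θ hPθ)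
    (ChartInf.separable_reflectPoly res m P hm hsep) x hx

end Fermat.Agent.S18.VerticalInf
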